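import Mathlib

set_option autoImplicit false

/-!
# Cluster G (S36): the vertex and node types of the modular graph `K_{|Vert|, s}`  (helper80)

`Mid` indexes the middle (Igusa) components (`|Mid| = 2` for `q` odd, `1` for `q = 2`), `SS` the
supersingular points.

* `Vrt Mid`      : the vertical vertices `∞`, `0`, `mid m`;
* `Vtx Mid SS`   : all vertices, `vert v` or `hor P`;
* `Nod Mid SS`   : the nodes `(P, v)`; `nodSrc (P, v) = vert v`, `nodTgt (P, v) = hor P`;
* `FkOf Fk0 FkM FkP` : the residue fields `Fk0`, `Fk0`, `FkM m`, `FkP P`, with their `Field` and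
  `Algebra k` instances.

Definitions only (Mathlib).
-/

namespace Fermat.Agent.S36G

/-- the vertical vertices. -/
inductive Vrt (Mid : Type) : Type
  | oo : Vrt Mid
  | zero : Vrt Mid
  | mid (m : Mid) : Vrt Mid
  deriving DecidableEq

/-- all the vertices of the modular graph. -/
inductive Vtx (Mid SS : Type) : Type
  | vert (v : Vrt Mid) : Vtx Mid SS
  | hor (P : SS) : Vtx Mid SS
  deriving DecidableEq

/-- the nodes: the supersingular point `P` on the vertical component `v` is glued to the end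
`p_v` of the horizontal component `H_P`. -/
abbrev Nod (Mid SS : Type) : Type := SS × Vrt Mid

variable {Mid SS : Type}

/-- the vertical component of a node. -/
def nodSrc (i : Nod Mid SS) : Vtx Mid SS := Vtx.vert i.2

/-- the horizontal component of a node. -/
def nodTgt (i : Nod Mid SS) : Vtx Mid SS := Vtx.hor i.1

theorem nodSrc_ne_nodTgt (i : Nod Mid SS) : nodSrc i ≠ nodTgt i := by
  intro h
  cases h

/-- `Vrt Mid ≃ Option (Option Mid)`. -/
def vrtEquiv (Mid : Type) : Vrt Mid ≃ Option (Option Mid) where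
  toFun
    | Vrt.oo => none
    | Vrt.zero => some none
    | Vrt.mid m => some (some m)
  invFun
    | none => Vrt.oo
    | some none => Vrt.zero
    | some (some m) => Vrt.mid m
  left_inv v := by cases v <;> rfl
  right_inv o := by
    rcases o with _ | _ | m <;> rfl

/-- `Vtx Mid SS ≃ Vrt Mid ⊕ SS`. -/
def vtxEquiv (Mid SS : Type) : Vtx Mid SS ≃ Vrt Mid ⊕ SS where
  toFun
    | Vtx.vert v => Sum.inl v
    | Vtx.hor P => Sum.inr P
  invFun
    | Sum.inl v => Vtx.vert v
    | Sum.inr P => Vtx.hor P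
  left_inv v := by cases v <;> rfl
  right_inv o := by cases o <;> rfl

instance instFintypeVrt [Fintype Mid] : Fintype (Vrt Mid) := Fintype.ofEquiv _ (vrtEquiv Mid).symm

instance instFintypeVtx [Fintype Mid] [Fintype SS] : Fintype (Vtx Mid SS) :=
  Fintype.ofEquiv _ (vtxEquiv Mid SS).symm

theorem card_vrt [Fintype Mid] : Fintype.card (Vrt Mid) = Fintype.card Mid + 2 := by
  rw [Fintype.card_congr (vrtEquiv Mid), Fintype.card_option, Fintype.card_option]

theorem card_vtx [Fintype Mid] [Fintype SS] :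
    Fintype.card (Vtx Mid SS) = Fintype.card Mid + 2 + Fintype.card SS := by
  rw [Fintype.card_congr (vtxEquiv Mid SS), Fintype.card_sum, card_vrt]

theorem card_nod [Fintype Mid] [Fintype SS] :
    Fintype.card (Nod Mid SS) = Fintype.card SS * (Fintype.card Mid + 2) := by
  rw [Fintype.card_prod, card_vrt]

/-- the residue fields of the modular graph. -/
def FkOf (Fk0 : Type) (FkM : Mid → Type) (FkP : SS → Type) : Vtx Mid SS → Type
  | Vtx.vert Vrt.oo => Fk0
  | Vtx.vert Vrt.zero => Fk0
  | Vtx.vert (Vrt.mid m) => FkM m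
  | Vtx.hor P => FkP P

section Inst

variable (k : Type) [Field k] (Fk0 : Type) [Field Fk0] [Algebra k Fk0]
  (FkM : Mid → Type) [∀ m, Field (FkM m)] [∀ m, Algebra k (FkM m)]
  (FkP : SS → Type) [∀ P, Field (FkP P)] [∀ P, Algebra k (FkP P)]

instance instFieldFkOf : ∀ c : Vtx Mid SS, Field (FkOf Fk0 FkM FkP c)
  | Vtx.vert Vrt.oo => inferInstanceAs (Field Fk0)
  | Vtx.vert Vrt.zero => inferInstanceAs (Field Fk0)
  | Vtx.vert (Vrt.mid m) => inferInstanceAs (Field (FkM m))
  | Vtx.hor P => inferInstanceAs (Field (FkP P))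

instance instAlgebraFkOf : ∀ c : Vtx Mid SS, Algebra k (FkOf Fk0 FkM FkP c)
  | Vtx.vert Vrt.oo => inferInstanceAs (Algebra k Fk0)
  | Vtx.vert Vrt.zero => inferInstanceAs (Algebra k Fk0)
  | Vtx.vert (Vrt.mid m) => inferInstanceAs (Algebra k (FkM m))
  | Vtx.hor P => inferInstanceAs (Algebra k (FkP P))

end Inst

/-- the graph `K_{|Vert|, s}` is connected as soon as there is a supersingular point. -/
theorem modularGraph_conn [Nonempty SS] (T : Set (Vtx Mid SS))
    (h : ∀ i : Nod Mid SS, nodSrc i ∈ T ↔ nodTgt i ∈ T) : T = ∅ ∨ T = Set.univ := by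
  classical
  obtain ⟨P₀⟩ := ‹Nonempty SS›
  by_cases h0 : Vtx.vert Vrt.oo ∈ T
  · right
    have hhor : ∀ P : SS, (Vtx.hor P : Vtx Mid SS) ∈ T := fun P => (h (P, Vrt.oo)).mp h0
    have hvert : ∀ v : Vrt Mid, (Vtx.vert v : Vtx Mid SS) ∈ T := fun v =>
      (h (P₀, v)).mpr (hhor P₀)
    ext c
    simp only [Set.mem_univ, iff_true]
    cases c with
    | vert v => exact hvert v
    | hor P => exact hhor P
  · left
    have hhor : ∀ P : SS, (Vtx.hor P : Vtx Mid SS) ∉ T := fun P hP =>
      h0 ((h (P, Vrt.oo)).mpr hP)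
    have hvert : ∀ v : Vrt Mid, (Vtx.vert v : Vtx Mid SS) ∉ T := fun v hv =>
      hhor P₀ ((h (P₀, v)).mp hv)
    ext c
    simp only [Set.mem_empty_iff_false, iff_false]
    cases c with
    | vert v => exact hvert v
    | hor P => exact hhor P

end Fermat.Agent.S36G
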