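import Mathlib

/-!
# Cluster G (S36), Step 3: the graph algebra on `K_{|Vert|, s}` (helper92)

`Vert = {∞, 0} ∪ Mid`, `SS` the supersingular points.  A cochain `ζ : SS × Vert → G` (`G = kˣ`,
any commutative group) with

* (F1) `ζ(P,∞) · ∏_m ζ(P,m)^e / ζ(P,0)^q` independent of `P`   (`π₁_* x = 0`),
* (F2) `ζ(P,∞)^q / (∏_m ζ(P,m)^e · ζ(P,0))` independent of `P` (`π₂_* x = 0`),
* (F3) `ζ(P,m) / ζ(P,m')` independent of `P`                    (`x` is fixed by inertia),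

where `e · |Mid| + 1 = q`, has a `(q² - 1)`-th power which is a coboundary:
`ζ(P,v)^(q²-1) = a v / b P`.
-/

set_option autoImplicit false

namespace Fermat.Agent.S36G

variable {G : Type*} [CommGroup G] {SS Mid : Type*} [Fintype Mid]

/-- the exponent `q² - 1 = (q - 1) (q + 1)`. -/
theorem ga_exp (q : ℕ) (hq : 1 ≤ q) : q ^ 2 - 1 = (q - 1) * (q + 1) := by
  obtain ⟨r, rfl⟩ : ∃ r, q = r + 1 := ⟨q - 1, by omega⟩
  have : (r + 1) ^ 2 = r * (r + 1 + 1) + 1 := by ring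
  rw [this]
  simp

/-- **graph algebra**, quotient form: with `X P = ζ(P,∞)/ζ(P,0)`, `Y P m = ζ(P,m)/ζ(P,0)`. -/
theorem ga_quot (q e : ℕ) (hq : e * Fintype.card Mid + 1 = q)
    (X : SS → G) (Y : SS → Mid → G) (A B : G) (d : Mid → Mid → G)
    (h1 : ∀ P, X P * ∏ m, Y P m ^ e = A)
    (h2 : ∀ P, X P ^ q / ∏ m, Y P m ^ e = B)
    (h3 : ∀ P m m', Y P m / Y P m' = d m m') :
    (∀ P, X P ^ (q + 1) = A * B) ∧
      ∀ P m, Y P m ^ ((q - 1) * (q + 1)) = A ^ (q + 1) / (A * B * (∏ m', d m' m ^ e) ^ (q + 1)) := by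
  have hX : ∀ P, X P ^ (q + 1) = A * B := by
    intro P
    rw [← h1 P, ← h2 P, pow_succ]
    rw [mul_comm (X P ^ q) (X P), mul_assoc, mul_div_assoc', mul_comm (∏ m, Y P m ^ e) (X P ^ q),
      mul_div_assoc, div_self', mul_one]
  refine ⟨hX, fun P m => ?_⟩
  have hprod : ∏ m', Y P m' ^ e = Y P m ^ (q - 1) * ∏ m', d m' m ^ e := by
    have h : ∀ m', Y P m' ^ e = Y P m ^ e * d m' m ^ e := by
      intro m'
      rw [← h3 P m' m, ← mul_pow, mul_div_cancel]
    rw [Finset.prod_congr rfl fun m' _ => h m', Finset.prod_mul_distrib, Finset.prod_const,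
      Finset.card_univ, ← pow_mul]
    have : e * Fintype.card Mid = q - 1 := by omega
    rw [this]
  have hY : Y P m ^ (q - 1) = A / (X P * ∏ m', d m' m ^ e) := by
    rw [eq_div_iff_mul_eq', ← h1 P, hprod]
    ac_rfl
  rw [pow_mul, hY, div_pow, mul_pow, hX P]

/-- **graph algebra**: a cochain on `K_{|Vert|, s}` satisfying (F1), (F2), (F3) has a
`(q² - 1)`-th power which is a coboundary. -/
theorem graphAlg (q e : ℕ) (hq : e * Fintype.card Mid + 1 = q)
    (zoo z0 : SS → G) (zm : SS → Mid → G) (A B : G) (d : Mid → Mid → G)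
    (h1 : ∀ P, zoo P * (∏ m, zm P m ^ e) / z0 P ^ q = A)
    (h2 : ∀ P, zoo P ^ q / ((∏ m, zm P m ^ e) * z0 P) = B)
    (h3 : ∀ P m m', zm P m / zm P m' = d m m') :
    ∃ (aoo a0 : G) (am : Mid → G) (b : SS → G),
      (∀ P, zoo P ^ (q ^ 2 - 1) = aoo / b P) ∧ (∀ P, z0 P ^ (q ^ 2 - 1) = a0 / b P) ∧
        ∀ P m, zm P m ^ (q ^ 2 - 1) = am m / b P := by
  have hq1 : 1 ≤ q := by omega
  have hcard : e * Fintype.card Mid = q - 1 := by omega
  rw [ga_exp q hq1]
  set X : SS → G := fun P => zoo P / z0 P with hXdef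
  set Y : SS → Mid → G := fun P m => zm P m / z0 P with hYdef
  have hprodY : ∀ P, ∏ m, Y P m ^ e = (∏ m, zm P m ^ e) / z0 P ^ (q - 1) := by
    intro P
    simp only [hYdef, div_pow]
    rw [Finset.prod_div_distrib, Finset.prod_const, Finset.card_univ, ← pow_mul, hcard]
  have h1' : ∀ P, X P * ∏ m, Y P m ^ e = A := by
    intro P
    rw [hprodY P, ← h1 P]
    simp only [hXdef]
    have hqq : z0 P ^ q = z0 P ^ (q - 1) * z0 P := by
      rw [← pow_succ]
      congr 1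
      omega
    rw [hqq]
    rw [div_mul_div_comm, mul_comm (z0 P) _]
  have h2' : ∀ P, X P ^ q / ∏ m, Y P m ^ e = B := by
    intro P
    rw [hprodY P, ← h2 P]
    simp only [hXdef, div_pow]
    have hqq : z0 P ^ q = z0 P ^ (q - 1) * z0 P := by
      rw [← pow_succ]
      congr 1
      omega
    rw [hqq, div_div_div_eq, mul_comm (zoo P ^ q) _, mul_comm (z0 P ^ (q - 1) * z0 P) _,
      ← mul_assoc, mul_comm (∏ m, zm P m ^ e) (z0 P ^ (q - 1)), mul_assoc,
      mul_div_mul_left_eq_div]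
  have h3' : ∀ P m m', Y P m / Y P m' = d m m' := by
    intro P m m'
    rw [← h3 P m m']
    simp only [hYdef]
    rw [div_div_div_cancel_right]
  obtain ⟨hX, hY⟩ := ga_quot q e hq X Y A B d h1' h2' h3'
  refine ⟨(A * B) ^ (q - 1), 1,
    fun m => A ^ (q + 1) / (A * B * (∏ m', d m' m ^ e) ^ (q + 1)),
    fun P => (z0 P ^ ((q - 1) * (q + 1)))⁻¹, fun P => ?_, fun P => ?_, fun P m => ?_⟩
  · beta_reduce
    rw [← hX P, ← pow_mul, mul_comm (q + 1) (q - 1), div_inv_eq_mul]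
    simp only [hXdef, div_pow]
    rw [div_mul_cancel]
  · beta_reduce
    rw [div_inv_eq_mul, one_mul]
  · beta_reduce
    rw [← hY P m, div_inv_eq_mul]
    simp only [hYdef, div_pow]
    rw [div_mul_cancel]

end Fermat.Agent.S36G
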