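import Mathlib
import Fermat.Agent.S36.G.Step3
import Fermat.Agent.Lib.BadRed.Graph.GlueOrd

set_option autoImplicit false

/-!
# Cluster G (S36), Step 3 (toric): from `W₀` to `g ^ (q² - 1) = a uⁿ`, ABSTRACT  (helper3)

`step3_core`: on a `GraphSetup` of shape `K_{|Vert|, s}` (`Vtx Mid SS`, `Nod Mid SS`), a Kummer
generator `g` (`n ∣ div g`) which is, up to constants, an `n`-th power in ALL the residue fields
(`N.IsPowAt n c g` for all `c`: the output of Steps 1, 2) and which has the three properties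
`P₁` ("`N_{π₁} g` is a constant times an `n`-th power"), `P₂` (the same for `π₂`), `P₃` ("the class
of `g` is fixed by inertia") satisfies `g ^ (q² - 1) = a uⁿ`.

The modular input is packed in three statements about NORMAL FORMS (`IsNormalForm N n R g D h va vb`:
`div g = n D`, `D` ordinary, `D ≥ -R`, `g` integral for all the valuations with `red_c g = h_c ^ n`,
`h` with the nonzero values `va i`, `vb i` at the two branches of the node `i`):

* `CocycleF1 N n q e R P₁` : for a normal form with `P₁ g`, the relation (F1) between `va`, `vb`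
  (= `s3_F1_of_cocycle` + `s3_wd_cocycle_modular` applied to `N_{π₁} g`; seats NORM-VERT, NORM-HOR,
  VAL-NORM; needs `R` saturated for `π₁`);
* `CocycleF2 N n q e R P₂` : the same for `π₂`;
* `CocycleF3 N n R P₃`     : for a normal form with `P₃ g`, the relation (F3) (seat INERT).

The abstract package supplies the rest: `GraphOrdStatement N` (G-ORD, normal form),
`GraphToricStatement N` (G-TORIC), `step3`.
-/

noncomputable section

open AlgebraicCurve Fermat.Agent.RR Fermat.Agent.Deuring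

namespace Fermat.Agent.S36G

open Fermat.Agent.BadRed Fermat.Agent.BadRedG Fermat.Agent.BadRed.Gluing

variable {K F k : Type*} [Field K] [Field F] [Algebra K F] [Field k]

/-- **normal form** of a Kummer generator with base divisor `R`. -/
structure IsNormalForm {κ : Type*} {Fk : κ → Type*} [∀ c, Field (Fk c)] [∀ c, Algebra k (Fk c)]
    {ι : Type*} (N : GraphSetup K F k κ Fk ι) (n : ℕ) (R : Divisor K F) (g : F)
    (D : Divisor K F) (h : ∀ c, Fk c) (va vb : ι → k) : Prop where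
  hg : g ≠ 0
  hdiv : ∀ P : Place K F, P.ord g = n * D P
  hDord : N.IsOrdDiv D
  hDR : ∀ P : Place K F, -R P ≤ D P
  hmem : ∀ c, g ∈ (N.S c).Ov
  hred : ∀ c, (N.S c).red g = h c ^ n
  hh0 : ∀ c, h c ≠ 0
  hva : ∀ i, ValAt (N.s₁ i) (h (N.src i)) (va i)
  hvb : ∀ i, ValAt (N.s₂ i) (h (N.tgt i)) (vb i)
  hva0 : ∀ i, va i ≠ 0
  hvb0 : ∀ i, vb i ≠ 0

section Modular

variable {Mid SS : Type} [Fintype Mid] {Fk : Vtx Mid SS → Type*} [∀ c, Field (Fk c)]
  [∀ c, Algebra k (Fk c)]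

/-- **(F1) for normal forms** with the property `P₁`. -/
def CocycleF1 (N : GraphSetup K F k (Vtx Mid SS) Fk (Nod Mid SS)) (n q e : ℕ)
    (R : Divisor K F) (P₁ : F → Prop) : Prop :=
  ∀ (g : F) (D : Divisor K F) (h : ∀ c, Fk c) (va vb : Nod Mid SS → k),
    IsNormalForm N n R g D h va vb → P₁ g →
    ∃ γ : Vtx Mid SS → k, (∀ c, γ c ≠ 0) ∧
      (∀ P, γ (Vtx.vert Vrt.oo) * (va (P, Vrt.oo) * ∏ m, va (P, Vrt.mid m) ^ e) =
        γ (Vtx.hor P) * (vb (P, Vrt.oo) * ∏ m, vb (P, Vrt.mid m) ^ e)) ∧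
      ∀ P, γ (Vtx.vert Vrt.zero) * va (P, Vrt.zero) ^ q =
        γ (Vtx.hor P) * vb (P, Vrt.zero) ^ q

/-- **(F2) for normal forms** with the property `P₂`. -/
def CocycleF2 (N : GraphSetup K F k (Vtx Mid SS) Fk (Nod Mid SS)) (n q e : ℕ)
    (R : Divisor K F) (P₂ : F → Prop) : Prop :=
  ∀ (g : F) (D : Divisor K F) (h : ∀ c, Fk c) (va vb : Nod Mid SS → k),
    IsNormalForm N n R g D h va vb → P₂ g →
    ∃ γ : Vtx Mid SS → k, (∀ c, γ c ≠ 0) ∧
      (∀ P, γ (Vtx.vert Vrt.oo) * va (P, Vrt.oo) ^ q = γ (Vtx.hor P) * vb (P, Vrt.oo) ^ q) ∧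
      ∀ P, γ (Vtx.vert Vrt.zero) * (va (P, Vrt.zero) * ∏ m, va (P, Vrt.mid m) ^ e) =
        γ (Vtx.hor P) * (vb (P, Vrt.zero) * ∏ m, vb (P, Vrt.mid m) ^ e)

omit [Fintype Mid] in
/-- **(F3) for normal forms** with the property `P₃`. -/
def CocycleF3 (N : GraphSetup K F k (Vtx Mid SS) Fk (Nod Mid SS)) (n : ℕ)
    (R : Divisor K F) (P₃ : F → Prop) : Prop :=
  ∀ (g : F) (D : Divisor K F) (h : ∀ c, Fk c) (va vb : Nod Mid SS → k),
    IsNormalForm N n R g D h va vb → P₃ g →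
    ∀ m m' : Mid, ∃ d : k, d ≠ 0 ∧
      ∀ P, va (P, Vrt.mid m) * vb (P, Vrt.mid m') = d * (va (P, Vrt.mid m') * vb (P, Vrt.mid m))

omit [Fintype Mid] in
/-- the modular graph has a vertex. -/
instance s3c_nonempty_vtx : Nonempty (Vtx Mid SS) := ⟨Vtx.vert Vrt.oo⟩

omit [Fintype Mid] in
/-- a nonzero function all of whose orders vanish is a constant. -/
theorem s3c_const_of_ord_zero (hF : IsRRField K F) {w : F} (hw0 : w ≠ 0)
    (hord : ∀ P : Place K F, P.ord w = 0) : ∃ a : K, a ≠ 0 ∧ w = algebraMap K F a := by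
  have hmem : w ∈ riemannRochSpace (0 : Divisor K F) := by
    rw [mem_riemannRochSpace_iff]
    intro P
    right
    rw [hord P]
    simp
  obtain ⟨a, ha⟩ := (mem_riemannRochSpace_zero_iff hF w).mp hmem
  refine ⟨a, ?_, ha.symm⟩
  rintro rfl
  rw [map_zero] at ha
  exact hw0 ha.symm

/-- **Step 3, from `W₀` to the function equation.** -/
theorem step3_core [IsAlgClosed K] [Fintype SS]
    (N : GraphSetup K F k (Vtx Mid SS) Fk (Nod Mid SS))
    (hsrc : ∀ i, N.src i = nodSrc i) (htgt : ∀ i, N.tgt i = nodTgt i)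
    (hOrd : GraphOrdStatement N) (hToric : GraphToricStatement N) (hrel : N.GenusRel)
    {n : ℕ} (hn0 : (n : K) ≠ 0) (c₀ : Vtx Mid SS) (hnA : ((n : K))⁻¹ ∈ (N.S c₀).A)
    {R : Divisor K F} (hR : GBig N R) (q e : ℕ) (hq : e * Fintype.card Mid + 1 = q)
    (P₁ P₂ P₃ : F → Prop)
    (hP₁ : ∀ g φ : F, φ ≠ 0 → P₁ g → P₁ (φ ^ n * g))
    (hP₂ : ∀ g φ : F, φ ≠ 0 → P₂ g → P₂ (φ ^ n * g))
    (hP₃ : ∀ g φ : F, φ ≠ 0 → P₃ g → P₃ (φ ^ n * g))
    (hF1 : CocycleF1 N n q e R P₁) (hF2 : CocycleF2 N n q e R P₂) (hF3 : CocycleF3 N n R P₃)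
    {g : F} (hg : g ≠ 0) (hdvd : ∀ P : Place K F, (n : ℤ) ∣ P.ord g)
    (hW0 : ∀ c, N.IsPowAt n c g) (h1 : P₁ g) (h2 : P₂ g) (h3 : P₃ g) :
    ∃ (u : F) (a : K), a ≠ 0 ∧ g ^ (q ^ 2 - 1) = algebraMap K F a * u ^ n := by
  classical
  have hn : n ≠ 0 := by
    rintro rfl
    exact hn0 Nat.cast_zero
  have hnZ : (n : ℤ) ≠ 0 := by exact_mod_cast hn
  set hF := (N.S c₀).hF with hFdef
  -- the divisor `D = div g / n`
  set D : Divisor K F := (divOf hF g).mapRange (fun z => z / (n : ℤ)) (by simp) with hD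
  have hdiv : ∀ P : Place K F, P.ord g = n * D P := by
    intro P
    rw [hD, Finsupp.mapRange_apply, divOf_apply]
    exact (Int.mul_ediv_cancel' (hdvd P)).symm
  have hnsmul : n • D = divOf hF g := by
    ext P
    rw [Finsupp.smul_apply, divOf_apply, nsmul_eq_mul, hdiv]
  have hdeg : Divisor.degree D = 0 := by
    have h1 : Divisor.degree (n • D) = 0 := by rw [hnsmul]; exact degree_divOf hF g
    rw [map_nsmul, nsmul_eq_mul] at h1
    rcases mul_eq_zero.mp h1 with h | h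
    · exact absurd h hnZ
    · exact h
  -- gluing data and the normal form
  obtain ⟨d, hdD, hdg⟩ := exists_glueData_of_gen N hn hdeg hg hdiv hW0
  obtain ⟨φ, d', hφ0, hφLam, hD', hg', -, -, hunit, hord', hred'⟩ :=
    exists_move_of_graphOrd N hOrd hrel hn d hR c₀
  -- values at the branches
  have hvalA : ∀ i, ∃ x : k, ValAt (N.s₁ i) (d'.h (N.src i)) x := fun i =>
    exists_valAt (N.S (N.src i)).hFk (N.s₁ i) (hunit.2 i).1.ge
  have hvalB : ∀ i, ∃ x : k, ValAt (N.s₂ i) (d'.h (N.tgt i)) x := fun i =>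
    exists_valAt (N.S (N.tgt i)).hFk (N.s₂ i) (hunit.2 i).2.ge
  choose va hva using hvalA
  choose vb hvb using hvalB
  have hva0 : ∀ i, va i ≠ 0 := by
    intro i h0
    have h := hva i
    rw [h0, valAt_zero_right_iff] at h
    rcases h with h | h
    · exact hunit.1 _ h
    · rw [(hunit.2 i).1] at h
      exact lt_irrefl _ h
  have hvb0 : ∀ i, vb i ≠ 0 := by
    intro i h0
    have h := hvb i
    rw [h0, valAt_zero_right_iff] at h
    rcases h with h | h
    · exact hunit.1 _ h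
    · rw [(hunit.2 i).2] at h
      exact lt_irrefl _ h
  have hNF : IsNormalForm N n R d'.g d'.D d'.h va vb :=
    { hg := d'.hg
      hdiv := d'.hdiv
      hDord := hord'
      hDR := by
        intro P
        rw [hD', Finsupp.add_apply, divOf_apply]
        rcases (mem_riemannRochSpace_iff.mp hφLam.1) P with h | h
        · exact absurd h hφ0
        · rw [Finsupp.add_apply] at h
          linarith
      hmem := fun c => (hred' c).1
      hred := fun c => (hred' c).2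
      hh0 := hunit.1
      hva := hva
      hvb := hvb
      hva0 := hva0
      hvb0 := hvb0 }
  have hg'eq : d'.g = φ ^ n * g := by rw [hg', hdg]
  have h1' : P₁ d'.g := by rw [hg'eq]; exact hP₁ g φ hφ0 h1
  have h2' : P₂ d'.g := by rw [hg'eq]; exact hP₂ g φ hφ0 h2
  have h3' : P₃ d'.g := by rw [hg'eq]; exact hP₃ g φ hφ0 h3
  -- Step 3
  have hprin := step3 N hsrc htgt hToric hrel hn0 c₀ hnA d'.hg d'.hdiv hord'
    (a := fun _ => 1) (h := d'.h) (fun _ => one_ne_zero)
    (fun c => by rw [map_one, div_one]; exact (hred' c).2) hunit.1 hva hvb hva0 hvb0 q e hq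
    (hF1 _ _ _ _ _ hNF h1') (hF2 _ _ _ _ _ hNF h2') (hF3 _ _ _ _ _ hNF h3')
  obtain ⟨w, hw0, hw⟩ := hprin
  -- the function equation
  set M : ℕ := q ^ 2 - 1 with hM
  have hφM : (φ ^ M) ≠ 0 := pow_ne_zero M hφ0
  set u : F := w / φ ^ M with hu
  have hu0 : u ≠ 0 := div_ne_zero hw0 hφM
  have hun : u ^ n ≠ 0 := pow_ne_zero n hu0
  set x : F := g ^ M / u ^ n with hx
  have hx0 : x ≠ 0 := div_ne_zero (pow_ne_zero M hg) hun
  have hordx : ∀ P : Place K F, P.ord x = 0 := by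
    intro P
    have e1 : P.ord (g ^ M) = M * (n * D P) := by rw [s3_ord_pow, hdiv]
    have e2 : P.ord (u ^ n) = n * (P.ord w - M * P.ord φ) := by
      rw [s3_ord_pow, hu, div_eq_mul_inv, P.ord_mul hw0 (inv_ne_zero hφM), P.ord_inv,
        s3_ord_pow]
      ring
    have e3 : P.ord w = M * (D P + P.ord φ) := by
      rw [← hw P, Finsupp.smul_apply, hD', Finsupp.add_apply, divOf_apply, hdD, nsmul_eq_mul]
    rw [hx, div_eq_mul_inv, P.ord_mul (pow_ne_zero M hg) (inv_ne_zero hun), P.ord_inv, e1, e2,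
      e3]
    ring
  obtain ⟨a, ha0, ha⟩ := s3c_const_of_ord_zero hF hx0 hordx
  refine ⟨u, a, ha0, ?_⟩
  rw [← ha, hx, div_mul_cancel₀ _ hun]

end Modular

end Fermat.Agent.S36G
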