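import Mathlib
import Fermat.Agent.S36.G.Step3Core
import Fermat.Agent.Lib.BadRed.Graph.Deuring.PermDef

set_option autoImplicit false
set_option linter.unusedSectionVars false

/-!
# Cluster G (S36), Step 3: the relation (F3) from the inertia action, ABSTRACT  (helper55, INERT)

* `s3f_quot_cocycle` : two normal forms `g`, `g'` (roots `h`, `h'`, values `va, vb`, `va', vb'` at
  the branches) with `g' = a uⁿ g`: the cocycle `(va' / va) / (vb' / vb)` is a coboundary
  (`GraphWDStatement` applied to `u` with the roots `h' / h`).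
* `IsNormalForm.smul_act` : **equivariance of normal forms**: an automorphism `t` of the package
  (`N.Act t`) which maps the branches of the node `νi i` to the branches of the node `i`
  (`PlaceCorr`) maps a normal form with values `va, vb` to a normal form of `t • g` with values
  `va ∘ νi`, `vb ∘ νi`.
* `cocycleF3_of_act` : `CocycleF3 N n R P₃` if, for every `g` with `P₃ g` and every pair `m, m'` of
  middle vertices, there is such a `t` with `t • g = a uⁿ g`, `νi (P, ∞) = (P, ∞)`,
  `νi (P, m') = (P, m)`.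
-/

noncomputable section

open AlgebraicCurve Fermat.Agent.RR Fermat.Agent.Deuring

namespace Fermat.Agent.S36G

open Fermat.Agent.BadRed Fermat.Agent.BadRedG Fermat.Agent.BadRed.Gluing

variable {K F k : Type*} [Field K] [Field F] [Algebra K F] [Field k]

section Val

variable {L : Type*} [Field L] [Algebra k L]

/-- the value of an inverse. -/
theorem s3f_valAt_inv {Q : Place k L} {y : L} {x : k} (h : ValAt Q y x) (hx : x ≠ 0) :
    ValAt Q y⁻¹ x⁻¹ := by
  have hx' : algebraMap k L x ≠ 0 := by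
    rwa [ne_eq, map_eq_zero_iff _ (algebraMap k L).injective]
  rcases h with h | h
  · left
    rw [h, map_inv₀]
  · right
    have hy0 : Q.ord y = 0 := ord_eq_zero_of_valAt (Or.inr h) hx
    have hy : y ≠ 0 := by
      rintro rfl
      rw [zero_sub, ← neg_one_mul] at h
      by_cases h1 : (-1 : L) = 0
      · rw [h1, zero_mul, Place.ord_zero] at h
        exact lt_irrefl _ h
      · rw [Place.ord_mul _ h1 hx', Fermat.Agent.S24Res.ord_algebraMap] at h
        have h2 : Q.ord (-1 : L) = 0 := by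
          have := Fermat.Agent.S24Res.ord_algebraMap Q (-1 : k)
          rwa [map_neg, map_one] at this
        rw [h2] at h
        exact lt_irrefl _ h
    have hne : y - algebraMap k L x ≠ 0 := by
      intro h0
      rw [h0, Place.ord_zero] at h
      exact lt_irrefl _ h
    have e : y⁻¹ - (algebraMap k L) x⁻¹ =
        (y - algebraMap k L x) * (-(y⁻¹ * (algebraMap k L x)⁻¹)) := by
      rw [map_inv₀]
      field_simp
      ring
    have hm : -(y⁻¹ * (algebraMap k L x)⁻¹) ≠ 0 :=
      neg_ne_zero.mpr (mul_ne_zero (inv_ne_zero hy) (inv_ne_zero hx'))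
    have hm0 : Q.ord (-(y⁻¹ * (algebraMap k L x)⁻¹)) = 0 := by
      have h1 : -(y⁻¹ * (algebraMap k L x)⁻¹) = algebraMap k L (-x⁻¹) * y⁻¹ := by
        rw [map_neg, map_inv₀]
        ring
      have h2 : algebraMap k L (-x⁻¹) ≠ 0 := by
        rw [ne_eq, map_eq_zero_iff _ (algebraMap k L).injective]
        exact neg_ne_zero.mpr (inv_ne_zero hx)
      rw [h1, Place.ord_mul _ h2 (inv_ne_zero hy), Fermat.Agent.S24Res.ord_algebraMap,
        Place.ord_inv, hy0]
      simp
    rw [e, Place.ord_mul _ hne hm, hm0, add_zero]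
    exact h

/-- the value of a quotient. -/
theorem s3f_valAt_div {Q : Place k L} {y y' : L} {x x' : k} (h : ValAt Q y x)
    (h' : ValAt Q y' x') (hx' : x' ≠ 0) : ValAt Q (y / y') (x / x') := by
  rw [div_eq_mul_inv, div_eq_mul_inv]
  exact valAt_mul h (s3f_valAt_inv h' hx')

/-- transport of values along an isomorphism of function fields. -/
theorem s3f_valAt_corr {L' : Type*} [Field L'] [Algebra k L'] (e : L ≃ₐ[k] L')
    {Q : Place k L} {Q' : Place k L'} (hQ : PlaceCorr e Q Q') {y : L} {x : k}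
    (h : ValAt Q y x) : ValAt Q' (e y) x := by
  rcases h with h | h
  · left
    rw [h, AlgEquiv.commutes]
  · right
    have := hQ (y - algebraMap k L x)
    rw [map_sub, AlgEquiv.commutes] at this
    rw [this]
    exact h

end Val

variable {κ : Type*} {Fk : κ → Type*} [∀ c, Field (Fk c)] [∀ c, Algebra k (Fk c)] {ι : Type*}

/-- **two normal forms with `g' = a uⁿ g`**: the quotient of the value cocycles is a
coboundary. -/
theorem s3f_quot_cocycle [Finite κ] (N : GraphSetup K F k κ Fk ι) (hWD : GraphWDStatement N)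
    {n : ℕ} (hn : n ≠ 0) {R : Divisor K F} {g : F} {D : Divisor K F} {h : ∀ c, Fk c}
    {va vb : ι → k} (hNF : IsNormalForm N n R g D h va vb)
    {g' : F} {h' : ∀ c, Fk c} {va' vb' : ι → k}
    (hord' : ∀ P : Place K F, P.ord g' ≠ 0 → N.IsOrd P)
    (hmem' : ∀ c, g' ∈ (N.S c).Ov) (hred' : ∀ c, (N.S c).red g' = h' c ^ n)
    (hh0' : ∀ c, h' c ≠ 0)
    (hva' : ∀ i, ValAt (N.s₁ i) (h' (N.src i)) (va' i))
    (hvb' : ∀ i, ValAt (N.s₂ i) (h' (N.tgt i)) (vb' i))
    (hva0' : ∀ i, va' i ≠ 0) (hvb0' : ∀ i, vb' i ≠ 0)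
    {u : F} {a : K} (ha : a ≠ 0) (hgu : g' = algebraMap K F a * u ^ n * g)
    (hg'0 : g' ≠ 0) :
    ∃ γ : κ → k, (∀ c, γ c ≠ 0) ∧
      ∀ i, γ (N.src i) * (va' i / va i) = γ (N.tgt i) * (vb' i / vb i) := by
  have hg0 : g ≠ 0 := hNF.hg
  have ha' : algebraMap K F a ≠ 0 := by
    rwa [ne_eq, map_eq_zero_iff _ (algebraMap K F).injective]
  have hun : u ^ n ≠ 0 := by
    intro h0
    rw [h0, mul_zero, zero_mul] at hgu
    exact hg'0 hgu
  have hu : u ≠ 0 := fun h0 => hun (by rw [h0, zero_pow hn])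
  have hpole : ∀ P : Place K F, P.ord u < 0 → N.IsOrd P := by
    intro P hP
    by_cases h1 : P.ord g' = 0
    · have h2 : P.ord g' = (n : ℤ) * P.ord u + P.ord g := by
        rw [hgu, Place.ord_mul _ (mul_ne_zero ha' hun) hg0, Place.ord_mul _ ha' hun,
          Fermat.Agent.S24Res.ord_algebraMap, zero_add, ord_pow_nat]
      have h3 : P.ord g ≠ 0 := by
        intro h3
        rw [h1, h3, add_zero] at h2
        have h4 : (0 : ℤ) < n := by exact_mod_cast Nat.pos_of_ne_zero hn
        have h5 : (n : ℤ) * P.ord u < 0 := mul_neg_of_pos_of_neg h4 hP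
        omega
      refine hNF.hDord P ?_
      intro h4
      rw [hNF.hdiv P, h4, mul_zero] at h3
      exact h3 rfl
    · exact hord' P h1
  have hred : ∀ c, (N.S c).red (algebraMap K F a * u ^ n / algebraMap K F ((fun _ => (1 : K)) c))
      = (h' c / h c) ^ n := by
    intro c
    have hrg : (N.S c).red g ≠ 0 := by
      rw [hNF.hred c]
      exact pow_ne_zero _ (hNF.hh0 c)
    have hinv : g⁻¹ ∈ (N.S c).Ov := (N.S c).inv_mem_of_red_ne_zero hrg
    have e1 : algebraMap K F a * u ^ n / algebraMap K F ((fun _ => (1 : K)) c) = g' * g⁻¹ := by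
      rw [hgu]
      simp only [map_one, div_one]
      rw [mul_assoc (algebraMap K F a * u ^ n), mul_inv_cancel₀ hg0, mul_one]
    rw [e1, (N.S c).red_mul (hmem' c) hinv, (N.S c).red_inv (hNF.hmem c) hinv hg0, hred' c,
      hNF.hred c, div_pow, div_eq_mul_inv]
  have hH0 : ∀ c, h' c / h c ≠ 0 := fun c => div_ne_zero (hh0' c) (hNF.hh0 c)
  exact s3_wd_cocycle N hWD hn hu ha hpole (a := fun _ => (1 : K)) (H := fun c => h' c / h c)
    (fun _ => one_ne_zero) hred hH0
    (VA := fun i => va' i / va i) (VB := fun i => vb' i / vb i)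
    (fun i => s3f_valAt_div (hva' i) (hNF.hva i) (hNF.hva0 i))
    (fun i => s3f_valAt_div (hvb' i) (hNF.hvb i) (hNF.hvb0 i))
    (fun i => div_ne_zero (hva0' i) (hNF.hva0 i))
    (fun i => div_ne_zero (hvb0' i) (hNF.hvb0 i))

/-! ### Equivariance of normal forms -/

/-- the action `t` maps the two branches of the node `νi i` to the two branches of the node `i`
(`νi` = the inverse of the permutation of the nodes). -/
structure NodeCorr (N : GraphSetup K F k κ Fk ι) {t : SemilinearAut K F} (act : N.Act t)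
    (νi : ι → ι) : Prop where
  corr₁ : ∀ i, ∃ h₁ : act.π (N.src (νi i)) = N.src i,
    PlaceCorr ((act.e (N.src (νi i))).trans (AlgEquiv.cast (R := k) (A := Fk) h₁))
      (N.s₁ (νi i)) (N.s₁ i)
  corr₂ : ∀ i, ∃ h₂ : act.π (N.tgt (νi i)) = N.tgt i,
    PlaceCorr ((act.e (N.tgt (νi i))).trans (AlgEquiv.cast (R := k) (A := Fk) h₂))
      (N.s₂ (νi i)) (N.s₂ i)

/-- the transported roots `ē (h_{π⁻¹ c})`. -/
def s3fRoot {N : GraphSetup K F k κ Fk ι} {t : SemilinearAut K F} (act : N.Act t)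
    (h : ∀ c, Fk c) (c : κ) : Fk c :=
  AlgEquiv.cast (R := k) (A := Fk) (Equiv.apply_symm_apply act.π c)
    (act.e (act.π.symm c) (h (act.π.symm c)))

theorem s3fRoot_eq {N : GraphSetup K F k κ Fk ι} {t : SemilinearAut K F} (act : N.Act t)
    (h : ∀ c, Fk c) {c' c : κ} (hc : act.π c' = c) :
    s3fRoot act h c = AlgEquiv.cast (R := k) (A := Fk) hc (act.e c' (h c')) := by
  subst hc
  unfold s3fRoot
  have key : ∀ (c'' : κ) (p : act.π c'' = act.π c'), c'' = c' →
      AlgEquiv.cast (R := k) (A := Fk) p (act.e c'' (h c'')) =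
        AlgEquiv.cast (R := k) (A := Fk) rfl (act.e c' (h c')) := by
    intro c'' p hcc
    subst hcc
    rfl
  exact key _ _ (Equiv.symm_apply_apply _ _)

theorem s3fRoot_ne_zero {N : GraphSetup K F k κ Fk ι} {t : SemilinearAut K F} (act : N.Act t)
    {h : ∀ c, Fk c} (hh : ∀ c, h c ≠ 0) (c : κ) : s3fRoot act h c ≠ 0 := by
  unfold s3fRoot
  rw [ne_eq, map_eq_zero_iff _ (AlgEquiv.injective _), map_eq_zero_iff _ (AlgEquiv.injective _)]
  exact hh _

/-- `t • g` is integral at every component. -/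
theorem s3f_smul_mem {N : GraphSetup K F k κ Fk ι} {t : SemilinearAut K F} (act : N.Act t)
    {g : F} (hmem : ∀ c, g ∈ (N.S c).Ov) (c : κ) : t • g ∈ (N.S c).Ov := by
  have h := act.mem (act.π.symm c) g (hmem _)
  rwa [Equiv.apply_symm_apply] at h

/-- the reductions of `t • g` are the `n`-th powers of the transported roots. -/
theorem s3f_smul_red {N : GraphSetup K F k κ Fk ι} {t : SemilinearAut K F} (act : N.Act t)
    {g : F} {h : ∀ c, Fk c} {n : ℕ} (hmem : ∀ c, g ∈ (N.S c).Ov)
    (hred : ∀ c, (N.S c).red g = h c ^ n) (c : κ) :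
    (N.S c).red (t • g) = s3fRoot act h c ^ n := by
  have key : ∀ (c' c : κ) (hc : act.π c' = c),
      (N.S c).red (t • g) = (AlgEquiv.cast (R := k) (A := Fk) hc (act.e c' (h c'))) ^ n := by
    intro c' c hc
    subst hc
    rw [act.red c' g (hmem c'), hred c', map_pow]
    rfl
  rw [key (act.π.symm c) c (Equiv.apply_symm_apply _ _),
    s3fRoot_eq act h (Equiv.apply_symm_apply act.π c)]

/-- the orders of `t • g`. -/
theorem s3f_ord_smul (t : SemilinearAut K F) (P : Place K F) (g : F) :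
    P.ord (t • g) = (t⁻¹ • P).ord g := by
  have h := SemilinearAut.ord_smul t (t⁻¹ • P) g
  rwa [smul_inv_smul] at h

/-- **(F3), abstract**: an automorphism `t` of the package with `t • g = a uⁿ g` which maps the
branches of the node `νi i` to the branches of the node `i`: the cocycle
`(va (νi i) / va i) / (vb (νi i) / vb i)` is a coboundary. -/
theorem s3f_cocycle_of_act [Finite κ] (N : GraphSetup K F k κ Fk ι) (hWD : GraphWDStatement N)
    {n : ℕ} (hn : n ≠ 0) {R : Divisor K F} {g : F} {D : Divisor K F} {h : ∀ c, Fk c}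
    {va vb : ι → k} (hNF : IsNormalForm N n R g D h va vb)
    {t : SemilinearAut K F} (act : N.Act t) {νi : ι → ι} (hν : NodeCorr N act νi)
    {u : F} {a : K} (ha : a ≠ 0) (hgu : t • g = algebraMap K F a * u ^ n * g) :
    ∃ γ : κ → k, (∀ c, γ c ≠ 0) ∧
      ∀ i, γ (N.src i) * (va (νi i) / va i) = γ (N.tgt i) * (vb (νi i) / vb i) := by
  have hg'0 : t • g ≠ 0 := by
    rw [SemilinearAut.smul_def, ne_eq, map_eq_zero_iff _ (RingEquiv.injective _)]
    exact hNF.hg
  refine s3f_quot_cocycle N hWD hn hNF (g' := t • g) (h' := s3fRoot act h)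
    (va' := fun i => va (νi i)) (vb' := fun i => vb (νi i)) ?_ (s3f_smul_mem act hNF.hmem)
    (s3f_smul_red act hNF.hmem hNF.hred) (s3fRoot_ne_zero act hNF.hh0) ?_ ?_
    (fun i => hNF.hva0 _) (fun i => hNF.hvb0 _) ha hgu hg'0
  · intro P hP
    rw [s3f_ord_smul, hNF.hdiv] at hP
    have h1 : D (t⁻¹ • P) ≠ 0 := fun h0 => hP (by rw [h0, mul_zero])
    have h2 := act.ord _ (hNF.hDord _ h1)
    rwa [smul_inv_smul] at h2
  · intro i
    obtain ⟨h₁, hc⟩ := hν.corr₁ i
    rw [s3fRoot_eq act h h₁]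
    exact s3f_valAt_corr _ hc (hNF.hva (νi i))
  · intro i
    obtain ⟨h₂, hc⟩ := hν.corr₂ i
    rw [s3fRoot_eq act h h₂]
    exact s3f_valAt_corr _ hc (hNF.hvb (νi i))

/-! ### The modular graph `K_{|Vert|, s}` -/

section Modular

variable {Mid SS : Type} [Fintype Mid] [Fintype SS] {Fk : Vtx Mid SS → Type*}
  [∀ c, Field (Fk c)] [∀ c, Algebra k (Fk c)]

/-- **(F3) from the inertia action**: `CocycleF3 N n R P₃` holds if for every `g` with `P₃ g` and
every pair `m, m'` of middle vertices there is an automorphism `t` of the package with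
`t • g = a uⁿ g` which maps the node `(P, ∞)` to itself and the node `(P, m)` to `(P, m')`. -/
theorem cocycleF3_of_act (N : GraphSetup K F k (Vtx Mid SS) Fk (Nod Mid SS))
    (hsrc : ∀ i, N.src i = nodSrc i) (htgt : ∀ i, N.tgt i = nodTgt i)
    (hWD : GraphWDStatement N) {n : ℕ} (hn : n ≠ 0) (R : Divisor K F) (P₃ : F → Prop)
    (hact : ∀ g : F, P₃ g → ∀ m m' : Mid,
      ∃ (t : SemilinearAut K F) (act : N.Act t) (νi : Nod Mid SS → Nod Mid SS),
        NodeCorr N act νi ∧ (∀ P, νi (P, Vrt.oo) = (P, Vrt.oo)) ∧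
          (∀ P, νi (P, Vrt.mid m') = (P, Vrt.mid m)) ∧
          ∃ (u : F) (a : K), a ≠ 0 ∧ t • g = algebraMap K F a * u ^ n * g) :
    CocycleF3 N n R P₃ := by
  intro g D h va vb hNF hP m m'
  obtain ⟨t, act, νi, hν, hoo, hmm, u, a, ha, hgu⟩ := hact g hP m m'
  obtain ⟨γ, hγ, hcob⟩ := s3f_cocycle_of_act N hWD hn hNF act hν ha hgu
  refine s3_F3_of_cocycle (VA := fun i => va (νi i) / va i) (VB := fun i => vb (νi i) / vb i)
    m m' (fun i => div_ne_zero (hNF.hvb0 _) (hNF.hvb0 _)) ?_ ?_ ?_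
    ⟨γ, hγ, fun P v => ?_⟩
  · intro P
    show va (νi (P, Vrt.oo)) / va (P, Vrt.oo) = vb (νi (P, Vrt.oo)) / vb (P, Vrt.oo)
    rw [hoo P, div_self (hNF.hva0 _), div_self (hNF.hvb0 _)]
  · intro P
    show va (νi (P, Vrt.mid m')) / va (P, Vrt.mid m') * va (P, Vrt.mid m') = va (P, Vrt.mid m)
    rw [hmm P, div_mul_cancel₀ _ (hNF.hva0 _)]
  · intro P
    show vb (νi (P, Vrt.mid m')) / vb (P, Vrt.mid m') * vb (P, Vrt.mid m') = vb (P, Vrt.mid m)
    rw [hmm P, div_mul_cancel₀ _ (hNF.hvb0 _)]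
  · have := hcob (P, v)
    rwa [hsrc, htgt] at this

end Modular

end Fermat.Agent.S36G
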