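import Mathlib
import Fermat.Agent.S36.G.CocycleF3
import Fermat.Agent.Lib.BadRed.Graph.Deuring.Main
import Fermat.Agent.Lib.BadRed.Graph.Deuring.PermNode

set_option autoImplicit false
set_option linter.unusedSectionVars false

/-!
# Cluster G (S36), Step 3: the relation (F3) for the package of a SEED  (helper55, INERT)

`N = G.graphSetup`, `G : GraphSeed` on the modular graph `K_{|Vert|, s}`.

* `GraphSeed.actOfPermAut`   : an automorphism of the seed acts on the package (`N.Act t`);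
* `nodeCorr_of_isPermAut`    : if `π` fixes the horizontal components, the node `(P, σ v)` is
                               mapped to the node `(P, v)` (`π (vert (σ v)) = vert v`);
* `cocycleF3_of_seed`        : `CocycleF3 G.graphSetup n R P₃` if for every `g` with `P₃ g` and
  every pair `m ≠ m'` of middle vertices there is an automorphism `t` of the seed
  (`G.IsPermAut t π e`, e.g. from `GraphSeed.IsPermAutW.isPermAut`) with `π (hor P) = hor P`,
  `π (vert ∞) = vert ∞`, `π (vert (mid m)) = vert (mid m')` and `t • g = a uⁿ g`.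
-/

noncomputable section

open AlgebraicCurve Fermat.Agent.RR Fermat.Agent.Deuring

namespace Fermat.Agent.S36G

open Fermat.Agent.BadRed Fermat.Agent.BadRedG Fermat.Agent.BadRed.Gluing

variable {K F k : Type*} [Field K] [Field F] [Algebra K F] [Field k]

section General

variable {κ : Type*} {Fk : κ → Type*} [∀ c, Field (Fk c)] [∀ c, Algebra k (Fk c)] {ι : Type*}
  [Fintype κ] [Fintype ι] [Infinite k] [Nonempty κ]

/-- an automorphism of the seed acts on its package. -/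
def _root_.Fermat.Agent.BadRedG.GraphSeed.actOfPermAut (G : GraphSeed K F k κ Fk ι)
    {t : SemilinearAut K F} {π : Equiv.Perm κ} {e : ∀ c, Fk c ≃ₐ[k] Fk (π c)}
    (ht : G.IsPermAut t π e) : G.graphSetup.Act t where
  π := π
  e := e
  mem := ht.mem
  red := ht.red
  ord := fun P hP => G.graphSetup_ordSmulPerm t π e ht P hP

end General

section Modular

variable {Mid SS : Type} [Fintype Mid] [Fintype SS] {Fk : Vtx Mid SS → Type*}
  [∀ c, Field (Fk c)] [∀ c, Algebra k (Fk c)] [Infinite k]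

/-- the nodes of the modular graph are permuted as their vertices. -/
theorem nodeCorr_of_isPermAut (G : GraphSeed K F k (Vtx Mid SS) Fk (Nod Mid SS))
    (hsrc : ∀ i, G.src i = nodSrc i) (htgt : ∀ i, G.tgt i = nodTgt i)
    {t : SemilinearAut K F} {π : Equiv.Perm (Vtx Mid SS)}
    {e : ∀ c, Fk c ≃ₐ[k] Fk (π c)} (ht : G.IsPermAut t π e)
    (hπP : ∀ P, π (Vtx.hor P) = Vtx.hor P) (σ : Vrt Mid → Vrt Mid)
    (hσ : ∀ v, π (Vtx.vert (σ v)) = Vtx.vert v) :
    NodeCorr G.graphSetup (G.actOfPermAut ht) (fun i => (i.1, σ i.2)) := by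
  have key : ∀ i : Nod Mid SS, ∃ (h₁ : π (G.src (i.1, σ i.2)) = G.src i)
      (h₂ : π (G.tgt (i.1, σ i.2)) = G.tgt i),
      PlaceCorr ((e (G.src (i.1, σ i.2))).trans (AlgEquiv.cast (R := k) (A := Fk) h₁))
        (G.s₁ (i.1, σ i.2)) (G.s₁ i) ∧
      PlaceCorr ((e (G.tgt (i.1, σ i.2))).trans (AlgEquiv.cast (R := k) (A := Fk) h₂))
        (G.s₂ (i.1, σ i.2)) (G.s₂ i) := by
    rintro ⟨P, v⟩
    obtain ⟨j', hj | hj⟩ := ht.node (P, σ v)
    · obtain ⟨h₁, h₂, c₁, c₂⟩ := hj
      have e1 : j' = (P, v) := by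
        have a1 := h₁
        have a2 := h₂
        rw [hsrc, hsrc, nodSrc, nodSrc, hσ] at a1
        rw [htgt, htgt, nodTgt, nodTgt, hπP] at a2
        exact Prod.ext (Vtx.hor.inj a2).symm (Vtx.vert.inj a1).symm
      subst e1
      exact ⟨h₁, h₂, c₁, c₂⟩
    · obtain ⟨h₁, -, -, -⟩ := hj
      rw [hsrc, htgt, nodSrc, nodTgt, hσ] at h₁
      cases h₁
  exact ⟨fun i => ⟨(key i).choose, (key i).choose_spec.choose_spec.1⟩,
    fun i => ⟨(key i).choose_spec.choose, (key i).choose_spec.choose_spec.2⟩⟩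

/-- **(F3) for the package of a seed.** -/
theorem cocycleF3_of_seed (G : GraphSeed K F k (Vtx Mid SS) Fk (Nod Mid SS))
    (hsrc : ∀ i, G.src i = nodSrc i) (htgt : ∀ i, G.tgt i = nodTgt i)
    (hWD : GraphWDStatement G.graphSetup) {n : ℕ} (hn : n ≠ 0) (R : Divisor K F)
    (P₃ : F → Prop)
    (hact : ∀ g : F, P₃ g → ∀ m m' : Mid, m ≠ m' →
      ∃ (t : SemilinearAut K F) (π : Equiv.Perm (Vtx Mid SS)) (e : ∀ c, Fk c ≃ₐ[k] Fk (π c)),
        G.IsPermAut t π e ∧ (∀ P, π (Vtx.hor P) = Vtx.hor P) ∧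
          π (Vtx.vert Vrt.oo) = Vtx.vert Vrt.oo ∧
          π (Vtx.vert (Vrt.mid m)) = Vtx.vert (Vrt.mid m') ∧
          ∃ (u : F) (a : K), a ≠ 0 ∧ t • g = algebraMap K F a * u ^ n * g) :
    CocycleF3 G.graphSetup n R P₃ := by
  intro g D h va vb hNF hP m m'
  by_cases hmm : m = m'
  · subst hmm
    exact ⟨1, one_ne_zero, fun P => by rw [one_mul]⟩
  obtain ⟨t, π, e, ht, hπP, hπoo, hπm, u, a, ha, hgu⟩ := hact g hP m m' hmm
  -- the inverse of `π` on the vertical vertices
  have hex : ∀ v : Vrt Mid, ∃ w : Vrt Mid, π (Vtx.vert w) = Vtx.vert v := by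
    intro v
    rcases hw : π.symm (Vtx.vert v) with w | P
    · exact ⟨w, by rw [← hw, Equiv.apply_symm_apply]⟩
    · exfalso
      have h1 : π (Vtx.hor P) = Vtx.vert v := by rw [← hw, Equiv.apply_symm_apply]
      rw [hπP] at h1
      cases h1
  choose σ hσ using hex
  have hσoo : σ Vrt.oo = Vrt.oo :=
    Vtx.vert.inj (π.injective ((hσ Vrt.oo).trans hπoo.symm))
  have hσm : σ (Vrt.mid m') = Vrt.mid m :=
    Vtx.vert.inj (π.injective ((hσ (Vrt.mid m')).trans hπm.symm))
  have hν := nodeCorr_of_isPermAut G hsrc htgt ht hπP σ hσ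
  obtain ⟨γ, hγ, hcob⟩ := s3f_cocycle_of_act G.graphSetup hWD hn hNF (G.actOfPermAut ht) hν
    ha hgu
  refine s3_F3_of_cocycle (VA := fun i => va (i.1, σ i.2) / va i)
    (VB := fun i => vb (i.1, σ i.2) / vb i)
    m m' (fun i => div_ne_zero (hNF.hvb0 _) (hNF.hvb0 _)) ?_ ?_ ?_
    ⟨γ, hγ, fun P v => ?_⟩
  · intro P
    show va (P, σ Vrt.oo) / va (P, Vrt.oo) = vb (P, σ Vrt.oo) / vb (P, Vrt.oo)
    rw [hσoo, div_self (hNF.hva0 _), div_self (hNF.hvb0 _)]
  · intro P
    show va (P, σ (Vrt.mid m')) / va (P, Vrt.mid m') * va (P, Vrt.mid m') = va (P, Vrt.mid m)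
    rw [hσm, div_mul_cancel₀ _ (hNF.hva0 _)]
  · intro P
    show vb (P, σ (Vrt.mid m')) / vb (P, Vrt.mid m') * vb (P, Vrt.mid m') = vb (P, Vrt.mid m)
    rw [hσm, div_mul_cancel₀ _ (hNF.hvb0 _)]
  · have := hcob (P, v)
    have hs : G.graphSetup.src (P, v) = Vtx.vert v := hsrc (P, v)
    have ht' : G.graphSetup.tgt (P, v) = Vtx.hor P := htgt (P, v)
    rwa [hs, ht'] at this

end Modular

end Fermat.Agent.S36G
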