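import Mathlib
import Fermat.Agent.S36.G.Types
import Fermat.Agent.Lib.Deuring.Basic
import Fermat.Prelude.Def_AlgebraicCurve_BaseChangeGalois

set_option autoImplicit false
set_option linter.unusedSectionVars false

/-!
# S36 (cluster G), seat INERT: vertex-wise ASSEMBLY of the inertia action  (helper55)

On the modular graph (`Vtx Mid SS`, residue fields `FkOf Fk0 FkM FkP`) an inertia element acts
trivially on `v_∞`, `v_0`, permutes the middle vertices by `σ` and fixes every `w_P`: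

* `inertPerm σ : Equiv.Perm (Vtx Mid SS)`  (`∞ ↦ ∞`, `0 ↦ 0`, `mid m ↦ mid (σ m)`, `P ↦ P`);
* `inertFk σ eM eP c : FkOf .. c ≃ₐ[k] FkOf .. (inertPerm σ c)`  (`id` at `∞`, `0`; `eM m`; `eP P`);
* `inert_asm_mem`, `inert_asm_red` : the fields `mem`, `red` of `GraphSeed.IsPermAutW` /
  `GraphSetup.Act` from the four vertex-wise statements.
-/

noncomputable section

open AlgebraicCurve Fermat.Agent.Deuring

namespace Fermat.Agent.S36G

variable {Mid SS : Type}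

/-- the permutation of the vertices induced by a permutation of the middle vertices. -/
def inertPerm (σ : Equiv.Perm Mid) : Equiv.Perm (Vtx Mid SS) where
  toFun
    | Vtx.vert Vrt.oo => Vtx.vert Vrt.oo
    | Vtx.vert Vrt.zero => Vtx.vert Vrt.zero
    | Vtx.vert (Vrt.mid m) => Vtx.vert (Vrt.mid (σ m))
    | Vtx.hor P => Vtx.hor P
  invFun
    | Vtx.vert Vrt.oo => Vtx.vert Vrt.oo
    | Vtx.vert Vrt.zero => Vtx.vert Vrt.zero
    | Vtx.vert (Vrt.mid m) => Vtx.vert (Vrt.mid (σ.symm m))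
    | Vtx.hor P => Vtx.hor P
  left_inv c := by
    rcases c with (_ | _ | m) | P
    · rfl
    · rfl
    · show Vtx.vert (Vrt.mid (σ.symm (σ m))) = _
      rw [Equiv.symm_apply_apply]
    · rfl
  right_inv c := by
    rcases c with (_ | _ | m) | P
    · rfl
    · rfl
    · show Vtx.vert (Vrt.mid (σ (σ.symm m))) = _
      rw [Equiv.apply_symm_apply]
    · rfl

@[simp] theorem inertPerm_oo (σ : Equiv.Perm Mid) :
    inertPerm (SS := SS) σ (Vtx.vert Vrt.oo) = Vtx.vert Vrt.oo := rfl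

@[simp] theorem inertPerm_zero (σ : Equiv.Perm Mid) :
    inertPerm (SS := SS) σ (Vtx.vert Vrt.zero) = Vtx.vert Vrt.zero := rfl

@[simp] theorem inertPerm_mid (σ : Equiv.Perm Mid) (m : Mid) :
    inertPerm (SS := SS) σ (Vtx.vert (Vrt.mid m)) = Vtx.vert (Vrt.mid (σ m)) := rfl

@[simp] theorem inertPerm_hor (σ : Equiv.Perm Mid) (P : SS) :
    inertPerm σ (Vtx.hor P : Vtx Mid SS) = Vtx.hor P := rfl

variable {K F : Type*} [Field K] [Field F] [Algebra K F]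

section Fk

variable {k : Type} [Field k] {Fk0 : Type} [Field Fk0] [Algebra k Fk0]
  {FkM : Mid → Type} [∀ m, Field (FkM m)] [∀ m, Algebra k (FkM m)]
  {FkP : SS → Type} [∀ P, Field (FkP P)] [∀ P, Algebra k (FkP P)]

/-- the isomorphisms of the residue fields induced by an inertia element. -/
def inertFk (σ : Equiv.Perm Mid) (eM : ∀ m, FkM m ≃ₐ[k] FkM (σ m))
    (eP : ∀ P, FkP P ≃ₐ[k] FkP P) :
    ∀ c : Vtx Mid SS, FkOf Fk0 FkM FkP c ≃ₐ[k] FkOf Fk0 FkM FkP (inertPerm σ c)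
  | Vtx.vert Vrt.oo => (AlgEquiv.refl : Fk0 ≃ₐ[k] Fk0)
  | Vtx.vert Vrt.zero => (AlgEquiv.refl : Fk0 ≃ₐ[k] Fk0)
  | Vtx.vert (Vrt.mid m) => eM m
  | Vtx.hor P => eP P

theorem inertFk_oo (σ : Equiv.Perm Mid) (eM : ∀ m, FkM m ≃ₐ[k] FkM (σ m))
    (eP : ∀ P, FkP P ≃ₐ[k] FkP P) (y : Fk0) :
    inertFk (Fk0 := Fk0) σ eM eP (Vtx.vert Vrt.oo) y = y := rfl

theorem inertFk_zero (σ : Equiv.Perm Mid) (eM : ∀ m, FkM m ≃ₐ[k] FkM (σ m))
    (eP : ∀ P, FkP P ≃ₐ[k] FkP P) (y : Fk0) :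
    inertFk (Fk0 := Fk0) σ eM eP (Vtx.vert Vrt.zero) y = y := rfl

theorem inertFk_mid (σ : Equiv.Perm Mid) (eM : ∀ m, FkM m ≃ₐ[k] FkM (σ m))
    (eP : ∀ P, FkP P ≃ₐ[k] FkP P) (m : Mid) (y : FkM m) :
    inertFk (Fk0 := Fk0) σ eM eP (Vtx.vert (Vrt.mid m)) y = eM m y := rfl

theorem inertFk_hor (σ : Equiv.Perm Mid) (eM : ∀ m, FkM m ≃ₐ[k] FkM (σ m))
    (eP : ∀ P, FkP P ≃ₐ[k] FkP P) (P : SS) (y : FkP P) :
    inertFk (Fk0 := Fk0) σ eM eP (Vtx.hor P) y = eP P y := rfl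

variable (S : ∀ c : Vtx Mid SS, ValSetup K F k (FkOf Fk0 FkM FkP c)) (t : SemilinearAut K F)
  (σ : Equiv.Perm Mid) (eM : ∀ m, FkM m ≃ₐ[k] FkM (σ m)) (eP : ∀ P, FkP P ≃ₐ[k] FkP P)

/-- **assembly, `mem`**. -/
theorem inert_asm_mem
    (hoo : ∀ f, f ∈ (S (Vtx.vert Vrt.oo)).Ov → t • f ∈ (S (Vtx.vert Vrt.oo)).Ov)
    (h0 : ∀ f, f ∈ (S (Vtx.vert Vrt.zero)).Ov → t • f ∈ (S (Vtx.vert Vrt.zero)).Ov)
    (hM : ∀ m f, f ∈ (S (Vtx.vert (Vrt.mid m))).Ov → t • f ∈ (S (Vtx.vert (Vrt.mid (σ m)))).Ov)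
    (hP : ∀ P f, f ∈ (S (Vtx.hor P)).Ov → t • f ∈ (S (Vtx.hor P)).Ov)
    (c : Vtx Mid SS) (f : F) (hf : f ∈ (S c).Ov) : t • f ∈ (S (inertPerm σ c)).Ov := by
  rcases c with (_ | _ | m) | P
  · exact hoo f hf
  · exact h0 f hf
  · exact hM m f hf
  · exact hP P f hf

/-- **assembly, `red`**. -/
theorem inert_asm_red
    (hoo : ∀ f, f ∈ (S (Vtx.vert Vrt.oo)).Ov →
      (S (Vtx.vert Vrt.oo)).red (t • f) = (S (Vtx.vert Vrt.oo)).red f)
    (h0 : ∀ f, f ∈ (S (Vtx.vert Vrt.zero)).Ov →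
      (S (Vtx.vert Vrt.zero)).red (t • f) = (S (Vtx.vert Vrt.zero)).red f)
    (hM : ∀ m f, f ∈ (S (Vtx.vert (Vrt.mid m))).Ov →
      (S (Vtx.vert (Vrt.mid (σ m)))).red (t • f) = eM m ((S (Vtx.vert (Vrt.mid m))).red f))
    (hP : ∀ P f, f ∈ (S (Vtx.hor P)).Ov →
      (S (Vtx.hor P)).red (t • f) = eP P ((S (Vtx.hor P)).red f))
    (c : Vtx Mid SS) (f : F) (hf : f ∈ (S c).Ov) :
    (S (inertPerm σ c)).red (t • f) = inertFk σ eM eP c ((S c).red f) := by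
  rcases c with (_ | _ | m) | P
  · exact hoo f hf
  · exact h0 f hf
  · exact hM m f hf
  · exact hP P f hf

end Fk

end Fermat.Agent.S36G
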