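import Mathlib
import Fermat.Agent.Lib.BadRed.Graph.NodeMatch

set_option autoImplicit false
set_option linter.unusedSectionVars false

/-!
# Cluster G (S36), SEED-MOD, part 1: matchings in INDEXED form (helper40)

Repackaging of helper82's `nmt_exists_equiv` (`Lib/BadRed/Graph/NodeMatch.lean`) for the assembly
of the modular graph:

* `NmtAdm.mono`, `NmtEq.mono` : restriction of the points / of the admissible functions;
* `exists_indexed_matching` : the points `a i` (`i : I`, injective) of the first family, the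
  finite set `PJ` of the points of the second family, equal counts with a CONSTANT weight
  `⟹` an injective `b : I → _` onto `PJ` with `NmtEq (a i) (b i)`;
* `exists_indexed_matching_of_sub` : the same when the count contains in addition pairs
  `(a₀ i, b₀ i)` which are already matched (the `∞`-branches in the `u₁`-node of the modular
  graph; weights `w₀`, `w` different).

Nothing here mentions modular curves.
-/

noncomputable section

open AlgebraicCurve Fermat.Agent.RR Fermat.Agent.Deuring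

namespace Fermat.Agent.S36G

open Fermat.Agent.BadRed Fermat.Agent.BadRedG

variable {K F k : Type*} [Field K] [Field F] [Algebra K F] [Field k]
  {κ : Type*} {Fk : κ → Type*} [∀ c, Field (Fk c)] [∀ c, Algebra k (Fk c)]
  {S : ∀ c : κ, ValSetup K F k (Fk c)}

/-- admissibility passes to a smaller set of points. -/
theorem nmtAdm_mono {𝔏 : Set F} {Pts Pts' : Finset (Σ c, Place k (Fk c))}
    (h : NmtAdm S 𝔏 Pts) (hsub : Pts' ⊆ Pts) : NmtAdm S 𝔏 Pts' where
  A_eq := h.A_eq
  res_eq := h.res_eq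
  zero_mem := h.zero_mem
  add_mem := h.add_mem
  smul_mem := h.smul_mem
  int := fun f hf p hp => h.int f hf p (hsub hp)
  reg := fun f hf p hp => h.reg f hf p (hsub hp)

/-- equality of the values passes to a smaller set of admissible functions. -/
theorem nmtEq_mono {𝔏 𝔏' : Set F} (hsub : 𝔏' ⊆ 𝔏) {p p' : Σ c, Place k (Fk c)}
    (h : NmtEq S 𝔏 p p') : NmtEq S 𝔏' p p' :=
  fun f hf a => h f (hsub hf) a

/-- the common value of an admissible function at two matched points. -/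
theorem exists_valAt_of_nmtEq {𝔏 : Set F} {Pts : Finset (Σ c, Place k (Fk c))}
    (hadm : NmtAdm S 𝔏 Pts) {p p' : Σ c, Place k (Fk c)} (hp : p ∈ Pts)
    (h : NmtEq S 𝔏 p p') {f : F} (hf : f ∈ 𝔏) :
    ∃ a : k, ValAt p.2 ((S p.1).red f) a ∧ ValAt p'.2 ((S p'.1).red f) a := by
  obtain ⟨a, ha⟩ := hadm.reg f hf p hp
  exact ⟨a, ha, (h f hf a).mp ha⟩

variable [Infinite k]

open Classical in
/-- **matching, indexed form** (constant weight). -/
theorem exists_indexed_matching {I : Type*} [Fintype I] {𝔏 : Set F}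
    (a : I → Σ c, Place k (Fk c)) (ha : Function.Injective a)
    (PJ Pts : Finset (Σ c, Place k (Fk c))) (hadm : NmtAdm S 𝔏 Pts)
    (haP : ∀ i, a i ∈ Pts) (hPJ : PJ ⊆ Pts) (c₀ : κ) (w₀ : ℤ) (hw₀ : w₀ ≠ 0)
    (hcount : ∀ f : F, f ∈ 𝔏 → ∀ x : k,
      (∑ i, if ValAt (a i).2 ((S (a i).1).red f) x then w₀ else 0) =
        ∑ p ∈ PJ, if ValAt p.2 ((S p.1).red f) x then w₀ else 0) :
    ∃ b : I → Σ c, Place k (Fk c), Function.Injective b ∧ (∀ i, b i ∈ PJ) ∧
      (∀ p ∈ PJ, ∃ i, b i = p) ∧ ∀ i, NmtEq S 𝔏 (a i) (b i) := by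
  set PI : Finset (Σ c, Place k (Fk c)) := Finset.univ.image a with hPI
  have hsub : PI ∪ PJ ⊆ Pts := by
    intro p hp
    rcases Finset.mem_union.mp hp with hp | hp
    · obtain ⟨i, -, rfl⟩ := Finset.mem_image.mp hp
      exact haP i
    · exact hPJ hp
  obtain ⟨σ, hσ⟩ := nmt_exists_equiv PI PJ (nmtAdm_mono hadm hsub) c₀ w₀ hw₀ (by
    intro f hf x
    rw [hPI, Finset.sum_image (fun i _ j _ hij => ha hij)]
    exact hcount f hf x)
  have hmem : ∀ i, a i ∈ PI := fun i => Finset.mem_image_of_mem a (Finset.mem_univ i)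
  refine ⟨fun i => (σ ⟨a i, hmem i⟩).1, ?_, fun i => (σ ⟨a i, hmem i⟩).2, ?_, ?_⟩
  · intro i j hij
    have h1 : σ ⟨a i, hmem i⟩ = σ ⟨a j, hmem j⟩ := Subtype.ext hij
    have h2 := σ.injective h1
    exact ha (congrArg Subtype.val h2)
  · intro p hp
    obtain ⟨i, -, hi⟩ := Finset.mem_image.mp (σ.symm ⟨p, hp⟩).2
    refine ⟨i, ?_⟩
    have h1 : (⟨a i, hmem i⟩ : {p // p ∈ PI}) = σ.symm ⟨p, hp⟩ := Subtype.ext hi
    show (σ ⟨a i, hmem i⟩).1 = p
    rw [h1, Equiv.apply_symm_apply]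
  · intro i
    exact hσ ⟨a i, hmem i⟩

open Classical in
/-- **matching, indexed form, with pairs which are already matched** (weights `w₀` for the
matched pairs, `w` for the new points). -/
theorem exists_indexed_matching_of_sub {I₀ I : Type*} [Fintype I₀] [Fintype I] {𝔏 : Set F}
    (a₀ b₀ : I₀ → Σ c, Place k (Fk c)) (h₀ : ∀ i, NmtEq S 𝔏 (a₀ i) (b₀ i))
    (a : I → Σ c, Place k (Fk c)) (ha : Function.Injective a)
    (PJ Pts : Finset (Σ c, Place k (Fk c))) (hadm : NmtAdm S 𝔏 Pts)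
    (haP : ∀ i, a i ∈ Pts) (hPJ : PJ ⊆ Pts) (c₀ : κ) (w₀ w : ℤ) (hw : w ≠ 0)
    (hcount : ∀ f : F, f ∈ 𝔏 → ∀ x : k,
      (∑ i, if ValAt (a₀ i).2 ((S (a₀ i).1).red f) x then w₀ else 0) +
        (∑ i, if ValAt (a i).2 ((S (a i).1).red f) x then w else 0) =
      (∑ i, if ValAt (b₀ i).2 ((S (b₀ i).1).red f) x then w₀ else 0) +
        ∑ p ∈ PJ, if ValAt p.2 ((S p.1).red f) x then w else 0) :
    ∃ b : I → Σ c, Place k (Fk c), Function.Injective b ∧ (∀ i, b i ∈ PJ) ∧
      (∀ p ∈ PJ, ∃ i, b i = p) ∧ ∀ i, NmtEq S 𝔏 (a i) (b i) := by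
  refine exists_indexed_matching a ha PJ Pts hadm haP hPJ c₀ w hw (fun f hf x => ?_)
  have h1 := hcount f hf x
  have h2 : (∑ i, if ValAt (a₀ i).2 ((S (a₀ i).1).red f) x then w₀ else 0) =
      ∑ i, if ValAt (b₀ i).2 ((S (b₀ i).1).red f) x then w₀ else 0 :=
    Finset.sum_congr rfl fun i _ => if_congr (h₀ i f hf x) rfl rfl
  rw [h2] at h1
  exact add_left_cancel h1

end Fermat.Agent.S36G
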