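import Mathlib
import Fermat.Agent.S36.G.Types
import Fermat.Agent.S36.G.SeedMatch
import Fermat.Agent.Lib.BadRed.Graph.Seed
import Fermat.Agent.Lib.BadRed.Graph.SeedClear
import Fermat.Agent.Lib.BadRed.Graph.GraphSeedOfX

set_option autoImplicit false
set_option linter.unusedSectionVars false

/-!
# Cluster G (S36), SEED-MOD: the labelled nodes of the modular graph  (helper40)

The INTEGRATION interface between the modular blocks and the abstract graph package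
(`Lib/BadRed/Graph`): ONE structure `ModMatchInput` with the data which the modular side has to
provide, and the output

* `ModMatchInput.s₂`        : the labelled ends `s₂ (P, v)` on the horizontal component `H_P`,
  defined by the matchings (A), (1), (2) of helper92's SEED blueprint v1.1;
* `ModMatchInput.core`      : the `GraphCore` on `Vtx Mid SS` / `Nod Mid SS`;
* `ModMatchInput.core_node` : the node condition (`hnode` of `graphSeedOfX`): the reductions of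
  every integral `f ∈ L(m D₀)` take the same value on the two branches of every node.

Abstract part (no modular curves):

* `sigma_eq_of_fst`, `nodPick`, `nodPick_injective`;
* `node_of_nmtEq` : one node, from `NmtEq` + a clearing function;
* `sum_eq_sum_index`, `sum_eq_sum_index₂` : the sums over finsets of points as indexed sums
  (to feed the counts of `Lib/BadRed/Graph/NodeCount.lean`).
-/

noncomputable section

open AlgebraicCurve Fermat.Agent.RR Fermat.Agent.Deuring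

namespace Fermat.Agent.S36G

open Fermat.Agent.BadRed Fermat.Agent.BadRedG

/-! ### Abstract lemmas -/

section Abs

/-- a point of a sigma type whose first component is `c`. -/
theorem sigma_eq_of_fst {κ : Type*} {β : κ → Type*} (p : Σ c, β c) (c : κ) (h : p.1 = c) :
    (⟨c, h ▸ p.2⟩ : Σ c, β c) = p := by
  subst h
  rfl

variable {Mid SS : Type}

/-- a function on the nodes from its three pieces. -/
def nodPick {α : Type*} (fA : SS → α) (fM : SS × Mid → α) (f2 : SS → α) : Nod Mid SS → α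
  | (P, Vrt.oo) => fA P
  | (P, Vrt.mid m) => fM (P, m)
  | (P, Vrt.zero) => f2 P

theorem nodPick_oo {α : Type*} (fA : SS → α) (fM : SS × Mid → α) (f2 : SS → α) (P : SS) :
    nodPick fA fM f2 (P, Vrt.oo) = fA P := rfl

theorem nodPick_mid {α : Type*} (fA : SS → α) (fM : SS × Mid → α) (f2 : SS → α) (P : SS)
    (m : Mid) : nodPick fA fM f2 (P, Vrt.mid m) = fM (P, m) := rfl

theorem nodPick_zero {α : Type*} (fA : SS → α) (fM : SS × Mid → α) (f2 : SS → α) (P : SS) :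
    nodPick fA fM f2 (P, Vrt.zero) = f2 P := rfl

/-- the three pieces are injective with pairwise disjoint images. -/
theorem nodPick_injective {α : Type*} [DecidableEq α] (fA : SS → α) (fM : SS × Mid → α)
    (f2 : SS → α) (hA : Function.Injective fA) (hM : Function.Injective fM)
    (h2 : Function.Injective f2) (PA PM P2 : Finset α)
    (hAM : Disjoint PA PM) (hA2 : Disjoint PA P2) (hM2 : Disjoint PM P2)
    (hAmem : ∀ P, fA P ∈ PA) (hMmem : ∀ i, fM i ∈ PM) (h2mem : ∀ P, f2 P ∈ P2) :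
    Function.Injective (nodPick fA fM f2) := by
  rintro ⟨P, v⟩ ⟨P', v'⟩ h
  cases v with
  | oo =>
    cases v' with
    | oo =>
      rw [nodPick_oo, nodPick_oo] at h
      rw [hA h]
    | zero =>
      rw [nodPick_oo, nodPick_zero] at h
      exact absurd (h ▸ hAmem P) (Finset.disjoint_right.mp hA2 (h2mem P'))
    | mid m' =>
      rw [nodPick_oo, nodPick_mid] at h
      exact absurd (h ▸ hAmem P) (Finset.disjoint_right.mp hAM (hMmem (P', m')))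
  | zero =>
    cases v' with
    | oo =>
      rw [nodPick_zero, nodPick_oo] at h
      exact absurd (h ▸ h2mem P) (Finset.disjoint_left.mp hA2 (hAmem P'))
    | zero =>
      rw [nodPick_zero, nodPick_zero] at h
      rw [h2 h]
    | mid m' =>
      rw [nodPick_zero, nodPick_mid] at h
      exact absurd (h ▸ h2mem P) (Finset.disjoint_left.mp hM2 (hMmem (P', m')))
  | mid m =>
    cases v' with
    | oo =>
      rw [nodPick_mid, nodPick_oo] at h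
      exact absurd (h ▸ hMmem (P, m)) (Finset.disjoint_left.mp hAM (hAmem P'))
    | zero =>
      rw [nodPick_mid, nodPick_zero] at h
      exact absurd (h ▸ hMmem (P, m)) (Finset.disjoint_right.mp hM2 (h2mem P'))
    | mid m' =>
      rw [nodPick_mid, nodPick_mid] at h
      have := hM h
      rw [Prod.mk.injEq] at this
      rw [this.1, this.2]

/-- a vertical component is not a horizontal component. -/
theorem nodSrc_ne_nodTgt' (i j : Nod Mid SS) : nodSrc i ≠ nodTgt j := by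
  intro h
  cases h

open Classical in
/-- a sum over a finset of points as an indexed sum. -/
theorem sum_eq_sum_index {α I : Type*} [Fintype I] (a : I → α) (ha : Function.Injective a)
    (PI : Finset α) (hPI : ∀ p, p ∈ PI ↔ ∃ i, a i = p) (g : α → ℤ) :
    ∑ p ∈ PI, g p = ∑ i, g (a i) := by
  have h : PI = Finset.univ.image a := by
    ext p
    rw [hPI, Finset.mem_image]
    constructor
    · rintro ⟨i, hi⟩
      exact ⟨i, Finset.mem_univ i, hi⟩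
    · rintro ⟨i, -, hi⟩
      exact ⟨i, hi⟩
  rw [h, Finset.sum_image (fun i _ j _ hij => ha hij)]

open Classical in
/-- a sum over a finset of points of two kinds as a sum of two indexed sums. -/
theorem sum_eq_sum_index₂ {α I₀ I : Type*} [Fintype I₀] [Fintype I] (a₀ : I₀ → α) (a : I → α)
    (ha₀ : Function.Injective a₀) (ha : Function.Injective a) (hne : ∀ i j, a₀ i ≠ a j)
    (PI : Finset α) (hPI : ∀ p, p ∈ PI ↔ (∃ i, a₀ i = p) ∨ ∃ i, a i = p) (g : α → ℤ) :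
    ∑ p ∈ PI, g p = ∑ i, g (a₀ i) + ∑ i, g (a i) := by
  have h : PI = Finset.univ.image a₀ ∪ Finset.univ.image a := by
    ext p
    rw [hPI, Finset.mem_union, Finset.mem_image, Finset.mem_image]
    constructor
    · rintro (⟨i, hi⟩ | ⟨i, hi⟩)
      · exact Or.inl ⟨i, Finset.mem_univ i, hi⟩
      · exact Or.inr ⟨i, Finset.mem_univ i, hi⟩
    · rintro (⟨i, -, hi⟩ | ⟨i, -, hi⟩)
      · exact Or.inl ⟨i, hi⟩
      · exact Or.inr ⟨i, hi⟩
  have hd : Disjoint (Finset.univ.image a₀) (Finset.univ.image a) := by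
    rw [Finset.disjoint_left]
    intro p hp hp'
    obtain ⟨i, -, hi⟩ := Finset.mem_image.mp hp
    obtain ⟨j, -, hj⟩ := Finset.mem_image.mp hp'
    exact hne i j (hi.trans hj.symm)
  rw [h, Finset.sum_union hd, Finset.sum_image (fun i _ j _ hij => ha₀ hij),
    Finset.sum_image (fun i _ j _ hij => ha hij)]

variable {K F k : Type*} [Field K] [Field F] [Algebra K F] [Field k]
  {κ : Type*} {Fk : κ → Type*} [∀ c, Field (Fk c)] [∀ c, Algebra k (Fk c)]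

/-- **one node**: two matched points `(c₁, Q₁)`, `(c₂, Q₂)` and a clearing function `G` which is
a unit at the two points: the reductions of every integral `f ∈ L(m D₀)` take the same value at
`Q₁` and at `Q₂`. -/
theorem node_of_nmtEq (S : ∀ c : κ, ValSetup K F k (Fk c)) {𝔏 : Set F}
    {Pts : Finset (Σ c, Place k (Fk c))} (hadm : NmtAdm S 𝔏 Pts) {c₁ c₂ : κ}
    (Q₁ : Place k (Fk c₁)) (Q₂ : Place k (Fk c₂))
    (hp : (⟨c₁, Q₁⟩ : Σ c, Place k (Fk c)) ∈ Pts)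
    (hp' : (⟨c₂, Q₂⟩ : Σ c, Place k (Fk c)) ∈ Pts)
    (heq : NmtEq S 𝔏 ⟨c₁, Q₁⟩ ⟨c₂, Q₂⟩) {G : F} (hG : G ∈ 𝔏)
    (hu₁ : (S c₁).red G ≠ 0 ∧ Q₁.ord ((S c₁).red G) = 0)
    (hu₂ : (S c₂).red G ≠ 0 ∧ Q₂.ord ((S c₂).red G) = 0)
    (D₀ : Divisor K F)
    (hclear : ∀ (m : ℕ) (f : F), f ∈ riemannRochSpace (m • D₀) → (∀ c, f ∈ (S c).Ov) →
      f * G ^ m ∈ 𝔏)
    (m : ℕ) (f : F) (hf : f ∈ riemannRochSpace (m • D₀)) (hfint : ∀ c, f ∈ (S c).Ov) :
    ∃ a : k, ValAt Q₁ ((S c₁).red f) a ∧ ValAt Q₂ ((S c₂).red f) a :=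
  seedClear_node S Q₁ Q₂ m (hadm.int G hG _ hp) (hadm.int G hG _ hp') (hfint c₁) (hfint c₂)
    hu₁.1 hu₁.2 hu₂.1 hu₂.2 (exists_valAt_of_nmtEq hadm hp heq hG)
    (exists_valAt_of_nmtEq hadm hp heq (hclear m f hf hfint))

end Abs

/-! ### The input of the modular side -/

section Mod

open Classical in
/-- **The data which the modular side has to provide** for the labelled nodes of the modular
graph.  `pv P v` is the supersingular point `P` on the vertical component `v`; `PJA`, `PJM`, `PJ2`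
are the ends `p_∞`, `p_m`, `p_0` on the horizontal components; `countA`, `count1`, `count2` are
the counts of the node theorems (A) (`u₂`), (1) (`u₁`), (2) (`u₁ / ϖ₁`); `oldA`, `old1`, `old2`:
the old functions put the partner of `P_v` on `H_P`; `G1`, `G2` the clearing functions. -/
structure ModMatchInput (K F k : Type) [Field K] [Field F] [Algebra K F] [Field k]
    (Mid SS : Type) [Fintype Mid] [Fintype SS]
    (Fk0 : Type) [Field Fk0] [Algebra k Fk0]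
    (FkM : Mid → Type) [∀ m, Field (FkM m)] [∀ m, Algebra k (FkM m)]
    (FkP : SS → Type) [∀ P, Field (FkP P)] [∀ P, Algebra k (FkP P)] where
  S : ∀ c : Vtx Mid SS, ValSetup K F k (FkOf Fk0 FkM FkP c)
  A_eq : ∀ c c' : Vtx Mid SS, (S c).A = (S c').A
  res_eq : ∀ (c c' : Vtx Mid SS) (x : K) (h : x ∈ (S c).A) (h' : x ∈ (S c').A),
    (S c).res ⟨x, h⟩ = (S c').res ⟨x, h'⟩
  lat : ∀ c : Vtx Mid SS, HasLattice (S c)
  indep : ∀ c c' : Vtx Mid SS, c ≠ c' → ¬ (S c).Ov ≤ (S c').Ov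
  arch : ∀ (c₀ : Vtx Mid SS) (x : K), x ∈ (S c₀).A → x⁻¹ ∉ (S c₀).A →
    ∀ d : K, ∃ j : ℕ, x ^ j * d ∈ (S c₀).A
  /-- the supersingular point `P` on the vertical component `v` -/
  pv : ∀ (_ : SS) (v : Vrt Mid), Place k (FkOf Fk0 FkM FkP (Vtx.vert v))
  pv_inj : ∀ (v : Vrt Mid) (P P' : SS), pv P v = pv P' v → P = P'
  /-- the admissible functions of the node theorems (A), (1), (2) -/
  LA : Set F
  L1 : Set F
  L2 : Set F
  L1_sub : L1 ⊆ LA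
  PtsA : Finset (Σ c, Place k (FkOf Fk0 FkM FkP c))
  Pts1 : Finset (Σ c, Place k (FkOf Fk0 FkM FkP c))
  Pts2 : Finset (Σ c, Place k (FkOf Fk0 FkM FkP c))
  admA : NmtAdm S LA PtsA
  adm1 : NmtAdm S L1 Pts1
  adm2 : NmtAdm S L2 Pts2
  /-- the ends `p_∞`, `p_m`, `p_0` on the horizontal components -/
  PJA : Finset (Σ c, Place k (FkOf Fk0 FkM FkP c))
  PJM : Finset (Σ c, Place k (FkOf Fk0 FkM FkP c))
  PJ2 : Finset (Σ c, Place k (FkOf Fk0 FkM FkP c))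
  disjAM : Disjoint PJA PJM
  disjA2 : Disjoint PJA PJ2
  disjM2 : Disjoint PJM PJ2
  memA : ∀ P, (⟨Vtx.vert Vrt.oo, pv P Vrt.oo⟩ : Σ c, Place k (FkOf Fk0 FkM FkP c)) ∈ PtsA
  mem1oo : ∀ P, (⟨Vtx.vert Vrt.oo, pv P Vrt.oo⟩ : Σ c, Place k (FkOf Fk0 FkM FkP c)) ∈ Pts1
  mem1 : ∀ P m, (⟨Vtx.vert (Vrt.mid m), pv P (Vrt.mid m)⟩ :
    Σ c, Place k (FkOf Fk0 FkM FkP c)) ∈ Pts1
  mem2 : ∀ P, (⟨Vtx.vert Vrt.zero, pv P Vrt.zero⟩ : Σ c, Place k (FkOf Fk0 FkM FkP c)) ∈ Pts2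
  PJA_sub : PJA ⊆ PtsA
  PJA_sub1 : PJA ⊆ Pts1
  PJM_sub : PJM ⊆ Pts1
  PJ2_sub : PJ2 ⊆ Pts2
  wA : ℤ
  w1 : ℤ
  wM : ℤ
  w2 : ℤ
  wA_ne : wA ≠ 0
  wM_ne : wM ≠ 0
  w2_ne : w2 ≠ 0
  /-- node theorem (A): `u = u₂` -/
  countA : ∀ f : F, f ∈ LA → ∀ x : k,
    (∑ P : SS, if ValAt (pv P Vrt.oo) ((S (Vtx.vert Vrt.oo)).red f) x then wA else 0) =
      ∑ p ∈ PJA, if ValAt p.2 ((S p.1).red f) x then wA else 0
  /-- node theorem (1): `u = u₁` -/
  count1 : ∀ f : F, f ∈ L1 → ∀ x : k,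
    (∑ P : SS, if ValAt (pv P Vrt.oo) ((S (Vtx.vert Vrt.oo)).red f) x then w1 else 0) +
      (∑ i : SS × Mid,
        if ValAt (pv i.1 (Vrt.mid i.2)) ((S (Vtx.vert (Vrt.mid i.2))).red f) x then wM else 0) =
    (∑ p ∈ PJA, if ValAt p.2 ((S p.1).red f) x then w1 else 0) +
      ∑ p ∈ PJM, if ValAt p.2 ((S p.1).red f) x then wM else 0
  /-- node theorem (2): `u = u₁ / ϖ₁` -/
  count2 : ∀ f : F, f ∈ L2 → ∀ x : k,
    (∑ P : SS, if ValAt (pv P Vrt.zero) ((S (Vtx.vert Vrt.zero)).red f) x then w2 else 0) =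
      ∑ p ∈ PJ2, if ValAt p.2 ((S p.1).red f) x then w2 else 0
  /-- the old functions: the partner of `P_v` lies on `H_P` -/
  oldA : ∀ (P : SS) (p : Σ c, Place k (FkOf Fk0 FkM FkP c)), p ∈ PJA →
    NmtEq S LA ⟨Vtx.vert Vrt.oo, pv P Vrt.oo⟩ p → p.1 = Vtx.hor P
  old1 : ∀ (P : SS) (m : Mid) (p : Σ c, Place k (FkOf Fk0 FkM FkP c)), p ∈ PJM →
    NmtEq S L1 ⟨Vtx.vert (Vrt.mid m), pv P (Vrt.mid m)⟩ p → p.1 = Vtx.hor P
  old2 : ∀ (P : SS) (p : Σ c, Place k (FkOf Fk0 FkM FkP c)), p ∈ PJ2 →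
    NmtEq S L2 ⟨Vtx.vert Vrt.zero, pv P Vrt.zero⟩ p → p.1 = Vtx.hor P
  /-- the divisor of the seed and the clearing functions -/
  D₀ : Divisor K F
  G1 : F
  G2 : F
  G1_mem : G1 ∈ L1
  G2_mem : G2 ∈ L2
  G1_unit_oo : ∀ P, (S (Vtx.vert Vrt.oo)).red G1 ≠ 0 ∧
    (pv P Vrt.oo).ord ((S (Vtx.vert Vrt.oo)).red G1) = 0
  G1_unit_mid : ∀ P m, (S (Vtx.vert (Vrt.mid m))).red G1 ≠ 0 ∧
    (pv P (Vrt.mid m)).ord ((S (Vtx.vert (Vrt.mid m))).red G1) = 0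
  G1_unit_A : ∀ p ∈ PJA, (S p.1).red G1 ≠ 0 ∧ p.2.ord ((S p.1).red G1) = 0
  G1_unit_M : ∀ p ∈ PJM, (S p.1).red G1 ≠ 0 ∧ p.2.ord ((S p.1).red G1) = 0
  G2_unit_zero : ∀ P, (S (Vtx.vert Vrt.zero)).red G2 ≠ 0 ∧
    (pv P Vrt.zero).ord ((S (Vtx.vert Vrt.zero)).red G2) = 0
  G2_unit_2 : ∀ p ∈ PJ2, (S p.1).red G2 ≠ 0 ∧ p.2.ord ((S p.1).red G2) = 0
  clear1 : ∀ (m : ℕ) (f : F), f ∈ riemannRochSpace (m • D₀) → (∀ c, f ∈ (S c).Ov) →
    f * G1 ^ m ∈ L1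
  clear2 : ∀ (m : ℕ) (f : F), f ∈ riemannRochSpace (m • D₀) → (∀ c, f ∈ (S c).Ov) →
    f * G2 ^ m ∈ L2

variable {K F k : Type} [Field K] [Field F] [Algebra K F] [Field k]
  {Mid SS : Type} [Fintype Mid] [Fintype SS]
  {Fk0 : Type} [Field Fk0] [Algebra k Fk0]
  {FkM : Mid → Type} [∀ m, Field (FkM m)] [∀ m, Algebra k (FkM m)]
  {FkP : SS → Type} [∀ P, Field (FkP P)] [∀ P, Algebra k (FkP P)]

namespace ModMatchInput

variable (I : ModMatchInput K F k Mid SS Fk0 FkM FkP)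

/-- the point `P_v` as a point of the family. -/
def ptV (P : SS) (v : Vrt Mid) : Σ c, Place k (FkOf Fk0 FkM FkP c) :=
  ⟨Vtx.vert v, I.pv P v⟩

theorem ptV_fst (P : SS) (v : Vrt Mid) : (I.ptV P v).1 = Vtx.vert v := rfl

theorem ptV_inj (v : Vrt Mid) (P P' : SS) (h : I.ptV P v = I.ptV P' v) : P = P' := by
  unfold ptV at h
  rw [Sigma.mk.injEq] at h
  exact I.pv_inj v P P' (eq_of_heq h.2)

theorem ptV_inj' (P P' : SS) (v v' : Vrt Mid) (h : I.ptV P v = I.ptV P' v') :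
    P = P' ∧ v = v' := by
  have h1 : (Vtx.vert v : Vtx Mid SS) = Vtx.vert v' := congrArg Sigma.fst h
  have h2 : v = v' := Vtx.vert.inj h1
  subst h2
  exact ⟨I.ptV_inj v P P' h, rfl⟩

/-! ### The matchings (A), (1), (2) -/

section Matching

variable [Infinite k]

open Classical in
/-- matching (A): `P_∞ ↦ p_∞`. -/
theorem exists_bA : ∃ b : SS → Σ c, Place k (FkOf Fk0 FkM FkP c), Function.Injective b ∧
    (∀ P, b P ∈ I.PJA) ∧ (∀ p ∈ I.PJA, ∃ P, b P = p) ∧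
      ∀ P, NmtEq I.S I.LA (I.ptV P Vrt.oo) (b P) :=
  exists_indexed_matching (fun P => I.ptV P Vrt.oo) (fun P P' h => I.ptV_inj _ P P' h)
    I.PJA I.PtsA I.admA I.memA I.PJA_sub (Vtx.vert Vrt.oo) I.wA I.wA_ne I.countA

open Classical in
/-- matching (2): `P_0 ↦ p_0`. -/
theorem exists_b2 : ∃ b : SS → Σ c, Place k (FkOf Fk0 FkM FkP c), Function.Injective b ∧
    (∀ P, b P ∈ I.PJ2) ∧ (∀ p ∈ I.PJ2, ∃ P, b P = p) ∧
      ∀ P, NmtEq I.S I.L2 (I.ptV P Vrt.zero) (b P) :=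
  exists_indexed_matching (fun P => I.ptV P Vrt.zero) (fun P P' h => I.ptV_inj _ P P' h)
    I.PJ2 I.Pts2 I.adm2 I.mem2 I.PJ2_sub (Vtx.vert Vrt.oo) I.w2 I.w2_ne I.count2

open Classical in
/-- matching (1): `P_m ↦ p_m`, after removing the pairs `(P_∞, p_∞)` of (A). -/
theorem exists_bM : ∃ b : SS × Mid → Σ c, Place k (FkOf Fk0 FkM FkP c), Function.Injective b ∧
    (∀ i, b i ∈ I.PJM) ∧ (∀ p ∈ I.PJM, ∃ i, b i = p) ∧
      ∀ i : SS × Mid, NmtEq I.S I.L1 (I.ptV i.1 (Vrt.mid i.2)) (b i) := by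
  obtain ⟨bA, hAinj, hAmem, hAsurj, hAeq⟩ := I.exists_bA
  refine exists_indexed_matching_of_sub (fun P => I.ptV P Vrt.oo) bA
    (fun P => nmtEq_mono I.L1_sub (hAeq P)) (fun i : SS × Mid => I.ptV i.1 (Vrt.mid i.2))
    ?_ I.PJM I.Pts1 I.adm1 (fun i => I.mem1 i.1 i.2) I.PJM_sub (Vtx.vert Vrt.oo) I.w1 I.wM
    I.wM_ne ?_
  · rintro ⟨P, m⟩ ⟨P', m'⟩ h
    obtain ⟨h1, h2⟩ := I.ptV_inj' P P' (Vrt.mid m) (Vrt.mid m') h
    have h3 : m = m' := Vrt.mid.inj h2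
    rw [h1, h3]
  · intro f hf x
    have h1 := I.count1 f hf x
    have h2 := sum_eq_sum_index bA hAinj I.PJA
      (fun p => ⟨fun hp => hAsurj p hp, fun ⟨P, hP⟩ => hP ▸ hAmem P⟩)
      (fun p => if ValAt p.2 ((I.S p.1).red f) x then I.w1 else 0)
    rw [h2] at h1
    exact h1

end Matching

/-! ### The labelled ends -/

section Labels

variable [Infinite k]

/-- **the labelled ends**: `s₂ (P, v)` is a point of `H_P`, the partner of `P_v`. -/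
theorem exists_s₂ : ∃ s₂ : ∀ i : Nod Mid SS, Place k (FkOf Fk0 FkM FkP (nodTgt i)),
    (∀ i j : Nod Mid SS, (⟨nodTgt i, s₂ i⟩ : Σ c, Place k (FkOf Fk0 FkM FkP c)) =
      ⟨nodTgt j, s₂ j⟩ → i = j) ∧
    ((∀ P, (⟨nodTgt (P, Vrt.oo), s₂ (P, Vrt.oo)⟩ :
        Σ c, Place k (FkOf Fk0 FkM FkP c)) ∈ I.PJA) ∧
      (∀ P m, (⟨nodTgt (P, Vrt.mid m), s₂ (P, Vrt.mid m)⟩ :
        Σ c, Place k (FkOf Fk0 FkM FkP c)) ∈ I.PJM) ∧
      (∀ P, (⟨nodTgt (P, Vrt.zero), s₂ (P, Vrt.zero)⟩ :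
        Σ c, Place k (FkOf Fk0 FkM FkP c)) ∈ I.PJ2)) ∧
    ((∀ p ∈ I.PJA, ∃ P, (⟨nodTgt (P, Vrt.oo), s₂ (P, Vrt.oo)⟩ :
        Σ c, Place k (FkOf Fk0 FkM FkP c)) = p) ∧
      (∀ p ∈ I.PJM, ∃ P m, (⟨nodTgt (P, Vrt.mid m), s₂ (P, Vrt.mid m)⟩ :
        Σ c, Place k (FkOf Fk0 FkM FkP c)) = p) ∧
      (∀ p ∈ I.PJ2, ∃ P, (⟨nodTgt (P, Vrt.zero), s₂ (P, Vrt.zero)⟩ :
        Σ c, Place k (FkOf Fk0 FkM FkP c)) = p)) ∧
    (∀ P, NmtEq I.S I.LA (I.ptV P Vrt.oo) ⟨nodTgt (P, Vrt.oo), s₂ (P, Vrt.oo)⟩) ∧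
      (∀ P m, NmtEq I.S I.L1 (I.ptV P (Vrt.mid m))
        ⟨nodTgt (P, Vrt.mid m), s₂ (P, Vrt.mid m)⟩) ∧
      (∀ P, NmtEq I.S I.L2 (I.ptV P Vrt.zero) ⟨nodTgt (P, Vrt.zero), s₂ (P, Vrt.zero)⟩) := by
  classical
  obtain ⟨bA, hAinj, hAmem, hAsurj, hAeq⟩ := I.exists_bA
  obtain ⟨bM, hMinj, hMmem, hMsurj, hMeq⟩ := I.exists_bM
  obtain ⟨b2, h2inj, h2mem, h2surj, h2eq⟩ := I.exists_b2
  have hb : ∀ i : Nod Mid SS, (nodPick bA bM b2 i).1 = nodTgt i := by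
    rintro ⟨P, v⟩
    cases v with
    | oo => exact I.oldA P (bA P) (hAmem P) (hAeq P)
    | zero => exact I.old2 P (b2 P) (h2mem P) (h2eq P)
    | mid m => exact I.old1 P m (bM (P, m)) (hMmem (P, m)) (hMeq (P, m))
  obtain ⟨s₂, key⟩ : ∃ s₂ : ∀ i : Nod Mid SS, Place k (FkOf Fk0 FkM FkP (nodTgt i)),
      ∀ i, (⟨nodTgt i, s₂ i⟩ : Σ c, Place k (FkOf Fk0 FkM FkP c)) = nodPick bA bM b2 i :=
    ⟨fun i => hb i ▸ (nodPick bA bM b2 i).2, fun i => sigma_eq_of_fst _ _ (hb i)⟩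
  refine ⟨s₂, ?_, ⟨?_, ?_, ?_⟩, ⟨?_, ?_, ?_⟩, ?_, ?_, ?_⟩
  · intro i j h
    rw [key i, key j] at h
    exact nodPick_injective bA bM b2 hAinj hMinj h2inj I.PJA I.PJM I.PJ2 I.disjAM I.disjA2
      I.disjM2 hAmem hMmem h2mem h
  · intro P
    rw [key (P, Vrt.oo)]
    exact hAmem P
  · intro P m
    rw [key (P, Vrt.mid m)]
    exact hMmem (P, m)
  · intro P
    rw [key (P, Vrt.zero)]
    exact h2mem P
  · intro p hp
    obtain ⟨P, hP⟩ := hAsurj p hp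
    exact ⟨P, (key (P, Vrt.oo)).trans hP⟩
  · intro p hp
    obtain ⟨⟨P, m⟩, hP⟩ := hMsurj p hp
    exact ⟨P, m, (key (P, Vrt.mid m)).trans hP⟩
  · intro p hp
    obtain ⟨P, hP⟩ := h2surj p hp
    exact ⟨P, (key (P, Vrt.zero)).trans hP⟩
  · intro P
    rw [key (P, Vrt.oo)]
    exact hAeq P
  · intro P m
    rw [key (P, Vrt.mid m)]
    exact hMeq (P, m)
  · intro P
    rw [key (P, Vrt.zero)]
    exact h2eq P

/-- the labelled end `s₂ (P, v)` on `H_P`. -/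
def s₂ (i : Nod Mid SS) : Place k (FkOf Fk0 FkM FkP (nodTgt i)) :=
  Classical.choose I.exists_s₂ i

/-- the labelled end as a point of the family. -/
def ptH (i : Nod Mid SS) : Σ c, Place k (FkOf Fk0 FkM FkP c) := ⟨nodTgt i, I.s₂ i⟩

theorem s₂_inj (i j : Nod Mid SS)
    (h : (⟨nodTgt i, I.s₂ i⟩ : Σ c, Place k (FkOf Fk0 FkM FkP c)) = ⟨nodTgt j, I.s₂ j⟩) :
    i = j :=
  (Classical.choose_spec I.exists_s₂).1 i j h

theorem ptH_memA (P : SS) : I.ptH (P, Vrt.oo) ∈ I.PJA :=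
  (Classical.choose_spec I.exists_s₂).2.1.1 P

theorem ptH_memM (P : SS) (m : Mid) : I.ptH (P, Vrt.mid m) ∈ I.PJM :=
  (Classical.choose_spec I.exists_s₂).2.1.2.1 P m

theorem ptH_mem2 (P : SS) : I.ptH (P, Vrt.zero) ∈ I.PJ2 :=
  (Classical.choose_spec I.exists_s₂).2.1.2.2 P

theorem exists_ptH_eqA (p : Σ c, Place k (FkOf Fk0 FkM FkP c)) (hp : p ∈ I.PJA) :
    ∃ P, I.ptH (P, Vrt.oo) = p :=
  (Classical.choose_spec I.exists_s₂).2.2.1.1 p hp

theorem exists_ptH_eqM (p : Σ c, Place k (FkOf Fk0 FkM FkP c)) (hp : p ∈ I.PJM) :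
    ∃ P m, I.ptH (P, Vrt.mid m) = p :=
  (Classical.choose_spec I.exists_s₂).2.2.1.2.1 p hp

theorem exists_ptH_eq2 (p : Σ c, Place k (FkOf Fk0 FkM FkP c)) (hp : p ∈ I.PJ2) :
    ∃ P, I.ptH (P, Vrt.zero) = p :=
  (Classical.choose_spec I.exists_s₂).2.2.1.2.2 p hp

theorem nmtEq_oo (P : SS) : NmtEq I.S I.LA (I.ptV P Vrt.oo) (I.ptH (P, Vrt.oo)) :=
  (Classical.choose_spec I.exists_s₂).2.2.2.1 P

theorem nmtEq_mid (P : SS) (m : Mid) :
    NmtEq I.S I.L1 (I.ptV P (Vrt.mid m)) (I.ptH (P, Vrt.mid m)) :=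
  (Classical.choose_spec I.exists_s₂).2.2.2.2.1 P m

theorem nmtEq_zero (P : SS) : NmtEq I.S I.L2 (I.ptV P Vrt.zero) (I.ptH (P, Vrt.zero)) :=
  (Classical.choose_spec I.exists_s₂).2.2.2.2.2 P

end Labels

/-! ### The core and the node condition -/

section Core

variable [Infinite k] [Nonempty SS]

/-- **the `GraphCore` of the modular graph**: components `Vtx Mid SS`, nodes `Nod Mid SS`,
`s₁ (P, v) = P_v`, `s₂ (P, v)` the labelled end on `H_P`. -/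
def core : GraphCore K F k (Vtx Mid SS) (FkOf Fk0 FkM FkP) (Nod Mid SS) where
  S := I.S
  A_eq := I.A_eq
  res_eq := I.res_eq
  lat := I.lat
  indep := I.indep
  src := nodSrc
  tgt := nodTgt
  src_ne_tgt := nodSrc_ne_nodTgt
  s₁ := fun i => I.pv i.1 i.2
  s₂ := I.s₂
  s₁_inj := fun i j h => by
    obtain ⟨P, v⟩ := i
    obtain ⟨P', v'⟩ := j
    obtain ⟨h1, h2⟩ := I.ptV_inj' P P' v v' h
    rw [h1, h2]
  s₂_inj := I.s₂_inj
  s₁_ne_s₂ := fun i j h => nodSrc_ne_nodTgt' i j (congrArg Sigma.fst h)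
  conn := modularGraph_conn
  arch := I.arch

@[simp] theorem core_S : I.core.S = I.S := rfl
@[simp] theorem core_src : I.core.src = nodSrc := rfl
@[simp] theorem core_tgt : I.core.tgt = nodTgt := rfl
theorem core_s₁ (i : Nod Mid SS) : I.core.s₁ i = I.pv i.1 i.2 := rfl
theorem core_s₂ (i : Nod Mid SS) : I.core.s₂ i = I.s₂ i := rfl

/-- **the node condition** (`hnode` of `GraphCore.graphSeedOfX`): the reductions of every
integral `f ∈ L(m D₀)` take the same value on the two branches of every node. -/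
theorem core_node (m : ℕ) (f : F) (hf : f ∈ riemannRochSpace (m • I.D₀))
    (hfint : ∀ c, f ∈ (I.S c).Ov) (i : Nod Mid SS) :
    ∃ a : k, ValAt (I.core.s₁ i) ((I.core.S (I.core.src i)).red f) a ∧
      ValAt (I.core.s₂ i) ((I.core.S (I.core.tgt i)).red f) a := by
  obtain ⟨P, v⟩ := i
  cases v with
  | oo =>
    exact node_of_nmtEq I.S I.adm1 (I.pv P Vrt.oo) (I.s₂ (P, Vrt.oo)) (I.mem1oo P)
      (I.PJA_sub1 (I.ptH_memA P)) (nmtEq_mono I.L1_sub (I.nmtEq_oo P)) I.G1_mem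
      (I.G1_unit_oo P) (I.G1_unit_A _ (I.ptH_memA P)) I.D₀ I.clear1 m f hf hfint
  | zero =>
    exact node_of_nmtEq I.S I.adm2 (I.pv P Vrt.zero) (I.s₂ (P, Vrt.zero)) (I.mem2 P)
      (I.PJ2_sub (I.ptH_mem2 P)) (I.nmtEq_zero P) I.G2_mem
      (I.G2_unit_zero P) (I.G2_unit_2 _ (I.ptH_mem2 P)) I.D₀ I.clear2 m f hf hfint
  | mid m₀ =>
    exact node_of_nmtEq I.S I.adm1 (I.pv P (Vrt.mid m₀)) (I.s₂ (P, Vrt.mid m₀)) (I.mem1 P m₀)
      (I.PJM_sub (I.ptH_memM P m₀)) (I.nmtEq_mid P m₀) I.G1_mem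
      (I.G1_unit_mid P m₀) (I.G1_unit_M _ (I.ptH_memM P m₀)) I.D₀ I.clear1 m f hf hfint

/-- every labelled end lies in one of the three sets of ends. -/
theorem ptH_mem (i : Nod Mid SS) : I.ptH i ∈ I.PJA ∨ I.ptH i ∈ I.PJM ∨ I.ptH i ∈ I.PJ2 := by
  obtain ⟨P, v⟩ := i
  cases v with
  | oo => exact Or.inl (I.ptH_memA P)
  | zero => exact Or.inr (Or.inr (I.ptH_mem2 P))
  | mid m₀ => exact Or.inr (Or.inl (I.ptH_memM P m₀))

/-- **the modular `GraphSeed`** attached to the seed function `x`: `D₀ = (x)_∞`,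
`R c = (red_c x)_∞`. -/
def seed (x : F) (hx : ∀ c, x ∈ (I.S c).Ov)
    (hD₀ : I.D₀ = poleDiv (I.S (Vtx.vert Vrt.oo)).hF x)
    (hpos : ∀ c, 0 < Divisor.degree (poleDiv (I.S c).hFk ((I.S c).red x)))
    (hn₁ : ∀ (P : SS) (v : Vrt Mid), 0 ≤ (I.pv P v).ord ((I.S (Vtx.vert v)).red x))
    (hn₂ : ∀ p : Σ c, Place k (FkOf Fk0 FkM FkP c), p ∈ I.PJA ∨ p ∈ I.PJM ∨ p ∈ I.PJ2 →
      0 ≤ p.2.ord ((I.S p.1).red x))
    (hdeg : Divisor.degree (poleDiv (I.S (Vtx.vert Vrt.oo)).hF x) ≤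
      ∑ c, Divisor.degree (poleDiv (I.S c).hFk ((I.S c).red x)))
    (hgenus : genusFF K F + Fintype.card (Vtx Mid SS) ≤
      (∑ c, genusFF k (FkOf Fk0 FkM FkP c)) + Fintype.card (Nod Mid SS) + 1) :
    GraphSeed K F k (Vtx Mid SS) (FkOf Fk0 FkM FkP) (Nod Mid SS) :=
  I.core.graphSeedOfX (Vtx.vert Vrt.oo) x hx hpos (fun i => hn₁ i.1 i.2)
    (fun i => hn₂ (I.ptH i) (I.ptH_mem i))
    (hdeg) (fun m f hf hfint i => I.core_node m f (hD₀ ▸ hf) hfint i) hgenus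

section SeedSimp

variable (x : F) (hx : ∀ c, x ∈ (I.S c).Ov)
    (hD₀ : I.D₀ = poleDiv (I.S (Vtx.vert Vrt.oo)).hF x)
    (hpos : ∀ c, 0 < Divisor.degree (poleDiv (I.S c).hFk ((I.S c).red x)))
    (hn₁ : ∀ (P : SS) (v : Vrt Mid), 0 ≤ (I.pv P v).ord ((I.S (Vtx.vert v)).red x))
    (hn₂ : ∀ p : Σ c, Place k (FkOf Fk0 FkM FkP c), p ∈ I.PJA ∨ p ∈ I.PJM ∨ p ∈ I.PJ2 →
      0 ≤ p.2.ord ((I.S p.1).red x))
    (hdeg : Divisor.degree (poleDiv (I.S (Vtx.vert Vrt.oo)).hF x) ≤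
      ∑ c, Divisor.degree (poleDiv (I.S c).hFk ((I.S c).red x)))
    (hgenus : genusFF K F + Fintype.card (Vtx Mid SS) ≤
      (∑ c, genusFF k (FkOf Fk0 FkM FkP c)) + Fintype.card (Nod Mid SS) + 1)

@[simp] theorem seed_toGraphCore :
    (I.seed x hx hD₀ hpos hn₁ hn₂ hdeg hgenus).toGraphCore = I.core := rfl

@[simp] theorem seed_S : (I.seed x hx hD₀ hpos hn₁ hn₂ hdeg hgenus).S = I.S := rfl

@[simp] theorem seed_src : (I.seed x hx hD₀ hpos hn₁ hn₂ hdeg hgenus).src = nodSrc := rfl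

@[simp] theorem seed_tgt : (I.seed x hx hD₀ hpos hn₁ hn₂ hdeg hgenus).tgt = nodTgt := rfl

theorem seed_s₁ (i : Nod Mid SS) :
    (I.seed x hx hD₀ hpos hn₁ hn₂ hdeg hgenus).s₁ i = I.pv i.1 i.2 := rfl

theorem seed_s₂ (i : Nod Mid SS) :
    (I.seed x hx hD₀ hpos hn₁ hn₂ hdeg hgenus).s₂ i = I.s₂ i := rfl

@[simp] theorem seed_D₀ :
    (I.seed x hx hD₀ hpos hn₁ hn₂ hdeg hgenus).D₀ = poleDiv (I.S (Vtx.vert Vrt.oo)).hF x := rfl

theorem seed_D₀' : (I.seed x hx hD₀ hpos hn₁ hn₂ hdeg hgenus).D₀ = I.D₀ := hD₀.symm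

@[simp] theorem seed_R (c : Vtx Mid SS) :
    (I.seed x hx hD₀ hpos hn₁ hn₂ hdeg hgenus).R c = poleDiv (I.S c).hFk ((I.S c).red x) := rfl

end SeedSimp

end Core

end ModMatchInput

end Mod

end Fermat.Agent.S36G
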