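import Mathlib
import Fermat.Agent.S36.G.SeedInst
import Fermat.Agent.Lib.BadRed.Graph.NodeCount

set_option autoImplicit false
set_option linter.unusedSectionVars false

/-!
# Cluster G (S36), SEED-ENDS, abstract part: `ModMatchInput` from the three node theorems
(helper40)

* `ModMatchInput.exists_ptH_iff` : the branch points on the horizontal components are exactly the
  points of `PJA ∪ PJM ∪ PJ2` (for the permutation of the branch points under automorphisms);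
* `nmtAdm_inter` : the intersection of two admissible sets is admissible;
* `old_of_sep`   : the hypotheses `oldA`, `old1`, `old2` from separating (old) functions;
* `ModEndsInput` : the three `MNData` (A) `u_A = u₂`, (1) `u₁`, (2) `u₁ / ϖ₁`, the zeros of the
  reductions of the parameters on the vertical components (`= P_v`, with the orders) and the
  orders at their zeros on the horizontal components;
* `ModEndsInput.toMatchInput` : the `ModMatchInput` (`PJA`, `PJM`, `PJ2` := the zeros on the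
  horizontal components; the counts are `nc_count` of `Lib/BadRed/Graph/NodeCount.lean`).
-/

noncomputable section

open AlgebraicCurve Fermat.Agent.RR Fermat.Agent.Deuring

namespace Fermat.Agent.S36G

open Fermat.Agent.BadRed Fermat.Agent.BadRedG

section Abs

variable {K F k : Type*} [Field K] [Field F] [Algebra K F] [Field k]
  {κ : Type*} {Fk : κ → Type*} [∀ c, Field (Fk c)] [∀ c, Algebra k (Fk c)]
  {S : ∀ c : κ, ValSetup K F k (Fk c)}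

/-- the intersection of two admissible sets is admissible (for the points of the first). -/
theorem nmtAdm_inter {𝔏 𝔏' : Set F} {Pts Pts' : Finset (Σ c, Place k (Fk c))}
    (h : NmtAdm S 𝔏 Pts) (h' : NmtAdm S 𝔏' Pts') : NmtAdm S (𝔏 ∩ 𝔏') Pts where
  A_eq := h.A_eq
  res_eq := h.res_eq
  zero_mem := ⟨h.zero_mem, h'.zero_mem⟩
  add_mem := fun f g hf hg => ⟨h.add_mem f g hf.1 hg.1, h'.add_mem f g hf.2 hg.2⟩
  smul_mem := fun c₀ a ha f hf => ⟨h.smul_mem c₀ a ha f hf.1, h'.smul_mem c₀ a ha f hf.2⟩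
  int := fun f hf p hp => h.int f hf.1 p hp
  reg := fun f hf p hp => h.reg f hf.1 p hp

/-- **separation by old functions**: if some admissible `g` takes the value `1` at `p` and
reduces to `0` on every component of `T` except `c₀`, then a partner of `p` on a component of `T`
lies on `c₀`. -/
theorem old_of_sep {𝔏 : Set F} (p p' : Σ c, Place k (Fk c)) (c₀ : κ) (T : Set κ)
    (hT : p'.1 ∈ T) (heq : NmtEq S 𝔏 p p')
    (hsep : ∃ g ∈ 𝔏, ValAt p.2 ((S p.1).red g) 1 ∧ ∀ c ∈ T, c ≠ c₀ → (S c).red g = 0) :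
    p'.1 = c₀ := by
  obtain ⟨g, hg, h1, h0⟩ := hsep
  by_contra hne
  have h2 : ValAt p'.2 ((S p'.1).red g) 1 := (heq g hg 1).mp h1
  rw [h0 p'.1 hT hne] at h2
  exact one_ne_zero (h2.unique (valAt_zero p'.2))

open Classical in
/-- all the points of a node theorem: the zeros of the `red_c u`, `c ∈ V₁`, and of the
`red_c (ϖ / u)`, `c ∈ V₂`. -/
def ncPtsAll (S : ∀ c : κ, ValSetup K F k (Fk c)) (V₁ V₂ : Finset κ) (u : F) (ϖ : K) :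
    Finset (Σ c, Place k (Fk c)) :=
  ncPts S V₁ u ∪ ncPts S V₂ (algebraMap K F ϖ / u)

theorem mem_ncPtsAll_left (S : ∀ c : κ, ValSetup K F k (Fk c)) (V₁ V₂ : Finset κ) (u : F)
    (ϖ : K) {p : Σ c, Place k (Fk c)} (hp : p ∈ ncPts S V₁ u) : p ∈ ncPtsAll S V₁ V₂ u ϖ := by
  classical
  exact Finset.mem_union_left _ hp

theorem mem_ncPtsAll_right (S : ∀ c : κ, ValSetup K F k (Fk c)) (V₁ V₂ : Finset κ) (u : F)
    (ϖ : K) {p : Σ c, Place k (Fk c)} (hp : p ∈ ncPts S V₂ (algebraMap K F ϖ / u)) :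
    p ∈ ncPtsAll S V₁ V₂ u ϖ := by
  classical
  exact Finset.mem_union_right _ hp

theorem ncPtsAll_adm [Infinite k] (S : ∀ c : κ, ValSetup K F k (Fk c)) (V₁ V₂ : Finset κ)
    (u : F) (ϖ : K) (D : MNData S V₁ V₂ u ϖ) :
    NmtAdm S (ncAdm S V₁ V₂ u) (ncPtsAll S V₁ V₂ u ϖ) :=
  nc_adm S V₁ V₂ u ϖ D

end Abs

section Mod

variable {K F k : Type} [Field K] [Field F] [Algebra K F] [Field k]
  {Mid SS : Type} [Fintype Mid] [Fintype SS]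
  {Fk0 : Type} [Field Fk0] [Algebra k Fk0]
  {FkM : Mid → Type} [∀ m, Field (FkM m)] [∀ m, Algebra k (FkM m)]
  {FkP : SS → Type} [∀ P, Field (FkP P)] [∀ P, Algebra k (FkP P)]

/-- the branch points on the horizontal components are the points of `PJA ∪ PJM ∪ PJ2`. -/
theorem ModMatchInput.exists_ptH_iff [Infinite k] (I : ModMatchInput K F k Mid SS Fk0 FkM FkP)
    (p : Σ c, Place k (FkOf Fk0 FkM FkP c)) :
    (∃ i, I.ptH i = p) ↔ p ∈ I.PJA ∨ p ∈ I.PJM ∨ p ∈ I.PJ2 := by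
  constructor
  · rintro ⟨⟨P, v⟩, rfl⟩
    cases v with
    | oo => exact Or.inl (I.ptH_memA P)
    | zero => exact Or.inr (Or.inr (I.ptH_mem2 P))
    | mid m₀ => exact Or.inr (Or.inl (I.ptH_memM P m₀))
  · rintro (h | h | h)
    · obtain ⟨P, hP⟩ := I.exists_ptH_eqA p h
      exact ⟨_, hP⟩
    · obtain ⟨P, m, hP⟩ := I.exists_ptH_eqM p h
      exact ⟨_, hP⟩
    · obtain ⟨P, hP⟩ := I.exists_ptH_eq2 p h
      exact ⟨_, hP⟩

/-- the branch points on the vertical components are the points `P_v`. -/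
theorem ModMatchInput.exists_ptV_iff (I : ModMatchInput K F k Mid SS Fk0 FkM FkP)
    (p : Σ c, Place k (FkOf Fk0 FkM FkP c)) :
    (∃ i : Nod Mid SS, I.ptV i.1 i.2 = p) ↔ ∃ P v, I.ptV P v = p :=
  ⟨fun ⟨i, hi⟩ => ⟨i.1, i.2, hi⟩, fun ⟨P, v, h⟩ => ⟨(P, v), h⟩⟩

end Mod

/-! ### The input in terms of the three node theorems -/

section Ends

open Classical in
/-- **The three node theorems and the zeros of the parameters.**  (A): `uA = u₂`,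
`V₁ = {∞}`, `V₂ = {H_P}`; (1): `u1 = u₁`, `V₁ = {∞} ∪ Mid`, `V₂ = {H_P}`; (2): `u2 = u₁ / ϖ₁`,
`V₁ = {H_P}`, `V₂ = {0}`.  The ends are DEFINED as the zeros of the reductions on the `H_P`:
`PJA` = zeros of `red_P (ϖA / uA)`, `PJM` = zeros of `red_P (ϖ1 / u1)` outside `PJA`,
`PJ2` = zeros of `red_P u2`. -/
structure ModEndsInput (K F k : Type) [Field K] [Field F] [Algebra K F] [Field k]
    (Mid SS : Type) [Fintype Mid] [Fintype SS]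
    (Fk0 : Type) [Field Fk0] [Algebra k Fk0]
    (FkM : Mid → Type) [∀ m, Field (FkM m)] [∀ m, Algebra k (FkM m)]
    (FkP : SS → Type) [∀ P, Field (FkP P)] [∀ P, Algebra k (FkP P)] where
  S : ∀ c : Vtx Mid SS, ValSetup K F k (FkOf Fk0 FkM FkP c)
  lat : ∀ c : Vtx Mid SS, HasLattice (S c)
  arch : ∀ (c₀ : Vtx Mid SS) (x : K), x ∈ (S c₀).A → x⁻¹ ∉ (S c₀).A →
    ∀ d : K, ∃ j : ℕ, x ^ j * d ∈ (S c₀).A
  pv : ∀ (_ : SS) (v : Vrt Mid), Place k (FkOf Fk0 FkM FkP (Vtx.vert v))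
  pv_inj : ∀ (v : Vrt Mid) (P P' : SS), pv P v = pv P' v → P = P'
  VA₁ : Finset (Vtx Mid SS)
  VA₂ : Finset (Vtx Mid SS)
  V1₁ : Finset (Vtx Mid SS)
  V1₂ : Finset (Vtx Mid SS)
  V2₁ : Finset (Vtx Mid SS)
  V2₂ : Finset (Vtx Mid SS)
  mem_VA₁ : ∀ c, c ∈ VA₁ ↔ c = Vtx.vert Vrt.oo
  mem_VA₂ : ∀ c, c ∈ VA₂ ↔ ∃ P, c = Vtx.hor P
  mem_V1₁ : ∀ c, c ∈ V1₁ ↔ c = Vtx.vert Vrt.oo ∨ ∃ m, c = Vtx.vert (Vrt.mid m)
  mem_V1₂ : ∀ c, c ∈ V1₂ ↔ ∃ P, c = Vtx.hor P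
  mem_V2₁ : ∀ c, c ∈ V2₁ ↔ ∃ P, c = Vtx.hor P
  mem_V2₂ : ∀ c, c ∈ V2₂ ↔ c = Vtx.vert Vrt.zero
  uA : F
  u1 : F
  u2 : F
  ϖA : K
  ϖ1 : K
  ϖ2 : K
  DA : MNData S VA₁ VA₂ uA ϖA
  D1 : MNData S V1₁ V1₂ u1 ϖ1
  D2 : MNData S V2₁ V2₂ u2 ϖ2
  wA : ℤ
  w1 : ℤ
  wM : ℤ
  w2 : ℤ
  wA_pos : 0 < wA
  w1_pos : 0 < w1
  wM_pos : 0 < wM
  w2_pos : 0 < w2
  /-- the zeros of `red_∞ uA` are the `P_∞`, of order `wA` -/
  zA : ∀ Q : Place k (FkOf Fk0 FkM FkP (Vtx.vert Vrt.oo)),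
    0 < Q.ord ((S (Vtx.vert Vrt.oo)).red uA) → ∃ P, pv P Vrt.oo = Q
  oA : ∀ P, (pv P Vrt.oo).ord ((S (Vtx.vert Vrt.oo)).red uA) = wA
  /-- the zeros of `red_∞ u1` are the `P_∞`, of order `w1` -/
  z1oo : ∀ Q : Place k (FkOf Fk0 FkM FkP (Vtx.vert Vrt.oo)),
    0 < Q.ord ((S (Vtx.vert Vrt.oo)).red u1) → ∃ P, pv P Vrt.oo = Q
  o1oo : ∀ P, (pv P Vrt.oo).ord ((S (Vtx.vert Vrt.oo)).red u1) = w1
  /-- the zeros of `red_m u1` are the `P_m`, of order `wM` -/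
  z1m : ∀ (m : Mid) (Q : Place k (FkOf Fk0 FkM FkP (Vtx.vert (Vrt.mid m)))),
    0 < Q.ord ((S (Vtx.vert (Vrt.mid m))).red u1) → ∃ P, pv P (Vrt.mid m) = Q
  o1m : ∀ P m, (pv P (Vrt.mid m)).ord ((S (Vtx.vert (Vrt.mid m))).red u1) = wM
  /-- the zeros of `red_0 (ϖ2 / u2)` are the `P_0`, of order `w2` -/
  z2 : ∀ Q : Place k (FkOf Fk0 FkM FkP (Vtx.vert Vrt.zero)),
    0 < Q.ord ((S (Vtx.vert Vrt.zero)).red (algebraMap K F ϖ2 / u2)) → ∃ P, pv P Vrt.zero = Q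
  o2 : ∀ P, (pv P Vrt.zero).ord ((S (Vtx.vert Vrt.zero)).red (algebraMap K F ϖ2 / u2)) = w2
  /-- the orders at the zeros on the horizontal components -/
  hA : ∀ (P : SS) (Q : Place k (FkOf Fk0 FkM FkP (Vtx.hor P))),
    0 < Q.ord ((S (Vtx.hor P)).red (algebraMap K F ϖA / uA)) →
      Q.ord ((S (Vtx.hor P)).red (algebraMap K F ϖA / uA)) = wA
  h1A : ∀ (P : SS) (Q : Place k (FkOf Fk0 FkM FkP (Vtx.hor P))),
    0 < Q.ord ((S (Vtx.hor P)).red (algebraMap K F ϖA / uA)) →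
      Q.ord ((S (Vtx.hor P)).red (algebraMap K F ϖ1 / u1)) = w1
  h1M : ∀ (P : SS) (Q : Place k (FkOf Fk0 FkM FkP (Vtx.hor P))),
    0 < Q.ord ((S (Vtx.hor P)).red (algebraMap K F ϖ1 / u1)) →
      ¬ 0 < Q.ord ((S (Vtx.hor P)).red (algebraMap K F ϖA / uA)) →
        Q.ord ((S (Vtx.hor P)).red (algebraMap K F ϖ1 / u1)) = wM
  h2 : ∀ (P : SS) (Q : Place k (FkOf Fk0 FkM FkP (Vtx.hor P))),
    0 < Q.ord ((S (Vtx.hor P)).red u2) → Q.ord ((S (Vtx.hor P)).red u2) = w2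
  h2dis : ∀ (P : SS) (Q : Place k (FkOf Fk0 FkM FkP (Vtx.hor P))),
    0 < Q.ord ((S (Vtx.hor P)).red u2) →
      ¬ 0 < Q.ord ((S (Vtx.hor P)).red (algebraMap K F ϖ1 / u1))
  /-- separation by old functions -/
  sepA : ∀ P : SS, ∃ g ∈ ncAdm S VA₁ VA₂ uA,
    ValAt (pv P Vrt.oo) ((S (Vtx.vert Vrt.oo)).red g) 1 ∧
      ∀ P' : SS, P' ≠ P → (S (Vtx.hor P')).red g = 0
  sep1 : ∀ (P : SS) (m : Mid), ∃ g ∈ ncAdm S V1₁ V1₂ u1 ∩ ncAdm S VA₁ VA₂ uA,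
    ValAt (pv P (Vrt.mid m)) ((S (Vtx.vert (Vrt.mid m))).red g) 1 ∧
      ∀ P' : SS, P' ≠ P → (S (Vtx.hor P')).red g = 0
  sep2 : ∀ P : SS, ∃ g ∈ ncAdm S V2₁ V2₂ u2,
    ValAt (pv P Vrt.zero) ((S (Vtx.vert Vrt.zero)).red g) 1 ∧
      ∀ P' : SS, P' ≠ P → (S (Vtx.hor P')).red g = 0
  /-- the divisor of the seed and the clearing functions -/
  D₀ : Divisor K F
  G1 : F
  G2 : F
  G1_mem : G1 ∈ ncAdm S V1₁ V1₂ u1 ∩ ncAdm S VA₁ VA₂ uA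
  G2_mem : G2 ∈ ncAdm S V2₁ V2₂ u2
  G1_unit_oo : ∀ P, (S (Vtx.vert Vrt.oo)).red G1 ≠ 0 ∧
    (pv P Vrt.oo).ord ((S (Vtx.vert Vrt.oo)).red G1) = 0
  G1_unit_mid : ∀ P m, (S (Vtx.vert (Vrt.mid m))).red G1 ≠ 0 ∧
    (pv P (Vrt.mid m)).ord ((S (Vtx.vert (Vrt.mid m))).red G1) = 0
  G1_unit_hor : ∀ (P : SS) (Q : Place k (FkOf Fk0 FkM FkP (Vtx.hor P))),
    0 < Q.ord ((S (Vtx.hor P)).red (algebraMap K F ϖ1 / u1)) →
      (S (Vtx.hor P)).red G1 ≠ 0 ∧ Q.ord ((S (Vtx.hor P)).red G1) = 0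
  G2_unit_zero : ∀ P, (S (Vtx.vert Vrt.zero)).red G2 ≠ 0 ∧
    (pv P Vrt.zero).ord ((S (Vtx.vert Vrt.zero)).red G2) = 0
  G2_unit_hor : ∀ (P : SS) (Q : Place k (FkOf Fk0 FkM FkP (Vtx.hor P))),
    0 < Q.ord ((S (Vtx.hor P)).red u2) →
      (S (Vtx.hor P)).red G2 ≠ 0 ∧ Q.ord ((S (Vtx.hor P)).red G2) = 0
  clear1 : ∀ (m : ℕ) (f : F), f ∈ riemannRochSpace (m • D₀) → (∀ c, f ∈ (S c).Ov) →
    f * G1 ^ m ∈ ncAdm S V1₁ V1₂ u1 ∩ ncAdm S VA₁ VA₂ uA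
  clear2 : ∀ (m : ℕ) (f : F), f ∈ riemannRochSpace (m • D₀) → (∀ c, f ∈ (S c).Ov) →
    f * G2 ^ m ∈ ncAdm S V2₁ V2₂ u2

variable {K F k : Type} [Field K] [Field F] [Algebra K F] [Field k]
  {Mid SS : Type} [Fintype Mid] [Fintype SS]
  {Fk0 : Type} [Field Fk0] [Algebra k Fk0]
  {FkM : Mid → Type} [∀ m, Field (FkM m)] [∀ m, Algebra k (FkM m)]
  {FkP : SS → Type} [∀ P, Field (FkP P)] [∀ P, Algebra k (FkP P)]

namespace ModEndsInput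

variable (E : ModEndsInput K F k Mid SS Fk0 FkM FkP)

/-- the ends `p_∞`: the zeros of `red_P (ϖA / uA)`. -/
def PJA : Finset (Σ c, Place k (FkOf Fk0 FkM FkP c)) :=
  ncPts E.S E.VA₂ (algebraMap K F E.ϖA / E.uA)

/-- the zeros of `red_P (ϖ1 / u1)`. -/
def PJ1 : Finset (Σ c, Place k (FkOf Fk0 FkM FkP c)) :=
  ncPts E.S E.V1₂ (algebraMap K F E.ϖ1 / E.u1)

open Classical in
/-- the ends `p_m`: the zeros of `red_P (ϖ1 / u1)` outside `PJA`. -/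
def PJM : Finset (Σ c, Place k (FkOf Fk0 FkM FkP c)) := E.PJ1 \ E.PJA

/-- the ends `p_0`: the zeros of `red_P u2`. -/
def PJ2 : Finset (Σ c, Place k (FkOf Fk0 FkM FkP c)) := ncPts E.S E.V2₁ E.u2

theorem mem_PJA (p : Σ c, Place k (FkOf Fk0 FkM FkP c)) :
    p ∈ E.PJA ↔ (∃ P, p.1 = Vtx.hor P) ∧
      0 < p.2.ord ((E.S p.1).red (algebraMap K F E.ϖA / E.uA)) := by
  unfold PJA
  rw [mem_ncPts, E.mem_VA₂]

theorem mem_PJ1 (p : Σ c, Place k (FkOf Fk0 FkM FkP c)) :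
    p ∈ E.PJ1 ↔ (∃ P, p.1 = Vtx.hor P) ∧
      0 < p.2.ord ((E.S p.1).red (algebraMap K F E.ϖ1 / E.u1)) := by
  unfold PJ1
  rw [mem_ncPts, E.mem_V1₂]

theorem mem_PJ2 (p : Σ c, Place k (FkOf Fk0 FkM FkP c)) :
    p ∈ E.PJ2 ↔ (∃ P, p.1 = Vtx.hor P) ∧ 0 < p.2.ord ((E.S p.1).red E.u2) := by
  unfold PJ2
  rw [mem_ncPts, E.mem_V2₁]

theorem mem_PJM (p : Σ c, Place k (FkOf Fk0 FkM FkP c)) :
    p ∈ E.PJM ↔ p ∈ E.PJ1 ∧ p ∉ E.PJA := by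
  classical
  unfold PJM
  rw [Finset.mem_sdiff]

theorem PJA_sub_PJ1 : E.PJA ⊆ E.PJ1 := by
  rintro ⟨c, Q⟩ hp
  obtain ⟨⟨P, hP⟩, h0⟩ := (E.mem_PJA _).mp hp
  dsimp only at hP h0
  subst hP
  refine (E.mem_PJ1 _).mpr ⟨⟨P, rfl⟩, ?_⟩
  dsimp only
  rw [E.h1A P Q h0]
  exact E.w1_pos

open Classical in
theorem PJ1_eq : E.PJ1 = E.PJA ∪ E.PJM := by
  unfold PJM
  rw [Finset.union_sdiff_of_subset E.PJA_sub_PJ1]

theorem disjoint_PJA_PJM : Disjoint E.PJA E.PJM := by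
  classical
  unfold PJM
  exact Finset.disjoint_sdiff

theorem notMem_PJ1_of_mem_PJ2 {p : Σ c, Place k (FkOf Fk0 FkM FkP c)} (hp : p ∈ E.PJ2) :
    p ∉ E.PJ1 := by
  obtain ⟨c, Q⟩ := p
  obtain ⟨⟨P, hP⟩, h0⟩ := (E.mem_PJ2 _).mp hp
  dsimp only at hP h0
  subst hP
  intro h1
  exact E.h2dis P Q h0 ((E.mem_PJ1 _).mp h1).2

theorem disjoint_PJA_PJ2 : Disjoint E.PJA E.PJ2 := by
  rw [Finset.disjoint_left]
  intro p hp hp2
  exact E.notMem_PJ1_of_mem_PJ2 hp2 (E.PJA_sub_PJ1 hp)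

theorem disjoint_PJM_PJ2 : Disjoint E.PJM E.PJ2 := by
  rw [Finset.disjoint_left]
  intro p hp hp2
  exact E.notMem_PJ1_of_mem_PJ2 hp2 ((E.mem_PJM p).mp hp).1

/-- the weights on `PJA`. -/
theorem ncW_PJA {p : Σ c, Place k (FkOf Fk0 FkM FkP c)} (hp : p ∈ E.PJA) :
    ncW E.S (algebraMap K F E.ϖA / E.uA) p = E.wA ∧
      ncW E.S (algebraMap K F E.ϖ1 / E.u1) p = E.w1 := by
  obtain ⟨c, Q⟩ := p
  obtain ⟨⟨P, hP⟩, h0⟩ := (E.mem_PJA _).mp hp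
  dsimp only at hP h0
  subst hP
  exact ⟨E.hA P Q h0, E.h1A P Q h0⟩

/-- the weights on `PJM`. -/
theorem ncW_PJM {p : Σ c, Place k (FkOf Fk0 FkM FkP c)} (hp : p ∈ E.PJM) :
    ncW E.S (algebraMap K F E.ϖ1 / E.u1) p = E.wM := by
  obtain ⟨hp1, hpA⟩ := (E.mem_PJM p).mp hp
  obtain ⟨c, Q⟩ := p
  obtain ⟨⟨P, hP⟩, h0⟩ := (E.mem_PJ1 _).mp hp1
  dsimp only at hP h0
  subst hP
  refine E.h1M P Q h0 fun hA => hpA ((E.mem_PJA _).mpr ⟨⟨P, rfl⟩, hA⟩)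

/-- the weights on `PJ2`. -/
theorem ncW_PJ2 {p : Σ c, Place k (FkOf Fk0 FkM FkP c)} (hp : p ∈ E.PJ2) :
    ncW E.S E.u2 p = E.w2 := by
  obtain ⟨c, Q⟩ := p
  obtain ⟨⟨P, hP⟩, h0⟩ := (E.mem_PJ2 _).mp hp
  dsimp only at hP h0
  subst hP
  exact E.h2 P Q h0

/-! ### the vertical side -/

/-- the point `P_v`. -/
def ptV (P : SS) (v : Vrt Mid) : Σ c, Place k (FkOf Fk0 FkM FkP c) := ⟨Vtx.vert v, E.pv P v⟩

theorem ptV_inj (P P' : SS) (v v' : Vrt Mid) (h : E.ptV P v = E.ptV P' v') : P = P' ∧ v = v' := by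
  have h1 : (Vtx.vert v : Vtx Mid SS) = Vtx.vert v' := congrArg Sigma.fst h
  have h2 : v = v' := Vtx.vert.inj h1
  subst h2
  unfold ptV at h
  rw [Sigma.mk.injEq] at h
  exact ⟨E.pv_inj v P P' (eq_of_heq h.2), rfl⟩

theorem mem_ncPts_A (p : Σ c, Place k (FkOf Fk0 FkM FkP c)) :
    p ∈ ncPts E.S E.VA₁ E.uA ↔ ∃ P, E.ptV P Vrt.oo = p := by
  rw [mem_ncPts, E.mem_VA₁]
  constructor
  · obtain ⟨c, Q⟩ := p
    rintro ⟨hc, h0⟩
    dsimp only at hc h0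
    subst hc
    obtain ⟨P, hP⟩ := E.zA Q h0
    exact ⟨P, by unfold ptV; rw [hP]⟩
  · rintro ⟨P, rfl⟩
    refine ⟨rfl, ?_⟩
    show 0 < (E.pv P Vrt.oo).ord ((E.S (Vtx.vert Vrt.oo)).red E.uA)
    rw [E.oA P]
    exact E.wA_pos

theorem mem_ncPts_1 (p : Σ c, Place k (FkOf Fk0 FkM FkP c)) :
    p ∈ ncPts E.S E.V1₁ E.u1 ↔
      (∃ P, E.ptV P Vrt.oo = p) ∨ ∃ i : SS × Mid, E.ptV i.1 (Vrt.mid i.2) = p := by
  rw [mem_ncPts, E.mem_V1₁]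
  constructor
  · obtain ⟨c, Q⟩ := p
    rintro ⟨hc | ⟨m, hc⟩, h0⟩
    · dsimp only at hc h0
      subst hc
      obtain ⟨P, hP⟩ := E.z1oo Q h0
      exact Or.inl ⟨P, by unfold ptV; rw [hP]⟩
    · dsimp only at hc h0
      subst hc
      obtain ⟨P, hP⟩ := E.z1m m Q h0
      exact Or.inr ⟨(P, m), by unfold ptV; rw [hP]⟩
  · rintro (⟨P, rfl⟩ | ⟨⟨P, m⟩, rfl⟩)
    · refine ⟨Or.inl rfl, ?_⟩
      show 0 < (E.pv P Vrt.oo).ord ((E.S (Vtx.vert Vrt.oo)).red E.u1)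
      rw [E.o1oo P]
      exact E.w1_pos
    · refine ⟨Or.inr ⟨m, rfl⟩, ?_⟩
      show 0 < (E.pv P (Vrt.mid m)).ord ((E.S (Vtx.vert (Vrt.mid m))).red E.u1)
      rw [E.o1m P m]
      exact E.wM_pos

theorem mem_ncPts_2 (p : Σ c, Place k (FkOf Fk0 FkM FkP c)) :
    p ∈ ncPts E.S E.V2₂ (algebraMap K F E.ϖ2 / E.u2) ↔ ∃ P, E.ptV P Vrt.zero = p := by
  rw [mem_ncPts, E.mem_V2₂]
  constructor
  · obtain ⟨c, Q⟩ := p
    rintro ⟨hc, h0⟩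
    dsimp only at hc h0
    subst hc
    obtain ⟨P, hP⟩ := E.z2 Q h0
    exact ⟨P, by unfold ptV; rw [hP]⟩
  · rintro ⟨P, rfl⟩
    refine ⟨rfl, ?_⟩
    show 0 < (E.pv P Vrt.zero).ord
      ((E.S (Vtx.vert Vrt.zero)).red (algebraMap K F E.ϖ2 / E.u2))
    rw [E.o2 P]
    exact E.w2_pos

/-! ### the counts -/

section Counts

variable [Infinite k]

open Classical in
theorem countA (f : F) (hf : f ∈ ncAdm E.S E.VA₁ E.VA₂ E.uA) (x : k) :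
    (∑ P : SS, if ValAt (E.pv P Vrt.oo) ((E.S (Vtx.vert Vrt.oo)).red f) x then E.wA else 0) =
      ∑ p ∈ E.PJA, if ValAt p.2 ((E.S p.1).red f) x then E.wA else 0 := by
  have h := nc_count E.S E.VA₁ E.VA₂ E.uA E.ϖA E.DA f hf x
  rw [sum_eq_sum_index (fun P => E.ptV P Vrt.oo)
    (fun P P' hPP => (E.ptV_inj P P' _ _ hPP).1) _ E.mem_ncPts_A] at h
  have e1 : (∑ P : SS, if ValAt (E.pv P Vrt.oo) ((E.S (Vtx.vert Vrt.oo)).red f) x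
      then E.wA else 0) = ∑ P : SS, if ValAt (E.ptV P Vrt.oo).2
        ((E.S (E.ptV P Vrt.oo).1).red f) x then ncW E.S E.uA (E.ptV P Vrt.oo) else 0 :=
    Finset.sum_congr rfl fun P _ => by
      have : ncW E.S E.uA (E.ptV P Vrt.oo) = E.wA := E.oA P
      rw [this]
      rfl
  have e2 : (∑ p ∈ E.PJA, if ValAt p.2 ((E.S p.1).red f) x then E.wA else 0) =
      ∑ p ∈ ncPts E.S E.VA₂ (algebraMap K F E.ϖA / E.uA),
        if ValAt p.2 ((E.S p.1).red f) x then ncW E.S (algebraMap K F E.ϖA / E.uA) p else 0 :=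
    Finset.sum_congr rfl fun p hp => by rw [(E.ncW_PJA hp).1]
  rw [e1, e2]
  exact h

open Classical in
theorem count1 (f : F) (hf : f ∈ ncAdm E.S E.V1₁ E.V1₂ E.u1) (x : k) :
    (∑ P : SS, if ValAt (E.pv P Vrt.oo) ((E.S (Vtx.vert Vrt.oo)).red f) x then E.w1 else 0) +
      (∑ i : SS × Mid, if ValAt (E.pv i.1 (Vrt.mid i.2))
        ((E.S (Vtx.vert (Vrt.mid i.2))).red f) x then E.wM else 0) =
    (∑ p ∈ E.PJA, if ValAt p.2 ((E.S p.1).red f) x then E.w1 else 0) +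
      ∑ p ∈ E.PJM, if ValAt p.2 ((E.S p.1).red f) x then E.wM else 0 := by
  have h := nc_count E.S E.V1₁ E.V1₂ E.u1 E.ϖ1 E.D1 f hf x
  rw [sum_eq_sum_index₂ (fun P => E.ptV P Vrt.oo) (fun i : SS × Mid => E.ptV i.1 (Vrt.mid i.2))
    (fun P P' hPP => (E.ptV_inj P P' _ _ hPP).1)
    (fun i j hij => by
      obtain ⟨h1, h2⟩ := E.ptV_inj i.1 j.1 _ _ hij
      exact Prod.ext h1 (Vrt.mid.inj h2))
    (fun P j hPj => by
      have := (E.ptV_inj P j.1 _ _ hPj).2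
      cases this) _ E.mem_ncPts_1] at h
  have e0 : ncPts E.S E.V1₂ (algebraMap K F E.ϖ1 / E.u1) = E.PJA ∪ E.PJM := E.PJ1_eq
  rw [e0, Finset.sum_union E.disjoint_PJA_PJM] at h
  have e1 : (∑ P : SS, if ValAt (E.pv P Vrt.oo) ((E.S (Vtx.vert Vrt.oo)).red f) x
      then E.w1 else 0) = ∑ P : SS, if ValAt (E.ptV P Vrt.oo).2
        ((E.S (E.ptV P Vrt.oo).1).red f) x then ncW E.S E.u1 (E.ptV P Vrt.oo) else 0 :=
    Finset.sum_congr rfl fun P _ => by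
      have : ncW E.S E.u1 (E.ptV P Vrt.oo) = E.w1 := E.o1oo P
      rw [this]
      rfl
  have e2 : (∑ i : SS × Mid, if ValAt (E.pv i.1 (Vrt.mid i.2))
        ((E.S (Vtx.vert (Vrt.mid i.2))).red f) x then E.wM else 0) =
      ∑ i : SS × Mid, if ValAt (E.ptV i.1 (Vrt.mid i.2)).2
        ((E.S (E.ptV i.1 (Vrt.mid i.2)).1).red f) x
          then ncW E.S E.u1 (E.ptV i.1 (Vrt.mid i.2)) else 0 :=
    Finset.sum_congr rfl fun i _ => by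
      have : ncW E.S E.u1 (E.ptV i.1 (Vrt.mid i.2)) = E.wM := E.o1m i.1 i.2
      rw [this]
      rfl
  have e3 : (∑ p ∈ E.PJA, if ValAt p.2 ((E.S p.1).red f) x then E.w1 else 0) =
      ∑ p ∈ E.PJA,
        if ValAt p.2 ((E.S p.1).red f) x then ncW E.S (algebraMap K F E.ϖ1 / E.u1) p else 0 :=
    Finset.sum_congr rfl fun p hp => by rw [(E.ncW_PJA hp).2]
  have e4 : (∑ p ∈ E.PJM, if ValAt p.2 ((E.S p.1).red f) x then E.wM else 0) =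
      ∑ p ∈ E.PJM,
        if ValAt p.2 ((E.S p.1).red f) x then ncW E.S (algebraMap K F E.ϖ1 / E.u1) p else 0 :=
    Finset.sum_congr rfl fun p hp => by rw [E.ncW_PJM hp]
  rw [e1, e2, e3, e4]
  exact h

open Classical in
theorem count2 (f : F) (hf : f ∈ ncAdm E.S E.V2₁ E.V2₂ E.u2) (x : k) :
    (∑ P : SS, if ValAt (E.pv P Vrt.zero) ((E.S (Vtx.vert Vrt.zero)).red f) x
      then E.w2 else 0) =
      ∑ p ∈ E.PJ2, if ValAt p.2 ((E.S p.1).red f) x then E.w2 else 0 := by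
  have h := nc_count E.S E.V2₁ E.V2₂ E.u2 E.ϖ2 E.D2 f hf x
  rw [sum_eq_sum_index (fun P => E.ptV P Vrt.zero)
    (fun P P' hPP => (E.ptV_inj P P' _ _ hPP).1) _ E.mem_ncPts_2] at h
  have e1 : (∑ P : SS, if ValAt (E.pv P Vrt.zero) ((E.S (Vtx.vert Vrt.zero)).red f) x
      then E.w2 else 0) = ∑ P : SS, if ValAt (E.ptV P Vrt.zero).2
        ((E.S (E.ptV P Vrt.zero).1).red f) x
          then ncW E.S (algebraMap K F E.ϖ2 / E.u2) (E.ptV P Vrt.zero) else 0 :=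
    Finset.sum_congr rfl fun P _ => by
      have : ncW E.S (algebraMap K F E.ϖ2 / E.u2) (E.ptV P Vrt.zero) = E.w2 := E.o2 P
      rw [this]
      rfl
  have e2 : (∑ p ∈ E.PJ2, if ValAt p.2 ((E.S p.1).red f) x then E.w2 else 0) =
      ∑ p ∈ ncPts E.S E.V2₁ E.u2,
        if ValAt p.2 ((E.S p.1).red f) x then ncW E.S E.u2 p else 0 :=
    Finset.sum_congr rfl fun p hp => by rw [E.ncW_PJ2 hp]
  rw [e1, e2]
  exact h.symm

end Counts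

/-! ### the `ModMatchInput` -/

theorem G1_unit_PJ1 {p : Σ c, Place k (FkOf Fk0 FkM FkP c)} (hp : p ∈ E.PJ1) :
    (E.S p.1).red E.G1 ≠ 0 ∧ p.2.ord ((E.S p.1).red E.G1) = 0 := by
  obtain ⟨c, Q⟩ := p
  obtain ⟨⟨P, hP⟩, h0⟩ := (E.mem_PJ1 _).mp hp
  dsimp only at hP h0
  subst hP
  exact E.G1_unit_hor P Q h0

theorem G2_unit_PJ2 {p : Σ c, Place k (FkOf Fk0 FkM FkP c)} (hp : p ∈ E.PJ2) :
    (E.S p.1).red E.G2 ≠ 0 ∧ p.2.ord ((E.S p.1).red E.G2) = 0 := by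
  obtain ⟨c, Q⟩ := p
  obtain ⟨⟨P, hP⟩, h0⟩ := (E.mem_PJ2 _).mp hp
  dsimp only at hP h0
  subst hP
  exact E.G2_unit_hor P Q h0

/-- the old functions put the partner of `P_v` on `H_P`. -/
theorem old_of_hor {𝔏 : Set F} (P : SS) (v : Vrt Mid)
    (p : Σ c, Place k (FkOf Fk0 FkM FkP c)) (hp : ∃ P', p.1 = Vtx.hor P')
    (heq : NmtEq E.S 𝔏 ⟨Vtx.vert v, E.pv P v⟩ p)
    (hsep : ∃ g ∈ 𝔏, ValAt (E.pv P v) ((E.S (Vtx.vert v)).red g) 1 ∧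
      ∀ P' : SS, P' ≠ P → (E.S (Vtx.hor P')).red g = 0) :
    p.1 = Vtx.hor P := by
  obtain ⟨g, hg, h1, h0⟩ := hsep
  refine old_of_sep (S := E.S) ⟨Vtx.vert v, E.pv P v⟩ p (Vtx.hor P) {c | ∃ P', c = Vtx.hor P'}
    hp heq ⟨g, hg, h1, ?_⟩
  rintro c ⟨P', rfl⟩ hne
  exact h0 P' fun h => hne (by rw [h])

/-- **the `ModMatchInput` of the three node theorems.** -/
def toMatchInput [Infinite k] : ModMatchInput K F k Mid SS Fk0 FkM FkP where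
  S := E.S
  A_eq := E.D1.A_eq
  res_eq := E.D1.res_eq
  lat := E.lat
  indep := E.D1.indep
  arch := E.arch
  pv := E.pv
  pv_inj := E.pv_inj
  LA := ncAdm E.S E.VA₁ E.VA₂ E.uA
  L1 := ncAdm E.S E.V1₁ E.V1₂ E.u1 ∩ ncAdm E.S E.VA₁ E.VA₂ E.uA
  L2 := ncAdm E.S E.V2₁ E.V2₂ E.u2
  L1_sub := Set.inter_subset_right
  PtsA := ncPtsAll E.S E.VA₁ E.VA₂ E.uA E.ϖA
  Pts1 := ncPtsAll E.S E.V1₁ E.V1₂ E.u1 E.ϖ1
  Pts2 := ncPtsAll E.S E.V2₁ E.V2₂ E.u2 E.ϖ2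
  admA := ncPtsAll_adm E.S E.VA₁ E.VA₂ E.uA E.ϖA E.DA
  adm1 := nmtAdm_inter (ncPtsAll_adm E.S E.V1₁ E.V1₂ E.u1 E.ϖ1 E.D1)
    (ncPtsAll_adm E.S E.VA₁ E.VA₂ E.uA E.ϖA E.DA)
  adm2 := ncPtsAll_adm E.S E.V2₁ E.V2₂ E.u2 E.ϖ2 E.D2
  PJA := E.PJA
  PJM := E.PJM
  PJ2 := E.PJ2
  disjAM := E.disjoint_PJA_PJM
  disjA2 := E.disjoint_PJA_PJ2
  disjM2 := E.disjoint_PJM_PJ2
  memA := fun P => mem_ncPtsAll_left _ _ _ _ _ ((E.mem_ncPts_A _).mpr ⟨P, rfl⟩)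
  mem1oo := fun P => mem_ncPtsAll_left _ _ _ _ _ ((E.mem_ncPts_1 _).mpr (Or.inl ⟨P, rfl⟩))
  mem1 := fun P m =>
    mem_ncPtsAll_left _ _ _ _ _ ((E.mem_ncPts_1 _).mpr (Or.inr ⟨(P, m), rfl⟩))
  mem2 := fun P => mem_ncPtsAll_right _ _ _ _ _ ((E.mem_ncPts_2 _).mpr ⟨P, rfl⟩)
  PJA_sub := fun _ hp => mem_ncPtsAll_right _ _ _ _ _ hp
  PJA_sub1 := fun _ hp => mem_ncPtsAll_right _ _ _ _ _ (E.PJA_sub_PJ1 hp)
  PJM_sub := fun p hp => mem_ncPtsAll_right _ _ _ _ _ ((E.mem_PJM p).mp hp).1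
  PJ2_sub := fun _ hp => mem_ncPtsAll_left _ _ _ _ _ hp
  wA := E.wA
  w1 := E.w1
  wM := E.wM
  w2 := E.w2
  wA_ne := E.wA_pos.ne'
  wM_ne := E.wM_pos.ne'
  w2_ne := E.w2_pos.ne'
  countA := E.countA
  count1 := fun f hf x => E.count1 f hf.1 x
  count2 := E.count2
  oldA := fun P p hp heq => E.old_of_hor P Vrt.oo p ((E.mem_PJA p).mp hp).1 heq (E.sepA P)
  old1 := fun P m p hp heq =>
    E.old_of_hor P (Vrt.mid m) p ((E.mem_PJ1 p).mp ((E.mem_PJM p).mp hp).1).1 heq (E.sep1 P m)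
  old2 := fun P p hp heq => E.old_of_hor P Vrt.zero p ((E.mem_PJ2 p).mp hp).1 heq (E.sep2 P)
  D₀ := E.D₀
  G1 := E.G1
  G2 := E.G2
  G1_mem := E.G1_mem
  G2_mem := E.G2_mem
  G1_unit_oo := E.G1_unit_oo
  G1_unit_mid := E.G1_unit_mid
  G1_unit_A := fun _ hp => E.G1_unit_PJ1 (E.PJA_sub_PJ1 hp)
  G1_unit_M := fun p hp => E.G1_unit_PJ1 ((E.mem_PJM p).mp hp).1
  G2_unit_zero := E.G2_unit_zero
  G2_unit_2 := fun _ hp => E.G2_unit_PJ2 hp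
  clear1 := E.clear1
  clear2 := E.clear2

section Simp

variable [Infinite k]

@[simp] theorem toMatchInput_S : E.toMatchInput.S = E.S := rfl
@[simp] theorem toMatchInput_pv : E.toMatchInput.pv = E.pv := rfl
@[simp] theorem toMatchInput_D₀ : E.toMatchInput.D₀ = E.D₀ := rfl
@[simp] theorem toMatchInput_PJA : E.toMatchInput.PJA = E.PJA := rfl
@[simp] theorem toMatchInput_PJM : E.toMatchInput.PJM = E.PJM := rfl
@[simp] theorem toMatchInput_PJ2 : E.toMatchInput.PJ2 = E.PJ2 := rfl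

/-- the ends of the modular graph are the zeros of `red_P (ϖ1 / u1)` (nodes `∞`, `m`) and the
zeros of `red_P u2` (nodes `0`). -/
theorem mem_ends_iff (p : Σ c, Place k (FkOf Fk0 FkM FkP c)) :
    (p ∈ E.toMatchInput.PJA ∨ p ∈ E.toMatchInput.PJM ∨ p ∈ E.toMatchInput.PJ2) ↔
      (∃ P, p.1 = Vtx.hor P) ∧
        (0 < p.2.ord ((E.S p.1).red (algebraMap K F E.ϖ1 / E.u1)) ∨
          0 < p.2.ord ((E.S p.1).red E.u2)) := by
  classical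
  rw [toMatchInput_PJA, toMatchInput_PJM, toMatchInput_PJ2, ← or_assoc, ← Finset.mem_union,
    ← E.PJ1_eq, mem_PJ1, mem_PJ2]
  constructor
  · rintro (⟨h1, h2⟩ | ⟨h1, h2⟩)
    · exact ⟨h1, Or.inl h2⟩
    · exact ⟨h1, Or.inr h2⟩
  · rintro ⟨h1, h2 | h2⟩
    · exact Or.inl ⟨h1, h2⟩
    · exact Or.inr ⟨h1, h2⟩

end Simp

end ModEndsInput

end Ends

end Fermat.Agent.S36G
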