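import Mathlib
import Fermat.Agent.S36.G.SeedInst
import Fermat.Agent.Lib.BadRed.Graph.Deuring.PermOfX

set_option autoImplicit false
set_option linter.unusedSectionVars false

/-!
# Cluster G (S36), SEED-PERM: the automorphisms of the modular seed  (helper82)

For the modular seed `G = I.seed x ..` (`S36/G/SeedInst.lean`; the ends `s₂` on the horizontal
components are CHOSEN by the matching) the inertia group acts by weak automorphisms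
(`GraphSeed.IsPermAutW`, hence by automorphisms `GraphSeed.IsPermAut`,
`Graph/Deuring/PermNode.lean`) as soon as

* `mem`, `red` : `t` permutes the valuation rings, `e c` are the induced isomorphisms of the
  residue fields;
* `hD`, `hR` : the pole divisors of `x` and of its reductions are stable (e.g. `t • x = x`);
* `hex` : the places have images (`PlaceCorr`; `Graph/Deuring/PlaceMap.lean`);
* `hV` : the set of the points `P_v` is stable;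
* `hH` : the set `PJA ∪ PJM ∪ PJ2` of the ends is stable.

No statement about the LABELLED ends `I.s₂` is needed.

* `ModMatchInput.core_isBr_iff` : the branch points of the modular graph are the `P_v` and the
  points of `PJA ∪ PJM ∪ PJ2`;
* `ModMatchInput.seed_isPermAutW_of_poleDiv`, `ModMatchInput.seed_isPermAutW_fix` (`t • x = x`);
* `ModMatchInput.seed_isPermAut`.
-/

noncomputable section

open AlgebraicCurve Fermat.Agent.RR Fermat.Agent.Deuring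

namespace Fermat.Agent.S36G

open Fermat.Agent.BadRed Fermat.Agent.BadRedG

variable {K F k : Type} [Field K] [Field F] [Algebra K F] [Field k]
  {Mid SS : Type} [Fintype Mid] [Fintype SS]
  {Fk0 : Type} [Field Fk0] [Algebra k Fk0]
  {FkM : Mid → Type} [∀ m, Field (FkM m)] [∀ m, Algebra k (FkM m)]
  {FkP : SS → Type} [∀ P, Field (FkP P)] [∀ P, Algebra k (FkP P)]

namespace ModMatchInput

variable (I : ModMatchInput K F k Mid SS Fk0 FkM FkP) [Infinite k] [Nonempty SS]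

/-- **the branch points of the modular graph**: the points `P_v` on the vertical components and
the ends `PJA ∪ PJM ∪ PJ2` on the horizontal components. -/
theorem core_isBr_iff (X : Σ c, Place k (FkOf Fk0 FkM FkP c)) :
    I.core.IsBr X ↔ (∃ P v, X = I.ptV P v) ∨ X ∈ I.PJA ∨ X ∈ I.PJM ∨ X ∈ I.PJ2 := by
  constructor
  · rintro (⟨i, rfl⟩ | ⟨i, rfl⟩)
    · exact Or.inl ⟨i.1, i.2, rfl⟩
    · exact Or.inr (I.ptH_mem i)
  · rintro (⟨P, v, rfl⟩ | hA | hM | h2)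
    · exact Or.inl ⟨(P, v), rfl⟩
    · obtain ⟨P, hP⟩ := I.exists_ptH_eqA X hA
      exact Or.inr ⟨(P, Vrt.oo), hP.symm⟩
    · obtain ⟨P, m, hP⟩ := I.exists_ptH_eqM X hM
      exact Or.inr ⟨(P, Vrt.mid m), hP.symm⟩
    · obtain ⟨P, hP⟩ := I.exists_ptH_eq2 X h2
      exact Or.inr ⟨(P, Vrt.zero), hP.symm⟩

section Seed

variable (x : F) (hx : ∀ c, x ∈ (I.S c).Ov)
    (hD₀ : I.D₀ = poleDiv (I.S (Vtx.vert Vrt.oo)).hF x)
    (hpos : ∀ c, 0 < Divisor.degree (poleDiv (I.S c).hFk ((I.S c).red x)))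
    (hn₁ : ∀ (P : SS) (v : Vrt Mid), 0 ≤ (I.pv P v).ord ((I.S (Vtx.vert v)).red x))
    (hn₂ : ∀ p : Σ c, Place k (FkOf Fk0 FkM FkP c), p ∈ I.PJA ∨ p ∈ I.PJM ∨ p ∈ I.PJ2 →
      0 ≤ p.2.ord ((I.S p.1).red x))
    (hdeg : Divisor.degree (poleDiv (I.S (Vtx.vert Vrt.oo)).hF x) ≤
      ∑ c, Divisor.degree (poleDiv (I.S c).hFk ((I.S c).red x)))
    (hgenus : genusFF K F + Fintype.card (Vtx Mid SS) ≤
      (∑ c, genusFF k (FkOf Fk0 FkM FkP c)) + Fintype.card (Nod Mid SS) + 1)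

/-- **the weak automorphisms of the modular seed**, from the invariance of the pole divisors. -/
theorem seed_isPermAutW_of_poleDiv (t : SemilinearAut K F) (π : Equiv.Perm (Vtx Mid SS))
    (e : ∀ c, FkOf Fk0 FkM FkP c ≃ₐ[k] FkOf Fk0 FkM FkP (π c))
    (mem : ∀ (c : Vtx Mid SS) (f : F), f ∈ (I.S c).Ov → t • f ∈ (I.S (π c)).Ov)
    (red : ∀ (c : Vtx Mid SS) (f : F), f ∈ (I.S c).Ov →
      (I.S (π c)).red (t • f) = e c ((I.S c).red f))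
    (hD : ∀ P : Place K F, poleDiv (I.S (Vtx.vert Vrt.oo)).hF x (t • P) =
      poleDiv (I.S (Vtx.vert Vrt.oo)).hF x P)
    (hR : ∀ c, poleDiv (I.S (π c)).hFk ((I.S (π c)).red (t • x)) =
      poleDiv (I.S (π c)).hFk ((I.S (π c)).red x))
    (hex : ∀ (c : Vtx Mid SS) (Q : Place k (FkOf Fk0 FkM FkP c)),
      ∃ Q' : Place k (FkOf Fk0 FkM FkP (π c)), PlaceCorr (e c) Q Q')
    (hV : ∀ (c : Vtx Mid SS) (Q : Place k (FkOf Fk0 FkM FkP c))
      (Q' : Place k (FkOf Fk0 FkM FkP (π c))), PlaceCorr (e c) Q Q' →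
      ((∃ P v, (⟨c, Q⟩ : Σ c, Place k (FkOf Fk0 FkM FkP c)) = I.ptV P v) ↔
        ∃ P v, (⟨π c, Q'⟩ : Σ c, Place k (FkOf Fk0 FkM FkP c)) = I.ptV P v))
    (hH : ∀ (c : Vtx Mid SS) (Q : Place k (FkOf Fk0 FkM FkP c))
      (Q' : Place k (FkOf Fk0 FkM FkP (π c))), PlaceCorr (e c) Q Q' →
      (((⟨c, Q⟩ : Σ c, Place k (FkOf Fk0 FkM FkP c)) ∈ I.PJA ∨
          (⟨c, Q⟩ : Σ c, Place k (FkOf Fk0 FkM FkP c)) ∈ I.PJM ∨
          (⟨c, Q⟩ : Σ c, Place k (FkOf Fk0 FkM FkP c)) ∈ I.PJ2) ↔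
        ((⟨π c, Q'⟩ : Σ c, Place k (FkOf Fk0 FkM FkP c)) ∈ I.PJA ∨
          (⟨π c, Q'⟩ : Σ c, Place k (FkOf Fk0 FkM FkP c)) ∈ I.PJM ∨
          (⟨π c, Q'⟩ : Σ c, Place k (FkOf Fk0 FkM FkP c)) ∈ I.PJ2))) :
    (I.seed x hx hD₀ hpos hn₁ hn₂ hdeg hgenus).IsPermAutW t π e := by
  refine GraphCore.graphSeedOfX_isPermAutW_of_poleDiv I.core (Vtx.vert Vrt.oo) x hx hpos _ _
    hdeg _ hgenus t π e mem red hD hR hex (fun c Q Q' hc => ?_)
  rw [I.core_isBr_iff, I.core_isBr_iff, hV c Q Q' hc, hH c Q Q' hc]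

/-- **the weak automorphisms of the modular seed**, `t • x = x`. -/
theorem seed_isPermAutW_fix (t : SemilinearAut K F) (π : Equiv.Perm (Vtx Mid SS))
    (e : ∀ c, FkOf Fk0 FkM FkP c ≃ₐ[k] FkOf Fk0 FkM FkP (π c))
    (mem : ∀ (c : Vtx Mid SS) (f : F), f ∈ (I.S c).Ov → t • f ∈ (I.S (π c)).Ov)
    (red : ∀ (c : Vtx Mid SS) (f : F), f ∈ (I.S c).Ov →
      (I.S (π c)).red (t • f) = e c ((I.S c).red f))
    (htx : t • x = x)
    (hex : ∀ (c : Vtx Mid SS) (Q : Place k (FkOf Fk0 FkM FkP c)),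
      ∃ Q' : Place k (FkOf Fk0 FkM FkP (π c)), PlaceCorr (e c) Q Q')
    (hV : ∀ (c : Vtx Mid SS) (Q : Place k (FkOf Fk0 FkM FkP c))
      (Q' : Place k (FkOf Fk0 FkM FkP (π c))), PlaceCorr (e c) Q Q' →
      ((∃ P v, (⟨c, Q⟩ : Σ c, Place k (FkOf Fk0 FkM FkP c)) = I.ptV P v) ↔
        ∃ P v, (⟨π c, Q'⟩ : Σ c, Place k (FkOf Fk0 FkM FkP c)) = I.ptV P v))
    (hH : ∀ (c : Vtx Mid SS) (Q : Place k (FkOf Fk0 FkM FkP c))
      (Q' : Place k (FkOf Fk0 FkM FkP (π c))), PlaceCorr (e c) Q Q' →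
      (((⟨c, Q⟩ : Σ c, Place k (FkOf Fk0 FkM FkP c)) ∈ I.PJA ∨
          (⟨c, Q⟩ : Σ c, Place k (FkOf Fk0 FkM FkP c)) ∈ I.PJM ∨
          (⟨c, Q⟩ : Σ c, Place k (FkOf Fk0 FkM FkP c)) ∈ I.PJ2) ↔
        ((⟨π c, Q'⟩ : Σ c, Place k (FkOf Fk0 FkM FkP c)) ∈ I.PJA ∨
          (⟨π c, Q'⟩ : Σ c, Place k (FkOf Fk0 FkM FkP c)) ∈ I.PJM ∨
          (⟨π c, Q'⟩ : Σ c, Place k (FkOf Fk0 FkM FkP c)) ∈ I.PJ2))) :
    (I.seed x hx hD₀ hpos hn₁ hn₂ hdeg hgenus).IsPermAutW t π e :=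
  I.seed_isPermAutW_of_poleDiv x hx hD₀ hpos hn₁ hn₂ hdeg hgenus t π e mem red
    (poleDiv_smul_of_smul_eq _ t htx) (fun c => by rw [htx]) hex hV hH

/-- **the automorphisms of the modular seed** (with the node condition), `t • x = x`. -/
theorem seed_isPermAut (t : SemilinearAut K F) (π : Equiv.Perm (Vtx Mid SS))
    (e : ∀ c, FkOf Fk0 FkM FkP c ≃ₐ[k] FkOf Fk0 FkM FkP (π c))
    (mem : ∀ (c : Vtx Mid SS) (f : F), f ∈ (I.S c).Ov → t • f ∈ (I.S (π c)).Ov)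
    (red : ∀ (c : Vtx Mid SS) (f : F), f ∈ (I.S c).Ov →
      (I.S (π c)).red (t • f) = e c ((I.S c).red f))
    (htx : t • x = x)
    (hex : ∀ (c : Vtx Mid SS) (Q : Place k (FkOf Fk0 FkM FkP c)),
      ∃ Q' : Place k (FkOf Fk0 FkM FkP (π c)), PlaceCorr (e c) Q Q')
    (hV : ∀ (c : Vtx Mid SS) (Q : Place k (FkOf Fk0 FkM FkP c))
      (Q' : Place k (FkOf Fk0 FkM FkP (π c))), PlaceCorr (e c) Q Q' →
      ((∃ P v, (⟨c, Q⟩ : Σ c, Place k (FkOf Fk0 FkM FkP c)) = I.ptV P v) ↔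
        ∃ P v, (⟨π c, Q'⟩ : Σ c, Place k (FkOf Fk0 FkM FkP c)) = I.ptV P v))
    (hH : ∀ (c : Vtx Mid SS) (Q : Place k (FkOf Fk0 FkM FkP c))
      (Q' : Place k (FkOf Fk0 FkM FkP (π c))), PlaceCorr (e c) Q Q' →
      (((⟨c, Q⟩ : Σ c, Place k (FkOf Fk0 FkM FkP c)) ∈ I.PJA ∨
          (⟨c, Q⟩ : Σ c, Place k (FkOf Fk0 FkM FkP c)) ∈ I.PJM ∨
          (⟨c, Q⟩ : Σ c, Place k (FkOf Fk0 FkM FkP c)) ∈ I.PJ2) ↔
        ((⟨π c, Q'⟩ : Σ c, Place k (FkOf Fk0 FkM FkP c)) ∈ I.PJA ∨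
          (⟨π c, Q'⟩ : Σ c, Place k (FkOf Fk0 FkM FkP c)) ∈ I.PJM ∨
          (⟨π c, Q'⟩ : Σ c, Place k (FkOf Fk0 FkM FkP c)) ∈ I.PJ2))) :
    (I.seed x hx hD₀ hpos hn₁ hn₂ hdeg hgenus).IsPermAut t π e :=
  haveI : Nonempty (Vtx Mid SS) := ⟨Vtx.vert Vrt.oo⟩
  (I.seed_isPermAutW_fix x hx hD₀ hpos hn₁ hn₂ hdeg hgenus t π e mem red htx hex hV hH).isPermAut

end Seed

end ModMatchInput

end Fermat.Agent.S36G
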