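import Mathlib
import Fermat.Agent.S36.G.SeedInput
import Fermat.Agent.S36.G.SeedPerm
import Fermat.Agent.S36.G.InertAsm

set_option autoImplicit false
set_option linter.unusedSectionVars false

/-!
# S36 (cluster G), seat INERT: the branch points are stable under the inertia action  (helper55)

* `inert_red_scaled`  : `t • f = a f`, `a` a unit of `A` ⟹ `e (red_c f) = res a • red_{π c} f`;
* `inert_ncPts_iff`   : the zero set `ncPts S V f` of the reductions of `f` on a `π`-stable set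
                        `V` of components is stable under `(π, e)`;
* `ModEndsInput.inert_hV`, `ModEndsInput.inert_hH` : the hypotheses `hV`, `hH` of
  `ModMatchInput.seed_isPermAut` (`S36/G/SeedPerm.lean`) for `I = E.toMatchInput`,
  `π = inertPerm σ`, from `t • f = (unit of A) • f` for the four functions
  `u1`, `ϖ2 / u2` (vertical side), `ϖ1 / u1`, `u2` (horizontal side).
-/

noncomputable section

open AlgebraicCurve Fermat.Agent.RR Fermat.Agent.Deuring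

namespace Fermat.Agent.S36G

open Fermat.Agent.BadRed Fermat.Agent.BadRedG

section Abs

variable {K F k : Type*} [Field K] [Field F] [Algebra K F] [Field k]
  {κ : Type*} {Fk : κ → Type*} [∀ c, Field (Fk c)] [∀ c, Algebra k (Fk c)]

/-- `t` multiplies `f` by a unit of the valuation ring of the constants. -/
def InertScaled (S : ∀ c : κ, ValSetup K F k (Fk c)) (t : SemilinearAut K F) (f : F) : Prop :=
  ∃ a : K, a ≠ 0 ∧ (∀ c, a ∈ (S c).A) ∧ (∀ c, a⁻¹ ∈ (S c).A) ∧ t • f = algebraMap K F a * f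

theorem inertScaled_of_smul_eq (S : ∀ c : κ, ValSetup K F k (Fk c)) {t : SemilinearAut K F}
    {f : F} (h : t • f = f) : InertScaled S t f :=
  ⟨1, one_ne_zero, fun c => (S c).A.one_mem, fun c => by rw [inv_one]; exact (S c).A.one_mem,
    by rw [map_one, one_mul, h]⟩

/-- the reduction of a function which is scaled by a unit. -/
theorem inert_red_scaled (S : ∀ c : κ, ValSetup K F k (Fk c)) {t : SemilinearAut K F}
    {π : Equiv.Perm κ} {e : ∀ c, Fk c ≃ₐ[k] Fk (π c)}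
    (red : ∀ (c : κ) (f : F), f ∈ (S c).Ov → (S (π c)).red (t • f) = e c ((S c).red f))
    {f : F} (hs : InertScaled S t f) {c : κ} (hf : f ∈ (S c).Ov) (hf' : f ∈ (S (π c)).Ov) :
    ∃ b : k, b ≠ 0 ∧ e c ((S c).red f) = b • (S (π c)).red f := by
  obtain ⟨a, ha0, ha, ha', htf⟩ := hs
  refine ⟨(S (π c)).res ⟨a, ha _⟩, ?_, ?_⟩
  · have h1 : algebraMap K F a ∈ (S (π c)).Ov := (S (π c)).algebraMap_mem (ha _)
    have h2 : (algebraMap K F a)⁻¹ ∈ (S (π c)).Ov := by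
      rw [← map_inv₀]
      exact (S (π c)).algebraMap_mem (ha' _)
    have h3 : algebraMap K F a ≠ 0 := by
      rwa [ne_eq, map_eq_zero_iff _ (algebraMap K F).injective]
    have h4 := (S (π c)).red_ne_zero h1 h2 h3
    rw [(S (π c)).red_algebraMap (ha _)] at h4
    intro h0
    rw [h0, map_zero] at h4
    exact h4 rfl
  · rw [← red c f hf, htf, (S (π c)).red_mul ((S (π c)).algebraMap_mem (ha _)) hf',
      (S (π c)).red_algebraMap (ha _), Algebra.smul_def]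

/-- **the zero set of the reductions of `f` on a stable set of components is stable.** -/
theorem inert_ncPts_iff (S : ∀ c : κ, ValSetup K F k (Fk c)) {t : SemilinearAut K F}
    {π : Equiv.Perm κ} {e : ∀ c, Fk c ≃ₐ[k] Fk (π c)}
    (red : ∀ (c : κ) (f : F), f ∈ (S c).Ov → (S (π c)).red (t • f) = e c ((S c).red f))
    (V : Finset κ) (hπV : ∀ c, c ∈ V ↔ π c ∈ V) {f : F} (hf : ∀ c ∈ V, f ∈ (S c).Ov)
    (hs : InertScaled S t f) {c : κ} {Q : Place k (Fk c)} {Q' : Place k (Fk (π c))}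
    (hc : PlaceCorr (e c) Q Q') :
    (⟨c, Q⟩ : Σ c, Place k (Fk c)) ∈ ncPts S V f ↔
      (⟨π c, Q'⟩ : Σ c, Place k (Fk c)) ∈ ncPts S V f := by
  rw [mem_ncPts, mem_ncPts]
  dsimp only
  by_cases hcV : c ∈ V
  · have hcV' : π c ∈ V := (hπV c).mp hcV
    obtain ⟨b, hb, hbe⟩ := inert_red_scaled S red hs (hf c hcV) (hf _ hcV')
    have h1 := placeCorr_pos_iff_of_smul hc ((S c).red f) hb hbe
    constructor
    · rintro ⟨-, h⟩
      exact ⟨hcV', h1.mpr h⟩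
    · rintro ⟨-, h⟩
      exact ⟨hcV, h1.mp h⟩
  · have hcV' : π c ∉ V := fun h => hcV ((hπV c).mpr h)
    constructor
    · rintro ⟨h, -⟩
      exact absurd h hcV
    · rintro ⟨h, -⟩
      exact absurd h hcV'

end Abs

section Mod

variable {K F k : Type} [Field K] [Field F] [Algebra K F] [Field k]
  {Mid SS : Type} [Fintype Mid] [Fintype SS]
  {Fk0 : Type} [Field Fk0] [Algebra k Fk0]
  {FkM : Mid → Type} [∀ m, Field (FkM m)] [∀ m, Algebra k (FkM m)]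
  {FkP : SS → Type} [∀ P, Field (FkP P)] [∀ P, Algebra k (FkP P)]

namespace ModEndsInput

variable (E : ModEndsInput K F k Mid SS Fk0 FkM FkP)

/-- the points `P_v` are the zeros of the reductions of `u1` (on `∞`, `mid m`) and of `ϖ2 / u2`
(on `0`). -/
theorem exists_ptV_iff_ncPts (p : Σ c, Place k (FkOf Fk0 FkM FkP c)) :
    (∃ P v, p = E.ptV P v) ↔
      p ∈ ncPts E.S E.V1₁ E.u1 ∨ p ∈ ncPts E.S E.V2₂ (algebraMap K F E.ϖ2 / E.u2) := by
  rw [E.mem_ncPts_1, E.mem_ncPts_2]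
  constructor
  · rintro ⟨P, v, rfl⟩
    rcases v with _ | _ | m
    · exact Or.inl (Or.inl ⟨P, rfl⟩)
    · exact Or.inr ⟨P, rfl⟩
    · exact Or.inl (Or.inr ⟨(P, m), rfl⟩)
  · rintro ((⟨P, rfl⟩ | ⟨i, rfl⟩) | ⟨P, rfl⟩)
    · exact ⟨P, _, rfl⟩
    · exact ⟨i.1, _, rfl⟩
    · exact ⟨P, _, rfl⟩

/-- the ends are the zeros of the reductions of `ϖ1 / u1` and of `u2` on the horizontal
components. -/
theorem mem_ends_iff_ncPts (p : Σ c, Place k (FkOf Fk0 FkM FkP c)) :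
    (p ∈ E.PJA ∨ p ∈ E.PJM ∨ p ∈ E.PJ2) ↔
      p ∈ ncPts E.S E.V1₂ (algebraMap K F E.ϖ1 / E.u1) ∨ p ∈ ncPts E.S E.V2₁ E.u2 := by
  classical
  have h1 : p ∈ E.PJA ∨ p ∈ E.PJM ↔ p ∈ E.PJ1 := by
    rw [E.PJ1_eq, Finset.mem_union]
  rw [← or_assoc, h1]
  rfl

variable (σ : Equiv.Perm Mid)

theorem inertPerm_mem_V1₁ (c : Vtx Mid SS) : c ∈ E.V1₁ ↔ inertPerm σ c ∈ E.V1₁ := by
  rw [E.mem_V1₁, E.mem_V1₁]
  rcases c with (_ | _ | m) | P
  · exact ⟨fun _ => Or.inl rfl, fun _ => Or.inl rfl⟩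
  · constructor
    · rintro (h | ⟨m, h⟩)
      · cases h
      · cases h
    · rintro (h | ⟨m, h⟩)
      · cases h
      · cases h
  · exact ⟨fun _ => Or.inr ⟨σ m, rfl⟩, fun _ => Or.inr ⟨m, rfl⟩⟩
  · constructor
    · rintro (h | ⟨m, h⟩)
      · cases h
      · cases h
    · rintro (h | ⟨m, h⟩)
      · cases h
      · cases h

theorem inertPerm_mem_V2₂ (c : Vtx Mid SS) : c ∈ E.V2₂ ↔ inertPerm σ c ∈ E.V2₂ := by
  rw [E.mem_V2₂, E.mem_V2₂]
  rcases c with (_ | _ | m) | P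
  · constructor <;> intro h <;> cases h
  · exact ⟨fun _ => rfl, fun _ => rfl⟩
  · constructor <;> intro h <;> cases h
  · constructor <;> intro h <;> cases h

theorem inertPerm_mem_hor (c : Vtx Mid SS) :
    (∃ P : SS, c = Vtx.hor P) ↔ ∃ P : SS, inertPerm σ c = Vtx.hor P := by
  rcases c with (_ | _ | m) | P
  · constructor <;> rintro ⟨P, h⟩ <;> cases h
  · constructor <;> rintro ⟨P, h⟩ <;> cases h
  · constructor <;> rintro ⟨P, h⟩ <;> cases h
  · exact ⟨fun _ => ⟨P, rfl⟩, fun _ => ⟨P, rfl⟩⟩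

theorem inertPerm_mem_V1₂ (c : Vtx Mid SS) : c ∈ E.V1₂ ↔ inertPerm σ c ∈ E.V1₂ := by
  rw [E.mem_V1₂, E.mem_V1₂]
  exact inertPerm_mem_hor σ c

theorem inertPerm_mem_V2₁ (c : Vtx Mid SS) : c ∈ E.V2₁ ↔ inertPerm σ c ∈ E.V2₁ := by
  rw [E.mem_V2₁, E.mem_V2₁]
  exact inertPerm_mem_hor σ c

variable {t : SemilinearAut K F}
  {e : ∀ c, FkOf Fk0 FkM FkP c ≃ₐ[k] FkOf Fk0 FkM FkP (inertPerm σ c)}

/-- **(hV)** the set of the points `P_v` is stable under the inertia action. -/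
theorem inert_hV
    (red : ∀ (c : Vtx Mid SS) (f : F), f ∈ (E.S c).Ov →
      (E.S (inertPerm σ c)).red (t • f) = e c ((E.S c).red f))
    (h1 : InertScaled E.S t E.u1) (h2 : InertScaled E.S t (algebraMap K F E.ϖ2 / E.u2))
    (c : Vtx Mid SS) (Q : Place k (FkOf Fk0 FkM FkP c))
    (Q' : Place k (FkOf Fk0 FkM FkP (inertPerm σ c))) (hc : PlaceCorr (e c) Q Q') :
    (∃ P v, (⟨c, Q⟩ : Σ c, Place k (FkOf Fk0 FkM FkP c)) = E.ptV P v) ↔
      ∃ P v, (⟨inertPerm σ c, Q'⟩ : Σ c, Place k (FkOf Fk0 FkM FkP c)) = E.ptV P v := by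
  rw [E.exists_ptV_iff_ncPts, E.exists_ptV_iff_ncPts,
    inert_ncPts_iff E.S red E.V1₁ (E.inertPerm_mem_V1₁ σ) E.D1.u_mem h1 hc,
    inert_ncPts_iff E.S red E.V2₂ (E.inertPerm_mem_V2₂ σ) E.D2.u'_mem h2 hc]

/-- **(hH)** the set of the ends is stable under the inertia action. -/
theorem inert_hH
    (red : ∀ (c : Vtx Mid SS) (f : F), f ∈ (E.S c).Ov →
      (E.S (inertPerm σ c)).red (t • f) = e c ((E.S c).red f))
    (h1 : InertScaled E.S t (algebraMap K F E.ϖ1 / E.u1)) (h2 : InertScaled E.S t E.u2)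
    (c : Vtx Mid SS) (Q : Place k (FkOf Fk0 FkM FkP c))
    (Q' : Place k (FkOf Fk0 FkM FkP (inertPerm σ c))) (hc : PlaceCorr (e c) Q Q') :
    ((⟨c, Q⟩ : Σ c, Place k (FkOf Fk0 FkM FkP c)) ∈ E.PJA ∨
        (⟨c, Q⟩ : Σ c, Place k (FkOf Fk0 FkM FkP c)) ∈ E.PJM ∨
        (⟨c, Q⟩ : Σ c, Place k (FkOf Fk0 FkM FkP c)) ∈ E.PJ2) ↔
      ((⟨inertPerm σ c, Q'⟩ : Σ c, Place k (FkOf Fk0 FkM FkP c)) ∈ E.PJA ∨
        (⟨inertPerm σ c, Q'⟩ : Σ c, Place k (FkOf Fk0 FkM FkP c)) ∈ E.PJM ∨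
        (⟨inertPerm σ c, Q'⟩ : Σ c, Place k (FkOf Fk0 FkM FkP c)) ∈ E.PJ2) := by
  rw [E.mem_ends_iff_ncPts, E.mem_ends_iff_ncPts,
    inert_ncPts_iff E.S red E.V1₂ (E.inertPerm_mem_V1₂ σ) E.D1.u'_mem h1 hc,
    inert_ncPts_iff E.S red E.V2₁ (E.inertPerm_mem_V2₁ σ) E.D2.u_mem h2 hc]

end ModEndsInput

end Mod

end Fermat.Agent.S36G
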