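import Mathlib
import Fermat.Agent.S36.G.CocycleF3Seed
import Fermat.Agent.S36.G.InertEnds
import Fermat.Agent.S36.Seed.Perm
import Fermat.Agent.Lib.BadRed.Graph.GlueWD

set_option autoImplicit false
set_option linter.unusedSectionVars false

/-!
# Cluster G (S36), Step 3: the relation (F3) for the modular seed of `ModEndsInput`
(helper55, INERT)

`E : ModEndsInput`, `I = E.toMatchInput`, `G = I.seed x ..`, `N = G.graphSetup`.

* `InertVertexData E t σ` : the vertex-wise description of the action of one inertia element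
  `t` (trivial on `v_∞`, `v_0`; `mid m ↦ mid (σ m)` with some isomorphism of the residue
  fields; every `w_P` stable with some automorphism of its residue field) and the four
  scaling statements `t • f = (unit of A) • f` for `u1`, `ϖ2 / u2`, `ϖ1 / u1`, `u2`;
* `ModEndsInput.inert_isPermAut` : such a `t` with `t • x = x` is an automorphism of the seed
  (`GraphSeed.IsPermAut t (inertPerm σ) e`);
* `cocycleF3_of_ends` : **(F3)** for the package of the modular seed, if for every `g` with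
  `P₃ g` and every pair `m ≠ m'` of middle vertices there is such a `t` with `σ m = m'` and
  `t • g = a uⁿ g`.
-/

noncomputable section

open AlgebraicCurve Fermat.Agent.RR Fermat.Agent.Deuring

namespace Fermat.Agent.S36G

open Fermat.Agent.BadRed Fermat.Agent.BadRedG Fermat.Agent.BadRed.Gluing

variable {K F k : Type} [Field K] [Field F] [Algebra K F] [Field k]
  {Mid SS : Type} [Fintype Mid] [Fintype SS]
  {Fk0 : Type} [Field Fk0] [Algebra k Fk0]
  {FkM : Mid → Type} [∀ m, Field (FkM m)] [∀ m, Algebra k (FkM m)]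
  {FkP : SS → Type} [∀ P, Field (FkP P)] [∀ P, Algebra k (FkP P)]

/-- the vertex-wise description of the action of an inertia element on the modular graph. -/
structure InertVertexData (E : ModEndsInput K F k Mid SS Fk0 FkM FkP) (t : SemilinearAut K F)
    (σ : Equiv.Perm Mid) : Prop where
  oo_mem : ∀ f, f ∈ (E.S (Vtx.vert Vrt.oo)).Ov → t • f ∈ (E.S (Vtx.vert Vrt.oo)).Ov
  oo_red : ∀ f, f ∈ (E.S (Vtx.vert Vrt.oo)).Ov →
    (E.S (Vtx.vert Vrt.oo)).red (t • f) = (E.S (Vtx.vert Vrt.oo)).red f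
  zero_mem : ∀ f, f ∈ (E.S (Vtx.vert Vrt.zero)).Ov → t • f ∈ (E.S (Vtx.vert Vrt.zero)).Ov
  zero_red : ∀ f, f ∈ (E.S (Vtx.vert Vrt.zero)).Ov →
    (E.S (Vtx.vert Vrt.zero)).red (t • f) = (E.S (Vtx.vert Vrt.zero)).red f
  mid : ∀ m : Mid, ∃ eM : FkM m ≃ₐ[k] FkM (σ m),
    ∀ f, f ∈ (E.S (Vtx.vert (Vrt.mid m))).Ov →
      t • f ∈ (E.S (Vtx.vert (Vrt.mid (σ m)))).Ov ∧
        (E.S (Vtx.vert (Vrt.mid (σ m)))).red (t • f) =
          eM ((E.S (Vtx.vert (Vrt.mid m))).red f)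
  hor : ∀ P : SS, ∃ eP : FkP P ≃ₐ[k] FkP P,
    ∀ f, f ∈ (E.S (Vtx.hor P)).Ov →
      t • f ∈ (E.S (Vtx.hor P)).Ov ∧
        (E.S (Vtx.hor P)).red (t • f) = eP ((E.S (Vtx.hor P)).red f)
  sc_u1 : InertScaled E.S t E.u1
  sc_u2' : InertScaled E.S t (algebraMap K F E.ϖ2 / E.u2)
  sc_u1' : InertScaled E.S t (algebraMap K F E.ϖ1 / E.u1)
  sc_u2 : InertScaled E.S t E.u2

namespace ModEndsInput

variable (E : ModEndsInput K F k Mid SS Fk0 FkM FkP) [Infinite k] [Nonempty SS]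

section Seed

variable (x : F) (hx : ∀ c, x ∈ (E.toMatchInput.S c).Ov)
    (hD₀ : E.toMatchInput.D₀ = poleDiv (E.toMatchInput.S (Vtx.vert Vrt.oo)).hF x)
    (hpos : ∀ c, 0 < Divisor.degree
      (poleDiv (E.toMatchInput.S c).hFk ((E.toMatchInput.S c).red x)))
    (hn₁ : ∀ (P : SS) (v : Vrt Mid),
      0 ≤ (E.toMatchInput.pv P v).ord ((E.toMatchInput.S (Vtx.vert v)).red x))
    (hn₂ : ∀ p : Σ c, Place k (FkOf Fk0 FkM FkP c),
      p ∈ E.toMatchInput.PJA ∨ p ∈ E.toMatchInput.PJM ∨ p ∈ E.toMatchInput.PJ2 →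
      0 ≤ p.2.ord ((E.toMatchInput.S p.1).red x))
    (hdeg : Divisor.degree (poleDiv (E.toMatchInput.S (Vtx.vert Vrt.oo)).hF x) ≤
      ∑ c, Divisor.degree (poleDiv (E.toMatchInput.S c).hFk ((E.toMatchInput.S c).red x)))
    (hgenus : genusFF K F + Fintype.card (Vtx Mid SS) ≤
      (∑ c, genusFF k (FkOf Fk0 FkM FkP c)) + Fintype.card (Nod Mid SS) + 1)

/-- **an inertia element is an automorphism of the modular seed.** -/
theorem inert_isPermAut {t : SemilinearAut K F} {σ : Equiv.Perm Mid}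
    (D : InertVertexData E t σ) (htx : t • x = x) :
    ∃ e : ∀ c, FkOf Fk0 FkM FkP c ≃ₐ[k] FkOf Fk0 FkM FkP (inertPerm σ c),
      (E.toMatchInput.seed x hx hD₀ hpos hn₁ hn₂ hdeg hgenus).IsPermAut t (inertPerm σ) e := by
  choose eM hM using D.mid
  choose eP hP using D.hor
  have mem : ∀ (c : Vtx Mid SS) (f : F), f ∈ (E.S c).Ov → t • f ∈ (E.S (inertPerm σ c)).Ov :=
    inert_asm_mem E.S t σ D.oo_mem D.zero_mem (fun m f hf => (hM m f hf).1)
      (fun P f hf => (hP P f hf).1)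
  have red : ∀ (c : Vtx Mid SS) (f : F), f ∈ (E.S c).Ov →
      (E.S (inertPerm σ c)).red (t • f) = inertFk σ eM eP c ((E.S c).red f) :=
    inert_asm_red E.S t σ eM eP D.oo_red D.zero_red (fun m f hf => (hM m f hf).2)
      (fun P f hf => (hP P f hf).2)
  refine ⟨inertFk σ eM eP, ?_⟩
  exact E.toMatchInput.seed_isPermAut x hx hD₀ hpos hn₁ hn₂ hdeg hgenus t (inertPerm σ)
    (inertFk σ eM eP) mem red htx (fun c Q => seedPerm_exists_placeCorr _ Q)
    (E.inert_hV σ red D.sc_u1 D.sc_u2') (E.inert_hH σ red D.sc_u1' D.sc_u2)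

/-- **(F3) for the package of the modular seed.** -/
theorem cocycleF3_of_ends [IsAlgClosed k] {n : ℕ} (hn : n ≠ 0) (R : Divisor K F)
    (P₃ : F → Prop)
    (hact : ∀ g : F, P₃ g → ∀ m m' : Mid, m ≠ m' →
      ∃ (t : SemilinearAut K F) (σ : Equiv.Perm Mid), InertVertexData E t σ ∧ t • x = x ∧
        σ m = m' ∧ ∃ (u : F) (a : K), a ≠ 0 ∧ t • g = algebraMap K F a * u ^ n * g) :
    CocycleF3 (E.toMatchInput.seed x hx hD₀ hpos hn₁ hn₂ hdeg hgenus).graphSetup n R P₃ := by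
  refine cocycleF3_of_seed _ (fun i => rfl) (fun i => rfl) (graphWD _) hn R P₃ ?_
  intro g hg m m' hmm
  obtain ⟨t, σ, D, htx, hσ, hu⟩ := hact g hg m m' hmm
  obtain ⟨e, he⟩ := E.inert_isPermAut x hx hD₀ hpos hn₁ hn₂ hdeg hgenus D htx
  refine ⟨t, inertPerm σ, e, he, fun P => rfl, rfl, ?_, hu⟩
  rw [inertPerm_mid, hσ]

end Seed

end ModEndsInput

end Fermat.Agent.S36G
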