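/-
Cluster G (S36), seat G-AUX (helper60): Step 0 in the exact shape of `S36B.CoreAt`.

`coreAt_of_aux`: for a prime `r ≠ q`, `CoreAt lam (M * r) q → CoreAt lam M q`
(`q` prime, `q ∣ M`; `r ∣ M` allowed); `coreAt_of_aux_mul`: the same for any factor `R` prime to `q`.  So (CORE) has to be proved only at levels `M = q² M₀` such that `M₀` is
divisible by an auxiliary prime `r` (e.g. `r ≡ 11 mod 12`: no elliptic points), see
`coreAt_of_forall_aux`.
-/
import Mathlib
import Fermat.Agent.S36.G.AuxLevel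
import Fermat.Agent.S36.Bridge.Defs

set_option autoImplicit false
set_option linter.unusedSectionVars false
set_option linter.style.haveILetI false

noncomputable section

namespace Fermat.Agent.S36G

open ModularCurve AlgebraicCurve Fermat.Agent.F3 Fermat.Agent.F3G
  Fermat.Agent.AtkinLehner Fermat.Agent.F3I2 Fermat.Agent.F3Deg
  Fermat.Agent.F3DegW Fermat.Agent.BadRed Fermat.Agent.S35 Fermat.Agent.S36B

local notation "Qb" => AlgebraicClosure ℚ

section

set_option synthInstance.maxHeartbeats 400000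
set_option maxHeartbeats 1000000

/-- `coreProp_of_aux` with level casts. -/
theorem aux_core_cast {lam q r : ℕ} [NeZero q] [NeZero r] {M N₁ M' N₁' : ℕ} [NeZero M]
    [NeZero N₁] [NeZero M'] [NeZero N₁'] (hlam : lam ≠ 0) (hq : q.Prime) (hr : r.Prime)
    (hqr : q ≠ r) (hMq : M = N₁ * q) (hMq' : M' = N₁' * q) (hN : N₁' = N₁ * r)
    (D D' : ALData) (hM : M = D.Q * D.R) (hM' : M' = D'.Q * D'.R) (hQ : D'.Q = D.Q)
    (hR : D'.R = D.R * r) (c : ℕ) (H : Subgroup (Qb ≃ₐ[ℚ] Qb))
    (hcore : ∀ (n : ℕ) (y : JZero M'), lam ^ n • y = 0 → pushAlphaAt hMq' y = 0 →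
      pushAlphaAt hMq' (pushWAt D' hM' y) = 0 → (∀ σ ∈ H, σ • y = y) → c • y = 0) :
    ∀ (n : ℕ) (y : JZero M), lam ^ n • y = 0 → pushAlphaAt hMq y = 0 →
      pushAlphaAt hMq (pushWAt D hM y) = 0 → (∀ σ ∈ H, σ • y = y) → c • y = 0 := by
  subst hN
  subst hMq
  subst hMq'
  exact coreProp_of_aux (N₀ := N₁) (q := q) (ℓ := r) hlam hq hr hqr D D' hM hM' hQ hR c H hcore

/-- **Step 0 (AUX)** for `CoreAt`: descent from the auxiliary level `M * r`. -/
theorem coreAt_of_aux (lam M q r M' : ℕ) [NeZero M] [NeZero q] [NeZero (M / q)] [NeZero M']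
    [NeZero (M' / q)] (hlam : lam ≠ 0) (hq : q.Prime) (hr : r.Prime)
    (hqr : q ≠ r) (hM' : M' = M * r) (h : CoreAt lam M' q) : CoreAt lam M q := by
  intro D hDQ hM hMq
  haveI : NeZero r := ⟨hr.ne_zero⟩
  have hcopQR : Nat.Coprime D.Q D.R := by
    have h1 : IsCoprime (D.Q : ℤ) (D.R : ℤ) := ⟨D.a, -D.b, by have := D.hdet; linarith⟩
    exact Nat.isCoprime_iff_coprime.mp h1
  have hcopQr : Nat.Coprime D.Q r := by
    rw [hDQ]
    exact Nat.Coprime.pow_left 2 ((Nat.coprime_primes hq hr).mpr hqr)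
  obtain ⟨D', hQ', hR'⟩ := ALData.exists_of_coprime D.hQ (Nat.mul_pos D.hR hr.pos)
    (Nat.Coprime.mul_right hcopQR hcopQr)
  have hM'' : M' = D'.Q * D'.R := by rw [hM', hQ', hR', hM]; ring
  have hqM : q ∣ M := ⟨M / q, by rw [mul_comm]; exact hMq⟩
  have hMq' : M' = M' / q * q := by
    rw [Nat.div_mul_cancel]
    rw [hM']
    exact hqM.mul_right r
  have hN : M' / q = M / q * r := by
    apply Nat.eq_of_mul_eq_mul_right hq.pos
    rw [← hMq', hM']
    calc M * r = M / q * q * r := by rw [← hMq]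
      _ = M / q * r * q := by ring
  obtain ⟨c, hc, P, hP, hcore⟩ := h D' (hQ'.trans hDQ) hM'' hMq'
  exact ⟨c, hc, P, hP, aux_core_cast hlam hq hr hqr hMq hMq' hN D D' hM hM'' hQ' hR' c
    (P.inertiaSubgroupIn ℚ) hcore⟩

/-- level cast for `CoreAt`. -/
theorem coreAt_congr {lam q M M' : ℕ} [NeZero q] [NeZero M] [NeZero (M / q)] [NeZero M']
    [NeZero (M' / q)] (h : M = M') (hc : CoreAt lam M q) : CoreAt lam M' q := by
  subst h
  exact hc

/-- positivity of `M * a / q`. -/
theorem aux_neZero_div {M a q : ℕ} [NeZero (M / q)] (ha : a ≠ 0) (hq : 0 < q) :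
    NeZero (M * a / q) := by
  refine ⟨?_⟩
  have h1 : 0 < M / q := Nat.pos_of_ne_zero (NeZero.ne (M / q))
  have h2 : q ≤ M := by
    by_contra hlt
    rw [Nat.div_eq_of_lt (not_le.mp hlt)] at h1
    exact lt_irrefl 0 h1
  have h3 : q ≤ M * a := le_trans h2 (Nat.le_mul_of_pos_right M (Nat.pos_of_ne_zero ha))
  exact (Nat.div_pos h3 hq).ne'

/-- **Step 0 (AUX)**, general auxiliary factor: for `R` prime to `q`,
`CoreAt lam (M * R) q → CoreAt lam M q`. -/
theorem coreAt_of_aux_mul (lam q : ℕ) [NeZero q] (hlam : lam ≠ 0) (hq : q.Prime) (R : ℕ) :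
    Nat.Coprime R q → ∀ (M : ℕ) [NeZero M] [NeZero (M / q)] [NeZero (M * R)]
      [NeZero (M * R / q)], CoreAt lam (M * R) q → CoreAt lam M q := by
  induction R using Nat.recOnMul with
  | zero =>
    intro _ M _ _ h0 _ _
    exact absurd (mul_zero M) (NeZero.ne (M * 0))
  | one =>
    intro _ M _ _ _ _ hc
    exact coreAt_congr (mul_one M) hc
  | prime p hp =>
    intro hcop M _ _ _ _ hc
    have hqp : q ≠ p := by
      rintro rfl
      rw [Nat.coprime_self] at hcop
      exact hq.ne_one hcop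
    exact coreAt_of_aux lam M q p (M * p) hlam hq hp hqp rfl hc
  | mul a b iha ihb =>
    intro hcop M _ _ hMab _ hc
    have hab : a * b ≠ 0 := fun h0 => by
      have := NeZero.ne (M * (a * b))
      rw [h0, mul_zero] at this
      exact this rfl
    have ha : a ≠ 0 := left_ne_zero_of_mul hab
    have hb : b ≠ 0 := right_ne_zero_of_mul hab
    have hcopa : Nat.Coprime a q := Nat.Coprime.coprime_mul_right hcop
    have hcopb : Nat.Coprime b q := Nat.Coprime.coprime_mul_left hcop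
    haveI : NeZero (M * a) := ⟨Nat.mul_ne_zero (NeZero.ne M) ha⟩
    haveI : NeZero (M * a / q) := aux_neZero_div ha hq.pos
    haveI : NeZero (M * a * b) := ⟨Nat.mul_ne_zero (NeZero.ne (M * a)) hb⟩
    haveI : NeZero (M * a * b / q) := aux_neZero_div hb hq.pos
    have hc' : CoreAt lam (M * a * b) q := coreAt_congr (mul_assoc M a b).symm hc
    exact iha hcopa M (ihb hcopb (M * a) hc')

end

end Fermat.Agent.S36G
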