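/-
Cluster G (S36), CORE assembly, dictionary torsion classes <-> Kummer generators (helper34).

Generic lemmas used by `S36/G/CoreTorsion.lean` (function form of (CORE) => torsion form):

* `cd_gal_of_fixed`  : a class `[E]`, `n E = div g`, fixed by `σ`  ⟹  `σ g = c · uⁿ · g`;
* `cd_kill_of_pow`   : `n E = div g`, `g ^ c = a · vⁿ`  ⟹  `c • [E] = 0`;
* `cd_pow_of_kill`   : the converse;
* `cd_dvd_ord`       : `n ∣ ord_v g` for a Kummer generator.
-/
import Mathlib
import Fermat.Agent.Lib.BadRed.Bridge.NormRel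
import Fermat.Agent.F3.I2.RootClass

set_option autoImplicit false
set_option linter.style.haveILetI false
set_option linter.unusedSectionVars false

noncomputable section

namespace Fermat.Agent.S36G

open ModularCurve AlgebraicCurve Fermat.Agent.F3 Fermat.Agent.F3G Fermat.Agent.F3I2

local notation "Qb" => AlgebraicClosure ℚ

section generic

variable {K F : Type*} [Field K] [Field F] [Algebra K F]

/-- `(1/n) div (g ^ c) = c • (1/n) div g`. -/
theorem cd_isRootDiv_pow {n : ℕ} {g : F} {E : Divisor.degZero (K := K) (F := F)}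
    (hE : IsRootDiv n g E) (c : ℕ) : IsRootDiv n (g ^ c) (c • E) := by
  refine ⟨pow_ne_zero c hE.1, fun v => ?_⟩
  rw [AddSubgroup.coe_nsmul, Finsupp.smul_apply, nsmul_eq_mul, ← zpow_natCast g c,
    Place.ord_zpow, ← hE.2 v]
  ring

/-- `n ∣ ord_v g` for a Kummer generator. -/
theorem cd_dvd_ord {n : ℕ} {g : F} {E : Divisor.degZero (K := K) (F := F)}
    (hE : IsRootDiv n g E) (v : Place K F) : (n : ℤ) ∣ v.ord g :=
  ⟨_, (hE.2 v).symm⟩

/-- **functions → torsion**: if `n E = div g` and `g ^ c = a · vⁿ` then `c • [E] = 0`. -/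
theorem cd_kill_of_pow {n : ℕ} (hn : 0 < n) {g : F} {E : Divisor.degZero (K := K) (F := F)}
    (hE : IsRootDiv n g E) (c : ℕ) {v : F} {a : K} (ha : a ≠ 0)
    (h : g ^ c = algebraMap K F a * v ^ n) : c • Pic0.mk E = 0 := by
  have h1 : IsRootDiv n (g ^ c) (c • E) := cd_isRootDiv_pow hE c
  have h2 : IsRootDiv n (v ^ n) (c • E) := by
    have h3 := h1.const_mul (inv_ne_zero ha)
    rw [h, ← mul_assoc, ← map_mul, inv_mul_cancel₀ ha, map_one, one_mul] at h3
    exact h3
  have h4 : Pic0.mk (c • E) = 0 := h2.mk_eq_zero_of_pow hn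
  have e4 : c • Pic0.mk E = Pic0.mk (c • E) :=
    (map_nsmul (QuotientAddGroup.mk' _) c E).symm
  rw [e4, h4]

end generic

section Modular

variable {N : ℕ} [NeZero N]

/-- **torsion → functions**: if `n E = div g` and `c • [E] = 0` then `g ^ c = a · vⁿ`. -/
theorem cd_pow_of_kill {n : ℕ} {g : FBar N}
    {E : Divisor.degZero (K := Qb) (F := FBar N)} (hE : IsRootDiv n g E) (c : ℕ)
    (h : c • Pic0.mk E = 0) :
    ∃ (v : FBar N) (a : Qb), a ≠ 0 ∧ g ^ c = algebraMap Qb (FBar N) a * v ^ n := by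
  have h1 : IsRootDiv n (g ^ c) (c • E) := cd_isRootDiv_pow hE c
  have e4 : c • Pic0.mk E = Pic0.mk (c • E) :=
    (map_nsmul (QuotientAddGroup.mk' _) c E).symm
  rw [e4] at h
  obtain ⟨y, hy, hord⟩ := h1.exists_of_mk_eq_zero h
  have hyn : y ^ n ≠ 0 := pow_ne_zero n hy
  set w : FBar N := g ^ c / y ^ n with hw
  have hw0 : w ≠ 0 := div_ne_zero h1.1 hyn
  have hw_ord : ∀ v : Place Qb (FBar N), v.ord w = 0 := by
    intro v
    have e1 : v.ord (g ^ c) = v.ord w + v.ord (y ^ n) := by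
      rw [← v.ord_mul hw0 hyn, hw, div_mul_cancel₀ _ hyn]
    have e2 : v.ord (y ^ n) = (n : ℤ) * v.ord y := by
      rw [← zpow_natCast, Place.ord_zpow]
    have e3 := hord v
    linarith
  obtain ⟨a, ha, hwa⟩ := Fermat.Agent.BadRed.normRel_const_of_ord_eq_zero N hw0 hw_ord
  refine ⟨y, a, ha, ?_⟩
  rw [← hwa, hw, div_mul_cancel₀ _ hyn]

/-- **torsion → functions, Galois**: a class `[E]`, `n E = div g`, fixed by `σ` has
`σ g = c · uⁿ · g`. -/
theorem cd_gal_of_fixed {n : ℕ} {g : FBar N}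
    {E : Divisor.degZero (K := Qb) (F := FBar N)} (hE : IsRootDiv n g E) (σ : GQ)
    (hfix : σ • Pic0.mk E = Pic0.mk E) :
    ∃ (u : FBar N) (c : Qb), c ≠ 0 ∧
      galFun N σ g = algebraMap Qb (FBar N) c * u ^ n * g := by
  set G := arithmeticGalois (modularFunctionFieldFull N) σ with hG
  set E' := SemilinearAut.degZeroSMulHom G E with hE'
  have e1 : σ • Pic0.mk E = Pic0.mk E' := SemilinearAut.pic0_smul_mk G E
  have hg' : G • g ≠ 0 := by simpa using hE.1
  have hE'r : IsRootDiv n (G • g) E' :=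
    ⟨hg', fun v => mul_smul_divisor_apply_eq_ord G (n : ℤ) hE.2 v⟩
  have h1 : IsRootDiv n (G • g * g⁻¹) (E' + -E) := hE'r.mul hE.inv
  have h0 : Pic0.mk (E' + -E) = 0 := by
    have : Pic0.mk (E' + -E) = Pic0.mk E' - Pic0.mk E := by
      rw [← sub_eq_add_neg]; rfl
    rw [this, ← e1, hfix, sub_self]
  obtain ⟨y, hy, hord⟩ := h1.exists_of_mk_eq_zero h0
  have hyn : y ^ n ≠ 0 := pow_ne_zero n hy
  set w : FBar N := G • g * g⁻¹ / y ^ n with hw
  have hw0 : w ≠ 0 := div_ne_zero h1.1 hyn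
  have hw_ord : ∀ v : Place Qb (FBar N), v.ord w = 0 := by
    intro v
    have e1 : v.ord (G • g * g⁻¹) = v.ord w + v.ord (y ^ n) := by
      rw [← v.ord_mul hw0 hyn, hw, div_mul_cancel₀ _ hyn]
    have e2 : v.ord (y ^ n) = (n : ℤ) * v.ord y := by
      rw [← zpow_natCast, Place.ord_zpow]
    have e3 := hord v
    linarith
  obtain ⟨c, hc, hwc⟩ := Fermat.Agent.BadRed.normRel_const_of_ord_eq_zero N hw0 hw_ord
  refine ⟨y, c, hc, ?_⟩
  show G • g = _
  rw [← hwc, hw, div_mul_cancel₀ _ hyn, inv_mul_cancel_right₀ hE.1]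

end Modular

end Fermat.Agent.S36G
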