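/-
Cluster G (S36), CORE assembly, seat CORE-TF (helper34): the FUNCTION form of (CORE) implies the
TORSION form, and the torsion form implies the interface `S36B.CoreAt` of the bridge.

Statements: `S36/G/Defs.lean` (helper80): `CoreFunAt`, `CoreTorsionAt`, `CoreTorsionOfFunStatement`.
`M = N₁ q`, `π₁^* = heckeAlphaBar N₁ q`, `w = wAt D hM` (`= w_{q²}`).  For a Kummer generator `g`
(`n ∣ div g`, `n = lam ^ k`) of a class `y = [(1/n) div g]`:

* `π₁_* y = 0`        ⟹  `Norm_{π₁} g = a · uⁿ`        (`BadRed.exists_norm_eq_of_pushAlpha_eq_zero`)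
* `π₁_* w_* y = 0`    ⟹  `Norm_{π₁} (w g) = a · uⁿ`    (`isRootDiv_pushWAt`)
* `σ y = y`           ⟹  `σ g = a · uⁿ · g`             (`cd_gal_of_fixed`)
* `g ^ c = a · vⁿ`    ⟹  `c y = 0`                      (`cd_kill_of_pow`).
-/
import Mathlib
import Fermat.Agent.S36.G.Defs
import Fermat.Agent.S36.Bridge.Defs
import Fermat.Agent.S36.G.CoreDict
import Fermat.Agent.F3.I2.Deg.ALPushAt
import Fermat.Agent.Lib.BadRed.Bridge.LevelCast
import Fermat.Agent.Lib.BadRed.Bridge.NormRel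

set_option autoImplicit false
set_option linter.style.haveILetI false
set_option linter.unusedSectionVars false

noncomputable section

namespace Fermat.Agent.S36G

open ModularCurve AlgebraicCurve Fermat.Agent.F3 Fermat.Agent.F3G Fermat.Agent.F3I2
  Fermat.Agent.F3Deg Fermat.Agent.F3DegW Fermat.Agent.BadRed
open Fermat.Agent.AtkinLehner (ALData)

local notation "Qb" => AlgebraicClosure ℚ

/-- **seat CORE-TF: function form ⟹ torsion form** (`lam ≠ 0`). -/
theorem coreTorsionOfFun (lam N₁ q : ℕ) [NeZero N₁] [NeZero q] (c : ℕ)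
    (P : ValuationSubring Qb) (hlam : lam ≠ 0) : CoreTorsionOfFunStatement lam N₁ q c P := by
  intro h D hM hDQ n y hy hA hB hfix
  have hn : lam ^ n ≠ 0 := pow_ne_zero n hlam
  have hy' : ((lam ^ n : ℕ) : ℤ) • y = 0 := by rwa [natCast_zsmul]
  obtain ⟨E, g, hE, rfl⟩ := exists_isRootDiv_of_torsion (lam ^ n) y hy'
  have hNA : IsCPow (lam ^ n) (normAlong (heckeAlphaBar Qb N₁ q) g) :=
    exists_norm_eq_of_pushAlpha_eq_zero hn hE hA
  have hNB : IsCPow (lam ^ n) (normAlong (heckeAlphaBar Qb N₁ q) (wAt D hM g)) := by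
    obtain ⟨E', hE', hE'r⟩ := isRootDiv_pushWAt D hM hE
    rw [hE'] at hB
    exact exists_norm_eq_of_pushAlpha_eq_zero hn hE'r hB
  have hI : InertiaFixedFun (N₁ * q) P (lam ^ n) g :=
    fun τ hτ => cd_gal_of_fixed hE τ (hfix τ hτ)
  obtain ⟨v, a, ha, hv⟩ := h n D hM hDQ g hE.1 (cd_dvd_ord hE) hI hNA hNB
  exact cd_kill_of_pow (Nat.pos_of_ne_zero hn) hE c ha hv

section glue

variable {M N₁ q : ℕ} [NeZero M] [NeZero N₁] [NeZero q]

/-- transport of the torsion form along a level equation `M = N₁ q`. -/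
theorem ct_kill_at (h : M = N₁ * q) (D : ALData) (hM : M = D.Q * D.R) (hDQ : D.Q = q ^ 2)
    {lam c : ℕ} {P : ValuationSubring Qb} (hT : CoreTorsionAt lam N₁ q c P)
    (n : ℕ) (y : JZero M) (hy : lam ^ n • y = 0)
    (hA : Fermat.Agent.S35.pushAlphaAt h y = 0)
    (hB : Fermat.Agent.S35.pushAlphaAt h (pushWAt D hM y) = 0)
    (hfix : ∀ σ ∈ P.inertiaSubgroupIn ℚ, σ • y = y) : c • y = 0 := by
  subst h
  exact hT D hM hDQ n y hy hA hB hfix

end glue

/-- **torsion form ⟹ the interface `CoreAt` of the bridge.** -/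
theorem coreAt_of_coreTorsionAt (lam M q : ℕ) [NeZero M] [NeZero q] [NeZero (M / q)]
    (h : ∃ c : ℕ, c ≠ 0 ∧ ∃ P : ValuationSubring Qb, P.LiesOverPrime q ∧
      CoreTorsionAt lam (M / q) q c P) : Fermat.Agent.S36B.CoreAt lam M q := by
  intro D hDQ hM hMq
  obtain ⟨c, hc, P, hP, hT⟩ := h
  exact ⟨c, hc, P, hP, fun n y hy hA hB hfix => ct_kill_at hMq D hM hDQ hT n y hy hA hB hfix⟩

/-- **function form ⟹ `CoreAt`.** -/
theorem coreAt_of_coreFunAt (lam M q : ℕ) [NeZero M] [NeZero q] [NeZero (M / q)]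
    (hlam : lam ≠ 0)
    (h : ∃ c : ℕ, c ≠ 0 ∧ ∃ P : ValuationSubring Qb, P.LiesOverPrime q ∧
      ∀ n : ℕ, CoreFunAt (M / q) q c P (lam ^ n)) : Fermat.Agent.S36B.CoreAt lam M q := by
  obtain ⟨c, hc, P, hP, hF⟩ := h
  exact coreAt_of_coreTorsionAt lam M q
    ⟨c, hc, P, hP, coreTorsionOfFun lam (M / q) q c P hlam hF⟩

end Fermat.Agent.S36G
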