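/-
Cluster G (S36), top wiring (helper36): `CoreOdd` (the only input of the bridge,
`S36/Bridge/Final.lean`) from the geometric target at AUXILIARY levels.

* `coreOdd_of_good`      : generic form.  `Good lam q M` any predicate on levels such that every
                           level can be multiplied into a good one by a factor prime to `q`.
* `AuxGood q M`          : `M` is divisible by a prime `r ≡ 11 mod 12`, `r ≠ q`.
* `coreOdd_of_auxGood`   : `CoreOdd` from `CoreAt` at the levels with `AuxGood`.
* `coreOdd_of_coreFun`   : `CoreOdd` from the function form `CoreFunAt` (helper80's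
                           `S36/G/Defs.lean`) at the levels with `AuxGood`.

Inputs: Step 0 (helper60, `coreAt_of_aux_mul`), CORE-TF (helper34, `coreAt_of_coreFunAt`).
-/
import Mathlib
import Fermat.Agent.S36.G.AuxCore
import Fermat.Agent.S36.G.CoreTorsion
import Fermat.Agent.S36.Bridge.Final

set_option autoImplicit false
set_option linter.unusedSectionVars false
set_option linter.style.haveILetI false

noncomputable section

namespace Fermat.Agent.S36G

open Fermat.Agent.S36B

local notation "Qb" => AlgebraicClosure ℚ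

/-- multiplying the level by a factor prime to `q` does not change the exponent of `q`. -/
theorem factorization_mul_of_coprime {M R q : ℕ} (hM : M ≠ 0) (hR : R ≠ 0) (hq : q.Prime)
    (hcop : Nat.Coprime R q) : (M * R).factorization q = M.factorization q := by
  rw [Nat.factorization_mul hM hR, Finsupp.add_apply]
  have h0 : R.factorization q = 0 := by
    apply Nat.factorization_eq_zero_of_not_dvd
    intro hdvd
    have h1 : q ∣ Nat.gcd R q := Nat.dvd_gcd hdvd dvd_rfl
    rw [Nat.Coprime] at hcop
    rw [hcop] at h1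
    exact hq.one_lt.ne' (Nat.dvd_one.mp h1)
  rw [h0, add_zero]

/-- **top wiring, generic form.** -/
theorem coreOdd_of_good (Good : ℕ → ℕ → ℕ → Prop)
    (hex : ∀ lam q M : ℕ, lam.Prime → lam ≠ 2 → q.Prime → q ≠ lam → M.factorization q = 2 →
      ∃ R : ℕ, R ≠ 0 ∧ Nat.Coprime R q ∧ Good lam q (M * R))
    (hcore : ∀ (lam q M : ℕ) [NeZero M] [NeZero q] [NeZero (M / q)], lam.Prime → lam ≠ 2 →
      q.Prime → q ≠ lam → M.factorization q = 2 → Good lam q M → CoreAt lam M q) :
    CoreOdd := by
  intro lam M q _ _ _ hlam hlam2 hq hql hq2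
  obtain ⟨R, hR0, hcop, hgood⟩ := hex lam q M hlam hlam2 hq hql hq2
  haveI : NeZero (M * R) := ⟨Nat.mul_ne_zero (NeZero.ne M) hR0⟩
  haveI : NeZero (M * R / q) := aux_neZero_div hR0 hq.pos
  have hfac : (M * R).factorization q = 2 := by
    rw [factorization_mul_of_coprime (NeZero.ne M) hR0 hq hcop, hq2]
  exact coreAt_of_aux_mul lam q hlam.ne_zero hq R hcop M
    (hcore lam q (M * R) hlam hlam2 hq hql hfac hgood)

/-- the auxiliary condition: `M` is divisible by a prime `r ≡ 11 mod 12`, `r ≠ q`. -/
def AuxGood (q M : ℕ) : Prop := ∃ r : ℕ, r.Prime ∧ r % 12 = 11 ∧ r ≠ q ∧ r ∣ M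

theorem exists_auxGood (q M : ℕ) (hq : q.Prime) :
    ∃ R : ℕ, R ≠ 0 ∧ Nat.Coprime R q ∧ AuxGood q (M * R) := by
  by_cases h : q = 11
  · refine ⟨23, by norm_num, ?_, 23, by norm_num, by norm_num, by rw [h]; norm_num,
      Dvd.intro_left M rfl⟩
    rw [h]
    norm_num
  · refine ⟨11, by norm_num, ?_, 11, by norm_num, by norm_num, fun h' => h h'.symm,
      Dvd.intro_left M rfl⟩
    exact (Nat.coprime_primes (by norm_num) hq).mpr (fun h' => h h'.symm)

/-- **top wiring**: `CoreOdd` from `CoreAt` at the auxiliary levels. -/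
theorem coreOdd_of_auxGood
    (hcore : ∀ (lam q M : ℕ) [NeZero M] [NeZero q] [NeZero (M / q)], lam.Prime → lam ≠ 2 →
      q.Prime → q ≠ lam → M.factorization q = 2 → AuxGood q M → CoreAt lam M q) :
    CoreOdd :=
  coreOdd_of_good (fun _ q M => AuxGood q M)
    (fun _ q M _ _ hq _ _ => exists_auxGood q M hq) hcore

/-- **top wiring**: `CoreOdd` from the function form of (CORE) at the auxiliary levels. -/
theorem coreOdd_of_coreFun
    (hfun : ∀ (lam q M : ℕ) [NeZero M] [NeZero q] [NeZero (M / q)], lam.Prime → lam ≠ 2 →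
      q.Prime → q ≠ lam → M.factorization q = 2 → AuxGood q M →
      ∃ c : ℕ, c ≠ 0 ∧ ∃ P : ValuationSubring Qb, P.LiesOverPrime q ∧
        ∀ n : ℕ, CoreFunAt (M / q) q c P (lam ^ n)) :
    CoreOdd :=
  coreOdd_of_auxGood fun lam q M _ _ _ hlam hlam2 hq hql hq2 hgood =>
    coreAt_of_coreFunAt lam M q hlam.ne_zero (hfun lam q M hlam hlam2 hq hql hq2 hgood)

/-- **frozen S36 (as `S36Statement`) from the function form of (CORE) at the auxiliary
levels.** -/
theorem s36Statement_of_coreFun
    (hfun : ∀ (lam q M : ℕ) [NeZero M] [NeZero q] [NeZero (M / q)], lam.Prime → lam ≠ 2 →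
      q.Prime → q ≠ lam → M.factorization q = 2 → AuxGood q M →
      ∃ c : ℕ, c ≠ 0 ∧ ∃ P : ValuationSubring Qb, P.LiesOverPrime q ∧
        ∀ n : ℕ, CoreFunAt (M / q) q c P (lam ^ n)) :
    S36Statement :=
  s36Statement_of_coreOdd (coreOdd_of_coreFun hfun)

end Fermat.Agent.S36G
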