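/-
Cluster G (S36), top wiring, variant for the GENUS hypotheses at `q = 2, 3` (helper34).

helper98's genus theorems (`S36/Genus/*`) ask, besides the auxiliary prime `r ≡ 11 mod 12`
(`AuxGood`, helper36's `S36/G/CoreOddOf.lean`): `3 ∣ M₀` if `q = 2` and `2 ∣ M₀` if `q = 3`.
This file instantiates helper36's generic `coreOdd_of_good` with

  `AuxGood23 q M := AuxGood q M ∧ (q = 2 → 3 ∣ M) ∧ (q = 3 → 2 ∣ M)`.

* `exists_auxGood23`          : every level has such a multiple `M * R`, `R` prime to `q`;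
* `coreOdd_of_coreFun23`      : `CoreOdd` from the function form of (CORE) at these levels;
* `s36Statement_of_coreFun23` : frozen S36 (as `S36Statement`) from it.
-/
import Mathlib
import Fermat.Agent.S36.G.CoreOddOf

set_option autoImplicit false
set_option linter.unusedSectionVars false
set_option linter.style.haveILetI false

noncomputable section

namespace Fermat.Agent.S36G

open Fermat.Agent.S36B

local notation "Qb" => AlgebraicClosure ℚ

/-- the auxiliary condition with the extra divisibility at `q = 2, 3`. -/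
def AuxGood23 (q M : ℕ) : Prop :=
  AuxGood q M ∧ (q = 2 → 3 ∣ M) ∧ (q = 3 → 2 ∣ M)

theorem auxGood_mul_right {q M : ℕ} (h : AuxGood q M) (R : ℕ) : AuxGood q (M * R) := by
  obtain ⟨r, hr, hr12, hrq, hrM⟩ := h
  exact ⟨r, hr, hr12, hrq, Dvd.dvd.mul_right hrM R⟩

theorem exists_auxGood23 (q M : ℕ) (hq : q.Prime) :
    ∃ R : ℕ, R ≠ 0 ∧ Nat.Coprime R q ∧ AuxGood23 q (M * R) := by
  obtain ⟨R, hR, hRq, hgood⟩ := exists_auxGood q M hq
  by_cases h2 : q = 2
  · refine ⟨R * 3, mul_ne_zero hR (by norm_num), ?_, ?_, ?_, ?_⟩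
    · exact Nat.Coprime.mul_left hRq (by rw [h2]; norm_num)
    · rw [← mul_assoc]
      exact auxGood_mul_right hgood 3
    · intro _
      exact Dvd.dvd.mul_left (Dvd.intro_left R rfl) M
    · intro h3
      rw [h2] at h3
      exact absurd h3 (by norm_num)
  · by_cases h3 : q = 3
    · refine ⟨R * 2, mul_ne_zero hR (by norm_num), ?_, ?_, ?_, ?_⟩
      · exact Nat.Coprime.mul_left hRq (by rw [h3]; norm_num)
      · rw [← mul_assoc]
        exact auxGood_mul_right hgood 2
      · intro h
        exact absurd h h2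
      · intro _
        exact Dvd.dvd.mul_left (Dvd.intro_left R rfl) M
    · exact ⟨R, hR, hRq, hgood, fun h => absurd h h2, fun h => absurd h h3⟩

/-- **top wiring**: `CoreOdd` from the function form of (CORE) at the levels with `AuxGood23`. -/
theorem coreOdd_of_coreFun23
    (hfun : ∀ (lam q M : ℕ) [NeZero M] [NeZero q] [NeZero (M / q)], lam.Prime → lam ≠ 2 →
      q.Prime → q ≠ lam → M.factorization q = 2 → AuxGood23 q M →
      ∃ c : ℕ, c ≠ 0 ∧ ∃ P : ValuationSubring Qb, P.LiesOverPrime q ∧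
        ∀ n : ℕ, CoreFunAt (M / q) q c P (lam ^ n)) :
    CoreOdd :=
  coreOdd_of_good (fun _ q M => AuxGood23 q M)
    (fun _ q M _ _ hq _ _ => exists_auxGood23 q M hq)
    (fun lam q M _ _ _ hlam hlam2 hq hql hq2 hgood =>
      coreAt_of_coreFunAt lam M q hlam.ne_zero (hfun lam q M hlam hlam2 hq hql hq2 hgood))

/-- **frozen S36 (as `S36Statement`) from the function form of (CORE) at the levels with
`AuxGood23`.** -/
theorem s36Statement_of_coreFun23
    (hfun : ∀ (lam q M : ℕ) [NeZero M] [NeZero q] [NeZero (M / q)], lam.Prime → lam ≠ 2 →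
      q.Prime → q ≠ lam → M.factorization q = 2 → AuxGood23 q M →
      ∃ c : ℕ, c ≠ 0 ∧ ∃ P : ValuationSubring Qb, P.LiesOverPrime q ∧
        ∀ n : ℕ, CoreFunAt (M / q) q c P (lam ^ n)) :
    S36Statement :=
  s36Statement_of_coreOdd (coreOdd_of_coreFun23 hfun)

end Fermat.Agent.S36G
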