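import Mathlib
import Fermat.Agent.S36.G.Defs
import Fermat.Agent.S36.G.Step3Core
import Fermat.Agent.Lib.BadRed.Bridge.P1

set_option autoImplicit false
set_option linter.style.haveILetI false
set_option linter.unusedSectionVars false

/-!
# Cluster G (S36), CORE wiring: `CoreFunAt` from the modular graph  (helper3)

`coreFunAt_of_graph`: the geometry target `CoreFunAt N₁ q (c₁ * (q² - 1)) P n` (`S36/G/Defs.lean`)
from

* a `GraphSetup` `N` on `F = FBar (N₁ q)` of shape `K_{|Vert|, s}` with the genus relation, (G-ORD)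
  and (G-TORIC) (abstract package: `GraphOrdStatement N`, `GraphToricStatement N`) and a big base
  divisor `R`;
* **Steps 1, 2** (`hStep12`): a Kummer generator `g` as in `CoreFunAt` has `g ^ c₁`, up to
  constants, an `n`-th power in ALL the residue fields (`c₁ = (q - 1) (q + 1)`);
* **(F1), (F2), (F3)** for normal forms (`CocycleF1/F2/F3`, `S36/G/Step3Core.lean`) with
  `P₁ g = IsCPow n (N_{π₁} g)`, `P₂ g = IsCPow n (N_{π₁} (w g))`, `P₃ g = InertiaFixedFun .. g`.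

Everything else is formal (`step3_core`).
-/

noncomputable section

namespace Fermat.Agent.S36G

open ModularCurve AlgebraicCurve Fermat.Agent.F3 Fermat.Agent.F3G Fermat.Agent.GaussInt
  Fermat.Agent.AtkinLehner Fermat.Agent.Kronecker Fermat.Agent.F3I2 Fermat.Agent.F3Deg
  Fermat.Agent.F3DegW Fermat.Agent.BadRed Fermat.Agent.BadRedG

local notation "Qb" => AlgebraicClosure ℚ

/-! ### closure properties of the three predicates -/

/-- `IsCPow` is closed under products. -/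
theorem IsCPow.mul {F : Type*} [Field F] [Algebra Qb F] {n : ℕ} {x y : F}
    (hx : IsCPow n x) (hy : IsCPow n y) : IsCPow n (x * y) := by
  obtain ⟨u, a, ha, rfl⟩ := hx
  obtain ⟨v, b, hb, rfl⟩ := hy
  exact ⟨u * v, a * b, mul_ne_zero ha hb, by rw [map_mul, mul_pow]; ring⟩

/-- `n`-th powers are `IsCPow`. -/
theorem isCPow_pow_self {F : Type*} [Field F] [Algebra Qb F] (n : ℕ) (x : F) :
    IsCPow n (x ^ n) :=
  ⟨x, 1, one_ne_zero, by rw [map_one, one_mul]⟩

/-- `IsCPow` is closed under powers. -/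
theorem IsCPow.pow {F : Type*} [Field F] [Algebra Qb F] {n : ℕ} {x : F}
    (hx : IsCPow n x) (c : ℕ) : IsCPow n (x ^ c) := by
  obtain ⟨u, a, ha, rfl⟩ := hx
  exact ⟨u ^ c, a ^ c, pow_ne_zero c ha, by rw [mul_pow, map_pow, ← pow_mul, ← pow_mul, mul_comm n c]⟩

/-- `InertiaFixedFun` is closed under powers. -/
theorem InertiaFixedFun.pow {M : ℕ} [NeZero M] {P : ValuationSubring Qb} {n : ℕ} {g : FBar M}
    (h : InertiaFixedFun M P n g) (c : ℕ) : InertiaFixedFun M P n (g ^ c) := by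
  intro τ hτ
  obtain ⟨u, a, ha, hu⟩ := h τ hτ
  refine ⟨u ^ c, a ^ c, pow_ne_zero c ha, ?_⟩
  rw [Fermat.Agent.BadRed.galFun_pow, hu, mul_pow, mul_pow, map_pow, ← pow_mul, ← pow_mul,
    mul_comm n c]

/-- `InertiaFixedFun` is closed under multiplication by `n`-th powers. -/
theorem InertiaFixedFun.pow_mul {M : ℕ} [NeZero M] {P : ValuationSubring Qb} {n : ℕ}
    {g : FBar M} (h : InertiaFixedFun M P n g) {φ : FBar M} (hφ : φ ≠ 0) :
    InertiaFixedFun M P n (φ ^ n * g) := by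
  intro τ hτ
  obtain ⟨u, a, ha, hu⟩ := h τ hτ
  refine ⟨galFun M τ φ / φ * u, a, ha, ?_⟩
  have hφn : φ ^ n ≠ 0 := pow_ne_zero n hφ
  rw [Fermat.Agent.BadRed.galFun_eq_ringAut, map_mul, map_pow,
    ← Fermat.Agent.BadRed.galFun_eq_ringAut, ← Fermat.Agent.BadRed.galFun_eq_ringAut, hu,
    mul_pow, div_pow]
  field_simp

/-! ### the wiring -/

section Wire

variable {k : Type*} [Field k] {Mid SS : Type} [Fintype Mid] [Fintype SS]
  {Fk : Vtx Mid SS → Type*} [∀ c, Field (Fk c)] [∀ c, Algebra k (Fk c)]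

/-- **(CORE), function form, from the modular graph.** -/
theorem coreFunAt_of_graph (N₁ q : ℕ) [NeZero N₁] [NeZero q] (P : ValuationSubring Qb) (n : ℕ)
    (N : GraphSetup Qb (FBar (N₁ * q)) k (Vtx Mid SS) Fk (Nod Mid SS))
    (hsrc : ∀ i, N.src i = nodSrc i) (htgt : ∀ i, N.tgt i = nodTgt i)
    (hOrd : GraphOrdStatement N) (hToric : GraphToricStatement N) (hrel : N.GenusRel)
    (hn0 : (n : Qb) ≠ 0) (c₀ : Vtx Mid SS) (hnA : ((n : Qb))⁻¹ ∈ (N.S c₀).A)
    {R : Divisor Qb (FBar (N₁ * q))} (hR : GBig N R) (e : ℕ)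
    (hq : e * Fintype.card Mid + 1 = q) (c₁ : ℕ)
    (hStep12 : ∀ (D : ALData) (hM : N₁ * q = D.Q * D.R), D.Q = q ^ 2 →
      ∀ g : FBar (N₁ * q), g ≠ 0 → (∀ v : Place Qb (FBar (N₁ * q)), (n : ℤ) ∣ v.ord g) →
        InertiaFixedFun (N₁ * q) P n g →
        IsCPow n (normAlong (heckeAlphaBar Qb N₁ q) g) →
        IsCPow n (normAlong (heckeAlphaBar Qb N₁ q) (wAt D hM g)) →
        ∀ c, N.IsPowAt n c (g ^ c₁))
    (hF1 : CocycleF1 N n q e R (fun g => IsCPow n (normAlong (heckeAlphaBar Qb N₁ q) g)))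
    (hF2 : ∀ (D : ALData) (hM : N₁ * q = D.Q * D.R), D.Q = q ^ 2 →
      CocycleF2 N n q e R (fun g => IsCPow n (normAlong (heckeAlphaBar Qb N₁ q) (wAt D hM g))))
    (hF3 : CocycleF3 N n R (InertiaFixedFun (N₁ * q) P n)) :
    CoreFunAt N₁ q (c₁ * (q ^ 2 - 1)) P n := by
  intro D hM hDQ g hg hdvd hI h1 h2
  have hg₁ : g ^ c₁ ≠ 0 := pow_ne_zero c₁ hg
  have hdvd₁ : ∀ v : Place Qb (FBar (N₁ * q)), (n : ℤ) ∣ v.ord (g ^ c₁) := by
    intro v
    rw [s3_ord_pow]
    exact Dvd.dvd.mul_left (hdvd v) _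
  have hres := step3_core N hsrc htgt hOrd hToric hrel hn0 c₀ hnA hR q e hq
    (fun g => IsCPow n (normAlong (heckeAlphaBar Qb N₁ q) g))
    (fun g => IsCPow n (normAlong (heckeAlphaBar Qb N₁ q) (wAt D hM g)))
    (InertiaFixedFun (N₁ * q) P n)
    (fun g φ _ hP => by
      show IsCPow n (normAlong (heckeAlphaBar Qb N₁ q) (φ ^ n * g))
      rw [map_mul, map_pow]
      exact (isCPow_pow_self n _).mul hP)
    (fun g φ _ hP => by
      show IsCPow n (normAlong (heckeAlphaBar Qb N₁ q) (wAt D hM (φ ^ n * g)))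
      rw [map_mul, map_pow, map_mul, map_pow]
      exact (isCPow_pow_self n _).mul hP)
    (fun g φ hφ hP => hP.pow_mul hφ)
    hF1 (hF2 D hM hDQ) hF3 hg₁ hdvd₁ (hStep12 D hM hDQ g hg hdvd hI h1 h2)
    (by
      show IsCPow n (normAlong (heckeAlphaBar Qb N₁ q) (g ^ c₁))
      rw [map_pow]
      exact h1.pow c₁)
    (by
      show IsCPow n (normAlong (heckeAlphaBar Qb N₁ q) (wAt D hM (g ^ c₁)))
      rw [map_pow, map_pow]
      exact h2.pow c₁)
    (hI.pow c₁)
  obtain ⟨u, a, ha, hu⟩ := hres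
  exact ⟨u, a, ha, by rw [pow_mul]; exact hu⟩

end Wire

end Fermat.Agent.S36G
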