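import Mathlib
import Fermat.Agent.S36.G.CoreWire
import Fermat.Agent.S36.G.CoreOddOf23
import Fermat.Agent.Lib.BadRed.Graph.Deuring.Final

set_option autoImplicit false
set_option linter.unusedSectionVars false
set_option linter.style.haveILetI false

/-!
# Cluster G (S36): the END junction  (helper3)

`CoreBundle N₁ q P` packs EVERYTHING that is left on the modular side of cluster G for the level
`N₁ q` (`N₁ = q M₀`) and the valuation ring `P ∣ q` of `ℚ̄`:

* the types `k`, `Mid`, `SS`, `Fk` and a seed `G : GraphSeed ℚ̄ (FBar (N₁ q)) k (Vtx ..) Fk (Nod ..)`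
  of the shape `K_{|Vert|, s}` (`src = nodSrc`, `tgt = nodTgt`) over the valuation ring `P`
  (seats MG-INST, SEED, W-P, IG, GENUS);
* `hStep12` : Steps 1, 2 (seat STEP12);
* `hF1`, `hF2`, `hF3` : the three cocycle statements of Step 3 (seats COC, INERT-MOD),
  for the base divisor `m • D₀`, `m ≥ G.bigBound`;

all of them for every exponent `n ≠ 0` prime to `q`.  The abstract graph package
(`GraphSeed.graphSetup_ord / _toric / _genusRel / _gBig_of_le`) and the wiring
`coreFunAt_of_graph` give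

* `CoreBundle.coreFunAt`          : `CoreFunAt N₁ q (c₁ (q² - 1)) P n`;
* `coreFunHyp_of_coreBundle`      : the hypothesis `hfun` of `coreOdd_of_coreFun23`;
* `s36Statement_of_coreBundle`    : **frozen S36** (as `S36B.S36Statement`) from a `CoreBundle` at
  every auxiliary level.
-/

noncomputable section

open AlgebraicCurve Fermat.Agent.RR Fermat.Agent.Deuring

namespace Fermat.Agent.S36G

open ModularCurve Fermat.Agent.F3 Fermat.Agent.F3G Fermat.Agent.GaussInt
  Fermat.Agent.AtkinLehner Fermat.Agent.Kronecker Fermat.Agent.F3I2 Fermat.Agent.F3Deg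
  Fermat.Agent.F3DegW Fermat.Agent.BadRed Fermat.Agent.BadRedG Fermat.Agent.BadRed.Gluing
  Fermat.Agent.S36B

local notation "Qb" => AlgebraicClosure ℚ

/-! ### integers prime to `q` are units of `P` -/

/-- a natural number prime to `q` is a unit of a valuation ring over `q`. -/
theorem cb_inv_natCast_mem {P : ValuationSubring Qb} {q : ℕ} (hP : P.LiesOverPrime q) {n : ℕ}
    (hnq : Nat.Coprime n q) : ((n : Qb))⁻¹ ∈ P := by
  by_contra hinv
  have hn_mem : (n : Qb) ∈ P := natCast_mem P n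
  -- `n` is a nonunit
  have hn_non : (n : Qb) ∈ P.nonunits := by
    rw [ValuationSubring.mem_nonunits_iff_exists_mem_maximalIdeal]
    refine ⟨hn_mem, ?_⟩
    rw [IsLocalRing.mem_maximalIdeal, mem_nonunits_iff]
    intro hu
    obtain ⟨u, hu⟩ := hu
    apply hinv
    have h1 : ((u⁻¹ : Pˣ) : P) * ⟨(n : Qb), hn_mem⟩ = 1 := by
      rw [← hu]
      exact u.inv_mul
    have h2 : (((u⁻¹ : Pˣ) : P) : Qb) * (n : Qb) = 1 := by
      have := congrArg (fun z : P => (z : Qb)) h1
      simpa using this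
    have h3 : ((n : Qb))⁻¹ = (((u⁻¹ : Pˣ) : P) : Qb) := by
      have hn0 : (n : Qb) ≠ 0 := by
        rintro h0
        rw [h0, mul_zero] at h2
        exact zero_ne_one h2
      field_simp
      rw [mul_comm]
      exact h2.symm
    rw [h3]
    exact ((u⁻¹ : Pˣ) : P).2
  -- Bezout
  have hq_non : (q : Qb) ∈ P.nonunits := hP
  have hgcd : Int.gcd (n : ℤ) (q : ℤ) = 1 := by
    rw [Int.gcd_natCast_natCast]
    exact hnq
  have hbez := Int.gcd_eq_gcd_ab (n : ℤ) (q : ℤ)
  rw [hgcd] at hbez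
  have hbez' : (1 : Qb) = (n : Qb) * ((Int.gcdA (n : ℤ) (q : ℤ) : ℤ) : Qb) +
      (q : Qb) * ((Int.gcdB (n : ℤ) (q : ℤ) : ℤ) : Qb) := by
    have := congrArg (fun z : ℤ => (z : Qb)) hbez
    push_cast at this
    exact this
  have hA : ∀ z : ℤ, (z : Qb) ∈ P := fun z => intCast_mem P z
  have hmulmem : ∀ x : Qb, x ∈ P.nonunits → ∀ z : ℤ, x * (z : Qb) ∈ P.nonunits := by
    intro x hx z
    rw [ValuationSubring.mem_nonunits_iff_exists_mem_maximalIdeal] at hx ⊢
    obtain ⟨hxP, hxm⟩ := hx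
    refine ⟨P.mul_mem _ _ hxP (hA z), ?_⟩
    have : (⟨x * (z : Qb), P.mul_mem _ _ hxP (hA z)⟩ : P) = ⟨x, hxP⟩ * ⟨(z : Qb), hA z⟩ := rfl
    rw [this]
    exact Ideal.mul_mem_right _ _ hxm
  have h1 := hmulmem _ hn_non (Int.gcdA (n : ℤ) (q : ℤ))
  have h2 := hmulmem _ hq_non (Int.gcdB (n : ℤ) (q : ℤ))
  rw [ValuationSubring.mem_nonunits_iff_exists_mem_maximalIdeal] at h1 h2
  obtain ⟨h1P, h1m⟩ := h1
  obtain ⟨h2P, h2m⟩ := h2
  have hsum := Ideal.add_mem _ h1m h2m
  have hone : (1 : P) ∈ IsLocalRing.maximalIdeal P := by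
    have : (1 : P) = ⟨_, h1P⟩ + ⟨_, h2P⟩ := by
      apply Subtype.ext
      exact hbez'
    rw [this]
    exact hsum
  exact (Ideal.ne_top_iff_one _).mp (IsLocalRing.maximalIdeal.isMaximal P).ne_top hone

/-! ### the bundle -/

/-- **the modular bundle of cluster G**: what is left to construct for the level `N₁ q` and the
valuation ring `P ∣ q`. -/
structure CoreBundle (N₁ q : ℕ) [NeZero N₁] [NeZero q] (P : ValuationSubring Qb) where
  /-- the residue field of `P` -/
  k : Type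
  [instField : Field k]
  [instAlgClosed : IsAlgClosed k]
  /-- the middle (Igusa) components -/
  Mid : Type
  /-- the supersingular points -/
  SS : Type
  [instFintypeMid : Fintype Mid]
  [instFintypeSS : Fintype SS]
  /-- the residue fields of the components -/
  Fk : Vtx Mid SS → Type
  [instFieldFk : ∀ c, Field (Fk c)]
  [instAlgebraFk : ∀ c, Algebra k (Fk c)]
  /-- the seed of the modular graph -/
  G : GraphSeed Qb (FBar (N₁ * q)) k (Vtx Mid SS) Fk (Nod Mid SS)
  hsrc : ∀ i, G.src i = nodSrc i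
  htgt : ∀ i, G.tgt i = nodTgt i
  /-- the valuation ring of the constants is `P` -/
  hA : (G.S (Vtx.vert Vrt.oo)).A = P
  /-- the degree of the middle components over the vertical ones -/
  e : ℕ
  hq : e * Fintype.card Mid + 1 = q
  /-- the exponent of Steps 1, 2 -/
  c₁ : ℕ
  hc₁ : c₁ ≠ 0
  /-- the base divisor is `m • D₀` -/
  m : ℕ
  hm : G.bigBound ≤ m
  /-- Steps 1, 2 -/
  hStep12 : ∀ n : ℕ, n ≠ 0 → Nat.Coprime n q →
    ∀ (D : ALData) (hM : N₁ * q = D.Q * D.R), D.Q = q ^ 2 →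
      ∀ g : FBar (N₁ * q), g ≠ 0 → (∀ v : Place Qb (FBar (N₁ * q)), (n : ℤ) ∣ v.ord g) →
        InertiaFixedFun (N₁ * q) P n g →
        IsCPow n (normAlong (heckeAlphaBar Qb N₁ q) g) →
        IsCPow n (normAlong (heckeAlphaBar Qb N₁ q) (wAt D hM g)) →
        ∀ c, G.graphSetup.IsPowAt n c (g ^ c₁)
  /-- (F1) -/
  hF1 : ∀ n : ℕ, n ≠ 0 → Nat.Coprime n q →
    CocycleF1 G.graphSetup n q e (m • G.D₀)
      (fun g => IsCPow n (normAlong (heckeAlphaBar Qb N₁ q) g))
  /-- (F2) -/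
  hF2 : ∀ n : ℕ, n ≠ 0 → Nat.Coprime n q →
    ∀ (D : ALData) (hM : N₁ * q = D.Q * D.R), D.Q = q ^ 2 →
      CocycleF2 G.graphSetup n q e (m • G.D₀)
        (fun g => IsCPow n (normAlong (heckeAlphaBar Qb N₁ q) (wAt D hM g)))
  /-- (F3) -/
  hF3 : ∀ n : ℕ, n ≠ 0 → Nat.Coprime n q →
    CocycleF3 G.graphSetup n (m • G.D₀) (InertiaFixedFun (N₁ * q) P n)

attribute [instance] CoreBundle.instField CoreBundle.instAlgClosed CoreBundle.instFintypeMid
  CoreBundle.instFintypeSS CoreBundle.instFieldFk CoreBundle.instAlgebraFk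

/-- **(CORE), function form, from the bundle.** -/
theorem CoreBundle.coreFunAt {N₁ q : ℕ} [NeZero N₁] [NeZero q] {P : ValuationSubring Qb}
    (B : CoreBundle N₁ q P) (hP : P.LiesOverPrime q) {n : ℕ} (hn0 : n ≠ 0)
    (hnq : Nat.Coprime n q) : CoreFunAt N₁ q (B.c₁ * (q ^ 2 - 1)) P n := by
  have hnQ : ((n : ℕ) : Qb) ≠ 0 := by exact_mod_cast hn0
  have hnA : ((n : Qb))⁻¹ ∈ (B.G.graphSetup.S (Vtx.vert Vrt.oo)).A := by
    rw [GraphSeed.graphSetup_S, B.hA]
    exact cb_inv_natCast_mem hP hnq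
  exact coreFunAt_of_graph N₁ q P n B.G.graphSetup B.hsrc B.htgt B.G.graphSetup_ord
    B.G.graphSetup_toric B.G.graphSetup_genusRel hnQ (Vtx.vert Vrt.oo) hnA
    (B.G.graphSetup_gBig_of_le B.hm) B.e B.hq B.c₁ (B.hStep12 n hn0 hnq) (B.hF1 n hn0 hnq)
    (B.hF2 n hn0 hnq) (B.hF3 n hn0 hnq)

/-- the hypothesis `hfun` of the top wiring from a bundle at every auxiliary level. -/
theorem coreFunHyp_of_coreBundle
    (hB : ∀ (q M : ℕ) [NeZero M] [NeZero q] [NeZero (M / q)], q.Prime →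
      M.factorization q = 2 → AuxGood23 q M →
      ∃ P : ValuationSubring Qb, P.LiesOverPrime q ∧ Nonempty (CoreBundle (M / q) q P))
    (lam q M : ℕ) [NeZero M] [NeZero q] [NeZero (M / q)] (hlam : lam.Prime) (_hlam2 : lam ≠ 2)
    (hq : q.Prime) (hql : q ≠ lam) (hq2 : M.factorization q = 2) (hgood : AuxGood23 q M) :
    ∃ c : ℕ, c ≠ 0 ∧ ∃ P : ValuationSubring Qb, P.LiesOverPrime q ∧
      ∀ n : ℕ, CoreFunAt (M / q) q c P (lam ^ n) := by
  obtain ⟨P, hP, ⟨B⟩⟩ := hB q M hq hq2 hgood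
  have hq1 : q ^ 2 - 1 ≠ 0 := by
    have h2 : 2 ≤ q := hq.two_le
    have h4 : 4 ≤ q ^ 2 := by nlinarith
    omega
  refine ⟨B.c₁ * (q ^ 2 - 1), Nat.mul_ne_zero B.hc₁ hq1, P, hP, fun n => ?_⟩
  refine B.coreFunAt hP (pow_ne_zero n hlam.ne_zero) ?_
  exact Nat.Coprime.pow_left n ((Nat.coprime_primes hlam hq).mpr (fun h => hql h.symm))

/-- **frozen S36 (as `S36Statement`) from a bundle at every auxiliary level.** -/
theorem s36Statement_of_coreBundle
    (hB : ∀ (q M : ℕ) [NeZero M] [NeZero q] [NeZero (M / q)], q.Prime →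
      M.factorization q = 2 → AuxGood23 q M →
      ∃ P : ValuationSubring Qb, P.LiesOverPrime q ∧ Nonempty (CoreBundle (M / q) q P)) :
    S36Statement :=
  s36Statement_of_coreFun23 fun lam q M _ _ _ hlam hlam2 hq hql hq2 hgood =>
    coreFunHyp_of_coreBundle hB lam q M hlam hlam2 hq hql hq2 hgood

end Fermat.Agent.S36G
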