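/-
Cluster G (S36), top wiring, LEVEL BOOKKEEPING (helper34).

The geometry (ModularGraph, W-P, SEED, GENUS) lives at the level `M₀ * q * q` with `q ∤ M₀`,
i.e. it proves `CoreFunAt (M₀ * q) q c P n` (`FBar ((M₀ * q) * q) = FBar (M₀ * q * q)`
syntactically).  The bridge asks for `CoreFunAt (M / q) q c P n` at the levels `M` with
`M.factorization q = 2`.  This file does the translation once and for all:

* `exists_level_of_factorization_two` : `M = M₀ * q * q`, `M / q = M₀ * q`, `q ∤ M₀`;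
* `auxGood23_of_mul`                  : `AuxGood23 q (M₀ * q * q) → AuxGood23 q M₀`;
* `coreOdd_of_coreFunLevel`, `s36Statement_of_coreFunLevel` : **frozen S36 from**

    `∀ lam q M₀, lam prime, lam ≠ 2, q prime, q ≠ lam, q ∤ M₀, AuxGood23 q M₀ →`
    `  ∃ c ≠ 0, ∃ P ∣ q, ∀ n, CoreFunAt (M₀ * q) q c P (lam ^ n)`.
-/
import Mathlib
import Fermat.Agent.S36.G.CoreOddOf23

set_option autoImplicit false
set_option linter.unusedSectionVars false
set_option linter.style.haveILetI false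

noncomputable section

namespace Fermat.Agent.S36G

open Fermat.Agent.S36B

local notation "Qb" => AlgebraicClosure ℚ

/-- a level with `q² ∥ M` is `M₀ * q * q` with `q ∤ M₀`. -/
theorem exists_level_of_factorization_two {q M : ℕ} (hM : M ≠ 0) (hq : q.Prime)
    (h2 : M.factorization q = 2) :
    ∃ M₀ : ℕ, M₀ ≠ 0 ∧ ¬ q ∣ M₀ ∧ M = M₀ * q * q ∧ M / q = M₀ * q := by
  have h1 : q ^ M.factorization q * (M / q ^ M.factorization q) = M :=
    Nat.ordProj_mul_ordCompl_eq_self M q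
  have h3 : ¬ q ∣ M / q ^ M.factorization q := Nat.not_dvd_ordCompl hq hM
  rw [h2] at h1 h3
  have hMeq : M = M / q ^ 2 * q * q := by
    conv_lhs => rw [← h1]
    ring
  refine ⟨M / q ^ 2, ?_, h3, hMeq, ?_⟩
  · intro h0
    rw [h0] at hMeq
    simp at hMeq
    exact hM hMeq
  · conv_lhs => rw [hMeq]
    exact Nat.mul_div_cancel _ hq.pos

/-- the auxiliary condition descends from `M₀ * q * q` to `M₀`. -/
theorem auxGood23_of_mul {q M₀ : ℕ} (hq : q.Prime) (h : AuxGood23 q (M₀ * q * q)) :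
    AuxGood23 q M₀ := by
  obtain ⟨⟨r, hr, hr12, hrq, hrM⟩, h2, h3⟩ := h
  have hcop : ∀ p : ℕ, p.Prime → p ≠ q → p ∣ M₀ * q * q → p ∣ M₀ := by
    intro p hp hpq hdvd
    have hpq' : Nat.Coprime p q := (Nat.coprime_primes hp hq).mpr hpq
    exact hpq'.dvd_of_dvd_mul_right (hpq'.dvd_of_dvd_mul_right hdvd)
  refine ⟨⟨r, hr, hr12, hrq, hcop r hr hrq hrM⟩, ?_, ?_⟩
  · intro hq2
    exact hcop 3 (by norm_num) (by rw [hq2]; norm_num) (h2 hq2)
  · intro hq3
    exact hcop 2 (by norm_num) (by rw [hq3]; norm_num) (h3 hq3)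

/-- the hypothesis of `coreOdd_of_coreFun23` from the geometric target at the levels
`M₀ * q * q`. -/
theorem coreFun23_of_level
    (hgeo : ∀ (lam q M₀ : ℕ) [NeZero M₀] [NeZero q] [NeZero (M₀ * q)], lam.Prime → lam ≠ 2 →
      q.Prime → q ≠ lam → ¬ q ∣ M₀ → AuxGood23 q M₀ →
      ∃ c : ℕ, c ≠ 0 ∧ ∃ P : ValuationSubring Qb, P.LiesOverPrime q ∧
        ∀ n : ℕ, CoreFunAt (M₀ * q) q c P (lam ^ n))
    (lam q M : ℕ) [NeZero M] [NeZero q] [hMq : NeZero (M / q)] (hlam : lam.Prime)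
    (hlam2 : lam ≠ 2) (hq : q.Prime) (hql : q ≠ lam) (hq2 : M.factorization q = 2)
    (hgood : AuxGood23 q M) :
    ∃ c : ℕ, c ≠ 0 ∧ ∃ P : ValuationSubring Qb, P.LiesOverPrime q ∧
      ∀ n : ℕ, CoreFunAt (M / q) q c P (lam ^ n) := by
  obtain ⟨M₀, hM₀, hndvd, hMeq, hdiv⟩ := exists_level_of_factorization_two (NeZero.ne M) hq hq2
  haveI : NeZero M₀ := ⟨hM₀⟩
  have hgood₀ : AuxGood23 q M₀ := auxGood23_of_mul hq (hMeq ▸ hgood)
  revert hMq
  rw [hdiv]
  intro hMq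
  exact hgeo lam q M₀ hlam hlam2 hq hql hndvd hgood₀

/-- **top wiring**: `CoreOdd` from the geometric target at the levels `M₀ * q * q`. -/
theorem coreOdd_of_coreFunLevel
    (hgeo : ∀ (lam q M₀ : ℕ) [NeZero M₀] [NeZero q] [NeZero (M₀ * q)], lam.Prime → lam ≠ 2 →
      q.Prime → q ≠ lam → ¬ q ∣ M₀ → AuxGood23 q M₀ →
      ∃ c : ℕ, c ≠ 0 ∧ ∃ P : ValuationSubring Qb, P.LiesOverPrime q ∧
        ∀ n : ℕ, CoreFunAt (M₀ * q) q c P (lam ^ n)) :
    CoreOdd :=
  coreOdd_of_coreFun23 fun lam q M _ _ _ hlam hlam2 hq hql hq2 hgood =>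
    coreFun23_of_level hgeo lam q M hlam hlam2 hq hql hq2 hgood

/-- **frozen S36 (as `S36Statement`) from the geometric target at the levels `M₀ * q * q`.** -/
theorem s36Statement_of_coreFunLevel
    (hgeo : ∀ (lam q M₀ : ℕ) [NeZero M₀] [NeZero q] [NeZero (M₀ * q)], lam.Prime → lam ≠ 2 →
      q.Prime → q ≠ lam → ¬ q ∣ M₀ → AuxGood23 q M₀ →
      ∃ c : ℕ, c ≠ 0 ∧ ∃ P : ValuationSubring Qb, P.LiesOverPrime q ∧
        ∀ n : ℕ, CoreFunAt (M₀ * q) q c P (lam ^ n)) :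
    S36Statement :=
  s36Statement_of_coreOdd (coreOdd_of_coreFunLevel hgeo)

end Fermat.Agent.S36G
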