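import Mathlib
import Fermat.Agent.S36.G.CoreBundle
import Fermat.Agent.S36.G.CoreOddOfLevel

set_option autoImplicit false
set_option linter.unusedSectionVars false
set_option linter.style.haveILetI false

/-!
# Cluster G (S36): the END junction at the levels `M₀ * q * q`  (helper3)

The modular graph lives at the level `M₀ * q * q`, `q ∤ M₀`
(`FBar ((M₀ * q) * q) = FBar (M₀ * q * q)` syntactically).  With the level bookkeeping of
`S36/G/CoreOddOfLevel.lean`:

* `coreFunLevel_of_coreBundle`      : the hypothesis `hgeo` of `s36Statement_of_coreFunLevel`;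
* `s36Statement_of_coreBundleLevel` : **frozen S36 (as `S36B.S36Statement`)** from

    `∀ q M₀, q prime, q ∤ M₀, AuxGood23 q M₀ → ∃ P ∣ q, Nonempty (CoreBundle (M₀ * q) q P)`.
-/

noncomputable section

namespace Fermat.Agent.S36G

open Fermat.Agent.S36B

local notation "Qb" => AlgebraicClosure ℚ

/-- the hypothesis `hgeo` of the top wiring at the levels `M₀ * q * q` from a bundle. -/
theorem coreFunLevel_of_coreBundle
    (hB : ∀ (q M₀ : ℕ) [NeZero M₀] [NeZero q] [NeZero (M₀ * q)], q.Prime → ¬ q ∣ M₀ →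
      AuxGood23 q M₀ →
      ∃ P : ValuationSubring Qb, P.LiesOverPrime q ∧ Nonempty (CoreBundle (M₀ * q) q P))
    (lam q M₀ : ℕ) [NeZero M₀] [NeZero q] [NeZero (M₀ * q)] (hlam : lam.Prime) (_hlam2 : lam ≠ 2)
    (hq : q.Prime) (hql : q ≠ lam) (hqM : ¬ q ∣ M₀) (hgood : AuxGood23 q M₀) :
    ∃ c : ℕ, c ≠ 0 ∧ ∃ P : ValuationSubring Qb, P.LiesOverPrime q ∧
      ∀ n : ℕ, CoreFunAt (M₀ * q) q c P (lam ^ n) := by
  obtain ⟨P, hP, ⟨B⟩⟩ := hB q M₀ hq hqM hgood
  have hq1 : q ^ 2 - 1 ≠ 0 := by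
    have h2 : 2 ≤ q := hq.two_le
    have h4 : 4 ≤ q ^ 2 := by nlinarith
    omega
  refine ⟨B.c₁ * (q ^ 2 - 1), Nat.mul_ne_zero B.hc₁ hq1, P, hP, fun n => ?_⟩
  refine B.coreFunAt hP (pow_ne_zero n hlam.ne_zero) ?_
  exact Nat.Coprime.pow_left n ((Nat.coprime_primes hlam hq).mpr (fun h => hql h.symm))

/-- **frozen S36 (as `S36Statement`) from a bundle at every level `M₀ * q * q`.** -/
theorem s36Statement_of_coreBundleLevel
    (hB : ∀ (q M₀ : ℕ) [NeZero M₀] [NeZero q] [NeZero (M₀ * q)], q.Prime → ¬ q ∣ M₀ →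
      AuxGood23 q M₀ →
      ∃ P : ValuationSubring Qb, P.LiesOverPrime q ∧ Nonempty (CoreBundle (M₀ * q) q P)) :
    S36Statement :=
  s36Statement_of_coreFunLevel fun lam q M₀ _ _ _ hlam hlam2 hq hql hqM hgood =>
    coreFunLevel_of_coreBundle hB lam q M₀ hlam hlam2 hq hql hqM hgood

end Fermat.Agent.S36G
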