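import Mathlib
import Fermat.Agent.Lib.BadRed.Bridge.LevelCast

set_option autoImplicit false
set_option linter.style.haveILetI false
set_option linter.unusedSectionVars false
set_option linter.unusedVariables false
set_option synthInstance.maxHeartbeats 400000
set_option maxHeartbeats 1000000

/-!
# Cluster G (S36): the Atkin–Lehner involution `w_Q` does not depend on the Bezout data
(helper60)

`ALData` carries `Q`, `R` and a Bezout pair `(a, b)`, `Q a - R b = 1`; the involution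
`atkinLehner D` of `F_{Q R}` is determined by `w (j(q^{d₁ d₂})) = j(q^{e₁ d₂})`
(`atkinLehner_jF`), so it depends on `(Q, R)` only:

* `alIndep_algHom_ext` : two `ℚ̄`-algebra maps `F_N → L` that agree on all `j(q^d)`, `d ∣ N`,
  are equal;
* `alIndep_atkinLehner` : `atkinLehner ⟨Q, R, a, b, ..⟩ = atkinLehner ⟨Q, R, a', b', ..⟩`;
* `wAt_indep` : `wAt D hM = wAt D' hM'` if `D.Q = D'.Q` (levels `M = D.Q * D.R = D'.Q * D'.R`);
* `wAt_indep_apply`.

Used to compare the `v_0` of the modular graph (built from ONE `D₀`) with the `D` quantified in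
`CoreFunAt` / `hStep12` / `hF2`.
-/

noncomputable section

namespace Fermat.Agent.S36G

open ModularCurve AlgebraicCurve Fermat.Agent.F3 Fermat.Agent.F3G Fermat.Agent.GaussInt
  Fermat.Agent.AtkinLehner Fermat.Agent.Kronecker Fermat.Agent.BadRed

local notation "Qb" => AlgebraicClosure ℚ

/-- two `ℚ̄`-algebra maps out of `F_N` that agree on all `j(q^d)`, `d ∣ N`, are equal. -/
theorem alIndep_algHom_ext {N : ℕ} {L : Type*} [Field L] [Algebra Qb L]
    (φ ψ : modularFunctionFieldBar N →ₐ[Qb] L)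
    (h : ∀ (d : ℕ) (_ : NeZero d) (hd : d ∣ N), φ (jF N d hd) = ψ (jF N d hd))
    (x : modularFunctionFieldBar N) : φ x = ψ x := by
  obtain ⟨x, hx⟩ := x
  have hx' : x ∈ IntermediateField.adjoin Qb (serGens N) := by
    rw [← modularFunctionFieldBar_eq_adjoin]
    exact hx
  refine IntermediateField.adjoin_induction Qb
    (p := fun y _ => ∀ h : y ∈ modularFunctionFieldBar N,
      φ ⟨y, h⟩ = ψ ⟨y, h⟩)
    ?_ ?_ ?_ ?_ ?_ hx' hx
  · rintro y ⟨d, hdne, hd, rfl⟩ hy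
    exact h d hdne hd
  · intro c hc
    have e : (⟨algebraMap Qb (LaurentSeries Qb) c, hc⟩ : modularFunctionFieldBar N) =
        algebraMap Qb (modularFunctionFieldBar N) c := rfl
    rw [e, AlgHom.commutes, AlgHom.commutes]
  · intro y z hy hz ihy ihz hyz
    have hy' : y ∈ modularFunctionFieldBar N := by
      rw [modularFunctionFieldBar_eq_adjoin]
      exact hy
    have hz' : z ∈ modularFunctionFieldBar N := by
      rw [modularFunctionFieldBar_eq_adjoin]
      exact hz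
    have e : (⟨y + z, hyz⟩ : modularFunctionFieldBar N) = ⟨y, hy'⟩ + ⟨z, hz'⟩ := rfl
    rw [e, map_add, map_add, ihy hy', ihz hz']
  · intro y hy ihy hyi
    have hy' : y ∈ modularFunctionFieldBar N := by
      rw [modularFunctionFieldBar_eq_adjoin]
      exact hy
    have e : (⟨y⁻¹, hyi⟩ : modularFunctionFieldBar N) = (⟨y, hy'⟩)⁻¹ := rfl
    rw [e, map_inv₀, map_inv₀, ihy hy']
  · intro y z hy hz ihy ihz hyz
    have hy' : y ∈ modularFunctionFieldBar N := by
      rw [modularFunctionFieldBar_eq_adjoin]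
      exact hy
    have hz' : z ∈ modularFunctionFieldBar N := by
      rw [modularFunctionFieldBar_eq_adjoin]
      exact hz
    have e : (⟨y * z, hyz⟩ : modularFunctionFieldBar N) = ⟨y, hy'⟩ * ⟨z, hz'⟩ := rfl
    rw [e, map_mul, map_mul, ihy hy', ihz hz']

/-- `atkinLehner` depends on `(Q, R)` only. -/
theorem alIndep_atkinLehner (Q R : ℕ) (a b a' b' : ℤ) (hQ : 0 < Q) (hR : 0 < R)
    (hdet : (Q : ℤ) * a - (R : ℤ) * b = 1) (hdet' : (Q : ℤ) * a' - (R : ℤ) * b' = 1)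
    (x : modularFunctionFieldBar (Q * R)) :
    atkinLehner ⟨Q, R, a, b, hQ, hR, hdet⟩ x = atkinLehner ⟨Q, R, a', b', hQ, hR, hdet'⟩ x := by
  refine alIndep_algHom_ext
    (atkinLehner ⟨Q, R, a, b, hQ, hR, hdet⟩ :
      modularFunctionFieldBar (Q * R) ≃ₐ[Qb] modularFunctionFieldBar (Q * R)).toAlgHom
    (atkinLehner ⟨Q, R, a', b', hQ, hR, hdet'⟩ :
      modularFunctionFieldBar (Q * R) ≃ₐ[Qb] modularFunctionFieldBar (Q * R)).toAlgHom ?_ x
  intro d hdne hd
  obtain ⟨d₁, e₁, d₂, f₂, h1, h2, rfl⟩ :=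
    exists_factor (⟨Q, R, a, b, hQ, hR, hdet⟩ : ALData) hd
  obtain ⟨p1, p2, p3, p4⟩ := factor_pos (⟨Q, R, a, b, hQ, hR, hdet⟩ : ALData) h1 h2
  haveI : NeZero (e₁ * d₂) := ⟨(Nat.mul_pos p2 p3).ne'⟩
  have hd' : e₁ * d₂ ∣ Q * R := by
    have h1' : d₁ * e₁ = Q := h1
    have h2' : d₂ * f₂ = R := h2
    rw [← h1', ← h2']
    exact Nat.mul_dvd_mul (Dvd.intro_left d₁ rfl) (Dvd.intro f₂ rfl)
  show atkinLehner ⟨Q, R, a, b, hQ, hR, hdet⟩ (jF (Q * R) (d₁ * d₂) hd) =
    atkinLehner ⟨Q, R, a', b', hQ, hR, hdet'⟩ (jF (Q * R) (d₁ * d₂) hd)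
  rw [atkinLehner_jF (⟨Q, R, a, b, hQ, hR, hdet⟩ : ALData) d₁ e₁ d₂ f₂ h1 h2 hd hd',
    atkinLehner_jF (⟨Q, R, a', b', hQ, hR, hdet'⟩ : ALData) d₁ e₁ d₂ f₂ h1 h2 hd hd']

/-- **`w_Q` at a level `M = Q R` does not depend on the Bezout data.** -/
theorem wAt_indep_apply (D D' : ALData) {M : ℕ} (hM : M = D.Q * D.R) (hM' : M = D'.Q * D'.R)
    (hQ : D.Q = D'.Q) (x : FBar M) : wAt D hM x = wAt D' hM' x := by
  obtain ⟨Q, R, a, b, hQ0, hR0, hdet⟩ := D
  obtain ⟨Q', R', a', b', hQ0', hR0', hdet'⟩ := D'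
  have hQ' : Q = Q' := hQ
  subst hQ'
  have hMM : Q * R = Q * R' := by
    have e1 : M = Q * R := hM
    have e2 : M = Q * R' := hM'
    rw [← e1, ← e2]
  have hR : R = R' := Nat.eq_of_mul_eq_mul_left hQ0 hMM
  subst hR
  have hM₁ : M = Q * R := hM
  subst hM₁
  rw [wAt_rfl, wAt_rfl]
  exact alIndep_atkinLehner Q R a b a' b' hQ0 hR0 hdet hdet' x

theorem wAt_indep (D D' : ALData) {M : ℕ} (hM : M = D.Q * D.R) (hM' : M = D'.Q * D'.R)
    (hQ : D.Q = D'.Q) : wAt D hM = wAt D' hM' :=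
  AlgEquiv.ext (wAt_indep_apply D D' hM hM' hQ)

end Fermat.Agent.S36G
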