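import Fermat.Agent.S36.G.Step12Mod
import Fermat.Agent.S36.G.ALIndep

set_option autoImplicit false
set_option linter.style.haveILetI false
set_option linter.unusedSectionVars false
set_option linter.unusedVariables false
set_option synthInstance.maxHeartbeats 400000
set_option maxHeartbeats 1000000

/-!
# Cluster G (S36), Steps 1 + 2 with ONE Atkin–Lehner datum `D₀`  (helper60)

The modular graph is built from ONE `D₀ : ALData` (`v_0 = valSetupZeroAt D₀ hM₀ S_∞`), while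
`CoreFunAt`, `hStep12`, `hF2` quantify over all `D` with `D.Q = q ^ 2`.  Since `wAt` does not
depend on the Bezout data (`wAt_indep`, `S36/G/ALIndep.lean`):

* `forall_wAt_of_one` : a statement about `wAt D₀ hM₀` holds for all `wAt D hM`, `D.Q = D₀.Q`;
* `step12_modular_one` : `hStep12` of `coreFunAt_of_graph` with `h0`, `hhor` for `D₀` only;
* `cocycleF2_all_of_one` : `hF2` of `coreFunAt_of_graph` from `CocycleF2` for `D₀` only.
-/

noncomputable section

namespace Fermat.Agent.S36G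

open ModularCurve AlgebraicCurve Fermat.Agent.F3 Fermat.Agent.F3G Fermat.Agent.GaussInt
  Fermat.Agent.AtkinLehner Fermat.Agent.Kronecker Fermat.Agent.BadRed Fermat.Agent.BadRedG
  Fermat.Agent.Deuring

local notation "Qb" => AlgebraicClosure ℚ

attribute [local instance 10000] SubalgebraClass.toAlgebra HahnSeries.powerSeriesAlgebra

/-- transport of a statement about `w_Q` from one Bezout datum to all. -/
theorem forall_wAt_of_one {M : ℕ} (Pr : (FBar M ≃ₐ[Qb] FBar M) → Prop)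
    (D₀ : ALData) (hM₀ : M = D₀.Q * D₀.R) (h : Pr (wAt D₀ hM₀))
    (D : ALData) (hM : M = D.Q * D.R) (hQ : D.Q = D₀.Q) : Pr (wAt D hM) := by
  rw [wAt_indep D D₀ hM hM₀ hQ]
  exact h

variable {M₀ q : ℕ} [NeZero M₀] [NeZero q] {Mid SS : Type}

/-- **Steps 1 + 2 on the modular graph**, the graph built from one `D₀`: the hypothesis `hStep12`
of `coreFunAt_of_graph` with `c₁ = (q - 1) * (q + 1)`. -/
theorem step12_modular_one (hq : q.Prime) (hqM : ¬ q ∣ M₀) (A : ValuationSubring Qb)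
    (hA : A.LiesOverPrime q) (hupper : IgResUpper M₀ q)
    {Fk : Vtx Mid SS → Type*} [∀ c, Field (Fk c)]
    [∀ c, Algebra (IsLocalRing.ResidueField A) (Fk c)]
    (N : GraphSetup Qb (FBar (M₀ * q * q)) (IsLocalRing.ResidueField A) (Vtx Mid SS) Fk
      (Nod Mid SS)) (n : ℕ)
    (D₀ : ALData) (hM₀ : M₀ * q * q = D₀.Q * D₀.R) (hD₀ : D₀.Q = q ^ 2)
    (hoo : ∃ S : ValSetup Qb (FBar (M₀ * q * q)) (IsLocalRing.ResidueField A)
        (modularFunctionFieldFullC (IsLocalRing.ResidueField A) M₀),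
      IsGaussSetup (M₀ * q * q) M₀ A S ∧ SameRing S (N.S (Vtx.vert Vrt.oo)))
    (h0 : ∃ S : ValSetup Qb (FBar (M₀ * q * q)) (IsLocalRing.ResidueField A)
        (modularFunctionFieldFullC (IsLocalRing.ResidueField A) M₀),
      IsGaussSetup (M₀ * q * q) M₀ A S ∧
        SameRing (comapEquiv S (wAt D₀ hM₀)) (N.S (Vtx.vert Vrt.zero)))
    (hmid : ∀ m : Mid, ∃ (z : Qbˣ) (ε : FBar (M₀ * q * q) →ₐ[Qb] LaurentSeries Qb)
        (S : ValSetup Qb (FBar (M₀ * q * q)) (IsLocalRing.ResidueField A)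
          ↥(igField (IsLocalRing.ResidueField A) M₀)),
      IsPrimitiveRoot z q ∧ IsMidExp M₀ q z ε ∧ IsMidSetup M₀ q A ε S ∧
        SameRing S (N.S (Vtx.vert (Vrt.mid m))))
    (hhor : ∀ g : FBar (M₀ * q * q), g ≠ 0 →
        (∀ v : Place Qb (FBar (M₀ * q * q)), (n : ℤ) ∣ v.ord g) →
        InertiaFixedFun (M₀ * q * q) A n g →
        IsCPow n (normAlong (heckeAlphaBar Qb (M₀ * q) q) g) →
        IsCPow n (normAlong (heckeAlphaBar Qb (M₀ * q) q) (wAt D₀ hM₀ g)) →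
        ∀ P : SS, N.IsPowAt n (Vtx.hor P) (g ^ (q + 1))) :
    ∀ (D : ALData) (hM : M₀ * q * q = D.Q * D.R), D.Q = q ^ 2 →
      ∀ g : FBar (M₀ * q * q), g ≠ 0 →
        (∀ v : Place Qb (FBar (M₀ * q * q)), (n : ℤ) ∣ v.ord g) →
        InertiaFixedFun (M₀ * q * q) A n g →
        IsCPow n (normAlong (heckeAlphaBar Qb (M₀ * q) q) g) →
        IsCPow n (normAlong (heckeAlphaBar Qb (M₀ * q) q) (wAt D hM g)) →
        ∀ c, N.IsPowAt n c (g ^ ((q - 1) * (q + 1))) := by
  refine step12_modular hq hqM A hA hupper N n hoo ?_ hmid ?_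
  · intro D hM hDQ
    rw [wAt_indep D D₀ hM hM₀ (hDQ.trans hD₀.symm)]
    exact h0
  · intro D hM hDQ
    rw [wAt_indep D D₀ hM hM₀ (hDQ.trans hD₀.symm)]
    exact hhor

section F2

variable {k : Type*} [Field k] {Mid' SS' : Type} [Fintype Mid'] [Fintype SS']
  {Fk : Vtx Mid' SS' → Type*} [∀ c, Field (Fk c)] [∀ c, Algebra k (Fk c)]

/-- **(F2) for all `D`** from (F2) for one `D₀`: the hypothesis `hF2` of `coreFunAt_of_graph`. -/
theorem cocycleF2_all_of_one (N₁ q' : ℕ) [NeZero N₁] [NeZero q'] (n e : ℕ)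
    (N : GraphSetup Qb (FBar (N₁ * q')) k (Vtx Mid' SS') Fk (Nod Mid' SS'))
    (R : Divisor Qb (FBar (N₁ * q')))
    (D₀ : ALData) (hM₀ : N₁ * q' = D₀.Q * D₀.R) (hD₀ : D₀.Q = q' ^ 2)
    (h : CocycleF2 N n q' e R
      (fun g => IsCPow n (normAlong (heckeAlphaBar Qb N₁ q') (wAt D₀ hM₀ g)))) :
    ∀ (D : ALData) (hM : N₁ * q' = D.Q * D.R), D.Q = q' ^ 2 →
      CocycleF2 N n q' e R
        (fun g => IsCPow n (normAlong (heckeAlphaBar Qb N₁ q') (wAt D hM g))) := by
  intro D hM hDQ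
  rw [wAt_indep D D₀ hM hM₀ (hDQ.trans hD₀.symm)]
  exact h

end F2

end Fermat.Agent.S36G
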