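/-
Cluster G (S36), Step 3, wiring of (F1), (F2), part B = VALUES (helper31; part A = residues of the
norms, assembly `NormRoots ⇐ A + B` = helper36, `S36/G/CocycleF12.lean`).

Everything is stated on PLAIN places and fields; `nv_valAt_cast` transports a value along an equality
of vertices (`N.src i = nodSrc i`, `N.tgt i = nodTgt i`).

* `nv_valAt_cast`  : `ValAt (hc ▸ Q) (H c') a ↔ ValAt Q (H c) a`;
* `nv_hor_X1`      : on `F = k(H_P)`, `E = k(W)` (`x ↦ X₁ = W`), ends `p_∞ = pInf`, `p_0 = pZero`,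
                     `p_m = pm m`:  the norm `N_{F/E}(h)`, seen in `F`, has the value
                     `b_∞ ∏_m (b_m)^e` at `p_∞` and at every `p_m`, and `b_0 ^ q` at `p_0`;
* `nv_hor_X2`      : the same for `E = k(Zc)` (`x ↦ X₂`): `b_0 ∏_m (b_m)^e` at `p_0` and at every
                     `p_m`, `b_∞ ^ q` at `p_∞`;
* `nv_vert`        : `Fk0 ⊂ FkM m` totally ramified at `P_m` over `P₀` of degree `e`:
                     `y ∏_m N_{FkM m / Fk0}(x_m)` has the value `a ∏_m (a_m)^e` at `P₀` and, seen in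
                     `FkM m`, at `P_m`;
* `nv_pow`         : `h ^ q` has the value `a ^ q`.
-/
import Mathlib
import Fermat.Agent.Lib.HP.NormValE
import Fermat.Agent.S36.Norm.ValNormTot

set_option autoImplicit false
set_option linter.unusedSectionVars false
set_option linter.unusedVariables false
set_option linter.style.haveILetI false

noncomputable section

open IntermediateField AlgebraicCurve

namespace Fermat.Agent.S36G

open Fermat.Agent.RR Fermat.Agent.S36 Fermat.Agent.HP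
open Fermat.Agent.BadRed (ValAt)

/-! ### transport along an equality of vertices -/

section Cast

variable {k : Type*} [Field k] {κ : Type*} {Fk : κ → Type*} [∀ c, Field (Fk c)]
  [∀ c, Algebra k (Fk c)]

/-- values do not see a cast of the vertex. -/
theorem nv_valAt_cast {c c' : κ} (hc : c = c') (Q : Place k (Fk c)) (H : ∀ c, Fk c) (a : k) :
    ValAt (hc ▸ Q) (H c') a ↔ ValAt Q (H c) a := by
  subst hc
  rfl

/-- orders do not see a cast of the vertex. -/
theorem nv_ord_cast {c c' : κ} (hc : c = c') (Q : Place k (Fk c)) (H : ∀ c, Fk c) :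
    (hc ▸ Q : Place k (Fk c')).ord (H c') = Q.ord (H c) := by
  subst hc
  rfl

end Cast

/-! ### the horizontal component `H_P` -/

section Hor

variable {K F : Type*} [Field K] [Field F] [Algebra K F] {q : ℕ}
  (H : HPCurve K F q) [IsAlgClosed K] (hq1 : ((q + 1 : ℕ) : K) ≠ 0)
  {E : Type*} [Field E] [Algebra K E] [Algebra E F] [IsScalarTower K E F] [FiniteDimensional E F]
  {Mid : Type} [Fintype Mid]

include hq1 in
/-- the finite set of the mid ends and the auxiliary value function. -/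
theorem nv_mid_data (pm : Mid → Place K F) (hpm : Function.Injective pm)
    (hmid : ∀ v : Place K F, 0 < v.ord (H.s - algebraMap K F 1) ↔ ∃ m, v = pm m)
    (bInf : K) (bm : Mid → K) :
    ∃ (T : Finset (Place K F)) (c : Place K F → K),
      (∀ v, v ∈ T ↔ 0 < v.ord (H.s - algebraMap K F 1)) ∧ c (H.pInf hq1) = bInf ∧
      c (H.pZero hq1) = bInf ∧ (∀ m, c (pm m) = bm m) ∧ (∀ m, pm m ∈ T) ∧
      ∀ f : Place K F → K, ∏ v ∈ T, f v = ∏ m, f (pm m) := by
  classical
  refine ⟨Finset.univ.image pm,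
    fun v => if h : ∃ m, pm m = v then bm h.choose else bInf, ?_, ?_, ?_, ?_, ?_, ?_⟩
  · intro v
    rw [hmid, Finset.mem_image]
    constructor
    · rintro ⟨m, -, hm⟩
      exact ⟨m, hm.symm⟩
    · rintro ⟨m, hm⟩
      exact ⟨m, Finset.mem_univ m, hm.symm⟩
  · have hno : ¬ ∃ m, pm m = H.pInf hq1 := by
      rintro ⟨m, hm⟩
      exact H.pInf_not_mid hq1 ((hmid _).mpr ⟨m, hm.symm⟩)
    show (if h : ∃ m, pm m = H.pInf hq1 then bm h.choose else bInf) = bInf
    rw [dif_neg hno]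
  · have hno : ¬ ∃ m, pm m = H.pZero hq1 := by
      rintro ⟨m, hm⟩
      exact H.pZero_not_mid hq1 ((hmid _).mpr ⟨m, hm.symm⟩)
    show (if h : ∃ m, pm m = H.pZero hq1 then bm h.choose else bInf) = bInf
    rw [dif_neg hno]
  · intro m
    have hex : ∃ m', pm m' = pm m := ⟨m, rfl⟩
    show (if h : ∃ m', pm m' = pm m then bm h.choose else bInf) = bm m
    rw [dif_pos hex]
    exact congrArg bm (hpm hex.choose_spec)
  · intro m
    exact Finset.mem_image_of_mem pm (Finset.mem_univ m)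
  · intro f
    exact Finset.prod_image fun a _ b _ hab => hpm hab

include hq1 in
/-- **values of `N_{k(H_P)/k(W)}(h)` at the ends** (`x ↦ X₁`), indexed by `Mid`. -/
theorem nv_hor_X1 {x : E} (hgen : K⟮x⟯ = ⊤) (hx : algebraMap E F x = H.X1)
    (pm : Mid → Place K F) (hpm : Function.Injective pm)
    (hmid : ∀ v : Place K F, 0 < v.ord (H.s - algebraMap K F 1) ↔ ∃ m, v = pm m)
    (e : ℕ) (he : ∀ m, (-((pm m).ord H.X1)).toNat = e)
    (h : F) (bInf bZero : K) (bm : Mid → K)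
    (hInf : ValAt (H.pInf hq1) h bInf) (hZero : ValAt (H.pZero hq1) h bZero)
    (hm : ∀ m, ValAt (pm m) h (bm m)) :
    ValAt (H.pInf hq1) (algebraMap E F (Algebra.norm E h)) (bInf * ∏ m, bm m ^ e) ∧
    (∀ m, ValAt (pm m) (algebraMap E F (Algebra.norm E h)) (bInf * ∏ m, bm m ^ e)) ∧
    ValAt (H.pZero hq1) (algebraMap E F (Algebra.norm E h)) (bZero ^ q) := by
  obtain ⟨T, c, hT, hcInf, -, hcm, hmem, hprod⟩ := nv_mid_data H hq1 pm hpm hmid bInf bm
  have key := H.valAt_normE_X1_poles hq1 hgen hx T hT h c (by rw [hcInf]; exact hInf)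
    (fun v hv => by
      obtain ⟨m, rfl⟩ := (hmid v).mp ((hT v).mp hv)
      rw [hcm]
      exact hm m)
  have e1 : c (H.pInf hq1) * ∏ v ∈ T, c v ^ (-(v.ord H.X1)).toNat = bInf * ∏ m, bm m ^ e := by
    rw [hcInf, hprod fun v => c v ^ (-(v.ord H.X1)).toNat]
    congr 1
    exact Finset.prod_congr rfl fun m _ => by rw [hcm, he]
  rw [e1] at key
  exact ⟨key _ (Or.inl rfl), fun m => key _ (Or.inr (hmem m)),
    H.valAt_normE_X1_pZero hq1 hgen hx h bZero hZero⟩

include hq1 in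
/-- **values of `N_{k(H_P)/k(Zc)}(h)` at the ends** (`x ↦ X₂`), indexed by `Mid`. -/
theorem nv_hor_X2 {x : E} (hgen : K⟮x⟯ = ⊤) (hx : algebraMap E F x = H.X2)
    (pm : Mid → Place K F) (hpm : Function.Injective pm)
    (hmid : ∀ v : Place K F, 0 < v.ord (H.s - algebraMap K F 1) ↔ ∃ m, v = pm m)
    (e : ℕ) (he : ∀ m, (-((pm m).ord H.X1)).toNat = e)
    (h : F) (bInf bZero : K) (bm : Mid → K)
    (hInf : ValAt (H.pInf hq1) h bInf) (hZero : ValAt (H.pZero hq1) h bZero)
    (hm : ∀ m, ValAt (pm m) h (bm m)) :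
    ValAt (H.pZero hq1) (algebraMap E F (Algebra.norm E h)) (bZero * ∏ m, bm m ^ e) ∧
    (∀ m, ValAt (pm m) (algebraMap E F (Algebra.norm E h)) (bZero * ∏ m, bm m ^ e)) ∧
    ValAt (H.pInf hq1) (algebraMap E F (Algebra.norm E h)) (bInf ^ q) := by
  obtain ⟨T, c, hT, -, hcZero, hcm, hmem, hprod⟩ := nv_mid_data H hq1 pm hpm hmid bZero bm
  have key := H.valAt_normE_X2_poles hq1 hgen hx T hT h c (by rw [hcZero]; exact hZero)
    (fun v hv => by
      obtain ⟨m, rfl⟩ := (hmid v).mp ((hT v).mp hv)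
      rw [hcm]
      exact hm m)
  have e1 : c (H.pZero hq1) * ∏ v ∈ T, c v ^ (-(v.ord H.X1)).toNat = bZero * ∏ m, bm m ^ e := by
    rw [hcZero, hprod fun v => c v ^ (-(v.ord H.X1)).toNat]
    congr 1
    exact Finset.prod_congr rfl fun m _ => by rw [hcm, he]
  rw [e1] at key
  exact ⟨key _ (Or.inl rfl), fun m => key _ (Or.inr (hmem m)),
    H.valAt_normE_X2_pInf hq1 hgen hx h bInf hInf⟩

end Hor

/-! ### the vertical components -/

section Vert

variable {k Fk0 : Type*} [Field k] [Field Fk0] [Algebra k Fk0]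
  {Mid : Type} [Fintype Mid] {FkM : Mid → Type*} [∀ m, Field (FkM m)] [∀ m, Algebra k (FkM m)]
  [∀ m, Algebra Fk0 (FkM m)] [∀ m, IsScalarTower k Fk0 (FkM m)]
  [∀ m, FiniteDimensional Fk0 (FkM m)]

/-- **values of `y ∏_m N_{FkM m / Fk0}(x_m)`** at a place `P₀` of `Fk0` which is totally ramified
in every `FkM m` (place `P_m` over `P₀`, `e(P_m | P₀) = [FkM m : Fk0] = e`). -/
theorem nv_vert [Infinite k] (h0 : IsRRField k Fk0) (hM : ∀ m, IsRRField k (FkM m))
    (P₀ : Place k Fk0) (Pm : ∀ m, Place k (FkM m))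
    (hres : ∀ m, (Pm m).restrict Fk0 = P₀) (e : ℕ)
    (he : ∀ m, (Pm m).ramificationIndex Fk0 = e) (hdeg : ∀ m, Module.finrank Fk0 (FkM m) = e)
    (y : Fk0) (x : ∀ m, FkM m) (a : k) (am : Mid → k)
    (hy : ValAt P₀ y a) (hx : ∀ m, ValAt (Pm m) (x m) (am m)) :
    ValAt P₀ (y * ∏ m, Algebra.norm Fk0 (x m)) (a * ∏ m, am m ^ e) ∧
    ∀ m, ValAt (Pm m) (algebraMap Fk0 (FkM m) (y * ∏ m, Algebra.norm Fk0 (x m)))
      (a * ∏ m, am m ^ e) := by
  have key : ValAt P₀ (y * ∏ m, Algebra.norm Fk0 (x m)) (a * ∏ m, am m ^ e) := by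
    refine vnt_valAt_mul h0 P₀ hy (vnt_valAt_prod h0 P₀ _ _ _ fun m _ => ?_)
    have := vnt_valAt_norm_totRam h0 (hM m) P₀ (Pm m) (hres m)
      (by rw [he, hdeg]) (x m) (am m) (hx m)
    rwa [hdeg] at this
  refine ⟨key, fun m => ?_⟩
  rw [vnx_valAt_algebraMap_iff, hres m]
  exact key

/-- values of powers (for `H_0 = h_0 ^ q`). -/
theorem nv_pow (h0 : IsRRField k Fk0) (P₀ : Place k Fk0) (y : Fk0) (a : k) (hy : ValAt P₀ y a)
    (q : ℕ) : ValAt P₀ (y ^ q) (a ^ q) :=
  vnt_valAt_pow h0 P₀ hy q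

end Vert

end Fermat.Agent.S36G
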