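/-
Cluster G (S36), block COC, seat NL-VAL (helper31): the four VALUE fields of the norm layers
`NormLayer1`, `NormLayer2` (`S36/G/NormLayer.lean`, helper36) from the values of norms
(`S36/G/NormValues.lean`).

The branches of the nodes are transported to PLAIN places of the components,
`nlSrc N hsrc P v : Place k (Fk (vert v))`, `nlTgt N htgt P v : Place k (Fk (hor P))`
(for the modular `N`, `src := nodSrc`, `tgt := nodTgt` by `rfl`, these ARE `N.s₁ (P, v)`, `N.s₂ (P, v)`).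

* `nl_valAt_src`, `nl_valAt_tgt` : values at `N.s₁`, `N.s₂` are values at `nlSrc`, `nlTgt`;
* `nl_val_nm`   : field `val_nm`  (base vertex `b₀ = ∞` for `π₁`, `b₀ = 0` for `π₂`);
* `nl_val_jm`   : field `val_jm`;
* `nl_val_NP_X1`: fields `val_NP_oo`, `val_NP_zero` of `NormLayer1` (`NP = N_{k(H_P)/k(X₁)}`);
* `nl_val_NP_X2`: fields `val_NP_zero`, `val_NP_oo` of `NormLayer2` (`NP = N_{k(H_P)/k(X₂)}`);
* `nl_mid_exp`  : the exponent at the mid ends is `(q - 1) / (if q = 2 then 1 else 2)` (`= midDeg q`).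
-/
import Mathlib
import Fermat.Agent.S36.G.NormLayer
import Fermat.Agent.S36.G.NormValues

set_option autoImplicit false
set_option linter.unusedSectionVars false
set_option linter.unusedVariables false
set_option linter.style.haveILetI false

noncomputable section

open IntermediateField AlgebraicCurve

namespace Fermat.Agent.S36G

open Fermat.Agent.RR Fermat.Agent.S36 Fermat.Agent.HP Fermat.Agent.Deuring
open Fermat.Agent.BadRed Fermat.Agent.BadRedG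

variable {K F k : Type*} [Field K] [Field F] [Algebra K F] [Field k]

variable {Mid SS : Type} [Fintype Mid] {Fk : Vtx Mid SS → Type*} [∀ c, Field (Fk c)]
  [∀ c, Algebra k (Fk c)]

variable (N : GraphSetup K F k (Vtx Mid SS) Fk (Nod Mid SS))
  (hsrc : ∀ i, N.src i = nodSrc i) (htgt : ∀ i, N.tgt i = nodTgt i)

/-! ### the branches as plain places -/

/-- the branch of the node `(P, v)` on the vertical component `v`. -/
def nlSrc (P : SS) (v : Vrt Mid) : Place k (Fk (Vtx.vert v)) :=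
  (hsrc (P, v) ▸ N.s₁ (P, v) : Place k (Fk (nodSrc (P, v))))

/-- the branch of the node `(P, v)` on the horizontal component `H_P`. -/
def nlTgt (P : SS) (v : Vrt Mid) : Place k (Fk (Vtx.hor P)) :=
  (htgt (P, v) ▸ N.s₂ (P, v) : Place k (Fk (nodTgt (P, v))))

omit [Fintype Mid] in
theorem nl_valAt_src (P : SS) (v : Vrt Mid) (H : ∀ c, Fk c) (a : k) :
    ValAt (nlSrc N hsrc P v) (H (Vtx.vert v)) a ↔ ValAt (N.s₁ (P, v)) (H (N.src (P, v))) a :=
  nv_valAt_cast (hsrc (P, v)) (N.s₁ (P, v)) H a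

omit [Fintype Mid] in
theorem nl_valAt_tgt (P : SS) (v : Vrt Mid) (H : ∀ c, Fk c) (a : k) :
    ValAt (nlTgt N htgt P v) (H (Vtx.hor P)) a ↔ ValAt (N.s₂ (P, v)) (H (N.tgt (P, v))) a :=
  nv_valAt_cast (htgt (P, v)) (N.s₂ (P, v)) H a

omit [Fintype Mid] in
/-- the branches on `H_P` are pairwise different. -/
theorem nlTgt_injective (P : SS) : Function.Injective (nlTgt N htgt P) := by
  intro v w hvw
  have key : ∀ (c c' : Vtx Mid SS) (hc : c = Vtx.hor P) (hc' : c' = Vtx.hor P)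
      (Q : Place k (Fk c)) (Q' : Place k (Fk c')),
      (hc ▸ Q : Place k (Fk (Vtx.hor P))) = (hc' ▸ Q' : Place k (Fk (Vtx.hor P))) →
      (⟨c, Q⟩ : Σ c, Place k (Fk c)) = ⟨c', Q'⟩ := by
    intro c c' hc hc' Q Q' h
    subst hc
    subst hc'
    exact congrArg _ h
  have h1 := N.s₂_inj (P, v) (P, w) (key _ _ (htgt (P, v)) (htgt (P, w)) _ _ hvw)
  exact (Prod.mk.inj h1).2

/-! ### the vertical fields `val_nm`, `val_jm` -/

section Vert

variable (b₀ : Vrt Mid)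
  [∀ m, Algebra (Fk (Vtx.vert b₀)) (Fk (Vtx.vert (Vrt.mid m)))]
  [∀ m, IsScalarTower k (Fk (Vtx.vert b₀)) (Fk (Vtx.vert (Vrt.mid m)))]
  [∀ m, FiniteDimensional (Fk (Vtx.vert b₀)) (Fk (Vtx.vert (Vrt.mid m)))]

omit [Fintype Mid] in
/-- **field `val_nm`** (`b₀ = ∞` for `NormLayer1`, `b₀ = 0` for `NormLayer2`): the branch on the
middle component `m` is totally ramified over the branch on the component `b₀`. -/
theorem nl_val_nm [Infinite k] (h0 : IsRRField k (Fk (Vtx.vert b₀)))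
    (hM : ∀ m, IsRRField k (Fk (Vtx.vert (Vrt.mid m))))
    (hres : ∀ P m, (nlSrc N hsrc P (Vrt.mid m)).restrict (Fk (Vtx.vert b₀)) = nlSrc N hsrc P b₀)
    (e : ℕ)
    (he : ∀ P m, (nlSrc N hsrc P (Vrt.mid m)).ramificationIndex (Fk (Vtx.vert b₀)) = e)
    (hdeg : ∀ m, Module.finrank (Fk (Vtx.vert b₀)) (Fk (Vtx.vert (Vrt.mid m))) = e)
    (nm : ∀ m : Mid, Fk (Vtx.vert (Vrt.mid m)) →* Fk (Vtx.vert b₀))
    (hnm : ∀ m x, nm m x = Algebra.norm (Fk (Vtx.vert b₀)) x)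
    (P : SS) (m : Mid) (x y : ∀ c, Fk c) (c : k)
    (hy : y (Vtx.vert b₀) = nm m (x (Vtx.vert (Vrt.mid m))))
    (hx : ValAt (N.s₁ (P, Vrt.mid m)) (x (N.src (P, Vrt.mid m))) c) :
    ValAt (N.s₁ (P, b₀)) (y (N.src (P, b₀))) (c ^ e) := by
  rw [← nl_valAt_src N hsrc] at hx ⊢
  rw [hy, hnm]
  have key := vnt_valAt_norm_totRam h0 (hM m) (nlSrc N hsrc P b₀) (nlSrc N hsrc P (Vrt.mid m))
    (hres P m) (by rw [he, hdeg]) (x _) c hx
  rwa [hdeg] at key

omit [Fintype Mid] in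
/-- **field `val_jm`**: the functions of the component `b₀` have the same values at the branches
on the middle components. -/
theorem nl_val_jm
    (hres : ∀ P m, (nlSrc N hsrc P (Vrt.mid m)).restrict (Fk (Vtx.vert b₀)) = nlSrc N hsrc P b₀)
    (jm : ∀ m : Mid, Fk (Vtx.vert b₀) →+* Fk (Vtx.vert (Vrt.mid m)))
    (hjm : ∀ m y, jm m y = algebraMap (Fk (Vtx.vert b₀)) (Fk (Vtx.vert (Vrt.mid m))) y)
    (P : SS) (m : Mid) (y z : ∀ c, Fk c) (c : k)
    (hz : z (Vtx.vert (Vrt.mid m)) = jm m (y (Vtx.vert b₀)))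
    (hy : ValAt (N.s₁ (P, b₀)) (y (N.src (P, b₀))) c) :
    ValAt (N.s₁ (P, Vrt.mid m)) (z (N.src (P, Vrt.mid m))) c := by
  rw [← nl_valAt_src N hsrc] at hy ⊢
  rw [hz, hjm, vnx_valAt_algebraMap_iff, hres P m]
  exact hy

end Vert

/-! ### the horizontal fields `val_NP_oo`, `val_NP_zero` -/

section Hor

variable {q : ℕ} [IsAlgClosed k] (hq1 : ((q + 1 : ℕ) : k) ≠ 0)
  (HP : ∀ P : SS, HPCurve k (Fk (Vtx.hor P)) q)
  {E : SS → Type*} [∀ P, Field (E P)] [∀ P, Algebra k (E P)]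
  [∀ P, Algebra (E P) (Fk (Vtx.hor P))] [∀ P, IsScalarTower k (E P) (Fk (Vtx.hor P))]
  [∀ P, FiniteDimensional (E P) (Fk (Vtx.hor P))]

include hq1 in
/-- **fields `val_NP_oo`, `val_NP_zero` of `NormLayer1`**: `NP = N_{k(H_P)/E}` seen in `k(H_P)`,
`E = k(x)`, `x ↦ X₁`; the branches are the ends `p_∞ = pInf`, `p_0 = pZero`, `p_m` = the zeros of
`s - 1`. -/
theorem nl_val_NP_X1 {x : ∀ P, E P} (hgen : ∀ P, k⟮x P⟯ = ⊤)
    (hx : ∀ P, algebraMap (E P) (Fk (Vtx.hor P)) (x P) = (HP P).X1)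
    (hInf : ∀ P, nlTgt N htgt P Vrt.oo = (HP P).pInf hq1)
    (hZero : ∀ P, nlTgt N htgt P Vrt.zero = (HP P).pZero hq1)
    (hmid : ∀ P (v : Place k (Fk (Vtx.hor P))),
      0 < v.ord ((HP P).s - algebraMap k (Fk (Vtx.hor P)) 1) ↔
        ∃ m, v = nlTgt N htgt P (Vrt.mid m))
    (e : ℕ) (he : ∀ P m, (-((nlTgt N htgt P (Vrt.mid m)).ord (HP P).X1)).toNat = e)
    (NP : ∀ P : SS, Fk (Vtx.hor P) →* Fk (Vtx.hor P))
    (hNP : ∀ P y, NP P y = algebraMap (E P) (Fk (Vtx.hor P)) (Algebra.norm (E P) y)) :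
    (∀ (P : SS) (h H : ∀ c, Fk c) (ca : k) (cm : Mid → k),
      H (Vtx.hor P) = NP P (h (Vtx.hor P)) →
      ValAt (N.s₂ (P, Vrt.oo)) (h (N.tgt (P, Vrt.oo))) ca →
      (∀ m, ValAt (N.s₂ (P, Vrt.mid m)) (h (N.tgt (P, Vrt.mid m))) (cm m)) →
      ValAt (N.s₂ (P, Vrt.oo)) (H (N.tgt (P, Vrt.oo))) (ca * ∏ m, cm m ^ e) ∧
        ∀ m, ValAt (N.s₂ (P, Vrt.mid m)) (H (N.tgt (P, Vrt.mid m))) (ca * ∏ m, cm m ^ e)) ∧
    (∀ (P : SS) (h H : ∀ c, Fk c) (c : k),
      H (Vtx.hor P) = NP P (h (Vtx.hor P)) →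
      ValAt (N.s₂ (P, Vrt.zero)) (h (N.tgt (P, Vrt.zero))) c →
      ValAt (N.s₂ (P, Vrt.zero)) (H (N.tgt (P, Vrt.zero))) (c ^ q)) := by
  constructor
  · intro P h H ca cm hH hoo hm
    rw [← nl_valAt_tgt N htgt] at hoo
    have hm' : ∀ m, ValAt (nlTgt N htgt P (Vrt.mid m)) (h (Vtx.hor P)) (cm m) := fun m =>
      (nl_valAt_tgt N htgt P (Vrt.mid m) h (cm m)).mpr (hm m)
    have hpm : Function.Injective fun m : Mid => nlTgt N htgt P (Vrt.mid m) := fun m m' hmm =>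
      Vrt.mid.inj (nlTgt_injective N htgt P hmm)
    obtain ⟨T, c, hT, hcInf, -, hcm, hmem, hprod⟩ :=
      nv_mid_data (HP P) hq1 (fun m => nlTgt N htgt P (Vrt.mid m)) hpm (hmid P) ca cm
    have key := (HP P).valAt_normE_X1_poles hq1 (hgen P) (hx P) T hT (h (Vtx.hor P)) c
      (by rw [hcInf, ← hInf P]; exact hoo)
      (fun v hv => by
        obtain ⟨m, rfl⟩ := (hmid P v).mp ((hT v).mp hv)
        rw [hcm]
        exact hm' m)
    have e1 : c ((HP P).pInf hq1) * ∏ v ∈ T, c v ^ (-(v.ord (HP P).X1)).toNat =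
        ca * ∏ m, cm m ^ e := by
      rw [hcInf, hprod fun v => c v ^ (-(v.ord (HP P).X1)).toNat]
      congr 1
      exact Finset.prod_congr rfl fun m _ => by rw [hcm, he]
    rw [e1, ← hNP, ← hH] at key
    refine ⟨?_, fun m => ?_⟩
    · rw [← nl_valAt_tgt N htgt]
      exact key _ (Or.inl (hInf P))
    · rw [← nl_valAt_tgt N htgt]
      exact key _ (Or.inr (hmem m))
  · intro P h H c hH hc
    rw [← nl_valAt_tgt N htgt] at hc ⊢
    rw [hH, hNP, hZero P]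
    rw [hZero P] at hc
    exact (HP P).valAt_normE_X1_pZero hq1 (hgen P) (hx P) _ c hc

include hq1 in
/-- **fields `val_NP_zero`, `val_NP_oo` of `NormLayer2`**: `NP = N_{k(H_P)/E}` seen in `k(H_P)`,
`E = k(x)`, `x ↦ X₂`. -/
theorem nl_val_NP_X2 {x : ∀ P, E P} (hgen : ∀ P, k⟮x P⟯ = ⊤)
    (hx : ∀ P, algebraMap (E P) (Fk (Vtx.hor P)) (x P) = (HP P).X2)
    (hInf : ∀ P, nlTgt N htgt P Vrt.oo = (HP P).pInf hq1)
    (hZero : ∀ P, nlTgt N htgt P Vrt.zero = (HP P).pZero hq1)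
    (hmid : ∀ P (v : Place k (Fk (Vtx.hor P))),
      0 < v.ord ((HP P).s - algebraMap k (Fk (Vtx.hor P)) 1) ↔
        ∃ m, v = nlTgt N htgt P (Vrt.mid m))
    (e : ℕ) (he : ∀ P m, (-((nlTgt N htgt P (Vrt.mid m)).ord (HP P).X1)).toNat = e)
    (NP : ∀ P : SS, Fk (Vtx.hor P) →* Fk (Vtx.hor P))
    (hNP : ∀ P y, NP P y = algebraMap (E P) (Fk (Vtx.hor P)) (Algebra.norm (E P) y)) :
    (∀ (P : SS) (h H : ∀ c, Fk c) (ca : k) (cm : Mid → k),
      H (Vtx.hor P) = NP P (h (Vtx.hor P)) →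
      ValAt (N.s₂ (P, Vrt.zero)) (h (N.tgt (P, Vrt.zero))) ca →
      (∀ m, ValAt (N.s₂ (P, Vrt.mid m)) (h (N.tgt (P, Vrt.mid m))) (cm m)) →
      ValAt (N.s₂ (P, Vrt.zero)) (H (N.tgt (P, Vrt.zero))) (ca * ∏ m, cm m ^ e) ∧
        ∀ m, ValAt (N.s₂ (P, Vrt.mid m)) (H (N.tgt (P, Vrt.mid m))) (ca * ∏ m, cm m ^ e)) ∧
    (∀ (P : SS) (h H : ∀ c, Fk c) (c : k),
      H (Vtx.hor P) = NP P (h (Vtx.hor P)) →
      ValAt (N.s₂ (P, Vrt.oo)) (h (N.tgt (P, Vrt.oo))) c →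
      ValAt (N.s₂ (P, Vrt.oo)) (H (N.tgt (P, Vrt.oo))) (c ^ q)) := by
  constructor
  · intro P h H ca cm hH hzero hm
    rw [← nl_valAt_tgt N htgt] at hzero
    have hm' : ∀ m, ValAt (nlTgt N htgt P (Vrt.mid m)) (h (Vtx.hor P)) (cm m) := fun m =>
      (nl_valAt_tgt N htgt P (Vrt.mid m) h (cm m)).mpr (hm m)
    have hpm : Function.Injective fun m : Mid => nlTgt N htgt P (Vrt.mid m) := fun m m' hmm =>
      Vrt.mid.inj (nlTgt_injective N htgt P hmm)
    obtain ⟨T, c, hT, -, hcZero, hcm, hmem, hprod⟩ :=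
      nv_mid_data (HP P) hq1 (fun m => nlTgt N htgt P (Vrt.mid m)) hpm (hmid P) ca cm
    have key := (HP P).valAt_normE_X2_poles hq1 (hgen P) (hx P) T hT (h (Vtx.hor P)) c
      (by rw [hcZero, ← hZero P]; exact hzero)
      (fun v hv => by
        obtain ⟨m, rfl⟩ := (hmid P v).mp ((hT v).mp hv)
        rw [hcm]
        exact hm' m)
    have e1 : c ((HP P).pZero hq1) * ∏ v ∈ T, c v ^ (-(v.ord (HP P).X1)).toNat =
        ca * ∏ m, cm m ^ e := by
      rw [hcZero, hprod fun v => c v ^ (-(v.ord (HP P).X1)).toNat]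
      congr 1
      exact Finset.prod_congr rfl fun m _ => by rw [hcm, he]
    rw [e1, ← hNP, ← hH] at key
    refine ⟨?_, fun m => ?_⟩
    · rw [← nl_valAt_tgt N htgt]
      exact key _ (Or.inl (hZero P))
    · rw [← nl_valAt_tgt N htgt]
      exact key _ (Or.inr (hmem m))
  · intro P h H c hH hc
    rw [← nl_valAt_tgt N htgt] at hc ⊢
    rw [hH, hNP, hInf P]
    rw [hInf P] at hc
    exact (HP P).valAt_normE_X2_pInf hq1 (hgen P) (hx P) _ c hc

end Hor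

/-! ### the exponent `e` at the mid ends of `H_P` -/

section Exp

variable {F' : Type*} [Field F'] [Algebra k F'] {q : ℕ} [IsAlgClosed k]

/-- the exponent at the mid ends of `H_P` is `midDeg q = (q - 1) / midCard q` (hypothesis `he` of
`nl_val_NP_X1`, `nl_val_NP_X2`). -/
theorem nl_mid_exp (H : HPCurve k F' q) (hq1 : ((q + 1 : ℕ) : k) ≠ 0) (hq : q.Prime)
    (h2 : q ≠ 2 → (2 : k) ≠ 0) (v : Place k F')
    (hv : 0 < v.ord (H.s - algebraMap k F' 1)) :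
    (-(v.ord H.X1)).toNat = (q - 1) / (if q = 2 then 1 else 2) := by
  by_cases h : q = 2
  · rw [if_pos h, Nat.div_one]
    exact H.mid_exp_even hq1 (by rw [h]; exact even_two) v hv
  · rw [if_neg h]
    have hodd : Odd q := hq.odd_of_ne_two h
    rw [H.mid_exp_odd hq1 hodd (h2 h) v hv]
    have := H.two_mul_m hodd
    omega

end Exp

end Fermat.Agent.S36G
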