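/-
Cluster G (S36), block COC, seat ENDS-DICT, abstract part (helper31).

The value fields of the norm layers (`S36/G/NormLayerVal.lean`) need to know WHICH branch of a node
is which end of `H_P`.  Here the identification is derived from the SIGNS of the orders of `X₁`,
`X₂` at the branches (helper36's (DIV1), (DIV2)):

* `ed_dict`          : on an `HPCurve`: if `0 < ord_{p_∞} X₂`, `0 < ord_{p_0} X₁`, `ord_{p_m} X₁ < 0`,
                       `¬ 0 < ord_{p_m} X₂` and every pole of `X₁` is `p_∞` or a `p_m`, then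
                       `p_∞ = pInf`, `p_0 = pZero` and the `p_m` are exactly the zeros of `s - 1`;
* `ed_dict'`         : the same from the poles of `X₂` (for `π₂`);
* `nl_ord_src`, `nl_ord_tgt` : orders at `N.s₁`, `N.s₂` are orders at `nlSrc`, `nlTgt`;
* `nlSrc_sigma`, `nlTgt_sigma`, `eq_nlSrc_of_sigma`, `eq_nlTgt_of_sigma` : the plain branches as
                       points `⟨c, Q⟩` of the special fibre;
* `nl_dict`          : the dictionary for the branches `nlTgt N htgt P v` of the graph;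
* `nl_val_NP_X1_div`, `nl_val_NP_X2_div` : the horizontal value fields of `NormLayer1`,
                       `NormLayer2` from (DIV1), (DIV2) in sign form.
-/
import Mathlib
import Fermat.Agent.S36.G.NormLayerVal

set_option autoImplicit false
set_option linter.unusedSectionVars false
set_option linter.unusedVariables false
set_option linter.style.haveILetI false

noncomputable section

open IntermediateField AlgebraicCurve

namespace Fermat.Agent.S36G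

open Fermat.Agent.RR Fermat.Agent.S36 Fermat.Agent.HP Fermat.Agent.Deuring
open Fermat.Agent.BadRed Fermat.Agent.BadRedG

/-! ### the dictionary on one `HPCurve` -/

section Dict

variable {k F' : Type*} [Field k] [Field F'] [Algebra k F'] {q : ℕ} [IsAlgClosed k]
  (H : HPCurve k F' q) (hq1 : ((q + 1 : ℕ) : k) ≠ 0) {Mid : Type}

include hq1 in
/-- **ENDS DICTIONARY** from the signs of the orders of `X₁`, `X₂` (poles of `X₁` covered). -/
theorem ed_dict (pI pZ : Place k F') (pm : Mid → Place k F')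
    (hI : 0 < pI.ord H.X2) (hZ : 0 < pZ.ord H.X1)
    (hm1 : ∀ m, (pm m).ord H.X1 < 0) (hm2 : ∀ m, ¬ 0 < (pm m).ord H.X2)
    (hcover : ∀ v : Place k F', v.ord H.X1 < 0 → v = pI ∨ ∃ m, v = pm m) :
    pI = H.pInf hq1 ∧ pZ = H.pZero hq1 ∧
      ∀ v : Place k F', 0 < v.ord (H.s - algebraMap k F' 1) ↔ ∃ m, v = pm m := by
  have hI' : pI = H.pInf hq1 := (H.ord_X2_pos_iff hq1 pI).mp hI
  have hZ' : pZ = H.pZero hq1 := (H.ord_X1_pos_iff hq1 pZ).mp hZ
  refine ⟨hI', hZ', fun v => ⟨fun hv => ?_, ?_⟩⟩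
  · rcases hcover v ((H.ord_X1_neg_iff hq1 v).mpr (Or.inr hv)) with h | h
    · exact absurd (by rw [h, hI'] at hv; exact hv) (H.pInf_not_mid hq1)
    · exact h
  · rintro ⟨m, rfl⟩
    rcases (H.ord_X1_neg_iff hq1 (pm m)).mp (hm1 m) with h | h
    · exact absurd ((H.ord_X2_pos_iff hq1 (pm m)).mpr h) (hm2 m)
    · exact h

include hq1 in
/-- **ENDS DICTIONARY** from the signs of the orders of `X₁`, `X₂` (poles of `X₂` covered). -/
theorem ed_dict' (pI pZ : Place k F') (pm : Mid → Place k F')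
    (hI : 0 < pI.ord H.X2) (hZ : 0 < pZ.ord H.X1)
    (hm2 : ∀ m, (pm m).ord H.X2 < 0) (hm1 : ∀ m, ¬ 0 < (pm m).ord H.X1)
    (hcover : ∀ v : Place k F', v.ord H.X2 < 0 → v = pZ ∨ ∃ m, v = pm m) :
    pI = H.pInf hq1 ∧ pZ = H.pZero hq1 ∧
      ∀ v : Place k F', 0 < v.ord (H.s - algebraMap k F' 1) ↔ ∃ m, v = pm m := by
  have hI' : pI = H.pInf hq1 := (H.ord_X2_pos_iff hq1 pI).mp hI
  have hZ' : pZ = H.pZero hq1 := (H.ord_X1_pos_iff hq1 pZ).mp hZ
  refine ⟨hI', hZ', fun v => ⟨fun hv => ?_, ?_⟩⟩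
  · rcases hcover v ((H.ord_X2_neg_iff hq1 v).mpr (Or.inr hv)) with h | h
    · exact absurd (by rw [h, hZ'] at hv; exact hv) (H.pZero_not_mid hq1)
    · exact h
  · rintro ⟨m, rfl⟩
    rcases (H.ord_X2_neg_iff hq1 (pm m)).mp (hm2 m) with h | h
    · exact absurd ((H.ord_X1_pos_iff hq1 (pm m)).mpr h) (hm1 m)
    · exact h

end Dict

/-! ### the horizontal value fields from (DIV1), (DIV2) -/

section Layer

variable {K F k : Type*} [Field K] [Field F] [Algebra K F] [Field k]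

variable {Mid SS : Type} [Fintype Mid] {Fk : Vtx Mid SS → Type*} [∀ c, Field (Fk c)]
  [∀ c, Algebra k (Fk c)]

variable (N : GraphSetup K F k (Vtx Mid SS) Fk (Nod Mid SS))
  (hsrc : ∀ i, N.src i = nodSrc i) (htgt : ∀ i, N.tgt i = nodTgt i)

omit [Fintype Mid] in
theorem nl_ord_src (P : SS) (v : Vrt Mid) (H : ∀ c, Fk c) :
    (nlSrc N hsrc P v).ord (H (Vtx.vert v)) = (N.s₁ (P, v)).ord (H (N.src (P, v))) :=
  nv_ord_cast (hsrc (P, v)) (N.s₁ (P, v)) H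

omit [Fintype Mid] in
theorem nl_ord_tgt (P : SS) (v : Vrt Mid) (H : ∀ c, Fk c) :
    (nlTgt N htgt P v).ord (H (Vtx.hor P)) = (N.s₂ (P, v)).ord (H (N.tgt (P, v))) :=
  nv_ord_cast (htgt (P, v)) (N.s₂ (P, v)) H

omit [Fintype Mid] in
/-- the plain branch on the vertical side, as a point of the special fibre. -/
theorem nlSrc_sigma (P : SS) (v : Vrt Mid) :
    (⟨Vtx.vert v, nlSrc N hsrc P v⟩ : Σ c, Place k (Fk c)) = ⟨N.src (P, v), N.s₁ (P, v)⟩ := by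
  have key : ∀ (c c' : Vtx Mid SS) (hc : c = c') (Q : Place k (Fk c)),
      (⟨c', (hc ▸ Q : Place k (Fk c'))⟩ : Σ c, Place k (Fk c)) = ⟨c, Q⟩ := by
    intro c c' hc Q
    subst hc
    rfl
  exact key _ _ (hsrc (P, v)) (N.s₁ (P, v))

omit [Fintype Mid] in
/-- the plain branch on the horizontal side, as a point of the special fibre. -/
theorem nlTgt_sigma (P : SS) (v : Vrt Mid) :
    (⟨Vtx.hor P, nlTgt N htgt P v⟩ : Σ c, Place k (Fk c)) = ⟨N.tgt (P, v), N.s₂ (P, v)⟩ := by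
  have key : ∀ (c c' : Vtx Mid SS) (hc : c = c') (Q : Place k (Fk c)),
      (⟨c', (hc ▸ Q : Place k (Fk c'))⟩ : Σ c, Place k (Fk c)) = ⟨c, Q⟩ := by
    intro c c' hc Q
    subst hc
    rfl
  exact key _ _ (htgt (P, v)) (N.s₂ (P, v))

omit [Fintype Mid] in
/-- a place of `H_P` which is a branch point (in the special fibre) is a plain branch. -/
theorem eq_nlTgt_of_sigma (P : SS) (w : Vrt Mid) (v : Place k (Fk (Vtx.hor P)))
    (h : (⟨Vtx.hor P, v⟩ : Σ c, Place k (Fk c)) = ⟨N.tgt (P, w), N.s₂ (P, w)⟩) :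
    v = nlTgt N htgt P w := by
  rw [← nlTgt_sigma N htgt P w] at h
  exact eq_of_heq (Sigma.mk.inj h).2

omit [Fintype Mid] in
/-- a place of the vertical component `v` which is a branch point is a plain branch. -/
theorem eq_nlSrc_of_sigma (P : SS) (w : Vrt Mid) (v : Place k (Fk (Vtx.vert w)))
    (h : (⟨Vtx.vert w, v⟩ : Σ c, Place k (Fk c)) = ⟨N.src (P, w), N.s₁ (P, w)⟩) :
    v = nlSrc N hsrc P w := by
  rw [← nlSrc_sigma N hsrc P w] at h
  exact eq_of_heq (Sigma.mk.inj h).2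

variable {q : ℕ} [IsAlgClosed k] (hq1 : ((q + 1 : ℕ) : k) ≠ 0)
  (HP : ∀ P : SS, HPCurve k (Fk (Vtx.hor P)) q)
  {E : SS → Type*} [∀ P, Field (E P)] [∀ P, Algebra k (E P)]
  [∀ P, Algebra (E P) (Fk (Vtx.hor P))] [∀ P, IsScalarTower k (E P) (Fk (Vtx.hor P))]
  [∀ P, FiniteDimensional (E P) (Fk (Vtx.hor P))]

include hq1 in
/-- the dictionary for the branches of the graph: (DIV1) + (DIV2) in sign form, every pole of
`X₁` on `H_P` being a branch. -/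
theorem nl_dict
    (hI : ∀ P, 0 < (nlTgt N htgt P Vrt.oo).ord (HP P).X2)
    (hZ : ∀ P, 0 < (nlTgt N htgt P Vrt.zero).ord (HP P).X1)
    (hm1 : ∀ P m, (nlTgt N htgt P (Vrt.mid m)).ord (HP P).X1 < 0)
    (hm2 : ∀ P m, ¬ 0 < (nlTgt N htgt P (Vrt.mid m)).ord (HP P).X2)
    (hcover : ∀ P (v : Place k (Fk (Vtx.hor P))), v.ord (HP P).X1 < 0 →
      ∃ w, v = nlTgt N htgt P w) (P : SS) :
    nlTgt N htgt P Vrt.oo = (HP P).pInf hq1 ∧ nlTgt N htgt P Vrt.zero = (HP P).pZero hq1 ∧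
      ∀ v : Place k (Fk (Vtx.hor P)),
        0 < v.ord ((HP P).s - algebraMap k (Fk (Vtx.hor P)) 1) ↔
          ∃ m, v = nlTgt N htgt P (Vrt.mid m) := by
  refine ed_dict (HP P) hq1 _ _ (fun m => nlTgt N htgt P (Vrt.mid m)) (hI P) (hZ P) (hm1 P)
    (hm2 P) fun v hv => ?_
  obtain ⟨w, rfl⟩ := hcover P v hv
  cases w with
  | oo => exact Or.inl rfl
  | zero => exact absurd (hZ P) (by omega)
  | mid m => exact Or.inr ⟨m, rfl⟩

include hq1 in
/-- **fields `val_NP_oo`, `val_NP_zero` of `NormLayer1`** from (DIV1), (DIV2). -/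
theorem nl_val_NP_X1_div {x : ∀ P, E P} (hgen : ∀ P, k⟮x P⟯ = ⊤)
    (hx : ∀ P, algebraMap (E P) (Fk (Vtx.hor P)) (x P) = (HP P).X1)
    (hI : ∀ P, 0 < (nlTgt N htgt P Vrt.oo).ord (HP P).X2)
    (hZ : ∀ P, 0 < (nlTgt N htgt P Vrt.zero).ord (HP P).X1)
    (e : ℕ) (hm1 : ∀ P m, (nlTgt N htgt P (Vrt.mid m)).ord (HP P).X1 = -(e : ℤ)) (he : 0 < e)
    (hm2 : ∀ P m, ¬ 0 < (nlTgt N htgt P (Vrt.mid m)).ord (HP P).X2)
    (hcover : ∀ P (v : Place k (Fk (Vtx.hor P))), v.ord (HP P).X1 < 0 →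
      ∃ w, v = nlTgt N htgt P w)
    (NP : ∀ P : SS, Fk (Vtx.hor P) →* Fk (Vtx.hor P))
    (hNP : ∀ P y, NP P y = algebraMap (E P) (Fk (Vtx.hor P)) (Algebra.norm (E P) y)) :
    (∀ (P : SS) (h H : ∀ c, Fk c) (ca : k) (cm : Mid → k),
      H (Vtx.hor P) = NP P (h (Vtx.hor P)) →
      ValAt (N.s₂ (P, Vrt.oo)) (h (N.tgt (P, Vrt.oo))) ca →
      (∀ m, ValAt (N.s₂ (P, Vrt.mid m)) (h (N.tgt (P, Vrt.mid m))) (cm m)) →
      ValAt (N.s₂ (P, Vrt.oo)) (H (N.tgt (P, Vrt.oo))) (ca * ∏ m, cm m ^ e) ∧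
        ∀ m, ValAt (N.s₂ (P, Vrt.mid m)) (H (N.tgt (P, Vrt.mid m))) (ca * ∏ m, cm m ^ e)) ∧
    (∀ (P : SS) (h H : ∀ c, Fk c) (c : k),
      H (Vtx.hor P) = NP P (h (Vtx.hor P)) →
      ValAt (N.s₂ (P, Vrt.zero)) (h (N.tgt (P, Vrt.zero))) c →
      ValAt (N.s₂ (P, Vrt.zero)) (H (N.tgt (P, Vrt.zero))) (c ^ q)) := by
  have hd := nl_dict N htgt hq1 HP hI hZ (fun P m => by rw [hm1]; omega) hm2 hcover
  exact nl_val_NP_X1 N htgt hq1 HP hgen hx (fun P => (hd P).1) (fun P => (hd P).2.1)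
    (fun P => (hd P).2.2) e (fun P m => by rw [hm1, neg_neg, Int.toNat_natCast]) NP hNP

include hq1 in
/-- **fields `val_NP_zero`, `val_NP_oo` of `NormLayer2`** from (DIV1), (DIV2). -/
theorem nl_val_NP_X2_div {x : ∀ P, E P} (hgen : ∀ P, k⟮x P⟯ = ⊤)
    (hx : ∀ P, algebraMap (E P) (Fk (Vtx.hor P)) (x P) = (HP P).X2)
    (hI : ∀ P, 0 < (nlTgt N htgt P Vrt.oo).ord (HP P).X2)
    (hZ : ∀ P, 0 < (nlTgt N htgt P Vrt.zero).ord (HP P).X1)
    (e : ℕ) (hm1 : ∀ P m, (nlTgt N htgt P (Vrt.mid m)).ord (HP P).X1 = -(e : ℤ)) (he : 0 < e)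
    (hm2 : ∀ P m, ¬ 0 < (nlTgt N htgt P (Vrt.mid m)).ord (HP P).X2)
    (hcover : ∀ P (v : Place k (Fk (Vtx.hor P))), v.ord (HP P).X1 < 0 →
      ∃ w, v = nlTgt N htgt P w)
    (NP : ∀ P : SS, Fk (Vtx.hor P) →* Fk (Vtx.hor P))
    (hNP : ∀ P y, NP P y = algebraMap (E P) (Fk (Vtx.hor P)) (Algebra.norm (E P) y)) :
    (∀ (P : SS) (h H : ∀ c, Fk c) (ca : k) (cm : Mid → k),
      H (Vtx.hor P) = NP P (h (Vtx.hor P)) →
      ValAt (N.s₂ (P, Vrt.zero)) (h (N.tgt (P, Vrt.zero))) ca →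
      (∀ m, ValAt (N.s₂ (P, Vrt.mid m)) (h (N.tgt (P, Vrt.mid m))) (cm m)) →
      ValAt (N.s₂ (P, Vrt.zero)) (H (N.tgt (P, Vrt.zero))) (ca * ∏ m, cm m ^ e) ∧
        ∀ m, ValAt (N.s₂ (P, Vrt.mid m)) (H (N.tgt (P, Vrt.mid m))) (ca * ∏ m, cm m ^ e)) ∧
    (∀ (P : SS) (h H : ∀ c, Fk c) (c : k),
      H (Vtx.hor P) = NP P (h (Vtx.hor P)) →
      ValAt (N.s₂ (P, Vrt.oo)) (h (N.tgt (P, Vrt.oo))) c →
      ValAt (N.s₂ (P, Vrt.oo)) (H (N.tgt (P, Vrt.oo))) (c ^ q)) := by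
  have hd := nl_dict N htgt hq1 HP hI hZ (fun P m => by rw [hm1]; omega) hm2 hcover
  exact nl_val_NP_X2 N htgt hq1 HP hgen hx (fun P => (hd P).1) (fun P => (hd P).2.1)
    (fun P => (hd P).2.2) e (fun P m => by rw [hm1, neg_neg, Int.toNat_natCast]) NP hNP

end Layer

end Fermat.Agent.S36G
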