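/-
Cluster G (S36), block COC, seat ENDS-DICT, modular part (helper15).

The ENDS DICTIONARY for the labelled ends `s₂ (P, v)` of the modular graph: for
`E : ModEndsInput` (`S36/G/SeedInput.lean`), the curves `H P : HPCurve k (Fk_P) q` and the SEED-UP
shapes (`S36/Seed/Ends.lean`)

  `red_P (ϖA / uA) = c · X₂ ^ 12`,  `red_P (ϖ1 / u1) = c · (X₁ ^ 12)⁻¹`,  `red_P u2 = c · X₁ ^ 12`,

and for every graph `N` whose second branches are the labelled ends of `E.toMatchInput`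
(`hN`; `rfl` for the seed graph, `edm_seed_hN`):

* `edm_mem_PJA_iff`, `edm_mem_PJ1_iff`, `edm_mem_PJ2_iff`, `edm_mem_PJM_iff` : the three sets of
  ends on `H_P` in terms of the signs of `ord X₁`, `ord X₂`;
* `edm_hI`, `edm_hZ`, `edm_hm1`, `edm_hm2`, `edm_hcover` : VERBATIM the hypotheses `hI`, `hZ`,
  `hm1` (`e = midDeg q`), `hm2`, `hcover` of `nl_val_NP_X1_div`, `nl_val_NP_X2_div`
  (`S36/G/EndsDict.lean`);
* `edm_dict` : `s₂ (P, ∞) = pInf`, `s₂ (P, 0) = pZero`, `{s₂ (P, m)}` = the zeros of `s - 1`;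
* `edm_div1`, `edm_div2`, `edm_div1_other`, `edm_div2_other` : (DIV1), (DIV2) with the exact
  orders: `div X₁ = -(p_∞) - e Σ_m (p_m) + q (p_0)`, `div X₂ = q (p_∞) - e Σ_m (p_m) - (p_0)`;
* `edm_val_NP_X1`, `edm_val_NP_X2` : the horizontal value fields of `NormLayer1`, `NormLayer2`.
-/
import Mathlib
import Fermat.Agent.S36.G.EndsDict
import Fermat.Agent.S36.Seed.Ends

set_option autoImplicit false
set_option linter.unusedSectionVars false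
set_option linter.unusedVariables false
set_option linter.style.haveILetI false

noncomputable section

open IntermediateField AlgebraicCurve

namespace Fermat.Agent.S36G

open Fermat.Agent.RR Fermat.Agent.S36 Fermat.Agent.HP Fermat.Agent.Deuring
open Fermat.Agent.BadRed Fermat.Agent.BadRedG

section EndsDictMod

variable {K F k : Type} [Field K] [Field F] [Algebra K F] [Field k] [IsAlgClosed k]
  {Mid SS : Type} [Fintype Mid] [Fintype SS]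
  {Fk0 : Type} [Field Fk0] [Algebra k Fk0]
  {FkM : Mid → Type} [∀ m, Field (FkM m)] [∀ m, Algebra k (FkM m)]
  {FkP : SS → Type} [∀ P, Field (FkP P)] [∀ P, Algebra k (FkP P)]
  (E : ModEndsInput K F k Mid SS Fk0 FkM FkP)
  {q : ℕ} (H : ∀ P : SS, HPCurve k (FkOf Fk0 FkM FkP (Vtx.hor P)) q)

/-! ### the three sets of ends on `H_P` -/

omit [IsAlgClosed k] in
theorem edm_mem_PJA_iff_red (P : SS) (Q : Place k (FkOf Fk0 FkM FkP (Vtx.hor P))) :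
    (⟨Vtx.hor P, Q⟩ : Σ c, Place k (FkOf Fk0 FkM FkP c)) ∈ E.PJA ↔
      0 < Q.ord ((E.S (Vtx.hor P)).red (algebraMap K F E.ϖA / E.uA)) := by
  rw [E.mem_PJA]
  exact ⟨fun h => h.2, fun h => ⟨⟨P, rfl⟩, h⟩⟩

omit [IsAlgClosed k] in
theorem edm_mem_PJ1_iff_red (P : SS) (Q : Place k (FkOf Fk0 FkM FkP (Vtx.hor P))) :
    (⟨Vtx.hor P, Q⟩ : Σ c, Place k (FkOf Fk0 FkM FkP c)) ∈ E.PJ1 ↔
      0 < Q.ord ((E.S (Vtx.hor P)).red (algebraMap K F E.ϖ1 / E.u1)) := by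
  rw [E.mem_PJ1]
  exact ⟨fun h => h.2, fun h => ⟨⟨P, rfl⟩, h⟩⟩

omit [IsAlgClosed k] in
theorem edm_mem_PJ2_iff_red (P : SS) (Q : Place k (FkOf Fk0 FkM FkP (Vtx.hor P))) :
    (⟨Vtx.hor P, Q⟩ : Σ c, Place k (FkOf Fk0 FkM FkP c)) ∈ E.PJ2 ↔
      0 < Q.ord ((E.S (Vtx.hor P)).red E.u2) := by
  rw [E.mem_PJ2]
  exact ⟨fun h => h.2, fun h => ⟨⟨P, rfl⟩, h⟩⟩

variable {E H}
variable (hxA : EndsRedA E.S H (algebraMap K F E.ϖA / E.uA))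
  (hx1 : EndsRed1 E.S H (algebraMap K F E.ϖ1 / E.u1))
  (hx2 : EndsRed2 E.S H E.u2)

include hxA in
/-- `p ∈ PJA` on `H_P` : the zeros of `X₂`. -/
theorem edm_mem_PJA_iff (P : SS) (Q : Place k (FkOf Fk0 FkM FkP (Vtx.hor P))) :
    (⟨Vtx.hor P, Q⟩ : Σ c, Place k (FkOf Fk0 FkM FkP c)) ∈ E.PJA ↔ 0 < Q.ord (H P).X2 := by
  rw [edm_mem_PJA_iff_red, hxA.ord P Q]
  constructor <;> intro h <;> omega

include hx1 in
/-- `p ∈ PJ1` on `H_P` : the poles of `X₁`. -/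
theorem edm_mem_PJ1_iff (P : SS) (Q : Place k (FkOf Fk0 FkM FkP (Vtx.hor P))) :
    (⟨Vtx.hor P, Q⟩ : Σ c, Place k (FkOf Fk0 FkM FkP c)) ∈ E.PJ1 ↔ Q.ord (H P).X1 < 0 := by
  rw [edm_mem_PJ1_iff_red, hx1.ord P Q]
  constructor <;> intro h <;> omega

include hx2 in
/-- `p ∈ PJ2` on `H_P` : the zeros of `X₁`. -/
theorem edm_mem_PJ2_iff (P : SS) (Q : Place k (FkOf Fk0 FkM FkP (Vtx.hor P))) :
    (⟨Vtx.hor P, Q⟩ : Σ c, Place k (FkOf Fk0 FkM FkP c)) ∈ E.PJ2 ↔ 0 < Q.ord (H P).X1 := by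
  rw [edm_mem_PJ2_iff_red, hx2.ord P Q]
  constructor <;> intro h <;> omega

include hxA hx1 in
/-- `p ∈ PJM` on `H_P` : the poles of `X₁` which are not zeros of `X₂`. -/
theorem edm_mem_PJM_iff (P : SS) (Q : Place k (FkOf Fk0 FkM FkP (Vtx.hor P))) :
    (⟨Vtx.hor P, Q⟩ : Σ c, Place k (FkOf Fk0 FkM FkP c)) ∈ E.PJM ↔
      Q.ord (H P).X1 < 0 ∧ ¬ 0 < Q.ord (H P).X2 := by
  rw [E.mem_PJM, edm_mem_PJ1_iff hx1, edm_mem_PJA_iff hxA]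

/-! ### the branches of the graph -/

variable {N : GraphSetup K F k (Vtx Mid SS) (FkOf Fk0 FkM FkP) (Nod Mid SS)}
  (htgt : ∀ i, N.tgt i = nodTgt i)
  (hN : ∀ i, (⟨N.tgt i, N.s₂ i⟩ : Σ c, Place k (FkOf Fk0 FkM FkP c)) = E.toMatchInput.ptH i)

include hN in
/-- the plain branch `nlTgt N htgt P v` is the labelled end `s₂ (P, v)` of the seed data. -/
theorem edm_nlTgt_sigma (P : SS) (v : Vrt Mid) :
    (⟨Vtx.hor P, nlTgt N htgt P v⟩ : Σ c, Place k (FkOf Fk0 FkM FkP c)) =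
      E.toMatchInput.ptH (P, v) :=
  (nlTgt_sigma N htgt P v).trans (hN (P, v))

include hN in
theorem edm_nlTgt_memA (P : SS) :
    (⟨Vtx.hor P, nlTgt N htgt P Vrt.oo⟩ : Σ c, Place k (FkOf Fk0 FkM FkP c)) ∈ E.PJA := by
  rw [edm_nlTgt_sigma htgt hN]
  exact E.toMatchInput.ptH_memA P

include hN in
theorem edm_nlTgt_memM (P : SS) (m : Mid) :
    (⟨Vtx.hor P, nlTgt N htgt P (Vrt.mid m)⟩ : Σ c, Place k (FkOf Fk0 FkM FkP c)) ∈ E.PJM := by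
  rw [edm_nlTgt_sigma htgt hN]
  exact E.toMatchInput.ptH_memM P m

include hN in
theorem edm_nlTgt_mem2 (P : SS) :
    (⟨Vtx.hor P, nlTgt N htgt P Vrt.zero⟩ : Σ c, Place k (FkOf Fk0 FkM FkP c)) ∈ E.PJ2 := by
  rw [edm_nlTgt_sigma htgt hN]
  exact E.toMatchInput.ptH_mem2 P

include hN in
/-- a point of `H_P` which is an end is a branch `nlTgt N htgt P w`. -/
theorem edm_exists_nlTgt (P : SS) (Q : Place k (FkOf Fk0 FkM FkP (Vtx.hor P)))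
    (h : (⟨Vtx.hor P, Q⟩ : Σ c, Place k (FkOf Fk0 FkM FkP c)) ∈ E.PJA ∨
      (⟨Vtx.hor P, Q⟩ : Σ c, Place k (FkOf Fk0 FkM FkP c)) ∈ E.PJM ∨
      (⟨Vtx.hor P, Q⟩ : Σ c, Place k (FkOf Fk0 FkM FkP c)) ∈ E.PJ2) :
    ∃ w, Q = nlTgt N htgt P w := by
  obtain ⟨⟨P', w⟩, hi⟩ := (E.toMatchInput.exists_ptH_iff ⟨Vtx.hor P, Q⟩).mpr h
  have h1 : (Vtx.hor P' : Vtx Mid SS) = Vtx.hor P := congrArg Sigma.fst hi
  have h2 : P' = P := Vtx.hor.inj h1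
  subst h2
  refine ⟨w, eq_nlTgt_of_sigma N htgt P' w Q ?_⟩
  rw [hN (P', w)]
  exact hi.symm

/-! ### the hypotheses of `nl_val_NP_X1_div`, `nl_val_NP_X2_div` -/

include hN hxA in
/-- **`hI`**: `X₂` vanishes at `s₂ (P, ∞)`. -/
theorem edm_hI (P : SS) : 0 < (nlTgt N htgt P Vrt.oo).ord (H P).X2 :=
  (edm_mem_PJA_iff hxA P _).mp (edm_nlTgt_memA htgt hN P)

include hN hx2 in
/-- **`hZ`**: `X₁` vanishes at `s₂ (P, 0)`. -/
theorem edm_hZ (P : SS) : 0 < (nlTgt N htgt P Vrt.zero).ord (H P).X1 :=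
  (edm_mem_PJ2_iff hx2 P _).mp (edm_nlTgt_mem2 htgt hN P)

include hN hxA hx1 in
/-- **`hm2`**: `X₂` does not vanish at `s₂ (P, m)`. -/
theorem edm_hm2 (P : SS) (m : Mid) : ¬ 0 < (nlTgt N htgt P (Vrt.mid m)).ord (H P).X2 :=
  ((edm_mem_PJM_iff hxA hx1 P _).mp (edm_nlTgt_memM htgt hN P m)).2

include hN hxA hx1 in
/-- `X₁` has a pole at `s₂ (P, m)`. -/
theorem edm_hm1_neg (P : SS) (m : Mid) : (nlTgt N htgt P (Vrt.mid m)).ord (H P).X1 < 0 :=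
  ((edm_mem_PJM_iff hxA hx1 P _).mp (edm_nlTgt_memM htgt hN P m)).1

include hN hxA hx1 in
/-- **`hcover`**: every pole of `X₁` on `H_P` is a branch. -/
theorem edm_hcover (P : SS) (v : Place k (FkOf Fk0 FkM FkP (Vtx.hor P)))
    (hv : v.ord (H P).X1 < 0) : ∃ w, v = nlTgt N htgt P w := by
  classical
  have h1 : (⟨Vtx.hor P, v⟩ : Σ c, Place k (FkOf Fk0 FkM FkP c)) ∈ E.PJ1 :=
    (edm_mem_PJ1_iff hx1 P v).mpr hv
  rw [E.PJ1_eq, Finset.mem_union] at h1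
  rcases h1 with h1 | h1
  · exact edm_exists_nlTgt htgt hN P v (Or.inl h1)
  · exact edm_exists_nlTgt htgt hN P v (Or.inr (Or.inl h1))

variable (hq : q.Prime) [CharP k q]

include hN hxA hx1 hq in
/-- **`hm1`**: `ord X₁ = - midDeg q` at `s₂ (P, m)`. -/
theorem edm_hm1 (P : SS) (m : Mid) :
    (nlTgt N htgt P (Vrt.mid m)).ord (H P).X1 = -(midDeg q : ℤ) :=
  ends_ord_X1_of_neg (H P) hq _ (edm_hm1_neg hxA hx1 htgt hN P m) (edm_hm2 hxA hx1 htgt hN P m)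

include hN hxA hx1 hx2 hq in
/-- **THE ENDS DICTIONARY**: `s₂ (P, ∞) = pInf`, `s₂ (P, 0) = pZero` and the `s₂ (P, m)` are
exactly the zeros of `s - 1`. -/
theorem edm_dict (P : SS) :
    nlTgt N htgt P Vrt.oo = (H P).pInf (ends_hq1 hq) ∧
      nlTgt N htgt P Vrt.zero = (H P).pZero (ends_hq1 hq) ∧
      ∀ v : Place k (FkOf Fk0 FkM FkP (Vtx.hor P)),
        0 < v.ord ((H P).s - algebraMap k (FkOf Fk0 FkM FkP (Vtx.hor P)) 1) ↔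
          ∃ m, v = nlTgt N htgt P (Vrt.mid m) :=
  nl_dict N htgt (ends_hq1 hq) H (edm_hI hxA htgt hN) (edm_hZ hx2 htgt hN)
    (edm_hm1_neg hxA hx1 htgt hN) (edm_hm2 hxA hx1 htgt hN) (edm_hcover hxA hx1 htgt hN) P

/-! ### (DIV1), (DIV2) with the exact orders -/

include hN hxA hx1 hx2 hq in
/-- **(DIV1)**: `ord X₁ = -1` at `s₂ (P, ∞)`, `= - midDeg q` at the `s₂ (P, m)`, `= q` at
`s₂ (P, 0)`. -/
theorem edm_div1 (P : SS) :
    (nlTgt N htgt P Vrt.oo).ord (H P).X1 = -1 ∧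
      (∀ m, (nlTgt N htgt P (Vrt.mid m)).ord (H P).X1 = -(midDeg q : ℤ)) ∧
      (nlTgt N htgt P Vrt.zero).ord (H P).X1 = (q : ℤ) := by
  obtain ⟨h1, h2, -⟩ := edm_dict hxA hx1 hx2 htgt hN hq P
  refine ⟨?_, edm_hm1 hxA hx1 htgt hN hq P, ?_⟩
  · rw [h1]
    exact (H P).ord_X1_pInf (ends_hq1 hq)
  · rw [h2]
    exact (H P).ord_X1_pZero (ends_hq1 hq)

include hN hxA hx1 hx2 hq in
/-- **(DIV2)**: `ord X₂ = q` at `s₂ (P, ∞)`, `= - midDeg q` at the `s₂ (P, m)`, `= -1` at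
`s₂ (P, 0)`. -/
theorem edm_div2 (P : SS) :
    (nlTgt N htgt P Vrt.oo).ord (H P).X2 = (q : ℤ) ∧
      (∀ m, (nlTgt N htgt P (Vrt.mid m)).ord (H P).X2 = -(midDeg q : ℤ)) ∧
      (nlTgt N htgt P Vrt.zero).ord (H P).X2 = -1 := by
  obtain ⟨h1, h2, h3⟩ := edm_dict hxA hx1 hx2 htgt hN hq P
  refine ⟨?_, fun m => ?_, ?_⟩
  · rw [h1]
    exact (H P).ord_X2_pInf (ends_hq1 hq)
  · rw [(H P).ord_X2_mid _ ((h3 _).mpr ⟨m, rfl⟩)]
    exact edm_hm1 hxA hx1 htgt hN hq P m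
  · rw [h2]
    exact (H P).ord_X2_pZero (ends_hq1 hq)

include hN hxA hx1 hx2 hq in
/-- **(DIV1)**: `X₁` has no other zero or pole. -/
theorem edm_div1_other (P : SS) (v : Place k (FkOf Fk0 FkM FkP (Vtx.hor P)))
    (hv : ∀ w, v ≠ nlTgt N htgt P w) : v.ord (H P).X1 = 0 := by
  obtain ⟨-, h2, -⟩ := edm_dict hxA hx1 hx2 htgt hN hq P
  by_contra hne
  rcases lt_or_gt_of_ne hne with h | h
  · obtain ⟨w, hw⟩ := edm_hcover hxA hx1 htgt hN P v h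
    exact hv w hw
  · exact hv Vrt.zero (((H P).ord_X1_pos_iff (ends_hq1 hq) v).mp h |>.trans h2.symm)

include hN hxA hx1 hx2 hq in
/-- **(DIV2)**: `X₂` has no other zero or pole. -/
theorem edm_div2_other (P : SS) (v : Place k (FkOf Fk0 FkM FkP (Vtx.hor P)))
    (hv : ∀ w, v ≠ nlTgt N htgt P w) : v.ord (H P).X2 = 0 := by
  obtain ⟨h1, h2, h3⟩ := edm_dict hxA hx1 hx2 htgt hN hq P
  by_contra hne
  rcases lt_or_gt_of_ne hne with h | h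
  · rcases ((H P).ord_X2_neg_iff (ends_hq1 hq) v).mp h with h' | h'
    · exact hv Vrt.zero (h'.trans h2.symm)
    · obtain ⟨m, hm⟩ := (h3 v).mp h'
      exact hv (Vrt.mid m) hm
  · exact hv Vrt.oo (((H P).ord_X2_pos_iff (ends_hq1 hq) v).mp h |>.trans h1.symm)

/-! ### the horizontal value fields of the norm layers -/

section Val

variable {E' : SS → Type*} [∀ P, Field (E' P)] [∀ P, Algebra k (E' P)]
  [∀ P, Algebra (E' P) (FkOf Fk0 FkM FkP (Vtx.hor P))]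
  [∀ P, IsScalarTower k (E' P) (FkOf Fk0 FkM FkP (Vtx.hor P))]
  [∀ P, FiniteDimensional (E' P) (FkOf Fk0 FkM FkP (Vtx.hor P))]

include htgt hN hxA hx1 hx2 hq in
/-- **fields `val_NP_oo`, `val_NP_zero` of `NormLayer1`** for the modular graph
(`e = midDeg q`, `NP = N_{k(H_P)/k(X₁)}`). -/
theorem edm_val_NP_X1 {x : ∀ P, E' P} (hgen : ∀ P, k⟮x P⟯ = ⊤)
    (hx : ∀ P, algebraMap (E' P) (FkOf Fk0 FkM FkP (Vtx.hor P)) (x P) = (H P).X1)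
    (NP : ∀ P : SS, FkOf Fk0 FkM FkP (Vtx.hor P) →* FkOf Fk0 FkM FkP (Vtx.hor P))
    (hNP : ∀ P y, NP P y =
      algebraMap (E' P) (FkOf Fk0 FkM FkP (Vtx.hor P)) (Algebra.norm (E' P) y)) :
    (∀ (P : SS) (h H' : ∀ c, FkOf Fk0 FkM FkP c) (ca : k) (cm : Mid → k),
      H' (Vtx.hor P) = NP P (h (Vtx.hor P)) →
      ValAt (N.s₂ (P, Vrt.oo)) (h (N.tgt (P, Vrt.oo))) ca →
      (∀ m, ValAt (N.s₂ (P, Vrt.mid m)) (h (N.tgt (P, Vrt.mid m))) (cm m)) →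
      ValAt (N.s₂ (P, Vrt.oo)) (H' (N.tgt (P, Vrt.oo))) (ca * ∏ m, cm m ^ midDeg q) ∧
        ∀ m, ValAt (N.s₂ (P, Vrt.mid m)) (H' (N.tgt (P, Vrt.mid m)))
          (ca * ∏ m, cm m ^ midDeg q)) ∧
    (∀ (P : SS) (h H' : ∀ c, FkOf Fk0 FkM FkP c) (c : k),
      H' (Vtx.hor P) = NP P (h (Vtx.hor P)) →
      ValAt (N.s₂ (P, Vrt.zero)) (h (N.tgt (P, Vrt.zero))) c →
      ValAt (N.s₂ (P, Vrt.zero)) (H' (N.tgt (P, Vrt.zero))) (c ^ q)) :=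
  nl_val_NP_X1_div N htgt (ends_hq1 hq) H hgen hx (edm_hI hxA htgt hN) (edm_hZ hx2 htgt hN)
    (midDeg q) (edm_hm1 hxA hx1 htgt hN hq) (ends_midDeg_pos hq) (edm_hm2 hxA hx1 htgt hN)
    (edm_hcover hxA hx1 htgt hN) NP hNP

include htgt hN hxA hx1 hx2 hq in
/-- **fields `val_NP_zero`, `val_NP_oo` of `NormLayer2`** for the modular graph
(`e = midDeg q`, `NP = N_{k(H_P)/k(X₂)}`). -/
theorem edm_val_NP_X2 {x : ∀ P, E' P} (hgen : ∀ P, k⟮x P⟯ = ⊤)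
    (hx : ∀ P, algebraMap (E' P) (FkOf Fk0 FkM FkP (Vtx.hor P)) (x P) = (H P).X2)
    (NP : ∀ P : SS, FkOf Fk0 FkM FkP (Vtx.hor P) →* FkOf Fk0 FkM FkP (Vtx.hor P))
    (hNP : ∀ P y, NP P y =
      algebraMap (E' P) (FkOf Fk0 FkM FkP (Vtx.hor P)) (Algebra.norm (E' P) y)) :
    (∀ (P : SS) (h H' : ∀ c, FkOf Fk0 FkM FkP c) (ca : k) (cm : Mid → k),
      H' (Vtx.hor P) = NP P (h (Vtx.hor P)) →
      ValAt (N.s₂ (P, Vrt.zero)) (h (N.tgt (P, Vrt.zero))) ca →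
      (∀ m, ValAt (N.s₂ (P, Vrt.mid m)) (h (N.tgt (P, Vrt.mid m))) (cm m)) →
      ValAt (N.s₂ (P, Vrt.zero)) (H' (N.tgt (P, Vrt.zero))) (ca * ∏ m, cm m ^ midDeg q) ∧
        ∀ m, ValAt (N.s₂ (P, Vrt.mid m)) (H' (N.tgt (P, Vrt.mid m)))
          (ca * ∏ m, cm m ^ midDeg q)) ∧
    (∀ (P : SS) (h H' : ∀ c, FkOf Fk0 FkM FkP c) (c : k),
      H' (Vtx.hor P) = NP P (h (Vtx.hor P)) →
      ValAt (N.s₂ (P, Vrt.oo)) (h (N.tgt (P, Vrt.oo))) c →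
      ValAt (N.s₂ (P, Vrt.oo)) (H' (N.tgt (P, Vrt.oo))) (c ^ q)) :=
  nl_val_NP_X2_div N htgt (ends_hq1 hq) H hgen hx (edm_hI hxA htgt hN) (edm_hZ hx2 htgt hN)
    (midDeg q) (edm_hm1 hxA hx1 htgt hN hq) (ends_midDeg_pos hq) (edm_hm2 hxA hx1 htgt hN)
    (edm_hcover hxA hx1 htgt hN) NP hNP

end Val

end EndsDictMod

end Fermat.Agent.S36G
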