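/-
Cluster G (S36), block COC, seat ENDS-DICT, FINAL PLUG for the modular seed (helper15).

`N := (E.ymodSeed hn hb h12 hu2 hD₀ hdeg hgenus).graphSetup` (SEED-MAIN, `S36/Seed/Main.lean`) is
the graph of the modular seed.  For it the hypotheses `hsrc`, `htgt`, `hN` of
`S36/G/EndsDictMod.lean` hold by `rfl`, and `EndsRed1` follows from `EndsRed2` (`hu2`), so the
ENDS DICTIONARY needs ONLY the two SEED-UP shapes

  `hxA : EndsRedA E.S H (ϖA / uA)`   (`red_P (ϖA / uA) = c · X₂ ^ 12`),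
  `hx2 : EndsRed2 E.S H E.u2`        (`red_P (u₁ / ϖ₁) = c · X₁ ^ 12`).

* `edy_hx1`  : `EndsRed1 E.S H (ϖ1 / u1)` from `hx2` and `hu2 : E.u2 = E.u1 / ϖ1`;
* `edy_hsrc`, `edy_htgt`, `edy_hN`, `edy_nlSrc`, `edy_nlTgt` : `rfl` lemmas for `N`;
* `edy_hI`, `edy_hZ`, `edy_hm1`, `edy_hm2`, `edy_hcover` : the hypotheses of
  `nl_val_NP_X1_div`, `nl_val_NP_X2_div` (`S36/G/EndsDict.lean`) for `N`, `e = midDeg q`;
* `edy_dict`, `edy_div1`, `edy_div2` : the dictionary and (DIV1), (DIV2) for `N`;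
* `edy_val_NP_X1`, `edy_val_NP_X2` : the horizontal value fields of `NormLayer1`, `NormLayer2`
  for `N`.
-/
import Mathlib
import Fermat.Agent.S36.G.EndsDictMod
import Fermat.Agent.S36.Seed.Main
import Fermat.Agent.Lib.BadRed.Graph.Deuring.Main

set_option autoImplicit false
set_option linter.unusedSectionVars false
set_option linter.unusedVariables false
set_option linter.style.haveILetI false

noncomputable section

open IntermediateField AlgebraicCurve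

namespace Fermat.Agent.S36G

open Fermat.Agent.RR Fermat.Agent.S36 Fermat.Agent.HP Fermat.Agent.Deuring
open Fermat.Agent.BadRed Fermat.Agent.BadRedG

section EndsDictYmod

variable {K F k : Type} [Field K] [Field F] [Algebra K F] [Field k] [IsAlgClosed k]
  {Mid SS : Type} [Fintype Mid] [Fintype SS] [Nonempty SS]
  {Fk0 : Type} [Field Fk0] [Algebra k Fk0]
  {FkM : Mid → Type} [∀ m, Field (FkM m)] [∀ m, Algebra k (FkM m)]
  {FkP : SS → Type} [∀ P, Field (FkP P)] [∀ P, Algebra k (FkP P)]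
  {E : ModEndsInput K F k Mid SS Fk0 FkM FkP}
  {q : ℕ} {H : ∀ P : SS, HPCurve k (FkOf Fk0 FkM FkP (Vtx.hor P)) q}

/-- `EndsRed1` for `ϖ1 / u1` from `EndsRed2` for `u2 = u1 / ϖ1`. -/
theorem edy_hx1 (hu2 : E.u2 = E.u1 / algebraMap K F E.ϖ1) (hx2 : EndsRed2 E.S H E.u2) :
    EndsRed1 E.S H (algebraMap K F E.ϖ1 / E.u1) := by
  have h := hx2.inv
  rwa [hu2, inv_div] at h

variable {b : K} {n : ℕ}
  (hn : 2 ≤ n) (hb : E.ϖ1 ^ n = b) (h12 : E.ϖ1 * E.ϖ2 = b)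
  (hu2 : E.u2 = E.u1 / algebraMap K F E.ϖ1)
  (hD₀ : E.D₀ = poleDiv (E.S (Vtx.vert Vrt.oo)).hF (E.ymodX b n))
  (hdeg : Divisor.degree (poleDiv (E.S (Vtx.vert Vrt.oo)).hF (E.ymodX b n)) ≤
    ∑ c, Divisor.degree (poleDiv (E.S c).hFk ((E.S c).red (E.ymodX b n))))
  (hgenus : genusFF K F + Fintype.card (Vtx Mid SS) ≤
    (∑ c, genusFF k (FkOf Fk0 FkM FkP c)) + Fintype.card (Nod Mid SS) + 1)

/-! ### the `rfl` lemmas -/

theorem edy_hsrc (i : Nod Mid SS) :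
    (E.ymodSeed hn hb h12 hu2 hD₀ hdeg hgenus).graphSetup.src i = nodSrc i := rfl

theorem edy_htgt (i : Nod Mid SS) :
    (E.ymodSeed hn hb h12 hu2 hD₀ hdeg hgenus).graphSetup.tgt i = nodTgt i := rfl

theorem edy_hN (i : Nod Mid SS) :
    (⟨(E.ymodSeed hn hb h12 hu2 hD₀ hdeg hgenus).graphSetup.tgt i,
      (E.ymodSeed hn hb h12 hu2 hD₀ hdeg hgenus).graphSetup.s₂ i⟩ :
        Σ c, Place k (FkOf Fk0 FkM FkP c)) = E.toMatchInput.ptH i := rfl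

theorem edy_nlSrc (P : SS) (v : Vrt Mid) :
    nlSrc (E.ymodSeed hn hb h12 hu2 hD₀ hdeg hgenus).graphSetup
      (edy_hsrc hn hb h12 hu2 hD₀ hdeg hgenus) P v = E.pv P v := rfl

theorem edy_nlTgt (P : SS) (v : Vrt Mid) :
    nlTgt (E.ymodSeed hn hb h12 hu2 hD₀ hdeg hgenus).graphSetup
      (edy_htgt hn hb h12 hu2 hD₀ hdeg hgenus) P v = E.toMatchInput.s₂ (P, v) := rfl

/-! ### the dictionary for the graph of the modular seed -/

variable (hxA : EndsRedA E.S H (algebraMap K F E.ϖA / E.uA)) (hx2 : EndsRed2 E.S H E.u2)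

include hxA in
/-- **`hI`** for the graph of the modular seed. -/
theorem edy_hI (P : SS) :
    0 < (nlTgt (E.ymodSeed hn hb h12 hu2 hD₀ hdeg hgenus).graphSetup
      (edy_htgt hn hb h12 hu2 hD₀ hdeg hgenus) P Vrt.oo).ord (H P).X2 :=
  edm_hI hxA (edy_htgt hn hb h12 hu2 hD₀ hdeg hgenus) (edy_hN hn hb h12 hu2 hD₀ hdeg hgenus) P

include hx2 in
/-- **`hZ`** for the graph of the modular seed. -/
theorem edy_hZ (P : SS) :
    0 < (nlTgt (E.ymodSeed hn hb h12 hu2 hD₀ hdeg hgenus).graphSetup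
      (edy_htgt hn hb h12 hu2 hD₀ hdeg hgenus) P Vrt.zero).ord (H P).X1 :=
  edm_hZ hx2 (edy_htgt hn hb h12 hu2 hD₀ hdeg hgenus) (edy_hN hn hb h12 hu2 hD₀ hdeg hgenus) P

include hxA hx2 in
/-- **`hm2`** for the graph of the modular seed. -/
theorem edy_hm2 (P : SS) (m : Mid) :
    ¬ 0 < (nlTgt (E.ymodSeed hn hb h12 hu2 hD₀ hdeg hgenus).graphSetup
      (edy_htgt hn hb h12 hu2 hD₀ hdeg hgenus) P (Vrt.mid m)).ord (H P).X2 :=
  edm_hm2 hxA (edy_hx1 hu2 hx2) (edy_htgt hn hb h12 hu2 hD₀ hdeg hgenus)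
    (edy_hN hn hb h12 hu2 hD₀ hdeg hgenus) P m

include hxA hx2 in
/-- **`hcover`** for the graph of the modular seed. -/
theorem edy_hcover (P : SS) (v : Place k (FkOf Fk0 FkM FkP (Vtx.hor P)))
    (hv : v.ord (H P).X1 < 0) :
    ∃ w, v = nlTgt (E.ymodSeed hn hb h12 hu2 hD₀ hdeg hgenus).graphSetup
      (edy_htgt hn hb h12 hu2 hD₀ hdeg hgenus) P w :=
  edm_hcover hxA (edy_hx1 hu2 hx2) (edy_htgt hn hb h12 hu2 hD₀ hdeg hgenus)
    (edy_hN hn hb h12 hu2 hD₀ hdeg hgenus) P v hv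

variable (hq : q.Prime) [CharP k q]

include hxA hx2 hq in
/-- **`hm1`** (`e = midDeg q`) for the graph of the modular seed. -/
theorem edy_hm1 (P : SS) (m : Mid) :
    (nlTgt (E.ymodSeed hn hb h12 hu2 hD₀ hdeg hgenus).graphSetup
      (edy_htgt hn hb h12 hu2 hD₀ hdeg hgenus) P (Vrt.mid m)).ord (H P).X1 =
        -(midDeg q : ℤ) :=
  edm_hm1 hxA (edy_hx1 hu2 hx2) (edy_htgt hn hb h12 hu2 hD₀ hdeg hgenus)
    (edy_hN hn hb h12 hu2 hD₀ hdeg hgenus) hq P m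

include hxA hx2 hq in
/-- **THE ENDS DICTIONARY** for the graph of the modular seed. -/
theorem edy_dict (P : SS) :
    nlTgt (E.ymodSeed hn hb h12 hu2 hD₀ hdeg hgenus).graphSetup
        (edy_htgt hn hb h12 hu2 hD₀ hdeg hgenus) P Vrt.oo = (H P).pInf (ends_hq1 hq) ∧
      nlTgt (E.ymodSeed hn hb h12 hu2 hD₀ hdeg hgenus).graphSetup
        (edy_htgt hn hb h12 hu2 hD₀ hdeg hgenus) P Vrt.zero = (H P).pZero (ends_hq1 hq) ∧
      ∀ v : Place k (FkOf Fk0 FkM FkP (Vtx.hor P)),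
        0 < v.ord ((H P).s - algebraMap k (FkOf Fk0 FkM FkP (Vtx.hor P)) 1) ↔
          ∃ m, v = nlTgt (E.ymodSeed hn hb h12 hu2 hD₀ hdeg hgenus).graphSetup
            (edy_htgt hn hb h12 hu2 hD₀ hdeg hgenus) P (Vrt.mid m) :=
  edm_dict hxA (edy_hx1 hu2 hx2) hx2 (edy_htgt hn hb h12 hu2 hD₀ hdeg hgenus)
    (edy_hN hn hb h12 hu2 hD₀ hdeg hgenus) hq P

include hn hb h12 hu2 hD₀ hdeg hgenus hxA hx2 hq in
/-- **the labelled ends of the modular seed**: `s₂ (P, ∞) = pInf`, `s₂ (P, 0) = pZero`, the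
`s₂ (P, m)` are exactly the zeros of `s - 1`. -/
theorem edy_s₂ (P : SS) :
    E.toMatchInput.s₂ (P, Vrt.oo) = (H P).pInf (ends_hq1 hq) ∧
      E.toMatchInput.s₂ (P, Vrt.zero) = (H P).pZero (ends_hq1 hq) ∧
      ∀ v : Place k (FkOf Fk0 FkM FkP (Vtx.hor P)),
        0 < v.ord ((H P).s - algebraMap k (FkOf Fk0 FkM FkP (Vtx.hor P)) 1) ↔
          ∃ m, v = E.toMatchInput.s₂ (P, Vrt.mid m) :=
  edy_dict hn hb h12 hu2 hD₀ hdeg hgenus hxA hx2 hq P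

include hn hb h12 hu2 hD₀ hdeg hgenus hxA hx2 hq in
/-- **(DIV1)** for the graph of the modular seed. -/
theorem edy_div1 (P : SS) :
    (E.toMatchInput.s₂ (P, Vrt.oo)).ord (H P).X1 = -1 ∧
      (∀ m, (E.toMatchInput.s₂ (P, Vrt.mid m)).ord (H P).X1 = -(midDeg q : ℤ)) ∧
      (E.toMatchInput.s₂ (P, Vrt.zero)).ord (H P).X1 = (q : ℤ) :=
  edm_div1 hxA (edy_hx1 hu2 hx2) hx2 (edy_htgt hn hb h12 hu2 hD₀ hdeg hgenus)
    (edy_hN hn hb h12 hu2 hD₀ hdeg hgenus) hq P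

include hn hb h12 hu2 hD₀ hdeg hgenus hxA hx2 hq in
/-- **(DIV2)** for the graph of the modular seed. -/
theorem edy_div2 (P : SS) :
    (E.toMatchInput.s₂ (P, Vrt.oo)).ord (H P).X2 = (q : ℤ) ∧
      (∀ m, (E.toMatchInput.s₂ (P, Vrt.mid m)).ord (H P).X2 = -(midDeg q : ℤ)) ∧
      (E.toMatchInput.s₂ (P, Vrt.zero)).ord (H P).X2 = -1 :=
  edm_div2 hxA (edy_hx1 hu2 hx2) hx2 (edy_htgt hn hb h12 hu2 hD₀ hdeg hgenus)
    (edy_hN hn hb h12 hu2 hD₀ hdeg hgenus) hq P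

/-! ### the horizontal value fields of the norm layers -/

section Val

variable {E' : SS → Type*} [∀ P, Field (E' P)] [∀ P, Algebra k (E' P)]
  [∀ P, Algebra (E' P) (FkOf Fk0 FkM FkP (Vtx.hor P))]
  [∀ P, IsScalarTower k (E' P) (FkOf Fk0 FkM FkP (Vtx.hor P))]
  [∀ P, FiniteDimensional (E' P) (FkOf Fk0 FkM FkP (Vtx.hor P))]

include hxA hx2 hq in
/-- **fields `val_NP_oo`, `val_NP_zero` of `NormLayer1`** for the graph of the modular seed. -/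
theorem edy_val_NP_X1 {x : ∀ P, E' P} (hgen : ∀ P, k⟮x P⟯ = ⊤)
    (hx : ∀ P, algebraMap (E' P) (FkOf Fk0 FkM FkP (Vtx.hor P)) (x P) = (H P).X1)
    (NP : ∀ P : SS, FkOf Fk0 FkM FkP (Vtx.hor P) →* FkOf Fk0 FkM FkP (Vtx.hor P))
    (hNP : ∀ P y, NP P y =
      algebraMap (E' P) (FkOf Fk0 FkM FkP (Vtx.hor P)) (Algebra.norm (E' P) y)) :
    (∀ (P : SS) (h H' : ∀ c, FkOf Fk0 FkM FkP c) (ca : k) (cm : Mid → k),
      H' (Vtx.hor P) = NP P (h (Vtx.hor P)) →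
      ValAt ((E.ymodSeed hn hb h12 hu2 hD₀ hdeg hgenus).graphSetup.s₂ (P, Vrt.oo))
        (h ((E.ymodSeed hn hb h12 hu2 hD₀ hdeg hgenus).graphSetup.tgt (P, Vrt.oo))) ca →
      (∀ m, ValAt ((E.ymodSeed hn hb h12 hu2 hD₀ hdeg hgenus).graphSetup.s₂ (P, Vrt.mid m))
        (h ((E.ymodSeed hn hb h12 hu2 hD₀ hdeg hgenus).graphSetup.tgt (P, Vrt.mid m)))
          (cm m)) →
      ValAt ((E.ymodSeed hn hb h12 hu2 hD₀ hdeg hgenus).graphSetup.s₂ (P, Vrt.oo))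
        (H' ((E.ymodSeed hn hb h12 hu2 hD₀ hdeg hgenus).graphSetup.tgt (P, Vrt.oo)))
          (ca * ∏ m, cm m ^ midDeg q) ∧
        ∀ m, ValAt ((E.ymodSeed hn hb h12 hu2 hD₀ hdeg hgenus).graphSetup.s₂ (P, Vrt.mid m))
          (H' ((E.ymodSeed hn hb h12 hu2 hD₀ hdeg hgenus).graphSetup.tgt (P, Vrt.mid m)))
            (ca * ∏ m, cm m ^ midDeg q)) ∧
    (∀ (P : SS) (h H' : ∀ c, FkOf Fk0 FkM FkP c) (c : k),
      H' (Vtx.hor P) = NP P (h (Vtx.hor P)) →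
      ValAt ((E.ymodSeed hn hb h12 hu2 hD₀ hdeg hgenus).graphSetup.s₂ (P, Vrt.zero))
        (h ((E.ymodSeed hn hb h12 hu2 hD₀ hdeg hgenus).graphSetup.tgt (P, Vrt.zero))) c →
      ValAt ((E.ymodSeed hn hb h12 hu2 hD₀ hdeg hgenus).graphSetup.s₂ (P, Vrt.zero))
        (H' ((E.ymodSeed hn hb h12 hu2 hD₀ hdeg hgenus).graphSetup.tgt (P, Vrt.zero)))
          (c ^ q)) :=
  edm_val_NP_X1 hxA (edy_hx1 hu2 hx2) hx2 (edy_htgt hn hb h12 hu2 hD₀ hdeg hgenus)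
    (edy_hN hn hb h12 hu2 hD₀ hdeg hgenus) hq hgen hx NP hNP

include hxA hx2 hq in
/-- **fields `val_NP_zero`, `val_NP_oo` of `NormLayer2`** for the graph of the modular seed. -/
theorem edy_val_NP_X2 {x : ∀ P, E' P} (hgen : ∀ P, k⟮x P⟯ = ⊤)
    (hx : ∀ P, algebraMap (E' P) (FkOf Fk0 FkM FkP (Vtx.hor P)) (x P) = (H P).X2)
    (NP : ∀ P : SS, FkOf Fk0 FkM FkP (Vtx.hor P) →* FkOf Fk0 FkM FkP (Vtx.hor P))
    (hNP : ∀ P y, NP P y =
      algebraMap (E' P) (FkOf Fk0 FkM FkP (Vtx.hor P)) (Algebra.norm (E' P) y)) :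
    (∀ (P : SS) (h H' : ∀ c, FkOf Fk0 FkM FkP c) (ca : k) (cm : Mid → k),
      H' (Vtx.hor P) = NP P (h (Vtx.hor P)) →
      ValAt ((E.ymodSeed hn hb h12 hu2 hD₀ hdeg hgenus).graphSetup.s₂ (P, Vrt.zero))
        (h ((E.ymodSeed hn hb h12 hu2 hD₀ hdeg hgenus).graphSetup.tgt (P, Vrt.zero))) ca →
      (∀ m, ValAt ((E.ymodSeed hn hb h12 hu2 hD₀ hdeg hgenus).graphSetup.s₂ (P, Vrt.mid m))
        (h ((E.ymodSeed hn hb h12 hu2 hD₀ hdeg hgenus).graphSetup.tgt (P, Vrt.mid m)))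
          (cm m)) →
      ValAt ((E.ymodSeed hn hb h12 hu2 hD₀ hdeg hgenus).graphSetup.s₂ (P, Vrt.zero))
        (H' ((E.ymodSeed hn hb h12 hu2 hD₀ hdeg hgenus).graphSetup.tgt (P, Vrt.zero)))
          (ca * ∏ m, cm m ^ midDeg q) ∧
        ∀ m, ValAt ((E.ymodSeed hn hb h12 hu2 hD₀ hdeg hgenus).graphSetup.s₂ (P, Vrt.mid m))
          (H' ((E.ymodSeed hn hb h12 hu2 hD₀ hdeg hgenus).graphSetup.tgt (P, Vrt.mid m)))
            (ca * ∏ m, cm m ^ midDeg q)) ∧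
    (∀ (P : SS) (h H' : ∀ c, FkOf Fk0 FkM FkP c) (c : k),
      H' (Vtx.hor P) = NP P (h (Vtx.hor P)) →
      ValAt ((E.ymodSeed hn hb h12 hu2 hD₀ hdeg hgenus).graphSetup.s₂ (P, Vrt.oo))
        (h ((E.ymodSeed hn hb h12 hu2 hD₀ hdeg hgenus).graphSetup.tgt (P, Vrt.oo))) c →
      ValAt ((E.ymodSeed hn hb h12 hu2 hD₀ hdeg hgenus).graphSetup.s₂ (P, Vrt.oo))
        (H' ((E.ymodSeed hn hb h12 hu2 hD₀ hdeg hgenus).graphSetup.tgt (P, Vrt.oo)))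
          (c ^ q)) :=
  edm_val_NP_X2 hxA (edy_hx1 hu2 hx2) hx2 (edy_htgt hn hb h12 hu2 hD₀ hdeg hgenus)
    (edy_hN hn hb h12 hu2 hD₀ hdeg hgenus) hq hgen hx NP hNP

end Val

end EndsDictYmod

end Fermat.Agent.S36G
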