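import Mathlib
import Fermat.Agent.Lib.BadRed.Graph.Setup
import Fermat.Agent.Lib.HP.Step2
import Fermat.Agent.Lib.HP.YEnds

set_option autoImplicit false
set_option linter.unusedSectionVars false
set_option linter.unusedVariables false
set_option linter.style.haveILetI false

/-!
# Cluster G (S36), Step 2 (horizontal), abstract wiring  (helper48)

`N : GraphSetup K F k κ Fk ι`, `c : κ` a component whose residue field `Fk c` is the function field
of the curve `H_P` (`H : HPCurve k (Fk c) q`), such that all the branch points of `N` on `c` are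
ENDS of `H_P`.  For a Kummer generator `g = a f` (`n ∣ div g`, `f` a unit of `O_c`) with

* (inv)  `σ (red f) = b_σ v_σ ^ n red f` for all `σ ∈ Gal(k(H_P)/k(s))`  (inertia; `wpi_inv_galK`),
* (N3), (N3')  the norms of `red f` to `k(X₁)`, `k(X₂)` are constants times `n`-th powers,

`g ^ (q + 1)` is, up to a constant, an `n`-th power on `c`: `N.IsPowAt n c (g ^ (q + 1))`.
-/

noncomputable section

open AlgebraicCurve IntermediateField Fermat.Agent.RR Fermat.Agent.Deuring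

namespace Fermat.Agent.S36G

open Fermat.Agent.BadRed Fermat.Agent.BadRedG Fermat.Agent.HP Fermat.Agent.S24Diff

/-- divisibility passes to push-forwards of divisors. -/
theorem s2h_dvd_mapDomain {α β : Type*} (r : α → β) (D : α →₀ ℤ) (n : ℤ) (h : ∀ a, n ∣ D a)
    (b : β) : n ∣ Finsupp.mapDomain r D b := by
  classical
  rw [Finsupp.mapDomain, Finsupp.sum_apply]
  refine Finset.dvd_sum fun a _ => ?_
  show n ∣ (Finsupp.single (r a) (D a)) b
  rw [Finsupp.single_apply]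
  split_ifs
  · exact h a
  · exact dvd_zero n

variable {K F k : Type*} [Field K] [Field F] [Algebra K F] [Field k]
  {κ : Type*} {Fk : κ → Type*} [∀ c, Field (Fk c)] [∀ c, Algebra k (Fk c)] {ι : Type*}

/-- (off): `n` divides the orders of `red f` at the smooth points of the component `c`. -/
theorem s2h_dvd_ord_red (N : GraphSetup K F k κ Fk ι) (c : κ) (n : ℕ) {f : F} (hf0 : f ≠ 0)
    (hf : f ∈ (N.S c).Ov) (hf' : f⁻¹ ∈ (N.S c).Ov)
    (hdvd : ∀ P : Place K F, (n : ℤ) ∣ P.ord f) (Q : Place k (Fk c))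
    (h₁ : ∀ i, (⟨c, Q⟩ : Σ c, Place k (Fk c)) ≠ ⟨N.src i, N.s₁ i⟩)
    (h₂ : ∀ i, (⟨c, Q⟩ : Σ c, Place k (Fk c)) ≠ ⟨N.tgt i, N.s₂ i⟩) :
    (n : ℤ) ∣ Q.ord ((N.S c).red f) := by
  rw [← N.push c f hf hf' hf0 Q h₁ h₂]
  refine s2h_dvd_mapDomain _ _ _ (fun P => ?_) _
  rw [divOf_apply]
  exact hdvd P

/-- from `(red f)^m = c' u^n` to `IsPowAt n c (g^m)`, `g = a f`. -/
theorem s2h_isPowAt_of_pow (N : GraphSetup K F k κ Fk ι) (c : κ) (n m : ℕ) {g f : F} {a : K}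
    (ha : a ≠ 0) (hf0 : f ≠ 0) (hf : f ∈ (N.S c).Ov) (hf' : f⁻¹ ∈ (N.S c).Ov)
    (hgf : g = algebraMap K F a * f) {c' : k} {u : Fk c} (hc' : c' ≠ 0) (hu : u ≠ 0)
    (hpow : (N.S c).red f ^ m = algebraMap k (Fk c) c' * u ^ n) :
    N.IsPowAt n c (g ^ m) := by
  obtain ⟨⟨z, hz⟩, hzc⟩ := (N.S c).res_surj c'
  have hz0 : z ≠ 0 := by
    rintro rfl
    apply hc'
    rw [← hzc]
    exact map_zero _
  -- `z⁻¹ ∈ A`
  have hzinv : z⁻¹ ∈ (N.S c).A := by
    have h1 : algebraMap K F z ∈ (N.S c).Ov := (N.S c).algebraMap_mem hz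
    have h2 : (N.S c).red (algebraMap K F z) ≠ 0 := by
      rw [(N.S c).red_algebraMap hz, hzc]
      rwa [Ne, map_eq_zero_iff _ (algebraMap k (Fk c)).injective]
    have h3 := (N.S c).inv_mem_of_red_ne_zero h2
    rw [← map_inv₀] at h3
    exact ((N.S c).mem_Ov_iff _).mp h3
  refine ⟨a ^ m * z, mul_ne_zero (pow_ne_zero m ha) hz0, u, hu, ?_⟩
  have hAz : algebraMap K F z ≠ 0 := by
    rwa [Ne, map_eq_zero_iff _ (algebraMap K F).injective]
  have hAa : algebraMap K F a ≠ 0 := by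
    rwa [Ne, map_eq_zero_iff _ (algebraMap K F).injective]
  have h1 : g ^ m / algebraMap K F (a ^ m * z) = f ^ m * algebraMap K F z⁻¹ := by
    rw [hgf, map_mul, map_pow, mul_pow, map_inv₀]
    field_simp
  rw [h1, (N.S c).red_mul (pow_mem hf m) ((N.S c).algebraMap_mem hzinv), (N.S c).red_pow hf,
    hpow, map_inv₀, (N.S c).red_inv ((N.S c).algebraMap_mem hz)
      (by rw [← map_inv₀]; exact (N.S c).algebraMap_mem hzinv) hAz,
    (N.S c).red_algebraMap hz, hzc]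
  have hcF : algebraMap k (Fk c) c' ≠ 0 := by
    rwa [Ne, map_eq_zero_iff _ (algebraMap k (Fk c)).injective]
  field_simp

/-- **Step 2 (horizontal), abstract wiring.** -/
theorem isPowAt_hor (N : GraphSetup K F k κ Fk ι) (c : κ) {q : ℕ} (H : HPCurve k (Fk c) q)
    [IsAlgClosed k] (hq1 : ((q + 1 : ℕ) : k) ≠ 0)
    (hsm₁ : ∀ (Q : Place k (Fk c)) (i : ι),
      (⟨c, Q⟩ : Σ c, Place k (Fk c)) = ⟨N.src i, N.s₁ i⟩ → H.IsEnd Q)
    (hsm₂ : ∀ (Q : Place k (Fk c)) (i : ι),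
      (⟨c, Q⟩ : Σ c, Place k (Fk c)) = ⟨N.tgt i, N.s₂ i⟩ → H.IsEnd Q)
    {E₁ E₂ : Type*} [Field E₁] [Algebra k E₁] [Algebra E₁ (Fk c)]
    [IsScalarTower k E₁ (Fk c)] [FiniteDimensional E₁ (Fk c)] [Algebra.IsSeparable E₁ (Fk c)]
    [Field E₂] [Algebra k E₂] [Algebra E₂ (Fk c)]
    [IsScalarTower k E₂ (Fk c)] [FiniteDimensional E₂ (Fk c)] [Algebra.IsSeparable E₂ (Fk c)]
    {x₁ : E₁} (hE₁ : IsFunctionFieldOver k E₁ x₁) (hgen₁ : k⟮x₁⟯ = ⊤)
    (hx₁ : algebraMap E₁ (Fk c) x₁ = H.X1)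
    {x₂ : E₂} (hE₂ : IsFunctionFieldOver k E₂ x₂) (hgen₂ : k⟮x₂⟯ = ⊤)
    (hx₂ : algebraMap E₂ (Fk c) x₂ = H.X2)
    (n : ℕ) {g : F} (hg : g ≠ 0) (hdvd : ∀ P : Place K F, (n : ℤ) ∣ P.ord g)
    {f : F} {a : K} (ha : a ≠ 0) (hf : f ∈ (N.S c).Ov) (hf' : f⁻¹ ∈ (N.S c).Ov)
    (hgf : g = algebraMap K F a * f)
    (hinv : ∀ σ ∈ H.galK, ∃ (b : k) (v : Fk c),
      σ ((N.S c).red f) = algebraMap k (Fk c) b * v ^ n * (N.S c).red f)
    (c₁ c₂ : k) (u₁ : E₁) (u₂ : E₂)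
    (hN₁ : Algebra.norm E₁ ((N.S c).red f) = algebraMap k E₁ c₁ * u₁ ^ n)
    (hN₂ : Algebra.norm E₂ ((N.S c).red f) = algebraMap k E₂ c₂ * u₂ ^ n) :
    N.IsPowAt n c (g ^ (q + 1)) := by
  have hAa : algebraMap K F a ≠ 0 := by
    rwa [Ne, map_eq_zero_iff _ (algebraMap K F).injective]
  have hf0 : f ≠ 0 := by
    rintro rfl
    apply hg
    rw [hgf, mul_zero]
  have hdvd' : ∀ P : Place K F, (n : ℤ) ∣ P.ord f := by
    intro P
    have h1 := hdvd P
    rw [hgf, P.ord_mul hAa hf0, Fermat.Agent.S24Res.ord_algebraMap, zero_add] at h1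
    exact h1
  have hred0 : (N.S c).red f ≠ 0 := (N.S c).red_ne_zero hf hf' hf0
  have hoff : ∀ v : Place k (Fk c), v.ord H.s = 0 → v.ord (H.s - algebraMap k (Fk c) 1) = 0 →
      (n : ℤ) ∣ v.ord ((N.S c).red f) := by
    intro v hv0 hv1
    have hnot : ¬ H.IsEnd v := by
      rw [H.isEnd_iff hq1]
      rintro (h | h | h)
      · have := H.ord_s_pInf hq1
        rw [← h, hv0] at this
        omega
      · have := H.ord_s_pZero hq1
        rw [← h, hv0] at this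
        omega
      · omega
    exact s2h_dvd_ord_red N c n hf0 hf hf' hdvd' v
      (fun i h => hnot (hsm₁ v i h)) (fun i h => hnot (hsm₂ v i h))
  obtain ⟨c', u, hc', hu, hpow⟩ := H.pow_eq_of_norms hq1 hE₁ hgen₁ hx₁ hE₂ hgen₂ hx₂ n hred0
    hinv hoff c₁ c₂ u₁ u₂ hN₁ hN₂
  exact s2h_isPowAt_of_pow N c n (q + 1) ha hf0 hf hf' hgf hc' hu hpow

end Fermat.Agent.S36G
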