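import Mathlib
import Fermat.Agent.S36.G.Step2Hor
import Fermat.Agent.Lib.HP.SepE
import Fermat.Agent.Lib.HP.OfAdjoin

set_option autoImplicit false
set_option linter.unusedSectionVars false
set_option linter.unusedVariables false
set_option linter.style.haveILetI false

/-!
# Cluster G (S36), Step 2 (horizontal), abstract wiring in characteristic `q`  (helper48)

`isPowAt_hor_char` = `isPowAt_hor` without instance hypotheses on the two rational subfields: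
`E₁ = k(x₁)`, `E₂ = k(x₂)` abstract copies of `k(X₁)`, `k(X₂)` (`hgen`, `hx`), `char k = q`.
-/

noncomputable section

open AlgebraicCurve IntermediateField Fermat.Agent.RR Fermat.Agent.Deuring

namespace Fermat.Agent.S36G

open Fermat.Agent.BadRed Fermat.Agent.BadRedG Fermat.Agent.HP Fermat.Agent.S24Diff

variable {K F k : Type*} [Field K] [Field F] [Algebra K F] [Field k]
  {κ : Type*} {Fk : κ → Type*} [∀ c, Field (Fk c)] [∀ c, Algebra k (Fk c)] {ι : Type*}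

/-- **Step 2 (horizontal), abstract wiring, characteristic `q`.** -/
theorem isPowAt_hor_char (N : GraphSetup K F k κ Fk ι) (c : κ) {q : ℕ} (H : HPCurve k (Fk c) q)
    [IsAlgClosed k] (hq0 : ((q : ℕ) : k) = 0)
    (hsm₁ : ∀ (Q : Place k (Fk c)) (i : ι),
      (⟨c, Q⟩ : Σ c, Place k (Fk c)) = ⟨N.src i, N.s₁ i⟩ → H.IsEnd Q)
    (hsm₂ : ∀ (Q : Place k (Fk c)) (i : ι),
      (⟨c, Q⟩ : Σ c, Place k (Fk c)) = ⟨N.tgt i, N.s₂ i⟩ → H.IsEnd Q)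
    {E₁ E₂ : Type*} [Field E₁] [Algebra k E₁] [Algebra E₁ (Fk c)]
    [IsScalarTower k E₁ (Fk c)] [Field E₂] [Algebra k E₂] [Algebra E₂ (Fk c)]
    [IsScalarTower k E₂ (Fk c)]
    {x₁ : E₁} (hgen₁ : k⟮x₁⟯ = ⊤) (hx₁ : algebraMap E₁ (Fk c) x₁ = H.X1)
    {x₂ : E₂} (hgen₂ : k⟮x₂⟯ = ⊤) (hx₂ : algebraMap E₂ (Fk c) x₂ = H.X2)
    (n : ℕ) {g : F} (hg : g ≠ 0) (hdvd : ∀ P : Place K F, (n : ℤ) ∣ P.ord g)
    {f : F} {a : K} (ha : a ≠ 0) (hf : f ∈ (N.S c).Ov) (hf' : f⁻¹ ∈ (N.S c).Ov)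
    (hgf : g = algebraMap K F a * f)
    (hinv : ∀ σ ∈ H.galK, ∃ (b : k) (v : Fk c),
      σ ((N.S c).red f) = algebraMap k (Fk c) b * v ^ n * (N.S c).red f)
    (c₁ c₂ : k) (u₁ : E₁) (u₂ : E₂)
    (hN₁ : Algebra.norm E₁ ((N.S c).red f) = algebraMap k E₁ c₁ * u₁ ^ n)
    (hN₂ : Algebra.norm E₂ ((N.S c).red f) = algebraMap k E₂ c₂ * u₂ ^ n) :
    N.IsPowAt n c (g ^ (q + 1)) := by
  have hq1 : ((q + 1 : ℕ) : k) ≠ 0 := hp_succ_ne_zero hq0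
  haveI := H.finiteDimensional_of_gen_X1 hgen₁ hx₁
  haveI := H.isSeparable_of_gen_X1 hgen₁ hx₁ hq0
  haveI := H.finiteDimensional_of_gen_X2 hq1 hgen₂ hx₂
  haveI := H.isSeparable_of_gen_X2 hq1 hgen₂ hx₂ hq0
  exact isPowAt_hor N c H hq1 hsm₁ hsm₂ (H.isFunctionFieldOver_of_gen_X1 hgen₁ hx₁) hgen₁ hx₁
    (H.isFunctionFieldOver_of_gen_X2 hq1 hgen₂ hx₂) hgen₂ hx₂ n hg hdvd ha hf hf' hgf hinv
    c₁ c₂ u₁ u₂ hN₁ hN₂

end Fermat.Agent.S36G
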