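import Mathlib
import Fermat.Agent.S36.G.Step2HorE
import Fermat.Agent.F3.Galois.NormDesc

set_option autoImplicit false
set_option linter.unusedSectionVars false
set_option linter.unusedVariables false
set_option linter.style.haveILetI false

/-!
# Cluster G (S36), Step 2 (horizontal): the FINAL abstract theorem  (helper48)

`step2_final`: `N.IsPowAt n c (g ^ (q + 1))` on a horizontal component `c` (residue field the
function field of `H_P`), from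

* (ENDS)  the branches of `N` on `c` are ends of `H_P`;
* (R1), (N3)  the restriction of `O_c` to `ψ(F₁)` has residue field inside `E₁ = k(X₁)` and the
  norm formula `red (ψ (N_ψ t)) = N_{Fk/E₁} (red t)` (`NORM-HOR`, `normRed_tower`);
* (SWAP)  an automorphism `w` of `F / K` stabilising `O_c`, inducing `σw` with `σw X₂ = X₁`
  (the Atkin-Lehner involution `w_{q²}`);
* (inv)   the invariance of the residue class under `Gal(k(H_P)/k(s))` (`wpi_inv_galK`);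
* `N_ψ g` and `N_ψ (w g)` are constants times `n`-th powers (hypotheses of `CoreFunAt`).

No second circle valuation is needed: (N3') follows from (N3) and (SWAP).
-/

noncomputable section

open AlgebraicCurve IntermediateField Fermat.Agent.RR Fermat.Agent.Deuring

namespace Fermat.Agent.S36G

open Fermat.Agent.BadRed Fermat.Agent.BadRedG Fermat.Agent.HP Fermat.Agent.S24Diff
  Fermat.Agent.F3G

section Abs

variable {K F k Fk : Type*} [Field K] [Field F] [Algebra K F] [Field k] [Field Fk]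
  [Algebra k Fk]

/-- a unit of the form `a uⁿ` reduces to a constant times the `n`-th power of the reduction of
a rescaling of `u`. -/
theorem s2f_red_const_pow (S : ValSetup K F k Fk) {n : ℕ} {a : K} {u x : F} (hu : u ≠ 0)
    (hx : x = algebraMap K F a * u ^ n) (hred : S.red x ≠ 0) :
    ∃ d : K, d ≠ 0 ∧ ∃ b : k, b ≠ 0 ∧ u / algebraMap K F d ∈ S.Ov ∧
      S.red x = algebraMap k Fk b * S.red (u / algebraMap K F d) ^ n := by
  obtain ⟨d, hd, h1, h2⟩ := S.scale u hu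
  have hdF : algebraMap K F d ≠ 0 := by
    rwa [Ne, map_eq_zero_iff _ (algebraMap K F).injective]
  rw [← div_eq_mul_inv] at h1 h2
  set u' := u / algebraMap K F d with hu'
  have hu'0 : u' ≠ 0 := div_ne_zero hu hdF
  have hxO : x ∈ S.Ov := S.mem_of_red_ne_zero hred
  have hxO' : x⁻¹ ∈ S.Ov := S.inv_mem_of_red_ne_zero hred
  have hx0 : x ≠ 0 := S.ne_zero_of_red_ne_zero hred
  have hx' : x = algebraMap K F (a * d ^ n) * u' ^ n := by
    rw [hx, hu', map_mul, map_pow, div_pow]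
    field_simp
  have hconst : algebraMap K F (a * d ^ n) = x * (u'⁻¹) ^ n := by
    rw [hx', inv_pow]
    field_simp
  have hcO : algebraMap K F (a * d ^ n) ∈ S.Ov := by
    rw [hconst]
    exact mul_mem hxO (pow_mem h2 n)
  have hcA : a * d ^ n ∈ S.A := (S.mem_Ov_iff _).mp hcO
  refine ⟨d, hd, S.res ⟨a * d ^ n, hcA⟩, ?_, h1, ?_⟩
  · intro h0
    apply hred
    rw [hx', S.red_mul hcO (pow_mem h1 n), S.red_algebraMap hcA, h0, map_zero, zero_mul]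
  · rw [hx', S.red_mul hcO (pow_mem h1 n), S.red_algebraMap hcA, S.red_pow h1]

variable {F₁ : Type*} [Field F₁] [Algebra K F₁]

/-- the norm of a constant. -/
theorem s2f_normAlong_const (ψ : F₁ →ₐ[K] F) (a : K) :
    ∃ m : ℕ, normAlong ψ (algebraMap K F a) = algebraMap K F₁ (a ^ m) := by
  letI := algebraAlong ψ
  haveI := isScalarTower_along ψ
  refine ⟨Module.finrank F₁ F, ?_⟩
  show Algebra.norm F₁ (algebraMap K F a) = _
  rw [IsScalarTower.algebraMap_apply K F₁ F, Algebra.norm_algebraMap, map_pow]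

/-- **(N3) ⟹ the norm of the reduction is a constant times an `n`-th power.** -/
theorem s2f_norm (S : ValSetup K F k Fk) (ψ : F₁ →ₐ[K] F)
    {E₁ : Type*} [Field E₁] [Algebra k E₁] [Algebra E₁ Fk] [IsScalarTower k E₁ Fk]
    [FiniteDimensional E₁ Fk]
    (hres : ∀ y : F₁, ψ y ∈ S.Ov → ∃ z : E₁, S.red (ψ y) = algebraMap E₁ Fk z)
    (hnorm : ∀ t : F, t ∈ S.Ov → t⁻¹ ∈ S.Ov →
      S.red (ψ (normAlong ψ t)) = algebraMap E₁ Fk (Algebra.norm E₁ (S.red t)))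
    (n : ℕ) (hn : n ≠ 0) {g f : F} {a₀ : K} (ha₀ : a₀ ≠ 0) (hf0 : f ≠ 0) (hf : f ∈ S.Ov)
    (hf' : f⁻¹ ∈ S.Ov) (hgf : g = algebraMap K F a₀ * f)
    (h1 : ∃ (u : F₁) (a : K), a ≠ 0 ∧ normAlong ψ g = algebraMap K F₁ a * u ^ n) :
    ∃ (c₁ : k) (u₁ : E₁), Algebra.norm E₁ (S.red f) = algebraMap k E₁ c₁ * u₁ ^ n := by
  obtain ⟨u, a, ha, hN⟩ := h1
  obtain ⟨m, hm⟩ := s2f_normAlong_const ψ a₀
  have hredf : S.red f ≠ 0 := S.red_ne_zero hf hf' hf0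
  have hnormne : Algebra.norm E₁ (S.red f) ≠ 0 := Algebra.norm_ne_zero_iff.mpr hredf
  have hNf : normAlong ψ f = algebraMap K F₁ (a / a₀ ^ m) * u ^ n := by
    have h2 : normAlong ψ g = algebraMap K F₁ (a₀ ^ m) * normAlong ψ f := by
      rw [hgf, map_mul, hm]
    rw [hN] at h2
    have h3 : algebraMap K F₁ (a₀ ^ m) ≠ 0 := by
      rw [Ne, map_eq_zero_iff _ (algebraMap K F₁).injective]
      exact pow_ne_zero m ha₀
    rw [map_div₀]
    field_simp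
    linear_combination -h2
  have hx : ψ (normAlong ψ f) = algebraMap K F (a / a₀ ^ m) * (ψ u) ^ n := by
    rw [hNf, map_mul, map_pow, AlgHom.commutes]
  have hred : S.red (ψ (normAlong ψ f)) ≠ 0 := by
    rw [hnorm f hf hf']
    rwa [Ne, map_eq_zero_iff _ (algebraMap E₁ Fk).injective]
  have hψu : ψ u ≠ 0 := by
    intro h0
    apply S.ne_zero_of_red_ne_zero hred
    rw [hx, h0, zero_pow hn, mul_zero]
  obtain ⟨d, hd, b, hb, hmem, hval⟩ := s2f_red_const_pow S hψu hx hred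
  have hdiv : ψ u / algebraMap K F d = ψ (u / algebraMap K F₁ d) := by
    rw [map_div₀, AlgHom.commutes]
  rw [hdiv] at hmem hval
  obtain ⟨z, hz⟩ := hres _ hmem
  refine ⟨b, z, ?_⟩
  apply (algebraMap E₁ Fk).injective
  rw [← hnorm f hf hf', hval, hz, map_mul, map_pow, ← IsScalarTower.algebraMap_apply]

end Abs

section Swap

variable {k Fk : Type*} [Field k] [Field Fk] [Algebra k Fk] {q : ℕ}

/-- the isomorphism `k(X₂) ≅ E₁ = k(X₁)` induced by an automorphism `σw` with `σw X₂ = X₁`. -/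
def s2fSwapEquiv (H : HPCurve k Fk q) (σw : Fk ≃ₐ[k] Fk) (hσw : σw H.X2 = H.X1)
    {E₁ : Type*} [Field E₁] [Algebra k E₁] [Algebra E₁ Fk] [IsScalarTower k E₁ Fk]
    {x₁ : E₁} (hgen₁ : k⟮x₁⟯ = ⊤) (hx₁ : algebraMap E₁ Fk x₁ = H.X1) :
    ↥(k⟮H.X2⟯) ≃ₐ[k] E₁ :=
  ((IntermediateField.intermediateFieldMap σw k⟮H.X2⟯).trans
    (IntermediateField.equivOfEq (by
      rw [IntermediateField.adjoin_map, Set.image_singleton]
      show k⟮σw H.X2⟯ = k⟮algebraMap E₁ Fk x₁⟯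
      rw [hσw, hx₁]))).trans (hpGenEquiv (F := Fk) hgen₁).symm

theorem s2fSwapEquiv_comp (H : HPCurve k Fk q) (σw : Fk ≃ₐ[k] Fk) (hσw : σw H.X2 = H.X1)
    {E₁ : Type*} [Field E₁] [Algebra k E₁] [Algebra E₁ Fk] [IsScalarTower k E₁ Fk]
    {x₁ : E₁} (hgen₁ : k⟮x₁⟯ = ⊤) (hx₁ : algebraMap E₁ Fk x₁ = H.X1) (e : ↥(k⟮H.X2⟯)) :
    algebraMap E₁ Fk (s2fSwapEquiv H σw hσw hgen₁ hx₁ e) = σw (e : Fk) := by
  unfold s2fSwapEquiv
  rw [AlgEquiv.trans_apply, ← hpGenEquiv_apply (F := Fk) hgen₁, AlgEquiv.apply_symm_apply]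
  rfl

/-- **(N3') from (N3) and (SWAP).** -/
theorem s2f_norm_swap (H : HPCurve k Fk q) (σw : Fk ≃ₐ[k] Fk) (hσw : σw H.X2 = H.X1)
    {E₁ : Type*} [Field E₁] [Algebra k E₁] [Algebra E₁ Fk] [IsScalarTower k E₁ Fk]
    {x₁ : E₁} (hgen₁ : k⟮x₁⟯ = ⊤) (hx₁ : algebraMap E₁ Fk x₁ = H.X1) (n : ℕ) (y : Fk)
    (h : ∃ (c₁ : k) (u₁ : E₁), Algebra.norm E₁ (σw y) = algebraMap k E₁ c₁ * u₁ ^ n) :
    ∃ (c₂ : k) (u₂ : ↥(k⟮H.X2⟯)),
      Algebra.norm ↥(k⟮H.X2⟯) y = algebraMap k ↥(k⟮H.X2⟯) c₂ * u₂ ^ n := by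
  obtain ⟨c₁, u₁, hc⟩ := h
  set e₁ := s2fSwapEquiv H σw hσw hgen₁ hx₁ with he₁
  have hcomp : RingHom.comp (algebraMap E₁ Fk) (e₁.toRingEquiv : ↥(k⟮H.X2⟯) →+* E₁) =
      RingHom.comp (σw.toRingEquiv : Fk →+* Fk) (algebraMap ↥(k⟮H.X2⟯) Fk) := by
    ext e
    exact s2fSwapEquiv_comp H σw hσw hgen₁ hx₁ e
  have h1 := Algebra.norm_eq_of_equiv_equiv e₁.toRingEquiv σw.toRingEquiv hcomp y
  refine ⟨c₁, e₁.symm u₁, ?_⟩
  rw [h1]
  show e₁.symm (Algebra.norm E₁ (σw y)) = _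
  rw [hc, map_mul, map_pow, AlgEquiv.commutes]

end Swap

section Final

variable {K F k : Type*} [Field K] [Field F] [Algebra K F] [Field k]
  {κ : Type*} {Fk : κ → Type*} [∀ c, Field (Fk c)] [∀ c, Algebra k (Fk c)] {ι : Type*}
  {F₁ : Type*} [Field F₁] [Algebra K F₁]

/-- **Step 2 (horizontal), final abstract theorem.** -/
theorem step2_final (N : GraphSetup K F k κ Fk ι) (c : κ) {q : ℕ} (H : HPCurve k (Fk c) q)
    [IsAlgClosed k] (hq0 : ((q : ℕ) : k) = 0)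
    (hsm₁ : ∀ (Q : Place k (Fk c)) (i : ι),
      (⟨c, Q⟩ : Σ c, Place k (Fk c)) = ⟨N.src i, N.s₁ i⟩ → H.IsEnd Q)
    (hsm₂ : ∀ (Q : Place k (Fk c)) (i : ι),
      (⟨c, Q⟩ : Σ c, Place k (Fk c)) = ⟨N.tgt i, N.s₂ i⟩ → H.IsEnd Q)
    (ψ : F₁ →ₐ[K] F)
    {E₁ : Type*} [Field E₁] [Algebra k E₁] [Algebra E₁ (Fk c)] [IsScalarTower k E₁ (Fk c)]
    {x₁ : E₁} (hgen₁ : k⟮x₁⟯ = ⊤) (hx₁ : algebraMap E₁ (Fk c) x₁ = H.X1)
    (hres : ∀ y : F₁, ψ y ∈ (N.S c).Ov → ∃ z : E₁, (N.S c).red (ψ y) = algebraMap E₁ (Fk c) z)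
    (hnorm : ∀ t : F, t ∈ (N.S c).Ov → t⁻¹ ∈ (N.S c).Ov →
      (N.S c).red (ψ (normAlong ψ t)) = algebraMap E₁ (Fk c) (Algebra.norm E₁ ((N.S c).red t)))
    (w : F ≃ₐ[K] F) (σw : Fk c ≃ₐ[k] Fk c) (hσw : σw H.X2 = H.X1)
    (hw : ∀ f : F, f ∈ (N.S c).Ov → w f ∈ (N.S c).Ov ∧ (N.S c).red (w f) = σw ((N.S c).red f))
    (n : ℕ) (hn : n ≠ 0) {g : F} (hg : g ≠ 0) (hdvd : ∀ P : Place K F, (n : ℤ) ∣ P.ord g)
    (hinv : ∀ (f : F) (a : K), f ∈ (N.S c).Ov → f⁻¹ ∈ (N.S c).Ov → g = algebraMap K F a * f →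
      ∀ σ ∈ H.galK, ∃ (b : k) (v : Fk c),
        σ ((N.S c).red f) = algebraMap k (Fk c) b * v ^ n * (N.S c).red f)
    (h1 : ∃ (u : F₁) (a : K), a ≠ 0 ∧ normAlong ψ g = algebraMap K F₁ a * u ^ n)
    (h2 : ∃ (u : F₁) (a : K), a ≠ 0 ∧ normAlong ψ (w g) = algebraMap K F₁ a * u ^ n) :
    N.IsPowAt n c (g ^ (q + 1)) := by
  have hq1 : ((q + 1 : ℕ) : k) ≠ 0 := hp_succ_ne_zero hq0
  haveI := H.finiteDimensional_of_gen_X1 hgen₁ hx₁
  -- scale `g`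
  obtain ⟨a₀, ha₀, hfO, hfO'⟩ := (N.S c).scale g hg
  have ha₀F : algebraMap K F a₀ ≠ 0 := by
    rwa [Ne, map_eq_zero_iff _ (algebraMap K F).injective]
  rw [← div_eq_mul_inv] at hfO hfO'
  set f := g / algebraMap K F a₀ with hfdef
  have hf0 : f ≠ 0 := div_ne_zero hg ha₀F
  have hgf : g = algebraMap K F a₀ * f := by
    rw [hfdef]
    field_simp
  -- the first norm
  obtain ⟨c₁, u₁, hN₁⟩ := s2f_norm (N.S c) ψ hres hnorm n hn ha₀ hf0 hfO hfO' hgf h1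
  -- the second norm
  have hwf : w f ∈ (N.S c).Ov := (hw f hfO).1
  have hwf' : (w f)⁻¹ ∈ (N.S c).Ov := by
    rw [← map_inv₀]
    exact (hw f⁻¹ hfO').1
  have hwf0 : w f ≠ 0 := (map_ne_zero w.toRingEquiv.toRingHom).mpr hf0
  have hwg : w g = algebraMap K F a₀ * w f := by
    rw [hgf, map_mul, AlgEquiv.commutes]
  obtain ⟨c₂', u₂', hN₂'⟩ := s2f_norm (N.S c) ψ hres hnorm n hn ha₀ hwf0 hwf hwf' hwg h2
  rw [(hw f hfO).2] at hN₂'
  obtain ⟨c₂, u₂, hN₂⟩ := s2f_norm_swap H σw hσw hgen₁ hx₁ n _ ⟨c₂', u₂', hN₂'⟩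
  -- the second rational subfield
  have hgen₂ : k⟮(⟨H.X2, IntermediateField.mem_adjoin_simple_self k H.X2⟩ : ↥(k⟮H.X2⟯))⟯ = ⊤ := by
    apply hp_adjoin_subtype_eq_top
    rw [Set.image_singleton]
  exact isPowAt_hor_char N c H hq0 hsm₁ hsm₂ hgen₁ hx₁ hgen₂ rfl n hg hdvd ha₀ hfO hfO' hgf
    (hinv f a₀ hfO hfO' hgf) c₁ c₂ u₁ u₂ hN₁ hN₂

end Final

end Fermat.Agent.S36G
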