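import Mathlib
import Fermat.Agent.S36.G.Step2Final
import Fermat.Agent.S36.G.Defs
import Fermat.Agent.S36.HPVal.InertFinal
import Fermat.Agent.S36.HPVal.SwapWire
import Fermat.Agent.S36.Norm.HorSqueeze

set_option autoImplicit false
set_option linter.style.haveILetI false
set_option linter.unusedSectionVars false
set_option linter.unusedVariables false
set_option synthInstance.maxHeartbeats 400000
set_option maxHeartbeats 1000000

/-!
# Cluster G (S36), Step 2 (horizontal): the MODULAR instance of `step2_final`  (helper38, hedge)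

`O : WPOut M₀ q A S0 P (Fk c)` the output of block W-P at a supersingular place `P`, `N` a
`GraphSetup` on `F = FBar (M₀ q q)` whose valuation at the vertex `c` is `w_P` (`N.S c = O.S`).
All the inputs of `step2_final` (`S36/G/Step2Final.lean`) are on main:

* (R1), (N3) : `wpsq_alpha_mem`, `wpsq_normRed_alpha` (`S36/Norm/HorSqueeze.lean`);
* (SWAP)     : `swapWire_final` (`S36/HPVal/SwapWire.lean`);
* (INERT)    : `wpm_hinv_out_of_fixedFun` (`S36/HPVal/InertFinal.lean`).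

Hence

* `s2mh_level`    : `D.Q = q ^ 2`, `M₀ q q = D.Q D.R` ⟹ `D.Q = q q`, `D.R = M₀`;
* `s2mh_hor_at`   : `N.IsPowAt n c (g ^ (q + 1))` at ONE vertex `c` with `N.S c = O.S`, from the
                    two (ENDS) hypotheses `hsm₁`, `hsm₂` of `step2_final`;
* `s2mh_hor`      : **the hypothesis `hhor` of `step12_modular_one`** (`S36/G/Step12D0.lean`) on the
                    modular graph `K_{|Vert|, s}`: the only inputs are the family of `WPOut`s, the
                    identifications `N.S (hor P) = (O P).S`, `N.src i = nodSrc i` and (ENDS) at the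
                    targets.
-/

noncomputable section

namespace Fermat.Agent.S36G

open ModularCurve AlgebraicCurve IntermediateField Fermat.Agent.F3 Fermat.Agent.F3G
  Fermat.Agent.GaussInt Fermat.Agent.Deuring Fermat.Agent.BadRed Fermat.Agent.BadRedG
  Fermat.Agent.HPVal Fermat.Agent.HP Fermat.Agent.AtkinLehner Fermat.Agent.RR

local notation "Qb" => AlgebraicClosure ℚ

/-- level bookkeeping: `D.Q = q ^ 2` and `M₀ q q = D.Q D.R` give `D.Q = q q` and `D.R = M₀`. -/
theorem s2mh_level {M₀ q : ℕ} (hq : q.Prime) (D : ALData) (hM : M₀ * q * q = D.Q * D.R)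
    (hDQ : D.Q = q ^ 2) : D.Q = q * q ∧ D.R = M₀ := by
  refine ⟨by rw [hDQ, pow_two], ?_⟩
  have hqq : 0 < q * q := Nat.mul_pos hq.pos hq.pos
  have h1 : q * q * D.R = q * q * M₀ := by
    calc q * q * D.R = q ^ 2 * D.R := by ring
      _ = D.Q * D.R := by rw [hDQ]
      _ = M₀ * q * q := hM.symm
      _ = q * q * M₀ := by ring
  exact Nat.eq_of_mul_eq_mul_left hqq h1

section At

variable {M₀ q : ℕ} [NeZero M₀] [NeZero q] {A : ValuationSubring Qb}
  {S0 : Fermat.Agent.S18Key.RedSetup Qb (FBar M₀) (IsLocalRing.ResidueField A)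
    ↥(modularFunctionFieldFullC (IsLocalRing.ResidueField A) M₀)}
  {P : Place (IsLocalRing.ResidueField A)
    ↥(modularFunctionFieldFullC (IsLocalRing.ResidueField A) M₀)}
  {κ ι : Type*} {Fk : κ → Type} [∀ c, Field (Fk c)]
  [∀ c, Algebra (IsLocalRing.ResidueField A) (Fk c)]

/-- **Step 2 at one horizontal vertex**: if the valuation of the graph at `c` is `w_P`
(`N.S c = O.S`) and the branch points of `N` on `c` are ends of `H_P`, then `g ^ (q + 1)` is, up
to a constant, an `n`-th power on `c`, for every `g` as in `CoreFunAt`. -/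
theorem s2mh_hor_at (hq : q.Prime) (hqM : ¬ q ∣ M₀) (hA : A.LiesOverPrime q)
    (hS0 : IsGaussRed M₀ A S0)
    (N : GraphSetup Qb (FBar (M₀ * q * q)) (IsLocalRing.ResidueField A) κ Fk ι) (c : κ)
    (O : WPOut M₀ q A S0 P (Fk c)) (hS : N.S c = O.S)
    (hsm₁ : ∀ (Q : Place (IsLocalRing.ResidueField A) (Fk c)) (i : ι),
      (⟨c, Q⟩ : Σ c, Place (IsLocalRing.ResidueField A) (Fk c)) = ⟨N.src i, N.s₁ i⟩ →
        O.H.IsEnd Q)
    (hsm₂ : ∀ (Q : Place (IsLocalRing.ResidueField A) (Fk c)) (i : ι),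
      (⟨c, Q⟩ : Σ c, Place (IsLocalRing.ResidueField A) (Fk c)) = ⟨N.tgt i, N.s₂ i⟩ →
        O.H.IsEnd Q)
    (D : ALData) (hM : M₀ * q * q = D.Q * D.R) (hDQ : D.Q = q ^ 2)
    (n : ℕ) (hn : n ≠ 0) {g : FBar (M₀ * q * q)} (hg : g ≠ 0)
    (hdvd : ∀ v : Place Qb (FBar (M₀ * q * q)), (n : ℤ) ∣ v.ord g)
    (hfix : InertiaFixedFun (M₀ * q * q) A n g)
    (h1 : IsCPow n (normAlong (heckeAlphaBar Qb (M₀ * q) q) g))
    (h2 : IsCPow n (normAlong (heckeAlphaBar Qb (M₀ * q) q) (wAt D hM g))) :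
    N.IsPowAt n c (g ^ (q + 1)) := by
  haveI : IsAlgClosed (IsLocalRing.ResidueField A) := isAlgClosed_residue A
  haveI : CharP (IsLocalRing.ResidueField A) q :=
    Fermat.Agent.GaussIntFP.charP_residue_of_liesOver A hq hA
  have hq0 : ((q : ℕ) : IsLocalRing.ResidueField A) = 0 := CharP.cast_eq_zero _ q
  obtain ⟨hQ, hR⟩ := s2mh_level hq D hM hDQ
  obtain ⟨σ, hσ, hσ1, hσ2, -⟩ := swapWire_final hq hA O D hQ hR hM
  -- the rational subfield `E₁ = k(X₁)`
  have hgen₁ : (IsLocalRing.ResidueField A)⟮(⟨O.H.X1,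
      IntermediateField.mem_adjoin_simple_self (IsLocalRing.ResidueField A) O.H.X1⟩ :
        ↥((IsLocalRing.ResidueField A)⟮O.H.X1⟯))⟯ = ⊤ := by
    apply hp_adjoin_subtype_eq_top
    rw [Set.image_singleton]
  refine step2_final N c O.H hq0 hsm₁ hsm₂ (heckeAlphaBar Qb (M₀ * q) q)
    (E₁ := ↥((IsLocalRing.ResidueField A)⟮O.H.X1⟯)) hgen₁ rfl ?_ ?_ (wAt D hM) σ hσ2 ?_ n hn hg
    hdvd ?_ h1 h2
  · -- (R1)
    intro y hy
    rw [hS] at hy ⊢
    exact ⟨⟨_, wpsq_alpha_mem O hq hqM hA y hy⟩, rfl⟩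
  · -- (N3)
    intro t ht _
    rw [hS] at ht ⊢
    exact (wpsq_normRed_alpha O hq hqM hA t ht).2
  · -- (SWAP)
    intro f hf
    rw [hS] at hf ⊢
    exact hσ f hf
  · -- (INERT)
    intro f a hf hf' hgf
    rw [hS] at hf hf' ⊢
    exact wpm_hinv_out_of_fixedFun O hq hA hqM hS0 n hg hfix f a hf hf' hgf

end At

section Mod

variable {M₀ q : ℕ} [NeZero M₀] [NeZero q] {A : ValuationSubring Qb}
  {S0 : Fermat.Agent.S18Key.RedSetup Qb (FBar M₀) (IsLocalRing.ResidueField A)
    ↥(modularFunctionFieldFullC (IsLocalRing.ResidueField A) M₀)}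
  {Mid SS : Type} {Fk : Vtx Mid SS → Type} [∀ c, Field (Fk c)]
  [∀ c, Algebra (IsLocalRing.ResidueField A) (Fk c)]

/-- **Step 2 on the modular graph**: the hypothesis `hhor` of `step12_modular_one`
(`S36/G/Step12D0.lean`).  Inputs: for every supersingular point `P` the output `O P` of block
W-P with `N.S (hor P) = (O P).S`; the sources of the nodes are vertical; the branch points on
`hor P` at the targets are ends of `H_P`. -/
theorem s2mh_hor (hq : q.Prime) (hqM : ¬ q ∣ M₀) (hA : A.LiesOverPrime q)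
    (hS0 : IsGaussRed M₀ A S0)
    (N : GraphSetup Qb (FBar (M₀ * q * q)) (IsLocalRing.ResidueField A) (Vtx Mid SS) Fk
      (Nod Mid SS))
    (hsrc : ∀ i, N.src i = nodSrc i)
    (Pl : SS → Place (IsLocalRing.ResidueField A)
      ↥(modularFunctionFieldFullC (IsLocalRing.ResidueField A) M₀))
    (O : ∀ P : SS, WPOut M₀ q A S0 (Pl P) (Fk (Vtx.hor P)))
    (hS : ∀ P : SS, N.S (Vtx.hor P) = (O P).S)
    (hends : ∀ (P : SS) (Q : Place (IsLocalRing.ResidueField A) (Fk (Vtx.hor P)))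
      (i : Nod Mid SS),
      (⟨Vtx.hor P, Q⟩ : Σ c, Place (IsLocalRing.ResidueField A) (Fk c)) = ⟨N.tgt i, N.s₂ i⟩ →
        (O P).H.IsEnd Q)
    (n : ℕ) (hn : n ≠ 0)
    (D : ALData) (hM : M₀ * q * q = D.Q * D.R) (hDQ : D.Q = q ^ 2) :
    ∀ g : FBar (M₀ * q * q), g ≠ 0 →
      (∀ v : Place Qb (FBar (M₀ * q * q)), (n : ℤ) ∣ v.ord g) →
      InertiaFixedFun (M₀ * q * q) A n g →
      IsCPow n (normAlong (heckeAlphaBar Qb (M₀ * q) q) g) →
      IsCPow n (normAlong (heckeAlphaBar Qb (M₀ * q) q) (wAt D hM g)) →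
      ∀ P : SS, N.IsPowAt n (Vtx.hor P) (g ^ (q + 1)) := by
  intro g hg hdvd hfix h1 h2 P
  refine s2mh_hor_at hq hqM hA hS0 N (Vtx.hor P) (O P) (hS P) ?_ (hends P) D hM hDQ n hn hg
    hdvd hfix h1 h2
  intro Q i h
  exfalso
  have h1' : Vtx.hor P = N.src i := congrArg Sigma.fst h
  rw [hsrc i] at h1'
  unfold nodSrc at h1'
  cases h1'

end Mod

end Fermat.Agent.S36G
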