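import Fermat.Agent.S36.G.Step12Pack
import Fermat.Agent.S36.G.Step2ModH
import Fermat.Agent.S36.G.AuxNu

set_option autoImplicit false
set_option linter.style.haveILetI false
set_option linter.unusedSectionVars false
set_option linter.unusedVariables false
set_option synthInstance.maxHeartbeats 400000
set_option maxHeartbeats 1000000

/-!
# Cluster G (S36), Steps 1 + 2: the field `hStep12` of `CoreBundle`, FINAL  (helper60)

`N` a `GraphSetup` on `F = FBar (M₀ q q)` of shape `K_{|Vert|, s}` whose constant reductions are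
`vtxFamily S_∞ (valSetupZeroAt D₀ hM₀ S_∞) I.S (fun P => (O P).S)`: `S_∞` a Gauss reduction,
`I : IgPack M₀ q A` the Igusa pair, `O P : WPOut ..` the outputs of block W-P.  Then

* `step12_final` : for EVERY `n ≠ 0`, every `D` with `D.Q = q ^ 2` and every `g` as in `CoreFunAt`,
  `g ^ ((q - 1) * (q + 1))` is, up to constants, an `n`-th power in all the residue fields:
  exactly the field `hStep12` of `CoreBundle (M₀ * q) q A` (`S36/G/CoreBundle.lean`) with
  `c₁ = (q - 1) * (q + 1)` (`step12_c₁_ne_zero`).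

Step 1 = `step1_vert_all` (helper66, helper17, helper63, helper60), Step 2 = `s2mh_hor` (helper38,
from helper48's `step2_final`).  The only inputs left are those of the bundle itself:
`hsrc`, `hN` (both `rfl` for the seed of MG-INST) and (ENDS) `hends`.
-/

noncomputable section

namespace Fermat.Agent.S36G

open ModularCurve AlgebraicCurve Fermat.Agent.F3 Fermat.Agent.F3G Fermat.Agent.GaussInt
  Fermat.Agent.AtkinLehner Fermat.Agent.Kronecker Fermat.Agent.BadRed Fermat.Agent.BadRedG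
  Fermat.Agent.Deuring Fermat.Agent.HPVal Fermat.Agent.HP Fermat.Agent.RR

local notation "Qb" => AlgebraicClosure ℚ

attribute [local instance 10000] SubalgebraClass.toAlgebra HahnSeries.powerSeriesAlgebra

variable {M₀ q : ℕ} [NeZero M₀] [NeZero q] {SS : Type}

/-- the exponent of Steps 1, 2 is not zero. -/
theorem step12_c₁_ne_zero (hq : q.Prime) : (q - 1) * (q + 1) ≠ 0 := by
  have h2 := hq.two_le
  exact Nat.mul_ne_zero (by omega) (by omega)

/-- **Steps 1 + 2, final form**: the field `hStep12` of `CoreBundle (M₀ * q) q A`. -/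
theorem step12_final (hq : q.Prime) (hqM : ¬ q ∣ M₀) (hν2 : nuTwo M₀ = 0)
    (hν3 : nuThree M₀ = 0) (A : ValuationSubring Qb) (hA : A.LiesOverPrime q)
    {S0 : Fermat.Agent.S18Key.RedSetup Qb (FBar M₀) (IsLocalRing.ResidueField A)
      ↥(modularFunctionFieldFullC (IsLocalRing.ResidueField A) M₀)}
    (hS0 : IsGaussRed M₀ A S0)
    {FkP : SS → Type} [∀ P, Field (FkP P)] [∀ P, Algebra (IsLocalRing.ResidueField A) (FkP P)]
    (N : GraphSetup Qb (FBar (M₀ * q * q)) (IsLocalRing.ResidueField A)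
      (Vtx (Fin (midCard q)) SS)
      (FkOf (modularFunctionFieldFullC (IsLocalRing.ResidueField A) M₀)
        (fun _ : Fin (midCard q) => ↥(igField (IsLocalRing.ResidueField A) M₀)) FkP)
      (Nod (Fin (midCard q)) SS))
    (hsrc : ∀ i, N.src i = nodSrc i)
    (Soo : ValSetup Qb (FBar (M₀ * q * q)) (IsLocalRing.ResidueField A)
      (modularFunctionFieldFullC (IsLocalRing.ResidueField A) M₀))
    (hSoo : IsGaussSetup (M₀ * q * q) M₀ A Soo)
    (D₀ : ALData) (hM₀ : M₀ * q * q = D₀.Q * D₀.R) (hD₀ : D₀.Q = q ^ 2)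
    (I : IgPack M₀ q A)
    (Pl : SS → Place (IsLocalRing.ResidueField A)
      ↥(modularFunctionFieldFullC (IsLocalRing.ResidueField A) M₀))
    (O : ∀ P : SS, WPOut M₀ q A S0 (Pl P) (FkP P))
    (hN : N.S = vtxFamily Soo (valSetupZeroAt D₀ hM₀ Soo) I.S (fun P => (O P).S))
    (hends : ∀ (P : SS) (Q : Place (IsLocalRing.ResidueField A) (FkP P))
      (i : Nod (Fin (midCard q)) SS),
      (⟨Vtx.hor P, Q⟩ : Σ c, Place (IsLocalRing.ResidueField A)
        (FkOf (modularFunctionFieldFullC (IsLocalRing.ResidueField A) M₀)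
          (fun _ : Fin (midCard q) => ↥(igField (IsLocalRing.ResidueField A) M₀)) FkP c)) =
        ⟨N.tgt i, N.s₂ i⟩ → (O P).H.IsEnd Q) :
    ∀ n : ℕ, n ≠ 0 →
      ∀ (D : ALData) (hM : M₀ * q * q = D.Q * D.R), D.Q = q ^ 2 →
        ∀ g : FBar (M₀ * q * q), g ≠ 0 →
          (∀ v : Place Qb (FBar (M₀ * q * q)), (n : ℤ) ∣ v.ord g) →
          InertiaFixedFun (M₀ * q * q) A n g →
          IsCPow n (normAlong (heckeAlphaBar Qb (M₀ * q) q) g) →
          IsCPow n (normAlong (heckeAlphaBar Qb (M₀ * q) q) (wAt D hM g)) →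
          ∀ c, N.IsPowAt n c (g ^ ((q - 1) * (q + 1))) := by
  intro n hn
  refine step12_of_pack hq hqM hν2 hν3 A hA N n Soo hSoo D₀ hM₀ hD₀ I (fun P => (O P).S) hN ?_
  exact s2mh_hor hq hqM hA hS0 N hsrc Pl O (fun P => by rw [hN]; rfl) hends n hn D₀ hM₀ hD₀

/-- the same from `AuxGood23 q M₀`. -/
theorem step12_final_aux (hq : q.Prime) (hqM : ¬ q ∣ M₀) (hgood : AuxGood23 q M₀)
    (A : ValuationSubring Qb) (hA : A.LiesOverPrime q)
    {S0 : Fermat.Agent.S18Key.RedSetup Qb (FBar M₀) (IsLocalRing.ResidueField A)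
      ↥(modularFunctionFieldFullC (IsLocalRing.ResidueField A) M₀)}
    (hS0 : IsGaussRed M₀ A S0)
    {FkP : SS → Type} [∀ P, Field (FkP P)] [∀ P, Algebra (IsLocalRing.ResidueField A) (FkP P)]
    (N : GraphSetup Qb (FBar (M₀ * q * q)) (IsLocalRing.ResidueField A)
      (Vtx (Fin (midCard q)) SS)
      (FkOf (modularFunctionFieldFullC (IsLocalRing.ResidueField A) M₀)
        (fun _ : Fin (midCard q) => ↥(igField (IsLocalRing.ResidueField A) M₀)) FkP)
      (Nod (Fin (midCard q)) SS))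
    (hsrc : ∀ i, N.src i = nodSrc i)
    (Soo : ValSetup Qb (FBar (M₀ * q * q)) (IsLocalRing.ResidueField A)
      (modularFunctionFieldFullC (IsLocalRing.ResidueField A) M₀))
    (hSoo : IsGaussSetup (M₀ * q * q) M₀ A Soo)
    (D₀ : ALData) (hM₀ : M₀ * q * q = D₀.Q * D₀.R) (hD₀ : D₀.Q = q ^ 2)
    (I : IgPack M₀ q A)
    (Pl : SS → Place (IsLocalRing.ResidueField A)
      ↥(modularFunctionFieldFullC (IsLocalRing.ResidueField A) M₀))
    (O : ∀ P : SS, WPOut M₀ q A S0 (Pl P) (FkP P))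
    (hN : N.S = vtxFamily Soo (valSetupZeroAt D₀ hM₀ Soo) I.S (fun P => (O P).S))
    (hends : ∀ (P : SS) (Q : Place (IsLocalRing.ResidueField A) (FkP P))
      (i : Nod (Fin (midCard q)) SS),
      (⟨Vtx.hor P, Q⟩ : Σ c, Place (IsLocalRing.ResidueField A)
        (FkOf (modularFunctionFieldFullC (IsLocalRing.ResidueField A) M₀)
          (fun _ : Fin (midCard q) => ↥(igField (IsLocalRing.ResidueField A) M₀)) FkP c)) =
        ⟨N.tgt i, N.s₂ i⟩ → (O P).H.IsEnd Q) :
    ∀ n : ℕ, n ≠ 0 →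
      ∀ (D : ALData) (hM : M₀ * q * q = D.Q * D.R), D.Q = q ^ 2 →
        ∀ g : FBar (M₀ * q * q), g ≠ 0 →
          (∀ v : Place Qb (FBar (M₀ * q * q)), (n : ℤ) ∣ v.ord g) →
          InertiaFixedFun (M₀ * q * q) A n g →
          IsCPow n (normAlong (heckeAlphaBar Qb (M₀ * q) q) g) →
          IsCPow n (normAlong (heckeAlphaBar Qb (M₀ * q) q) (wAt D hM g)) →
          ∀ c, N.IsPowAt n c (g ^ ((q - 1) * (q + 1))) :=
  step12_final hq hqM (auxGood23_nuTwo hgood) (auxGood23_nuThree hgood) A hA hS0 N hsrc Soo hSoo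
    D₀ hM₀ hD₀ I Pl O hN hends

end Fermat.Agent.S36G
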