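import Mathlib
import Fermat.Agent.S36.Seed.Ends

set_option autoImplicit false
set_option linter.style.haveILetI false
set_option linter.unusedSectionVars false
set_option linter.unusedVariables false

/-!
# Cluster G (S36), Step 2 (horizontal): the (ENDS) bridge  (helper38)

The hypothesis `hsm₂` of `step2_final` (`S36/G/Step2Final.lean`) asks that the branch points of
the modular graph on a horizontal component `H_P` are ENDS of `H_P` in the sense of `Lib/HP`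
(`HPCurve.IsEnd v := v.ord X₁ ≠ 0`).  On the modular seed the branch points on `H_P` are the points
of `E.PJA ∪ E.PJM ∪ E.PJ2` (`ModEndsInput`, `S36/G/SeedInput.lean`), i.e. the zeros of
`red_P (ϖ₁ / u₁)` and of `red_P u₂`.  With the two reductions of SEED-UP (`EndsRed1`, `EndsRed2`,
`S36/Seed/Ends.lean`) these are the poles and the zeros of `X₁`:

* `s2me_isEnd_of_pos1` : a zero of `red_P x₁`, `red_P x₁ = c (X₁ ^ 12)⁻¹`, is an end;
* `s2me_isEnd_of_pos2` : a zero of `red_P x₂`, `red_P x₂ = c X₁ ^ 12`, is an end;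
* `s2me_isEnd`         : every point of `E.PJA ∪ E.PJM ∪ E.PJ2` on `hor P` is an end of `H_P`.
-/

noncomputable section

open AlgebraicCurve

namespace Fermat.Agent.S36G

open Fermat.Agent.RR Fermat.Agent.Deuring Fermat.Agent.BadRed Fermat.Agent.BadRedG
  Fermat.Agent.HP

variable {K F k : Type} [Field K] [Field F] [Algebra K F] [Field k] [IsAlgClosed k]
  {Mid SS : Type}
  {Fk0 : Type} [Field Fk0] [Algebra k Fk0]
  {FkM : Mid → Type} [∀ m, Field (FkM m)] [∀ m, Algebra k (FkM m)]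
  {FkP : SS → Type} [∀ P, Field (FkP P)] [∀ P, Algebra k (FkP P)]
  {S : ∀ c : Vtx Mid SS, ValSetup K F k (FkOf Fk0 FkM FkP c)}
  {q : ℕ} {H : ∀ P : SS, HPCurve k (FkOf Fk0 FkM FkP (Vtx.hor P)) q}

/-- a zero of `red_P x₁ = c (X₁ ^ 12)⁻¹` is a pole of `X₁`, hence an end of `H_P`. -/
theorem s2me_isEnd_of_pos1 {x1 : F} (hx1 : EndsRed1 S H x1) (P : SS)
    (Q : Place k (FkOf Fk0 FkM FkP (Vtx.hor P)))
    (h : 0 < Q.ord ((S (Vtx.hor P)).red x1)) : (H P).IsEnd Q := by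
  unfold HPCurve.IsEnd
  rw [hx1.ord P Q] at h
  intro h0
  rw [h0] at h
  simp at h

/-- a zero of `red_P x₂ = c X₁ ^ 12` is a zero of `X₁`, hence an end of `H_P`. -/
theorem s2me_isEnd_of_pos2 {x2 : F} (hx2 : EndsRed2 S H x2) (P : SS)
    (Q : Place k (FkOf Fk0 FkM FkP (Vtx.hor P)))
    (h : 0 < Q.ord ((S (Vtx.hor P)).red x2)) : (H P).IsEnd Q := by
  unfold HPCurve.IsEnd
  rw [hx2.ord P Q] at h
  intro h0
  rw [h0] at h
  simp at h

section Input

variable [Fintype Mid] [Fintype SS] (E : ModEndsInput K F k Mid SS Fk0 FkM FkP)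
  {H' : ∀ P : SS, HPCurve k (FkOf Fk0 FkM FkP (Vtx.hor P)) q}

/-- **(ENDS)**: the points of `E.PJA ∪ E.PJM ∪ E.PJ2` on the horizontal component `hor P` are
ends of `H_P`. -/
theorem s2me_isEnd (hx1 : EndsRed1 E.S H' (algebraMap K F E.ϖ1 / E.u1))
    (hx2 : EndsRed2 E.S H' E.u2) (P : SS) (Q : Place k (FkOf Fk0 FkM FkP (Vtx.hor P)))
    (h : (⟨Vtx.hor P, Q⟩ : Σ c, Place k (FkOf Fk0 FkM FkP c)) ∈ E.PJA ∨
      (⟨Vtx.hor P, Q⟩ : Σ c, Place k (FkOf Fk0 FkM FkP c)) ∈ E.PJM ∨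
      (⟨Vtx.hor P, Q⟩ : Σ c, Place k (FkOf Fk0 FkM FkP c)) ∈ E.PJ2) : (H' P).IsEnd Q := by
  rcases h with h | h | h
  · exact s2me_isEnd_of_pos1 hx1 P Q ((E.mem_PJ1 _).mp (E.PJA_sub_PJ1 h)).2
  · exact s2me_isEnd_of_pos1 hx1 P Q ((E.mem_PJ1 _).mp ((E.mem_PJM _).mp h).1).2
  · exact s2me_isEnd_of_pos2 hx2 P Q ((E.mem_PJ2 _).mp h).2

end Input

end Fermat.Agent.S36G
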