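import Mathlib
import Fermat.Agent.S36.G.CoreBundleOf
import Fermat.Agent.S36.G.Step12Final
import Fermat.Agent.S36.G.Step2ModEnds
import Fermat.Agent.S36.G.EndsDictYmod

set_option autoImplicit false
set_option linter.unusedSectionVars false
set_option linter.style.haveILetI false
set_option linter.unusedVariables false
set_option synthInstance.maxHeartbeats 400000
set_option maxHeartbeats 1600000

/-!
# Cluster G (S36), CB-INST, junction STEP12 for the modular seed  (helper62)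

The field `hStep12` of `CoreBundle (M₀ * q) q A` (`S36/G/CoreBundle.lean`), in the shape
`CboStep12 M₀ q A N n` of `S36/G/CoreBundleOf.lean`, for the graph
`N := (E.ymodSeed hn hb h12 hu2 hD₀ hdeg hgenus).graphSetup` of the modular seed (SEED v3,
`S36/Seed/Main.lean`), `E : ModEndsInput ..` with
`E.S = vtxFamily S_∞ (valSetupZeroAt D₀ hM₀ S_∞) I.S (fun P => (O P).S)`.

Inputs (all on main): Steps 1 + 2, final form (`step12_final`, helper60, on `step12_of_pack` and
helper38's `s2mh_hor`), the (ENDS) bridge (`s2me_isEnd`, helper38), `edy_hx1`, `edy_hN`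
(helper15).  The only hypothesis on the horizontal side is the SEED-UP shape
`hx2 : EndsRed2 E.S (fun P => (O P).H) E.u2`.

* `cbi_hends`   : (abstract) the branch points of `N` on `hor P` at the targets are ends of `H_P`;
* `cbi_hStep12` : **`CboStep12 M₀ q A N n`**.
-/

noncomputable section

open AlgebraicCurve Fermat.Agent.RR Fermat.Agent.Deuring

namespace Fermat.Agent.S36G

open ModularCurve Fermat.Agent.F3 Fermat.Agent.F3G Fermat.Agent.GaussInt
  Fermat.Agent.AtkinLehner Fermat.Agent.Kronecker Fermat.Agent.BadRed Fermat.Agent.BadRedG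
  Fermat.Agent.HP Fermat.Agent.HPVal

local notation "Qb" => AlgebraicClosure ℚ

attribute [local instance] Fermat.Agent.GaussInt.isAlgClosed_residue
  Fermat.Agent.GaussInt.infinite_residue

attribute [local instance 10000] SubalgebraClass.toAlgebra HahnSeries.powerSeriesAlgebra

/-! ### (ENDS) for the graph of the modular seed (abstract) -/

section Ends

variable {K F k : Type} [Field K] [Field F] [Algebra K F] [Field k] [IsAlgClosed k]
  {Mid SS : Type} [Fintype Mid] [Fintype SS] [Nonempty SS]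
  {Fk0 : Type} [Field Fk0] [Algebra k Fk0]
  {FkM : Mid → Type} [∀ m, Field (FkM m)] [∀ m, Algebra k (FkM m)]
  {FkP : SS → Type} [∀ P, Field (FkP P)] [∀ P, Algebra k (FkP P)]
  (E : ModEndsInput K F k Mid SS Fk0 FkM FkP)
  {q : ℕ} (H : ∀ P : SS, HPCurve k (FkOf Fk0 FkM FkP (Vtx.hor P)) q)
  {b : K} {nn : ℕ}

/-- **(ENDS)** for the graph of the modular seed: the branch points on `hor P` at the targets are
ends of `H_P`. -/
theorem cbi_hends (hn : 2 ≤ nn) (hb : E.ϖ1 ^ nn = b) (h12 : E.ϖ1 * E.ϖ2 = b)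
    (hu2 : E.u2 = E.u1 / algebraMap K F E.ϖ1)
    (hD₀ : E.D₀ = poleDiv (E.S (Vtx.vert Vrt.oo)).hF (E.ymodX b nn))
    (hdeg : Divisor.degree (poleDiv (E.S (Vtx.vert Vrt.oo)).hF (E.ymodX b nn)) ≤
      ∑ c, Divisor.degree (poleDiv (E.S c).hFk ((E.S c).red (E.ymodX b nn))))
    (hgenus : genusFF K F + Fintype.card (Vtx Mid SS) ≤
      (∑ c, genusFF k (FkOf Fk0 FkM FkP c)) + Fintype.card (Nod Mid SS) + 1)
    (hx2 : EndsRed2 E.S H E.u2)
    (P : SS) (Q : Place k (FkOf Fk0 FkM FkP (Vtx.hor P))) (i : Nod Mid SS)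
    (h : (⟨Vtx.hor P, Q⟩ : Σ c, Place k (FkOf Fk0 FkM FkP c)) =
      ⟨(E.ymodSeed hn hb h12 hu2 hD₀ hdeg hgenus).graphSetup.tgt i,
        (E.ymodSeed hn hb h12 hu2 hD₀ hdeg hgenus).graphSetup.s₂ i⟩) :
    (H P).IsEnd Q := by
  have hmem := E.toMatchInput.ptH_mem i
  rw [← edy_hN hn hb h12 hu2 hD₀ hdeg hgenus i, ← h] at hmem
  exact s2me_isEnd E (H' := H) (edy_hx1 hu2 hx2) hx2 P Q hmem

end Ends

/-! ### the junction -/

section Step12

variable {M₀ q : ℕ} [NeZero M₀] [NeZero q] {A : ValuationSubring Qb}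
  {SS : Type} [Fintype SS] [Nonempty SS]
  {FkP : SS → Type} [∀ P, Field (FkP P)] [∀ P, Algebra (IsLocalRing.ResidueField A) (FkP P)]
  (E : ModEndsInput Qb (FBar (M₀ * q * q)) (IsLocalRing.ResidueField A) (Fin (midCard q)) SS
    ↥(modularFunctionFieldFullC (IsLocalRing.ResidueField A) M₀)
    (fun _ : Fin (midCard q) => ↥(igField (IsLocalRing.ResidueField A) M₀)) FkP)
  {S0 : Fermat.Agent.S18Key.RedSetup Qb (FBar M₀) (IsLocalRing.ResidueField A)
    ↥(modularFunctionFieldFullC (IsLocalRing.ResidueField A) M₀)}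
  {Pl : SS → Place (IsLocalRing.ResidueField A)
    ↥(modularFunctionFieldFullC (IsLocalRing.ResidueField A) M₀)}
  (O : ∀ P : SS, WPOut M₀ q A S0 (Pl P) (FkP P))
  {b : Qb} {nn : ℕ}

/-- **junction STEP12 for the modular seed**: the field `hStep12` of `CoreBundle`. -/
theorem cbi_hStep12 (hq : q.Prime) (hqM : ¬ q ∣ M₀) (hν2 : nuTwo M₀ = 0)
    (hν3 : nuThree M₀ = 0) (hA : A.LiesOverPrime q) (hS0 : IsGaussRed M₀ A S0)
    (Soo : ValSetup Qb (FBar (M₀ * q * q)) (IsLocalRing.ResidueField A)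
      (modularFunctionFieldFullC (IsLocalRing.ResidueField A) M₀))
    (hSoo : IsGaussSetup (M₀ * q * q) M₀ A Soo)
    (D₀ : ALData) (hM₀ : M₀ * q * q = D₀.Q * D₀.R) (hDQ : D₀.Q = q ^ 2)
    (I : IgPack M₀ q A)
    (hES : E.S = vtxFamily Soo (valSetupZeroAt D₀ hM₀ Soo) I.S (fun P => (O P).S))
    (hn : 2 ≤ nn) (hb : E.ϖ1 ^ nn = b) (h12 : E.ϖ1 * E.ϖ2 = b)
    (hu2 : E.u2 = E.u1 / algebraMap Qb (FBar (M₀ * q * q)) E.ϖ1)
    (hD₀ : E.D₀ = poleDiv (E.S (Vtx.vert Vrt.oo)).hF (E.ymodX b nn))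
    (hdeg : Divisor.degree (poleDiv (E.S (Vtx.vert Vrt.oo)).hF (E.ymodX b nn)) ≤
      ∑ c, Divisor.degree (poleDiv (E.S c).hFk ((E.S c).red (E.ymodX b nn))))
    (hgenus : genusFF Qb (FBar (M₀ * q * q)) + Fintype.card (Vtx (Fin (midCard q)) SS) ≤
      (∑ c, genusFF (IsLocalRing.ResidueField A)
        (FkOf ↥(modularFunctionFieldFullC (IsLocalRing.ResidueField A) M₀)
          (fun _ : Fin (midCard q) => ↥(igField (IsLocalRing.ResidueField A) M₀)) FkP c)) +
        Fintype.card (Nod (Fin (midCard q)) SS) + 1)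
    (hx2 : EndsRed2 E.S (fun P => (O P).H) E.u2)
    (n : ℕ) (hn0 : n ≠ 0) :
    CboStep12 M₀ q A (E.ymodSeed hn hb h12 hu2 hD₀ hdeg hgenus).graphSetup n :=
  step12_final hq hqM hν2 hν3 A hA hS0 (E.ymodSeed hn hb h12 hu2 hD₀ hdeg hgenus).graphSetup
    (fun _ => rfl) Soo hSoo D₀ hM₀ hDQ I Pl O hES
    (fun P Q i h => cbi_hends E (fun P => (O P).H) hn hb h12 hu2 hD₀ hdeg hgenus hx2 P Q i h)
    n hn0

end Step12

end Fermat.Agent.S36G
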