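import Mathlib
import Fermat.Agent.S36.G.CocycleF12
import Fermat.Agent.F3.Galois.NormDesc

set_option autoImplicit false
set_option linter.unusedSectionVars false
set_option linter.style.haveILetI false

/-!
# Cluster G (S36), seat NR-SAT, abstract part: `NormSat` from the norm formula  (helper49)

`NormSat N n R Nm` (`S36/G/CocycleF12.lean`) asks that the poles of `Nm g` be ordinary places as
soon as `div g ≥ - n R`.  For the norms seen in `F`

* `π₁` : `Nm g = α (normAlong α g)`,
* `π₂` : `Nm g = W (α (normAlong α (W g)))`  (`W` a `K`-automorphism of `F`, e.g. `wAt D hM`),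

this follows from the NORM FORMULA for `α` (`NormFormulaAlong K α hfin`: the divisor of the norm is
the push-forward of the divisor) and from the SATURATION of the support of `R`:

* `PoleCtrl Nm rel`    : a pole `P` of `Nm g` is `rel`-related to a pole `w` of `g`;
* `poleCtrl_alpha`     : `PoleCtrl (α ∘ normAlong α) (same restriction along α)`;
* `PoleCtrl.conj`      : `PoleCtrl Nm rel → PoleCtrl (W ∘ Nm ∘ W) (rel (t⁻¹ • ·) (t • ·))`,
                         `t = SemilinearAut.ofAlgAut W`;
* `normSat_of_poleCtrl`: `PoleCtrl Nm rel → (∀ P w, R w ≠ 0 → rel P w → N.IsOrd P) → NormSat N n R Nm`;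
* `normSat_alpha`, `normSat_alpha_conj` : the two cases above.
-/

noncomputable section

open AlgebraicCurve Fermat.Agent.RR Fermat.Agent.Deuring

namespace Fermat.Agent.S36G

open Fermat.Agent.BadRed Fermat.Agent.BadRedG Fermat.Agent.F3G

variable {K F₁ F k : Type*} [Field K] [Field F₁] [Field F] [Algebra K F₁] [Algebra K F] [Field k]

/-! ### poles of a norm -/

/-- **pole control**: every pole `P` of `Nm g` is `rel`-related to a pole `w` of `g`. -/
def PoleCtrl (Nm : F → F) (rel : Place K F → Place K F → Prop) : Prop :=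
  ∀ g : F, g ≠ 0 → ∀ P : Place K F, P.ord (Nm g) < 0 → ∃ w : Place K F, rel P w ∧ w.ord g < 0

/-- a pole of the norm lies under a pole of the function (norm formula). -/
theorem nsa_exists_pole_of_norm (α : F₁ →ₐ[K] F) (hα : α.toRingHom.IsIntegral)
    (hfin : FiniteAlong K α) (hN : NormFormulaAlong K α hfin) (hF : IsRRField K F) {g : F}
    (hg : g ≠ 0) {v : Place K F₁} (hv : v.ord (normAlong α g) < 0) :
    ∃ w : Place K F, w.restrictAlong α hα = v ∧ w.ord g < 0 := by
  classical
  letI := algebraAlong α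
  haveI := isScalarTower_along α
  haveI := isIntegral_along α hα
  haveI : Module.Finite F₁ F := hfin
  have h1 : Divisor.pushforward F₁ (divOf hF g) v = v.ord (Algebra.norm F₁ g) :=
    hN g hg (divOf hF g) (fun w => divOf_apply hF g w) v
  rw [Divisor.pushforward_apply] at h1
  by_contra hcon
  push Not at hcon
  have h2 : (0 : ℤ) ≤ ∑ w ∈ (divOf hF g).support,
      if w.restrict F₁ = v then (divOf hF g) w * (w.inertiaDeg F₁ : ℤ) else 0 := by
    refine Finset.sum_nonneg fun w _ => ?_
    split_ifs with h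
    · refine mul_nonneg ?_ (Int.natCast_nonneg _)
      rw [divOf_apply]
      exact hcon w h
    · exact le_rfl
  rw [h1] at h2
  exact absurd hv (not_lt.mpr h2)

/-- **pole control for `π₁`**: a pole of `α (N_α g)` has the same restriction as a pole of `g`. -/
theorem poleCtrl_alpha (α : F₁ →ₐ[K] F) (hα : α.toRingHom.IsIntegral)
    (hfin : FiniteAlong K α) (hN : NormFormulaAlong K α hfin) (hF : IsRRField K F) :
    PoleCtrl (fun g : F => α (normAlong α g))
      (fun P w : Place K F => P.restrictAlong α hα = w.restrictAlong α hα) := by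
  intro g hg P hP
  have hP' : P.ord (α (normAlong α g)) < 0 := hP
  rw [Place.ord_restrictAlong α hα] at hP'
  have hv : (P.restrictAlong α hα).ord (normAlong α g) < 0 := by
    by_contra hcon
    push Not at hcon
    have : (0 : ℤ) ≤ (Place.ramificationIndexAlong α P : ℤ) *
        (P.restrictAlong α hα).ord (normAlong α g) :=
      mul_nonneg (Int.natCast_nonneg _) hcon
    exact absurd hP' (not_lt.mpr this)
  obtain ⟨w, hw, hwg⟩ := nsa_exists_pole_of_norm α hα hfin hN hF hg hv
  exact ⟨w, hw.symm, hwg⟩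

/-- `ord_P (W f) = ord_{t⁻¹ P} f`, `t = ofAlgAut W`. -/
theorem nsa_ord_algAut (W : F ≃ₐ[K] F) (P : Place K F) (f : F) :
    P.ord (W f) = ((SemilinearAut.ofAlgAut W)⁻¹ • P).ord f := by
  have h := SemilinearAut.ord_smul (SemilinearAut.ofAlgAut W)
    ((SemilinearAut.ofAlgAut W)⁻¹ • P) f
  rw [smul_inv_smul, SemilinearAut.ofAlgAut_smul] at h
  exact h

/-- **conjugation of a pole control** by an automorphism `W` of `F`. -/
theorem PoleCtrl.conj {Nm : F → F} {rel : Place K F → Place K F → Prop} (h : PoleCtrl Nm rel)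
    (W : F ≃ₐ[K] F) :
    PoleCtrl (fun g : F => W (Nm (W g)))
      (fun P w : Place K F => rel ((SemilinearAut.ofAlgAut W)⁻¹ • P)
        ((SemilinearAut.ofAlgAut W) • w)) := by
  intro g hg P hP
  have hP' : P.ord (W (Nm (W g))) < 0 := hP
  rw [nsa_ord_algAut] at hP'
  have hWg : W g ≠ 0 := (map_ne_zero W).mpr hg
  obtain ⟨w, hrel, hw⟩ := h (W g) hWg _ hP'
  rw [nsa_ord_algAut] at hw
  refine ⟨(SemilinearAut.ofAlgAut W)⁻¹ • w, ?_, hw⟩
  show rel _ ((SemilinearAut.ofAlgAut W) • ((SemilinearAut.ofAlgAut W)⁻¹ • w))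
  rw [smul_inv_smul]
  exact hrel

/-! ### saturation -/

variable {Mid SS : Type} [Fintype Mid] {Fk : Vtx Mid SS → Type*} [∀ c, Field (Fk c)]
  [∀ c, Algebra k (Fk c)]

/-- **`NormSat` from a pole control and the saturation of the support of `R`.** -/
theorem normSat_of_poleCtrl (N : GraphSetup K F k (Vtx Mid SS) Fk (Nod Mid SS)) {n : ℕ}
    {R : Divisor K F} {Nm : F → F} {rel : Place K F → Place K F → Prop}
    (h : PoleCtrl Nm rel)
    (hsat : ∀ P w : Place K F, R w ≠ 0 → rel P w → N.IsOrd P) :
    NormSat N n R Nm := by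
  intro g hg hdiv P hP
  obtain ⟨w, hrel, hw⟩ := h g hg P hP
  refine hsat P w ?_ hrel
  intro hR
  have := hdiv w
  rw [hR, mul_zero, neg_zero] at this
  exact absurd hw (not_lt.mpr this)

/-- **(NR-SAT, `π₁`)**: `NormSat` for `Nm g = α (N_α g)` if the support of `R` is saturated for
`α` and ordinary: every place with the same restriction as a place of the support is ordinary. -/
theorem normSat_alpha (N : GraphSetup K F k (Vtx Mid SS) Fk (Nod Mid SS)) (n : ℕ)
    (R : Divisor K F) (α : F₁ →ₐ[K] F) (hα : α.toRingHom.IsIntegral)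
    (hfin : FiniteAlong K α) (hN : NormFormulaAlong K α hfin) (hF : IsRRField K F)
    (hsat : ∀ P w : Place K F, R w ≠ 0 → P.restrictAlong α hα = w.restrictAlong α hα →
      N.IsOrd P) :
    NormSat N n R (fun g : F => α (normAlong α g)) :=
  normSat_of_poleCtrl N (poleCtrl_alpha α hα hfin hN hF) hsat

/-- **(NR-SAT, `π₂`)**: `NormSat` for `Nm g = W (α (N_α (W g)))`. -/
theorem normSat_alpha_conj (N : GraphSetup K F k (Vtx Mid SS) Fk (Nod Mid SS)) (n : ℕ)
    (R : Divisor K F) (α : F₁ →ₐ[K] F) (hα : α.toRingHom.IsIntegral)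
    (hfin : FiniteAlong K α) (hN : NormFormulaAlong K α hfin) (hF : IsRRField K F)
    (W : F ≃ₐ[K] F)
    (hsat : ∀ P w : Place K F, R w ≠ 0 →
      ((SemilinearAut.ofAlgAut W)⁻¹ • P).restrictAlong α hα =
        ((SemilinearAut.ofAlgAut W) • w).restrictAlong α hα → N.IsOrd P) :
    NormSat N n R (fun g : F => W (α (normAlong α (W g)))) :=
  normSat_of_poleCtrl N ((poleCtrl_alpha α hα hfin hN hF).conj W) hsat

end Fermat.Agent.S36G
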