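import Mathlib
import Fermat.Agent.S36.G.NormSatAbs

set_option autoImplicit false
set_option linter.unusedSectionVars false
set_option linter.style.haveILetI false

/-!
# Cluster G (S36), seat NR-SAT: saturation from a POLE FUNCTION  (helper49)

The hypothesis `hsat` of `normSat_alpha` / `normSat_alpha_conj` (`S36/G/NormSatAbs.lean`) holds as
soon as the support of `R` lies in the set of poles of a function which comes from the lower level
and whose poles are ordinary:

* `nsa_pole_of_restrict_eq` : the set of poles of `α x₁` is saturated for `α`;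
* `normSat_alpha_of_poleFun` : `π₁`: `supp R ⊆ poles (α x₁)`, `poles (α x₁)` ordinary
  `⟹ NormSat N n R (α ∘ N_α)`;
* `normSat_alpha_conj_of_poleFun` : `π₂`: `supp R ⊆ poles (W⁻¹ (α x₁))`, `poles (W (α x₁))` ordinary
  `⟹ NormSat N n R (W ∘ α ∘ N_α ∘ W)`;
* `normSat_alpha_conj_of_poleFun_invol` : the same for an involution `W`;
* `normSat_alpha_of_poleDiv`, `normSat_alpha_conj_of_poleDiv` : the case `R = m • (x)_∞`,
  `x = α x₁` resp. `x = W (α x₁)` with ordinary poles (the seed divisor of the modular graph).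
-/

noncomputable section

open AlgebraicCurve Fermat.Agent.RR Fermat.Agent.Deuring

namespace Fermat.Agent.S36G

open Fermat.Agent.BadRed Fermat.Agent.BadRedG Fermat.Agent.F3G

variable {K F₁ F k : Type*} [Field K] [Field F₁] [Field F] [Algebra K F₁] [Algebra K F] [Field k]

/-- the ramification index along `α` is positive. -/
theorem nsa_ramificationIndexAlong_pos (α : F₁ →ₐ[K] F) (hα : α.toRingHom.IsIntegral)
    (w : Place K F) : 0 < w.ramificationIndexAlong α := by
  letI := algebraAlong α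
  haveI := isScalarTower_along α
  haveI := isIntegral_along α hα
  exact w.ramificationIndex_pos (F := F₁)

/-- `α x₁` has a pole at `w` iff `x₁` has a pole at the restriction of `w`. -/
theorem nsa_ord_alpha_neg_iff (α : F₁ →ₐ[K] F) (hα : α.toRingHom.IsIntegral) (x₁ : F₁)
    (w : Place K F) : w.ord (α x₁) < 0 ↔ (w.restrictAlong α hα).ord x₁ < 0 := by
  rw [Place.ord_restrictAlong α hα]
  have he : (0 : ℤ) < (w.ramificationIndexAlong α : ℤ) := by
    exact_mod_cast nsa_ramificationIndexAlong_pos α hα w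
  constructor
  · intro h
    by_contra hcon
    push Not at hcon
    exact absurd h (not_lt.mpr (mul_nonneg he.le hcon))
  · intro h
    exact mul_neg_of_pos_of_neg he h

/-- **the set of poles of `α x₁` is saturated for `α`.** -/
theorem nsa_pole_of_restrict_eq (α : F₁ →ₐ[K] F) (hα : α.toRingHom.IsIntegral) (x₁ : F₁)
    {P w : Place K F} (h : P.restrictAlong α hα = w.restrictAlong α hα)
    (hw : w.ord (α x₁) < 0) : P.ord (α x₁) < 0 := by
  rw [nsa_ord_alpha_neg_iff α hα] at hw ⊢
  rw [h]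
  exact hw

/-- `ord_{t w} f = ord_w (W⁻¹ f)`, `t = ofAlgAut W`. -/
theorem nsa_ord_smul_algAut (W : F ≃ₐ[K] F) (w : Place K F) (f : F) :
    ((SemilinearAut.ofAlgAut W) • w).ord f = w.ord (W.symm f) := by
  have h := SemilinearAut.ord_smul (SemilinearAut.ofAlgAut W) w (W.symm f)
  rw [SemilinearAut.ofAlgAut_smul, AlgEquiv.apply_symm_apply] at h
  exact h

variable {Mid SS : Type} [Fintype Mid] {Fk : Vtx Mid SS → Type*} [∀ c, Field (Fk c)]
  [∀ c, Algebra k (Fk c)]

/-- **(NR-SAT, `π₁`) from a pole function.** -/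
theorem normSat_alpha_of_poleFun (N : GraphSetup K F k (Vtx Mid SS) Fk (Nod Mid SS)) (n : ℕ)
    (R : Divisor K F) (α : F₁ →ₐ[K] F) (hα : α.toRingHom.IsIntegral)
    (hfin : FiniteAlong K α) (hN : NormFormulaAlong K α hfin) (hF : IsRRField K F) (x₁ : F₁)
    (hR : ∀ w : Place K F, R w ≠ 0 → w.ord (α x₁) < 0)
    (hord : ∀ P : Place K F, P.ord (α x₁) < 0 → N.IsOrd P) :
    NormSat N n R (fun g : F => α (normAlong α g)) :=
  normSat_alpha N n R α hα hfin hN hF fun P w hw h =>
    hord P (nsa_pole_of_restrict_eq α hα x₁ h (hR w hw))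

/-- **(NR-SAT, `π₂`) from a pole function.** -/
theorem normSat_alpha_conj_of_poleFun (N : GraphSetup K F k (Vtx Mid SS) Fk (Nod Mid SS))
    (n : ℕ) (R : Divisor K F) (α : F₁ →ₐ[K] F) (hα : α.toRingHom.IsIntegral)
    (hfin : FiniteAlong K α) (hN : NormFormulaAlong K α hfin) (hF : IsRRField K F)
    (W : F ≃ₐ[K] F) (x₁ : F₁)
    (hR : ∀ w : Place K F, R w ≠ 0 → w.ord (W.symm (α x₁)) < 0)
    (hord : ∀ P : Place K F, P.ord (W (α x₁)) < 0 → N.IsOrd P) :
    NormSat N n R (fun g : F => W (α (normAlong α (W g)))) :=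
  normSat_alpha_conj N n R α hα hfin hN hF W fun P w hw h => by
    refine hord P ?_
    rw [nsa_ord_algAut]
    refine nsa_pole_of_restrict_eq α hα x₁ h ?_
    rw [nsa_ord_smul_algAut]
    exact hR w hw

/-- **(NR-SAT, `π₂`) from a pole function, `W` an involution.** -/
theorem normSat_alpha_conj_of_poleFun_invol
    (N : GraphSetup K F k (Vtx Mid SS) Fk (Nod Mid SS))
    (n : ℕ) (R : Divisor K F) (α : F₁ →ₐ[K] F) (hα : α.toRingHom.IsIntegral)
    (hfin : FiniteAlong K α) (hN : NormFormulaAlong K α hfin) (hF : IsRRField K F)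
    (W : F ≃ₐ[K] F) (hW : ∀ x : F, W (W x) = x) (x₁ : F₁)
    (hR : ∀ w : Place K F, R w ≠ 0 → w.ord (W (α x₁)) < 0)
    (hord : ∀ P : Place K F, P.ord (W (α x₁)) < 0 → N.IsOrd P) :
    NormSat N n R (fun g : F => W (α (normAlong α (W g)))) := by
  have hsymm : ∀ x : F, W.symm x = W x := fun x => by
    rw [AlgEquiv.symm_apply_eq, hW]
  exact normSat_alpha_conj_of_poleFun N n R α hα hfin hN hF W x₁
    (fun w hw => by rw [hsymm]; exact hR w hw) hord

/-! ### the seed divisor `R = m • (x)_∞` -/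

/-- the support of `m • (x)_∞` consists of poles of `x`. -/
theorem nsa_pole_of_smul_poleDiv (hF : IsRRField K F) (m : ℕ) (x : F) {w : Place K F}
    (hw : (m • poleDiv hF x) w ≠ 0) : w.ord x < 0 := by
  by_contra hcon
  push Not at hcon
  apply hw
  rw [Finsupp.smul_apply, poleDiv_apply, max_eq_right (by omega), smul_zero]

/-- **(NR-SAT, `π₁`) for `R = m • (α x₁)_∞`.** -/
theorem normSat_alpha_of_poleDiv (N : GraphSetup K F k (Vtx Mid SS) Fk (Nod Mid SS)) (n m : ℕ)
    (α : F₁ →ₐ[K] F) (hα : α.toRingHom.IsIntegral)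
    (hfin : FiniteAlong K α) (hN : NormFormulaAlong K α hfin) (hF : IsRRField K F) (x₁ : F₁)
    (hord : N.IsOrdDiv (poleDiv hF (α x₁))) :
    NormSat N n (m • poleDiv hF (α x₁)) (fun g : F => α (normAlong α g)) :=
  normSat_alpha_of_poleFun N n _ α hα hfin hN hF x₁
    (fun w hw => nsa_pole_of_smul_poleDiv hF m _ hw)
    (fun P hP => hord P (by
      rw [poleDiv_apply]
      have : max (-P.ord (α x₁)) 0 = -P.ord (α x₁) := max_eq_left (by omega)
      rw [this]
      omega))

/-- **(NR-SAT, `π₂`) for `R = m • (W (α x₁))_∞`, `W` an involution.** -/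
theorem normSat_alpha_conj_of_poleDiv (N : GraphSetup K F k (Vtx Mid SS) Fk (Nod Mid SS))
    (n m : ℕ) (α : F₁ →ₐ[K] F) (hα : α.toRingHom.IsIntegral)
    (hfin : FiniteAlong K α) (hN : NormFormulaAlong K α hfin) (hF : IsRRField K F)
    (W : F ≃ₐ[K] F) (hW : ∀ x : F, W (W x) = x) (x₁ : F₁)
    (hord : N.IsOrdDiv (poleDiv hF (W (α x₁)))) :
    NormSat N n (m • poleDiv hF (W (α x₁))) (fun g : F => W (α (normAlong α (W g)))) :=
  normSat_alpha_conj_of_poleFun_invol N n _ α hα hfin hN hF W hW x₁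
    (fun w hw => nsa_pole_of_smul_poleDiv hF m _ hw)
    (fun P hP => hord P (by
      rw [poleDiv_apply]
      have : max (-P.ord (W (α x₁))) 0 = -P.ord (W (α x₁)) := max_eq_left (by omega)
      rw [this]
      omega))

end Fermat.Agent.S36G
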