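import Mathlib
import Fermat.Agent.S36.G.NormSatFun
import Fermat.Agent.S36.G.CocycleF12Mod
import Fermat.Agent.S36.Seed.Cusp
import Fermat.Agent.S36.Seed.YDefs
import Fermat.Agent.E.Desc.Comm.Levels

set_option autoImplicit false
set_option linter.unusedSectionVars false
set_option linter.unusedVariables false
set_option linter.style.haveILetI false

/-!
# Cluster G (S36), seat SAT (NR-SAT), modular glue  (helper49; `(H)` for `π₂`: helper20)

`NormSat N n R (nm1 N₁ q)` and `NormSat N n R (nm2 N₁ q D hM)` for the base divisors `R` supported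
on the poles of the SEED FUNCTION (seed v3, `S36/Seed/YDefs.lean`)

    `x = u + b / u + y`,   `u = u₁ = uF (N₁ q) q`,   `y = ymodY u b n = b uⁿ / (uⁿ - b)²`.

## Abstract part
* `nsm_seed_pole_of_ord_ne`  : `ord_P u ≠ 0 ⟹ ord_P x < 0`           (the cusps are poles of `x`);
* `nsm_seed_pole_cases`      : `ord_P x < 0 ⟹ ord_P u ≠ 0 ∨ ord_P y < 0`;
* `normSat_of_cusp_hor`      : `NormSat` from a pole control, the saturation of the cusps and the
  horizontal saturation `(H)`.

## Modular part (`F = FBar (N₁ q)`, `α = heckeAlphaBar Qb N₁ q`, `q ∣ N₁`, `W = wAt D hM`, `D.Q = q²`)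
* `nsm_alpha_uF`, `nsm_alpha_jF`, `nsm_alpha_seed` : `u₁`, `j₁ = j(qz)`, `x` come from level `N₁`;
* `nsm_wAt_jF` : `W j₁ = j₁`;
* `nsm_normSat_nm1` : **`NormSat N n R (nm1 N₁ q)`** (complete: `x ∈ α F₁`);
* `HorSat2` : the horizontal saturation for `π₂` (seat `(H)`, helper20, `S36/G/SatMod.lean`);
* `nsm_normSat_nm2` : **`NormSat N n R (nm2 N₁ q D hM)`** from `HorSat2`.
-/

noncomputable section

open AlgebraicCurve Fermat.Agent.RR Fermat.Agent.Deuring

namespace Fermat.Agent.S36G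

open Fermat.Agent.BadRed Fermat.Agent.BadRedG Fermat.Agent.F3G Fermat.Agent.F3
  Fermat.Agent.AtkinLehner ModularCurve Fermat.Agent.S24Res

/-! ### the poles of the seed function -/

section Abs

variable {K F : Type*} [Field K] [Field F] [Algebra K F]

/-- `ord_P (f ^ n) = n ord_P f`. -/
theorem nsm_ord_pow (P : Place K F) (f : F) (n : ℕ) : P.ord (f ^ n) = n * P.ord f := by
  have h := P.ord_zpow f (n : ℤ)
  rwa [zpow_natCast] at h

/-- `ord_P f < 0 ↔ f ∉ O_P`. -/
theorem nsm_ord_neg_iff (P : Place K F) (f : F) : P.ord f < 0 ↔ f ∉ P.toValuationSubring := by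
  rw [mem_iff_ord_nonneg, not_le]

/-- the seed term `y` is regular where `u` has a zero or a pole. -/
theorem nsm_ymodY_mem_of_ord_ne (P : Place K F) {u : F} {b : K} (hb : b ≠ 0) {n : ℕ}
    (hn : n ≠ 0) (hP : P.ord u ≠ 0) : ymodY u b n ∈ P.toValuationSubring := by
  have hbF : algebraMap K F b ≠ 0 := (_root_.map_ne_zero _).mpr hb
  have hu : u ≠ 0 := by
    rintro rfl
    exact hP P.ord_zero
  have hun : u ^ n ≠ 0 := pow_ne_zero n hu
  have hordn : P.ord (u ^ n) = n * P.ord u := nsm_ord_pow P u n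
  have hnpos : (0 : ℤ) < n := by exact_mod_cast Nat.pos_of_ne_zero hn
  rcases lt_or_gt_of_ne hP with hneg | hpos
  · -- a pole of `u`: `y = (b / uⁿ) / (1 - b / uⁿ)²`
    have h1 : algebraMap K F b / u ^ n ∈ P.toValuationSubring := by
      rw [mem_iff_ord_nonneg, div_eq_mul_inv, P.ord_mul hbF (inv_ne_zero hun), P.ord_inv,
        ord_algebraMap, hordn]
      nlinarith
    have h1' : 0 < P.ord (algebraMap K F b / u ^ n) := by
      rw [div_eq_mul_inv, P.ord_mul hbF (inv_ne_zero hun), P.ord_inv, ord_algebraMap, hordn]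
      nlinarith
    have h2 : (1 - algebraMap K F b / u ^ n) ∈ P.toValuationSubring :=
      sub_mem (one_mem _) h1
    have h3 : (1 - algebraMap K F b / u ^ n) ≠ 0 := by
      intro h0
      have : algebraMap K F b / u ^ n = 1 := (sub_eq_zero.mp h0).symm
      rw [this, P.ord_one] at h1'
      exact lt_irrefl _ h1'
    have h4 : P.ord (1 - algebraMap K F b / u ^ n) = 0 := by
      by_contra hne
      have hge : 0 ≤ P.ord (1 - algebraMap K F b / u ^ n) := (Fermat.Agent.S24Res.mem_iff_ord_nonneg P).mp h2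
      have hgt : 0 < P.ord (1 - algebraMap K F b / u ^ n) := lt_of_le_of_ne hge (Ne.symm hne)
      -- then `1 = (1 - t) + t` has positive order
      have hb0 : algebraMap K F b / u ^ n ≠ 0 := div_ne_zero hbF hun
      have hsum : (1 - algebraMap K F b / u ^ n) + algebraMap K F b / u ^ n ≠ 0 := by
        rw [sub_add_cancel]
        exact one_ne_zero
      have := ord_add_ge P h3 hb0 hsum
      rw [sub_add_cancel, P.ord_one] at this
      have hmin : 0 < min (P.ord (1 - algebraMap K F b / u ^ n))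
          (P.ord (algebraMap K F b / u ^ n)) := lt_min hgt h1'
      omega
    have e : ymodY u b n =
        (algebraMap K F b / u ^ n) * ((1 - algebraMap K F b / u ^ n) ^ 2)⁻¹ := by
      unfold ymodY
      have hd : u ^ n - algebraMap K F b ≠ 0 := by
        intro h0
        apply h3
        rw [sub_eq_zero] at h0 ⊢
        rw [h0, div_self hbF]
      field_simp
    have h5 : P.ord ((1 - algebraMap K F b / u ^ n) ^ 2) = 0 := by
      rw [nsm_ord_pow, h4, mul_zero]
    rw [e, Fermat.Agent.S24Res.mem_iff_ord_nonneg,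
      P.ord_mul (div_ne_zero hbF hun) (inv_ne_zero (pow_ne_zero 2 h3)), P.ord_inv, h5, neg_zero,
      add_zero]
    exact h1'.le
  · -- a zero of `u`: `y = b uⁿ / (uⁿ - b)²`, `uⁿ - b` a unit
    have h1 : u ^ n ∈ P.toValuationSubring := by
      rw [mem_iff_ord_nonneg, hordn]
      nlinarith
    have h1' : 0 < P.ord (u ^ n) := by
      rw [hordn]
      nlinarith
    have h3 : u ^ n - algebraMap K F b ≠ 0 := by
      intro h0
      rw [sub_eq_zero.mp h0, ord_algebraMap] at h1'
      exact lt_irrefl _ h1'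
    have h2 : u ^ n - algebraMap K F b ∈ P.toValuationSubring :=
      sub_mem h1 ((Fermat.Agent.S24Res.mem_iff_ord_nonneg P).mpr (by rw [ord_algebraMap]))
    have h4 : P.ord (u ^ n - algebraMap K F b) = 0 := by
      by_contra hne
      have hge : 0 ≤ P.ord (u ^ n - algebraMap K F b) := (Fermat.Agent.S24Res.mem_iff_ord_nonneg P).mp h2
      have hgt : 0 < P.ord (u ^ n - algebraMap K F b) := lt_of_le_of_ne hge (Ne.symm hne)
      have e1 : (u ^ n - algebraMap K F b) + -(u ^ n) = -algebraMap K F b := by ring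
      have hsum : (u ^ n - algebraMap K F b) + -(u ^ n) ≠ 0 := by
        rw [e1]
        exact neg_ne_zero.mpr hbF
      have hneg : -(u ^ n) ≠ 0 := neg_ne_zero.mpr hun
      have := ord_add_ge P h3 hneg hsum
      have e2 : P.ord (-(u ^ n)) = P.ord (u ^ n) := by
        rw [neg_eq_neg_one_mul, P.ord_mul (neg_ne_zero.mpr one_ne_zero) hun]
        have : P.ord (-1 : F) = 0 := by
          have h := ord_algebraMap P (-1 : K)
          rwa [map_neg, map_one] at h
        rw [this, zero_add]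
      have e3 : P.ord (-algebraMap K F b) = 0 := by
        have h := ord_algebraMap P (-b)
        rwa [map_neg] at h
      rw [e1, e2, e3] at this
      have hmin : 0 < min (P.ord (u ^ n - algebraMap K F b)) (P.ord (u ^ n)) := lt_min hgt h1'
      omega
    have h5 : P.ord ((u ^ n - algebraMap K F b) ^ 2) = 0 := by
      rw [nsm_ord_pow, h4, mul_zero]
    unfold ymodY
    rw [Fermat.Agent.S24Res.mem_iff_ord_nonneg, div_eq_mul_inv,
      P.ord_mul (mul_ne_zero hbF hun) (inv_ne_zero (pow_ne_zero 2 h3)),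
      P.ord_mul hbF hun, P.ord_inv, h5, ord_algebraMap, neg_zero, add_zero, zero_add]
    exact h1'.le

/-- **the zeros and poles of `u` are poles of the seed function `x = u + b / u + y`.** -/
theorem nsm_seed_pole_of_ord_ne (P : Place K F) {u : F} {b : K} (hb : b ≠ 0) {n : ℕ}
    (hn : n ≠ 0) (hP : P.ord u ≠ 0) :
    P.ord (u + algebraMap K F b / u + ymodY u b n) < 0 := by
  have hbF : algebraMap K F b ≠ 0 := (_root_.map_ne_zero _).mpr hb
  have hu : u ≠ 0 := by
    rintro rfl
    exact hP P.ord_zero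
  have hy := nsm_ymodY_mem_of_ord_ne P hb hn hP
  have hbu : P.ord (algebraMap K F b / u) = -P.ord u := by
    rw [div_eq_mul_inv, P.ord_mul hbF (inv_ne_zero hu), P.ord_inv, ord_algebraMap, zero_add]
  rw [nsm_ord_neg_iff]
  intro hx
  rcases lt_or_gt_of_ne hP with hneg | hpos
  · -- `u` has a pole, `b / u` is integral
    have h1 : algebraMap K F b / u ∈ P.toValuationSubring := by
      rw [mem_iff_ord_nonneg, hbu]
      omega
    have h2 : u ∈ P.toValuationSubring := by
      have := sub_mem (sub_mem hx hy) h1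
      have e : u + algebraMap K F b / u + ymodY u b n - ymodY u b n - algebraMap K F b / u = u := by
        ring
      rwa [e] at this
    rw [mem_iff_ord_nonneg] at h2
    omega
  · -- `u` has a zero, `b / u` has a pole
    have h1 : u ∈ P.toValuationSubring := by
      rw [mem_iff_ord_nonneg]
      omega
    have h2 : algebraMap K F b / u ∈ P.toValuationSubring := by
      have := sub_mem (sub_mem hx hy) h1
      have e : u + algebraMap K F b / u + ymodY u b n - ymodY u b n - u = algebraMap K F b / u := by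
        ring
      rwa [e] at this
    rw [mem_iff_ord_nonneg, hbu] at h2
    omega

/-- **a pole of the seed function is a zero or a pole of `u`, or a pole of `y`.** -/
theorem nsm_seed_pole_cases (P : Place K F) {u : F} {b : K} {n : ℕ}
    (hP : P.ord (u + algebraMap K F b / u + ymodY u b n) < 0) :
    P.ord u ≠ 0 ∨ P.ord (ymodY u b n) < 0 := by
  by_contra hcon
  push Not at hcon
  obtain ⟨h0, hy⟩ := hcon
  rw [nsm_ord_neg_iff] at hP
  apply hP
  have hu : u ∈ P.toValuationSubring := by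
    rw [mem_iff_ord_nonneg, h0]
  have hbu : algebraMap K F b / u ∈ P.toValuationSubring := by
    rcases eq_or_ne b 0 with rfl | hb
    · rw [map_zero, zero_div]
      exact zero_mem _
    rcases eq_or_ne u 0 with rfl | hu0
    · rw [div_zero]
      exact zero_mem _
    rw [mem_iff_ord_nonneg, div_eq_mul_inv,
      P.ord_mul ((_root_.map_ne_zero _).mpr hb) (inv_ne_zero hu0), P.ord_inv, ord_algebraMap, h0]
    simp
  exact add_mem (add_mem hu hbu)
    ((Fermat.Agent.S24Res.mem_iff_ord_nonneg P).mpr hy)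

variable {k : Type*} [Field k] {Mid SS : Type} [Fintype Mid] {Fk : Vtx Mid SS → Type*}
  [∀ c, Field (Fk c)] [∀ c, Algebra k (Fk c)]

/-- **`NormSat` from a pole control, the saturation of the cusps and the horizontal
saturation.**  `x` the seed function (its poles are ordinary and contain the support of `R`),
`jc` a function whose poles are the cusps, `y` the horizontal term. -/
theorem normSat_of_cusp_hor (N : GraphSetup K F k (Vtx Mid SS) Fk (Nod Mid SS)) (n : ℕ)
    {R : Divisor K F} {Nm : F → F} {rel : Place K F → Place K F → Prop}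
    (h : PoleCtrl Nm rel) (x jc y : F)
    (hR : ∀ w : Place K F, R w ≠ 0 → w.ord x < 0)
    (hx : ∀ w : Place K F, w.ord x < 0 → w.ord jc < 0 ∨ w.ord y < 0)
    (hcs : ∀ P w : Place K F, w.ord jc < 0 → rel P w → P.ord jc < 0)
    (hco : ∀ P : Place K F, P.ord jc < 0 → N.IsOrd P)
    (hH : ∀ P w : Place K F, w.ord y < 0 → rel P w → N.IsOrd P) :
    NormSat N n R Nm :=
  normSat_of_poleCtrl N h fun P w hw hrel => by
    rcases hx w (hR w hw) with hc | hy
    · exact hco P (hcs P w hc hrel)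
    · exact hH P w hy hrel

end Abs

/-! ### the modular case -/

section Mod

local notation "Qb" => AlgebraicClosure ℚ

variable (N₁ q : ℕ) [NeZero N₁] [NeZero q]

/-- `q ∣ N₁ q`. -/
theorem nsm_dvd : q ∣ N₁ * q := Dvd.intro_left N₁ rfl

/-- `u₁` comes from the level `N₁`. -/
theorem nsm_alpha_uF (hq : q ∣ N₁) :
    heckeAlphaBar Qb N₁ q (uF N₁ q hq) = uF (N₁ * q) q (nsm_dvd N₁ q) := by
  apply Subtype.ext
  rw [coe_heckeAlphaBar, coe_uF, coe_uF]

/-- `j₁ = j(qz)` comes from the level `N₁`. -/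
theorem nsm_alpha_jF (hq : q ∣ N₁) :
    heckeAlphaBar Qb N₁ q (jF N₁ q hq) = jF (N₁ * q) q (nsm_dvd N₁ q) := by
  apply Subtype.ext
  rw [coe_heckeAlphaBar, coe_jF, coe_jF]

/-- the seed term comes from the level `N₁`. -/
theorem nsm_alpha_ymodY (u : FBar N₁) (b : Qb) (n : ℕ) :
    heckeAlphaBar Qb N₁ q (ymodY u b n) = ymodY (heckeAlphaBar Qb N₁ q u) b n := by
  unfold ymodY
  rw [map_div₀, map_mul, map_pow, map_pow, map_sub, map_pow, AlgHom.commutes]

/-- **the seed function comes from the level `N₁`.** -/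
theorem nsm_alpha_seed (hq : q ∣ N₁) (b : Qb) (n : ℕ) :
    heckeAlphaBar Qb N₁ q
        (uF N₁ q hq + algebraMap Qb (FBar N₁) b / uF N₁ q hq + ymodY (uF N₁ q hq) b n) =
      uF (N₁ * q) q (nsm_dvd N₁ q) +
        algebraMap Qb (FBar (N₁ * q)) b / uF (N₁ * q) q (nsm_dvd N₁ q) +
        ymodY (uF (N₁ * q) q (nsm_dvd N₁ q)) b n := by
  rw [map_add, map_add, map_div₀, AlgHom.commutes, nsm_alpha_ymodY, nsm_alpha_uF]

/-- **`W j₁ = j₁`** for the Atkin–Lehner involution `W = w_{q²}` (`D.Q = q²`). -/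
theorem nsm_wAt_jF (D : ALData) (hM : N₁ * q = D.Q * D.R) (hDQ : D.Q = q ^ 2) :
    wAt D hM (jF (N₁ * q) q (nsm_dvd N₁ q)) = jF (N₁ * q) q (nsm_dvd N₁ q) := by
  haveI : NeZero (q * 1) := ⟨by rw [mul_one]; exact NeZero.ne q⟩
  apply Subtype.ext
  have h := coe_wAt_of_coe_gen D hM q q 1 D.R (by rw [hDQ, sq]) (one_mul _)
    (jF (N₁ * q) q (nsm_dvd N₁ q)) (by rw [coe_jF]; exact qExpand_congr (mul_one q).symm _)
  rw [h, coe_jF]
  exact qExpand_congr (mul_one q) _

variable {k : Type*} [Field k] {Mid SS : Type} [Fintype Mid] {Fk : Vtx Mid SS → Type*}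
  [∀ c, Field (Fk c)] [∀ c, Algebra k (Fk c)]

/-- **(SAT, `π₁`)**: `NormSat N n R (nm1 N₁ q)` for every `R` supported on the poles of the seed
function `x = u₁ + b / u₁ + y`, as soon as the poles of `x` are ordinary. -/
theorem nsm_normSat_nm1 (hq : q ∣ N₁)
    (N : GraphSetup Qb (FBar (N₁ * q)) k (Vtx Mid SS) Fk (Nod Mid SS)) (n : ℕ)
    (R : Divisor Qb (FBar (N₁ * q))) (b : Qb) (m : ℕ)
    (hR : ∀ w : Place Qb (FBar (N₁ * q)), R w ≠ 0 →
      w.ord (uF (N₁ * q) q (nsm_dvd N₁ q) +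
        algebraMap Qb (FBar (N₁ * q)) b / uF (N₁ * q) q (nsm_dvd N₁ q) +
        ymodY (uF (N₁ * q) q (nsm_dvd N₁ q)) b m) < 0)
    (hord : ∀ P : Place Qb (FBar (N₁ * q)),
      P.ord (uF (N₁ * q) q (nsm_dvd N₁ q) +
        algebraMap Qb (FBar (N₁ * q)) b / uF (N₁ * q) q (nsm_dvd N₁ q) +
        ymodY (uF (N₁ * q) q (nsm_dvd N₁ q)) b m) < 0 → N.IsOrd P) :
    NormSat N n R (nm1 N₁ q) := by
  have hfin := Fermat.Agent.EDescComm.finiteAlong_bar (heckeAlphaBar Qb N₁ q)
  have hα := Fermat.Agent.EDescComm.isIntegral_bar (heckeAlphaBar Qb N₁ q)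
  have hN := Fermat.Agent.EDescComm.normFormulaAlong_bar (heckeAlphaBar Qb N₁ q) hfin
  have hF := Fermat.Agent.RRMod.isRRField_bar (N₁ * q)
  exact normSat_alpha_of_poleFun N n R (heckeAlphaBar Qb N₁ q) hα hfin hN hF
    (uF N₁ q hq + algebraMap Qb (FBar N₁) b / uF N₁ q hq + ymodY (uF N₁ q hq) b m)
    (fun w hw => by rw [nsm_alpha_seed]; exact hR w hw)
    (fun P hP => hord P (by rw [nsm_alpha_seed] at hP; exact hP))

/-- **the horizontal saturation for `π₂`** (seat `(H)`): the `π₂`-mates of the poles of the seed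
term `y` are ordinary. -/
def HorSat2 (D : ALData) (hM : N₁ * q = D.Q * D.R)
    (N : GraphSetup Qb (FBar (N₁ * q)) k (Vtx Mid SS) Fk (Nod Mid SS)) (b : Qb) (m : ℕ) : Prop :=
  ∀ P w : Place Qb (FBar (N₁ * q)),
    w.ord (ymodY (uF (N₁ * q) q (nsm_dvd N₁ q)) b m) < 0 →
    ((SemilinearAut.ofAlgAut (wAt D hM))⁻¹ • P).restrictAlong (heckeAlphaBar Qb N₁ q)
        (Fermat.Agent.EDescComm.isIntegral_bar (heckeAlphaBar Qb N₁ q)) =
      ((SemilinearAut.ofAlgAut (wAt D hM)) • w).restrictAlong (heckeAlphaBar Qb N₁ q)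
        (Fermat.Agent.EDescComm.isIntegral_bar (heckeAlphaBar Qb N₁ q)) →
    N.IsOrd P

/-- **(SAT, `π₂`)**: `NormSat N n R (nm2 N₁ q D hM)` for every `R` supported on the poles of the
seed function, from the horizontal saturation `HorSat2`. -/
theorem nsm_normSat_nm2 (hq : q ∣ N₁) (hqp : q.Prime) (D : ALData) (hM : N₁ * q = D.Q * D.R)
    (hDQ : D.Q = q ^ 2)
    (N : GraphSetup Qb (FBar (N₁ * q)) k (Vtx Mid SS) Fk (Nod Mid SS)) (n : ℕ)
    (R : Divisor Qb (FBar (N₁ * q))) {b : Qb} (hb : b ≠ 0) {m : ℕ} (hm : m ≠ 0)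
    (hR : ∀ w : Place Qb (FBar (N₁ * q)), R w ≠ 0 →
      w.ord (uF (N₁ * q) q (nsm_dvd N₁ q) +
        algebraMap Qb (FBar (N₁ * q)) b / uF (N₁ * q) q (nsm_dvd N₁ q) +
        ymodY (uF (N₁ * q) q (nsm_dvd N₁ q)) b m) < 0)
    (hord : ∀ P : Place Qb (FBar (N₁ * q)),
      P.ord (uF (N₁ * q) q (nsm_dvd N₁ q) +
        algebraMap Qb (FBar (N₁ * q)) b / uF (N₁ * q) q (nsm_dvd N₁ q) +
        ymodY (uF (N₁ * q) q (nsm_dvd N₁ q)) b m) < 0 → N.IsOrd P)
    (hH : HorSat2 N₁ q D hM N b m) :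
    NormSat N n R (nm2 N₁ q D hM) := by
  have hfin := Fermat.Agent.EDescComm.finiteAlong_bar (heckeAlphaBar Qb N₁ q)
  have hα := Fermat.Agent.EDescComm.isIntegral_bar (heckeAlphaBar Qb N₁ q)
  have hN := Fermat.Agent.EDescComm.normFormulaAlong_bar (heckeAlphaBar Qb N₁ q) hfin
  have hF := Fermat.Agent.RRMod.isRRField_bar (N₁ * q)
  have hctrl := (poleCtrl_alpha (heckeAlphaBar Qb N₁ q) hα hfin hN hF).conj (wAt D hM)
  have hWj := nsm_wAt_jF N₁ q D hM hDQ
  have hWj' : (wAt D hM).symm (jF (N₁ * q) q (nsm_dvd N₁ q)) = jF (N₁ * q) q (nsm_dvd N₁ q) := by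
    rw [AlgEquiv.symm_apply_eq, hWj]
  exact normSat_of_cusp_hor N n hctrl _ (jF (N₁ * q) q (nsm_dvd N₁ q))
    (ymodY (uF (N₁ * q) q (nsm_dvd N₁ q)) b m) hR
    (fun w hw => by
      rcases nsm_seed_pole_cases w hw with h1 | h1
      · exact Or.inl ((ord_jq_neg_iff_uF (N₁ * q) q hqp (nsm_dvd N₁ q) w).mpr h1)
      · exact Or.inr h1)
    (fun P w hw hrel => by
      rw [← hWj, nsa_ord_algAut, ← nsm_alpha_jF N₁ q hq]
      refine nsa_pole_of_restrict_eq _ hα _ hrel ?_
      rw [nsa_ord_smul_algAut, nsm_alpha_jF N₁ q hq, hWj']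
      exact hw)
    (fun P hP => hord P (nsm_seed_pole_of_ord_ne P hb hm
      ((ord_jq_neg_iff_uF (N₁ * q) q hqp (nsm_dvd N₁ q) P).mp hP)))
    (fun P w hy hrel => hH P w hy hrel)

end Mod

end Fermat.Agent.S36G
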