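import Mathlib
import Fermat.Agent.S36.G.NormSatMod
import Fermat.Agent.S36.Seed.U2

set_option autoImplicit false
set_option linter.unusedSectionVars false
set_option linter.unusedVariables false
set_option linter.style.haveILetI false

/-!
# Cluster G (S36), seat SAT-INST, part (c): the parameter `v₂ = ϖ / u₂` is a function of `π₂`
(helper49; SAT-INST: helper21, route B of helper20)

`F = FBar (N₁ q)`, `α = heckeAlphaBar Qb N₁ q` (`π₁^*`), `W = wAt D hM` (`w_{q²}`, `D.Q = q²`),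
`u₁ = uF (N₁ q) q`, `u₂ = uF2 (N₁ q) q`.  For every constant `ϖ`:

* `satc_wAt_uF`   : `W u₁ = q¹² / u₂`;       `satc_wAt_uF2` : `W u₂ = q¹² / u₁`;
* `satcG2 N₁ q ϖ := (ϖ / q¹²) · U ∈ FBar N₁`  (`U = uF N₁ q`);
* `satc_hv₂`      : `W (α g₂) = ϖ / u₂`;      `satc_hv₂'`    : `W (ϖ / u₂) = α g₂`
  (the hypotheses `hv₂`, `hv₂'` of `horSat2_of_params`, `v₂ = ϖ / u₂`);
* `satc_alpha_v₁` : `u₁ / ϖ₁ = α (U / ϖ₁)`   (`v₁` is a function of `π₁`).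
-/

noncomputable section

namespace Fermat.Agent.S36G

open ModularCurve AlgebraicCurve Fermat.Agent.AtkinLehner Fermat.Agent.BadRed Fermat.Agent.F3G
  Fermat.Agent.F3

local notation "Qb" => AlgebraicClosure ℚ

/-! ### casts -/

theorem satc_castF_uF {M M' : ℕ} [NeZero M] [NeZero M'] (q : ℕ) [NeZero q] (h : M = M')
    (hq : q ∣ M) (hq' : q ∣ M') : castF h (uF M q hq) = uF M' q hq' := by
  apply Subtype.ext
  rw [coe_castF, coe_uF, coe_uF]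

theorem satc_castF_uF2 {M M' : ℕ} [NeZero M] [NeZero M'] (q : ℕ) [NeZero q] (h : M = M')
    (hq : q * q ∣ M) (hq' : q * q ∣ M') : castF h (uF2 M q hq) = uF2 M' q hq' := by
  apply Subtype.ext
  rw [coe_castF, coe_uF2, coe_uF2]

/-- `wAt D hM x = y` from `atkinLehner D (castF hM x) = castF hM y`. -/
theorem satc_wAt_eq_of (D : ALData) {M : ℕ} (hM : M = D.Q * D.R) {x y : FBar M}
    (h : atkinLehner D (castF hM x) = castF hM y) : wAt D hM x = y := by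
  rw [wAt_apply, h, castF_castF]

variable (N₁ q : ℕ) [NeZero N₁] [NeZero q]

/-- `q * q ∣ N₁ * q` for `q ∣ N₁`. -/
theorem satc_sq_dvd (hq : q ∣ N₁) : q * q ∣ N₁ * q := Nat.mul_dvd_mul hq dvd_rfl

/-- **`W u₁ = q¹² / u₂`** at the level `N₁ q`. -/
theorem satc_wAt_uF (hq : q ∣ N₁) (D : ALData) (hM : N₁ * q = D.Q * D.R) (hDQ : D.Q = q ^ 2) :
    wAt D hM (uF (N₁ * q) q (nsm_dvd N₁ q)) =
      algebraMap Qb (FBar (N₁ * q)) ((q : Qb) ^ 12) / uF2 (N₁ * q) q (satc_sq_dvd N₁ q hq) := by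
  haveI : NeZero (D.Q * D.R) := ⟨by rw [← hM]; exact NeZero.ne _⟩
  have hQ : q * q = D.Q := by rw [hDQ, sq]
  apply satc_wAt_eq_of
  rw [satc_castF_uF q hM (nsm_dvd N₁ q) (seedU_dvd (seedU_dvd_level D q hQ)),
    atkinLehner_uF_sq D q hQ, map_div₀, AlgEquiv.commutes,
    satc_castF_uF2 q hM (satc_sq_dvd N₁ q hq) (seedU_dvd_level D q hQ)]

/-- **`W u₂ = q¹² / u₁`** at the level `N₁ q`. -/
theorem satc_wAt_uF2 (hq : q ∣ N₁) (D : ALData) (hM : N₁ * q = D.Q * D.R) (hDQ : D.Q = q ^ 2) :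
    wAt D hM (uF2 (N₁ * q) q (satc_sq_dvd N₁ q hq)) =
      algebraMap Qb (FBar (N₁ * q)) ((q : Qb) ^ 12) / uF (N₁ * q) q (nsm_dvd N₁ q) := by
  haveI : NeZero (D.Q * D.R) := ⟨by rw [← hM]; exact NeZero.ne _⟩
  have hQ : q * q = D.Q := by rw [hDQ, sq]
  apply satc_wAt_eq_of
  rw [satc_castF_uF2 q hM (satc_sq_dvd N₁ q hq) (seedU_dvd_level D q hQ),
    atkinLehner_uF2 D q hQ, map_div₀, AlgEquiv.commutes,
    satc_castF_uF q hM (nsm_dvd N₁ q) (seedU_dvd (seedU_dvd_level D q hQ))]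

/-- the function `g₂ = (ϖ / q¹²) · U` of level `N₁`. -/
def satcG2 (hq : q ∣ N₁) (ϖ : Qb) : FBar N₁ :=
  algebraMap Qb (FBar N₁) (ϖ / (q : Qb) ^ 12) * uF N₁ q hq

theorem satc_alpha_G2 (hq : q ∣ N₁) (ϖ : Qb) :
    heckeAlphaBar Qb N₁ q (satcG2 N₁ q hq ϖ) =
      algebraMap Qb (FBar (N₁ * q)) (ϖ / (q : Qb) ^ 12) * uF (N₁ * q) q (nsm_dvd N₁ q) := by
  rw [satcG2, map_mul, AlgHom.commutes, nsm_alpha_uF]

/-- `q¹² ≠ 0`. -/
theorem satc_const_ne : ((q : Qb) ^ 12) ≠ 0 :=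
  pow_ne_zero 12 (Nat.cast_ne_zero.mpr (NeZero.ne q))

/-- **`hv₂`: `W (α g₂) = ϖ / u₂`.** -/
theorem satc_hv₂ (hq : q ∣ N₁) (D : ALData) (hM : N₁ * q = D.Q * D.R) (hDQ : D.Q = q ^ 2)
    (ϖ : Qb) :
    wAt D hM (heckeAlphaBar Qb N₁ q (satcG2 N₁ q hq ϖ)) =
      algebraMap Qb (FBar (N₁ * q)) ϖ / uF2 (N₁ * q) q (satc_sq_dvd N₁ q hq) := by
  have hc := satc_const_ne q
  have hcF : algebraMap Qb (FBar (N₁ * q)) ((q : Qb) ^ 12) ≠ 0 := (_root_.map_ne_zero _).mpr hc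
  have h2 := uF2_ne_zero (N₁ * q) q (satc_sq_dvd N₁ q hq)
  rw [satc_alpha_G2, map_mul, AlgEquiv.commutes, satc_wAt_uF N₁ q hq D hM hDQ, map_div₀]
  field_simp

/-- **`hv₂'`: `W (ϖ / u₂) = α g₂`.** -/
theorem satc_hv₂' (hq : q ∣ N₁) (D : ALData) (hM : N₁ * q = D.Q * D.R) (hDQ : D.Q = q ^ 2)
    (ϖ : Qb) :
    wAt D hM (algebraMap Qb (FBar (N₁ * q)) ϖ / uF2 (N₁ * q) q (satc_sq_dvd N₁ q hq)) =
      heckeAlphaBar Qb N₁ q (satcG2 N₁ q hq ϖ) := by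
  rw [← satc_hv₂ N₁ q hq D hM hDQ ϖ, wAt_wAt]

/-- **`v₁ = u₁ / ϖ₁` is a function of `π₁`.** -/
theorem satc_alpha_v₁ (hq : q ∣ N₁) (ϖ₁ : Qb) :
    heckeAlphaBar Qb N₁ q (uF N₁ q hq / algebraMap Qb (FBar N₁) ϖ₁) =
      uF (N₁ * q) q (nsm_dvd N₁ q) / algebraMap Qb (FBar (N₁ * q)) ϖ₁ := by
  rw [map_div₀, AlgHom.commutes, nsm_alpha_uF]

end Fermat.Agent.S36G
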