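import Mathlib
import Fermat.Agent.Lib.BadRed.Graph.OrdLevel
import Fermat.Agent.S36.G.NormSatFun

set_option autoImplicit false
set_option linter.unusedSectionVars false
set_option linter.style.haveILetI false

/-!
# Cluster G (S36), seat SAT: the horizontal saturation `HorSat2` for `π₂`  (helper20)

Seed v3: `x = u₁ + b / u₁ + y`, `y = b u₁ ^ n / (u₁ ^ n - b) ^ 2`, `b = ϖ₁ ^ n`.  The poles of `y`
(the level sets `u₁ ^ n = b` on the horizontal components `H_P`) are saturated for `π₁`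
(`y ∈ α F₁`) but NOT for `π₂`.  `HorSat2` (helper49, `S36/G/NormSatMod.lean`): the `π₂`-mates of
the poles of `y` are ORDINARY.

Abstract form, for any `GraphSetup` (only `push`, via `Graph/OrdLevel.lean`):
`v₁ = u₁ / ϖ₁` and `v₂ = ϖ_A / u₂` are PARAMETERS on the family `V` of the horizontal components
(`OLParam`), `v₂ = W (α g₂)` is a function of the second projection, and the poles of `y` are
zeros of `v₁ ^ n - 1`.  Then

* `w` pole of `y` `⟹` `a₁ := v₁ (w)`, `a₁ ^ n = 1`, is a unit of `A` `⟹` (LEVEL `v₁`) `w` reduces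
  to a point `Q` of a component of `V` where `red v₁` is a unit `⟹` (`h12`) `red v₂` is a unit
  at `Q` `⟹` (EVAL `v₂`) `a₂ := v₂ (w)` is a unit of `A`;
* `P` a `π₂`-mate of `w` `⟹` `v₂ (P) = a₂` (`v₂ ∈ W (α F₁)`) `⟹` (LEVEL `v₂`) `P` is ordinary.

* `horSat2_unit_of_pow` : a root of unity is a unit of `A`;
* `horSat2_mate_zero`   : the zeros of `v₂ - a`, `v₂ = W (α g₂)`, are saturated for `π₂`;
* `horSat2_of_params`   : **(SAT, `HorSat2`)**, abstract form.
-/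

noncomputable section

open AlgebraicCurve IntermediateField Fermat.Agent.RR Fermat.Agent.Deuring

namespace Fermat.Agent.S36G

open Fermat.Agent.BadRed Fermat.Agent.BadRedG Fermat.Agent.BadRed.Gluing Fermat.Agent.F3G

variable {K F₁ F k : Type*} [Field K] [Field F₁] [Field F] [Algebra K F₁] [Algebra K F] [Field k]
  {κ : Type*} {Fk : κ → Type*} [∀ c, Field (Fk c)] [∀ c, Algebra k (Fk c)] {ι : Type*}

/-- a root of unity is a unit of the valuation ring `A`, with nonzero residue. -/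
theorem horSat2_unit_of_pow {Fk₀ : Type*} [Field Fk₀] [Algebra k Fk₀] (S : ValSetup K F k Fk₀)
    {a : K} {n : ℕ} (hn : n ≠ 0) (ha : a ^ n = 1) :
    ∃ h : a ∈ S.A, S.res ⟨a, h⟩ ≠ 0 := by
  have ha0 : a ≠ 0 := by
    rintro rfl
    rw [zero_pow hn] at ha
    exact zero_ne_one ha
  have hmem : a ∈ S.A := by
    rcases S.A.mem_or_inv_mem a with h | h
    · exact h
    · obtain ⟨m, rfl⟩ := Nat.exists_eq_succ_of_ne_zero hn
      have e : a = a⁻¹ ^ m :=
        calc a = a * (a * a⁻¹) ^ m := by rw [mul_inv_cancel₀ ha0, one_pow, mul_one]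
          _ = a ^ (m + 1) * a⁻¹ ^ m := by ring
          _ = a⁻¹ ^ m := by rw [ha, one_mul]
      rw [e]
      exact pow_mem h m
  refine ⟨hmem, fun h0 => ?_⟩
  have e : (⟨a, hmem⟩ : S.A) ^ n = 1 := Subtype.ext (by simpa using ha)
  have h1 : S.res ⟨a, hmem⟩ ^ n = 1 := by rw [← map_pow, e, map_one]
  rw [h0, zero_pow hn] at h1
  exact zero_ne_one h1

/-- the zeros of `v₂ - a`, `v₂ = W (α g₂)`, are saturated for `π₂`. -/
theorem horSat2_mate_zero (α : F₁ →ₐ[K] F) (hα : α.toRingHom.IsIntegral) (W : F ≃ₐ[K] F)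
    {v₂ : F} (g₂ : F₁) (hv₂ : W (α g₂) = v₂) (hv₂' : W v₂ = α g₂) (a : K) {P w : Place K F}
    (hrel : ((SemilinearAut.ofAlgAut W)⁻¹ • P).restrictAlong α hα =
      ((SemilinearAut.ofAlgAut W) • w).restrictAlong α hα)
    (hw : 0 < w.ord (v₂ - algebraMap K F a)) : 0 < P.ord (v₂ - algebraMap K F a) := by
  have hsymm : W.symm (α g₂) = v₂ := by rw [← hv₂', W.symm_apply_apply]
  have e1 : W.symm (α (g₂ - algebraMap K F₁ a)⁻¹) = (v₂ - algebraMap K F a)⁻¹ := by
    rw [map_inv₀, map_sub, AlgHom.commutes, map_inv₀, map_sub, hsymm, AlgEquiv.commutes]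
  have e2 : W (α (g₂ - algebraMap K F₁ a)⁻¹) = (v₂ - algebraMap K F a)⁻¹ := by
    rw [map_inv₀, map_sub, AlgHom.commutes, map_inv₀, map_sub, hv₂, AlgEquiv.commutes]
  have h1 : ((SemilinearAut.ofAlgAut W) • w).ord (α (g₂ - algebraMap K F₁ a)⁻¹) < 0 := by
    rw [nsa_ord_smul_algAut, e1, Place.ord_inv]
    omega
  have h2 := nsa_pole_of_restrict_eq α hα _ hrel h1
  rw [← nsa_ord_algAut, e2, Place.ord_inv] at h2
  omega

/-- **(SAT, `HorSat2`)**, abstract form: the `π₂`-mates of the poles of `y` are ordinary. -/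
theorem horSat2_of_params [Infinite k] (N : GraphSetup K F k κ Fk ι) (V : Finset κ)
    {v₁ v₂ : F} (H₁ : OLParam N V v₁) (H₂ : OLParam N V v₂)
    (h12 : ∀ c ∈ V, ∀ Q : Place k (Fk c), Q.ord ((N.S c).red v₁) = 0 →
      Q.ord ((N.S c).red v₂) = 0)
    (α : F₁ →ₐ[K] F) (hα : α.toRingHom.IsIntegral) (W : F ≃ₐ[K] F)
    (g₂ : F₁) (hv₂ : W (α g₂) = v₂) (hv₂' : W v₂ = α g₂)
    (n : ℕ) (y : F) (hy : ∀ w : Place K F, w.ord y < 0 → 0 < w.ord (v₁ ^ n - 1)) :
    ∀ P w : Place K F, w.ord y < 0 →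
      ((SemilinearAut.ofAlgAut W)⁻¹ • P).restrictAlong α hα =
        ((SemilinearAut.ofAlgAut W) • w).restrictAlong α hα → N.IsOrd P := by
  intro P w hw hrel
  obtain ⟨c₀, hc₀⟩ := H₁.ne
  -- the value `a₁` of `v₁` at `w` is a root of unity
  have h1 := hy w hw
  have hn : n ≠ 0 := by
    rintro rfl
    rw [pow_zero, sub_self, Place.ord_zero] at h1
    exact lt_irrefl _ h1
  have h1' : 0 < w.ord (v₁ ^ n - algebraMap K F 1) := by rwa [map_one]
  have hw1 : 0 ≤ w.ord v₁ :=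
    ord_nonneg_of_pow hn (Fermat.Agent.RRHur.ord_nonneg_of_ord_sub_const_pos w h1')
  obtain ⟨a₁, ha₁⟩ := exists_valAt (N.S c₀).hF w hw1
  have hpow : a₁ ^ n = 1 := (valAt_pow ha₁ n).unique (Or.inr h1')
  obtain ⟨ha₁A, hres₁⟩ := horSat2_unit_of_pow (N.S c₀) hn hpow
  have hw₁ : 0 < w.ord (v₁ - algebraMap K F a₁) := by
    rcases ha₁ with h | h
    · exfalso
      apply H₁.transcendental
      rw [h]
      exact isAlgebraic_algebraMap a₁
    · exact h
  -- (LEVEL) for `v₁`: `w` reduces to a point where `red v₁` is a unit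
  obtain ⟨c, hc, Q, hr, hQ⟩ := H₁.level c₀ ha₁A hres₁ w hw₁
  have hQ1 : Q.ord ((N.S c).red v₁) = 0 := ord_eq_zero_of_valAt (Or.inr hQ) hres₁
  -- (EVAL) for `v₂`
  obtain ⟨a₂, ha₂, hres₂, hw₂⟩ := H₂.eval c₀ hc hr (h12 c hc Q hQ1)
  -- the mate `P` is a zero of `v₂ - a₂`, (LEVEL) for `v₂`
  have hP₂ := horSat2_mate_zero α hα W g₂ hv₂ hv₂' a₂ hrel hw₂
  obtain ⟨c', _, Q', hr', _⟩ := H₂.level c₀ ha₂ hres₂ P hP₂
  exact ⟨_, hr'⟩

end Fermat.Agent.S36G
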