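import Mathlib
import Fermat.Agent.S36.G.SatMod
import Fermat.Agent.S36.G.SatC

set_option autoImplicit false
set_option linter.unusedSectionVars false
set_option linter.unusedVariables false
set_option linter.style.haveILetI false

/-!
# Cluster G (S36), seat SAT-INST, part (d): the poles of the seed term are level sets of `v₁`
(helper49; SAT-INST: helper21, route B of helper20)

Seed v3: `y = ymodY u b m = b uᵐ / (uᵐ - b)²`, `b = ϖ₁ᵐ`, `v₁ = u / ϖ₁`.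

* `satd_hy` : (general field) a pole of `y` is a zero of `v₁ᵐ - 1`
  (the hypothesis `hy` of `horSat2_of_params`);
* `satd_horSat2` : **`HorSat2 N₁ q D hM N (ϖ₁ᵐ) m`** from the two parameters
  `H₁ : OLParam N V (u₁ / ϖ₁)`, `H₂ : OLParam N V (ϖ_A / u₂)` and `h12` alone
  (`hv₂`, `hv₂'` = `S36/G/SatC.lean`, `hy` = `satd_hy`, abstract = `horSat2_of_params`);
* `satd_normSat_nm2` : **`NormSat N n R (nm2 N₁ q D hM)`** from the same data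
  (`nsm_normSat_nm2`).
-/

noncomputable section

open AlgebraicCurve Fermat.Agent.RR Fermat.Agent.Deuring

namespace Fermat.Agent.S36G

open Fermat.Agent.BadRed Fermat.Agent.BadRedG Fermat.Agent.F3G Fermat.Agent.F3
  Fermat.Agent.AtkinLehner ModularCurve Fermat.Agent.S24Res

section Abs

variable {K F : Type*} [Field K] [Field F] [Algebra K F]

/-- **(d) `hy`**: a pole of the seed term `y = b uᵐ / (uᵐ - b)²`, `b = ϖᵐ`, is a zero of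
`(u / ϖ)ᵐ - 1`. -/
theorem satd_hy (w : Place K F) {u : F} {ϖ : K} (hϖ : ϖ ≠ 0) {m : ℕ} (hm : m ≠ 0)
    (hw : w.ord (ymodY u (ϖ ^ m) m) < 0) :
    0 < w.ord ((u / algebraMap K F ϖ) ^ m - 1) := by
  have hb : ϖ ^ m ≠ 0 := pow_ne_zero m hϖ
  have hbF : algebraMap K F (ϖ ^ m) ≠ 0 := (_root_.map_ne_zero _).mpr hb
  have hϖF : algebraMap K F ϖ ≠ 0 := (_root_.map_ne_zero _).mpr hϖ
  -- `u` is a unit at `w`
  have hu0 : w.ord u = 0 := by
    by_contra h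
    have := nsm_ymodY_mem_of_ord_ne w hb hm h
    rw [mem_iff_ord_nonneg] at this
    omega
  have hu : u ≠ 0 := by
    rintro rfl
    rw [ymodY, zero_pow hm, mul_zero, zero_div, Place.ord_zero] at hw
    exact lt_irrefl _ hw
  have hun : u ^ m ≠ 0 := pow_ne_zero m hu
  -- the denominator is nonzero
  have hd : u ^ m - algebraMap K F (ϖ ^ m) ≠ 0 := by
    intro h
    rw [ymodY, h, zero_pow two_ne_zero, div_zero, Place.ord_zero] at hw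
    exact lt_irrefl _ hw
  have hd2 : (u ^ m - algebraMap K F (ϖ ^ m)) ^ 2 ≠ 0 := pow_ne_zero 2 hd
  have hy : w.ord (ymodY u (ϖ ^ m) m) = -(2 * w.ord (u ^ m - algebraMap K F (ϖ ^ m))) := by
    rw [ymodY, div_eq_mul_inv, w.ord_mul (mul_ne_zero hbF hun) (inv_ne_zero hd2), w.ord_inv,
      w.ord_mul hbF hun, ord_algebraMap, nsm_ord_pow, nsm_ord_pow, hu0]
    push_cast
    ring
  have hpos : 0 < w.ord (u ^ m - algebraMap K F (ϖ ^ m)) := by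
    rw [hy] at hw
    omega
  have e : (u / algebraMap K F ϖ) ^ m - 1 =
      (u ^ m - algebraMap K F (ϖ ^ m)) * (algebraMap K F (ϖ ^ m))⁻¹ := by
    rw [map_pow, div_pow]
    field_simp
  rw [e, w.ord_mul hd (inv_ne_zero hbF), w.ord_inv, ord_algebraMap]
  omega

end Abs

section Mod

local notation "Qb" => AlgebraicClosure ℚ

variable (N₁ q : ℕ) [NeZero N₁] [NeZero q]

variable {k : Type*} [Field k] {Mid SS : Type} [Fintype Mid] {Fk : Vtx Mid SS → Type*}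
  [∀ c, Field (Fk c)] [∀ c, Algebra k (Fk c)]

/-- **(SAT, `HorSat2`)**, modular form: from the two parameters `v₁ = u₁ / ϖ₁`, `v₂ = ϖ_A / u₂`
on the family `V` and the comparison `h12` of their unit loci. -/
theorem satd_horSat2 [Infinite k] (hq : q ∣ N₁) (D : ALData) (hM : N₁ * q = D.Q * D.R)
    (hDQ : D.Q = q ^ 2)
    (N : GraphSetup Qb (FBar (N₁ * q)) k (Vtx Mid SS) Fk (Nod Mid SS))
    (V : Finset (Vtx Mid SS)) {ϖ₁ : Qb} (hϖ₁ : ϖ₁ ≠ 0) (ϖA : Qb) {m : ℕ} (hm : m ≠ 0)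
    (H₁ : OLParam N V
      (uF (N₁ * q) q (nsm_dvd N₁ q) / algebraMap Qb (FBar (N₁ * q)) ϖ₁))
    (H₂ : OLParam N V
      (algebraMap Qb (FBar (N₁ * q)) ϖA / uF2 (N₁ * q) q (satc_sq_dvd N₁ q hq)))
    (h12 : ∀ c ∈ V, ∀ Q : Place k (Fk c),
      Q.ord ((N.S c).red
        (uF (N₁ * q) q (nsm_dvd N₁ q) / algebraMap Qb (FBar (N₁ * q)) ϖ₁)) = 0 →
      Q.ord ((N.S c).red
        (algebraMap Qb (FBar (N₁ * q)) ϖA / uF2 (N₁ * q) q (satc_sq_dvd N₁ q hq))) = 0) :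
    HorSat2 N₁ q D hM N (ϖ₁ ^ m) m :=
  horSat2_of_params N V H₁ H₂ h12 (heckeAlphaBar Qb N₁ q)
    (Fermat.Agent.EDescComm.isIntegral_bar (heckeAlphaBar Qb N₁ q)) (wAt D hM)
    (satcG2 N₁ q hq ϖA) (satc_hv₂ N₁ q hq D hM hDQ ϖA) (satc_hv₂' N₁ q hq D hM hDQ ϖA) m
    (ymodY (uF (N₁ * q) q (nsm_dvd N₁ q)) (ϖ₁ ^ m) m) (fun w hw => satd_hy w hϖ₁ hm hw)

/-- **(SAT, `π₂`)**: `NormSat N n R (nm2 N₁ q D hM)` from the two parameters and `h12`. -/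
theorem satd_normSat_nm2 [Infinite k] (hq : q ∣ N₁) (hqp : q.Prime) (D : ALData)
    (hM : N₁ * q = D.Q * D.R) (hDQ : D.Q = q ^ 2)
    (N : GraphSetup Qb (FBar (N₁ * q)) k (Vtx Mid SS) Fk (Nod Mid SS)) (n : ℕ)
    (R : Divisor Qb (FBar (N₁ * q)))
    (V : Finset (Vtx Mid SS)) {ϖ₁ : Qb} (hϖ₁ : ϖ₁ ≠ 0) (ϖA : Qb) {m : ℕ} (hm : m ≠ 0)
    (hR : ∀ w : Place Qb (FBar (N₁ * q)), R w ≠ 0 →
      w.ord (uF (N₁ * q) q (nsm_dvd N₁ q) +
        algebraMap Qb (FBar (N₁ * q)) (ϖ₁ ^ m) / uF (N₁ * q) q (nsm_dvd N₁ q) +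
        ymodY (uF (N₁ * q) q (nsm_dvd N₁ q)) (ϖ₁ ^ m) m) < 0)
    (hord : ∀ P : Place Qb (FBar (N₁ * q)),
      P.ord (uF (N₁ * q) q (nsm_dvd N₁ q) +
        algebraMap Qb (FBar (N₁ * q)) (ϖ₁ ^ m) / uF (N₁ * q) q (nsm_dvd N₁ q) +
        ymodY (uF (N₁ * q) q (nsm_dvd N₁ q)) (ϖ₁ ^ m) m) < 0 → N.IsOrd P)
    (H₁ : OLParam N V
      (uF (N₁ * q) q (nsm_dvd N₁ q) / algebraMap Qb (FBar (N₁ * q)) ϖ₁))
    (H₂ : OLParam N V
      (algebraMap Qb (FBar (N₁ * q)) ϖA / uF2 (N₁ * q) q (satc_sq_dvd N₁ q hq)))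
    (h12 : ∀ c ∈ V, ∀ Q : Place k (Fk c),
      Q.ord ((N.S c).red
        (uF (N₁ * q) q (nsm_dvd N₁ q) / algebraMap Qb (FBar (N₁ * q)) ϖ₁)) = 0 →
      Q.ord ((N.S c).red
        (algebraMap Qb (FBar (N₁ * q)) ϖA / uF2 (N₁ * q) q (satc_sq_dvd N₁ q hq))) = 0) :
    NormSat N n R (nm2 N₁ q D hM) :=
  nsm_normSat_nm2 N₁ q hq hqp D hM hDQ N n R (pow_ne_zero m hϖ₁) hm hR hord
    (satd_horSat2 N₁ q hq D hM hDQ N V hϖ₁ ϖA hm H₁ H₂ h12)

end Mod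

end Fermat.Agent.S36G
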