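import Mathlib
import Fermat.Agent.S36.G.EndsDict
import Fermat.Agent.S36.Seed.Ends
import Fermat.Agent.S36.Seed.MN1
import Fermat.Agent.Lib.BadRed.Graph.NSDef

set_option autoImplicit false
set_option linter.unusedSectionVars false
set_option linter.unusedVariables false
set_option linter.style.haveILetI false

/-!
# Cluster G (S36), seat SAT-INST (b): the level parameters on `H_P` are units exactly off the ends
(helper83; for helper20's `OLParam` / `horSat2_of_params` and helper21's `SatModInst.lean`)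

`N` a graph package over `Vtx Mid SS`, `HP P : HPCurve k (Fk (hor P)) q` the coordinates of the
horizontal component `H_P`, `nlTgt N htgt P w` the branch of the node `(P, w)` on `H_P`.

## One curve
* `satEnds_ord_X2_eq_zero_iff` : `ord_Q X₂ = 0 ↔ ord_Q X₁ = 0`;
* `satEnds_not_isEnd_iff_X2`   : `¬ IsEnd Q ↔ ord_Q X₂ = 0`.

## The graph
* `satEnds_isEnd_nlTgt`  : the branch points of `H_P` are ends, from the signs (DIV1) of `X₁`, `X₂`
  at the branches (the hypotheses `hI`, `hZ`, `hm1` of `nl_dict`, `S36/G/EndsDict.lean`);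
* `satEnds_isSmooth_of_not_isEnd` : a place of `H_P` which is not an end is a smooth point of the
  special fibre;
* `satEnds_sm_X1`, `satEnds_sm_X2` : **the field `sm` of `OLParam N (mn1V₂ Mid SS) v`** for a
  parameter `v` with `ord_Q (red_P v) = n · ord_Q X₁` resp. `n · ord_Q X₂`, `n ≠ 0`;
* `satEnds_h12`, `satEnds_h21`     : **the hypothesis `h12` of `horSat2_of_params`**: where
  `red_P v₁` is a unit, `red_P v₂` is a unit (and conversely).

## The modular shape (`Fk = FkOf Fk0 FkM FkP`, SEED-UP in the form `EndsRed2`, `EndsRedA`)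
* `satEnds_sm_of_endsRed2` : `sm` for `v₁ = u₁ / ϖ₁` (`red_P v₁ = c · X₁ ^ 12`);
* `satEnds_sm_of_endsRedA` : `sm` for `v₂ = ϖ_A / u₂` (`red_P v₂ = c · X₂ ^ 12`);
* `satEnds_sm_of_endsRed1` : `sm` for `ϖ₁ / u₁` (`red_P = c / X₁ ^ 12`);
* `satEnds_h12_of_endsRed` : `h12` for `v₁`, `v₂`.
-/

noncomputable section

open IntermediateField AlgebraicCurve

namespace Fermat.Agent.S36G

open Fermat.Agent.RR Fermat.Agent.HP Fermat.Agent.Deuring
open Fermat.Agent.BadRed Fermat.Agent.BadRedG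

/-! ### one curve -/

section One

variable {k E : Type*} [Field k] [Field E] [Algebra k E] {q : ℕ} [IsAlgClosed k]
  (H : HPCurve k E q) (hq1 : ((q + 1 : ℕ) : k) ≠ 0)

include hq1 in
/-- `X₂` is a unit exactly where `X₁` is a unit (off the ends). -/
theorem satEnds_ord_X2_eq_zero_iff (Q : Place k E) : Q.ord H.X2 = 0 ↔ Q.ord H.X1 = 0 := by
  constructor
  · intro h
    by_contra hne
    have hend : H.IsEnd Q := hne
    rcases (H.isEnd_iff hq1 Q).mp hend with h1 | h1 | h1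
    · have := (H.ord_X2_pos_iff hq1 Q).mpr h1
      omega
    · have := (H.ord_X2_neg_iff hq1 Q).mpr (Or.inl h1)
      omega
    · have := (H.ord_X2_neg_iff hq1 Q).mpr (Or.inr h1)
      omega
  · intro h
    by_contra hne
    rcases lt_or_gt_of_ne hne with hneg | hpos
    · rcases (H.ord_X2_neg_iff hq1 Q).mp hneg with h1 | h1
      · have := (H.ord_X1_pos_iff hq1 Q).mpr h1
        omega
      · have := (H.ord_X1_neg_iff hq1 Q).mpr (Or.inr h1)
        omega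
    · have h1 := (H.ord_X2_pos_iff hq1 Q).mp hpos
      have := (H.ord_X1_neg_iff hq1 Q).mpr (Or.inl h1)
      omega

omit [IsAlgClosed k] in
/-- a place is not an end iff `X₁` is a unit there. -/
theorem satEnds_not_isEnd_iff (Q : Place k E) : ¬ H.IsEnd Q ↔ Q.ord H.X1 = 0 := by
  unfold HPCurve.IsEnd
  exact not_not

include hq1 in
/-- a place is not an end iff `X₂` is a unit there. -/
theorem satEnds_not_isEnd_iff_X2 (Q : Place k E) : ¬ H.IsEnd Q ↔ Q.ord H.X2 = 0 := by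
  rw [satEnds_not_isEnd_iff, satEnds_ord_X2_eq_zero_iff H hq1]

end One

/-! ### the graph -/

section Graph

variable {K F k : Type*} [Field K] [Field F] [Algebra K F] [Field k] [IsAlgClosed k]

variable {Mid SS : Type} [Fintype Mid] [Fintype SS] {Fk : Vtx Mid SS → Type*}
  [∀ c, Field (Fk c)] [∀ c, Algebra k (Fk c)]

variable (N : GraphSetup K F k (Vtx Mid SS) Fk (Nod Mid SS))
  (hsrc : ∀ i, N.src i = nodSrc i) (htgt : ∀ i, N.tgt i = nodTgt i)
  {q : ℕ} (hq1 : ((q + 1 : ℕ) : k) ≠ 0) (HP : ∀ P : SS, HPCurve k (Fk (Vtx.hor P)) q)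

include hq1 in
/-- **the branch points of `H_P` are ends**, from the signs of `X₁`, `X₂` at the branches. -/
theorem satEnds_isEnd_nlTgt
    (hI : ∀ P, 0 < (nlTgt N htgt P Vrt.oo).ord (HP P).X2)
    (hZ : ∀ P, 0 < (nlTgt N htgt P Vrt.zero).ord (HP P).X1)
    (hm1 : ∀ P m, (nlTgt N htgt P (Vrt.mid m)).ord (HP P).X1 < 0) (P : SS) (w : Vrt Mid) :
    (HP P).IsEnd (nlTgt N htgt P w) := by
  cases w with
  | oo =>
    rw [(HP P).isEnd_iff hq1]
    exact Or.inl (((HP P).ord_X2_pos_iff hq1 _).mp (hI P))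
  | zero => exact ne_of_gt (hZ P)
  | mid m => exact ne_of_lt (hm1 P m)

include hsrc in
/-- **a place of `H_P` which is not an end is a smooth point of the special fibre.** -/
theorem satEnds_isSmooth_of_not_isEnd
    (hends : ∀ P w, (HP P).IsEnd (nlTgt N htgt P w))
    (P : SS) (Q : Place k (Fk (Vtx.hor P))) (hQ : ¬ (HP P).IsEnd Q) :
    N.IsSmooth ⟨Vtx.hor P, Q⟩ := by
  refine ⟨fun i h => ?_, fun i h => ?_⟩
  · have h1 : Vtx.hor P = N.src i := congrArg Sigma.fst h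
    rw [hsrc i] at h1
    unfold nodSrc at h1
    cases h1
  · obtain ⟨P', w⟩ := i
    have h1 : Vtx.hor P = N.tgt (P', w) := congrArg Sigma.fst h
    rw [htgt (P', w)] at h1
    unfold nodTgt at h1
    have hP : P = P' := Vtx.hor.inj h1
    subst hP
    have h2 := eq_nlTgt_of_sigma N htgt P w Q h
    rw [h2] at hQ
    exact hQ (hends P w)

include hsrc in
/-- **the field `sm` of `OLParam`** for a parameter whose reduction on `H_P` has the divisor of a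
power of `X₁`. -/
theorem satEnds_sm_X1 (hends : ∀ P w, (HP P).IsEnd (nlTgt N htgt P w)) {v : F} {n : ℤ}
    (hn : n ≠ 0)
    (hord : ∀ (P : SS) (Q : Place k (Fk (Vtx.hor P))),
      Q.ord ((N.S (Vtx.hor P)).red v) = n * Q.ord (HP P).X1) :
    ∀ c ∈ mn1V₂ Mid SS, ∀ Q : Place k (Fk c), Q.ord ((N.S c).red v) = 0 →
      N.IsSmooth ⟨c, Q⟩ := by
  intro c hc Q hQ
  obtain ⟨P, rfl⟩ := mem_mn1V₂.mp hc
  refine satEnds_isSmooth_of_not_isEnd N hsrc htgt HP hends P Q fun hend => ?_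
  rw [hord P Q] at hQ
  rcases mul_eq_zero.mp hQ with h | h
  · exact hn h
  · exact hend h

include hsrc hq1 in
/-- **the field `sm` of `OLParam`** for a parameter whose reduction on `H_P` has the divisor of a
power of `X₂`. -/
theorem satEnds_sm_X2 (hends : ∀ P w, (HP P).IsEnd (nlTgt N htgt P w)) {v : F} {n : ℤ}
    (hn : n ≠ 0)
    (hord : ∀ (P : SS) (Q : Place k (Fk (Vtx.hor P))),
      Q.ord ((N.S (Vtx.hor P)).red v) = n * Q.ord (HP P).X2) :
    ∀ c ∈ mn1V₂ Mid SS, ∀ Q : Place k (Fk c), Q.ord ((N.S c).red v) = 0 →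
      N.IsSmooth ⟨c, Q⟩ := by
  intro c hc Q hQ
  obtain ⟨P, rfl⟩ := mem_mn1V₂.mp hc
  refine satEnds_isSmooth_of_not_isEnd N hsrc htgt HP hends P Q fun hend => ?_
  rw [hord P Q] at hQ
  rcases mul_eq_zero.mp hQ with h | h
  · exact hn h
  · exact hend ((satEnds_ord_X2_eq_zero_iff (HP P) hq1 Q).mp h)

include hq1 in
/-- **the hypothesis `h12` of `horSat2_of_params`**: where the reduction of `v₁` (a power of `X₁`)
is a unit, the reduction of `v₂` (a power of `X₂`) is a unit. -/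
theorem satEnds_h12 {v₁ v₂ : F} {n₁ n₂ : ℤ} (hn₁ : n₁ ≠ 0)
    (hord₁ : ∀ (P : SS) (Q : Place k (Fk (Vtx.hor P))),
      Q.ord ((N.S (Vtx.hor P)).red v₁) = n₁ * Q.ord (HP P).X1)
    (hord₂ : ∀ (P : SS) (Q : Place k (Fk (Vtx.hor P))),
      Q.ord ((N.S (Vtx.hor P)).red v₂) = n₂ * Q.ord (HP P).X2) :
    ∀ c ∈ mn1V₂ Mid SS, ∀ Q : Place k (Fk c), Q.ord ((N.S c).red v₁) = 0 →
      Q.ord ((N.S c).red v₂) = 0 := by
  intro c hc Q hQ
  obtain ⟨P, rfl⟩ := mem_mn1V₂.mp hc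
  rw [hord₁ P Q] at hQ
  rw [hord₂ P Q]
  rcases mul_eq_zero.mp hQ with h | h
  · exact absurd h hn₁
  · rw [(satEnds_ord_X2_eq_zero_iff (HP P) hq1 Q).mpr h, mul_zero]

include hq1 in
/-- the converse of `satEnds_h12`. -/
theorem satEnds_h21 {v₁ v₂ : F} {n₁ n₂ : ℤ} (hn₂ : n₂ ≠ 0)
    (hord₁ : ∀ (P : SS) (Q : Place k (Fk (Vtx.hor P))),
      Q.ord ((N.S (Vtx.hor P)).red v₁) = n₁ * Q.ord (HP P).X1)
    (hord₂ : ∀ (P : SS) (Q : Place k (Fk (Vtx.hor P))),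
      Q.ord ((N.S (Vtx.hor P)).red v₂) = n₂ * Q.ord (HP P).X2) :
    ∀ c ∈ mn1V₂ Mid SS, ∀ Q : Place k (Fk c), Q.ord ((N.S c).red v₂) = 0 →
      Q.ord ((N.S c).red v₁) = 0 := by
  intro c hc Q hQ
  obtain ⟨P, rfl⟩ := mem_mn1V₂.mp hc
  rw [hord₂ P Q] at hQ
  rw [hord₁ P Q]
  rcases mul_eq_zero.mp hQ with h | h
  · exact absurd h hn₂
  · rw [(satEnds_ord_X2_eq_zero_iff (HP P) hq1 Q).mp h, mul_zero]

end Graph

/-! ### the modular shape -/

section Mod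

variable {K F k : Type} [Field K] [Field F] [Algebra K F] [Field k] [IsAlgClosed k]
  {Mid SS : Type} [Fintype Mid] [Fintype SS]
  {Fk0 : Type} [Field Fk0] [Algebra k Fk0]
  {FkM : Mid → Type} [∀ m, Field (FkM m)] [∀ m, Algebra k (FkM m)]
  {FkP : SS → Type} [∀ P, Field (FkP P)] [∀ P, Algebra k (FkP P)]
  (N : GraphSetup K F k (Vtx Mid SS) (FkOf Fk0 FkM FkP) (Nod Mid SS))
  (hsrc : ∀ i, N.src i = nodSrc i) (htgt : ∀ i, N.tgt i = nodTgt i)
  {q : ℕ} (hq1 : ((q + 1 : ℕ) : k) ≠ 0)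
  (HP : ∀ P : SS, HPCurve k (FkOf Fk0 FkM FkP (Vtx.hor P)) q)

include hsrc in
/-- **`sm` for `v₁ = u₁ / ϖ₁`** (`red_P v₁ = c · X₁ ^ 12`). -/
theorem satEnds_sm_of_endsRed2 (hends : ∀ P w, (HP P).IsEnd (nlTgt N htgt P w)) {v : F}
    (hv : EndsRed2 N.S HP v) :
    ∀ c ∈ mn1V₂ Mid SS, ∀ Q : Place k (FkOf Fk0 FkM FkP c), Q.ord ((N.S c).red v) = 0 →
      N.IsSmooth ⟨c, Q⟩ :=
  satEnds_sm_X1 N hsrc htgt HP hends (n := 12) (by norm_num) fun P Q => hv.ord P Q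

include hsrc in
/-- **`sm` for `ϖ₁ / u₁`** (`red_P = c / X₁ ^ 12`). -/
theorem satEnds_sm_of_endsRed1 (hends : ∀ P w, (HP P).IsEnd (nlTgt N htgt P w)) {v : F}
    (hv : EndsRed1 N.S HP v) :
    ∀ c ∈ mn1V₂ Mid SS, ∀ Q : Place k (FkOf Fk0 FkM FkP c), Q.ord ((N.S c).red v) = 0 →
      N.IsSmooth ⟨c, Q⟩ :=
  satEnds_sm_X1 N hsrc htgt HP hends (n := -12) (by norm_num) fun P Q => by
    rw [hv.ord P Q]
    ring

include hsrc hq1 in
/-- **`sm` for `v₂ = ϖ_A / u₂`** (`red_P v₂ = c · X₂ ^ 12`). -/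
theorem satEnds_sm_of_endsRedA (hends : ∀ P w, (HP P).IsEnd (nlTgt N htgt P w)) {v : F}
    (hv : EndsRedA N.S HP v) :
    ∀ c ∈ mn1V₂ Mid SS, ∀ Q : Place k (FkOf Fk0 FkM FkP c), Q.ord ((N.S c).red v) = 0 →
      N.IsSmooth ⟨c, Q⟩ :=
  satEnds_sm_X2 N hsrc htgt hq1 HP hends (n := 12) (by norm_num) fun P Q => hv.ord P Q

include hq1 in
/-- **`h12` for `v₁ = u₁ / ϖ₁`, `v₂ = ϖ_A / u₂`.** -/
theorem satEnds_h12_of_endsRed {v₁ v₂ : F} (hv₁ : EndsRed2 N.S HP v₁)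
    (hv₂ : EndsRedA N.S HP v₂) :
    ∀ c ∈ mn1V₂ Mid SS, ∀ Q : Place k (FkOf Fk0 FkM FkP c), Q.ord ((N.S c).red v₁) = 0 →
      Q.ord ((N.S c).red v₂) = 0 :=
  satEnds_h12 N hq1 HP (n₁ := 12) (n₂ := 12) (by norm_num) (fun P Q => hv₁.ord P Q)
    fun P Q => hv₂.ord P Q

include hq1 in
/-- `h21` for `v₁ = u₁ / ϖ₁`, `v₂ = ϖ_A / u₂`. -/
theorem satEnds_h21_of_endsRed {v₁ v₂ : F} (hv₁ : EndsRed2 N.S HP v₁)
    (hv₂ : EndsRedA N.S HP v₂) :
    ∀ c ∈ mn1V₂ Mid SS, ∀ Q : Place k (FkOf Fk0 FkM FkP c), Q.ord ((N.S c).red v₂) = 0 →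
      Q.ord ((N.S c).red v₁) = 0 :=
  satEnds_h21 N hq1 HP (n₁ := 12) (n₂ := 12) (by norm_num) (fun P Q => hv₁.ord P Q)
    fun P Q => hv₂.ord P Q

end Mod

end Fermat.Agent.S36G
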