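import Mathlib
import Fermat.Agent.S36.G.SatD
import Fermat.Agent.S36.G.SatEnds
import Fermat.Agent.S36.G.SeedInput

set_option autoImplicit false
set_option linter.unusedSectionVars false
set_option linter.unusedVariables false
set_option linter.style.haveILetI false

/-!
# Cluster G (S36), seat SAT-INST: the horizontal saturation `HorSat2` of the modular graph
(helper21; abstract theorem `horSat2_of_params`: helper20; (b) `SatEnds.lean`: helper83;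
(c), (d) and the glue `SatC.lean`, `SatD.lean`: helper49)

Wiring of helper20's `horSat2_of_params` (`S36/G/SatMod.lean`) to helper49's `HorSat2`
(`S36/G/NormSatMod.lean`), seed v3: `y = b u₁ ^ m / (u₁ ^ m - b) ^ 2`, `b = ϖ₁ ^ m`.

## (a) the parameters
* `satInst_adjoin_const_div`, `satInst_finrank_const_div` : `K(c / y) = K(y)` for `c ≠ 0`;
* `olParam_of_mnData_left`  : `MNData N.S V₁ V₂ u ϖ` `⟹` `OLParam N V₁ u`           (+ `sm`);
* `olParam_of_mnData_right` : `MNData N.S V₁ V₂ u ϖ` `⟹` `OLParam N V₂ (ϖ / u)`     (+ `sm`);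
* `ModEndsInput.VA₂_eq_V2₁`, `ModEndsInput.V2₁_eq_mn1V₂`, `ModEndsInput.VA₂_eq_mn1V₂` : the
  families of horizontal components agree;
* `ModEndsInput.olParam₁`   : `OLParam N E.V2₁ E.u2`            (node family (2), `u2 = u₁ / ϖ₁`);
* `ModEndsInput.olParam₂`   : `OLParam N E.V2₁ (E.ϖA / E.uA)`   (node family (A), `uA = u₂`).

## the assembly
* `satInst_horSat2_of_mnData` : **`HorSat2 N₁ q D hM N (ϖ₁ ^ m) m`** from the two multi-node data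
  (families (2) and (A)) and the three statements `sm₁`, `sm₂`, `h12` on the horizontal
  components;
* `satInst_horSat2_of_endsRed` : **the modular form**: `sm₁`, `sm₂`, `h12` are discharged by
  helper83's `SatEnds.lean` from the SEED-UP shapes `EndsRed2 (u₁ / ϖ₁)`, `EndsRedA (ϖA / u₂)`
  and `hends` (the branch points of the `H_P` are ends);
* `satInst_horSat2_of_modEnds` : the same for `E : ModEndsInput` with `N.S = E.S`,
  `E.u2 = u₁ / ϖ₁`, `E.uA = u₂`;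
* `satInst_normSat_nm2_of_endsRed`, `satInst_normSat_nm2_of_modEnds` : **(SAT, `π₂`)**,
  `NormSat N n R (nm2 N₁ q D hM)`, from the same inputs.
-/

noncomputable section

open AlgebraicCurve IntermediateField Fermat.Agent.RR Fermat.Agent.Deuring

namespace Fermat.Agent.S36G

/- build time (helper70's recipe): the instance terms are unchanged, only the search order -/
attribute [local instance 10000] SubalgebraClass.toAlgebra HahnSeries.powerSeriesAlgebra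

open Fermat.Agent.BadRed Fermat.Agent.BadRedG Fermat.Agent.F3G Fermat.Agent.F3
  Fermat.Agent.AtkinLehner ModularCurve Fermat.Agent.S24Res Fermat.Agent.HP

/-! ### (a) parameters from multi-node data -/

section Abs

variable {K F k : Type*} [Field K] [Field F] [Algebra K F] [Field k]
  {κ : Type*} {Fk : κ → Type*} [∀ c, Field (Fk c)] [∀ c, Algebra k (Fk c)] {ι : Type*}

/-- `K(c / y) = K(y)` for a constant `c ≠ 0`. -/
theorem satInst_adjoin_const_div {c : K} (hc : c ≠ 0) (y : F) :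
    K⟮algebraMap K F c / y⟯ = K⟮y⟯ := by
  have hcF : algebraMap K F c ≠ 0 := (_root_.map_ne_zero _).mpr hc
  apply le_antisymm
  · rw [IntermediateField.adjoin_simple_le_iff]
    exact div_mem (IntermediateField.algebraMap_mem _ c)
      (IntermediateField.mem_adjoin_simple_self K y)
  · rw [IntermediateField.adjoin_simple_le_iff]
    rcases eq_or_ne y 0 with rfl | hy
    · exact zero_mem _
    have h2 : algebraMap K F c / (algebraMap K F c / y) ∈ K⟮algebraMap K F c / y⟯ :=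
      div_mem (IntermediateField.algebraMap_mem _ c)
        (IntermediateField.mem_adjoin_simple_self K _)
    have e : algebraMap K F c / (algebraMap K F c / y) = y := by
      field_simp
    rwa [e] at h2

/-- `[F : K(c / y)] = [F : K(y)]`. -/
theorem satInst_finrank_const_div {c : K} (hc : c ≠ 0) (y : F) :
    Module.finrank K⟮algebraMap K F c / y⟯ F = Module.finrank K⟮y⟯ F := by
  rw [satInst_adjoin_const_div hc y]

/-- the parameter `u` of a multi-node datum is a parameter on `V₁`. -/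
theorem olParam_of_mnData_left (N : GraphSetup K F k κ Fk ι) {V₁ V₂ : Finset κ} {u : F} {ϖ : K}
    (D : MNData N.S V₁ V₂ u ϖ)
    (sm : ∀ c ∈ V₁, ∀ Q : Place k (Fk c), Q.ord ((N.S c).red u) = 0 → N.IsSmooth ⟨c, Q⟩) :
    OLParam N V₁ u where
  ne := D.ne₁
  mem := D.u_mem
  tr := D.u_tr
  deg := D.deg₁
  sm := sm

/-- the parameter `ϖ / u` of a multi-node datum is a parameter on `V₂`. -/
theorem olParam_of_mnData_right (N : GraphSetup K F k κ Fk ι) {V₁ V₂ : Finset κ} {u : F} {ϖ : K}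
    (D : MNData N.S V₁ V₂ u ϖ)
    (sm : ∀ c ∈ V₂, ∀ Q : Place k (Fk c), Q.ord ((N.S c).red (algebraMap K F ϖ / u)) = 0 →
      N.IsSmooth ⟨c, Q⟩) :
    OLParam N V₂ (algebraMap K F ϖ / u) where
  ne := D.ne₂
  mem := D.u'_mem
  tr := D.u'_tr
  deg := by
    rw [satInst_finrank_const_div D.ϖ_ne]
    exact D.deg₂
  sm := sm

end Abs

/-! ### the families of the three node theorems -/

section Ends

variable {K F k : Type} [Field K] [Field F] [Algebra K F] [Field k]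
  {Mid SS : Type} [Fintype Mid] [Fintype SS]
  {Fk0 : Type} [Field Fk0] [Algebra k Fk0]
  {FkM : Mid → Type} [∀ m, Field (FkM m)] [∀ m, Algebra k (FkM m)]
  {FkP : SS → Type} [∀ P, Field (FkP P)] [∀ P, Algebra k (FkP P)]

namespace ModEndsInput

variable (E : ModEndsInput K F k Mid SS Fk0 FkM FkP)

/-- the families of horizontal components of the node theorems (A) and (2) agree. -/
theorem VA₂_eq_V2₁ : E.VA₂ = E.V2₁ := by
  ext c
  rw [E.mem_VA₂, E.mem_V2₁]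

/-- the families of horizontal components of the node theorems (1) and (2) agree. -/
theorem V1₂_eq_V2₁ : E.V1₂ = E.V2₁ := by
  ext c
  rw [E.mem_V1₂, E.mem_V2₁]

/-- the family of horizontal components of `E` is `mn1V₂`. -/
theorem V2₁_eq_mn1V₂ : E.V2₁ = mn1V₂ Mid SS := by
  ext c
  rw [E.mem_V2₁, mem_mn1V₂]

/-- the family of horizontal components of `E` is `mn1V₂`. -/
theorem VA₂_eq_mn1V₂ : E.VA₂ = mn1V₂ Mid SS := by
  ext c
  rw [E.mem_VA₂, mem_mn1V₂]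

/-- `u2 = u₁ / ϖ₁` is a parameter on the horizontal components. -/
theorem olParam₁ (N : GraphSetup K F k (Vtx Mid SS) (FkOf Fk0 FkM FkP) (Nod Mid SS))
    (hS : N.S = E.S)
    (sm : ∀ (P : SS) (Q : Place k (FkOf Fk0 FkM FkP (Vtx.hor P))),
      Q.ord ((N.S (Vtx.hor P)).red E.u2) = 0 → N.IsSmooth ⟨Vtx.hor P, Q⟩) :
    OLParam N E.V2₁ E.u2 := by
  have D2 := E.D2
  rw [← hS] at D2
  refine olParam_of_mnData_left N D2 ?_
  intro c hc Q hQ
  obtain ⟨P, rfl⟩ := (E.mem_V2₁ c).mp hc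
  exact sm P Q hQ

/-- `ϖA / uA = ϖA / u₂` is a parameter on the horizontal components. -/
theorem olParam₂ (N : GraphSetup K F k (Vtx Mid SS) (FkOf Fk0 FkM FkP) (Nod Mid SS))
    (hS : N.S = E.S)
    (sm : ∀ (P : SS) (Q : Place k (FkOf Fk0 FkM FkP (Vtx.hor P))),
      Q.ord ((N.S (Vtx.hor P)).red (algebraMap K F E.ϖA / E.uA)) = 0 →
        N.IsSmooth ⟨Vtx.hor P, Q⟩) :
    OLParam N E.V2₁ (algebraMap K F E.ϖA / E.uA) := by
  have DA := E.DA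
  rw [← hS, E.VA₂_eq_V2₁] at DA
  refine olParam_of_mnData_right N DA ?_
  intro c hc Q hQ
  obtain ⟨P, rfl⟩ := (E.mem_V2₁ c).mp hc
  exact sm P Q hQ

end ModEndsInput

end Ends

/-! ### the assembly -/

section Mod

local notation "Qb" => AlgebraicClosure ℚ

variable (N₁ q : ℕ) [NeZero N₁] [NeZero q]

variable {k : Type*} [Field k] {Mid SS : Type} [Fintype Mid] {Fk : Vtx Mid SS → Type*}
  [∀ c, Field (Fk c)] [∀ c, Algebra k (Fk c)]

/-- **(SAT, `HorSat2`)** from the multi-node data of the families (2) (`u₁ / ϖ₁`, `V₁ = {H_P}`)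
and (A) (`u₂`, `V₂ = {H_P}`) and the statements on the horizontal components: the units of the
reductions of `u₁ / ϖ₁` and of `ϖA / u₂` are smooth points (`sm₁`, `sm₂`) and the units of
`red (u₁ / ϖ₁)` are units of `red (ϖA / u₂)` (`h12`). -/
theorem satInst_horSat2_of_mnData [Infinite k] (hq : q ∣ N₁) (D : ALData)
    (hM : N₁ * q = D.Q * D.R) (hDQ : D.Q = q ^ 2)
    (N : GraphSetup Qb (FBar (N₁ * q)) k (Vtx Mid SS) Fk (Nod Mid SS))
    {V V₀ Voo : Finset (Vtx Mid SS)} {ϖ₁ ϖ₂ ϖA : Qb} (hϖ₁ : ϖ₁ ≠ 0) {m : ℕ} (hm : m ≠ 0)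
    (D2 : MNData N.S V V₀
      (uF (N₁ * q) q (nsm_dvd N₁ q) / algebraMap Qb (FBar (N₁ * q)) ϖ₁) ϖ₂)
    (DA : MNData N.S Voo V (uF2 (N₁ * q) q (satc_sq_dvd N₁ q hq)) ϖA)
    (sm₁ : ∀ c ∈ V, ∀ Q : Place k (Fk c),
      Q.ord ((N.S c).red
        (uF (N₁ * q) q (nsm_dvd N₁ q) / algebraMap Qb (FBar (N₁ * q)) ϖ₁)) = 0 →
      N.IsSmooth ⟨c, Q⟩)
    (sm₂ : ∀ c ∈ V, ∀ Q : Place k (Fk c),
      Q.ord ((N.S c).red
        (algebraMap Qb (FBar (N₁ * q)) ϖA / uF2 (N₁ * q) q (satc_sq_dvd N₁ q hq))) = 0 →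
      N.IsSmooth ⟨c, Q⟩)
    (h12 : ∀ c ∈ V, ∀ Q : Place k (Fk c),
      Q.ord ((N.S c).red
        (uF (N₁ * q) q (nsm_dvd N₁ q) / algebraMap Qb (FBar (N₁ * q)) ϖ₁)) = 0 →
      Q.ord ((N.S c).red
        (algebraMap Qb (FBar (N₁ * q)) ϖA / uF2 (N₁ * q) q (satc_sq_dvd N₁ q hq))) = 0) :
    HorSat2 N₁ q D hM N (ϖ₁ ^ m) m :=
  satd_horSat2 N₁ q hq D hM hDQ N V hϖ₁ ϖA hm (olParam_of_mnData_left N D2 sm₁)
    (olParam_of_mnData_right N DA sm₂) h12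

end Mod

/-! ### the modular form -/

section ModEnds

local notation "Qb" => AlgebraicClosure ℚ

variable (N₁ q : ℕ) [NeZero N₁] [NeZero q]

variable {k : Type} [Field k] [IsAlgClosed k] {Mid SS : Type} [Fintype Mid] [Fintype SS]
  {Fk0 : Type} [Field Fk0] [Algebra k Fk0]
  {FkM : Mid → Type} [∀ m, Field (FkM m)] [∀ m, Algebra k (FkM m)]
  {FkP : SS → Type} [∀ P, Field (FkP P)] [∀ P, Algebra k (FkP P)]

/-- **(SAT, `HorSat2`), modular form**: from the multi-node data of the families (2) and (A), the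
SEED-UP shapes `red_P (u₁ / ϖ₁) = c X₁ ^ 12`, `red_P (ϖA / u₂) = c' X₂ ^ 12` and `hends` (the
branch points of the horizontal components are ends). -/
theorem satInst_horSat2_of_endsRed (hq : q ∣ N₁) (D : ALData) (hM : N₁ * q = D.Q * D.R)
    (hDQ : D.Q = q ^ 2)
    (N : GraphSetup Qb (FBar (N₁ * q)) k (Vtx Mid SS) (FkOf Fk0 FkM FkP) (Nod Mid SS))
    (hsrc : ∀ i, N.src i = nodSrc i) (htgt : ∀ i, N.tgt i = nodTgt i)
    (hq1 : ((q + 1 : ℕ) : k) ≠ 0)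
    (HP : ∀ P : SS, HPCurve k (FkOf Fk0 FkM FkP (Vtx.hor P)) q)
    (hends : ∀ P w, (HP P).IsEnd (nlTgt N htgt P w))
    {V₀ Voo : Finset (Vtx Mid SS)} {ϖ₁ ϖ₂ ϖA : Qb} (hϖ₁ : ϖ₁ ≠ 0) {m : ℕ} (hm : m ≠ 0)
    (D2 : MNData N.S (mn1V₂ Mid SS) V₀
      (uF (N₁ * q) q (nsm_dvd N₁ q) / algebraMap Qb (FBar (N₁ * q)) ϖ₁) ϖ₂)
    (DA : MNData N.S Voo (mn1V₂ Mid SS) (uF2 (N₁ * q) q (satc_sq_dvd N₁ q hq)) ϖA)
    (hv₁ : EndsRed2 N.S HP
      (uF (N₁ * q) q (nsm_dvd N₁ q) / algebraMap Qb (FBar (N₁ * q)) ϖ₁))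
    (hv₂ : EndsRedA N.S HP
      (algebraMap Qb (FBar (N₁ * q)) ϖA / uF2 (N₁ * q) q (satc_sq_dvd N₁ q hq))) :
    HorSat2 N₁ q D hM N (ϖ₁ ^ m) m :=
  satInst_horSat2_of_mnData N₁ q hq D hM hDQ N hϖ₁ hm D2 DA
    (satEnds_sm_of_endsRed2 N hsrc htgt HP hends hv₁)
    (satEnds_sm_of_endsRedA N hsrc htgt hq1 HP hends hv₂)
    (satEnds_h12_of_endsRed N hq1 HP hv₁ hv₂)

/-- **(SAT, `HorSat2`), modular form, for the input `E` of the three node theorems**: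
`N.S = E.S`, `E.u2 = u₁ / ϖ₁`, `E.uA = u₂`. -/
theorem satInst_horSat2_of_modEnds (hq : q ∣ N₁) (D : ALData) (hM : N₁ * q = D.Q * D.R)
    (hDQ : D.Q = q ^ 2)
    (E : ModEndsInput Qb (FBar (N₁ * q)) k Mid SS Fk0 FkM FkP)
    (N : GraphSetup Qb (FBar (N₁ * q)) k (Vtx Mid SS) (FkOf Fk0 FkM FkP) (Nod Mid SS))
    (hS : N.S = E.S)
    (hsrc : ∀ i, N.src i = nodSrc i) (htgt : ∀ i, N.tgt i = nodTgt i)
    (hq1 : ((q + 1 : ℕ) : k) ≠ 0)
    (HP : ∀ P : SS, HPCurve k (FkOf Fk0 FkM FkP (Vtx.hor P)) q)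
    (hends : ∀ P w, (HP P).IsEnd (nlTgt N htgt P w))
    {ϖ₁ : Qb} (hϖ₁ : ϖ₁ ≠ 0) {m : ℕ} (hm : m ≠ 0)
    (hu2 : E.u2 = uF (N₁ * q) q (nsm_dvd N₁ q) / algebraMap Qb (FBar (N₁ * q)) ϖ₁)
    (huA : E.uA = uF2 (N₁ * q) q (satc_sq_dvd N₁ q hq))
    (hv₁ : EndsRed2 E.S HP E.u2)
    (hv₂ : EndsRedA E.S HP (algebraMap Qb (FBar (N₁ * q)) E.ϖA / E.uA)) :
    HorSat2 N₁ q D hM N (ϖ₁ ^ m) m := by
  have D2 := E.D2
  have DA := E.DA
  rw [E.V2₁_eq_mn1V₂, hu2, ← hS] at D2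
  rw [E.VA₂_eq_mn1V₂, huA, ← hS] at DA
  rw [hu2, ← hS] at hv₁
  rw [huA, ← hS] at hv₂
  exact satInst_horSat2_of_endsRed N₁ q hq D hM hDQ N hsrc htgt hq1 HP hends hϖ₁ hm D2 DA
    hv₁ hv₂

/-- **(SAT, `π₂`), modular form**: `NormSat N n R (nm2 N₁ q D hM)` for every `R` supported on the
poles of the seed function `x = u₁ + b / u₁ + y`, `b = ϖ₁ ^ m`, as soon as the poles of `x` are
ordinary. -/
theorem satInst_normSat_nm2_of_endsRed (hq : q ∣ N₁) (hqp : q.Prime) (D : ALData)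
    (hM : N₁ * q = D.Q * D.R) (hDQ : D.Q = q ^ 2)
    (N : GraphSetup Qb (FBar (N₁ * q)) k (Vtx Mid SS) (FkOf Fk0 FkM FkP) (Nod Mid SS))
    (hsrc : ∀ i, N.src i = nodSrc i) (htgt : ∀ i, N.tgt i = nodTgt i)
    (hq1 : ((q + 1 : ℕ) : k) ≠ 0)
    (HP : ∀ P : SS, HPCurve k (FkOf Fk0 FkM FkP (Vtx.hor P)) q)
    (hends : ∀ P w, (HP P).IsEnd (nlTgt N htgt P w))
    (n : ℕ) (R : Divisor Qb (FBar (N₁ * q)))
    {V₀ Voo : Finset (Vtx Mid SS)} {ϖ₁ ϖ₂ ϖA : Qb} (hϖ₁ : ϖ₁ ≠ 0) {m : ℕ} (hm : m ≠ 0)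
    (hR : ∀ w : Place Qb (FBar (N₁ * q)), R w ≠ 0 →
      w.ord (uF (N₁ * q) q (nsm_dvd N₁ q) +
        algebraMap Qb (FBar (N₁ * q)) (ϖ₁ ^ m) / uF (N₁ * q) q (nsm_dvd N₁ q) +
        ymodY (uF (N₁ * q) q (nsm_dvd N₁ q)) (ϖ₁ ^ m) m) < 0)
    (hord : ∀ P : Place Qb (FBar (N₁ * q)),
      P.ord (uF (N₁ * q) q (nsm_dvd N₁ q) +
        algebraMap Qb (FBar (N₁ * q)) (ϖ₁ ^ m) / uF (N₁ * q) q (nsm_dvd N₁ q) +
        ymodY (uF (N₁ * q) q (nsm_dvd N₁ q)) (ϖ₁ ^ m) m) < 0 → N.IsOrd P)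
    (D2 : MNData N.S (mn1V₂ Mid SS) V₀
      (uF (N₁ * q) q (nsm_dvd N₁ q) / algebraMap Qb (FBar (N₁ * q)) ϖ₁) ϖ₂)
    (DA : MNData N.S Voo (mn1V₂ Mid SS) (uF2 (N₁ * q) q (satc_sq_dvd N₁ q hq)) ϖA)
    (hv₁ : EndsRed2 N.S HP
      (uF (N₁ * q) q (nsm_dvd N₁ q) / algebraMap Qb (FBar (N₁ * q)) ϖ₁))
    (hv₂ : EndsRedA N.S HP
      (algebraMap Qb (FBar (N₁ * q)) ϖA / uF2 (N₁ * q) q (satc_sq_dvd N₁ q hq))) :
    NormSat N n R (nm2 N₁ q D hM) :=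
  nsm_normSat_nm2 N₁ q hq hqp D hM hDQ N n R (pow_ne_zero m hϖ₁) hm hR hord
    (satInst_horSat2_of_endsRed N₁ q hq D hM hDQ N hsrc htgt hq1 HP hends hϖ₁ hm D2 DA hv₁ hv₂)

/-- **(SAT, `π₂`), modular form, for the input `E` of the three node theorems.** -/
theorem satInst_normSat_nm2_of_modEnds (hq : q ∣ N₁) (hqp : q.Prime) (D : ALData)
    (hM : N₁ * q = D.Q * D.R) (hDQ : D.Q = q ^ 2)
    (E : ModEndsInput Qb (FBar (N₁ * q)) k Mid SS Fk0 FkM FkP)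
    (N : GraphSetup Qb (FBar (N₁ * q)) k (Vtx Mid SS) (FkOf Fk0 FkM FkP) (Nod Mid SS))
    (hS : N.S = E.S)
    (hsrc : ∀ i, N.src i = nodSrc i) (htgt : ∀ i, N.tgt i = nodTgt i)
    (hq1 : ((q + 1 : ℕ) : k) ≠ 0)
    (HP : ∀ P : SS, HPCurve k (FkOf Fk0 FkM FkP (Vtx.hor P)) q)
    (hends : ∀ P w, (HP P).IsEnd (nlTgt N htgt P w))
    (n : ℕ) (R : Divisor Qb (FBar (N₁ * q)))
    {ϖ₁ : Qb} (hϖ₁ : ϖ₁ ≠ 0) {m : ℕ} (hm : m ≠ 0)
    (hR : ∀ w : Place Qb (FBar (N₁ * q)), R w ≠ 0 →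
      w.ord (uF (N₁ * q) q (nsm_dvd N₁ q) +
        algebraMap Qb (FBar (N₁ * q)) (ϖ₁ ^ m) / uF (N₁ * q) q (nsm_dvd N₁ q) +
        ymodY (uF (N₁ * q) q (nsm_dvd N₁ q)) (ϖ₁ ^ m) m) < 0)
    (hord : ∀ P : Place Qb (FBar (N₁ * q)),
      P.ord (uF (N₁ * q) q (nsm_dvd N₁ q) +
        algebraMap Qb (FBar (N₁ * q)) (ϖ₁ ^ m) / uF (N₁ * q) q (nsm_dvd N₁ q) +
        ymodY (uF (N₁ * q) q (nsm_dvd N₁ q)) (ϖ₁ ^ m) m) < 0 → N.IsOrd P)
    (hu2 : E.u2 = uF (N₁ * q) q (nsm_dvd N₁ q) / algebraMap Qb (FBar (N₁ * q)) ϖ₁)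
    (huA : E.uA = uF2 (N₁ * q) q (satc_sq_dvd N₁ q hq))
    (hv₁ : EndsRed2 E.S HP E.u2)
    (hv₂ : EndsRedA E.S HP (algebraMap Qb (FBar (N₁ * q)) E.ϖA / E.uA)) :
    NormSat N n R (nm2 N₁ q D hM) :=
  nsm_normSat_nm2 N₁ q hq hqp D hM hDQ N n R (pow_ne_zero m hϖ₁) hm hR hord
    (satInst_horSat2_of_modEnds N₁ q hq D hM hDQ E N hS hsrc htgt hq1 HP hends hϖ₁ hm hu2 huA
      hv₁ hv₂)

end ModEnds

end Fermat.Agent.S36G
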