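import Mathlib
import Fermat.Agent.S36.G.SatD
import Fermat.Agent.Lib.BadRed.Graph.Deuring.Main

set_option autoImplicit false
set_option linter.unusedSectionVars false
set_option linter.unusedVariables false
set_option linter.style.haveILetI false

/-!
# Cluster G (S36), seat SAT: `NormSat` for the base divisor `m • G.D₀` of a `GraphSeed`
(helper49; consumer: COC-ASM, helper36)

`G : GraphSeed Qb (FBar (N₁ q)) ..` with `G.D₀ = poleDiv h x`, `x = u₁ + b / u₁ + ymodY u₁ b m₀`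
the seed function of SEED v3 (`u₁ = uF (N₁ q) q`).

* `sats_hR`, `sats_hord` : the two support hypotheses of `nsm_normSat_nm1` / `nsm_normSat_nm2`
  for `R = m • G.D₀`, `N = G.graphSetup`;
* `sats_normSat_nm1` : **`NormSat G.graphSetup n (m • G.D₀) (nm1 N₁ q)`**, complete;
* `sats_normSat_nm2` : **`NormSat G.graphSetup n (m • G.D₀) (nm2 N₁ q D hM)`** from the two
  parameters `H₁`, `H₂` and `h12` (`b = ϖ₁ ^ m₀`);
* `sats_normSat_nm2_of_horSat2` : the same from `HorSat2`.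
-/

noncomputable section

open AlgebraicCurve Fermat.Agent.RR Fermat.Agent.Deuring

namespace Fermat.Agent.S36G

open Fermat.Agent.BadRed Fermat.Agent.BadRedG Fermat.Agent.F3G Fermat.Agent.F3
  Fermat.Agent.AtkinLehner ModularCurve Fermat.Agent.S24Res

section Abs

variable {K F k : Type*} [Field K] [Field F] [Algebra K F] [Field k]
  {κ : Type*} {Fk : κ → Type*} [∀ c, Field (Fk c)] [∀ c, Algebra k (Fk c)] {ι : Type*}
  [Fintype κ] [Fintype ι] [Infinite k] [Nonempty κ]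

/-- the support of `m • G.D₀` consists of poles of the seed function. -/
theorem sats_hR (G : GraphSeed K F k κ Fk ι) (h : IsRRField K F) {x : F}
    (hD₀ : G.D₀ = poleDiv h x) (m : ℕ) (w : Place K F) (hw : (m • G.D₀) w ≠ 0) :
    w.ord x < 0 := by
  have h1 : G.D₀ w ≠ 0 := by
    intro h0
    apply hw
    rw [Finsupp.smul_apply, h0, smul_zero]
  rw [hD₀, poleDiv_apply] at h1
  by_contra hcon
  apply h1
  rw [max_eq_right (by omega)]

/-- the poles of the seed function are ordinary. -/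
theorem sats_hord (G : GraphSeed K F k κ Fk ι) (h : IsRRField K F) {x : F}
    (hD₀ : G.D₀ = poleDiv h x) (P : Place K F) (hP : P.ord x < 0) :
    G.graphSetup.IsOrd P := by
  apply G.graphSetup_isOrdDiv_D₀ P
  rw [hD₀, poleDiv_apply, max_eq_left (by omega)]
  omega

end Abs

section Mod

local notation "Qb" => AlgebraicClosure ℚ

variable (N₁ q : ℕ) [NeZero N₁] [NeZero q]

variable {k : Type*} [Field k] [Infinite k] {Mid SS : Type} [Fintype Mid] [Fintype SS]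
  {Fk : Vtx Mid SS → Type*} [∀ c, Field (Fk c)] [∀ c, Algebra k (Fk c)]

/-- **(SAT, `π₁`)** for the seed: `NormSat G.graphSetup n (m • G.D₀) (nm1 N₁ q)`. -/
theorem sats_normSat_nm1 (hq : q ∣ N₁)
    (G : GraphSeed Qb (FBar (N₁ * q)) k (Vtx Mid SS) Fk (Nod Mid SS)) (n m : ℕ)
    (h : IsRRField Qb (FBar (N₁ * q))) (b : Qb) (m₀ : ℕ)
    (hD₀ : G.D₀ = poleDiv h (uF (N₁ * q) q (nsm_dvd N₁ q) +
        algebraMap Qb (FBar (N₁ * q)) b / uF (N₁ * q) q (nsm_dvd N₁ q) +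
        ymodY (uF (N₁ * q) q (nsm_dvd N₁ q)) b m₀)) :
    NormSat G.graphSetup n (m • G.D₀) (nm1 N₁ q) :=
  nsm_normSat_nm1 N₁ q hq G.graphSetup n (m • G.D₀) b m₀
    (fun w hw => sats_hR G h hD₀ m w hw) (fun P hP => sats_hord G h hD₀ P hP)

/-- **(SAT, `π₂`)** for the seed, from `HorSat2`. -/
theorem sats_normSat_nm2_of_horSat2 (hq : q ∣ N₁) (hqp : q.Prime) (D : ALData)
    (hM : N₁ * q = D.Q * D.R) (hDQ : D.Q = q ^ 2)
    (G : GraphSeed Qb (FBar (N₁ * q)) k (Vtx Mid SS) Fk (Nod Mid SS)) (n m : ℕ)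
    (h : IsRRField Qb (FBar (N₁ * q))) {b : Qb} (hb : b ≠ 0) {m₀ : ℕ} (hm₀ : m₀ ≠ 0)
    (hD₀ : G.D₀ = poleDiv h (uF (N₁ * q) q (nsm_dvd N₁ q) +
        algebraMap Qb (FBar (N₁ * q)) b / uF (N₁ * q) q (nsm_dvd N₁ q) +
        ymodY (uF (N₁ * q) q (nsm_dvd N₁ q)) b m₀))
    (hH : HorSat2 N₁ q D hM G.graphSetup b m₀) :
    NormSat G.graphSetup n (m • G.D₀) (nm2 N₁ q D hM) :=
  nsm_normSat_nm2 N₁ q hq hqp D hM hDQ G.graphSetup n (m • G.D₀) hb hm₀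
    (fun w hw => sats_hR G h hD₀ m w hw) (fun P hP => sats_hord G h hD₀ P hP) hH

/-- **(SAT, `π₂`)** for the seed, from the two parameters `v₁ = u₁ / ϖ₁`, `v₂ = ϖ_A / u₂` and
the comparison `h12` of their unit loci (`b = ϖ₁ ^ m₀`). -/
theorem sats_normSat_nm2 (hq : q ∣ N₁) (hqp : q.Prime) (D : ALData)
    (hM : N₁ * q = D.Q * D.R) (hDQ : D.Q = q ^ 2)
    (G : GraphSeed Qb (FBar (N₁ * q)) k (Vtx Mid SS) Fk (Nod Mid SS)) (n m : ℕ)
    (h : IsRRField Qb (FBar (N₁ * q)))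
    (V : Finset (Vtx Mid SS)) {ϖ₁ : Qb} (hϖ₁ : ϖ₁ ≠ 0) (ϖA : Qb) {m₀ : ℕ} (hm₀ : m₀ ≠ 0)
    (hD₀ : G.D₀ = poleDiv h (uF (N₁ * q) q (nsm_dvd N₁ q) +
        algebraMap Qb (FBar (N₁ * q)) (ϖ₁ ^ m₀) / uF (N₁ * q) q (nsm_dvd N₁ q) +
        ymodY (uF (N₁ * q) q (nsm_dvd N₁ q)) (ϖ₁ ^ m₀) m₀))
    (H₁ : OLParam G.graphSetup V
      (uF (N₁ * q) q (nsm_dvd N₁ q) / algebraMap Qb (FBar (N₁ * q)) ϖ₁))
    (H₂ : OLParam G.graphSetup V
      (algebraMap Qb (FBar (N₁ * q)) ϖA / uF2 (N₁ * q) q (satc_sq_dvd N₁ q hq)))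
    (h12 : ∀ c ∈ V, ∀ Q : Place k (Fk c),
      Q.ord ((G.graphSetup.S c).red
        (uF (N₁ * q) q (nsm_dvd N₁ q) / algebraMap Qb (FBar (N₁ * q)) ϖ₁)) = 0 →
      Q.ord ((G.graphSetup.S c).red
        (algebraMap Qb (FBar (N₁ * q)) ϖA / uF2 (N₁ * q) q (satc_sq_dvd N₁ q hq))) = 0) :
    NormSat G.graphSetup n (m • G.D₀) (nm2 N₁ q D hM) :=
  sats_normSat_nm2_of_horSat2 N₁ q hq hqp D hM hDQ G n m h (pow_ne_zero m₀ hϖ₁) hm₀ hD₀
    (satd_horSat2 N₁ q hq D hM hDQ G.graphSetup V hϖ₁ ϖA hm₀ H₁ H₂ h12)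

end Mod

end Fermat.Agent.S36G
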