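import Mathlib
import Fermat.Agent.S36.G.SatModInst
import Fermat.Agent.S36.G.SatSeed
import Fermat.Agent.S36.G.EndsDictYmod

set_option autoImplicit false
set_option linter.unusedSectionVars false
set_option linter.unusedVariables false
set_option linter.style.haveILetI false

/-!
# Cluster G (S36), seat SAT, FINAL PLUG for the modular seed  (helper21)

`G := E.ymodSeed hn hb h12 hu2 hD₀ hdeg hgenus` (SEED-MAIN, `S36/Seed/Main.lean`),
`E : ModEndsInput Qb (FBar (N₁ * q)) k ..`, `N := G.graphSetup`.  With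

  `hu1 : E.u1 = uF (N₁ * q) q _`   (`u₁ = Δ(z) / Δ(qz)`),
  `huA : E.uA = uF2 (N₁ * q) q _`  (`u₂ = Δ(qz) / Δ(q²z)`),
  `hxA : EndsRedA E.S H (ϖA / uA)`, `hx2 : EndsRed2 E.S H E.u2`   (SEED-UP)

the two saturation hypotheses `hsat` of `cocycleF1_modular`, `cocycleF2_modular` hold:

* `satY_hends`       : the branch points of the `H_P` are ends (from helper15's `edy_hI`,
  `edy_hZ`, `edy_hm1`);
* `satY_horSat2`     : `HorSat2 N₁ q D hM G.graphSetup b n`;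
* `satY_normSat_nm1` : `NormSat G.graphSetup n' (m • G.D₀) (nm1 N₁ q)`;
* `satY_normSat_nm2` : `NormSat G.graphSetup n' (m • G.D₀) (nm2 N₁ q D hM)`.

Everything else is plugged in: helper20 (`horSat2_of_params`), helper49 (`SatC`, `SatD`,
`SatSeed`), helper83 (`SatEnds`), helper15 (`EndsDictYmod`), `SatModInst`.
-/

noncomputable section

open AlgebraicCurve IntermediateField Fermat.Agent.RR Fermat.Agent.Deuring

namespace Fermat.Agent.S36G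

/- build time (helper70's recipe): the instance terms are unchanged, only the search order -/
attribute [local instance 10000] SubalgebraClass.toAlgebra HahnSeries.powerSeriesAlgebra

open Fermat.Agent.BadRed Fermat.Agent.BadRedG Fermat.Agent.F3G Fermat.Agent.F3
  Fermat.Agent.AtkinLehner ModularCurve Fermat.Agent.S24Res Fermat.Agent.HP

section SatYmod

local notation "Qb" => AlgebraicClosure ℚ

variable (N₁ q : ℕ) [NeZero N₁] [NeZero q]

variable {k : Type} [Field k] [IsAlgClosed k] {Mid SS : Type} [Fintype Mid] [Fintype SS]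
  [Nonempty SS]
  {Fk0 : Type} [Field Fk0] [Algebra k Fk0]
  {FkM : Mid → Type} [∀ m, Field (FkM m)] [∀ m, Algebra k (FkM m)]
  {FkP : SS → Type} [∀ P, Field (FkP P)] [∀ P, Algebra k (FkP P)]
  {E : ModEndsInput Qb (FBar (N₁ * q)) k Mid SS Fk0 FkM FkP}
  {H : ∀ P : SS, HPCurve k (FkOf Fk0 FkM FkP (Vtx.hor P)) q}
  {b : Qb} {n : ℕ}
  (hn : 2 ≤ n) (hb : E.ϖ1 ^ n = b) (h12 : E.ϖ1 * E.ϖ2 = b)
  (hu2 : E.u2 = E.u1 / algebraMap Qb (FBar (N₁ * q)) E.ϖ1)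
  (hD₀ : E.D₀ = poleDiv (E.S (Vtx.vert Vrt.oo)).hF (E.ymodX b n))
  (hdeg : Divisor.degree (poleDiv (E.S (Vtx.vert Vrt.oo)).hF (E.ymodX b n)) ≤
    ∑ c, Divisor.degree (poleDiv (E.S c).hFk ((E.S c).red (E.ymodX b n))))
  (hgenus : genusFF Qb (FBar (N₁ * q)) + Fintype.card (Vtx Mid SS) ≤
    (∑ c, genusFF k (FkOf Fk0 FkM FkP c)) + Fintype.card (Nod Mid SS) + 1)
  (hxA : EndsRedA E.S H (algebraMap Qb (FBar (N₁ * q)) E.ϖA / E.uA))
  (hx2 : EndsRed2 E.S H E.u2)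
  (hqp : q.Prime) [CharP k q]

include hxA hx2 hqp in
/-- **the branch points of the horizontal components of the modular seed are ends.** -/
theorem satY_hends (P : SS) (w : Vrt Mid) :
    (H P).IsEnd (nlTgt (E.ymodSeed hn hb h12 hu2 hD₀ hdeg hgenus).graphSetup
      (edy_htgt hn hb h12 hu2 hD₀ hdeg hgenus) P w) :=
  satEnds_isEnd_nlTgt (E.ymodSeed hn hb h12 hu2 hD₀ hdeg hgenus).graphSetup
    (edy_htgt hn hb h12 hu2 hD₀ hdeg hgenus) (ends_hq1 hqp) H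
    (edy_hI hn hb h12 hu2 hD₀ hdeg hgenus hxA)
    (edy_hZ hn hb h12 hu2 hD₀ hdeg hgenus hx2)
    (fun P m => by
      rw [edy_hm1 hn hb h12 hu2 hD₀ hdeg hgenus hxA hx2 hqp P m]
      have := ends_midDeg_pos hqp
      omega) P w

include hxA hx2 hqp in
/-- **(SAT, `HorSat2`)** for the modular seed. -/
theorem satY_horSat2 (hq : q ∣ N₁) (D : ALData) (hM : N₁ * q = D.Q * D.R) (hDQ : D.Q = q ^ 2)
    (hu1 : E.u1 = uF (N₁ * q) q (nsm_dvd N₁ q))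
    (huA : E.uA = uF2 (N₁ * q) q (satc_sq_dvd N₁ q hq)) :
    HorSat2 N₁ q D hM (E.ymodSeed hn hb h12 hu2 hD₀ hdeg hgenus).graphSetup b n := by
  have hn0 : n ≠ 0 := by omega
  have hu2' : E.u2 =
      uF (N₁ * q) q (nsm_dvd N₁ q) / algebraMap Qb (FBar (N₁ * q)) E.ϖ1 := by
    rw [hu2, hu1]
  have h := satInst_horSat2_of_modEnds N₁ q hq D hM hDQ E
    (E.ymodSeed hn hb h12 hu2 hD₀ hdeg hgenus).graphSetup rfl
    (edy_hsrc hn hb h12 hu2 hD₀ hdeg hgenus) (edy_htgt hn hb h12 hu2 hD₀ hdeg hgenus)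
    (ends_hq1 hqp) H (satY_hends N₁ q hn hb h12 hu2 hD₀ hdeg hgenus hxA hx2 hqp)
    E.D1.ϖ_ne hn0 hu2' huA hx2 hxA
  rwa [hb] at h

/-- the divisor of the modular seed is the polar divisor of `u₁ + b / u₁ + y`. -/
theorem satY_hD₀ (hu1 : E.u1 = uF (N₁ * q) q (nsm_dvd N₁ q)) :
    (E.ymodSeed hn hb h12 hu2 hD₀ hdeg hgenus).D₀ =
      poleDiv (E.S (Vtx.vert Vrt.oo)).hF (uF (N₁ * q) q (nsm_dvd N₁ q) +
        algebraMap Qb (FBar (N₁ * q)) b / uF (N₁ * q) q (nsm_dvd N₁ q) +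
        ymodY (uF (N₁ * q) q (nsm_dvd N₁ q)) b n) := by
  rw [ModEndsInput.ymodSeed_D₀, ModEndsInput.ymodX_eq, hu1]

/-- **(SAT, `π₁`)** for the modular seed. -/
theorem satY_normSat_nm1 (hq : q ∣ N₁) (hu1 : E.u1 = uF (N₁ * q) q (nsm_dvd N₁ q))
    (n' m : ℕ) :
    NormSat (E.ymodSeed hn hb h12 hu2 hD₀ hdeg hgenus).graphSetup n'
      (m • (E.ymodSeed hn hb h12 hu2 hD₀ hdeg hgenus).D₀) (nm1 N₁ q) :=
  sats_normSat_nm1 N₁ q hq (E.ymodSeed hn hb h12 hu2 hD₀ hdeg hgenus) n' m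
    (E.S (Vtx.vert Vrt.oo)).hF b n (satY_hD₀ N₁ q hn hb h12 hu2 hD₀ hdeg hgenus hu1)

include hxA hx2 hqp in
/-- **(SAT, `π₂`)** for the modular seed. -/
theorem satY_normSat_nm2 (hq : q ∣ N₁) (D : ALData) (hM : N₁ * q = D.Q * D.R)
    (hDQ : D.Q = q ^ 2)
    (hu1 : E.u1 = uF (N₁ * q) q (nsm_dvd N₁ q))
    (huA : E.uA = uF2 (N₁ * q) q (satc_sq_dvd N₁ q hq)) (n' m : ℕ) :
    NormSat (E.ymodSeed hn hb h12 hu2 hD₀ hdeg hgenus).graphSetup n'
      (m • (E.ymodSeed hn hb h12 hu2 hD₀ hdeg hgenus).D₀) (nm2 N₁ q D hM) := by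
  have hn0 : n ≠ 0 := by omega
  have hb0 : b ≠ 0 := by
    rw [← hb]
    exact pow_ne_zero n E.D1.ϖ_ne
  exact sats_normSat_nm2_of_horSat2 N₁ q hq hqp D hM hDQ
    (E.ymodSeed hn hb h12 hu2 hD₀ hdeg hgenus) n' m (E.S (Vtx.vert Vrt.oo)).hF hb0 hn0
    (satY_hD₀ N₁ q hn hb h12 hu2 hD₀ hdeg hgenus hu1)
    (satY_horSat2 N₁ q hn hb h12 hu2 hD₀ hdeg hgenus hxA hx2 hqp hq D hM hDQ hu1 huA)

end SatYmod

end Fermat.Agent.S36G
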