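import Mathlib
import Fermat.Agent.S36.G.CoreBundleOf
import Fermat.Agent.S36.G.SatYmod
import Fermat.Agent.Lib.FrobTrace.Residue

set_option autoImplicit false
set_option linter.unusedSectionVars false
set_option linter.unusedVariables false
set_option linter.style.haveILetI false
set_option synthInstance.maxHeartbeats 400000
set_option maxHeartbeats 1000000

/-!
# Cluster G (S36), block COC: the junction output `CboNorm` for the modular seed  (helper36)

`E : ModEndsInput ℚ̄ (FBar (M₀ q q)) k Mid SS Fk0 FkM FkP`, `k` the residue field of `A ∣ q`,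
`G := E.ymodSeed ..` (SEED v3, `S36/Seed/Main.lean`), `N := G.graphSetup`, `R := m • G.D₀`.

* `cboNorm_of_layers` : **the junction output `CboNorm`** of `S36/G/CoreBundleOf.lean` for the
  modular seed, from the two norm layers `NormLayer1`, `NormLayer2` (seats COC-ASM) and
  `E.u1 = uF`, `E.uA = uF2`, `EndsRedA`, `EndsRed2` (the saturation is helper21's
  `satY_normSat_nm1`, `satY_normSat_nm2`).
-/

noncomputable section

open AlgebraicCurve Fermat.Agent.RR Fermat.Agent.Deuring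

namespace Fermat.Agent.S36G

open ModularCurve Fermat.Agent.F3 Fermat.Agent.F3G Fermat.Agent.GaussInt
  Fermat.Agent.AtkinLehner Fermat.Agent.Kronecker Fermat.Agent.BadRed Fermat.Agent.BadRedG
  Fermat.Agent.BadRed.Gluing Fermat.Agent.S24Res Fermat.Agent.HP

local notation "Qb" => AlgebraicClosure ℚ

attribute [local instance] Fermat.Agent.GaussInt.isAlgClosed_residue
  Fermat.Agent.GaussInt.infinite_residue

section Ends

variable {M₀ q : ℕ} [NeZero M₀] [NeZero q] [hN₁ : NeZero (M₀ * q)]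
  {A : ValuationSubring Qb}
  {Mid SS : Type} [Fintype Mid] [Fintype SS] [Nonempty SS]
  {Fk0 : Type} [Field Fk0] [Algebra (IsLocalRing.ResidueField A) Fk0]
  {FkM : Mid → Type} [∀ m, Field (FkM m)] [∀ m, Algebra (IsLocalRing.ResidueField A) (FkM m)]
  {FkP : SS → Type} [∀ P, Field (FkP P)] [∀ P, Algebra (IsLocalRing.ResidueField A) (FkP P)]
  (E : ModEndsInput Qb (FBar (M₀ * q * q)) (IsLocalRing.ResidueField A) Mid SS Fk0 FkM FkP)
  {b : Qb} {nn : ℕ}
  (hn : 2 ≤ nn) (hb : E.ϖ1 ^ nn = b) (h12 : E.ϖ1 * E.ϖ2 = b)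
  (hu2 : E.u2 = E.u1 / algebraMap Qb (FBar (M₀ * q * q)) E.ϖ1)
  (hD₀ : E.D₀ = poleDiv (E.S (Vtx.vert Vrt.oo)).hF (E.ymodX b nn))
  (hdeg : Divisor.degree (poleDiv (E.S (Vtx.vert Vrt.oo)).hF (E.ymodX b nn)) ≤
    ∑ c, Divisor.degree (poleDiv (E.S c).hFk ((E.S c).red (E.ymodX b nn))))
  (hgenus : genusFF Qb (FBar (M₀ * q * q)) + Fintype.card (Vtx Mid SS) ≤
    (∑ c, genusFF (IsLocalRing.ResidueField A) (FkOf Fk0 FkM FkP c)) +
      Fintype.card (Nod Mid SS) + 1)

/-- **the junction output `CboNorm` for the modular seed** from the two norm layers. -/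
theorem cboNorm_of_layers (hqp : q.Prime) (hA : A.LiesOverPrime q)
    (D₀ : ALData) (hM₀ : M₀ * q * q = D₀.Q * D₀.R) (hDQ : D₀.Q = q ^ 2)
    (hu1 : E.u1 = uF (M₀ * q * q) q (nsm_dvd (M₀ * q) q))
    (huA : E.uA = uF2 (M₀ * q * q) q (satc_sq_dvd (M₀ * q) q (Dvd.intro_left M₀ rfl)))
    (HP : ∀ P : SS, HPCurve (IsLocalRing.ResidueField A) (FkOf Fk0 FkM FkP (Vtx.hor P)) q)
    (hxA : EndsRedA E.S HP (algebraMap Qb (FBar (M₀ * q * q)) E.ϖA / E.uA))
    (hx2 : EndsRed2 E.S HP E.u2)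
    (e n m : ℕ)
    (L1 : NormLayer1 (E.ymodSeed hn hb h12 hu2 hD₀ hdeg hgenus).graphSetup n q e
      (nm1 (M₀ * q) q))
    (L2 : NormLayer2 (E.ymodSeed hn hb h12 hu2 hD₀ hdeg hgenus).graphSetup n q e
      (nm2 (M₀ * q) q D₀ hM₀)) :
    CboNorm M₀ q A (E.ymodSeed hn hb h12 hu2 hD₀ hdeg hgenus).graphSetup D₀ hM₀ e n
      (m • (E.ymodSeed hn hb h12 hu2 hD₀ hdeg hgenus).D₀) := by
  haveI : Fact q.Prime := ⟨hqp⟩
  haveI : CharP (IsLocalRing.ResidueField A) q := Fermat.Agent.FrobTrace.charP_residueField A hA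
  exact
    { layer1 := ⟨L1⟩
      sat1 := satY_normSat_nm1 (M₀ * q) q hn hb h12 hu2 hD₀ hdeg hgenus (Dvd.intro_left M₀ rfl)
        hu1 n m
      layer2 := ⟨L2⟩
      sat2 := satY_normSat_nm2 (M₀ * q) q hn hb h12 hu2 hD₀ hdeg hgenus hxA hx2 hqp
        (Dvd.intro_left M₀ rfl) D₀ hM₀ hDQ hu1 huA n m }

end Ends

end Fermat.Agent.S36G
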