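/-
Cluster G (S36), block COC (helper31): CONSTRUCTORS of the norm layers `NormLayer1`, `NormLayer2`
(`S36/G/NormLayer.lean`, helper36) from

* (RES)  the four residue statements, with `jm = algebraMap`, `nm = Algebra.norm` (for an algebra
         structure of the middle residue fields over the residue field of the base vertex
         `b₀ = ∞` resp. `0`) and `NP = N_{k(H_P) / k⟮X₁⟯}` resp. `N_{k(H_P) / k⟮X₂⟯}` seen in `k(H_P)`
         (seats NR-OO, NR-MID, NR-ZERO, NR-HOR);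
* (VERT) the branch on the middle component `m` lies over the branch on the component `b₀`, with
         ramification index `e = [Fk_m : Fk_{b₀}]`;
* (DIV)  the signs of the orders of `X₁`, `X₂` at the branches on `H_P` (ENDS-DICT).

`normLayer1_of`, `normLayer2_of`; the value fields are `nl_val_nm`, `nl_val_jm`
(`NormLayerVal.lean`) and `nl_val_NP_X1_adjoin_div`, `nl_val_NP_X2_adjoin_div`
(`EndsDictAdjoin.lean`).
-/
import Mathlib
import Fermat.Agent.S36.G.EndsDictAdjoin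

set_option autoImplicit false
set_option linter.unusedSectionVars false
set_option linter.unusedVariables false
set_option linter.style.haveILetI false

noncomputable section

open IntermediateField AlgebraicCurve

namespace Fermat.Agent.S36G

open Fermat.Agent.RR Fermat.Agent.S36 Fermat.Agent.HP Fermat.Agent.Deuring
open Fermat.Agent.BadRed Fermat.Agent.BadRedG

variable {K F k : Type*} [Field K] [Field F] [Algebra K F] [Field k]

variable {Mid SS : Type} [Fintype Mid] {Fk : Vtx Mid SS → Type*} [∀ c, Field (Fk c)]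
  [∀ c, Algebra k (Fk c)]

variable (N : GraphSetup K F k (Vtx Mid SS) Fk (Nod Mid SS))
  (hsrc : ∀ i, N.src i = nodSrc i) (htgt : ∀ i, N.tgt i = nodTgt i)

variable {q : ℕ} [IsAlgClosed k] (hq1 : ((q + 1 : ℕ) : k) ≠ 0)
  (HP : ∀ P : SS, HPCurve k (Fk (Vtx.hor P)) q)

/-- the norm of `k(H_P)` over `k⟮x⟯`, seen in `k(H_P)`, as a monoid homomorphism. -/
def nlNP {F' : Type*} [Field F'] [Algebra k F'] (x : F') : F' →* F' :=
  (algebraMap k⟮x⟯ F' : k⟮x⟯ →* F').comp (Algebra.norm k⟮x⟯)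

omit [IsAlgClosed k] in
theorem nlNP_apply {F' : Type*} [Field F'] [Algebra k F'] (x y : F') :
    nlNP (k := k) x y = algebraMap k⟮x⟯ F' (Algebra.norm k⟮x⟯ y) := rfl

omit [IsAlgClosed k] in
theorem nlNP_ne_zero {F' : Type*} [Field F'] [Algebra k F'] (x : F')
    [FiniteDimensional k⟮x⟯ F'] {y : F'} (hy : y ≠ 0) : nlNP (k := k) x y ≠ 0 := by
  rw [nlNP_apply]
  exact (map_ne_zero (algebraMap k⟮x⟯ F')).mpr (Algebra.norm_ne_zero_iff.mpr hy)

section L1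

variable [∀ m, Algebra (Fk (Vtx.vert Vrt.oo)) (Fk (Vtx.vert (Vrt.mid m)))]
  [∀ m, IsScalarTower k (Fk (Vtx.vert Vrt.oo)) (Fk (Vtx.vert (Vrt.mid m)))]
  [∀ m, FiniteDimensional (Fk (Vtx.vert Vrt.oo)) (Fk (Vtx.vert (Vrt.mid m)))]

/-- **the norm layer for `π₁`** from (RES) + (VERT) + (DIV). -/
def normLayer1_of (n e : ℕ) (Nm : F → F)
    -- (VERT)
    (h0 : IsRRField k (Fk (Vtx.vert Vrt.oo)))
    (hM : ∀ m, IsRRField k (Fk (Vtx.vert (Vrt.mid m))))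
    (hres : ∀ P m, (nlSrc N hsrc P (Vrt.mid m)).restrict (Fk (Vtx.vert Vrt.oo)) =
      nlSrc N hsrc P Vrt.oo)
    (he : ∀ P m, (nlSrc N hsrc P (Vrt.mid m)).ramificationIndex (Fk (Vtx.vert Vrt.oo)) = e)
    (hdeg : ∀ m, Module.finrank (Fk (Vtx.vert Vrt.oo)) (Fk (Vtx.vert (Vrt.mid m))) = e)
    -- (DIV)
    (hI : ∀ P, 0 < (nlTgt N htgt P Vrt.oo).ord (HP P).X2)
    (hZ : ∀ P, 0 < (nlTgt N htgt P Vrt.zero).ord (HP P).X1)
    (hm1 : ∀ P m, (nlTgt N htgt P (Vrt.mid m)).ord (HP P).X1 = -(e : ℤ)) (he0 : 0 < e)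
    (hm2 : ∀ P m, ¬ 0 < (nlTgt N htgt P (Vrt.mid m)).ord (HP P).X2)
    (hcover : ∀ P (v : Place k (Fk (Vtx.hor P))), v.ord (HP P).X1 < 0 →
      ∃ w, v = nlTgt N htgt P w)
    -- (RES)
    (red_oo : ∀ g : F, (∀ c, g ∈ (N.S c).Ov) → (∀ c, (N.S c).red g ≠ 0) →
      (N.S (Vtx.vert Vrt.oo)).red (Nm g) =
        (N.S (Vtx.vert Vrt.oo)).red g *
          ∏ m, Algebra.norm (Fk (Vtx.vert Vrt.oo)) ((N.S (Vtx.vert (Vrt.mid m))).red g))
    (red_mid : ∀ g : F, (∀ c, g ∈ (N.S c).Ov) → (∀ c, (N.S c).red g ≠ 0) → ∀ m,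
      (N.S (Vtx.vert (Vrt.mid m))).red (Nm g) =
        algebraMap (Fk (Vtx.vert Vrt.oo)) (Fk (Vtx.vert (Vrt.mid m)))
          ((N.S (Vtx.vert Vrt.oo)).red (Nm g)))
    (red_zero : ∀ g : F, (∀ c, g ∈ (N.S c).Ov) → (∀ c, (N.S c).red g ≠ 0) →
      (N.S (Vtx.vert Vrt.zero)).red (Nm g) = (N.S (Vtx.vert Vrt.zero)).red g ^ q)
    (red_hor : ∀ g : F, (∀ c, g ∈ (N.S c).Ov) → (∀ c, (N.S c).red g ≠ 0) → ∀ P,
      (N.S (Vtx.hor P)).red (Nm g) =
        algebraMap k⟮(HP P).X1⟯ (Fk (Vtx.hor P))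
          (Algebra.norm k⟮(HP P).X1⟯ ((N.S (Vtx.hor P)).red g))) :
    NormLayer1 N n q e Nm :=
  haveI : Infinite k := IsAlgClosed.instInfinite
  { jm := fun m => algebraMap (Fk (Vtx.vert Vrt.oo)) (Fk (Vtx.vert (Vrt.mid m)))
    nm := fun m => Algebra.norm (Fk (Vtx.vert Vrt.oo))
    NP := fun P => nlNP (k := k) (HP P).X1
    nm_ne_zero := fun m x hx => Algebra.norm_ne_zero_iff.mpr hx
    NP_ne_zero := fun P x hx =>
      haveI := (HP P).finiteDimensional_X1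
      nlNP_ne_zero _ hx
    red_oo := red_oo
    red_mid := red_mid
    red_zero := red_zero
    red_hor := red_hor
    val_nm := nl_val_nm N hsrc Vrt.oo h0 hM hres e he hdeg
      (fun m => Algebra.norm (Fk (Vtx.vert Vrt.oo))) (fun _ _ => rfl)
    val_jm := nl_val_jm N hsrc Vrt.oo hres
      (fun m => algebraMap (Fk (Vtx.vert Vrt.oo)) (Fk (Vtx.vert (Vrt.mid m)))) (fun _ _ => rfl)
    val_NP_oo := (nl_val_NP_X1_adjoin_div N htgt hq1 HP hI hZ e hm1 he0 hm2 hcover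
      (fun P => nlNP (k := k) (HP P).X1) (fun _ _ => rfl)).1
    val_NP_zero := (nl_val_NP_X1_adjoin_div N htgt hq1 HP hI hZ e hm1 he0 hm2 hcover
      (fun P => nlNP (k := k) (HP P).X1) (fun _ _ => rfl)).2 }

end L1

section L2

variable [∀ m, Algebra (Fk (Vtx.vert Vrt.zero)) (Fk (Vtx.vert (Vrt.mid m)))]
  [∀ m, IsScalarTower k (Fk (Vtx.vert Vrt.zero)) (Fk (Vtx.vert (Vrt.mid m)))]
  [∀ m, FiniteDimensional (Fk (Vtx.vert Vrt.zero)) (Fk (Vtx.vert (Vrt.mid m)))]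

/-- **the norm layer for `π₂`** from (RES) + (VERT) + (DIV). -/
def normLayer2_of (n e : ℕ) (Nm : F → F)
    -- (VERT)
    (h0 : IsRRField k (Fk (Vtx.vert Vrt.zero)))
    (hM : ∀ m, IsRRField k (Fk (Vtx.vert (Vrt.mid m))))
    (hres : ∀ P m, (nlSrc N hsrc P (Vrt.mid m)).restrict (Fk (Vtx.vert Vrt.zero)) =
      nlSrc N hsrc P Vrt.zero)
    (he : ∀ P m, (nlSrc N hsrc P (Vrt.mid m)).ramificationIndex (Fk (Vtx.vert Vrt.zero)) = e)
    (hdeg : ∀ m, Module.finrank (Fk (Vtx.vert Vrt.zero)) (Fk (Vtx.vert (Vrt.mid m))) = e)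
    -- (DIV)
    (hI : ∀ P, 0 < (nlTgt N htgt P Vrt.oo).ord (HP P).X2)
    (hZ : ∀ P, 0 < (nlTgt N htgt P Vrt.zero).ord (HP P).X1)
    (hm1 : ∀ P m, (nlTgt N htgt P (Vrt.mid m)).ord (HP P).X1 = -(e : ℤ)) (he0 : 0 < e)
    (hm2 : ∀ P m, ¬ 0 < (nlTgt N htgt P (Vrt.mid m)).ord (HP P).X2)
    (hcover : ∀ P (v : Place k (Fk (Vtx.hor P))), v.ord (HP P).X1 < 0 →
      ∃ w, v = nlTgt N htgt P w)
    -- (RES)
    (red_zero : ∀ g : F, (∀ c, g ∈ (N.S c).Ov) → (∀ c, (N.S c).red g ≠ 0) →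
      (N.S (Vtx.vert Vrt.zero)).red (Nm g) =
        (N.S (Vtx.vert Vrt.zero)).red g *
          ∏ m, Algebra.norm (Fk (Vtx.vert Vrt.zero)) ((N.S (Vtx.vert (Vrt.mid m))).red g))
    (red_mid : ∀ g : F, (∀ c, g ∈ (N.S c).Ov) → (∀ c, (N.S c).red g ≠ 0) → ∀ m,
      (N.S (Vtx.vert (Vrt.mid m))).red (Nm g) =
        algebraMap (Fk (Vtx.vert Vrt.zero)) (Fk (Vtx.vert (Vrt.mid m)))
          ((N.S (Vtx.vert Vrt.zero)).red (Nm g)))
    (red_oo : ∀ g : F, (∀ c, g ∈ (N.S c).Ov) → (∀ c, (N.S c).red g ≠ 0) →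
      (N.S (Vtx.vert Vrt.oo)).red (Nm g) = (N.S (Vtx.vert Vrt.oo)).red g ^ q)
    (red_hor : ∀ g : F, (∀ c, g ∈ (N.S c).Ov) → (∀ c, (N.S c).red g ≠ 0) → ∀ P,
      (N.S (Vtx.hor P)).red (Nm g) =
        algebraMap k⟮(HP P).X2⟯ (Fk (Vtx.hor P))
          (Algebra.norm k⟮(HP P).X2⟯ ((N.S (Vtx.hor P)).red g))) :
    NormLayer2 N n q e Nm :=
  haveI : Infinite k := IsAlgClosed.instInfinite
  { jm := fun m => algebraMap (Fk (Vtx.vert Vrt.zero)) (Fk (Vtx.vert (Vrt.mid m)))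
    nm := fun m => Algebra.norm (Fk (Vtx.vert Vrt.zero))
    NP := fun P => nlNP (k := k) (HP P).X2
    nm_ne_zero := fun m x hx => Algebra.norm_ne_zero_iff.mpr hx
    NP_ne_zero := fun P x hx =>
      haveI := (HP P).finiteDimensional_X2 hq1
      nlNP_ne_zero _ hx
    red_zero := red_zero
    red_mid := red_mid
    red_oo := red_oo
    red_hor := red_hor
    val_nm := nl_val_nm N hsrc Vrt.zero h0 hM hres e he hdeg
      (fun m => Algebra.norm (Fk (Vtx.vert Vrt.zero))) (fun _ _ => rfl)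
    val_jm := nl_val_jm N hsrc Vrt.zero hres
      (fun m => algebraMap (Fk (Vtx.vert Vrt.zero)) (Fk (Vtx.vert (Vrt.mid m))))
      (fun _ _ => rfl)
    val_NP_zero := (nl_val_NP_X2_adjoin_div N htgt hq1 HP hI hZ e hm1 he0 hm2 hcover
      (fun P => nlNP (k := k) (HP P).X2) (fun _ _ => rfl)).1
    val_NP_oo := (nl_val_NP_X2_adjoin_div N htgt hq1 HP hI hZ e hm1 he0 hm2 hcover
      (fun P => nlNP (k := k) (HP P).X2) (fun _ _ => rfl)).2 }

end L2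

end Fermat.Agent.S36G
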