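/-
Cluster G (S36, Carayol at `q² ∥ M`), block COC, seat COC-ASM (F1)  (helper75; statement: helper36).

THE GLUE for (F1): `NormLayer1` from (RES) + (VERT) + (DIV) (`normLayer1_of`, helper31), then
`cocycleF1_modular` (helper36) with `graphWD` (unconditional) and
`finiteAlong_alpha_dvd`:

* `cocAsm_layer1`   : `NormLayer1 N n q e Nm` for ANY residue fields `Fk` and ANY algebra
                      structures of the middle residue fields over the residue field of `∞`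
                      (instance arguments, as in `normLayer1_of`); the fields `h0`, `hM` of (VERT)
                      are the fields `hFk` of the constant reductions `N.S c`;
* `cocAsm_F1_gen`   : (F1) for `α = heckeAlphaBar Qb N₁ q`, `q ∣ N₁`, ANY `Fk`, ANY `e`, ANY `R`;
* `cocAsm_layer1_modular`, `cocAsm_F1_of_layer`, `cocAsm_F1` : the layer and (F1) in the shape
                      of the field `hF1` of `CoreBundle` for the modular graph: level `M₀ q q`,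
                      `k` = residue field of `A ∣ q`, `e = midDeg q`, `N₁ = M₀ * q`, ANY `Mid`, `Fk`
                      (plug `Fin (midCard q)`, `FkOf ..` by plain application; the instances
                      for `FkOf` are `nliAlgOo ..` of `S36/G/NormLayerInst.lean`); the hypotheses
                      `hq1`, `he0`, `h0`, `hM`, `hfin`, `hWD`, `IsAlgClosed k` are discharged.

What is left as NAMED hypotheses = the arguments of `normLayer1_of` VERBATIM: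
(VERT) `hres he hdeg`, (DIV) `hI hZ hm1 hm2 hcover`, (RES) `red_oo red_mid red_zero red_hor`,
and `hsat : NormSat N n R (nm1 (M₀ * q) q)`.
-/
import Mathlib
import Fermat.Agent.S36.G.NormLayerOf
import Fermat.Agent.S36.G.CocycleF12Mod
import Fermat.Agent.S36.Igusa.Defs
import Fermat.Agent.S36.Seed.Ends
import Fermat.Agent.Lib.BadRed.Graph.GlueWD
import Fermat.Agent.Lib.GaussInt.ModularInst
import Fermat.Agent.Lib.FrobTrace.Residue

set_option autoImplicit false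
set_option linter.style.haveILetI false
set_option linter.unusedSectionVars false
set_option linter.unusedVariables false
set_option synthInstance.maxHeartbeats 400000
set_option maxHeartbeats 1000000

noncomputable section

open IntermediateField AlgebraicCurve

namespace Fermat.Agent.S36G

open ModularCurve Fermat.Agent.F3 Fermat.Agent.F3G Fermat.Agent.GaussInt
  Fermat.Agent.AtkinLehner Fermat.Agent.Kronecker Fermat.Agent.BadRed Fermat.Agent.BadRedG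
  Fermat.Agent.BadRed.Gluing Fermat.Agent.Deuring Fermat.Agent.RR Fermat.Agent.S36
  Fermat.Agent.HP

local notation "Qb" => AlgebraicClosure ℚ

/-! ### the generic glue -/

section Gen

variable {K F k : Type*} [Field K] [Field F] [Algebra K F] [Field k]
  {Mid SS : Type} [Fintype Mid] {Fk : Vtx Mid SS → Type*} [∀ c, Field (Fk c)]
  [∀ c, Algebra k (Fk c)]
  (N : GraphSetup K F k (Vtx Mid SS) Fk (Nod Mid SS))
  (hsrc : ∀ i, N.src i = nodSrc i) (htgt : ∀ i, N.tgt i = nodTgt i)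
  {q : ℕ} [IsAlgClosed k] (hq1 : ((q + 1 : ℕ) : k) ≠ 0)
  (HP : ∀ P : SS, HPCurve k (Fk (Vtx.hor P)) q)
  [∀ m, Algebra (Fk (Vtx.vert Vrt.oo)) (Fk (Vtx.vert (Vrt.mid m)))]
  [∀ m, IsScalarTower k (Fk (Vtx.vert Vrt.oo)) (Fk (Vtx.vert (Vrt.mid m)))]
  [∀ m, FiniteDimensional (Fk (Vtx.vert Vrt.oo)) (Fk (Vtx.vert (Vrt.mid m)))]

/-- **the norm layer for `π₁`** from (RES) + (VERT) + (DIV); `h0`, `hM` discharged. -/
def cocAsm_layer1 (n e : ℕ) (Nm : F → F)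
    -- (VERT)
    (hres : ∀ P m, (nlSrc N hsrc P (Vrt.mid m)).restrict (Fk (Vtx.vert Vrt.oo)) =
      nlSrc N hsrc P Vrt.oo)
    (he : ∀ P m, (nlSrc N hsrc P (Vrt.mid m)).ramificationIndex (Fk (Vtx.vert Vrt.oo)) = e)
    (hdeg : ∀ m, Module.finrank (Fk (Vtx.vert Vrt.oo)) (Fk (Vtx.vert (Vrt.mid m))) = e)
    -- (DIV)
    (hI : ∀ P, 0 < (nlTgt N htgt P Vrt.oo).ord (HP P).X2)
    (hZ : ∀ P, 0 < (nlTgt N htgt P Vrt.zero).ord (HP P).X1)
    (hm1 : ∀ P m, (nlTgt N htgt P (Vrt.mid m)).ord (HP P).X1 = -(e : ℤ)) (he0 : 0 < e)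
    (hm2 : ∀ P m, ¬ 0 < (nlTgt N htgt P (Vrt.mid m)).ord (HP P).X2)
    (hcover : ∀ P (v : Place k (Fk (Vtx.hor P))), v.ord (HP P).X1 < 0 →
      ∃ w, v = nlTgt N htgt P w)
    -- (RES)
    (red_oo : ∀ g : F, (∀ c, g ∈ (N.S c).Ov) → (∀ c, (N.S c).red g ≠ 0) →
      (N.S (Vtx.vert Vrt.oo)).red (Nm g) =
        (N.S (Vtx.vert Vrt.oo)).red g *
          ∏ m, Algebra.norm (Fk (Vtx.vert Vrt.oo)) ((N.S (Vtx.vert (Vrt.mid m))).red g))
    (red_mid : ∀ g : F, (∀ c, g ∈ (N.S c).Ov) → (∀ c, (N.S c).red g ≠ 0) → ∀ m,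
      (N.S (Vtx.vert (Vrt.mid m))).red (Nm g) =
        algebraMap (Fk (Vtx.vert Vrt.oo)) (Fk (Vtx.vert (Vrt.mid m)))
          ((N.S (Vtx.vert Vrt.oo)).red (Nm g)))
    (red_zero : ∀ g : F, (∀ c, g ∈ (N.S c).Ov) → (∀ c, (N.S c).red g ≠ 0) →
      (N.S (Vtx.vert Vrt.zero)).red (Nm g) = (N.S (Vtx.vert Vrt.zero)).red g ^ q)
    (red_hor : ∀ g : F, (∀ c, g ∈ (N.S c).Ov) → (∀ c, (N.S c).red g ≠ 0) → ∀ P,
      (N.S (Vtx.hor P)).red (Nm g) =
        algebraMap k⟮(HP P).X1⟯ (Fk (Vtx.hor P))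
          (Algebra.norm k⟮(HP P).X1⟯ ((N.S (Vtx.hor P)).red g))) :
    NormLayer1 N n q e Nm :=
  normLayer1_of N hsrc htgt hq1 HP n e Nm (N.S (Vtx.vert Vrt.oo)).hFk
    (fun m => (N.S (Vtx.vert (Vrt.mid m))).hFk) hres he hdeg hI hZ hm1 he0 hm2 hcover
    red_oo red_mid red_zero red_hor

end Gen

/-! ### (F1) for `α = heckeAlphaBar Qb N₁ q`, any residue fields -/

section F1Gen

variable {k : Type*} [Field k] {Mid SS : Type} [Fintype Mid] [Fintype SS]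
  {Fk : Vtx Mid SS → Type*} [∀ c, Field (Fk c)] [∀ c, Algebra k (Fk c)]

/-- **(F1)** from (RES) + (VERT) + (DIV) + saturation, ANY `Fk`, `e`, `R`. -/
theorem cocAsm_F1_gen (N₁ q : ℕ) [NeZero N₁] [NeZero q] (hq : q.Prime) (hqN : q ∣ N₁)
    [IsAlgClosed k]
    (N : GraphSetup Qb (FBar (N₁ * q)) k (Vtx Mid SS) Fk (Nod Mid SS))
    (hsrc : ∀ i, N.src i = nodSrc i) (htgt : ∀ i, N.tgt i = nodTgt i)
    (hq1 : ((q + 1 : ℕ) : k) ≠ 0)
    (HP : ∀ P : SS, HPCurve k (Fk (Vtx.hor P)) q)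
    [∀ m, Algebra (Fk (Vtx.vert Vrt.oo)) (Fk (Vtx.vert (Vrt.mid m)))]
    [∀ m, IsScalarTower k (Fk (Vtx.vert Vrt.oo)) (Fk (Vtx.vert (Vrt.mid m)))]
    [∀ m, FiniteDimensional (Fk (Vtx.vert Vrt.oo)) (Fk (Vtx.vert (Vrt.mid m)))]
    {n : ℕ} (hn : n ≠ 0) (e : ℕ) {R : Divisor Qb (FBar (N₁ * q))}
    -- (VERT)
    (hres : ∀ P m, (nlSrc N hsrc P (Vrt.mid m)).restrict (Fk (Vtx.vert Vrt.oo)) =
      nlSrc N hsrc P Vrt.oo)
    (he : ∀ P m, (nlSrc N hsrc P (Vrt.mid m)).ramificationIndex (Fk (Vtx.vert Vrt.oo)) = e)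
    (hdeg : ∀ m, Module.finrank (Fk (Vtx.vert Vrt.oo)) (Fk (Vtx.vert (Vrt.mid m))) = e)
    -- (DIV)
    (hI : ∀ P, 0 < (nlTgt N htgt P Vrt.oo).ord (HP P).X2)
    (hZ : ∀ P, 0 < (nlTgt N htgt P Vrt.zero).ord (HP P).X1)
    (hm1 : ∀ P m, (nlTgt N htgt P (Vrt.mid m)).ord (HP P).X1 = -(e : ℤ)) (he0 : 0 < e)
    (hm2 : ∀ P m, ¬ 0 < (nlTgt N htgt P (Vrt.mid m)).ord (HP P).X2)
    (hcover : ∀ P (v : Place k (Fk (Vtx.hor P))), v.ord (HP P).X1 < 0 →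
      ∃ w, v = nlTgt N htgt P w)
    -- (RES)
    (red_oo : ∀ g : FBar (N₁ * q), (∀ c, g ∈ (N.S c).Ov) → (∀ c, (N.S c).red g ≠ 0) →
      (N.S (Vtx.vert Vrt.oo)).red (nm1 N₁ q g) =
        (N.S (Vtx.vert Vrt.oo)).red g *
          ∏ m, Algebra.norm (Fk (Vtx.vert Vrt.oo)) ((N.S (Vtx.vert (Vrt.mid m))).red g))
    (red_mid : ∀ g : FBar (N₁ * q), (∀ c, g ∈ (N.S c).Ov) → (∀ c, (N.S c).red g ≠ 0) → ∀ m,
      (N.S (Vtx.vert (Vrt.mid m))).red (nm1 N₁ q g) =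
        algebraMap (Fk (Vtx.vert Vrt.oo)) (Fk (Vtx.vert (Vrt.mid m)))
          ((N.S (Vtx.vert Vrt.oo)).red (nm1 N₁ q g)))
    (red_zero : ∀ g : FBar (N₁ * q), (∀ c, g ∈ (N.S c).Ov) → (∀ c, (N.S c).red g ≠ 0) →
      (N.S (Vtx.vert Vrt.zero)).red (nm1 N₁ q g) = (N.S (Vtx.vert Vrt.zero)).red g ^ q)
    (red_hor : ∀ g : FBar (N₁ * q), (∀ c, g ∈ (N.S c).Ov) → (∀ c, (N.S c).red g ≠ 0) → ∀ P,
      (N.S (Vtx.hor P)).red (nm1 N₁ q g) =
        algebraMap k⟮(HP P).X1⟯ (Fk (Vtx.hor P))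
          (Algebra.norm k⟮(HP P).X1⟯ ((N.S (Vtx.hor P)).red g)))
    -- (SAT)
    (hsat : NormSat N n R (nm1 N₁ q)) :
    CocycleF1 N n q e R (fun g => IsCPow n (normAlong (heckeAlphaBar Qb N₁ q) g)) :=
  cocycleF1_modular N₁ q (finiteAlong_alpha_dvd N₁ q hq hqN) N hsrc htgt (graphWD N) hn e
    (cocAsm_layer1 N hsrc htgt hq1 HP n e (nm1 N₁ q) hres he hdeg hI hZ hm1 he0 hm2 hcover
      red_oo red_mid red_zero red_hor) hsat

end F1Gen

/-! ### (F1) for the modular graph -/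

section F1Mod

attribute [local instance] Fermat.Agent.GaussInt.isAlgClosed_residue

variable {M₀ q : ℕ} [NeZero M₀] [NeZero q] {Mid SS : Type} [Fintype Mid] [Fintype SS]

/-- `q + 1 ≠ 0` in the residue field of `A ∣ q`. -/
theorem cocAsm_hq1 (hq : q.Prime) (A : ValuationSubring Qb) (hA : A.LiesOverPrime q) :
    ((q + 1 : ℕ) : IsLocalRing.ResidueField A) ≠ 0 := by
  haveI : Fact q.Prime := ⟨hq⟩
  haveI : CharP (IsLocalRing.ResidueField A) q :=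
    Fermat.Agent.FrobTrace.charP_residueField A hA
  exact ends_hq1 hq

/-- **the norm layer for `π₁` of the modular graph** (level `M₀ q q`, `k` the residue field of
`A ∣ q`, `e = midDeg q`; ANY `Mid`, `Fk`: plug `Fin (midCard q)`, `FkOf ..` by application), from
the arguments (VERT), (DIV), (RES) of `normLayer1_of`. -/
def cocAsm_layer1_modular (hq : q.Prime) (A : ValuationSubring Qb) (hA : A.LiesOverPrime q)
    {Fk : Vtx Mid SS → Type} [∀ c, Field (Fk c)]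
    [∀ c, Algebra (IsLocalRing.ResidueField A) (Fk c)]
    (N : GraphSetup Qb (FBar (M₀ * q * q)) (IsLocalRing.ResidueField A) (Vtx Mid SS) Fk
      (Nod Mid SS))
    (hsrc : ∀ i, N.src i = nodSrc i) (htgt : ∀ i, N.tgt i = nodTgt i)
    (HP : ∀ P : SS, HPCurve (IsLocalRing.ResidueField A) (Fk (Vtx.hor P)) q)
    [∀ m, Algebra (Fk (Vtx.vert Vrt.oo)) (Fk (Vtx.vert (Vrt.mid m)))]
    [∀ m, IsScalarTower (IsLocalRing.ResidueField A) (Fk (Vtx.vert Vrt.oo))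
      (Fk (Vtx.vert (Vrt.mid m)))]
    [∀ m, FiniteDimensional (Fk (Vtx.vert Vrt.oo)) (Fk (Vtx.vert (Vrt.mid m)))]
    (n : ℕ)
    -- (VERT)
    (hres : ∀ P m, (nlSrc N hsrc P (Vrt.mid m)).restrict (Fk (Vtx.vert Vrt.oo)) =
      nlSrc N hsrc P Vrt.oo)
    (he : ∀ P m,
      (nlSrc N hsrc P (Vrt.mid m)).ramificationIndex (Fk (Vtx.vert Vrt.oo)) = midDeg q)
    (hdeg : ∀ m, Module.finrank (Fk (Vtx.vert Vrt.oo)) (Fk (Vtx.vert (Vrt.mid m))) = midDeg q)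
    -- (DIV)
    (hI : ∀ P, 0 < (nlTgt N htgt P Vrt.oo).ord (HP P).X2)
    (hZ : ∀ P, 0 < (nlTgt N htgt P Vrt.zero).ord (HP P).X1)
    (hm1 : ∀ P m, (nlTgt N htgt P (Vrt.mid m)).ord (HP P).X1 = -(midDeg q : ℤ))
    (hm2 : ∀ P m, ¬ 0 < (nlTgt N htgt P (Vrt.mid m)).ord (HP P).X2)
    (hcover : ∀ P (v : Place (IsLocalRing.ResidueField A) (Fk (Vtx.hor P))),
      v.ord (HP P).X1 < 0 → ∃ w, v = nlTgt N htgt P w)
    -- (RES)
    (red_oo : ∀ g : FBar (M₀ * q * q), (∀ c, g ∈ (N.S c).Ov) → (∀ c, (N.S c).red g ≠ 0) →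
      (N.S (Vtx.vert Vrt.oo)).red (nm1 (M₀ * q) q g) =
        (N.S (Vtx.vert Vrt.oo)).red g *
          ∏ m, Algebra.norm (Fk (Vtx.vert Vrt.oo)) ((N.S (Vtx.vert (Vrt.mid m))).red g))
    (red_mid : ∀ g : FBar (M₀ * q * q), (∀ c, g ∈ (N.S c).Ov) → (∀ c, (N.S c).red g ≠ 0) →
      ∀ m, (N.S (Vtx.vert (Vrt.mid m))).red (nm1 (M₀ * q) q g) =
        algebraMap (Fk (Vtx.vert Vrt.oo)) (Fk (Vtx.vert (Vrt.mid m)))
          ((N.S (Vtx.vert Vrt.oo)).red (nm1 (M₀ * q) q g)))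
    (red_zero : ∀ g : FBar (M₀ * q * q), (∀ c, g ∈ (N.S c).Ov) → (∀ c, (N.S c).red g ≠ 0) →
      (N.S (Vtx.vert Vrt.zero)).red (nm1 (M₀ * q) q g) = (N.S (Vtx.vert Vrt.zero)).red g ^ q)
    (red_hor : ∀ g : FBar (M₀ * q * q), (∀ c, g ∈ (N.S c).Ov) → (∀ c, (N.S c).red g ≠ 0) →
      ∀ P, (N.S (Vtx.hor P)).red (nm1 (M₀ * q) q g) =
        algebraMap (IsLocalRing.ResidueField A)⟮(HP P).X1⟯ (Fk (Vtx.hor P))
          (Algebra.norm (IsLocalRing.ResidueField A)⟮(HP P).X1⟯ ((N.S (Vtx.hor P)).red g))) :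
    NormLayer1 N n q (midDeg q) (nm1 (M₀ * q) q) :=
  cocAsm_layer1 N hsrc htgt (cocAsm_hq1 hq A hA) HP n (midDeg q) (nm1 (M₀ * q) q) hres he hdeg
    hI hZ hm1 (ends_midDeg_pos hq) hm2 hcover red_oo red_mid red_zero red_hor

/-- **(F1) for the modular graph** = the field `hF1` of `CoreBundle` (for ANY `R`), from a norm
layer and the saturation (`hWD`, `hfin` discharged). -/
theorem cocAsm_F1_of_layer (hq : q.Prime) (A : ValuationSubring Qb)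
    {Fk : Vtx Mid SS → Type} [∀ c, Field (Fk c)]
    [∀ c, Algebra (IsLocalRing.ResidueField A) (Fk c)]
    (N : GraphSetup Qb (FBar (M₀ * q * q)) (IsLocalRing.ResidueField A) (Vtx Mid SS) Fk
      (Nod Mid SS))
    (hsrc : ∀ i, N.src i = nodSrc i) (htgt : ∀ i, N.tgt i = nodTgt i)
    {n : ℕ} (hn : n ≠ 0) (e : ℕ) {R : Divisor Qb (FBar (M₀ * q * q))}
    (L : NormLayer1 N n q e (nm1 (M₀ * q) q))
    (hsat : NormSat N n R (nm1 (M₀ * q) q)) :
    CocycleF1 N n q e R (fun g => IsCPow n (normAlong (heckeAlphaBar Qb (M₀ * q) q) g)) :=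
  cocycleF1_modular (M₀ * q) q (finiteAlong_alpha_dvd (M₀ * q) q hq (Dvd.intro_left M₀ rfl))
    N hsrc htgt (graphWD N) hn e L hsat

/-- **(F1) for the modular graph** = the field `hF1` of `CoreBundle` (for ANY `R`), from the
arguments (VERT), (DIV), (RES) of `normLayer1_of` and the saturation. -/
theorem cocAsm_F1 (hq : q.Prime) (A : ValuationSubring Qb) (hA : A.LiesOverPrime q)
    {Fk : Vtx Mid SS → Type} [∀ c, Field (Fk c)]
    [∀ c, Algebra (IsLocalRing.ResidueField A) (Fk c)]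
    (N : GraphSetup Qb (FBar (M₀ * q * q)) (IsLocalRing.ResidueField A) (Vtx Mid SS) Fk
      (Nod Mid SS))
    (hsrc : ∀ i, N.src i = nodSrc i) (htgt : ∀ i, N.tgt i = nodTgt i)
    (HP : ∀ P : SS, HPCurve (IsLocalRing.ResidueField A) (Fk (Vtx.hor P)) q)
    [∀ m, Algebra (Fk (Vtx.vert Vrt.oo)) (Fk (Vtx.vert (Vrt.mid m)))]
    [∀ m, IsScalarTower (IsLocalRing.ResidueField A) (Fk (Vtx.vert Vrt.oo))
      (Fk (Vtx.vert (Vrt.mid m)))]
    [∀ m, FiniteDimensional (Fk (Vtx.vert Vrt.oo)) (Fk (Vtx.vert (Vrt.mid m)))]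
    {n : ℕ} (hn : n ≠ 0) {R : Divisor Qb (FBar (M₀ * q * q))}
    -- (VERT)
    (hres : ∀ P m, (nlSrc N hsrc P (Vrt.mid m)).restrict (Fk (Vtx.vert Vrt.oo)) =
      nlSrc N hsrc P Vrt.oo)
    (he : ∀ P m,
      (nlSrc N hsrc P (Vrt.mid m)).ramificationIndex (Fk (Vtx.vert Vrt.oo)) = midDeg q)
    (hdeg : ∀ m, Module.finrank (Fk (Vtx.vert Vrt.oo)) (Fk (Vtx.vert (Vrt.mid m))) = midDeg q)
    -- (DIV)
    (hI : ∀ P, 0 < (nlTgt N htgt P Vrt.oo).ord (HP P).X2)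
    (hZ : ∀ P, 0 < (nlTgt N htgt P Vrt.zero).ord (HP P).X1)
    (hm1 : ∀ P m, (nlTgt N htgt P (Vrt.mid m)).ord (HP P).X1 = -(midDeg q : ℤ))
    (hm2 : ∀ P m, ¬ 0 < (nlTgt N htgt P (Vrt.mid m)).ord (HP P).X2)
    (hcover : ∀ P (v : Place (IsLocalRing.ResidueField A) (Fk (Vtx.hor P))),
      v.ord (HP P).X1 < 0 → ∃ w, v = nlTgt N htgt P w)
    -- (RES)
    (red_oo : ∀ g : FBar (M₀ * q * q), (∀ c, g ∈ (N.S c).Ov) → (∀ c, (N.S c).red g ≠ 0) →
      (N.S (Vtx.vert Vrt.oo)).red (nm1 (M₀ * q) q g) =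
        (N.S (Vtx.vert Vrt.oo)).red g *
          ∏ m, Algebra.norm (Fk (Vtx.vert Vrt.oo)) ((N.S (Vtx.vert (Vrt.mid m))).red g))
    (red_mid : ∀ g : FBar (M₀ * q * q), (∀ c, g ∈ (N.S c).Ov) → (∀ c, (N.S c).red g ≠ 0) →
      ∀ m, (N.S (Vtx.vert (Vrt.mid m))).red (nm1 (M₀ * q) q g) =
        algebraMap (Fk (Vtx.vert Vrt.oo)) (Fk (Vtx.vert (Vrt.mid m)))
          ((N.S (Vtx.vert Vrt.oo)).red (nm1 (M₀ * q) q g)))
    (red_zero : ∀ g : FBar (M₀ * q * q), (∀ c, g ∈ (N.S c).Ov) → (∀ c, (N.S c).red g ≠ 0) →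
      (N.S (Vtx.vert Vrt.zero)).red (nm1 (M₀ * q) q g) = (N.S (Vtx.vert Vrt.zero)).red g ^ q)
    (red_hor : ∀ g : FBar (M₀ * q * q), (∀ c, g ∈ (N.S c).Ov) → (∀ c, (N.S c).red g ≠ 0) →
      ∀ P, (N.S (Vtx.hor P)).red (nm1 (M₀ * q) q g) =
        algebraMap (IsLocalRing.ResidueField A)⟮(HP P).X1⟯ (Fk (Vtx.hor P))
          (Algebra.norm (IsLocalRing.ResidueField A)⟮(HP P).X1⟯ ((N.S (Vtx.hor P)).red g)))
    -- (SAT)
    (hsat : NormSat N n R (nm1 (M₀ * q) q)) :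
    CocycleF1 N n q (midDeg q) R
      (fun g => IsCPow n (normAlong (heckeAlphaBar Qb (M₀ * q) q) g)) :=
  cocAsm_F1_of_layer hq A N hsrc htgt hn (midDeg q)
    (cocAsm_layer1_modular hq A hA N hsrc htgt HP n hres he hdeg hI hZ hm1 hm2 hcover
      red_oo red_mid red_zero red_hor) hsat

end F1Mod

end Fermat.Agent.S36G
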