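/-
Cluster G (S36), block COC, seat COC-ASM, F1 side, PLUG for the modular seed (helper75;
sub-architect helper36; mirror of helper4's `CocAsm2Ymod.lean`).

`G := E.ymodSeed hn hb h12 hu2 hD₀ hdeg hgenus` (SEED-MAIN), `N := G.graphSetup`,
`E : ModEndsInput Qb (FBar (N₁ * q)) k ..`.  The FIRST HALF of the junction COC
(`CboNorm`, `S36/G/CoreBundleOf.lean`: the fields `layer1`, `sat1`):

* `cocAsm_ymod_layer` : `Nonempty (NormLayer1 N n' q (midDeg q) (nm1 N₁ q))`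
  (the field `layer1` of `CboNorm`; the field `sat1` is helper21's `satY_normSat_nm1`);
* `cocAsm_ymod_layer1` : the layer itself (`L1` of helper36's `cboNorm_of_layers`).

PLUGGED: (DIV) = helper15's `edy_hI … edy_hcover` (`S36/G/EndsDictYmod.lean`), `hsrc`, `htgt`
(`rfl`), `0 < midDeg q`, `q + 1 ≠ 0`.
LEFT as hypotheses, VERBATIM the arguments of `normLayer1_of`: (VERT) `hres`, `he`, `hdeg` with
the three instances, (RES) `red_oo`, `red_mid`, `red_zero`, `red_hor`; and the SEED-UP shapes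
`hxA`, `hx2`.
-/
import Mathlib
import Fermat.Agent.S36.G.CocAsm
import Fermat.Agent.S36.G.EndsDictYmod

set_option autoImplicit false
set_option linter.unusedSectionVars false
set_option linter.unusedVariables false
set_option linter.style.haveILetI false
set_option synthInstance.maxHeartbeats 400000
set_option maxHeartbeats 1000000

noncomputable section

open IntermediateField AlgebraicCurve

namespace Fermat.Agent.S36G

open ModularCurve Fermat.Agent.F3 Fermat.Agent.F3G Fermat.Agent.GaussInt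
  Fermat.Agent.AtkinLehner Fermat.Agent.Kronecker Fermat.Agent.BadRed Fermat.Agent.BadRedG
  Fermat.Agent.BadRed.Gluing Fermat.Agent.RR Fermat.Agent.S36 Fermat.Agent.HP
  Fermat.Agent.Deuring

local notation "Qb" => AlgebraicClosure ℚ

section Ymod

variable (N₁ q : ℕ) [NeZero N₁] [NeZero q]

variable {k : Type} [Field k] [IsAlgClosed k] {Mid SS : Type} [Fintype Mid] [Fintype SS]
  [Nonempty SS]
  {Fk0 : Type} [Field Fk0] [Algebra k Fk0]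
  {FkM : Mid → Type} [∀ m, Field (FkM m)] [∀ m, Algebra k (FkM m)]
  {FkP : SS → Type} [∀ P, Field (FkP P)] [∀ P, Algebra k (FkP P)]
  [∀ m, Algebra (FkOf Fk0 FkM FkP (Vtx.vert Vrt.oo)) (FkOf Fk0 FkM FkP (Vtx.vert (Vrt.mid m)))]
  [∀ m, IsScalarTower k (FkOf Fk0 FkM FkP (Vtx.vert Vrt.oo))
    (FkOf Fk0 FkM FkP (Vtx.vert (Vrt.mid m)))]
  [∀ m, FiniteDimensional (FkOf Fk0 FkM FkP (Vtx.vert Vrt.oo))
    (FkOf Fk0 FkM FkP (Vtx.vert (Vrt.mid m)))]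
  {E : ModEndsInput Qb (FBar (N₁ * q)) k Mid SS Fk0 FkM FkP}
  {H : ∀ P : SS, HPCurve k (FkOf Fk0 FkM FkP (Vtx.hor P)) q}
  {b : Qb} {n : ℕ}
  (hn : 2 ≤ n) (hb : E.ϖ1 ^ n = b) (h12 : E.ϖ1 * E.ϖ2 = b)
  (hu2 : E.u2 = E.u1 / algebraMap Qb (FBar (N₁ * q)) E.ϖ1)
  (hD₀ : E.D₀ = poleDiv (E.S (Vtx.vert Vrt.oo)).hF (E.ymodX b n))
  (hdeg : Divisor.degree (poleDiv (E.S (Vtx.vert Vrt.oo)).hF (E.ymodX b n)) ≤
    ∑ c, Divisor.degree (poleDiv (E.S c).hFk ((E.S c).red (E.ymodX b n))))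
  (hgenus : genusFF Qb (FBar (N₁ * q)) + Fintype.card (Vtx Mid SS) ≤
    (∑ c, genusFF k (FkOf Fk0 FkM FkP c)) + Fintype.card (Nod Mid SS) + 1)
  (hxA : EndsRedA E.S H (algebraMap Qb (FBar (N₁ * q)) E.ϖA / E.uA))
  (hx2 : EndsRed2 E.S H E.u2)
  (hqp : q.Prime) [CharP k q]

include hxA hx2 hqp in
/-- **the norm layer for `π₁` of the modular seed** (`L1` of `cboNorm_of_layers`), from
(VERT) + (RES); (DIV) is plugged. -/
def cocAsm_ymod_layer1 (n' : ℕ)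
    (hres : ∀ P m,
      (nlSrc (E.ymodSeed hn hb h12 hu2 hD₀ hdeg hgenus).graphSetup
        (edy_hsrc hn hb h12 hu2 hD₀ hdeg hgenus) P (Vrt.mid m)).restrict
          (FkOf Fk0 FkM FkP (Vtx.vert Vrt.oo)) =
        nlSrc (E.ymodSeed hn hb h12 hu2 hD₀ hdeg hgenus).graphSetup
          (edy_hsrc hn hb h12 hu2 hD₀ hdeg hgenus) P Vrt.oo)
    (he : ∀ P m,
      (nlSrc (E.ymodSeed hn hb h12 hu2 hD₀ hdeg hgenus).graphSetup
        (edy_hsrc hn hb h12 hu2 hD₀ hdeg hgenus) P (Vrt.mid m)).ramificationIndex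
          (FkOf Fk0 FkM FkP (Vtx.vert Vrt.oo)) = midDeg q)
    (hdegV : ∀ m, Module.finrank (FkOf Fk0 FkM FkP (Vtx.vert Vrt.oo))
      (FkOf Fk0 FkM FkP (Vtx.vert (Vrt.mid m))) = midDeg q)
    (red_oo : ∀ g : FBar (N₁ * q),
      (∀ c, g ∈ ((E.ymodSeed hn hb h12 hu2 hD₀ hdeg hgenus).graphSetup.S c).Ov) →
      (∀ c, ((E.ymodSeed hn hb h12 hu2 hD₀ hdeg hgenus).graphSetup.S c).red g ≠ 0) →
      ((E.ymodSeed hn hb h12 hu2 hD₀ hdeg hgenus).graphSetup.S (Vtx.vert Vrt.oo)).red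
          (nm1 N₁ q g) =
        ((E.ymodSeed hn hb h12 hu2 hD₀ hdeg hgenus).graphSetup.S (Vtx.vert Vrt.oo)).red g *
          ∏ m, Algebra.norm (FkOf Fk0 FkM FkP (Vtx.vert Vrt.oo))
            (((E.ymodSeed hn hb h12 hu2 hD₀ hdeg hgenus).graphSetup.S
              (Vtx.vert (Vrt.mid m))).red g))
    (red_mid : ∀ g : FBar (N₁ * q),
      (∀ c, g ∈ ((E.ymodSeed hn hb h12 hu2 hD₀ hdeg hgenus).graphSetup.S c).Ov) →
      (∀ c, ((E.ymodSeed hn hb h12 hu2 hD₀ hdeg hgenus).graphSetup.S c).red g ≠ 0) → ∀ m,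
      ((E.ymodSeed hn hb h12 hu2 hD₀ hdeg hgenus).graphSetup.S (Vtx.vert (Vrt.mid m))).red
          (nm1 N₁ q g) =
        algebraMap (FkOf Fk0 FkM FkP (Vtx.vert Vrt.oo))
          (FkOf Fk0 FkM FkP (Vtx.vert (Vrt.mid m)))
          (((E.ymodSeed hn hb h12 hu2 hD₀ hdeg hgenus).graphSetup.S (Vtx.vert Vrt.oo)).red
            (nm1 N₁ q g)))
    (red_zero : ∀ g : FBar (N₁ * q),
      (∀ c, g ∈ ((E.ymodSeed hn hb h12 hu2 hD₀ hdeg hgenus).graphSetup.S c).Ov) →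
      (∀ c, ((E.ymodSeed hn hb h12 hu2 hD₀ hdeg hgenus).graphSetup.S c).red g ≠ 0) →
      ((E.ymodSeed hn hb h12 hu2 hD₀ hdeg hgenus).graphSetup.S (Vtx.vert Vrt.zero)).red
          (nm1 N₁ q g) =
        ((E.ymodSeed hn hb h12 hu2 hD₀ hdeg hgenus).graphSetup.S (Vtx.vert Vrt.zero)).red g ^ q)
    (red_hor : ∀ g : FBar (N₁ * q),
      (∀ c, g ∈ ((E.ymodSeed hn hb h12 hu2 hD₀ hdeg hgenus).graphSetup.S c).Ov) →
      (∀ c, ((E.ymodSeed hn hb h12 hu2 hD₀ hdeg hgenus).graphSetup.S c).red g ≠ 0) → ∀ P,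
      ((E.ymodSeed hn hb h12 hu2 hD₀ hdeg hgenus).graphSetup.S (Vtx.hor P)).red
          (nm1 N₁ q g) =
        algebraMap k⟮(H P).X1⟯ (FkOf Fk0 FkM FkP (Vtx.hor P))
          (Algebra.norm k⟮(H P).X1⟯
            (((E.ymodSeed hn hb h12 hu2 hD₀ hdeg hgenus).graphSetup.S (Vtx.hor P)).red g))) :
    NormLayer1 (E.ymodSeed hn hb h12 hu2 hD₀ hdeg hgenus).graphSetup n' q (midDeg q)
      (nm1 N₁ q) :=
  cocAsm_layer1 (E.ymodSeed hn hb h12 hu2 hD₀ hdeg hgenus).graphSetup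
    (edy_hsrc hn hb h12 hu2 hD₀ hdeg hgenus) (edy_htgt hn hb h12 hu2 hD₀ hdeg hgenus)
    (ends_hq1 hqp) H n' (midDeg q) (nm1 N₁ q) hres he hdegV
    (edy_hI hn hb h12 hu2 hD₀ hdeg hgenus hxA)
    (edy_hZ hn hb h12 hu2 hD₀ hdeg hgenus hx2)
    (edy_hm1 hn hb h12 hu2 hD₀ hdeg hgenus hxA hx2 hqp)
    (ends_midDeg_pos hqp)
    (edy_hm2 hn hb h12 hu2 hD₀ hdeg hgenus hxA hx2)
    (edy_hcover hn hb h12 hu2 hD₀ hdeg hgenus hxA hx2)
    red_oo red_mid red_zero red_hor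

include hxA hx2 hqp in
/-- **the field `layer1` of `CboNorm`** for the modular seed. -/
theorem cocAsm_ymod_layer (n' : ℕ)
    (hres : ∀ P m,
      (nlSrc (E.ymodSeed hn hb h12 hu2 hD₀ hdeg hgenus).graphSetup
        (edy_hsrc hn hb h12 hu2 hD₀ hdeg hgenus) P (Vrt.mid m)).restrict
          (FkOf Fk0 FkM FkP (Vtx.vert Vrt.oo)) =
        nlSrc (E.ymodSeed hn hb h12 hu2 hD₀ hdeg hgenus).graphSetup
          (edy_hsrc hn hb h12 hu2 hD₀ hdeg hgenus) P Vrt.oo)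
    (he : ∀ P m,
      (nlSrc (E.ymodSeed hn hb h12 hu2 hD₀ hdeg hgenus).graphSetup
        (edy_hsrc hn hb h12 hu2 hD₀ hdeg hgenus) P (Vrt.mid m)).ramificationIndex
          (FkOf Fk0 FkM FkP (Vtx.vert Vrt.oo)) = midDeg q)
    (hdegV : ∀ m, Module.finrank (FkOf Fk0 FkM FkP (Vtx.vert Vrt.oo))
      (FkOf Fk0 FkM FkP (Vtx.vert (Vrt.mid m))) = midDeg q)
    (red_oo : ∀ g : FBar (N₁ * q),
      (∀ c, g ∈ ((E.ymodSeed hn hb h12 hu2 hD₀ hdeg hgenus).graphSetup.S c).Ov) →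
      (∀ c, ((E.ymodSeed hn hb h12 hu2 hD₀ hdeg hgenus).graphSetup.S c).red g ≠ 0) →
      ((E.ymodSeed hn hb h12 hu2 hD₀ hdeg hgenus).graphSetup.S (Vtx.vert Vrt.oo)).red
          (nm1 N₁ q g) =
        ((E.ymodSeed hn hb h12 hu2 hD₀ hdeg hgenus).graphSetup.S (Vtx.vert Vrt.oo)).red g *
          ∏ m, Algebra.norm (FkOf Fk0 FkM FkP (Vtx.vert Vrt.oo))
            (((E.ymodSeed hn hb h12 hu2 hD₀ hdeg hgenus).graphSetup.S
              (Vtx.vert (Vrt.mid m))).red g))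
    (red_mid : ∀ g : FBar (N₁ * q),
      (∀ c, g ∈ ((E.ymodSeed hn hb h12 hu2 hD₀ hdeg hgenus).graphSetup.S c).Ov) →
      (∀ c, ((E.ymodSeed hn hb h12 hu2 hD₀ hdeg hgenus).graphSetup.S c).red g ≠ 0) → ∀ m,
      ((E.ymodSeed hn hb h12 hu2 hD₀ hdeg hgenus).graphSetup.S (Vtx.vert (Vrt.mid m))).red
          (nm1 N₁ q g) =
        algebraMap (FkOf Fk0 FkM FkP (Vtx.vert Vrt.oo))
          (FkOf Fk0 FkM FkP (Vtx.vert (Vrt.mid m)))
          (((E.ymodSeed hn hb h12 hu2 hD₀ hdeg hgenus).graphSetup.S (Vtx.vert Vrt.oo)).red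
            (nm1 N₁ q g)))
    (red_zero : ∀ g : FBar (N₁ * q),
      (∀ c, g ∈ ((E.ymodSeed hn hb h12 hu2 hD₀ hdeg hgenus).graphSetup.S c).Ov) →
      (∀ c, ((E.ymodSeed hn hb h12 hu2 hD₀ hdeg hgenus).graphSetup.S c).red g ≠ 0) →
      ((E.ymodSeed hn hb h12 hu2 hD₀ hdeg hgenus).graphSetup.S (Vtx.vert Vrt.zero)).red
          (nm1 N₁ q g) =
        ((E.ymodSeed hn hb h12 hu2 hD₀ hdeg hgenus).graphSetup.S (Vtx.vert Vrt.zero)).red g ^ q)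
    (red_hor : ∀ g : FBar (N₁ * q),
      (∀ c, g ∈ ((E.ymodSeed hn hb h12 hu2 hD₀ hdeg hgenus).graphSetup.S c).Ov) →
      (∀ c, ((E.ymodSeed hn hb h12 hu2 hD₀ hdeg hgenus).graphSetup.S c).red g ≠ 0) → ∀ P,
      ((E.ymodSeed hn hb h12 hu2 hD₀ hdeg hgenus).graphSetup.S (Vtx.hor P)).red
          (nm1 N₁ q g) =
        algebraMap k⟮(H P).X1⟯ (FkOf Fk0 FkM FkP (Vtx.hor P))
          (Algebra.norm k⟮(H P).X1⟯
            (((E.ymodSeed hn hb h12 hu2 hD₀ hdeg hgenus).graphSetup.S (Vtx.hor P)).red g))) :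
    Nonempty (NormLayer1 (E.ymodSeed hn hb h12 hu2 hD₀ hdeg hgenus).graphSetup n' q (midDeg q)
      (nm1 N₁ q)) :=
  ⟨cocAsm_ymod_layer1 N₁ q hn hb h12 hu2 hD₀ hdeg hgenus hxA hx2 hqp n' hres he hdegV
    red_oo red_mid red_zero red_hor⟩

end Ymod

end Fermat.Agent.S36G
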