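/-
Cluster G (S36), Step 3, wiring of (F1), (F2), seat NR-HOR (helper4): the HORIZONTAL fields of the
norm layers `NormLayer1`, `NormLayer2` (`S36/G/NormLayer.lean`, helper36), for ONE horizontal
component, on plain fields and places.

`S : ValSetup K F k Fk` the valuation `w_P` of `F`, `ψ : E →ₐ[K] F` the inclusion `π^*` of the
function field of the lower level, `HP : HPCurve k Fk q` the structure of `Fk = k(H_P)`,
`L = k(X)` with `X = X₁ = W̄` (for `π₁`) or `X = X₂ = Z̄c` (for `π₂`).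

* `nrhNP L`        : the norm of `Fk` over `L`, seen in `Fk` (the field `NP P` of the norm layers);
* `nrhNP_ne_zero`  : the field `NP_ne_zero`;
* `nrh_red`        : **(N3)** `red (ψ (N_ψ g)) = nrhNP L (red g)` for `g ∈ O`, from the SQUEEZE
                     (`hsq`: the residues of `ψ E ∩ O` lie in `L`) and the equality of the degrees
                     (the field `red_hor`);
* `nrh_red_conj`   : the same for the norm seen through an automorphism `w` of `F`,
                     `Nm g = w (ψ (N_ψ (w⁻¹ g)))` (the form of `π₂ = π₁ ∘ w`);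
* `nrh_val_X1`, `nrh_val_X2` : the values of `nrhNP k(X₁) h`, `nrhNP k(X₂) h` at the ends of `H_P`
                     (the fields `val_NP_oo`, `val_NP_zero`), from `nv_hor_X1`, `nv_hor_X2`
                     (helper31);
* `nrh_sq_of_finrank` : the SQUEEZE from a count of degrees: a subfield `R ⊇ L` of `Fk` with
                     `[Fk : R] = [Fk : L]` is `L`.
-/
import Mathlib
import Fermat.Agent.S36.G.NormValues
import Fermat.Agent.S36.Norm.HorAbs
import Fermat.Agent.F3.Galois.NormDesc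
import Fermat.Agent.Lib.Deuring.Basic
import Fermat.Agent.Lib.HP.Deg

set_option autoImplicit false
set_option linter.unusedSectionVars false
set_option linter.unusedVariables false
set_option linter.style.haveILetI false

noncomputable section

open IntermediateField AlgebraicCurve

namespace Fermat.Agent.S36G

open Fermat.Agent.RR Fermat.Agent.S36 Fermat.Agent.HP Fermat.Agent.Deuring Fermat.Agent.F3G
open Fermat.Agent.BadRed (ValAt)

/-! ### the norm to an intermediate field, seen in the big field -/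

section NP

variable {k Fk : Type*} [Field k] [Field Fk] [Algebra k Fk]

/-- the norm of `Fk` over `L`, seen in `Fk`. -/
def nrhNP (L : IntermediateField k Fk) : Fk →* Fk :=
  ((algebraMap L Fk : L →+* Fk) : L →* Fk).comp (Algebra.norm L)

theorem nrhNP_apply (L : IntermediateField k Fk) (x : Fk) :
    nrhNP L x = algebraMap L Fk (Algebra.norm L x) := rfl

theorem nrhNP_ne_zero (L : IntermediateField k Fk) [FiniteDimensional L Fk] {x : Fk}
    (hx : x ≠ 0) : nrhNP L x ≠ 0 := by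
  rw [nrhNP_apply, Ne, map_eq_zero_iff _ (algebraMap L Fk).injective]
  exact Algebra.norm_ne_zero_iff.mpr hx

/-- the generator of `k(X)` generates. -/
theorem nrh_adjoin_gen_eq_top (X : Fk) :
    k⟮(AdjoinSimple.gen k X)⟯ = (⊤ : IntermediateField k k⟮X⟯) := by
  apply IntermediateField.map_injective (k⟮X⟯.val)
  rw [IntermediateField.adjoin_map, Set.image_singleton, ← AlgHom.fieldRange_eq_map,
    IntermediateField.fieldRange_val]
  rfl

end NP

/-! ### the norm along a conjugate embedding -/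

section Conj

variable {K E F : Type*} [Field K] [Field E] [Field F] [Algebra K E] [Algebra K F]

/-- the norm along `σ ∘ ψ` of `σ y` is the norm along `ψ` of `y`. -/
theorem nrh_normAlong_comp_equiv (ψ : E →ₐ[K] F) (σ : F ≃ₐ[K] F) (y : F) :
    normAlong (σ.toAlgHom.comp ψ) (σ y) = normAlong ψ y := by
  letI a1 : Algebra E F := algebraAlong ψ
  let a2 : Algebra E F := algebraAlong (σ.toAlgHom.comp ψ)
  let e : @AlgEquiv E F F _ _ _ a1 a2 :=
    @AlgEquiv.mk E F F _ _ _ a1 a2 σ.toEquiv (fun x y => map_mul σ x y)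
      (fun x y => map_add σ x y) (fun f => rfl)
  show @Algebra.norm E F _ _ a2 (σ y) = @Algebra.norm E F _ _ a1 y
  exact @Algebra.norm_eq_of_algEquiv E F F _ _ a1 _ a2 e y

/-- the norm seen through `w`: `w (ψ (N_ψ (w⁻¹ g))) = ψ' (N_ψ' g)`, `ψ' = w ∘ ψ`. -/
theorem nrh_conj_eq (ψ : E →ₐ[K] F) (w : F ≃ₐ[K] F) (g : F) :
    w (ψ (normAlong ψ (w.symm g))) =
      (w.toAlgHom.comp ψ) (normAlong (w.toAlgHom.comp ψ) g) := by
  have h := nrh_normAlong_comp_equiv ψ w (w.symm g)
  rw [AlgEquiv.apply_symm_apply] at h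
  rw [h]
  rfl

theorem nrh_finiteAlong_comp (ψ : E →ₐ[K] F) (w : F ≃ₐ[K] F) (hfin : FiniteAlong K ψ) :
    FiniteAlong K (w.toAlgHom.comp ψ) := by
  letI a1 : Algebra E F := algebraAlong ψ
  let a2 : Algebra E F := algebraAlong (w.toAlgHom.comp ψ)
  let e : @AlgEquiv E F F _ _ _ a1 a2 :=
    @AlgEquiv.mk E F F _ _ _ a1 a2 w.toEquiv (fun x y => map_mul w x y)
      (fun x y => map_add w x y) (fun f => rfl)
  haveI : @Module.Finite E F _ _ a1.toModule := hfin
  show @Module.Finite E F _ _ a2.toModule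
  exact @Module.Finite.equiv E F F _ _ a1.toModule _ a2.toModule _
    (@AlgEquiv.toLinearEquiv E F F _ _ _ a1 a2 e)

theorem nrh_finrankAlong_comp (ψ : E →ₐ[K] F) (w : F ≃ₐ[K] F) :
    finrankAlong K (w.toAlgHom.comp ψ) = finrankAlong K ψ := by
  letI a1 : Algebra E F := algebraAlong ψ
  let a2 : Algebra E F := algebraAlong (w.toAlgHom.comp ψ)
  let e : @AlgEquiv E F F _ _ _ a1 a2 :=
    @AlgEquiv.mk E F F _ _ _ a1 a2 w.toEquiv (fun x y => map_mul w x y)
      (fun x y => map_add w x y) (fun f => rfl)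
  show @Module.finrank E F _ _ a2.toModule = @Module.finrank E F _ _ a1.toModule
  exact (@LinearEquiv.finrank_eq E F F _ _ a1.toModule _ a2.toModule
    (@AlgEquiv.toLinearEquiv E F F _ _ _ a1 a2 e)).symm

end Conj

/-! ### (N3): the residue of the norm -/

section Red

variable {K F k Fk E : Type*} [Field K] [Field F] [Algebra K F] [Field k] [Field Fk]
  [Algebra k Fk] [Field E] [Algebra K E]

/-- **(N3)**: the residue of the norm (seen in `F`) of an integral function is the norm of its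
residue over `L`, if the residues of `ψ E ∩ O` lie in `L` (SQUEEZE) and `[F : ψ E] = [Fk : L]`. -/
theorem nrh_red (S : ValSetup K F k Fk) (ψ : E →ₐ[K] F) (hfin : FiniteAlong K ψ)
    (L : IntermediateField k Fk) [FiniteDimensional L Fk]
    (hsq : ∀ y : E, ψ y ∈ S.Ov → S.red (ψ y) ∈ L)
    (hrank : finrankAlong K ψ = Module.finrank L Fk)
    (g : F) (hg : g ∈ S.Ov) :
    ψ (normAlong ψ g) ∈ S.Ov ∧ S.red (ψ (normAlong ψ g)) = nrhNP L (S.red g) := by
  letI : Algebra E F := algebraAlong ψ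
  haveI : Module.Finite E F := hfin
  have hker : ∀ y : S.Ov, ¬ IsUnit y → S.ρ y = 0 := fun y hy => (S.ρ_eq_zero_iff y).mpr hy
  have hR1 : ∀ (y : E) (hy : algebraMap E F y ∈ S.Ov),
      S.ρ ⟨algebraMap E F y, hy⟩ ∈ (algebraMap L Fk).range := by
    intro y hy
    have h1 : S.red (ψ y) ∈ L := hsq y hy
    have h2 : S.red (ψ y) = S.ρ ⟨algebraMap E F y, hy⟩ := S.red_of_mem hy
    rw [h2] at h1
    exact ⟨⟨_, h1⟩, rfl⟩
  obtain ⟨h, hh⟩ := normRed_hor (E := E) (F := F) (O := S.Ov) (ρ := S.ρ) (Ek := L) S.ρ_surj hker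
    hR1 hrank g hg
  refine ⟨h, ?_⟩
  have e1 : S.red (ψ (normAlong ψ g)) = S.ρ ⟨algebraMap E F (Algebra.norm E g), h⟩ :=
    S.red_of_mem h
  rw [e1, hh, nrhNP_apply, S.red_of_mem hg]

/-- **(N3) for the norm seen through an automorphism** `w` of `F` (`π₂ = π₁ ∘ w`):
`Nm g = w (ψ (N_ψ (w⁻¹ g)))`. -/
theorem nrh_red_conj (S : ValSetup K F k Fk) (ψ : E →ₐ[K] F) (hfin : FiniteAlong K ψ)
    (w : F ≃ₐ[K] F) (L : IntermediateField k Fk) [FiniteDimensional L Fk]
    (hsq : ∀ y : E, w (ψ y) ∈ S.Ov → S.red (w (ψ y)) ∈ L)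
    (hrank : finrankAlong K ψ = Module.finrank L Fk)
    (g : F) (hg : g ∈ S.Ov) :
    w (ψ (normAlong ψ (w.symm g))) ∈ S.Ov ∧
      S.red (w (ψ (normAlong ψ (w.symm g)))) = nrhNP L (S.red g) := by
  rw [nrh_conj_eq]
  exact nrh_red S (w.toAlgHom.comp ψ) (nrh_finiteAlong_comp ψ w hfin) L hsq
    (by rw [nrh_finrankAlong_comp]; exact hrank) g hg

end Red

/-! ### the values at the ends -/

section Val

variable {k Fk : Type*} [Field k] [Field Fk] [Algebra k Fk] {q : ℕ}
  (HP : HPCurve k Fk q) [IsAlgClosed k] (hq1 : ((q + 1 : ℕ) : k) ≠ 0)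
  {Mid : Type} [Fintype Mid]

include hq1 in
/-- **values of the norm to `k(X₁)`** at the ends: `b_∞ ∏_m b_m ^ e` at `p_∞` and at the `p_m`,
`b_0 ^ q` at `p_0`. -/
theorem nrh_val_X1 (pm : Mid → Place k Fk) (hpm : Function.Injective pm)
    (hmid : ∀ v : Place k Fk, 0 < v.ord (HP.s - algebraMap k Fk 1) ↔ ∃ m, v = pm m)
    (e : ℕ) (he : ∀ m, (-((pm m).ord HP.X1)).toNat = e)
    (h : Fk) (bInf bZero : k) (bm : Mid → k)
    (hInf : ValAt (HP.pInf hq1) h bInf) (hZero : ValAt (HP.pZero hq1) h bZero)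
    (hm : ∀ m, ValAt (pm m) h (bm m)) :
    ValAt (HP.pInf hq1) (nrhNP k⟮HP.X1⟯ h) (bInf * ∏ m, bm m ^ e) ∧
    (∀ m, ValAt (pm m) (nrhNP k⟮HP.X1⟯ h) (bInf * ∏ m, bm m ^ e)) ∧
    ValAt (HP.pZero hq1) (nrhNP k⟮HP.X1⟯ h) (bZero ^ q) := by
  haveI := HP.finiteDimensional_X1
  exact nv_hor_X1 HP hq1 (E := k⟮HP.X1⟯) (nrh_adjoin_gen_eq_top HP.X1) rfl pm hpm hmid e he h
    bInf bZero bm hInf hZero hm

include hq1 in
/-- **values of the norm to `k(X₂)`** at the ends: `b_0 ∏_m b_m ^ e` at `p_0` and at the `p_m`,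
`b_∞ ^ q` at `p_∞`. -/
theorem nrh_val_X2 (pm : Mid → Place k Fk) (hpm : Function.Injective pm)
    (hmid : ∀ v : Place k Fk, 0 < v.ord (HP.s - algebraMap k Fk 1) ↔ ∃ m, v = pm m)
    (e : ℕ) (he : ∀ m, (-((pm m).ord HP.X1)).toNat = e)
    (h : Fk) (bInf bZero : k) (bm : Mid → k)
    (hInf : ValAt (HP.pInf hq1) h bInf) (hZero : ValAt (HP.pZero hq1) h bZero)
    (hm : ∀ m, ValAt (pm m) h (bm m)) :
    ValAt (HP.pZero hq1) (nrhNP k⟮HP.X2⟯ h) (bZero * ∏ m, bm m ^ e) ∧
    (∀ m, ValAt (pm m) (nrhNP k⟮HP.X2⟯ h) (bZero * ∏ m, bm m ^ e)) ∧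
    ValAt (HP.pInf hq1) (nrhNP k⟮HP.X2⟯ h) (bInf ^ q) := by
  haveI := HP.finiteDimensional_X2 hq1
  exact nv_hor_X2 HP hq1 (E := k⟮HP.X2⟯) (nrh_adjoin_gen_eq_top HP.X2) rfl pm hpm hmid e he h
    bInf bZero bm hInf hZero hm

end Val

/-! ### the SQUEEZE from a count of degrees -/

section Squeeze

variable {k k₀ Fk : Type*} [Field k] [Field k₀] [Field Fk] [Algebra k Fk] [Algebra k₀ Fk]

/-- a subfield `R ⊇ L` of `Fk` with `[Fk : R] = [Fk : L]` (finite) is `L`. -/
theorem nrh_sq_of_finrank (L : IntermediateField k Fk) (R : IntermediateField k₀ Fk)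
    [FiniteDimensional L Fk] (hLR : ∀ x ∈ L, x ∈ R)
    (hdeg : Module.finrank R Fk = Module.finrank L Fk) : ∀ x ∈ R, x ∈ L := by
  have hle : L.toSubfield ≤ R.toSubfield := fun x hx => hLR x hx
  have h1 := Subfield.relfinrank_mul_finrank_top hle
  have e1 : Module.finrank R.toSubfield Fk = Module.finrank R Fk := rfl
  have e2 : Module.finrank L.toSubfield Fk = Module.finrank L Fk := rfl
  rw [e1, e2, hdeg] at h1
  have hpos : 0 < Module.finrank L Fk := Module.finrank_pos
  have h2 : Subfield.relfinrank L.toSubfield R.toSubfield = 1 := by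
    have h3 : Subfield.relfinrank L.toSubfield R.toSubfield * Module.finrank L Fk
        = 1 * Module.finrank L Fk := by rw [h1, one_mul]
    exact Nat.eq_of_mul_eq_mul_right hpos h3
  exact fun x hx => Subfield.relfinrank_eq_one_iff.mp h2 hx

/-- the SQUEEZE in the form used by `nrh_red`: the residues of `ψ E ∩ O` form a subfield `R`
containing `X` and the constants, with `[Fk : R] = [Fk : k(X)]`. -/
theorem nrh_sq_of_residueField {K F E : Type*} [Field K] [Field F] [Algebra K F] [Field E]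
    [Algebra K E] (S : ValSetup K F k Fk) (ψ : E →ₐ[K] F) (X : Fk)
    [FiniteDimensional k⟮X⟯ Fk] (R : IntermediateField k₀ Fk)
    (hR : ∀ y : E, ψ y ∈ S.Ov → S.red (ψ y) ∈ R)
    (hk : ∀ c : k, algebraMap k Fk c ∈ R) (hX : X ∈ R)
    (hdeg : Module.finrank R Fk = Module.finrank k⟮X⟯ Fk) :
    ∀ y : E, ψ y ∈ S.Ov → S.red (ψ y) ∈ k⟮X⟯ := by
  have hLR : ∀ x ∈ k⟮X⟯, x ∈ R := by
    intro x hx
    have hle : k⟮X⟯.toSubfield ≤ R.toSubfield :=
      IntermediateField.adjoin_le_subfield k {X} (K := R.toSubfield)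
        (by rintro _ ⟨c, rfl⟩; exact hk c) (by rintro _ rfl; exact hX)
    exact hle hx
  exact fun y hy => nrh_sq_of_finrank k⟮X⟯ R hLR hdeg _ (hR y hy)

end Squeeze

end Fermat.Agent.S36G
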