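/-
Cluster G (S36), Step 3, wiring of (F1), (F2), seat NR-HOR (helper4), MODULAR part: the fields
`NP`, `NP_ne_zero`, `red_hor` of the norm layers `NormLayer1` (for `nm1 = π₁^* π₁_*`) and
`NormLayer2` (for `nm2 = π₂^* π₂_*`) at ONE horizontal component `H_P`, from the output `O : WPOut`
of block W-P (sub-architect of COC: helper36).

`F = F_{M₀ q q}`, `α = heckeAlphaBar Qb (M₀ q) q`, `β = heckeBetaBar Qb (M₀ q) q`,
`w = wAt D hM` (`w_{q²}`), `k = A / m_A`.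

* `nrh_nm2_eq_beta`   : `nm2 g = β (N_β g)`  (`W₂ ∘ α = β ∘ w₁`, `N_β ∘ W₂ = w₁ ∘ N_α`, helper66);
* `nrhNP1 O`, `nrhNP2 O` : the norms of `k(H_P)` over `k(X₁)`, `k(X₂)`, seen in `k(H_P)`;
* `nrhNP1_ne_zero`, `nrhNP2_ne_zero`;
* `nrhMod_red1`       : `nm1 g ∈ O_{w_P}` and `red (nm1 g) = nrhNP1 O (red g)` for `g ∈ O_{w_P}`;
* `nrhMod_red2`       : `nm2 g ∈ O_{w_P}` and `red (nm2 g) = nrhNP2 O (red g)` for `g ∈ O_{w_P}`;
* `nrhMod_red_hor1`, `nrhMod_red_hor2` : the same for a family of outputs (the shape of the field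
  `red_hor`).

The norm formulas (N3), (N3') are `wpsq_normRed_alpha`, `wpsq_normRed_beta` (helper96, SQUEEZE).
-/
import Mathlib
import Fermat.Agent.S36.G.NormRootsHor
import Fermat.Agent.S36.G.CocycleF12Mod
import Fermat.Agent.S36.Norm.HorSqueeze

set_option autoImplicit false
set_option linter.unusedSectionVars false
set_option linter.unusedVariables false
set_option linter.style.haveILetI false
set_option synthInstance.maxHeartbeats 400000

noncomputable section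

namespace Fermat.Agent.S36G

open ModularCurve AlgebraicCurve IntermediateField Fermat.Agent.F3 Fermat.Agent.F3G
  Fermat.Agent.GaussInt Fermat.Agent.Deuring Fermat.Agent.BadRed Fermat.Agent.HP
  Fermat.Agent.S36 Fermat.Agent.AtkinLehner

local notation "Qb" => AlgebraicClosure ℚ

/-! ### `π₂^* π₂_*` through `β` -/

/-- **`nm2 g = β (N_β g)`**: the norm of `π₂`, seen in `F`, is the norm along `β`. -/
theorem nrh_nm2_eq_beta (N₁ q : ℕ) [NeZero N₁] [NeZero q] (D₁ D : ALData)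
    (hQ : D.Q = D₁.Q * q) (hR : D.R = D₁.R) (hN : N₁ = D₁.Q * D₁.R)
    (hM : N₁ * q = D.Q * D.R) (g : FBar (N₁ * q)) :
    nm2 N₁ q D hM g = heckeBetaBar Qb N₁ q (normAlong (heckeBetaBar Qb N₁ q) g) := by
  have h1 := Fermat.Agent.S36N.normAlong_beta_wAt (N := N₁) (ℓ := q) D₁ D hQ hR hN hM
    (wAt D hM g)
  rw [wAt_wAt] at h1
  rw [nm2_def, Fermat.Agent.S36N.wAt_alpha (N := N₁) (ℓ := q) D₁ D hQ hR hN hM, ← h1]

/-! ### the fields `NP`, `NP_ne_zero`, `red_hor` at one horizontal component -/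

section One

variable {M₀ q : ℕ} [NeZero M₀] [NeZero q] {A : ValuationSubring Qb}
  {S0 : Fermat.Agent.S18Key.RedSetup Qb (FBar M₀) (IsLocalRing.ResidueField A)
    ↥(modularFunctionFieldFullC (IsLocalRing.ResidueField A) M₀)}
  {P : Place (IsLocalRing.ResidueField A)
    ↥(modularFunctionFieldFullC (IsLocalRing.ResidueField A) M₀)}
  {FkP : Type} [Field FkP] [Algebra (IsLocalRing.ResidueField A) FkP]
  (O : WPOut M₀ q A S0 P FkP)

/-- the field `NP P` of `NormLayer1`: the norm of `k(H_P)` over `k(X₁)`, seen in `k(H_P)`. -/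
def nrhNP1 : FkP →* FkP := nrhNP (IsLocalRing.ResidueField A)⟮O.H.X1⟯

/-- the field `NP P` of `NormLayer2`: the norm of `k(H_P)` over `k(X₂)`, seen in `k(H_P)`. -/
def nrhNP2 : FkP →* FkP := nrhNP (IsLocalRing.ResidueField A)⟮O.H.X2⟯

theorem nrhNP1_apply (x : FkP) :
    nrhNP1 O x = algebraMap (IsLocalRing.ResidueField A)⟮O.H.X1⟯ FkP
      (Algebra.norm (IsLocalRing.ResidueField A)⟮O.H.X1⟯ x) := rfl

theorem nrhNP2_apply (x : FkP) :
    nrhNP2 O x = algebraMap (IsLocalRing.ResidueField A)⟮O.H.X2⟯ FkP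
      (Algebra.norm (IsLocalRing.ResidueField A)⟮O.H.X2⟯ x) := rfl

/-- the field `NP_ne_zero` of `NormLayer1`. -/
theorem nrhNP1_ne_zero {x : FkP} (hx : x ≠ 0) : nrhNP1 O x ≠ 0 := by
  haveI := Fermat.Agent.FrobTrace.isAlgClosed_residueField A
  haveI := O.H.finiteDimensional_X1
  exact nrhNP_ne_zero _ hx

/-- the field `NP_ne_zero` of `NormLayer2`. -/
theorem nrhNP2_ne_zero (hq : q.Prime) (hA : A.LiesOverPrime q) {x : FkP} (hx : x ≠ 0) :
    nrhNP2 O x ≠ 0 := by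
  haveI := Fermat.Agent.FrobTrace.isAlgClosed_residueField A
  have hq1 := wpsq_succ_ne_zero (A := A) hq hA
  haveI := O.H.finiteDimensional_X2 hq1
  exact nrhNP_ne_zero _ hx

/-- **`red_hor` for `π₁`** at `H_P`: `red_P (nm1 g) = N_{k(H_P)/k(X₁)} (red_P g)`. -/
theorem nrhMod_red1 (hq : q.Prime) (hqM : ¬ q ∣ M₀) (hA : A.LiesOverPrime q)
    (g : FBar (M₀ * q * q)) (hg : g ∈ O.S.Ov) :
    nm1 (M₀ * q) q g ∈ O.S.Ov ∧ O.S.red (nm1 (M₀ * q) q g) = nrhNP1 O (O.S.red g) :=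
  wpsq_normRed_alpha O hq hqM hA g hg

/-- **`red_hor` for `π₂`** at `H_P`: `red_P (nm2 g) = N_{k(H_P)/k(X₂)} (red_P g)`. -/
theorem nrhMod_red2 (hq : q.Prime) (hqM : ¬ q ∣ M₀) (hA : A.LiesOverPrime q)
    (D₁ D : ALData) (hQ : D.Q = D₁.Q * q) (hR : D.R = D₁.R) (hN : M₀ * q = D₁.Q * D₁.R)
    (hM : M₀ * q * q = D.Q * D.R) (g : FBar (M₀ * q * q)) (hg : g ∈ O.S.Ov) :
    nm2 (M₀ * q) q D hM g ∈ O.S.Ov ∧
      O.S.red (nm2 (M₀ * q) q D hM g) = nrhNP2 O (O.S.red g) := by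
  rw [nrh_nm2_eq_beta (M₀ * q) q D₁ D hQ hR hN hM g]
  exact wpsq_normRed_beta O hq hqM hA g hg

end One

/-! ### the family form (the fields `red_hor`) -/

section Family

variable {M₀ q : ℕ} [NeZero M₀] [NeZero q] {A : ValuationSubring Qb}
  {S0 : Fermat.Agent.S18Key.RedSetup Qb (FBar M₀) (IsLocalRing.ResidueField A)
    ↥(modularFunctionFieldFullC (IsLocalRing.ResidueField A) M₀)}
  {SS : Type}
  {pt : SS → Place (IsLocalRing.ResidueField A)
    ↥(modularFunctionFieldFullC (IsLocalRing.ResidueField A) M₀)}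
  {FkP : SS → Type} [∀ P, Field (FkP P)] [∀ P, Algebra (IsLocalRing.ResidueField A) (FkP P)]
  (O : ∀ P : SS, WPOut M₀ q A S0 (pt P) (FkP P))

/-- the field `red_hor` of `NormLayer1` for `SP P = (O P).S`, `NP P = nrhNP1 (O P)`. -/
theorem nrhMod_red_hor1 (hq : q.Prime) (hqM : ¬ q ∣ M₀) (hA : A.LiesOverPrime q)
    (g : FBar (M₀ * q * q)) (hg : ∀ P, g ∈ (O P).S.Ov) (P : SS) :
    (O P).S.red (nm1 (M₀ * q) q g) = nrhNP1 (O P) ((O P).S.red g) :=
  (nrhMod_red1 (O P) hq hqM hA g (hg P)).2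

/-- the field `red_hor` of `NormLayer2` for `SP P = (O P).S`, `NP P = nrhNP2 (O P)`. -/
theorem nrhMod_red_hor2 (hq : q.Prime) (hqM : ¬ q ∣ M₀) (hA : A.LiesOverPrime q)
    (D₁ D : ALData) (hQ : D.Q = D₁.Q * q) (hR : D.R = D₁.R) (hN : M₀ * q = D₁.Q * D₁.R)
    (hM : M₀ * q * q = D.Q * D.R) (g : FBar (M₀ * q * q)) (hg : ∀ P, g ∈ (O P).S.Ov) (P : SS) :
    (O P).S.red (nm2 (M₀ * q) q D hM g) = nrhNP2 (O P) ((O P).S.red g) :=
  (nrhMod_red2 (O P) hq hqM hA D₁ D hQ hR hN hM g (hg P)).2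

end Family

end Fermat.Agent.S36G
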