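/-
Cluster G (S36), block COC (sub-architect helper36), leaf NORM-LAYER-HOR (helper83):
the argument `red_hor` of `normLayer1_of` and of `normLayer2_of` (`S36/G/NormLayerOf.lean`),
VERBATIM, for a graph setup `N` whose constant reductions are the modular family

    N.S = vtxFamily Soo S0 Sm SP,    SP P = (O P).S,    HP P = (O P).H,

`O P : WPOut M₀ q A R0 (pt P) (FkP P)` the outputs of block W-P.

* `nlh_S_hor`         : `N.S (Vtx.hor P) = (O P).S`;
* `nlh_mem_hor`       : `g ∈ (N.S c).Ov` for all `c` gives `g ∈ (O P).S.Ov` for all `P`;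
* `nlh_red_hor1`      : **`red_hor` of `normLayer1_of`** for `Nm = nm1 (M₀ q) q`;
* `nlh_red_hor2_of`   : `red_hor` of `normLayer2_of` for `Nm = nm2 (M₀ q) q D hM`, with the
                        auxiliary datum `D₁` (`D.Q = D₁.Q q`) as in `nrhMod_red_hor2`;
* `nlh_red_hor2`      : **`red_hor` of `normLayer2_of`** for `Nm = nm2 (M₀ q) q D hM`, for ANY
                        `D : ALData` with `D.Q = q ^ 2` (the shape of `CocycleF2`);
* `nlh_mem_hor1`, `nlh_mem_hor2` : `nm1 g`, `nm2 g` are integral on the horizontal components;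
* `nlh_red_hor1_fam`, `nlh_red_hor2_fam` : the same for `SP = fun P => (O P).S`,
  `HP = fun P => (O P).H` (no equations to supply).

The norm formulas are `nrhMod_red_hor1`, `nrhMod_red_hor2` (`S36/G/NormRootsHorMod.lean`,
helper4; SQUEEZE, helper96).  Only the integrality of `g` on the horizontal components is used.
-/
import Mathlib
import Fermat.Agent.S36.G.NormRootsHorMod
import Fermat.Agent.S36.G.VtxFamily

set_option autoImplicit false
set_option linter.unusedSectionVars false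
set_option linter.unusedVariables false
set_option linter.style.haveILetI false
set_option synthInstance.maxHeartbeats 400000

noncomputable section

namespace Fermat.Agent.S36G

open ModularCurve AlgebraicCurve IntermediateField Fermat.Agent.F3 Fermat.Agent.F3G
  Fermat.Agent.GaussInt Fermat.Agent.Deuring Fermat.Agent.BadRed Fermat.Agent.BadRedG
  Fermat.Agent.HP Fermat.Agent.S36 Fermat.Agent.AtkinLehner

local notation "Qb" => AlgebraicClosure ℚ

attribute [local instance 10000] SubalgebraClass.toAlgebra HahnSeries.powerSeriesAlgebra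

section Hor

variable {M₀ q : ℕ} [NeZero M₀] [NeZero q] {A : ValuationSubring Qb}
  {R0 : Fermat.Agent.S18Key.RedSetup Qb (FBar M₀) (IsLocalRing.ResidueField A)
    ↥(modularFunctionFieldFullC (IsLocalRing.ResidueField A) M₀)}
  {Mid SS : Type}
  {pt : SS → Place (IsLocalRing.ResidueField A)
    ↥(modularFunctionFieldFullC (IsLocalRing.ResidueField A) M₀)}
  {Fk0 : Type} [Field Fk0] [Algebra (IsLocalRing.ResidueField A) Fk0]
  {FkM : Mid → Type} [∀ m, Field (FkM m)] [∀ m, Algebra (IsLocalRing.ResidueField A) (FkM m)]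
  {FkP : SS → Type} [∀ P, Field (FkP P)] [∀ P, Algebra (IsLocalRing.ResidueField A) (FkP P)]
  (O : ∀ P : SS, WPOut M₀ q A R0 (pt P) (FkP P))
  (N : GraphSetup Qb (FBar (M₀ * q * q)) (IsLocalRing.ResidueField A) (Vtx Mid SS)
    (FkOf Fk0 FkM FkP) (Nod Mid SS))
  {Soo S0 : ValSetup Qb (FBar (M₀ * q * q)) (IsLocalRing.ResidueField A) Fk0}
  {Sm : ∀ m, ValSetup Qb (FBar (M₀ * q * q)) (IsLocalRing.ResidueField A) (FkM m)}
  {SP : ∀ P, ValSetup Qb (FBar (M₀ * q * q)) (IsLocalRing.ResidueField A) (FkP P)}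
  (hN : N.S = vtxFamily Soo S0 Sm SP) (hSP : ∀ P, SP P = (O P).S)
  (HP : ∀ P : SS, HPCurve (IsLocalRing.ResidueField A) (FkOf Fk0 FkM FkP (Vtx.hor P)) q)
  (hHP : ∀ P, HP P = (O P).H)

include hN hSP in
/-- the constant reduction of `N` at the horizontal vertex `P` is `w_P`. -/
theorem nlh_S_hor (P : SS) : N.S (Vtx.hor P) = (O P).S := by
  rw [hN]
  exact hSP P

include hN hSP in
/-- integrality on all the components gives integrality for every `w_P`. -/
theorem nlh_mem_hor {g : FBar (M₀ * q * q)} (hg : ∀ c, g ∈ (N.S c).Ov) (P : SS) :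
    g ∈ (O P).S.Ov := by
  have h := hg (Vtx.hor P)
  rw [nlh_S_hor O N hN hSP P] at h
  exact h

include hN hSP in
/-- `nm1 g` is integral on the horizontal components. -/
theorem nlh_mem_hor1 (hq : q.Prime) (hqM : ¬ q ∣ M₀) (hA : A.LiesOverPrime q)
    {g : FBar (M₀ * q * q)} (hg : ∀ c, g ∈ (N.S c).Ov) (P : SS) :
    nm1 (M₀ * q) q g ∈ (N.S (Vtx.hor P)).Ov := by
  rw [nlh_S_hor O N hN hSP P]
  exact (nrhMod_red1 (O P) hq hqM hA g (nlh_mem_hor O N hN hSP hg P)).1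

include hN hSP hHP in
/-- **the argument `red_hor` of `normLayer1_of`** (`Nm = nm1 (M₀ q) q`), verbatim. -/
theorem nlh_red_hor1 (hq : q.Prime) (hqM : ¬ q ∣ M₀) (hA : A.LiesOverPrime q) :
    ∀ g : FBar (M₀ * q * q), (∀ c, g ∈ (N.S c).Ov) → (∀ c, (N.S c).red g ≠ 0) → ∀ P,
      (N.S (Vtx.hor P)).red (nm1 (M₀ * q) q g) =
        algebraMap (IsLocalRing.ResidueField A)⟮(HP P).X1⟯ (FkOf Fk0 FkM FkP (Vtx.hor P))
          (Algebra.norm (IsLocalRing.ResidueField A)⟮(HP P).X1⟯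
            ((N.S (Vtx.hor P)).red g)) := by
  intro g hg _ P
  rw [nlh_S_hor O N hN hSP P, hHP P]
  exact nrhMod_red_hor1 O hq hqM hA g (nlh_mem_hor O N hN hSP hg) P

include hN hSP in
/-- `nm2 g` is integral on the horizontal components. -/
theorem nlh_mem_hor2_of (hq : q.Prime) (hqM : ¬ q ∣ M₀) (hA : A.LiesOverPrime q)
    (D₁ D : ALData) (hQ : D.Q = D₁.Q * q) (hR : D.R = D₁.R) (hN₁ : M₀ * q = D₁.Q * D₁.R)
    (hM : M₀ * q * q = D.Q * D.R)
    {g : FBar (M₀ * q * q)} (hg : ∀ c, g ∈ (N.S c).Ov) (P : SS) :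
    nm2 (M₀ * q) q D hM g ∈ (N.S (Vtx.hor P)).Ov := by
  rw [nlh_S_hor O N hN hSP P]
  exact (nrhMod_red2 (O P) hq hqM hA D₁ D hQ hR hN₁ hM g (nlh_mem_hor O N hN hSP hg P)).1

include hN hSP hHP in
/-- the argument `red_hor` of `normLayer2_of` (`Nm = nm2 (M₀ q) q D hM`), with the auxiliary
datum `D₁`. -/
theorem nlh_red_hor2_of (hq : q.Prime) (hqM : ¬ q ∣ M₀) (hA : A.LiesOverPrime q)
    (D₁ D : ALData) (hQ : D.Q = D₁.Q * q) (hR : D.R = D₁.R) (hN₁ : M₀ * q = D₁.Q * D₁.R)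
    (hM : M₀ * q * q = D.Q * D.R) :
    ∀ g : FBar (M₀ * q * q), (∀ c, g ∈ (N.S c).Ov) → (∀ c, (N.S c).red g ≠ 0) → ∀ P,
      (N.S (Vtx.hor P)).red (nm2 (M₀ * q) q D hM g) =
        algebraMap (IsLocalRing.ResidueField A)⟮(HP P).X2⟯ (FkOf Fk0 FkM FkP (Vtx.hor P))
          (Algebra.norm (IsLocalRing.ResidueField A)⟮(HP P).X2⟯
            ((N.S (Vtx.hor P)).red g)) := by
  intro g hg _ P
  rw [nlh_S_hor O N hN hSP P, hHP P]
  exact nrhMod_red_hor2 O hq hqM hA D₁ D hQ hR hN₁ hM g (nlh_mem_hor O N hN hSP hg) P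

omit [NeZero q] in
/-- the auxiliary datum `D₁` (`Q = q`, `R = M₀`) of a datum `D` with `D.Q = q ^ 2` at the level
`M₀ q q`. -/
theorem nlh_exists_aux (hq : q.Prime) (hqM : ¬ q ∣ M₀) (D : ALData)
    (hM : M₀ * q * q = D.Q * D.R) (hDQ : D.Q = q ^ 2) :
    ∃ D₁ : ALData, D.Q = D₁.Q * q ∧ D.R = D₁.R ∧ M₀ * q = D₁.Q * D₁.R := by
  have hM₀pos : 0 < M₀ := Nat.pos_of_ne_zero (NeZero.ne M₀)
  have hcop : Nat.Coprime q M₀ := (Nat.Prime.coprime_iff_not_dvd hq).mpr hqM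
  obtain ⟨D₁, hQ₁, hR₁⟩ := ALData.exists_of_coprime hq.pos hM₀pos hcop
  have hR : D.R = M₀ := by
    have h3 : q ^ 2 * D.R = q ^ 2 * M₀ := by
      have h4 : D.Q * D.R = M₀ * q * q := hM.symm
      rw [hDQ] at h4
      rw [h4]
      ring
    exact Nat.eq_of_mul_eq_mul_left (pow_pos hq.pos 2) h3
  refine ⟨D₁, ?_, ?_, ?_⟩
  · rw [hDQ, hQ₁, sq]
  · rw [hR, hR₁]
  · rw [hQ₁, hR₁, mul_comm]

include hN hSP in
/-- `nm2 g` is integral on the horizontal components (any `D` with `D.Q = q ^ 2`). -/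
theorem nlh_mem_hor2 (hq : q.Prime) (hqM : ¬ q ∣ M₀) (hA : A.LiesOverPrime q)
    (D : ALData) (hM : M₀ * q * q = D.Q * D.R) (hDQ : D.Q = q ^ 2)
    {g : FBar (M₀ * q * q)} (hg : ∀ c, g ∈ (N.S c).Ov) (P : SS) :
    nm2 (M₀ * q) q D hM g ∈ (N.S (Vtx.hor P)).Ov := by
  obtain ⟨D₁, hQ, hR, hN₁⟩ := nlh_exists_aux hq hqM D hM hDQ
  exact nlh_mem_hor2_of O N hN hSP hq hqM hA D₁ D hQ hR hN₁ hM hg P

include hN hSP hHP in
/-- **the argument `red_hor` of `normLayer2_of`** (`Nm = nm2 (M₀ q) q D hM`), verbatim, for any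
`D : ALData` with `D.Q = q ^ 2`. -/
theorem nlh_red_hor2 (hq : q.Prime) (hqM : ¬ q ∣ M₀) (hA : A.LiesOverPrime q)
    (D : ALData) (hM : M₀ * q * q = D.Q * D.R) (hDQ : D.Q = q ^ 2) :
    ∀ g : FBar (M₀ * q * q), (∀ c, g ∈ (N.S c).Ov) → (∀ c, (N.S c).red g ≠ 0) → ∀ P,
      (N.S (Vtx.hor P)).red (nm2 (M₀ * q) q D hM g) =
        algebraMap (IsLocalRing.ResidueField A)⟮(HP P).X2⟯ (FkOf Fk0 FkM FkP (Vtx.hor P))
          (Algebra.norm (IsLocalRing.ResidueField A)⟮(HP P).X2⟯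
            ((N.S (Vtx.hor P)).red g)) := by
  obtain ⟨D₁, hQ, hR, hN₁⟩ := nlh_exists_aux hq hqM D hM hDQ
  exact nlh_red_hor2_of O N hN hSP HP hHP hq hqM hA D₁ D hQ hR hN₁ hM

end Hor

/-! ### the family form: `SP = fun P => (O P).S`, `HP = fun P => (O P).H` -/

section Fam

variable {M₀ q : ℕ} [NeZero M₀] [NeZero q] {A : ValuationSubring Qb}
  {R0 : Fermat.Agent.S18Key.RedSetup Qb (FBar M₀) (IsLocalRing.ResidueField A)
    ↥(modularFunctionFieldFullC (IsLocalRing.ResidueField A) M₀)}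
  {Mid SS : Type}
  {pt : SS → Place (IsLocalRing.ResidueField A)
    ↥(modularFunctionFieldFullC (IsLocalRing.ResidueField A) M₀)}
  {Fk0 : Type} [Field Fk0] [Algebra (IsLocalRing.ResidueField A) Fk0]
  {FkM : Mid → Type} [∀ m, Field (FkM m)] [∀ m, Algebra (IsLocalRing.ResidueField A) (FkM m)]
  {FkP : SS → Type} [∀ P, Field (FkP P)] [∀ P, Algebra (IsLocalRing.ResidueField A) (FkP P)]
  (O : ∀ P : SS, WPOut M₀ q A R0 (pt P) (FkP P))
  (N : GraphSetup Qb (FBar (M₀ * q * q)) (IsLocalRing.ResidueField A) (Vtx Mid SS)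
    (FkOf Fk0 FkM FkP) (Nod Mid SS))
  {Soo S0 : ValSetup Qb (FBar (M₀ * q * q)) (IsLocalRing.ResidueField A) Fk0}
  {Sm : ∀ m, ValSetup Qb (FBar (M₀ * q * q)) (IsLocalRing.ResidueField A) (FkM m)}
  (hN : N.S = vtxFamily Soo S0 Sm fun P => (O P).S)

/-- the curves `H_P` as a family over the horizontal vertices of the graph. -/
def nlhHP (P : SS) :
    HPCurve (IsLocalRing.ResidueField A) (FkOf Fk0 FkM FkP (Vtx.hor P)) q :=
  (O P).H

theorem nlhHP_apply (P : SS) : nlhHP (Fk0 := Fk0) (FkM := FkM) O P = (O P).H := rfl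

include hN in
/-- **`red_hor` of `normLayer1_of`** for the family `O`. -/
theorem nlh_red_hor1_fam (hq : q.Prime) (hqM : ¬ q ∣ M₀) (hA : A.LiesOverPrime q) :
    ∀ g : FBar (M₀ * q * q), (∀ c, g ∈ (N.S c).Ov) → (∀ c, (N.S c).red g ≠ 0) → ∀ P,
      (N.S (Vtx.hor P)).red (nm1 (M₀ * q) q g) =
        algebraMap (IsLocalRing.ResidueField A)⟮(nlhHP (Fk0 := Fk0) (FkM := FkM) O P).X1⟯
          (FkOf Fk0 FkM FkP (Vtx.hor P))
          (Algebra.norm (IsLocalRing.ResidueField A)⟮(nlhHP (Fk0 := Fk0) (FkM := FkM) O P).X1⟯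
            ((N.S (Vtx.hor P)).red g)) :=
  nlh_red_hor1 O N hN (fun _ => rfl) (nlhHP O) (fun _ => rfl) hq hqM hA

include hN in
/-- **`red_hor` of `normLayer2_of`** for the family `O`. -/
theorem nlh_red_hor2_fam (hq : q.Prime) (hqM : ¬ q ∣ M₀) (hA : A.LiesOverPrime q)
    (D : ALData) (hM : M₀ * q * q = D.Q * D.R) (hDQ : D.Q = q ^ 2) :
    ∀ g : FBar (M₀ * q * q), (∀ c, g ∈ (N.S c).Ov) → (∀ c, (N.S c).red g ≠ 0) → ∀ P,
      (N.S (Vtx.hor P)).red (nm2 (M₀ * q) q D hM g) =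
        algebraMap (IsLocalRing.ResidueField A)⟮(nlhHP (Fk0 := Fk0) (FkM := FkM) O P).X2⟯
          (FkOf Fk0 FkM FkP (Vtx.hor P))
          (Algebra.norm (IsLocalRing.ResidueField A)⟮(nlhHP (Fk0 := Fk0) (FkM := FkM) O P).X2⟯
            ((N.S (Vtx.hor P)).red g)) :=
  nlh_red_hor2 O N hN (fun _ => rfl) (nlhHP O) (fun _ => rfl) hq hqM hA D hM hDQ

end Fam

end Fermat.Agent.S36G
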