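/-
Cluster G (S36, Carayol at `q² ∥ M`), block COC, seat ENDS-DICT (VERT) (helper17; statement:
helper36, helper31).

THE VERTICAL PART OF THE ENDS DICTIONARY: `Fk0 = F_k(M₀) ⊆ FkM = igField k M₀ = k(Z)(θ j̄)`
(`k` algebraically closed of characteristic `q ∤ M₀`).  A place `Q` of `FkM` OVER a place `P` of
`Fk0` (`hQ : ∀ x, 0 < P.ord x → 0 < Q.ord (incl x)`; e.g. `Q = igPv P`, the branch `pv P (mid m)`):

* `edv_restrictAlong`, `edv_restrict`       : `Q` restricts to `P`                     (`hres`);
* `edv_ramificationIndexAlong`, `edv_ramificationIndex` : `e(Q | P) = midDeg q` for `P`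
                                  supersingular with `ord_P ssFun = 12`               (`he`);
* `edv_finrankAlong`, `edv_finrank`         : `[FkM : Fk0] = midDeg q`                 (`hdeg`);
* `edv_isIntegral`, `edv_finiteAlong`, `edv_finiteDimensional`, `edv_isScalarTower` : the
                                  instances;
* `edv_igPv_restrict`, `edv_igPv_ramificationIndex` : the same for `Q = igPv P`.
= the hypotheses `hres`, `he`, `hdeg` of `nl_val_nm`, `nl_val_jm` (`S36/G/NormLayerVal.lean`).

The statements `edv_restrict`, `edv_ramificationIndex`, `edv_finrank` are for ANY algebra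
structure of `FkM` over `Fk0` whose `algebraMap` is the inclusion (`hinc`); for
`algebraAlong (IntermediateField.inclusion (fullC_le_igField k M₀))` take `hinc := fun _ => rfl`.
-/
import Mathlib
import Fermat.Agent.S36.Igusa.RamIndex

set_option autoImplicit false
set_option linter.style.haveILetI false
set_option linter.unusedSectionVars false
set_option linter.unusedVariables false

noncomputable section

open AlgebraicCurve ModularCurve

namespace Fermat.Agent.S36G

attribute [local instance 10000] SubalgebraClass.toAlgebra HahnSeries.powerSeriesAlgebra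

open Fermat.Agent.RR Fermat.Agent.BadRed

/-! ### abstract: an algebra structure whose `algebraMap` is a given homomorphism -/

section Abstract

variable {K F F' : Type*} [Field K] [Field F] [Field F'] [Algebra K F] [Algebra K F']

/-- a place `Q` which is positive on the image of the maximal ideal of `P` restricts to `P`
(along `φ`). -/
theorem edv_restrictAlong_eq (φ : F →ₐ[K] F') (hφ : φ.toRingHom.IsIntegral) (P : Place K F)
    (Q : Place K F') (hQ : ∀ x : F, 0 < P.ord x → 0 < Q.ord (φ x)) :
    Q.restrictAlong φ hφ = P :=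
  igram_place_eq_of_pos P _ fun x hx => (Fermat.Agent.RRRel.ord_map_pos_iff φ hφ Q x).mp (hQ x hx)

/-- the restriction for an algebra structure does not depend on the structure, only on the
`algebraMap`. -/
theorem edv_restrict_eq_restrictAlong [Algebra F F'] [IsScalarTower K F F']
    [Algebra.IsIntegral F F'] (φ : F →ₐ[K] F') (hφ : φ.toRingHom.IsIntegral)
    (hinc : ∀ x : F, algebraMap F F' x = φ x) (Q : Place K F') :
    Q.restrict F = Q.restrictAlong φ hφ := by
  apply Place.ext
  apply SetLike.ext
  intro x
  show algebraMap F F' x ∈ Q.toValuationSubring ↔ φ x ∈ Q.toValuationSubring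
  rw [hinc]

/-- the ramification index depends only on the `algebraMap`. -/
theorem edv_ramificationIndex_eq_along [Algebra F F'] (φ : F →ₐ[K] F')
    (hinc : ∀ x : F, algebraMap F F' x = φ x) (Q : Place K F') :
    Q.ramificationIndex F = Q.ramificationIndexAlong φ := by
  unfold Place.ramificationIndexAlong Place.ramificationIndex
  congr 1
  ext n
  simp only [Set.mem_ofPred_eq, hinc]
  rfl

/-- the module structure of an algebra structure depends only on the `algebraMap`. -/
theorem edv_toModule_eq_along [inst : Algebra F F'] (φ : F →ₐ[K] F')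
    (hinc : ∀ x : F, algebraMap F F' x = φ x) :
    (inst.toModule : Module F F') = (algebraAlong φ).toModule := by
  refine Module.ext' _ _ fun a x => ?_
  show a • x = φ a * x
  rw [Algebra.smul_def, hinc]

/-- the degree depends only on the `algebraMap`. -/
theorem edv_finrank_eq_along [inst : Algebra F F'] (φ : F →ₐ[K] F')
    (hinc : ∀ x : F, algebraMap F F' x = φ x) :
    Module.finrank F F' = finrankAlong K φ :=
  congrArg (fun m : Module F F' => @Module.finrank F F' _ _ m) (edv_toModule_eq_along φ hinc)

/-- finiteness depends only on the `algebraMap`. -/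
theorem edv_finite_of_along [inst : Algebra F F'] (φ : F →ₐ[K] F')
    (hinc : ∀ x : F, algebraMap F F' x = φ x) (hfin : FiniteAlong K φ) :
    Module.Finite F F' := by
  have h := congrArg (fun m : Module F F' => @Module.Finite F F' _ _ m)
    (edv_toModule_eq_along φ hinc)
  exact h.mpr hfin

/-- the scalar tower of an algebra structure whose `algebraMap` is a `K`-homomorphism. -/
theorem edv_isScalarTower_of [Algebra F F'] (φ : F →ₐ[K] F')
    (hinc : ∀ x : F, algebraMap F F' x = φ x) : IsScalarTower K F F' :=
  IsScalarTower.of_algebraMap_eq fun a => by rw [hinc, φ.commutes]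

/-- the degree along an inclusion of intermediate fields is the relative degree. -/
theorem edv_finrankAlong_inclusion {L : Type*} [Field L] [Algebra K L]
    {A B : IntermediateField K L} (h : A ≤ B) :
    finrankAlong K (IntermediateField.inclusion h) = IntermediateField.relfinrank A B := by
  rw [IntermediateField.relfinrank_eq_finrank_of_le h]
  letI := algebraAlong (IntermediateField.inclusion h)
  show Module.finrank ↥A ↥B = Module.finrank ↥A ↥(IntermediateField.extendScalars h)
  let e : ↥B ≃ₗ[↥A] ↥(IntermediateField.extendScalars h) :=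
    { toFun := fun x => ⟨x.1, x.2⟩
      invFun := fun x => ⟨x.1, x.2⟩
      map_add' := fun _ _ => rfl
      map_smul' := fun _ _ => rfl
      left_inv := fun _ => rfl
      right_inv := fun _ => rfl }
  exact e.finrank_eq

end Abstract

/-! ### the Igusa component over `k(Z)` -/

section Modular

variable (M₀ q : ℕ)

/-- the inclusion `k(Z) → k(Z)(θ j̄)` is integral. -/
theorem edv_isIntegral (hq : q.Prime) (k : Type) [Field k] [CharP k q] :
    (IntermediateField.inclusion (fullC_le_igField k M₀)).toRingHom.IsIntegral := by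
  obtain ⟨y, t, -, -, -, -, -, hφ⟩ := igram_setup M₀ q hq k
  exact hφ

/-- the inclusion `k(Z) → k(Z)(θ j̄)` is finite. -/
theorem edv_finiteAlong (hq : q.Prime) (k : Type) [Field k] [CharP k q] :
    FiniteAlong k (IntermediateField.inclusion (fullC_le_igField k M₀)) := by
  obtain ⟨y, t, -, -, -, -, hgen, -⟩ := igram_setup M₀ q hq k
  exact igram_finiteAlong _ y (midDeg q) hgen

/-- **the scalar tower** `k → k(Z) → k(Z)(θ j̄)`, for any algebra structure whose `algebraMap`
is the inclusion. -/
theorem edv_isScalarTower (k : Type) [Field k]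
    [Algebra ↥(modularFunctionFieldFullC k M₀) ↥(igField k M₀)]
    (hinc : ∀ x : ↥(modularFunctionFieldFullC k M₀),
      algebraMap ↥(modularFunctionFieldFullC k M₀) ↥(igField k M₀) x =
        IntermediateField.inclusion (fullC_le_igField k M₀) x) :
    IsScalarTower k ↥(modularFunctionFieldFullC k M₀) ↥(igField k M₀) :=
  edv_isScalarTower_of _ hinc

/-- **`k(Z)(θ j̄)` is finite over `k(Z)`**, for any algebra structure whose `algebraMap` is the
inclusion. -/
theorem edv_finiteDimensional (hq : q.Prime) (k : Type) [Field k] [CharP k q]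
    [Algebra ↥(modularFunctionFieldFullC k M₀) ↥(igField k M₀)]
    (hinc : ∀ x : ↥(modularFunctionFieldFullC k M₀),
      algebraMap ↥(modularFunctionFieldFullC k M₀) ↥(igField k M₀) x =
        IntermediateField.inclusion (fullC_le_igField k M₀) x) :
    FiniteDimensional ↥(modularFunctionFieldFullC k M₀) ↥(igField k M₀) :=
  edv_finite_of_along _ hinc (edv_finiteAlong M₀ q hq k)

variable {M₀ q}

/-- **(VERT), `hres`, `Along` form**: a place `Q` of `k(Z)(θ j̄)` over `P` restricts to `P`. -/
theorem edv_restrictAlong (hq : q.Prime) (k : Type) [Field k] [CharP k q]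
    (P : Place k ↥(modularFunctionFieldFullC k M₀)) (Q : Place k ↥(igField k M₀))
    (hQ : ∀ x : ↥(modularFunctionFieldFullC k M₀), 0 < P.ord x →
      0 < Q.ord (IntermediateField.inclusion (fullC_le_igField k M₀) x)) :
    Q.restrictAlong (IntermediateField.inclusion (fullC_le_igField k M₀))
      (edv_isIntegral M₀ q hq k) = P :=
  edv_restrictAlong_eq _ _ P Q hQ

/-- **(VERT), `hres`**: a place `Q` of `k(Z)(θ j̄)` over `P` restricts to `P`. -/
theorem edv_restrict (hq : q.Prime) (k : Type) [Field k] [CharP k q]
    [Algebra ↥(modularFunctionFieldFullC k M₀) ↥(igField k M₀)]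
    [IsScalarTower k ↥(modularFunctionFieldFullC k M₀) ↥(igField k M₀)]
    [Algebra.IsIntegral ↥(modularFunctionFieldFullC k M₀) ↥(igField k M₀)]
    (hinc : ∀ x : ↥(modularFunctionFieldFullC k M₀),
      algebraMap ↥(modularFunctionFieldFullC k M₀) ↥(igField k M₀) x =
        IntermediateField.inclusion (fullC_le_igField k M₀) x)
    (P : Place k ↥(modularFunctionFieldFullC k M₀)) (Q : Place k ↥(igField k M₀))
    (hQ : ∀ x : ↥(modularFunctionFieldFullC k M₀), 0 < P.ord x →
      0 < Q.ord (IntermediateField.inclusion (fullC_le_igField k M₀) x)) :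
    Q.restrict ↥(modularFunctionFieldFullC k M₀) = P := by
  rw [edv_restrict_eq_restrictAlong _ (edv_isIntegral M₀ q hq k) hinc Q]
  exact edv_restrictAlong hq k P Q hQ

/-- the converse: a place which restricts to `P` is over `P`. -/
theorem edv_over_of_restrict (k : Type) [Field k]
    [Algebra ↥(modularFunctionFieldFullC k M₀) ↥(igField k M₀)]
    [IsScalarTower k ↥(modularFunctionFieldFullC k M₀) ↥(igField k M₀)]
    [Algebra.IsIntegral ↥(modularFunctionFieldFullC k M₀) ↥(igField k M₀)]
    (hinc : ∀ x : ↥(modularFunctionFieldFullC k M₀),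
      algebraMap ↥(modularFunctionFieldFullC k M₀) ↥(igField k M₀) x =
        IntermediateField.inclusion (fullC_le_igField k M₀) x)
    (P : Place k ↥(modularFunctionFieldFullC k M₀)) (Q : Place k ↥(igField k M₀))
    (hres : Q.restrict ↥(modularFunctionFieldFullC k M₀) = P)
    (x : ↥(modularFunctionFieldFullC k M₀)) (hx : 0 < P.ord x) :
    0 < Q.ord (IntermediateField.inclusion (fullC_le_igField k M₀) x) := by
  rw [← hinc, Q.ord_restrict x, hres]
  have he : (0 : ℤ) < (Q.ramificationIndex ↥(modularFunctionFieldFullC k M₀) : ℤ) := by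
    exact_mod_cast Q.ramificationIndex_pos
  exact mul_pos he hx

/-- **(VERT), `he`, `Along` form**: `e(Q | P) = midDeg q` at a supersingular place `P` with
`ord_P ssFun = 12`. -/
theorem edv_ramificationIndexAlong (hq : q.Prime) (hqM : ¬ q ∣ M₀) (k : Type) [Field k]
    [IsAlgClosed k] [CharP k q] (P : Place k ↥(modularFunctionFieldFullC k M₀))
    (hSS : IsSSPlace k M₀ q P)
    (hno : ∀ u : ↥(modularFunctionFieldFullC k M₀), (u : LaurentSeries k) = ssFun k q →
      P.ord u = 12)
    (Q : Place k ↥(igField k M₀))
    (hQ : ∀ x : ↥(modularFunctionFieldFullC k M₀), 0 < P.ord x →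
      0 < Q.ord (IntermediateField.inclusion (fullC_le_igField k M₀) x)) :
    Q.ramificationIndexAlong (IntermediateField.inclusion (fullC_le_igField k M₀)) =
      midDeg q := by
  obtain ⟨π, hπ⟩ := IsDiscreteValuationRing.exists_irreducible P.toValuationSubring
  have hπ1 : P.ord (π : ↥(modularFunctionFieldFullC k M₀)) = 1 := P.ord_coe_irreducible hπ
  have h1 := igram_ord_incl M₀ q hq hqM k P hSS hno Q hQ (π : ↥(modularFunctionFieldFullC k M₀))
  have h2 := Place.ord_restrictAlong (IntermediateField.inclusion (fullC_le_igField k M₀))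
    (edv_isIntegral M₀ q hq k) Q (π : ↥(modularFunctionFieldFullC k M₀))
  rw [edv_restrictAlong hq k P Q hQ, hπ1, mul_one] at h2
  rw [hπ1, mul_one, h2] at h1
  exact_mod_cast h1

/-- **(VERT), `he`**: `e(Q | P) = midDeg q` at a supersingular place `P` with
`ord_P ssFun = 12`. -/
theorem edv_ramificationIndex (hq : q.Prime) (hqM : ¬ q ∣ M₀) (k : Type) [Field k]
    [IsAlgClosed k] [CharP k q]
    [Algebra ↥(modularFunctionFieldFullC k M₀) ↥(igField k M₀)]
    (hinc : ∀ x : ↥(modularFunctionFieldFullC k M₀),
      algebraMap ↥(modularFunctionFieldFullC k M₀) ↥(igField k M₀) x =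
        IntermediateField.inclusion (fullC_le_igField k M₀) x)
    (P : Place k ↥(modularFunctionFieldFullC k M₀))
    (hSS : IsSSPlace k M₀ q P)
    (hno : ∀ u : ↥(modularFunctionFieldFullC k M₀), (u : LaurentSeries k) = ssFun k q →
      P.ord u = 12)
    (Q : Place k ↥(igField k M₀))
    (hQ : ∀ x : ↥(modularFunctionFieldFullC k M₀), 0 < P.ord x →
      0 < Q.ord (IntermediateField.inclusion (fullC_le_igField k M₀) x)) :
    Q.ramificationIndex ↥(modularFunctionFieldFullC k M₀) = midDeg q := by
  rw [edv_ramificationIndex_eq_along _ hinc Q]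
  exact edv_ramificationIndexAlong hq hqM k P hSS hno Q hQ

/-- **(VERT), `hdeg`, `Along` form**: `[k(Z)(θ j̄) : k(Z)] = midDeg q`. -/
theorem edv_finrankAlong (k : Type) [Field k]
    (hdeg : IntermediateField.relfinrank (modularFunctionFieldFullC k M₀) (igField k M₀) =
      midDeg q) :
    finrankAlong k (IntermediateField.inclusion (fullC_le_igField k M₀)) = midDeg q := by
  rw [edv_finrankAlong_inclusion, hdeg]

/-- **(VERT), `hdeg`**: `[k(Z)(θ j̄) : k(Z)] = midDeg q`. -/
theorem edv_finrank (k : Type) [Field k]
    [Algebra ↥(modularFunctionFieldFullC k M₀) ↥(igField k M₀)]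
    (hinc : ∀ x : ↥(modularFunctionFieldFullC k M₀),
      algebraMap ↥(modularFunctionFieldFullC k M₀) ↥(igField k M₀) x =
        IntermediateField.inclusion (fullC_le_igField k M₀) x)
    (hdeg : IntermediateField.relfinrank (modularFunctionFieldFullC k M₀) (igField k M₀) =
      midDeg q) :
    Module.finrank ↥(modularFunctionFieldFullC k M₀) ↥(igField k M₀) = midDeg q := by
  rw [edv_finrank_eq_along _ hinc]
  exact edv_finrankAlong k hdeg

/-- **(VERT), `hdeg`** from (RR) and one supersingular place with `ord_P ssFun = 12`. -/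
theorem edv_finrank_of_place (hq : q.Prime) (hqM : ¬ q ∣ M₀) (k : Type) [Field k]
    [IsAlgClosed k] [CharP k q]
    [Algebra ↥(modularFunctionFieldFullC k M₀) ↥(igField k M₀)]
    (hinc : ∀ x : ↥(modularFunctionFieldFullC k M₀),
      algebraMap ↥(modularFunctionFieldFullC k M₀) ↥(igField k M₀) x =
        IntermediateField.inclusion (fullC_le_igField k M₀) x)
    (hRR : IsRRField k ↥(igField k M₀))
    (P : Place k ↥(modularFunctionFieldFullC k M₀)) (hSS : IsSSPlace k M₀ q P)
    (hno : ∀ u : ↥(modularFunctionFieldFullC k M₀), (u : LaurentSeries k) = ssFun k q →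
      P.ord u = 12) :
    Module.finrank ↥(modularFunctionFieldFullC k M₀) ↥(igField k M₀) = midDeg q :=
  edv_finrank k hinc (igDegree_core M₀ q hq hqM k hRR P hSS hno)

/-! ### the branch `igPv P` -/

/-- **`hres` for `igPv`**. -/
theorem edv_igPv_restrict (hq : q.Prime) (hqM : ¬ q ∣ M₀) (k : Type) [Field k]
    [IsAlgClosed k] [CharP k q]
    [Algebra ↥(modularFunctionFieldFullC k M₀) ↥(igField k M₀)]
    [IsScalarTower k ↥(modularFunctionFieldFullC k M₀) ↥(igField k M₀)]
    [Algebra.IsIntegral ↥(modularFunctionFieldFullC k M₀) ↥(igField k M₀)]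
    (hinc : ∀ x : ↥(modularFunctionFieldFullC k M₀),
      algebraMap ↥(modularFunctionFieldFullC k M₀) ↥(igField k M₀) x =
        IntermediateField.inclusion (fullC_le_igField k M₀) x)
    (hRR : IsRRField k ↥(igField k M₀)) (P : Place k ↥(modularFunctionFieldFullC k M₀)) :
    (igPv M₀ q hq hqM k hRR P).restrict ↥(modularFunctionFieldFullC k M₀) = P :=
  edv_restrict hq k hinc P _ (igPv_over hq hqM k hRR P)

/-- **`he` for `igPv`**. -/
theorem edv_igPv_ramificationIndex (hq : q.Prime) (hqM : ¬ q ∣ M₀) (k : Type) [Field k]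
    [IsAlgClosed k] [CharP k q]
    [Algebra ↥(modularFunctionFieldFullC k M₀) ↥(igField k M₀)]
    (hinc : ∀ x : ↥(modularFunctionFieldFullC k M₀),
      algebraMap ↥(modularFunctionFieldFullC k M₀) ↥(igField k M₀) x =
        IntermediateField.inclusion (fullC_le_igField k M₀) x)
    (hRR : IsRRField k ↥(igField k M₀)) (P : Place k ↥(modularFunctionFieldFullC k M₀))
    (hSS : IsSSPlace k M₀ q P)
    (hno : ∀ u : ↥(modularFunctionFieldFullC k M₀), (u : LaurentSeries k) = ssFun k q →
      P.ord u = 12) :
    (igPv M₀ q hq hqM k hRR P).ramificationIndex ↥(modularFunctionFieldFullC k M₀) =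
      midDeg q :=
  edv_ramificationIndex hq hqM k hinc P hSS hno _ (igPv_over hq hqM k hRR P)

end Modular

end Fermat.Agent.S36G
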