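import Mathlib
import Fermat.Agent.S36.Norm.VertSeen
import Fermat.Agent.S36.Igusa.Asm
import Fermat.Agent.Lib.BadRed.Mod.GaussSetupBad
import Fermat.Agent.S36.G.CocycleF12Mod

set_option autoImplicit false
set_option linter.unusedSectionVars false
set_option linter.style.haveILetI false
set_option linter.unusedVariables false

/-!
# Cluster G (S36), seat NR-OO: the fields `red_oo` of `NormLayer1`, `red_zero` of `NormLayer2`
in NORM form  (helper94)

`q` prime, `q ∤ M₀`, `A ∣ q`, `k` the residue field of `A`, `F = F_{M₀ q q}`, `F₁ = F_{M₀ q}`,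
`α = heckeAlphaBar` (`π₁^*`), `W = wAt D hM` (`w_{q²}`).  `Soo` a Gauss setup of `F`,
`S0 = valSetupZeroAt D hM Soo`, `Sm m` (`m : Mid`, `|Mid| = midCard q`) pairwise different
constant reductions of middle expansions (`IsMidSetup M₀ q A (ε m) (Sm m)`).

* `nrooNm k M₀`     : `nm`, the norm `igField k M₀ →* F_k(M₀)` (algebra structure = inclusion);
* `nroo_satExt`     : `v_∞, (v_m)_m` is a SATURATED system of extensions of the Gauss valuation of
                      `F₁` along `α` (helper90's `SatExt`, index `Option Mid`);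
* `nroo_norm_alpha` : `S₁.red (Norm_α g) = Soo.red g * ∏ m, nm ((Sm m).red g)`;
* `nroo_red_oo`     : `Soo.red (nm1 g) = Soo.red g * ∏ m, nm ((Sm m).red g)`  (`NormLayer1.red_oo`);
* `nroo_red_zero`   : `S0.red (nm2 g) = S0.red g * ∏ m, nm ((Sm m).red g)`   (`NormLayer2.red_zero`);
* `nrooNm_ne_zero`  : `nm_ne_zero`;
* `nroo_finrank`    : `igField k M₀` is finite of degree `midDeg q` over `F_k(M₀)` (for `nrooAlg`);
* `nroo_isScalarTower`, `nroo_algebraMap` : the tower `k → F_k(M₀) → igField k M₀`.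

Only INTEGRALITY of `g` is needed.  Input: `IgPowIndepRes M₀ q` (from `IgDegreeRes`).
-/

noncomputable section

namespace Fermat.Agent.S36G

open ModularCurve AlgebraicCurve Fermat.Agent.F3 Fermat.Agent.F3G Fermat.Agent.GaussInt
  Fermat.Agent.AtkinLehner Fermat.Agent.Kronecker Fermat.Agent.BadRed Fermat.Agent.Deuring
  Fermat.Agent.S36N

local notation "Qb" => AlgebraicClosure ℚ

set_option synthInstance.maxHeartbeats 400000

/-- shortcut (the instance found by unification is the same term, after a slow search). -/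
local instance (priority := 10000) nrooAlgFullC (A : ValuationSubring Qb) (N : ℕ) :
    Algebra (IsLocalRing.ResidueField A)
      (modularFunctionFieldFullC (IsLocalRing.ResidueField A) N) :=
  SubalgebraClass.toAlgebra (modularFunctionFieldFullC (IsLocalRing.ResidueField A) N)

/-- shortcut. -/
local instance (priority := 10000) nrooAlgIg (A : ValuationSubring Qb) (N : ℕ) :
    Algebra (IsLocalRing.ResidueField A) (igField (IsLocalRing.ResidueField A) N) :=
  SubalgebraClass.toAlgebra (igField (IsLocalRing.ResidueField A) N)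

/-! ### the norm `nm` -/

/-- the algebra structure of `igField k M₀` over `F_k(M₀)` given by the inclusion. -/
@[reducible] def nrooAlg (k : Type*) [Field k] (M₀ : ℕ) :
    Algebra ↥(modularFunctionFieldFullC k M₀) ↥(igField k M₀) :=
  (IntermediateField.inclusion (fullC_le_igField k M₀)).toRingHom.toAlgebra

/-- **`nm`**: the norm of the residue field `igField k M₀` of a middle valuation over the residue
field `F_k(M₀)` of `v_∞` (and of `v_0`). -/
def nrooNm (k : Type*) [Field k] (M₀ : ℕ) :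
    ↥(igField k M₀) →* ↥(modularFunctionFieldFullC k M₀) :=
  letI := nrooAlg k M₀
  Algebra.norm ↥(modularFunctionFieldFullC k M₀)

theorem nrooNm_apply (k : Type*) [Field k] (M₀ : ℕ) (x : ↥(igField k M₀)) :
    nrooNm k M₀ x =
      @Algebra.norm ↥(modularFunctionFieldFullC k M₀) ↥(igField k M₀) _ _ (nrooAlg k M₀) x :=
  rfl

/-- **`nm_ne_zero`**. -/
theorem nrooNm_ne_zero (k : Type*) [Field k] (M₀ : ℕ) (x : ↥(igField k M₀)) (hx : x ≠ 0) :
    nrooNm k M₀ x ≠ 0 := by
  letI := nrooAlg k M₀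
  show Algebra.norm ↥(modularFunctionFieldFullC k M₀) x ≠ 0
  by_cases hfin : Module.Finite ↥(modularFunctionFieldFullC k M₀) ↥(igField k M₀)
  · exact Algebra.norm_ne_zero_iff.mpr hx
  · rw [Algebra.norm_eq_one_of_not_module_finite hfin]
    exact one_ne_zero

/-! ### the system `v_∞, (v_m)_m` -/

/-- the residue fields of the system `v_∞, (v_m)_m`. -/
def NrooFk (k : Type) [Field k] (M₀ : ℕ) (Mid : Type) : Option Mid → Type
  | none => ↥(modularFunctionFieldFullC k M₀)
  | some _ => ↥(igField k M₀)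

/-- the residue fields are fields. -/
instance nrooFkField (k : Type) [Field k] (M₀ : ℕ) (Mid : Type) :
    (i : Option Mid) → Field (NrooFk k M₀ Mid i)
  | none => inferInstanceAs (Field ↥(modularFunctionFieldFullC k M₀))
  | some _ => inferInstanceAs (Field ↥(igField k M₀))

/-- the residue fields are algebras over `F_k(M₀)`. -/
instance nrooFkAlg (k : Type) [Field k] (M₀ : ℕ) (Mid : Type) :
    (i : Option Mid) → Algebra ↥(modularFunctionFieldFullC k M₀) (NrooFk k M₀ Mid i)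
  | none => Algebra.id ↥(modularFunctionFieldFullC k M₀)
  | some _ => nrooAlg k M₀

section System

variable {M₀ q : ℕ} [NeZero M₀] [NeZero q] {A : ValuationSubring Qb} {Mid : Type}

/-- the valuation rings of the system. -/
def nrooO
    (Soo : ValSetup Qb (FBar (M₀ * q * q)) (IsLocalRing.ResidueField A)
      (modularFunctionFieldFullC (IsLocalRing.ResidueField A) M₀))
    (Sm : Mid → ValSetup Qb (FBar (M₀ * q * q)) (IsLocalRing.ResidueField A)
      (igField (IsLocalRing.ResidueField A) M₀)) :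
    Option Mid → ValuationSubring (FBar (M₀ * q * q))
  | none => Soo.Ov
  | some m => (Sm m).Ov

/-- the residue maps of the system. -/
def nrooRho
    (Soo : ValSetup Qb (FBar (M₀ * q * q)) (IsLocalRing.ResidueField A)
      (modularFunctionFieldFullC (IsLocalRing.ResidueField A) M₀))
    (Sm : Mid → ValSetup Qb (FBar (M₀ * q * q)) (IsLocalRing.ResidueField A)
      (igField (IsLocalRing.ResidueField A) M₀)) :
    (i : Option Mid) → ↥(nrooO Soo Sm i) →+* NrooFk (IsLocalRing.ResidueField A) M₀ Mid i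
  | none => Soo.ρ
  | some m => (Sm m).ρ

/-- the residue degrees. -/
def nrooD (q : ℕ) (Mid : Type) : Option Mid → ℕ
  | none => 1
  | some _ => midDeg q

/-- the residually independent families. -/
def nrooX (M₀ q : ℕ) [NeZero M₀] [NeZero q] (z : Mid → Qbˣ) :
    (i : Option Mid) → Fin (nrooD q Mid i) → FBar (M₀ * q * q)
  | none => fun _ => 1
  | some m => fun l => distGen M₀ q ((z m : Qbˣ) : Qb) ^ (l : ℕ)

end System

/-! ### valuation rings -/

section Rings

variable {M₀ q : ℕ} [NeZero M₀] [NeZero q] {A : ValuationSubring Qb}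
  (hq : q.Prime) (hA : A.LiesOverPrime q)

include hq hA in
/-- the valuation ring of a Gauss setup is the Gauss valuation ring. -/
theorem nroo_Ov_eq_gaussOv {M N₀ : ℕ} [NeZero M] [NeZero N₀]
    (S : ValSetup Qb (FBar M) (IsLocalRing.ResidueField A)
      (modularFunctionFieldFullC (IsLocalRing.ResidueField A) N₀))
    (hS : IsGaussSetup M N₀ A S) : S.Ov = gaussOv M hq A hA := by
  apply SetLike.ext
  intro f
  rw [hS.mem_iff]
  exact (mem_gaussValSub_iff _ f).symm

/-- the valuation ring of a middle setup is the valuation ring of the expansion. -/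
theorem nroo_Ov_eq_expVal
    {ε : FBar (M₀ * q * q) →ₐ[Qb] LaurentSeries Qb}
    (S : ValSetup Qb (FBar (M₀ * q * q)) (IsLocalRing.ResidueField A)
      (igField (IsLocalRing.ResidueField A) M₀))
    (hS : IsMidSetup M₀ q A ε S)
    (hV : ∀ f : FBar (M₀ * q * q), f ∈ expOv ε A ∨ f⁻¹ ∈ expOv ε A) : S.Ov = expVal hV := by
  apply SetLike.ext
  intro f
  rw [hS.mem_iff]
  exact (mem_expVal_iff hV f).symm

end Rings

/-! ### the saturated system -/

section Sat

variable {M₀ q : ℕ} [NeZero M₀] [NeZero q] {A : ValuationSubring Qb}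
  (hq : q.Prime) (hqM : ¬ q ∣ M₀) (hA : A.LiesOverPrime q)
  {Mid : Type} [Fintype Mid]
  (z : Mid → Qbˣ) (hz : ∀ m, IsPrimitiveRoot (z m) q)
  (ε : Mid → (FBar (M₀ * q * q) →ₐ[Qb] LaurentSeries Qb))
  (hε : ∀ m, IsMidExp M₀ q (z m) (ε m))
  (Soo : ValSetup Qb (FBar (M₀ * q * q)) (IsLocalRing.ResidueField A)
    (modularFunctionFieldFullC (IsLocalRing.ResidueField A) M₀))
  (hSoo : IsGaussSetup (M₀ * q * q) M₀ A Soo)
  (Sm : Mid → ValSetup Qb (FBar (M₀ * q * q)) (IsLocalRing.ResidueField A)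
    (igField (IsLocalRing.ResidueField A) M₀))
  (hSm : ∀ m, IsMidSetup M₀ q A (ε m) (Sm m))
  (S₁ : ValSetup Qb (FBar (M₀ * q)) (IsLocalRing.ResidueField A)
    (modularFunctionFieldFullC (IsLocalRing.ResidueField A) M₀))
  (hS₁ : IsGaussSetup (M₀ * q) M₀ A S₁)

omit [NeZero M₀] [NeZero q] [Fintype Mid] in
/-- `1 + |Mid| · midDeg q = q`. -/
theorem nroo_count [Fintype Mid] (hq : q.Prime) (hcard : Fintype.card Mid = midCard q) :
    1 + Fintype.card Mid * midDeg q = q := by
  rw [hcard]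
  by_cases hq2 : q = 2
  · subst hq2
    simp [midCard, midDeg]
  · rw [dist_midDeg_eq_of_ne_two hq hq2]
    unfold midCard
    rw [if_neg hq2]
    rcases hq.eq_two_or_odd with h | h
    · exact absurd h hq2
    · omega

include hq hqM hA hz hε hSoo hSm hS₁ in
/-- **the saturated system** `v_∞, (v_m)_m` over the Gauss valuation of `F₁`. -/
theorem nroo_satExt (hPow : IgPowIndepRes M₀ q) (hcard : Fintype.card Mid = midCard q)
    (hne : ∀ m m', m ≠ m' → ¬ (Sm m).Ov ≤ (Sm m').Ov) :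
    @SatExt _ _ _ _ (algebraAlong (heckeAlphaBar Qb (M₀ * q) q)) (Option Mid) _
      S₁.Ov (nrooO Soo Sm) (nrooD q Mid) (nrooX M₀ q z) := by
  letI := algebraAlong (heckeAlphaBar Qb (M₀ * q) q)
  have hV := fun m => igValRing M₀ q hq hqM A hA (z m) (ε m) (hz m) (hε m)
  have e1 : S₁.Ov = gaussOv (M₀ * q) hq A hA := nroo_Ov_eq_gaussOv hq hA S₁ hS₁
  have eoo : Soo.Ov = gaussOv (M₀ * q * q) hq A hA := nroo_Ov_eq_gaussOv hq hA Soo hSoo
  have em : ∀ m, (Sm m).Ov = expVal (hV m) := fun m => nroo_Ov_eq_expVal (Sm m) (hSm m) (hV m)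
  have h1 : LiesOverV S₁.Ov Soo.Ov := by
    rw [e1, eoo]
    exact liesOverV_gaussOv (N := M₀ * q) (ℓ := q) hq A hA
  have h2 : ∀ m, LiesOverV S₁.Ov (Sm m).Ov := fun m => by
    rw [e1, em m]
    exact igLiesMid M₀ q hq A hA (z m) (ε m) (hε m) (hV m)
  have h12 : ∀ m, Soo.Ov ≠ (Sm m).Ov := fun m => by
    rw [eoo, em m]
    exact ig_gaussOv_ne_expVal hq A hA hqM (hz m) (hε m) (hV m)
  refine
    { finite := (igDegF M₀ q hq hqM).1
      liesOver := ?_
      inj := ?_
      infinite := ?_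
      indep := ?_
      sum_eq := ?_ }
  · rintro (_ | m)
    · exact h1
    · exact h2 m
  · rintro (_ | m) (_ | m') h
    · rfl
    · exact absurd h (h12 m')
    · exact absurd h.symm (h12 m)
    · by_contra hmm
      exact hne m m' (fun e => hmm (congrArg some e)) (le_of_eq h)
  · obtain ⟨c, hc, hcu⟩ := exists_constants (N := M₀ * q) hq A hA
    rw [e1]
    exact ⟨c, hc, hcu⟩
  · rintro (_ | m)
    · exact resIndep_one h1
    · have h := ig_resIndep_pow hq A hA hqM hPow (hz m) (hε m) (hV m)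
      show ResIndep S₁.Ov (Sm m).Ov (fun l : Fin (midDeg q) => distGen M₀ q (z m : Qb) ^ (l : ℕ))
      rw [e1, em m]
      exact h
  · rw [(igDegF M₀ q hq hqM).2, Fintype.sum_option]
    show 1 + ∑ _m : Mid, midDeg q = q
    rw [Finset.sum_const, Finset.card_univ, smul_eq_mul]
    exact nroo_count hq hcard

include hq hA hε hSoo hSm hS₁ in
/-- **the residue maps** of the system. -/
theorem nroo_satRes :
    @SatRes _ _ _ _ (algebraAlong (heckeAlphaBar Qb (M₀ * q) q)) (Option Mid)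
      ↥(modularFunctionFieldFullC (IsLocalRing.ResidueField A) M₀) _
      (NrooFk (IsLocalRing.ResidueField A) M₀ Mid) _ _
      S₁.Ov (nrooO Soo Sm) S₁.ρ (nrooRho Soo Sm) := by
  letI := algebraAlong (heckeAlphaBar Qb (M₀ * q) q)
  refine
    { surjE := S₁.ρ_surj
      surjF := ?_
      kerE := fun y hy => (S₁.ρ_eq_zero_iff y).mpr hy
      kerF := ?_
      red_map := ?_ }
  · rintro (_ | m)
    · exact Soo.ρ_surj
    · exact (Sm m).ρ_surj
  · rintro (_ | m) y hy
    · exact (Soo.ρ_eq_zero_iff y).mpr hy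
    · exact ((Sm m).ρ_eq_zero_iff y).mpr hy
  · rintro (_ | m) y hy hy'
    · have h := (seen_alpha_inf Soo hSoo S₁ hS₁ hy).2
      rw [S₁.red_of_mem hy] at h
      have hy'' : heckeAlphaBar Qb (M₀ * q) q y ∈ Soo.Ov := hy'
      rw [Soo.red_of_mem hy''] at h
      exact h
    · have h := (seen_alpha_mid_one hq hA S₁ hS₁ (hε m) (hSm m) hy).2
      rw [S₁.red_of_mem hy] at h
      have hy'' : heckeAlphaBar Qb (M₀ * q) q y ∈ (Sm m).Ov := hy'
      rw [(Sm m).red_of_mem hy''] at h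
      exact h

include hq hqM hA hz hε hSoo hSm hS₁ in
/-- **(N2), norm form**: `S₁.red (Norm_α g) = Soo.red g * ∏ m, nm ((Sm m).red g)`. -/
theorem nroo_norm_alpha (hPow : IgPowIndepRes M₀ q) (hcard : Fintype.card Mid = midCard q)
    (hne : ∀ m m', m ≠ m' → ¬ (Sm m).Ov ≤ (Sm m').Ov)
    {g : FBar (M₀ * q * q)} (hg : g ∈ Soo.Ov) (hgm : ∀ m, g ∈ (Sm m).Ov) :
    normAlong (heckeAlphaBar Qb (M₀ * q) q) g ∈ S₁.Ov ∧
      S₁.red (normAlong (heckeAlphaBar Qb (M₀ * q) q) g) =
        Soo.red g * ∏ m, nrooNm (IsLocalRing.ResidueField A) M₀ ((Sm m).red g) := by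
  letI := algebraAlong (heckeAlphaBar Qb (M₀ * q) q)
  have T := nroo_satExt hq hqM hA z hz ε hε Soo hSoo Sm hSm S₁ hS₁ hPow hcard hne
  have R := nroo_satRes hq hA z ε hε Soo hSoo Sm hSm S₁ hS₁
  have ht : ∀ i : Option Mid, g ∈ nrooO Soo Sm i := by
    rintro (_ | m)
    · exact hg
    · exact hgm m
  obtain ⟨h, hr⟩ := T.normRed R g ht
  have h' : normAlong (heckeAlphaBar Qb (M₀ * q) q) g ∈ S₁.Ov := h
  refine ⟨h', ?_⟩
  rw [S₁.red_of_mem h']
  refine hr.trans ?_
  rw [Fintype.prod_option]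
  congr 1
  · rw [Soo.red_of_mem hg]
    show Algebra.norm ↥(modularFunctionFieldFullC (IsLocalRing.ResidueField A) M₀)
      (Soo.ρ ⟨g, hg⟩) = Soo.ρ ⟨g, hg⟩
    rw [Algebra.norm_self]
    rfl
  · refine Finset.prod_congr rfl fun m _ => ?_
    rw [(Sm m).red_of_mem (hgm m)]
    rfl

include hq hqM hA hz hε hSoo hSm in
/-- **`NormLayer1.red_oo`**: `Soo.red (nm1 g) = Soo.red g * ∏ m, nm ((Sm m).red g)`. -/
theorem nroo_red_oo (hPow : IgPowIndepRes M₀ q) (hcard : Fintype.card Mid = midCard q)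
    (hne : ∀ m m', m ≠ m' → ¬ (Sm m).Ov ≤ (Sm m').Ov)
    {g : FBar (M₀ * q * q)} (hg : g ∈ Soo.Ov) (hgm : ∀ m, g ∈ (Sm m).Ov) :
    nm1 (M₀ * q) q g ∈ Soo.Ov ∧
      Soo.red (nm1 (M₀ * q) q g) =
        Soo.red g * ∏ m, nrooNm (IsLocalRing.ResidueField A) M₀ ((Sm m).red g) := by
  obtain ⟨S₁, hS₁, -⟩ := exists_isGaussSetup_bad hq hqM A hA (M₀ * q) rfl
    (modFactsAt M₀ q hq hqM A hA)
  obtain ⟨h1, h2⟩ := nroo_norm_alpha hq hqM hA z hz ε hε Soo hSoo Sm hSm S₁ hS₁ hPow hcard hne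
    hg hgm
  obtain ⟨h3, h4⟩ := seen_alpha_inf Soo hSoo S₁ hS₁ h1
  exact ⟨h3, h4.trans h2⟩

include hq hqM hA hz hε hSoo hSm in
/-- the residue degree of a middle valuation: `[igField k M₀ : F_k(M₀)] = midDeg q` (for the
algebra structure `nrooAlg`), and the extension is finite. -/
theorem nroo_finrank (hPow : IgPowIndepRes M₀ q) (hcard : Fintype.card Mid = midCard q)
    (hne : ∀ m m', m ≠ m' → ¬ (Sm m).Ov ≤ (Sm m').Ov) (m : Mid) :
    @Module.Finite ↥(modularFunctionFieldFullC (IsLocalRing.ResidueField A) M₀)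
        ↥(igField (IsLocalRing.ResidueField A) M₀) _ _
        (nrooAlg (IsLocalRing.ResidueField A) M₀).toModule ∧
      @Module.finrank ↥(modularFunctionFieldFullC (IsLocalRing.ResidueField A) M₀)
        ↥(igField (IsLocalRing.ResidueField A) M₀) _ _
        (nrooAlg (IsLocalRing.ResidueField A) M₀).toModule = midDeg q := by
  obtain ⟨S₁, hS₁, -⟩ := exists_isGaussSetup_bad hq hqM A hA (M₀ * q) rfl
    (modFactsAt M₀ q hq hqM A hA)
  letI := algebraAlong (heckeAlphaBar Qb (M₀ * q) q)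
  have T := nroo_satExt hq hqM hA z hz ε hε Soo hSoo Sm hSm S₁ hS₁ hPow hcard hne
  have R := nroo_satRes hq hA z ε hε Soo hSoo Sm hSm S₁ hS₁
  exact ⟨T.finite_res R (some m), T.finrank_res R (some m)⟩

end Sat

/-- `k → F_k(M₀) → igField k M₀` is a tower (for the algebra structure `nrooAlg`). -/
theorem nroo_isScalarTower (A : ValuationSubring Qb) (M₀ : ℕ) :
    @IsScalarTower (IsLocalRing.ResidueField A)
      ↥(modularFunctionFieldFullC (IsLocalRing.ResidueField A) M₀)
      ↥(igField (IsLocalRing.ResidueField A) M₀) _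
      (nrooAlg (IsLocalRing.ResidueField A) M₀).toSMul _ := by
  letI := nrooAlg (IsLocalRing.ResidueField A) M₀
  exact IsScalarTower.of_algebraMap_eq fun x => rfl

/-- `algebraMap` of `nrooAlg` is the inclusion. -/
theorem nroo_algebraMap (k : Type*) [Field k] (M₀ : ℕ) (y : ↥(modularFunctionFieldFullC k M₀)) :
    @algebraMap ↥(modularFunctionFieldFullC k M₀) ↥(igField k M₀) _ _ (nrooAlg k M₀) y =
      IntermediateField.inclusion (fullC_le_igField k M₀) y :=
  rfl

/-! ### `π₂` -/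

section Zero

variable {M₀ q : ℕ} [NeZero M₀] [NeZero q] {A : ValuationSubring Qb}
  (hq : q.Prime) (hqM : ¬ q ∣ M₀) (hA : A.LiesOverPrime q)
  (D : ALData) (hM : M₀ * q * q = D.Q * D.R) (hQ : D.Q = q ^ 2)

omit [NeZero M₀] [NeZero q] in
/-- the residue map of the constants of a transported constant reduction (abstract `w`: the
kernel must never unfold `wAt`). -/
theorem nroo_comapEquiv_res_eq {K F k Fk : Type*} [Field K] [Field F] [Algebra K F] [Field k]
    [Field Fk] [Algebra k Fk] (S : ValSetup K F k Fk) (w : F ≃ₐ[K] F) (B : ValuationSubring K)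
    (r : B →+* k) (hres : ∀ (c : K) (h : c ∈ S.A) (h' : c ∈ B), S.res ⟨c, h⟩ = r ⟨c, h'⟩)
    (c : K) (h : c ∈ (comapEquiv S w).A) (h' : c ∈ B) :
    (comapEquiv S w).res ⟨c, h⟩ = r ⟨c, h'⟩ :=
  hres c h h'

include hq hA hQ in
/-- the constant reduction `S ∘ w` of a middle setup at `z` is a middle setup at `z⁻¹`. -/
theorem nroo_isMidSetup_zeroAt {z : Qbˣ} (hz : z ^ q = 1)
    {ε ε' : FBar (M₀ * q * q) →ₐ[Qb] LaurentSeries Qb}
    (hε : IsMidExp M₀ q z ε) (hε' : IsMidExp M₀ q z⁻¹ ε')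
    {S : ValSetup Qb (FBar (M₀ * q * q)) (IsLocalRing.ResidueField A)
      (igField (IsLocalRing.ResidueField A) M₀)}
    (hS : IsMidSetup M₀ q A ε S) : IsMidSetup M₀ q A ε' (valSetupZeroAt D hM S) where
  A_eq := by
    rw [valSetupZeroAt_A]
    exact hS.A_eq
  res_eq := nroo_comapEquiv_res_eq S (wAt D hM) A (IsLocalRing.residue A) hS.res_eq
  mem_iff := fun f => by
    rw [mem_valSetupZeroAt_Ov, hS.mem_iff]
    exact expOv_wAt_iff hq A hA D hM hQ hz hε hε' f
  coe_red := fun f hf => by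
    rw [valSetupZeroAt_red, hS.coe_red _ ((mem_valSetupZeroAt_Ov D hM S f).mp hf)]
    exact expRes_wAt hq A hA D hM hQ hz hε hε' f

variable {Mid : Type} [Fintype Mid]
  (z : Mid → Qbˣ) (hz : ∀ m, IsPrimitiveRoot (z m) q)
  (ε : Mid → (FBar (M₀ * q * q) →ₐ[Qb] LaurentSeries Qb))
  (hε : ∀ m, IsMidExp M₀ q (z m) (ε m))
  (Soo : ValSetup Qb (FBar (M₀ * q * q)) (IsLocalRing.ResidueField A)
    (modularFunctionFieldFullC (IsLocalRing.ResidueField A) M₀))
  (hSoo : IsGaussSetup (M₀ * q * q) M₀ A Soo)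
  (Sm : Mid → ValSetup Qb (FBar (M₀ * q * q)) (IsLocalRing.ResidueField A)
    (igField (IsLocalRing.ResidueField A) M₀))
  (hSm : ∀ m, IsMidSetup M₀ q A (ε m) (Sm m))

include hq hqM hA hQ hz hε hSoo hSm in
/-- **`NormLayer2.red_zero`**: `S0.red (nm2 g) = S0.red g * ∏ m, nm ((Sm m).red g)`. -/
theorem nroo_red_zero (hPow : IgPowIndepRes M₀ q) (hcard : Fintype.card Mid = midCard q)
    (hne : ∀ m m', m ≠ m' → ¬ (Sm m).Ov ≤ (Sm m').Ov)
    {g : FBar (M₀ * q * q)} (hg : g ∈ (valSetupZeroAt D hM Soo).Ov)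
    (hgm : ∀ m, g ∈ (Sm m).Ov) :
    nm2 (M₀ * q) q D hM g ∈ (valSetupZeroAt D hM Soo).Ov ∧
      (valSetupZeroAt D hM Soo).red (nm2 (M₀ * q) q D hM g) =
        (valSetupZeroAt D hM Soo).red g *
          ∏ m, nrooNm (IsLocalRing.ResidueField A) M₀ ((Sm m).red g) := by
  have hex := igMidExpExists M₀ q hq hqM
  choose ε' hε' using fun m => hex (z m)⁻¹ (hz m).inv
  have hSm' : ∀ m, IsMidSetup M₀ q A (ε' m) (valSetupZeroAt D hM (Sm m)) := fun m =>
    nroo_isMidSetup_zeroAt hq hA D hM hQ (hz m).pow_eq_one (hε m) (hε' m) (hSm m)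
  have hne' : ∀ m m', m ≠ m' →
      ¬ (valSetupZeroAt D hM (Sm m)).Ov ≤ (valSetupZeroAt D hM (Sm m')).Ov := by
    intro m m' hmm hle
    apply hne m m' hmm
    intro f hf
    have h1 : wAt D hM f ∈ (valSetupZeroAt D hM (Sm m)).Ov := by
      rw [mem_valSetupZeroAt_Ov, wAt_wAt]
      exact hf
    have h2 := hle h1
    rw [mem_valSetupZeroAt_Ov, wAt_wAt] at h2
    exact h2
  have hwg : wAt D hM g ∈ Soo.Ov := (mem_valSetupZeroAt_Ov D hM Soo g).mp hg
  have hwgm : ∀ m, wAt D hM g ∈ (valSetupZeroAt D hM (Sm m)).Ov := fun m => by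
    rw [mem_valSetupZeroAt_Ov, wAt_wAt]
    exact hgm m
  obtain ⟨k1, k2⟩ := nroo_red_oo hq hqM hA (fun m => (z m)⁻¹) (fun m => (hz m).inv) ε' hε'
    Soo hSoo (fun m => valSetupZeroAt D hM (Sm m)) hSm' hPow hcard hne' hwg hwgm
  refine ⟨?_, ?_⟩
  · rw [nm2_eq_nm1, mem_valSetupZeroAt_Ov, wAt_wAt]
    exact k1
  · rw [nm2_eq_nm1, valSetupZeroAt_red_wAt, k2, valSetupZeroAt_red]
    congr 1
    refine Finset.prod_congr rfl fun m _ => ?_
    rw [valSetupZeroAt_red, wAt_wAt]

end Zero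

end Fermat.Agent.S36G
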