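/-
Cluster G (S36, Carayol at `q² ∥ M`), block COC, seat NL-INST (helper17; statement: helper36).

THE INSTANCE FAMILIES OF `normLayer1_of`, `normLayer2_of` (`S36/G/NormLayerOf.lean`) FOR THE
RESIDUE FIELDS OF THE MODULAR GRAPH
  `Fk = FkOf F_k(M₀) (fun _ => igField k M₀) FkP`:
the middle residue fields `igField k M₀ = k(Z)(θ j̄)` are algebras over the residue field `F_k(M₀)`
of `v_∞` AND of `v_0` by the inclusion (`nrooAlg k M₀`, `S36/G/NrOO.lean`).

* `nliAlgOo`, `nliAlgZero`                         : `∀ m, Algebra (Fk (vert b₀)) (Fk (vert (mid m)))`;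
* `nli_algebraMap_oo`, `nli_algebraMap_zero`       : `algebraMap = inclusion` (`rfl`; the
                                                     hypothesis `hinc` of `edv_*`);
* `nli_isScalarTower_oo`, `nli_isScalarTower_zero` : `∀ m, IsScalarTower k _ _`;
* `nli_finiteDimensional_oo`, `nli_finiteDimensional_zero` : `∀ m, FiniteDimensional _ _`
                                                     (`k` of characteristic `q` prime);
* `nliLayer1`, `nliLayer2` : `normLayer1_of`, `normLayer2_of` with these instances plugged in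
                             (all the other arguments verbatim).
-/
import Mathlib
import Fermat.Agent.S36.G.NrOO
import Fermat.Agent.S36.G.NormLayerOf
import Fermat.Agent.S36.G.EndsDictVert

set_option autoImplicit false
set_option linter.style.haveILetI false
set_option linter.unusedSectionVars false
set_option linter.unusedVariables false
set_option synthInstance.maxHeartbeats 400000
set_option maxHeartbeats 1000000

noncomputable section

open IntermediateField AlgebraicCurve ModularCurve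

namespace Fermat.Agent.S36G

attribute [local instance 10000] SubalgebraClass.toAlgebra HahnSeries.powerSeriesAlgebra

open Fermat.Agent.RR Fermat.Agent.S36 Fermat.Agent.HP Fermat.Agent.Deuring
open Fermat.Agent.BadRed Fermat.Agent.BadRedG

section Inst

variable (k : Type) [Field k] (M₀ : ℕ) {Mid SS : Type}
  (FkP : SS → Type) [∀ P, Field (FkP P)] [∀ P, Algebra k (FkP P)]

/-! ### the algebra structures -/

/-- the algebra structure of the middle residue fields over the residue field of `v_∞`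
(the inclusion `F_k(M₀) ⊆ igField k M₀`). -/
@[reducible] def nliAlgOo (m : Mid) :
    Algebra (FkOf ↥(modularFunctionFieldFullC k M₀) (fun _ : Mid => ↥(igField k M₀)) FkP
        (Vtx.vert Vrt.oo))
      (FkOf ↥(modularFunctionFieldFullC k M₀) (fun _ : Mid => ↥(igField k M₀)) FkP
        (Vtx.vert (Vrt.mid m))) :=
  nrooAlg k M₀

/-- the algebra structure of the middle residue fields over the residue field of `v_0`
(the same inclusion). -/
@[reducible] def nliAlgZero (m : Mid) :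
    Algebra (FkOf ↥(modularFunctionFieldFullC k M₀) (fun _ : Mid => ↥(igField k M₀)) FkP
        (Vtx.vert Vrt.zero))
      (FkOf ↥(modularFunctionFieldFullC k M₀) (fun _ : Mid => ↥(igField k M₀)) FkP
        (Vtx.vert (Vrt.mid m))) :=
  nrooAlg k M₀

/-- `algebraMap` of `nliAlgOo` is the inclusion. -/
theorem nli_algebraMap_oo (m : Mid) (x : ↥(modularFunctionFieldFullC k M₀)) :
    @algebraMap _ _ _ _ (nliAlgOo k M₀ FkP m) x =
      IntermediateField.inclusion (fullC_le_igField k M₀) x :=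
  rfl

/-- `algebraMap` of `nliAlgZero` is the inclusion. -/
theorem nli_algebraMap_zero (m : Mid) (x : ↥(modularFunctionFieldFullC k M₀)) :
    @algebraMap _ _ _ _ (nliAlgZero k M₀ FkP m) x =
      IntermediateField.inclusion (fullC_le_igField k M₀) x :=
  rfl

/-! ### the towers -/

/-- `k → Fk (vert ∞) → Fk (vert (mid m))` is a tower. -/
theorem nli_isScalarTower_oo (m : Mid) :
    letI := nliAlgOo k M₀ FkP m
    IsScalarTower k
      (FkOf ↥(modularFunctionFieldFullC k M₀) (fun _ : Mid => ↥(igField k M₀)) FkP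
        (Vtx.vert Vrt.oo))
      (FkOf ↥(modularFunctionFieldFullC k M₀) (fun _ : Mid => ↥(igField k M₀)) FkP
        (Vtx.vert (Vrt.mid m))) :=
  @edv_isScalarTower M₀ k _ (nrooAlg k M₀) (fun _ => rfl)

/-- `k → Fk (vert 0) → Fk (vert (mid m))` is a tower. -/
theorem nli_isScalarTower_zero (m : Mid) :
    letI := nliAlgZero k M₀ FkP m
    IsScalarTower k
      (FkOf ↥(modularFunctionFieldFullC k M₀) (fun _ : Mid => ↥(igField k M₀)) FkP
        (Vtx.vert Vrt.zero))
      (FkOf ↥(modularFunctionFieldFullC k M₀) (fun _ : Mid => ↥(igField k M₀)) FkP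
        (Vtx.vert (Vrt.mid m))) :=
  @edv_isScalarTower M₀ k _ (nrooAlg k M₀) (fun _ => rfl)

/-! ### finiteness -/

/-- `Fk (vert (mid m))` is finite over `Fk (vert ∞)`. -/
theorem nli_finiteDimensional_oo {q : ℕ} (hq : q.Prime) [CharP k q] (m : Mid) :
    letI := nliAlgOo k M₀ FkP m
    FiniteDimensional
      (FkOf ↥(modularFunctionFieldFullC k M₀) (fun _ : Mid => ↥(igField k M₀)) FkP
        (Vtx.vert Vrt.oo))
      (FkOf ↥(modularFunctionFieldFullC k M₀) (fun _ : Mid => ↥(igField k M₀)) FkP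
        (Vtx.vert (Vrt.mid m))) :=
  @edv_finiteDimensional M₀ q hq k _ _ (nrooAlg k M₀) (fun _ => rfl)

/-- `Fk (vert (mid m))` is finite over `Fk (vert 0)`. -/
theorem nli_finiteDimensional_zero {q : ℕ} (hq : q.Prime) [CharP k q] (m : Mid) :
    letI := nliAlgZero k M₀ FkP m
    FiniteDimensional
      (FkOf ↥(modularFunctionFieldFullC k M₀) (fun _ : Mid => ↥(igField k M₀)) FkP
        (Vtx.vert Vrt.zero))
      (FkOf ↥(modularFunctionFieldFullC k M₀) (fun _ : Mid => ↥(igField k M₀)) FkP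
        (Vtx.vert (Vrt.mid m))) :=
  @edv_finiteDimensional M₀ q hq k _ _ (nrooAlg k M₀) (fun _ => rfl)

end Inst

/-! ### the norm layers with the instances plugged in -/

section Layer

variable {K F : Type} [Field K] [Field F] [Algebra K F] (k : Type) [Field k] (M₀ : ℕ)
  {Mid SS : Type} [Fintype Mid]
  (FkP : SS → Type) [∀ P, Field (FkP P)] [∀ P, Algebra k (FkP P)]
  {q : ℕ} [IsAlgClosed k] [CharP k q]

/-- **`normLayer1_of` for the residue fields of the modular graph**, with the instance families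
`nliAlgOo`, `nli_isScalarTower_oo`, `nli_finiteDimensional_oo`; all other arguments verbatim. -/
def nliLayer1 (hq : q.Prime)
    (N : GraphSetup K F k (Vtx Mid SS) (FkOf ↥(modularFunctionFieldFullC k M₀) (fun _ : Mid => ↥(igField k M₀)) FkP) (Nod Mid SS))
    (hsrc : ∀ i, N.src i = nodSrc i) (htgt : ∀ i, N.tgt i = nodTgt i)
    (hq1 : ((q + 1 : ℕ) : k) ≠ 0) (HP : ∀ P : SS, HPCurve k ((FkOf ↥(modularFunctionFieldFullC k M₀) (fun _ : Mid => ↥(igField k M₀)) FkP) (Vtx.hor P)) q)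
    (n e : ℕ) (Nm : F → F)
    -- (VERT)
    (h0 : IsRRField k ((FkOf ↥(modularFunctionFieldFullC k M₀) (fun _ : Mid => ↥(igField k M₀)) FkP) (Vtx.vert Vrt.oo)))
    (hM : ∀ m, IsRRField k ((FkOf ↥(modularFunctionFieldFullC k M₀) (fun _ : Mid => ↥(igField k M₀)) FkP) (Vtx.vert (Vrt.mid m))))
    (hres : letI := nliAlgOo k M₀ FkP (Mid := Mid)
      haveI := nli_isScalarTower_oo k M₀ FkP (Mid := Mid)
      haveI := nli_finiteDimensional_oo k M₀ FkP hq (Mid := Mid)
      ∀ P m, (nlSrc N hsrc P (Vrt.mid m)).restrict ((FkOf ↥(modularFunctionFieldFullC k M₀) (fun _ : Mid => ↥(igField k M₀)) FkP) (Vtx.vert Vrt.oo)) =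
        nlSrc N hsrc P Vrt.oo)
    (he : letI := nliAlgOo k M₀ FkP (Mid := Mid)
      ∀ P m, (nlSrc N hsrc P (Vrt.mid m)).ramificationIndex ((FkOf ↥(modularFunctionFieldFullC k M₀) (fun _ : Mid => ↥(igField k M₀)) FkP) (Vtx.vert Vrt.oo)) = e)
    (hdeg : letI := nliAlgOo k M₀ FkP (Mid := Mid)
      ∀ m : Mid, Module.finrank ((FkOf ↥(modularFunctionFieldFullC k M₀) (fun _ : Mid => ↥(igField k M₀)) FkP) (Vtx.vert Vrt.oo)) ((FkOf ↥(modularFunctionFieldFullC k M₀) (fun _ : Mid => ↥(igField k M₀)) FkP) (Vtx.vert (Vrt.mid m))) = e)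
    -- (DIV)
    (hI : ∀ P, 0 < (nlTgt N htgt P Vrt.oo).ord (HP P).X2)
    (hZ : ∀ P, 0 < (nlTgt N htgt P Vrt.zero).ord (HP P).X1)
    (hm1 : ∀ P m, (nlTgt N htgt P (Vrt.mid m)).ord (HP P).X1 = -(e : ℤ)) (he0 : 0 < e)
    (hm2 : ∀ P m, ¬ 0 < (nlTgt N htgt P (Vrt.mid m)).ord (HP P).X2)
    (hcover : ∀ P (v : Place k ((FkOf ↥(modularFunctionFieldFullC k M₀) (fun _ : Mid => ↥(igField k M₀)) FkP) (Vtx.hor P))), v.ord (HP P).X1 < 0 →
      ∃ w, v = nlTgt N htgt P w)
    -- (RES)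
    (red_oo : letI := nliAlgOo k M₀ FkP (Mid := Mid)
      ∀ g : F, (∀ c, g ∈ (N.S c).Ov) → (∀ c, (N.S c).red g ≠ 0) →
      (N.S (Vtx.vert Vrt.oo)).red (Nm g) =
        (N.S (Vtx.vert Vrt.oo)).red g *
          ∏ m, Algebra.norm ((FkOf ↥(modularFunctionFieldFullC k M₀) (fun _ : Mid => ↥(igField k M₀)) FkP) (Vtx.vert Vrt.oo)) ((N.S (Vtx.vert (Vrt.mid m))).red g))
    (red_mid : letI := nliAlgOo k M₀ FkP (Mid := Mid)
      ∀ g : F, (∀ c, g ∈ (N.S c).Ov) → (∀ c, (N.S c).red g ≠ 0) → ∀ m,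
      (N.S (Vtx.vert (Vrt.mid m))).red (Nm g) =
        algebraMap ((FkOf ↥(modularFunctionFieldFullC k M₀) (fun _ : Mid => ↥(igField k M₀)) FkP) (Vtx.vert Vrt.oo)) ((FkOf ↥(modularFunctionFieldFullC k M₀) (fun _ : Mid => ↥(igField k M₀)) FkP) (Vtx.vert (Vrt.mid m)))
          ((N.S (Vtx.vert Vrt.oo)).red (Nm g)))
    (red_zero : ∀ g : F, (∀ c, g ∈ (N.S c).Ov) → (∀ c, (N.S c).red g ≠ 0) →
      (N.S (Vtx.vert Vrt.zero)).red (Nm g) = (N.S (Vtx.vert Vrt.zero)).red g ^ q)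
    (red_hor : ∀ g : F, (∀ c, g ∈ (N.S c).Ov) → (∀ c, (N.S c).red g ≠ 0) → ∀ P,
      (N.S (Vtx.hor P)).red (Nm g) =
        algebraMap k⟮(HP P).X1⟯ ((FkOf ↥(modularFunctionFieldFullC k M₀) (fun _ : Mid => ↥(igField k M₀)) FkP) (Vtx.hor P))
          (Algebra.norm k⟮(HP P).X1⟯ ((N.S (Vtx.hor P)).red g))) :
    NormLayer1 N n q e Nm :=
  @normLayer1_of K F k _ _ _ _ Mid SS _ (FkOf ↥(modularFunctionFieldFullC k M₀) (fun _ : Mid => ↥(igField k M₀)) FkP) _ _ N hsrc htgt q _ hq1 HP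
    (nliAlgOo k M₀ FkP) (nli_isScalarTower_oo k M₀ FkP) (nli_finiteDimensional_oo k M₀ FkP hq)
    n e Nm h0 hM hres he hdeg hI hZ hm1 he0 hm2 hcover red_oo red_mid red_zero red_hor

/-- **`normLayer2_of` for the residue fields of the modular graph**, with the instance families
`nliAlgZero`, `nli_isScalarTower_zero`, `nli_finiteDimensional_zero`; all other arguments
verbatim. -/
def nliLayer2 (hq : q.Prime)
    (N : GraphSetup K F k (Vtx Mid SS) (FkOf ↥(modularFunctionFieldFullC k M₀) (fun _ : Mid => ↥(igField k M₀)) FkP) (Nod Mid SS))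
    (hsrc : ∀ i, N.src i = nodSrc i) (htgt : ∀ i, N.tgt i = nodTgt i)
    (hq1 : ((q + 1 : ℕ) : k) ≠ 0) (HP : ∀ P : SS, HPCurve k ((FkOf ↥(modularFunctionFieldFullC k M₀) (fun _ : Mid => ↥(igField k M₀)) FkP) (Vtx.hor P)) q)
    (n e : ℕ) (Nm : F → F)
    -- (VERT)
    (h0 : IsRRField k ((FkOf ↥(modularFunctionFieldFullC k M₀) (fun _ : Mid => ↥(igField k M₀)) FkP) (Vtx.vert Vrt.zero)))
    (hM : ∀ m, IsRRField k ((FkOf ↥(modularFunctionFieldFullC k M₀) (fun _ : Mid => ↥(igField k M₀)) FkP) (Vtx.vert (Vrt.mid m))))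
    (hres : letI := nliAlgZero k M₀ FkP (Mid := Mid)
      haveI := nli_isScalarTower_zero k M₀ FkP (Mid := Mid)
      haveI := nli_finiteDimensional_zero k M₀ FkP hq (Mid := Mid)
      ∀ P m, (nlSrc N hsrc P (Vrt.mid m)).restrict ((FkOf ↥(modularFunctionFieldFullC k M₀) (fun _ : Mid => ↥(igField k M₀)) FkP) (Vtx.vert Vrt.zero)) =
        nlSrc N hsrc P Vrt.zero)
    (he : letI := nliAlgZero k M₀ FkP (Mid := Mid)
      ∀ P m, (nlSrc N hsrc P (Vrt.mid m)).ramificationIndex ((FkOf ↥(modularFunctionFieldFullC k M₀) (fun _ : Mid => ↥(igField k M₀)) FkP) (Vtx.vert Vrt.zero)) = e)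
    (hdeg : letI := nliAlgZero k M₀ FkP (Mid := Mid)
      ∀ m : Mid, Module.finrank ((FkOf ↥(modularFunctionFieldFullC k M₀) (fun _ : Mid => ↥(igField k M₀)) FkP) (Vtx.vert Vrt.zero)) ((FkOf ↥(modularFunctionFieldFullC k M₀) (fun _ : Mid => ↥(igField k M₀)) FkP) (Vtx.vert (Vrt.mid m))) = e)
    -- (DIV)
    (hI : ∀ P, 0 < (nlTgt N htgt P Vrt.oo).ord (HP P).X2)
    (hZ : ∀ P, 0 < (nlTgt N htgt P Vrt.zero).ord (HP P).X1)
    (hm1 : ∀ P m, (nlTgt N htgt P (Vrt.mid m)).ord (HP P).X1 = -(e : ℤ)) (he0 : 0 < e)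
    (hm2 : ∀ P m, ¬ 0 < (nlTgt N htgt P (Vrt.mid m)).ord (HP P).X2)
    (hcover : ∀ P (v : Place k ((FkOf ↥(modularFunctionFieldFullC k M₀) (fun _ : Mid => ↥(igField k M₀)) FkP) (Vtx.hor P))), v.ord (HP P).X1 < 0 →
      ∃ w, v = nlTgt N htgt P w)
    -- (RES)
    (red_zero : letI := nliAlgZero k M₀ FkP (Mid := Mid)
      ∀ g : F, (∀ c, g ∈ (N.S c).Ov) → (∀ c, (N.S c).red g ≠ 0) →
      (N.S (Vtx.vert Vrt.zero)).red (Nm g) =
        (N.S (Vtx.vert Vrt.zero)).red g *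
          ∏ m, Algebra.norm ((FkOf ↥(modularFunctionFieldFullC k M₀) (fun _ : Mid => ↥(igField k M₀)) FkP) (Vtx.vert Vrt.zero)) ((N.S (Vtx.vert (Vrt.mid m))).red g))
    (red_mid : letI := nliAlgZero k M₀ FkP (Mid := Mid)
      ∀ g : F, (∀ c, g ∈ (N.S c).Ov) → (∀ c, (N.S c).red g ≠ 0) → ∀ m,
      (N.S (Vtx.vert (Vrt.mid m))).red (Nm g) =
        algebraMap ((FkOf ↥(modularFunctionFieldFullC k M₀) (fun _ : Mid => ↥(igField k M₀)) FkP) (Vtx.vert Vrt.zero)) ((FkOf ↥(modularFunctionFieldFullC k M₀) (fun _ : Mid => ↥(igField k M₀)) FkP) (Vtx.vert (Vrt.mid m)))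
          ((N.S (Vtx.vert Vrt.zero)).red (Nm g)))
    (red_oo : ∀ g : F, (∀ c, g ∈ (N.S c).Ov) → (∀ c, (N.S c).red g ≠ 0) →
      (N.S (Vtx.vert Vrt.oo)).red (Nm g) = (N.S (Vtx.vert Vrt.oo)).red g ^ q)
    (red_hor : ∀ g : F, (∀ c, g ∈ (N.S c).Ov) → (∀ c, (N.S c).red g ≠ 0) → ∀ P,
      (N.S (Vtx.hor P)).red (Nm g) =
        algebraMap k⟮(HP P).X2⟯ ((FkOf ↥(modularFunctionFieldFullC k M₀) (fun _ : Mid => ↥(igField k M₀)) FkP) (Vtx.hor P))
          (Algebra.norm k⟮(HP P).X2⟯ ((N.S (Vtx.hor P)).red g))) :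
    NormLayer2 N n q e Nm :=
  @normLayer2_of K F k _ _ _ _ Mid SS _ (FkOf ↥(modularFunctionFieldFullC k M₀) (fun _ : Mid => ↥(igField k M₀)) FkP) _ _ N hsrc htgt q _ hq1 HP
    (nliAlgZero k M₀ FkP) (nli_isScalarTower_zero k M₀ FkP)
    (nli_finiteDimensional_zero k M₀ FkP hq)
    n e Nm h0 hM hres he hdeg hI hZ hm1 he0 hm2 hcover red_zero red_mid red_oo red_hor

end Layer

end Fermat.Agent.S36G
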