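/-
Cluster G (S36, Carayol at `q² ∥ M`), block COC, leaf NormLayerVert (helper24; sub-architect
helper36).

**The five (VERT) arguments `h0 hM hres he hdeg` of `normLayer1_of` and `normLayer2_of`**
(`S36/G/NormLayerOf.lean`) for the modular residue fields

    `Fk = FkOf Fk0 (fun _ => FkM) FkP`,   `Fk0 = F_k(M₀)`,   `FkM = igField k M₀`,

`e = midDeg q`, from the dictionary of the branches on the vertical components

    `nlSrc N hsrc P ∞ = pl P`   (resp. `nlSrc N hsrc P 0 = pl P`),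
    `nlSrc N hsrc P (mid m) = igPv (pl P)`,

`pl P` supersingular with `ord_{pl P} ssFun = 12` (`S36/Igusa/RamIndex.lean`,
`S36/G/EndsDictVert.lean`).  The algebra structure of `Fk (mid m)` over `Fk ∞` (resp. `Fk 0`) is
ANY instance whose `algebraMap` is the inclusion (`hinc`; for `nrooAlg k M₀`: `fun _ _ => rfl`).

* `nlv_h0_oo`, `nlv_h0_zero`, `nlv_hM`                 : `h0`, `hM`;
* `nlv_isScalarTower_*`, `nlv_finiteDimensional_*`     : the instances;
* `nlv_hres_oo`, `nlv_he_oo`, `nlv_hdeg_oo`            : `hres`, `he`, `hdeg` of `normLayer1_of`;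
* `nlv_hres_zero`, `nlv_he_zero`, `nlv_hdeg_zero`      : `hres`, `he`, `hdeg` of `normLayer2_of`;
* `nlv_hdeg_oo_of_place`, `nlv_hdeg_zero_of_place`     : `hdeg` from one supersingular place.
-/
import Mathlib
import Fermat.Agent.S36.G.EndsDictVert
import Fermat.Agent.S36.G.NormLayerOf

set_option autoImplicit false
set_option linter.style.haveILetI false
set_option linter.unusedSectionVars false
set_option linter.unusedVariables false
set_option synthInstance.maxHeartbeats 400000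
set_option maxHeartbeats 1000000

noncomputable section

open AlgebraicCurve ModularCurve

namespace Fermat.Agent.S36G

open Fermat.Agent.RR Fermat.Agent.BadRed Fermat.Agent.BadRedG Fermat.Agent.Deuring

attribute [local instance 10000] SubalgebraClass.toAlgebra HahnSeries.powerSeriesAlgebra

variable {K F : Type*} [Field K] [Field F] [Algebra K F]

variable {M₀ q : ℕ} {Mid SS : Type} [Fintype Mid] {k : Type} [Field k]
  {FkP : SS → Type} [∀ P, Field (FkP P)] [∀ P, Algebra k (FkP P)]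

/-- the residue fields of the modular graph: `F_k(M₀)` at `∞` and `0`, the Igusa field
`igField k M₀` at the middle vertices, `FkP P` at the horizontal vertices. -/
abbrev NlvFk (k : Type) [Field k] (M₀ : ℕ) (Mid : Type) {SS : Type} (FkP : SS → Type) :
    Vtx Mid SS → Type :=
  FkOf ↥(modularFunctionFieldFullC k M₀) (fun _ : Mid => ↥(igField k M₀)) FkP

/-! ### `h0`, `hM` -/

/-- **`h0` of `normLayer1_of`.** -/
theorem nlv_h0_oo [NeZero M₀] [IsAlgClosed k] :
    IsRRField k (NlvFk k M₀ Mid FkP (Vtx.vert Vrt.oo)) :=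
  Fermat.Agent.RRMod.isRRField_fullC' k M₀

/-- **`h0` of `normLayer2_of`.** -/
theorem nlv_h0_zero [NeZero M₀] [IsAlgClosed k] :
    IsRRField k (NlvFk k M₀ Mid FkP (Vtx.vert Vrt.zero)) :=
  Fermat.Agent.RRMod.isRRField_fullC' k M₀

/-- **`hM`** (of both layers). -/
theorem nlv_hM (hRR : IsRRField k ↥(igField k M₀)) (m : Mid) :
    IsRRField k (NlvFk k M₀ Mid FkP (Vtx.vert (Vrt.mid m))) :=
  hRR

/-! ### the layer over `∞` (`normLayer1_of`) -/

section OO

variable [inst : ∀ m : Mid, Algebra (NlvFk k M₀ Mid FkP (Vtx.vert Vrt.oo))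
    (NlvFk k M₀ Mid FkP (Vtx.vert (Vrt.mid m)))]

/-- the scalar tower `k → Fk ∞ → Fk (mid m)`. -/
theorem nlv_isScalarTower_oo
    (hinc : ∀ (m : Mid) (x : ↥(modularFunctionFieldFullC k M₀)),
      algebraMap (NlvFk k M₀ Mid FkP (Vtx.vert Vrt.oo))
        (NlvFk k M₀ Mid FkP (Vtx.vert (Vrt.mid m))) x =
        IntermediateField.inclusion (fullC_le_igField k M₀) x) (m : Mid) :
    IsScalarTower k (NlvFk k M₀ Mid FkP (Vtx.vert Vrt.oo))
      (NlvFk k M₀ Mid FkP (Vtx.vert (Vrt.mid m))) :=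
  letI : Algebra ↥(modularFunctionFieldFullC k M₀) ↥(igField k M₀) := inst m
  edv_isScalarTower M₀ k (hinc m)

/-- `Fk (mid m)` is finite over `Fk ∞`. -/
theorem nlv_finiteDimensional_oo [CharP k q] (hq : q.Prime)
    (hinc : ∀ (m : Mid) (x : ↥(modularFunctionFieldFullC k M₀)),
      algebraMap (NlvFk k M₀ Mid FkP (Vtx.vert Vrt.oo))
        (NlvFk k M₀ Mid FkP (Vtx.vert (Vrt.mid m))) x =
        IntermediateField.inclusion (fullC_le_igField k M₀) x) (m : Mid) :
    FiniteDimensional (NlvFk k M₀ Mid FkP (Vtx.vert Vrt.oo))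
      (NlvFk k M₀ Mid FkP (Vtx.vert (Vrt.mid m))) :=
  letI : Algebra ↥(modularFunctionFieldFullC k M₀) ↥(igField k M₀) := inst m
  edv_finiteDimensional M₀ q hq k (hinc m)

/-- **`hdeg` of `normLayer1_of`**: `[Fk (mid m) : Fk ∞] = midDeg q`. -/
theorem nlv_hdeg_oo
    (hinc : ∀ (m : Mid) (x : ↥(modularFunctionFieldFullC k M₀)),
      algebraMap (NlvFk k M₀ Mid FkP (Vtx.vert Vrt.oo))
        (NlvFk k M₀ Mid FkP (Vtx.vert (Vrt.mid m))) x =
        IntermediateField.inclusion (fullC_le_igField k M₀) x)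
    (hd : IntermediateField.relfinrank (modularFunctionFieldFullC k M₀) (igField k M₀) =
      midDeg q) (m : Mid) :
    Module.finrank (NlvFk k M₀ Mid FkP (Vtx.vert Vrt.oo))
      (NlvFk k M₀ Mid FkP (Vtx.vert (Vrt.mid m))) = midDeg q :=
  letI : Algebra ↥(modularFunctionFieldFullC k M₀) ↥(igField k M₀) := inst m
  edv_finrank k (hinc m) hd

variable [IsAlgClosed k] [CharP k q]
  [instT : ∀ m : Mid, IsScalarTower k (NlvFk k M₀ Mid FkP (Vtx.vert Vrt.oo))
    (NlvFk k M₀ Mid FkP (Vtx.vert (Vrt.mid m)))]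
  [instF : ∀ m : Mid, FiniteDimensional (NlvFk k M₀ Mid FkP (Vtx.vert Vrt.oo))
    (NlvFk k M₀ Mid FkP (Vtx.vert (Vrt.mid m)))]
  (N : GraphSetup K F k (Vtx Mid SS) (NlvFk k M₀ Mid FkP) (Nod Mid SS))
  (hsrc : ∀ i, N.src i = nodSrc i)

/-- **`hdeg` of `normLayer1_of`** from one supersingular place with `ord ssFun = 12`. -/
theorem nlv_hdeg_oo_of_place (hq : q.Prime) (hqM : ¬ q ∣ M₀)
    (hinc : ∀ (m : Mid) (x : ↥(modularFunctionFieldFullC k M₀)),
      algebraMap (NlvFk k M₀ Mid FkP (Vtx.vert Vrt.oo))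
        (NlvFk k M₀ Mid FkP (Vtx.vert (Vrt.mid m))) x =
        IntermediateField.inclusion (fullC_le_igField k M₀) x)
    (hRR : IsRRField k ↥(igField k M₀))
    (P₀ : Place k ↥(modularFunctionFieldFullC k M₀)) (hSS : IsSSPlace k M₀ q P₀)
    (hno : ∀ u : ↥(modularFunctionFieldFullC k M₀), (u : LaurentSeries k) = ssFun k q →
      P₀.ord u = 12) (m : Mid) :
    Module.finrank (NlvFk k M₀ Mid FkP (Vtx.vert Vrt.oo))
      (NlvFk k M₀ Mid FkP (Vtx.vert (Vrt.mid m))) = midDeg q :=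
  letI : Algebra ↥(modularFunctionFieldFullC k M₀) ↥(igField k M₀) := inst m
  edv_finrank_of_place hq hqM k (hinc m) hRR P₀ hSS hno

/-- **`hres` of `normLayer1_of`**: the branch on the middle component lies over the branch on
the component `∞`. -/
theorem nlv_hres_oo (hq : q.Prime) (hqM : ¬ q ∣ M₀)
    (hinc : ∀ (m : Mid) (x : ↥(modularFunctionFieldFullC k M₀)),
      algebraMap (NlvFk k M₀ Mid FkP (Vtx.vert Vrt.oo))
        (NlvFk k M₀ Mid FkP (Vtx.vert (Vrt.mid m))) x =
        IntermediateField.inclusion (fullC_le_igField k M₀) x)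
    (hRR : IsRRField k ↥(igField k M₀))
    (pl : SS → Place k ↥(modularFunctionFieldFullC k M₀))
    (hoo : ∀ P, nlSrc N hsrc P Vrt.oo = pl P)
    (hmid : ∀ P m, nlSrc N hsrc P (Vrt.mid m) = igPv M₀ q hq hqM k hRR (pl P)) (P : SS)
    (m : Mid) :
    (nlSrc N hsrc P (Vrt.mid m)).restrict (NlvFk k M₀ Mid FkP (Vtx.vert Vrt.oo)) =
      nlSrc N hsrc P Vrt.oo := by
  letI : Algebra ↥(modularFunctionFieldFullC k M₀) ↥(igField k M₀) := inst m
  haveI : IsScalarTower k ↥(modularFunctionFieldFullC k M₀) ↥(igField k M₀) := instT m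
  haveI hfd : FiniteDimensional ↥(modularFunctionFieldFullC k M₀) ↥(igField k M₀) := instF m
  haveI : Algebra.IsIntegral ↥(modularFunctionFieldFullC k M₀) ↥(igField k M₀) :=
    @Algebra.IsIntegral.of_finite _ _ _ _ _ hfd
  rw [hmid P m, hoo P]
  exact edv_igPv_restrict hq hqM k (hinc m) hRR (pl P)

/-- **`he` of `normLayer1_of`**: the ramification index of the branch on the middle component
over the component `∞` is `midDeg q`. -/
theorem nlv_he_oo (hq : q.Prime) (hqM : ¬ q ∣ M₀)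
    (hinc : ∀ (m : Mid) (x : ↥(modularFunctionFieldFullC k M₀)),
      algebraMap (NlvFk k M₀ Mid FkP (Vtx.vert Vrt.oo))
        (NlvFk k M₀ Mid FkP (Vtx.vert (Vrt.mid m))) x =
        IntermediateField.inclusion (fullC_le_igField k M₀) x)
    (hRR : IsRRField k ↥(igField k M₀))
    (pl : SS → Place k ↥(modularFunctionFieldFullC k M₀))
    (hSS : ∀ P, IsSSPlace k M₀ q (pl P))
    (hno : ∀ P, ∀ u : ↥(modularFunctionFieldFullC k M₀), (u : LaurentSeries k) = ssFun k q →
      (pl P).ord u = 12)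
    (hmid : ∀ P m, nlSrc N hsrc P (Vrt.mid m) = igPv M₀ q hq hqM k hRR (pl P)) (P : SS)
    (m : Mid) :
    (nlSrc N hsrc P (Vrt.mid m)).ramificationIndex
      (NlvFk k M₀ Mid FkP (Vtx.vert Vrt.oo)) = midDeg q := by
  letI : Algebra ↥(modularFunctionFieldFullC k M₀) ↥(igField k M₀) := inst m
  rw [hmid P m]
  exact edv_igPv_ramificationIndex hq hqM k (hinc m) hRR (pl P) (hSS P) (hno P)

end OO

/-! ### the layer over `0` (`normLayer2_of`) -/

section Zero

variable [inst : ∀ m : Mid, Algebra (NlvFk k M₀ Mid FkP (Vtx.vert Vrt.zero))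
    (NlvFk k M₀ Mid FkP (Vtx.vert (Vrt.mid m)))]

/-- the scalar tower `k → Fk 0 → Fk (mid m)`. -/
theorem nlv_isScalarTower_zero
    (hinc : ∀ (m : Mid) (x : ↥(modularFunctionFieldFullC k M₀)),
      algebraMap (NlvFk k M₀ Mid FkP (Vtx.vert Vrt.zero))
        (NlvFk k M₀ Mid FkP (Vtx.vert (Vrt.mid m))) x =
        IntermediateField.inclusion (fullC_le_igField k M₀) x) (m : Mid) :
    IsScalarTower k (NlvFk k M₀ Mid FkP (Vtx.vert Vrt.zero))
      (NlvFk k M₀ Mid FkP (Vtx.vert (Vrt.mid m))) :=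
  letI : Algebra ↥(modularFunctionFieldFullC k M₀) ↥(igField k M₀) := inst m
  edv_isScalarTower M₀ k (hinc m)

/-- `Fk (mid m)` is finite over `Fk 0`. -/
theorem nlv_finiteDimensional_zero [CharP k q] (hq : q.Prime)
    (hinc : ∀ (m : Mid) (x : ↥(modularFunctionFieldFullC k M₀)),
      algebraMap (NlvFk k M₀ Mid FkP (Vtx.vert Vrt.zero))
        (NlvFk k M₀ Mid FkP (Vtx.vert (Vrt.mid m))) x =
        IntermediateField.inclusion (fullC_le_igField k M₀) x) (m : Mid) :
    FiniteDimensional (NlvFk k M₀ Mid FkP (Vtx.vert Vrt.zero))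
      (NlvFk k M₀ Mid FkP (Vtx.vert (Vrt.mid m))) :=
  letI : Algebra ↥(modularFunctionFieldFullC k M₀) ↥(igField k M₀) := inst m
  edv_finiteDimensional M₀ q hq k (hinc m)

/-- **`hdeg` of `normLayer2_of`**: `[Fk (mid m) : Fk 0] = midDeg q`. -/
theorem nlv_hdeg_zero
    (hinc : ∀ (m : Mid) (x : ↥(modularFunctionFieldFullC k M₀)),
      algebraMap (NlvFk k M₀ Mid FkP (Vtx.vert Vrt.zero))
        (NlvFk k M₀ Mid FkP (Vtx.vert (Vrt.mid m))) x =
        IntermediateField.inclusion (fullC_le_igField k M₀) x)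
    (hd : IntermediateField.relfinrank (modularFunctionFieldFullC k M₀) (igField k M₀) =
      midDeg q) (m : Mid) :
    Module.finrank (NlvFk k M₀ Mid FkP (Vtx.vert Vrt.zero))
      (NlvFk k M₀ Mid FkP (Vtx.vert (Vrt.mid m))) = midDeg q :=
  letI : Algebra ↥(modularFunctionFieldFullC k M₀) ↥(igField k M₀) := inst m
  edv_finrank k (hinc m) hd

variable [IsAlgClosed k] [CharP k q]
  [instT : ∀ m : Mid, IsScalarTower k (NlvFk k M₀ Mid FkP (Vtx.vert Vrt.zero))
    (NlvFk k M₀ Mid FkP (Vtx.vert (Vrt.mid m)))]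
  [instF : ∀ m : Mid, FiniteDimensional (NlvFk k M₀ Mid FkP (Vtx.vert Vrt.zero))
    (NlvFk k M₀ Mid FkP (Vtx.vert (Vrt.mid m)))]
  (N : GraphSetup K F k (Vtx Mid SS) (NlvFk k M₀ Mid FkP) (Nod Mid SS))
  (hsrc : ∀ i, N.src i = nodSrc i)

/-- **`hdeg` of `normLayer2_of`** from one supersingular place with `ord ssFun = 12`. -/
theorem nlv_hdeg_zero_of_place (hq : q.Prime) (hqM : ¬ q ∣ M₀)
    (hinc : ∀ (m : Mid) (x : ↥(modularFunctionFieldFullC k M₀)),
      algebraMap (NlvFk k M₀ Mid FkP (Vtx.vert Vrt.zero))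
        (NlvFk k M₀ Mid FkP (Vtx.vert (Vrt.mid m))) x =
        IntermediateField.inclusion (fullC_le_igField k M₀) x)
    (hRR : IsRRField k ↥(igField k M₀))
    (P₀ : Place k ↥(modularFunctionFieldFullC k M₀)) (hSS : IsSSPlace k M₀ q P₀)
    (hno : ∀ u : ↥(modularFunctionFieldFullC k M₀), (u : LaurentSeries k) = ssFun k q →
      P₀.ord u = 12) (m : Mid) :
    Module.finrank (NlvFk k M₀ Mid FkP (Vtx.vert Vrt.zero))
      (NlvFk k M₀ Mid FkP (Vtx.vert (Vrt.mid m))) = midDeg q :=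
  letI : Algebra ↥(modularFunctionFieldFullC k M₀) ↥(igField k M₀) := inst m
  edv_finrank_of_place hq hqM k (hinc m) hRR P₀ hSS hno

/-- **`hres` of `normLayer2_of`**: the branch on the middle component lies over the branch on
the component `0`. -/
theorem nlv_hres_zero (hq : q.Prime) (hqM : ¬ q ∣ M₀)
    (hinc : ∀ (m : Mid) (x : ↥(modularFunctionFieldFullC k M₀)),
      algebraMap (NlvFk k M₀ Mid FkP (Vtx.vert Vrt.zero))
        (NlvFk k M₀ Mid FkP (Vtx.vert (Vrt.mid m))) x =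
        IntermediateField.inclusion (fullC_le_igField k M₀) x)
    (hRR : IsRRField k ↥(igField k M₀))
    (pl : SS → Place k ↥(modularFunctionFieldFullC k M₀))
    (hzero : ∀ P, nlSrc N hsrc P Vrt.zero = pl P)
    (hmid : ∀ P m, nlSrc N hsrc P (Vrt.mid m) = igPv M₀ q hq hqM k hRR (pl P)) (P : SS)
    (m : Mid) :
    (nlSrc N hsrc P (Vrt.mid m)).restrict (NlvFk k M₀ Mid FkP (Vtx.vert Vrt.zero)) =
      nlSrc N hsrc P Vrt.zero := by
  letI : Algebra ↥(modularFunctionFieldFullC k M₀) ↥(igField k M₀) := inst m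
  haveI : IsScalarTower k ↥(modularFunctionFieldFullC k M₀) ↥(igField k M₀) := instT m
  haveI hfd : FiniteDimensional ↥(modularFunctionFieldFullC k M₀) ↥(igField k M₀) := instF m
  haveI : Algebra.IsIntegral ↥(modularFunctionFieldFullC k M₀) ↥(igField k M₀) :=
    @Algebra.IsIntegral.of_finite _ _ _ _ _ hfd
  rw [hmid P m, hzero P]
  exact edv_igPv_restrict hq hqM k (hinc m) hRR (pl P)

/-- **`he` of `normLayer2_of`**: the ramification index of the branch on the middle component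
over the component `0` is `midDeg q`. -/
theorem nlv_he_zero (hq : q.Prime) (hqM : ¬ q ∣ M₀)
    (hinc : ∀ (m : Mid) (x : ↥(modularFunctionFieldFullC k M₀)),
      algebraMap (NlvFk k M₀ Mid FkP (Vtx.vert Vrt.zero))
        (NlvFk k M₀ Mid FkP (Vtx.vert (Vrt.mid m))) x =
        IntermediateField.inclusion (fullC_le_igField k M₀) x)
    (hRR : IsRRField k ↥(igField k M₀))
    (pl : SS → Place k ↥(modularFunctionFieldFullC k M₀))
    (hSS : ∀ P, IsSSPlace k M₀ q (pl P))
    (hno : ∀ P, ∀ u : ↥(modularFunctionFieldFullC k M₀), (u : LaurentSeries k) = ssFun k q →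
      (pl P).ord u = 12)
    (hmid : ∀ P m, nlSrc N hsrc P (Vrt.mid m) = igPv M₀ q hq hqM k hRR (pl P)) (P : SS)
    (m : Mid) :
    (nlSrc N hsrc P (Vrt.mid m)).ramificationIndex
      (NlvFk k M₀ Mid FkP (Vtx.vert Vrt.zero)) = midDeg q := by
  letI : Algebra ↥(modularFunctionFieldFullC k M₀) ↥(igField k M₀) := inst m
  rw [hmid P m]
  exact edv_igPv_ramificationIndex hq hqM k (hinc m) hRR (pl P) (hSS P) (hno P)

end Zero

end Fermat.Agent.S36G
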