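/-
Cluster G (S36), block COC, leaf COC-PLUG-1 (helper75; sub-architect helper36; mirror of helper4's
`CocPlug2.lean`).

**The norm layer for `π₁` of the modular seed**, the field `layer1` of the junction output
`CboNorm` (`S36/G/CoreBundleOf.lean`), at the residue fields of the modular graph:
`Mid = Fin (midCard q)`, `Fk0 = F_k(M₀)`, `FkM = igField k M₀`, `k` the residue field of `A ∣ q`,
`G := E.ymodSeed hn hb h12 hu2 hD₀ hdeg hgenus`, `N := G.graphSetup`, `e = midDeg q`.

* `cocPlug_layer1_of_res` : `Nonempty (NormLayer1 N n q (midDeg q) (nm1 (M₀ q) q))` from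
  the three vertical residue statements (RES) as hypotheses (verbatim the arguments `red_oo`,
  `red_mid`, `red_zero` of `nliLayer1` / `normLayer1_of`).

PLUGGED: the instances (`nliAlgOo`, helper17), (VERT) (`nlv_*_oo`, helper24), (DIV)
(`edy_*`, helper15), (HOR) (`nlh_red_hor1`, helper83; `nrhMod_red_hor1`).
INPUTS: `hES : E.S = vtxFamily Soo S0 Sm (fun P => (O P).S)`, the outputs `O P : WPOut` of block
W-P, the SEED-UP shapes `hxA`, `hx2` for `H_P = (O P).H`, and the dictionary of the vertical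
branches: `E.pv P ∞ = pl P`, `E.pv P (mid m) = igPv (pl P)`, `pl P` supersingular with
`ord ssFun = 12`.
-/
import Mathlib
import Fermat.Agent.S36.G.CocAsmYmod
import Fermat.Agent.S36.G.NormLayerInst
import Fermat.Agent.S36.G.NormLayerVert
import Fermat.Agent.S36.G.NormLayerHor
import Fermat.Agent.Lib.FrobTrace.Residue

set_option autoImplicit false
set_option linter.unusedSectionVars false
set_option linter.unusedVariables false
set_option linter.style.haveILetI false
set_option synthInstance.maxHeartbeats 400000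
set_option maxHeartbeats 1000000

noncomputable section

open IntermediateField AlgebraicCurve

namespace Fermat.Agent.S36G

open ModularCurve Fermat.Agent.F3 Fermat.Agent.F3G Fermat.Agent.GaussInt
  Fermat.Agent.AtkinLehner Fermat.Agent.Kronecker Fermat.Agent.BadRed Fermat.Agent.BadRedG
  Fermat.Agent.BadRed.Gluing Fermat.Agent.RR Fermat.Agent.S36 Fermat.Agent.HP
  Fermat.Agent.Deuring

local notation "Qb" => AlgebraicClosure ℚ

/-- shortcut (the instance found by unification is the same term, after a slow search). -/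
local instance (priority := 10000) cocPlug1AlgFullC (A : ValuationSubring Qb) (N : ℕ) :
    Algebra (IsLocalRing.ResidueField A)
      (modularFunctionFieldFullC (IsLocalRing.ResidueField A) N) :=
  SubalgebraClass.toAlgebra (modularFunctionFieldFullC (IsLocalRing.ResidueField A) N)

/-- shortcut. -/
local instance (priority := 10000) cocPlug1AlgIg (A : ValuationSubring Qb) (N : ℕ) :
    Algebra (IsLocalRing.ResidueField A) (igField (IsLocalRing.ResidueField A) N) :=
  SubalgebraClass.toAlgebra (igField (IsLocalRing.ResidueField A) N)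

attribute [local instance] Fermat.Agent.GaussInt.isAlgClosed_residue

section Plug

variable {M₀ q : ℕ} [NeZero M₀] [NeZero q] {A : ValuationSubring Qb}
  {SS : Type} [Fintype SS] [Nonempty SS]
  {FkP : SS → Type} [∀ P, Field (FkP P)] [∀ P, Algebra (IsLocalRing.ResidueField A) (FkP P)]
  (E : ModEndsInput Qb (FBar (M₀ * q * q)) (IsLocalRing.ResidueField A) (Fin (midCard q)) SS
    ↥(modularFunctionFieldFullC (IsLocalRing.ResidueField A) M₀)
    (fun _ : Fin (midCard q) => ↥(igField (IsLocalRing.ResidueField A) M₀)) FkP)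
  {b : Qb} {nn : ℕ}
  (hn : 2 ≤ nn) (hb : E.ϖ1 ^ nn = b) (h12 : E.ϖ1 * E.ϖ2 = b)
  (hu2 : E.u2 = E.u1 / algebraMap Qb (FBar (M₀ * q * q)) E.ϖ1)
  (hD₀ : E.D₀ = poleDiv (E.S (Vtx.vert Vrt.oo)).hF (E.ymodX b nn))
  (hdeg : Divisor.degree (poleDiv (E.S (Vtx.vert Vrt.oo)).hF (E.ymodX b nn)) ≤
    ∑ c, Divisor.degree (poleDiv (E.S c).hFk ((E.S c).red (E.ymodX b nn))))
  (hgenus : genusFF Qb (FBar (M₀ * q * q)) + Fintype.card (Vtx (Fin (midCard q)) SS) ≤
    (∑ c, genusFF (IsLocalRing.ResidueField A)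
      (FkOf ↥(modularFunctionFieldFullC (IsLocalRing.ResidueField A) M₀)
        (fun _ : Fin (midCard q) => ↥(igField (IsLocalRing.ResidueField A) M₀)) FkP c)) +
      Fintype.card (Nod (Fin (midCard q)) SS) + 1)

/-- **the norm layer for `π₁` of the modular seed**, from the three vertical residue
statements; instances, (VERT), (DIV), (HOR) are plugged. -/
theorem cocPlug_layer1_of_res [CharP (IsLocalRing.ResidueField A) q]
    (hqp : q.Prime) (hqM : ¬ q ∣ M₀) (hA : A.LiesOverPrime q)
    {R0 : Fermat.Agent.S18Key.RedSetup Qb (FBar M₀) (IsLocalRing.ResidueField A)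
      ↥(modularFunctionFieldFullC (IsLocalRing.ResidueField A) M₀)}
    {pt : SS → Place (IsLocalRing.ResidueField A)
      ↥(modularFunctionFieldFullC (IsLocalRing.ResidueField A) M₀)}
    (O : ∀ P : SS, WPOut M₀ q A R0 (pt P) (FkP P))
    {Soo S0 : ValSetup Qb (FBar (M₀ * q * q)) (IsLocalRing.ResidueField A)
      ↥(modularFunctionFieldFullC (IsLocalRing.ResidueField A) M₀)}
    {Sm : Fin (midCard q) → ValSetup Qb (FBar (M₀ * q * q)) (IsLocalRing.ResidueField A)
      ↥(igField (IsLocalRing.ResidueField A) M₀)}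
    (hES : E.S = vtxFamily Soo S0 Sm fun P => (O P).S)
    (hxA : EndsRedA E.S (nlhHP O) (algebraMap Qb (FBar (M₀ * q * q)) E.ϖA / E.uA))
    (hx2 : EndsRed2 E.S (nlhHP O) E.u2)
    (hRR : IsRRField (IsLocalRing.ResidueField A) ↥(igField (IsLocalRing.ResidueField A) M₀))
    (pl : SS → Place (IsLocalRing.ResidueField A)
      ↥(modularFunctionFieldFullC (IsLocalRing.ResidueField A) M₀))
    (hoo : ∀ P, E.pv P Vrt.oo = pl P)
    (hmid : ∀ P m, E.pv P (Vrt.mid m) =
      igPv M₀ q hqp hqM (IsLocalRing.ResidueField A) hRR (pl P))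
    (hSS : ∀ P, IsSSPlace (IsLocalRing.ResidueField A) M₀ q (pl P))
    (hno : ∀ P, ∀ u : ↥(modularFunctionFieldFullC (IsLocalRing.ResidueField A) M₀),
      (u : LaurentSeries (IsLocalRing.ResidueField A)) = ssFun (IsLocalRing.ResidueField A) q →
        (pl P).ord u = 12)
    (n : ℕ)
    (red_oo : letI := nliAlgOo (IsLocalRing.ResidueField A) M₀ FkP (Mid := Fin (midCard q))
      ∀ g : FBar (M₀ * q * q),
      (∀ c, g ∈ ((E.ymodSeed hn hb h12 hu2 hD₀ hdeg hgenus).graphSetup.S c).Ov) →
      (∀ c, ((E.ymodSeed hn hb h12 hu2 hD₀ hdeg hgenus).graphSetup.S c).red g ≠ 0) →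
      ((E.ymodSeed hn hb h12 hu2 hD₀ hdeg hgenus).graphSetup.S (Vtx.vert Vrt.oo)).red
          (nm1 (M₀ * q) q g) =
        ((E.ymodSeed hn hb h12 hu2 hD₀ hdeg hgenus).graphSetup.S (Vtx.vert Vrt.oo)).red g *
          ∏ m, Algebra.norm
            (FkOf ↥(modularFunctionFieldFullC (IsLocalRing.ResidueField A) M₀)
              (fun _ : Fin (midCard q) => ↥(igField (IsLocalRing.ResidueField A) M₀)) FkP
              (Vtx.vert Vrt.oo))
            (((E.ymodSeed hn hb h12 hu2 hD₀ hdeg hgenus).graphSetup.S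
              (Vtx.vert (Vrt.mid m))).red g))
    (red_mid : letI := nliAlgOo (IsLocalRing.ResidueField A) M₀ FkP (Mid := Fin (midCard q))
      ∀ g : FBar (M₀ * q * q),
      (∀ c, g ∈ ((E.ymodSeed hn hb h12 hu2 hD₀ hdeg hgenus).graphSetup.S c).Ov) →
      (∀ c, ((E.ymodSeed hn hb h12 hu2 hD₀ hdeg hgenus).graphSetup.S c).red g ≠ 0) → ∀ m,
      ((E.ymodSeed hn hb h12 hu2 hD₀ hdeg hgenus).graphSetup.S (Vtx.vert (Vrt.mid m))).red
          (nm1 (M₀ * q) q g) =
        algebraMap
          (FkOf ↥(modularFunctionFieldFullC (IsLocalRing.ResidueField A) M₀)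
            (fun _ : Fin (midCard q) => ↥(igField (IsLocalRing.ResidueField A) M₀)) FkP
            (Vtx.vert Vrt.oo))
          (FkOf ↥(modularFunctionFieldFullC (IsLocalRing.ResidueField A) M₀)
            (fun _ : Fin (midCard q) => ↥(igField (IsLocalRing.ResidueField A) M₀)) FkP
            (Vtx.vert (Vrt.mid m)))
          (((E.ymodSeed hn hb h12 hu2 hD₀ hdeg hgenus).graphSetup.S (Vtx.vert Vrt.oo)).red
            (nm1 (M₀ * q) q g)))
    (red_zero : ∀ g : FBar (M₀ * q * q),
      (∀ c, g ∈ ((E.ymodSeed hn hb h12 hu2 hD₀ hdeg hgenus).graphSetup.S c).Ov) →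
      (∀ c, ((E.ymodSeed hn hb h12 hu2 hD₀ hdeg hgenus).graphSetup.S c).red g ≠ 0) →
      ((E.ymodSeed hn hb h12 hu2 hD₀ hdeg hgenus).graphSetup.S (Vtx.vert Vrt.zero)).red
          (nm1 (M₀ * q) q g) =
        ((E.ymodSeed hn hb h12 hu2 hD₀ hdeg hgenus).graphSetup.S (Vtx.vert Vrt.zero)).red g ^ q) :
    Nonempty (NormLayer1 (E.ymodSeed hn hb h12 hu2 hD₀ hdeg hgenus).graphSetup n q (midDeg q)
      (nm1 (M₀ * q) q)) := by
  haveI : Fact q.Prime := ⟨hqp⟩
  letI iA : ∀ m : Fin (midCard q), Algebra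
      (FkOf ↥(modularFunctionFieldFullC (IsLocalRing.ResidueField A) M₀)
        (fun _ : Fin (midCard q) => ↥(igField (IsLocalRing.ResidueField A) M₀)) FkP
        (Vtx.vert Vrt.oo))
      (FkOf ↥(modularFunctionFieldFullC (IsLocalRing.ResidueField A) M₀)
        (fun _ : Fin (midCard q) => ↥(igField (IsLocalRing.ResidueField A) M₀)) FkP
        (Vtx.vert (Vrt.mid m))) :=
    nliAlgOo (IsLocalRing.ResidueField A) M₀ FkP
  haveI iT : ∀ m : Fin (midCard q), IsScalarTower (IsLocalRing.ResidueField A)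
      (FkOf ↥(modularFunctionFieldFullC (IsLocalRing.ResidueField A) M₀)
        (fun _ : Fin (midCard q) => ↥(igField (IsLocalRing.ResidueField A) M₀)) FkP
        (Vtx.vert Vrt.oo))
      (FkOf ↥(modularFunctionFieldFullC (IsLocalRing.ResidueField A) M₀)
        (fun _ : Fin (midCard q) => ↥(igField (IsLocalRing.ResidueField A) M₀)) FkP
        (Vtx.vert (Vrt.mid m))) :=
    nli_isScalarTower_oo (IsLocalRing.ResidueField A) M₀ FkP
  haveI iF : ∀ m : Fin (midCard q), FiniteDimensional
      (FkOf ↥(modularFunctionFieldFullC (IsLocalRing.ResidueField A) M₀)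
        (fun _ : Fin (midCard q) => ↥(igField (IsLocalRing.ResidueField A) M₀)) FkP
        (Vtx.vert Vrt.oo))
      (FkOf ↥(modularFunctionFieldFullC (IsLocalRing.ResidueField A) M₀)
        (fun _ : Fin (midCard q) => ↥(igField (IsLocalRing.ResidueField A) M₀)) FkP
        (Vtx.vert (Vrt.mid m))) :=
    nli_finiteDimensional_oo (IsLocalRing.ResidueField A) M₀ FkP hqp
  have hinc : ∀ (m : Fin (midCard q))
      (x : ↥(modularFunctionFieldFullC (IsLocalRing.ResidueField A) M₀)),
      algebraMap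
        (NlvFk (IsLocalRing.ResidueField A) M₀ (Fin (midCard q)) FkP (Vtx.vert Vrt.oo))
        (NlvFk (IsLocalRing.ResidueField A) M₀ (Fin (midCard q)) FkP (Vtx.vert (Vrt.mid m))) x =
        IntermediateField.inclusion (fullC_le_igField (IsLocalRing.ResidueField A) M₀) x :=
    fun _ _ => rfl
  have hres := nlv_hres_oo (E.ymodSeed hn hb h12 hu2 hD₀ hdeg hgenus).graphSetup
    (edy_hsrc hn hb h12 hu2 hD₀ hdeg hgenus) hqp hqM hinc hRR pl hoo hmid
  have he := nlv_he_oo (E.ymodSeed hn hb h12 hu2 hD₀ hdeg hgenus).graphSetup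
    (edy_hsrc hn hb h12 hu2 hD₀ hdeg hgenus) hqp hqM hinc hRR pl hSS hno hmid
  have hdegV := nlv_hdeg_oo_of_place (Mid := Fin (midCard q)) (FkP := FkP) hqp hqM hinc hRR
    (pl (Classical.arbitrary SS)) (hSS _) (hno _)
  have hhor := nlh_red_hor1 O (E.ymodSeed hn hb h12 hu2 hD₀ hdeg hgenus).graphSetup hES
    (fun _ => rfl) (nlhHP O) (fun _ => rfl) hqp hqM hA
  exact cocAsm_ymod_layer (M₀ * q) q hn hb h12 hu2 hD₀ hdeg hgenus hxA hx2 hqp n
    hres he hdegV red_oo red_mid red_zero hhor

end Plug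

end Fermat.Agent.S36G
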