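import Mathlib
import Fermat.Agent.S36.G.NormLayerVert
import Fermat.Agent.S36.Seed.EndsVert

set_option autoImplicit false
set_option linter.style.haveILetI false
set_option linter.unusedSectionVars false
set_option linter.unusedVariables false
set_option synthInstance.maxHeartbeats 400000
set_option maxHeartbeats 1000000

/-!
# Cluster G (S36), block COC: the branch dictionary on the vertical components  (helper36)

The (VERT) leaves (`S36/G/NormLayerVert.lean`, helper24) are stated for the place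
`igPv (pl P)` of the Igusa field over the supersingular place `pl P`; the seed leaves
(`S36/Seed/EndsVert.lean`, helper9) use `sevMidPt (ι P)` (`sevPv`).  Over a supersingular place
with `ord ssFun = 12` there is only ONE place of the Igusa field, so the two agree:

* `cocPv_eq_igPv_of_restrict` : a place `Q` of `igField k M₀` with `Q|_{k(Z)} = P` is `igPv P`;
* `cocPv_sevMidPt_eq_igPv`    : `sevMidPt P = igPv P`;
* `cocPv_hoo`, `cocPv_hzero`, `cocPv_hmid` : the hypotheses `hoo`, `hzero`, `hmid` of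
  `nlv_hres_*`, `nlv_he_*` for a graph whose first branches are `sevPv ι P v`.
-/

noncomputable section

open AlgebraicCurve ModularCurve

namespace Fermat.Agent.S36G

open Fermat.Agent.RR Fermat.Agent.BadRed Fermat.Agent.BadRedG Fermat.Agent.Deuring

section Pv

variable (M₀ q : ℕ) (hq : q.Prime) (hqM : ¬ q ∣ M₀) (k : Type) [Field k] [IsAlgClosed k]
  [CharP k q]

/-- over a supersingular place `P` with `ord_P ssFun = 12`, a place of the Igusa field which
restricts to `P` is `igPv P`. -/
theorem cocPv_eq_igPv_of_restrict (hRR : IsRRField k ↥(igField k M₀))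
    (P : Place k ↥(modularFunctionFieldFullC k M₀)) (hSS : IsSSPlace k M₀ q P)
    (hno : ∀ u : ↥(modularFunctionFieldFullC k M₀), (u : LaurentSeries k) = ssFun k q →
      P.ord u = 12)
    (Q : Place k ↥(igField k M₀))
    (hQ : Q.restrictAlong (igIncl k M₀) (sev_isIntegral M₀ q hq k) = P) :
    Q = igPv M₀ q hq hqM k hRR P := by
  refine igPv_unique hq hqM k hRR P hSS hno Q (fun x hx => ?_)
  have h := (Fermat.Agent.RRRel.ord_map_pos_iff (igIncl k M₀) (sev_isIntegral M₀ q hq k) Q x).mpr
    (by rw [hQ]; exact hx)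
  exact h

/-- `sevMidPt P = igPv P` over a supersingular place. -/
theorem cocPv_sevMidPt_eq_igPv (hRR : IsRRField k ↥(igField k M₀))
    (P : Place k ↥(modularFunctionFieldFullC k M₀)) (hSS : IsSSPlace k M₀ q P)
    (hno : ∀ u : ↥(modularFunctionFieldFullC k M₀), (u : LaurentSeries k) = ssFun k q →
      P.ord u = 12) :
    sevMidPt M₀ q hq hqM k P = igPv M₀ q hq hqM k hRR P :=
  cocPv_eq_igPv_of_restrict M₀ q hq hqM k hRR P hSS hno _ (sev_restrict_midPt M₀ q hq hqM k P)

variable {K F : Type*} [Field K] [Field F] [Algebra K F]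
  {Mid SS : Type} [Fintype Mid]
  {FkP : SS → Type} [∀ P, Field (FkP P)] [∀ P, Algebra k (FkP P)]
  (N : GraphSetup K F k (Vtx Mid SS) (NlvFk k M₀ Mid FkP) (Nod Mid SS))
  (hsrc : ∀ i, N.src i = nodSrc i)
  (ι : SS → Place k ↥(modularFunctionFieldFullC k M₀))
  (hnl : ∀ P v, nlSrc N hsrc P v = sevPv M₀ q hq hqM k FkP ι P v)

include hnl in
/-- **`hoo`** of `nlv_hres_oo`. -/
theorem cocPv_hoo (P : SS) : nlSrc N hsrc P Vrt.oo = ι P := hnl P Vrt.oo

include hnl in
/-- **`hzero`** of `nlv_hres_zero`. -/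
theorem cocPv_hzero (P : SS) : nlSrc N hsrc P Vrt.zero = ι P := hnl P Vrt.zero

include hnl in
/-- **`hmid`** of `nlv_hres_*`, `nlv_he_*`. -/
theorem cocPv_hmid (hRR : IsRRField k ↥(igField k M₀))
    (hSS : ∀ P, IsSSPlace k M₀ q (ι P))
    (hno : ∀ P, ∀ u : ↥(modularFunctionFieldFullC k M₀), (u : LaurentSeries k) = ssFun k q →
      (ι P).ord u = 12) (P : SS) (m : Mid) :
    nlSrc N hsrc P (Vrt.mid m) = igPv M₀ q hq hqM k hRR (ι P) := by
  rw [hnl P (Vrt.mid m)]
  exact cocPv_sevMidPt_eq_igPv M₀ q hq hqM k hRR (ι P) (hSS P) (hno P)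

end Pv

end Fermat.Agent.S36G
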