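/-
Cluster G (S36, Carayol at `q² ∥ M`), block COC, leaf NORM-LAYER-PI (helper24; sub-architect
helper36): the two PURELY INSEPARABLE residue arguments of the norm layers
(`S36/G/NormLayerOf.lean`), VERBATIM, for a graph setup `N` whose constant reductions are the
modular family

    N.S = vtxFamily Soo (valSetupZeroAt D₀ hM₀ Soo) Sm SP,

`Soo` a Gauss setup of `F = F_{M₀ q q}` (`IsGaussSetup (M₀ q q) M₀ A Soo`), `D₀.Q = q ^ 2`:

* `nlpi_red_zero1` : **`red_zero` of `normLayer1_of`** for `Nm = nm1 (M₀ q) q`: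
                     `red_0 (nm1 g) = (red_0 g) ^ q`;
* `nlpi_red_oo2`   : **`red_oo` of `normLayer2_of`** for `Nm = nm2 (M₀ q) q D₀ hM₀`:
                     `red_∞ (nm2 g) = (red_∞ g) ^ q`;
* `nlpi_mem_zero1`, `nlpi_mem_oo2` : `nm1 g` is integral at `v_0`, `nm2 g` is integral at `v_∞`;
* `nlpi_red_zero1_of`, `nlpi_red_oo2_of` : the same for the setups themselves (no `N`);
* `nlpi_exists_gauss`, `nlpi_exists_aux` : the auxiliary Gauss setup of `F_{M₀ q}` and the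
                     auxiliary Atkin-Lehner datum (`Q = q`, `R = M₀`).

The norm formulas are `S36N.red_zero_alpha_norm`, `S36N.red_inf_W_alpha_norm`
(`S36/Norm/VertSetup.lean`, helper66).  Only `red g ≠ 0` at the vertex in question is used.
-/
import Mathlib
import Fermat.Agent.S36.Norm.VertSetup
import Fermat.Agent.S36.G.VtxFamily
import Fermat.Agent.S36.G.CocycleF12Mod
import Fermat.Agent.Lib.BadRed.Mod.GaussSetupFinal

set_option autoImplicit false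
set_option linter.unusedSectionVars false
set_option linter.unusedVariables false
set_option linter.style.haveILetI false
set_option synthInstance.maxHeartbeats 400000
set_option maxHeartbeats 1000000

noncomputable section

namespace Fermat.Agent.S36G

open ModularCurve AlgebraicCurve Fermat.Agent.F3 Fermat.Agent.F3G Fermat.Agent.GaussInt
  Fermat.Agent.AtkinLehner Fermat.Agent.Kronecker Fermat.Agent.BadRed Fermat.Agent.BadRedG
  Fermat.Agent.Deuring Fermat.Agent.S36N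

local notation "Qb" => AlgebraicClosure ℚ

attribute [local instance 10000] SubalgebraClass.toAlgebra HahnSeries.powerSeriesAlgebra

variable {M₀ q : ℕ} [NeZero M₀] [NeZero q] {A : ValuationSubring Qb}

/-! ### the auxiliary data at the level `M₀ q` -/

omit [NeZero q] in
/-- the auxiliary datum `D₁` (`Q = q`, `R = M₀`) of a datum `D` with `D.Q = q ^ 2` at the level
`M₀ q q`. -/
theorem nlpi_exists_aux (hq : q.Prime) (hqM : ¬ q ∣ M₀) (D : ALData)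
    (hM : M₀ * q * q = D.Q * D.R) (hDQ : D.Q = q ^ 2) :
    ∃ D₁ : ALData, D.Q = D₁.Q * q ∧ D.R = D₁.R ∧ M₀ * q = D₁.Q * D₁.R := by
  have hM₀pos : 0 < M₀ := Nat.pos_of_ne_zero (NeZero.ne M₀)
  have hcop : Nat.Coprime q M₀ := (Nat.Prime.coprime_iff_not_dvd hq).mpr hqM
  obtain ⟨D₁, hQ₁, hR₁⟩ := ALData.exists_of_coprime hq.pos hM₀pos hcop
  have hR : D.R = M₀ := by
    have h3 : q ^ 2 * D.R = q ^ 2 * M₀ := by
      have h4 : D.Q * D.R = M₀ * q * q := hM.symm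
      rw [hDQ] at h4
      rw [h4]
      ring
    exact Nat.eq_of_mul_eq_mul_left (pow_pos hq.pos 2) h3
  refine ⟨D₁, ?_, ?_, ?_⟩
  · rw [hDQ, hQ₁, sq]
  · rw [hR, hR₁]
  · rw [hQ₁, hR₁, mul_comm]

/-- a Gauss setup of `F₁ = F_{M₀ q}` with residue field `F_k(M₀)`. -/
theorem nlpi_exists_gauss (hq : q.Prime) (hqM : ¬ q ∣ M₀) (hA : A.LiesOverPrime q) :
    ∃ S₁ : ValSetup Qb (FBar (M₀ * q)) (IsLocalRing.ResidueField A)
        (modularFunctionFieldFullC (IsLocalRing.ResidueField A) M₀),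
      IsGaussSetup (M₀ * q) M₀ A S₁ := by
  obtain ⟨S₁, hS₁, -⟩ := exists_isGaussSetup_bad hq hqM A hA (M₀ * q) rfl
    (modFactsAt M₀ q hq hqM A hA)
  exact ⟨S₁, hS₁⟩

/-! ### the formulas for the setups -/

section Setups

variable (Soo : ValSetup Qb (FBar (M₀ * q * q)) (IsLocalRing.ResidueField A)
    (modularFunctionFieldFullC (IsLocalRing.ResidueField A) M₀))
  (hSoo : IsGaussSetup (M₀ * q * q) M₀ A Soo)
  (D₀ : ALData) (hM₀ : M₀ * q * q = D₀.Q * D₀.R) (hDQ : D₀.Q = q ^ 2)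

include hSoo hDQ in
/-- **`π₁` at `v_0`**: `nm1 g` is integral and `red_0 (nm1 g) = (red_0 g) ^ q`. -/
theorem nlpi_red_zero1_of (hq : q.Prime) (hqM : ¬ q ∣ M₀) (hA : A.LiesOverPrime q)
    {g : FBar (M₀ * q * q)} (hg : (valSetupZeroAt D₀ hM₀ Soo).red g ≠ 0) :
    nm1 (M₀ * q) q g ∈ (valSetupZeroAt D₀ hM₀ Soo).Ov ∧
      (valSetupZeroAt D₀ hM₀ Soo).red (nm1 (M₀ * q) q g) =
        (valSetupZeroAt D₀ hM₀ Soo).red g ^ q := by
  haveI : Fact q.Prime := ⟨hq⟩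
  haveI : CharP (IsLocalRing.ResidueField A) q := Fermat.Agent.FrobTrace.charP_residueField A hA
  haveI : IsAlgClosed (IsLocalRing.ResidueField A) := Fermat.Agent.GaussInt.isAlgClosed_residue A
  haveI : PerfectRing (IsLocalRing.ResidueField A) q := inferInstance
  obtain ⟨D₁, hQ, hR, hN₁⟩ := nlpi_exists_aux hq hqM D₀ hM₀ hDQ
  obtain ⟨S₁, hS₁⟩ := nlpi_exists_gauss (A := A) hq hqM hA
  exact red_zero_alpha_norm S₁ Soo hS₁ hSoo hA (Dvd.intro_left M₀ rfl) D₁ D₀ hQ hR hN₁ hM₀ hg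

include hSoo hDQ in
/-- **`π₂` at `v_∞`**: `nm2 g` is integral and `red_∞ (nm2 g) = (red_∞ g) ^ q`. -/
theorem nlpi_red_oo2_of (hq : q.Prime) (hqM : ¬ q ∣ M₀) (hA : A.LiesOverPrime q)
    {g : FBar (M₀ * q * q)} (hg : Soo.red g ≠ 0) :
    nm2 (M₀ * q) q D₀ hM₀ g ∈ Soo.Ov ∧
      Soo.red (nm2 (M₀ * q) q D₀ hM₀ g) = Soo.red g ^ q := by
  haveI : Fact q.Prime := ⟨hq⟩
  haveI : CharP (IsLocalRing.ResidueField A) q := Fermat.Agent.FrobTrace.charP_residueField A hA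
  haveI : IsAlgClosed (IsLocalRing.ResidueField A) := Fermat.Agent.GaussInt.isAlgClosed_residue A
  haveI : PerfectRing (IsLocalRing.ResidueField A) q := inferInstance
  obtain ⟨D₁, hQ, hR, hN₁⟩ := nlpi_exists_aux hq hqM D₀ hM₀ hDQ
  obtain ⟨S₁, hS₁⟩ := nlpi_exists_gauss (A := A) hq hqM hA
  exact red_inf_W_alpha_norm S₁ Soo hS₁ hSoo hA (Dvd.intro_left M₀ rfl) D₁ D₀ hQ hR hN₁ hM₀ hg

end Setups

/-! ### the family form -/

section Family

variable {Mid SS : Type}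
  {FkM : Mid → Type} [∀ m, Field (FkM m)] [∀ m, Algebra (IsLocalRing.ResidueField A) (FkM m)]
  {FkP : SS → Type} [∀ P, Field (FkP P)] [∀ P, Algebra (IsLocalRing.ResidueField A) (FkP P)]
  (N : GraphSetup Qb (FBar (M₀ * q * q)) (IsLocalRing.ResidueField A) (Vtx Mid SS)
    (FkOf ↥(modularFunctionFieldFullC (IsLocalRing.ResidueField A) M₀) FkM FkP) (Nod Mid SS))
  {Soo : ValSetup Qb (FBar (M₀ * q * q)) (IsLocalRing.ResidueField A)
    ↥(modularFunctionFieldFullC (IsLocalRing.ResidueField A) M₀)}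
  {Sm : ∀ m, ValSetup Qb (FBar (M₀ * q * q)) (IsLocalRing.ResidueField A) (FkM m)}
  {SP : ∀ P, ValSetup Qb (FBar (M₀ * q * q)) (IsLocalRing.ResidueField A) (FkP P)}
  (hSoo : IsGaussSetup (M₀ * q * q) M₀ A Soo)
  (D₀ : ALData) (hM₀ : M₀ * q * q = D₀.Q * D₀.R) (hDQ : D₀.Q = q ^ 2)
  (hN : N.S = vtxFamily Soo (valSetupZeroAt D₀ hM₀ Soo) Sm SP)

include hN in
/-- the constant reduction of `N` at the vertex `0` is `v_0 = v_∞ ∘ w`. -/
theorem nlpi_S_zero : N.S (Vtx.vert Vrt.zero) = valSetupZeroAt D₀ hM₀ Soo := by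
  rw [hN]
  rfl

include hN in
/-- the constant reduction of `N` at the vertex `∞` is `v_∞`. -/
theorem nlpi_S_oo : N.S (Vtx.vert Vrt.oo) = Soo := by
  rw [hN]
  rfl

include hSoo hDQ hN in
/-- `nm1 g` is integral at `v_0`. -/
theorem nlpi_mem_zero1 (hq : q.Prime) (hqM : ¬ q ∣ M₀) (hA : A.LiesOverPrime q)
    {g : FBar (M₀ * q * q)} (hg : (N.S (Vtx.vert Vrt.zero)).red g ≠ 0) :
    nm1 (M₀ * q) q g ∈ (N.S (Vtx.vert Vrt.zero)).Ov := by
  rw [nlpi_S_zero N D₀ hM₀ hN] at hg ⊢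
  exact (nlpi_red_zero1_of Soo hSoo D₀ hM₀ hDQ hq hqM hA hg).1

include hSoo hDQ hN in
/-- **the argument `red_zero` of `normLayer1_of`** (`Nm = nm1 (M₀ q) q`), verbatim. -/
theorem nlpi_red_zero1 (hq : q.Prime) (hqM : ¬ q ∣ M₀) (hA : A.LiesOverPrime q) :
    ∀ g : FBar (M₀ * q * q), (∀ c, g ∈ (N.S c).Ov) → (∀ c, (N.S c).red g ≠ 0) →
      (N.S (Vtx.vert Vrt.zero)).red (nm1 (M₀ * q) q g) =
        (N.S (Vtx.vert Vrt.zero)).red g ^ q := by
  intro g _ hg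
  have h := hg (Vtx.vert Vrt.zero)
  rw [nlpi_S_zero N D₀ hM₀ hN] at h ⊢
  exact (nlpi_red_zero1_of Soo hSoo D₀ hM₀ hDQ hq hqM hA h).2

include hSoo hDQ hN in
/-- `nm2 g` is integral at `v_∞`. -/
theorem nlpi_mem_oo2 (hq : q.Prime) (hqM : ¬ q ∣ M₀) (hA : A.LiesOverPrime q)
    {g : FBar (M₀ * q * q)} (hg : (N.S (Vtx.vert Vrt.oo)).red g ≠ 0) :
    nm2 (M₀ * q) q D₀ hM₀ g ∈ (N.S (Vtx.vert Vrt.oo)).Ov := by
  rw [nlpi_S_oo N D₀ hM₀ hN] at hg ⊢
  exact (nlpi_red_oo2_of Soo hSoo D₀ hM₀ hDQ hq hqM hA hg).1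

include hSoo hDQ hN in
/-- **the argument `red_oo` of `normLayer2_of`** (`Nm = nm2 (M₀ q) q D₀ hM₀`), verbatim. -/
theorem nlpi_red_oo2 (hq : q.Prime) (hqM : ¬ q ∣ M₀) (hA : A.LiesOverPrime q) :
    ∀ g : FBar (M₀ * q * q), (∀ c, g ∈ (N.S c).Ov) → (∀ c, (N.S c).red g ≠ 0) →
      (N.S (Vtx.vert Vrt.oo)).red (nm2 (M₀ * q) q D₀ hM₀ g) =
        (N.S (Vtx.vert Vrt.oo)).red g ^ q := by
  intro g _ hg
  have h := hg (Vtx.vert Vrt.oo)
  rw [nlpi_S_oo N D₀ hM₀ hN] at h ⊢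
  exact (nlpi_red_oo2_of Soo hSoo D₀ hM₀ hDQ hq hqM hA h).2

end Family

end Fermat.Agent.S36G
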