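import Mathlib
import Fermat.Agent.S36.G.VtxFamily
import Fermat.Agent.S36.G.NormLayerOf

set_option autoImplicit false
set_option linter.unusedSectionVars false
set_option linter.unusedVariables false
set_option linter.style.haveILetI false

/-!
# Cluster G (S36), block COC: the vertical (RES) arguments of the norm layers, ABSTRACT transfer
(helper36)

For ABSTRACT residue fields `Fk0`, `FkM m`, `FkP P` (no concrete field appears, so nothing is slow)
and a graph `N` over `FkOf Fk0 FkM FkP` with `N.S = vtxFamily Soo S0 Sm SP`, the three vertical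
(RES) arguments of `normLayer1_of` / `normLayer2_of` follow from the same statements for the plain
setups `Soo`, `S0`, `Sm m`.  The algebra structure of `FkM m` over `Fk0` is any family
`inst : ∀ m, Algebra Fk0 (FkM m)` (passed explicitly).

* `nla_S_oo`, `nla_S_zero`, `nla_S_mid`, `nla_S_hor` : the components of `N.S`;
* `nla_red_norm_oo`, `nla_red_mid_oo`, `nla_red_pow_zero` : `red_oo`, `red_mid`, `red_zero` of
  `normLayer1_of`;
* `nla_red_norm_zero`, `nla_red_mid_zero`, `nla_red_pow_oo` : `red_zero`, `red_mid`, `red_oo` of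
  `normLayer2_of`.

USE: instantiate `Fk0 := F_k(M₀)`, `FkM := fun _ => igField k M₀`, `inst := fun _ => nrooAlg k M₀`
by plain application (`exact nla_red_norm_oo N hN (fun _ => nrooAlg k M₀) _ h`).
-/

noncomputable section

open AlgebraicCurve Fermat.Agent.RR Fermat.Agent.Deuring

namespace Fermat.Agent.S36G

open Fermat.Agent.BadRed Fermat.Agent.BadRedG

variable {K F k : Type} [Field K] [Field F] [Algebra K F] [Field k]
  {Mid SS : Type} [Fintype Mid]
  {Fk0 : Type} [Field Fk0] [Algebra k Fk0]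
  {FkM : Mid → Type} [∀ m, Field (FkM m)] [∀ m, Algebra k (FkM m)]
  {FkP : SS → Type} [∀ P, Field (FkP P)] [∀ P, Algebra k (FkP P)]

variable (N : GraphSetup K F k (Vtx Mid SS) (FkOf Fk0 FkM FkP) (Nod Mid SS))
  {Soo S0 : ValSetup K F k Fk0} {Sm : ∀ m, ValSetup K F k (FkM m)}
  {SP : ∀ P, ValSetup K F k (FkP P)}
  (hN : N.S = vtxFamily Soo S0 Sm SP)

include hN in
theorem nla_S_oo : N.S (Vtx.vert Vrt.oo) = Soo := by
  rw [hN]
  rfl

include hN in
theorem nla_S_zero : N.S (Vtx.vert Vrt.zero) = S0 := by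
  rw [hN]
  rfl

include hN in
theorem nla_S_mid (m : Mid) : N.S (Vtx.vert (Vrt.mid m)) = Sm m := by
  rw [hN]
  rfl

include hN in
theorem nla_S_hor (P : SS) : N.S (Vtx.hor P) = SP P := by
  rw [hN]
  rfl

/-! ### the layer over `∞` -/

include hN in
/-- **`red_oo` of `normLayer1_of`** from the norm formula for the plain setups. -/
theorem nla_red_norm_oo (inst : ∀ m, Algebra Fk0 (FkM m)) (Nm : F → F)
    (h : ∀ g : F, g ∈ Soo.Ov → (∀ m, g ∈ (Sm m).Ov) →
      Soo.red (Nm g) = Soo.red g *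
        ∏ m, @Algebra.norm Fk0 (FkM m) _ _ (inst m) ((Sm m).red g)) :
    ∀ g : F, (∀ c, g ∈ (N.S c).Ov) → (∀ c, (N.S c).red g ≠ 0) →
      (N.S (Vtx.vert Vrt.oo)).red (Nm g) =
        (N.S (Vtx.vert Vrt.oo)).red g *
          ∏ m, @Algebra.norm (FkOf Fk0 FkM FkP (Vtx.vert Vrt.oo))
            (FkOf Fk0 FkM FkP (Vtx.vert (Vrt.mid m))) _ _ (inst m)
            ((N.S (Vtx.vert (Vrt.mid m))).red g) := by
  generalize N.S = S at hN
  subst hN
  intro g hg _
  exact h g (hg (Vtx.vert Vrt.oo)) (fun m => hg (Vtx.vert (Vrt.mid m)))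

include hN in
/-- **`red_mid` of `normLayer1_of`** from the statement for the plain setups. -/
theorem nla_red_mid_oo (inst : ∀ m, Algebra Fk0 (FkM m)) (Nm : F → F)
    (h : ∀ g : F, g ∈ Soo.Ov → (∀ m, g ∈ (Sm m).Ov) → ∀ m,
      (Sm m).red (Nm g) = @algebraMap Fk0 (FkM m) _ _ (inst m) (Soo.red (Nm g))) :
    ∀ g : F, (∀ c, g ∈ (N.S c).Ov) → (∀ c, (N.S c).red g ≠ 0) → ∀ m,
      (N.S (Vtx.vert (Vrt.mid m))).red (Nm g) =
        @algebraMap (FkOf Fk0 FkM FkP (Vtx.vert Vrt.oo))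
          (FkOf Fk0 FkM FkP (Vtx.vert (Vrt.mid m))) _ _ (inst m)
          ((N.S (Vtx.vert Vrt.oo)).red (Nm g)) := by
  generalize N.S = S at hN
  subst hN
  intro g hg _ m
  exact h g (hg (Vtx.vert Vrt.oo)) (fun m => hg (Vtx.vert (Vrt.mid m))) m

include hN in
/-- **`red_zero` of `normLayer1_of`** from the statement for the plain setup `S0`. -/
theorem nla_red_pow_zero (q : ℕ) (Nm : F → F)
    (h : ∀ g : F, g ∈ S0.Ov → S0.red (Nm g) = S0.red g ^ q) :
    ∀ g : F, (∀ c, g ∈ (N.S c).Ov) → (∀ c, (N.S c).red g ≠ 0) →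
      (N.S (Vtx.vert Vrt.zero)).red (Nm g) = (N.S (Vtx.vert Vrt.zero)).red g ^ q := by
  generalize N.S = S at hN
  subst hN
  intro g hg _
  exact h g (hg (Vtx.vert Vrt.zero))

/-! ### the layer over `0` -/

include hN in
/-- **`red_zero` of `normLayer2_of`** from the norm formula for the plain setups. -/
theorem nla_red_norm_zero (inst : ∀ m, Algebra Fk0 (FkM m)) (Nm : F → F)
    (h : ∀ g : F, g ∈ S0.Ov → (∀ m, g ∈ (Sm m).Ov) →
      S0.red (Nm g) = S0.red g *
        ∏ m, @Algebra.norm Fk0 (FkM m) _ _ (inst m) ((Sm m).red g)) :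
    ∀ g : F, (∀ c, g ∈ (N.S c).Ov) → (∀ c, (N.S c).red g ≠ 0) →
      (N.S (Vtx.vert Vrt.zero)).red (Nm g) =
        (N.S (Vtx.vert Vrt.zero)).red g *
          ∏ m, @Algebra.norm (FkOf Fk0 FkM FkP (Vtx.vert Vrt.zero))
            (FkOf Fk0 FkM FkP (Vtx.vert (Vrt.mid m))) _ _ (inst m)
            ((N.S (Vtx.vert (Vrt.mid m))).red g) := by
  generalize N.S = S at hN
  subst hN
  intro g hg _
  exact h g (hg (Vtx.vert Vrt.zero)) (fun m => hg (Vtx.vert (Vrt.mid m)))

include hN in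
/-- **`red_mid` of `normLayer2_of`** from the statement for the plain setups. -/
theorem nla_red_mid_zero (inst : ∀ m, Algebra Fk0 (FkM m)) (Nm : F → F)
    (h : ∀ g : F, g ∈ S0.Ov → (∀ m, g ∈ (Sm m).Ov) → ∀ m,
      (Sm m).red (Nm g) = @algebraMap Fk0 (FkM m) _ _ (inst m) (S0.red (Nm g))) :
    ∀ g : F, (∀ c, g ∈ (N.S c).Ov) → (∀ c, (N.S c).red g ≠ 0) → ∀ m,
      (N.S (Vtx.vert (Vrt.mid m))).red (Nm g) =
        @algebraMap (FkOf Fk0 FkM FkP (Vtx.vert Vrt.zero))
          (FkOf Fk0 FkM FkP (Vtx.vert (Vrt.mid m))) _ _ (inst m)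
          ((N.S (Vtx.vert Vrt.zero)).red (Nm g)) := by
  generalize N.S = S at hN
  subst hN
  intro g hg _ m
  exact h g (hg (Vtx.vert Vrt.zero)) (fun m => hg (Vtx.vert (Vrt.mid m))) m

include hN in
/-- **`red_oo` of `normLayer2_of`** from the statement for the plain setup `Soo`. -/
theorem nla_red_pow_oo (q : ℕ) (Nm : F → F)
    (h : ∀ g : F, g ∈ Soo.Ov → Soo.red (Nm g) = Soo.red g ^ q) :
    ∀ g : F, (∀ c, g ∈ (N.S c).Ov) → (∀ c, (N.S c).red g ≠ 0) →
      (N.S (Vtx.vert Vrt.oo)).red (Nm g) = (N.S (Vtx.vert Vrt.oo)).red g ^ q := by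
  generalize N.S = S at hN
  subst hN
  intro g hg _
  exact h g (hg (Vtx.vert Vrt.oo))

/-! ### variants with the non-vanishing of the reduction -/

include hN in
/-- **`red_zero` of `normLayer1_of`** from the statement for the plain setup `S0` (with the
non-vanishing of the reduction). -/
theorem nla_red_pow_zero_ne (q : ℕ) (Nm : F → F)
    (h : ∀ g : F, g ∈ S0.Ov → S0.red g ≠ 0 → S0.red (Nm g) = S0.red g ^ q) :
    ∀ g : F, (∀ c, g ∈ (N.S c).Ov) → (∀ c, (N.S c).red g ≠ 0) →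
      (N.S (Vtx.vert Vrt.zero)).red (Nm g) = (N.S (Vtx.vert Vrt.zero)).red g ^ q := by
  generalize N.S = S at hN
  subst hN
  intro g hg hne
  exact h g (hg (Vtx.vert Vrt.zero)) (hne (Vtx.vert Vrt.zero))

include hN in
/-- **`red_oo` of `normLayer2_of`** from the statement for the plain setup `Soo` (with the
non-vanishing of the reduction). -/
theorem nla_red_pow_oo_ne (q : ℕ) (Nm : F → F)
    (h : ∀ g : F, g ∈ Soo.Ov → Soo.red g ≠ 0 → Soo.red (Nm g) = Soo.red g ^ q) :
    ∀ g : F, (∀ c, g ∈ (N.S c).Ov) → (∀ c, (N.S c).red g ≠ 0) →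
      (N.S (Vtx.vert Vrt.oo)).red (Nm g) = (N.S (Vtx.vert Vrt.oo)).red g ^ q := by
  generalize N.S = S at hN
  subst hN
  intro g hg hne
  exact h g (hg (Vtx.vert Vrt.oo)) (hne (Vtx.vert Vrt.oo))

end Fermat.Agent.S36G
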