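import Mathlib
import Fermat.Agent.S36.G.NrOO
import Fermat.Agent.S36.Igusa.Pack

set_option autoImplicit false
set_option linter.unusedSectionVars false
set_option linter.style.haveILetI false
set_option linter.unusedVariables false

/-!
# Cluster G (S36), seat NR-OO, PACK form  (helper94)

The residue fields `red_oo` of `NormLayer1` and `red_zero` of `NormLayer2` for the middle
constant reductions of an Igusa pair `I : IgPack M₀ q A` (`Mid = Fin (midCard q)`), at an
auxiliary level (`nuTwo M₀ = 0`, `nuThree M₀ = 0`): NO hypothesis is left except the integrality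
of `g`.

* `igPack_red_oo`   : `Soo.red (nm1 g) = Soo.red g * ∏ m, nm ((I.S m).red g)`;
* `igPack_red_zero` : `S0.red (nm2 g) = S0.red g * ∏ m, nm ((I.S m).red g)`;
* `igPack_finrank`  : `igField k M₀` is finite of degree `midDeg q` over `F_k(M₀)` (`nrooAlg`);
* `igPack_count`    : `midDeg q * |Mid| + 1 = q`  (the field `hq` of `CoreBundle`, `e = midDeg q`).
-/

noncomputable section

namespace Fermat.Agent.S36G

open ModularCurve AlgebraicCurve Fermat.Agent.F3 Fermat.Agent.F3G Fermat.Agent.GaussInt
  Fermat.Agent.AtkinLehner Fermat.Agent.Kronecker Fermat.Agent.BadRed Fermat.Agent.Deuring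
  Fermat.Agent.S36N

local notation "Qb" => AlgebraicClosure ℚ

set_option synthInstance.maxHeartbeats 400000

/-- shortcut (the instance found by unification is the same term, after a slow search). -/
local instance (priority := 10000) nrooPackAlgFullC (A : ValuationSubring Qb) (N : ℕ) :
    Algebra (IsLocalRing.ResidueField A)
      (modularFunctionFieldFullC (IsLocalRing.ResidueField A) N) :=
  SubalgebraClass.toAlgebra (modularFunctionFieldFullC (IsLocalRing.ResidueField A) N)

/-- shortcut. -/
local instance (priority := 10000) nrooPackAlgIg (A : ValuationSubring Qb) (N : ℕ) :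
    Algebra (IsLocalRing.ResidueField A) (igField (IsLocalRing.ResidueField A) N) :=
  SubalgebraClass.toAlgebra (igField (IsLocalRing.ResidueField A) N)

variable {M₀ q : ℕ} [NeZero M₀] [NeZero q] {A : ValuationSubring Qb}

/-- `midDeg q * |Mid| + 1 = q` for `Mid = Fin (midCard q)`. -/
theorem igPack_count (hq : q.Prime) :
    midDeg q * Fintype.card (Fin (midCard q)) + 1 = q := by
  have h := nroo_count (Mid := Fin (midCard q)) hq (Fintype.card_fin _)
  rw [mul_comm, add_comm]
  exact h

variable (I : IgPack M₀ q A) (hq : q.Prime) (hqM : ¬ q ∣ M₀) (hA : A.LiesOverPrime q)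
  (hν2 : nuTwo M₀ = 0) (hν3 : nuThree M₀ = 0)
  (Soo : ValSetup Qb (FBar (M₀ * q * q)) (IsLocalRing.ResidueField A)
    (modularFunctionFieldFullC (IsLocalRing.ResidueField A) M₀))
  (hSoo : IsGaussSetup (M₀ * q * q) M₀ A Soo)

include hq hqM hA hν2 hν3 hSoo in
/-- **`NormLayer1.red_oo`** for the Igusa pair. -/
theorem igPack_red_oo {g : FBar (M₀ * q * q)} (hg : g ∈ Soo.Ov) (hgm : ∀ m, g ∈ (I.S m).Ov) :
    nm1 (M₀ * q) q g ∈ Soo.Ov ∧
      Soo.red (nm1 (M₀ * q) q g) =
        Soo.red g * ∏ m, nrooNm (IsLocalRing.ResidueField A) M₀ ((I.S m).red g) :=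
  nroo_red_oo hq hqM hA I.z I.prim I.ε I.isMidExp Soo hSoo I.S I.isMidSetup
    (igPowIndepRes_of_degreeRes M₀ q (igDegreeRes_aux M₀ q hν2 hν3)) (Fintype.card_fin _)
    I.indep hg hgm

include hq hqM hA hν2 hν3 hSoo in
/-- **`NormLayer2.red_zero`** for the Igusa pair. -/
theorem igPack_red_zero (D : ALData) (hM : M₀ * q * q = D.Q * D.R) (hQ : D.Q = q ^ 2)
    {g : FBar (M₀ * q * q)} (hg : g ∈ (valSetupZeroAt D hM Soo).Ov)
    (hgm : ∀ m, g ∈ (I.S m).Ov) :
    nm2 (M₀ * q) q D hM g ∈ (valSetupZeroAt D hM Soo).Ov ∧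
      (valSetupZeroAt D hM Soo).red (nm2 (M₀ * q) q D hM g) =
        (valSetupZeroAt D hM Soo).red g *
          ∏ m, nrooNm (IsLocalRing.ResidueField A) M₀ ((I.S m).red g) :=
  nroo_red_zero hq hqM hA D hM hQ I.z I.prim I.ε I.isMidExp Soo hSoo I.S I.isMidSetup
    (igPowIndepRes_of_degreeRes M₀ q (igDegreeRes_aux M₀ q hν2 hν3)) (Fintype.card_fin _)
    I.indep hg hgm

include I hq hqM hA hν2 hν3 in
/-- the residue degree of the middle valuations (for the algebra structure `nrooAlg`). -/
theorem igPack_finrank :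
    @Module.Finite ↥(modularFunctionFieldFullC (IsLocalRing.ResidueField A) M₀)
        ↥(igField (IsLocalRing.ResidueField A) M₀) _ _
        (nrooAlg (IsLocalRing.ResidueField A) M₀).toModule ∧
      @Module.finrank ↥(modularFunctionFieldFullC (IsLocalRing.ResidueField A) M₀)
        ↥(igField (IsLocalRing.ResidueField A) M₀) _ _
        (nrooAlg (IsLocalRing.ResidueField A) M₀).toModule = midDeg q := by
  obtain ⟨Soo, hSoo, -⟩ := exists_isGaussSetup_sq hq hqM A hA (M₀ * q * q) (by ring)
  have hpos : 0 < midCard q := by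
    unfold midCard
    split_ifs <;> norm_num
  exact nroo_finrank hq hqM hA I.z I.prim I.ε I.isMidExp Soo hSoo I.S I.isMidSetup
    (igPowIndepRes_of_degreeRes M₀ q (igDegreeRes_aux M₀ q hν2 hν3)) (Fintype.card_fin _)
    I.indep ⟨0, hpos⟩

end Fermat.Agent.S36G
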