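import Mathlib
import Fermat.Agent.S36.G.NrOOPack
import Fermat.Agent.S36.G.NormLayerAbs

set_option autoImplicit false
set_option linter.unusedSectionVars false
set_option linter.style.haveILetI false
set_option linter.unusedVariables false

/-!
# Cluster G (S36), block COC: the NORM arguments (RES) of the norm layers  (helper94)

`F = F_{M₀ q q}`, `k` the residue field of `A ∣ q`, `Soo` a Gauss setup, `S0 = valSetupZeroAt D hM Soo`
(`D.Q = q ^ 2`), `Sm m` the middle setups (pairwise incomparable, `|Mid| = midCard q`), the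
algebra structure of `igField k M₀` over `F_k(M₀)` is `nrooAlg k M₀` (the inclusion).

PLAIN form (the hypothesis `h` of `nla_red_norm_oo`, `nla_red_norm_zero`, `S36/G/NormLayerAbs.lean`,
VERBATIM; only the integrality of `g` is used):

* `nlr_norm_oo`, `nlr_norm_zero`           : for any system `z, ε, Sm`;
* `nlr_pack_norm_oo`, `nlr_pack_norm_zero` : for an Igusa pair `I : IgPack M₀ q A`
  (`Mid = Fin (midCard q)`, auxiliary level `nuTwo M₀ = 0`, `nuThree M₀ = 0`).

USE (the arguments `red_oo` of `normLayer1_of` and `red_zero` of `normLayer2_of`, for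
`N.S = vtxFamily Soo (valSetupZeroAt D hM Soo) Sm SP`):
`nla_red_norm_oo N hN (fun _ => nrooAlg k M₀) _ (nlr_pack_norm_oo I hq hqM hA hν2 hν3 Soo hSoo)`,
`nla_red_norm_zero N hN (fun _ => nrooAlg k M₀) _ (nlr_pack_norm_zero I .. Soo hSoo D hM hQ)`.

The degree (the argument `hdeg`, `e = midDeg q`):

* `nlr_finrank`, `nlr_pack_finrank` : `[igField k M₀ : F_k(M₀)] = midDeg q` for `nrooAlg`.
-/

noncomputable section

namespace Fermat.Agent.S36G

open ModularCurve AlgebraicCurve Fermat.Agent.F3 Fermat.Agent.F3G Fermat.Agent.GaussInt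
  Fermat.Agent.AtkinLehner Fermat.Agent.Kronecker Fermat.Agent.BadRed Fermat.Agent.Deuring
  Fermat.Agent.S36N Fermat.Agent.BadRedG

local notation "Qb" => AlgebraicClosure ℚ

set_option synthInstance.maxHeartbeats 400000

/-- shortcut (the instance found by unification is the same term, after a slow search). -/
local instance (priority := 10000) nlrAlgFullC (A : ValuationSubring Qb) (N : ℕ) :
    Algebra (IsLocalRing.ResidueField A)
      (modularFunctionFieldFullC (IsLocalRing.ResidueField A) N) :=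
  SubalgebraClass.toAlgebra (modularFunctionFieldFullC (IsLocalRing.ResidueField A) N)

/-- shortcut. -/
local instance (priority := 10000) nlrAlgIg (A : ValuationSubring Qb) (N : ℕ) :
    Algebra (IsLocalRing.ResidueField A) (igField (IsLocalRing.ResidueField A) N) :=
  SubalgebraClass.toAlgebra (igField (IsLocalRing.ResidueField A) N)

/-! ### the plain form -/

section Plain

variable {M₀ q : ℕ} [NeZero M₀] [NeZero q] {A : ValuationSubring Qb}
  (hq : q.Prime) (hqM : ¬ q ∣ M₀) (hA : A.LiesOverPrime q)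
  {Mid : Type} [Fintype Mid]
  (z : Mid → Qbˣ) (hz : ∀ m, IsPrimitiveRoot (z m) q)
  (ε : Mid → (FBar (M₀ * q * q) →ₐ[Qb] LaurentSeries Qb))
  (hε : ∀ m, IsMidExp M₀ q (z m) (ε m))
  (Soo : ValSetup Qb (FBar (M₀ * q * q)) (IsLocalRing.ResidueField A)
    (modularFunctionFieldFullC (IsLocalRing.ResidueField A) M₀))
  (hSoo : IsGaussSetup (M₀ * q * q) M₀ A Soo)
  (Sm : Mid → ValSetup Qb (FBar (M₀ * q * q)) (IsLocalRing.ResidueField A)
    (igField (IsLocalRing.ResidueField A) M₀))
  (hSm : ∀ m, IsMidSetup M₀ q A (ε m) (Sm m))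

include hq hqM hA hz hε hSoo hSm in
/-- **the norm formula over `∞`**, in the shape of the hypothesis `h` of `nla_red_norm_oo`. -/
theorem nlr_norm_oo (hPow : IgPowIndepRes M₀ q) (hcard : Fintype.card Mid = midCard q)
    (hne : ∀ m m', m ≠ m' → ¬ (Sm m).Ov ≤ (Sm m').Ov) :
    ∀ g : FBar (M₀ * q * q), g ∈ Soo.Ov → (∀ m, g ∈ (Sm m).Ov) →
      Soo.red (nm1 (M₀ * q) q g) = Soo.red g *
        ∏ m, @Algebra.norm ↥(modularFunctionFieldFullC (IsLocalRing.ResidueField A) M₀)
          ↥(igField (IsLocalRing.ResidueField A) M₀) _ _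
          (nrooAlg (IsLocalRing.ResidueField A) M₀) ((Sm m).red g) := by
  intro g hg hgm
  have h := (nroo_red_oo hq hqM hA z hz ε hε Soo hSoo Sm hSm hPow hcard hne hg hgm).2
  simp only [nrooNm_apply] at h
  exact h

include hq hqM hA hz hε hSoo hSm in
/-- **the norm formula over `0`**, in the shape of the hypothesis `h` of `nla_red_norm_zero`. -/
theorem nlr_norm_zero (D : ALData) (hM : M₀ * q * q = D.Q * D.R) (hQ : D.Q = q ^ 2)
    (hPow : IgPowIndepRes M₀ q) (hcard : Fintype.card Mid = midCard q)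
    (hne : ∀ m m', m ≠ m' → ¬ (Sm m).Ov ≤ (Sm m').Ov) :
    ∀ g : FBar (M₀ * q * q), g ∈ (valSetupZeroAt D hM Soo).Ov → (∀ m, g ∈ (Sm m).Ov) →
      (valSetupZeroAt D hM Soo).red (nm2 (M₀ * q) q D hM g) =
        (valSetupZeroAt D hM Soo).red g *
          ∏ m, @Algebra.norm ↥(modularFunctionFieldFullC (IsLocalRing.ResidueField A) M₀)
            ↥(igField (IsLocalRing.ResidueField A) M₀) _ _
            (nrooAlg (IsLocalRing.ResidueField A) M₀) ((Sm m).red g) := by
  intro g hg hgm
  have h := (nroo_red_zero hq hqM hA D hM hQ z hz ε hε Soo hSoo Sm hSm hPow hcard hne hg hgm).2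
  simp only [nrooNm_apply] at h
  exact h

include hq hqM hA hz hε hSoo hSm in
/-- **the argument `hdeg`** (`e = midDeg q`) for the algebra structure `nrooAlg`. -/
theorem nlr_finrank (hPow : IgPowIndepRes M₀ q) (hcard : Fintype.card Mid = midCard q)
    (hne : ∀ m m', m ≠ m' → ¬ (Sm m).Ov ≤ (Sm m').Ov) (m : Mid) :
    @Module.finrank ↥(modularFunctionFieldFullC (IsLocalRing.ResidueField A) M₀)
      ↥(igField (IsLocalRing.ResidueField A) M₀) _ _
      (nrooAlg (IsLocalRing.ResidueField A) M₀).toModule = midDeg q :=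
  (nroo_finrank hq hqM hA z hz ε hε Soo hSoo Sm hSm hPow hcard hne m).2

end Plain

/-! ### the plain form for an Igusa pair -/

section Pack

variable {M₀ q : ℕ} [NeZero M₀] [NeZero q] {A : ValuationSubring Qb}
  (I : IgPack M₀ q A) (hq : q.Prime) (hqM : ¬ q ∣ M₀) (hA : A.LiesOverPrime q)
  (hν2 : nuTwo M₀ = 0) (hν3 : nuThree M₀ = 0)
  (Soo : ValSetup Qb (FBar (M₀ * q * q)) (IsLocalRing.ResidueField A)
    (modularFunctionFieldFullC (IsLocalRing.ResidueField A) M₀))
  (hSoo : IsGaussSetup (M₀ * q * q) M₀ A Soo)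

include hq hqM hA hν2 hν3 hSoo in
/-- **the norm formula over `∞` for an Igusa pair** (the hypothesis `h` of `nla_red_norm_oo`). -/
theorem nlr_pack_norm_oo :
    ∀ g : FBar (M₀ * q * q), g ∈ Soo.Ov → (∀ m, g ∈ (I.S m).Ov) →
      Soo.red (nm1 (M₀ * q) q g) = Soo.red g *
        ∏ m, @Algebra.norm ↥(modularFunctionFieldFullC (IsLocalRing.ResidueField A) M₀)
          ↥(igField (IsLocalRing.ResidueField A) M₀) _ _
          (nrooAlg (IsLocalRing.ResidueField A) M₀) ((I.S m).red g) :=
  nlr_norm_oo hq hqM hA I.z I.prim I.ε I.isMidExp Soo hSoo I.S I.isMidSetup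
    (igPowIndepRes_of_degreeRes M₀ q (igDegreeRes_aux M₀ q hν2 hν3)) (Fintype.card_fin _)
    I.indep

include hq hqM hA hν2 hν3 hSoo in
/-- **the norm formula over `0` for an Igusa pair** (the hypothesis `h` of
`nla_red_norm_zero`). -/
theorem nlr_pack_norm_zero (D : ALData) (hM : M₀ * q * q = D.Q * D.R) (hQ : D.Q = q ^ 2) :
    ∀ g : FBar (M₀ * q * q), g ∈ (valSetupZeroAt D hM Soo).Ov → (∀ m, g ∈ (I.S m).Ov) →
      (valSetupZeroAt D hM Soo).red (nm2 (M₀ * q) q D hM g) =
        (valSetupZeroAt D hM Soo).red g *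
          ∏ m, @Algebra.norm ↥(modularFunctionFieldFullC (IsLocalRing.ResidueField A) M₀)
            ↥(igField (IsLocalRing.ResidueField A) M₀) _ _
            (nrooAlg (IsLocalRing.ResidueField A) M₀) ((I.S m).red g) :=
  nlr_norm_zero hq hqM hA I.z I.prim I.ε I.isMidExp Soo hSoo I.S I.isMidSetup D hM hQ
    (igPowIndepRes_of_degreeRes M₀ q (igDegreeRes_aux M₀ q hν2 hν3)) (Fintype.card_fin _)
    I.indep

include I hq hqM hA hν2 hν3 in
/-- **the argument `hdeg`** (`e = midDeg q`) for an Igusa pair. -/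
theorem nlr_pack_finrank :
    @Module.finrank ↥(modularFunctionFieldFullC (IsLocalRing.ResidueField A) M₀)
      ↥(igField (IsLocalRing.ResidueField A) M₀) _ _
      (nrooAlg (IsLocalRing.ResidueField A) M₀).toModule = midDeg q :=
  (igPack_finrank I hq hqM hA hν2 hν3).2

end Pack

end Fermat.Agent.S36G
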