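import Mathlib
import Fermat.Agent.S36.G.CocycleF12Mod
import Fermat.Agent.S36.Igusa.Lies
import Fermat.Agent.S36.Igusa.Theta
import Fermat.Agent.S36.Val.Restr

set_option autoImplicit false
set_option linter.unusedSectionVars false
set_option linter.style.haveILetI false
set_option linter.unusedVariables false

/-!
# Cluster G (S36), seat NR-MID: the fields `red_mid` of `NormLayer1`, `NormLayer2`  (helper83)

`q` prime, `A ∣ q`, `k` the residue field of `A`, `F = F_{M₀ q q}`, `F₁ = F_{M₀ q}`,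
`α = heckeAlphaBar` (`π₁^*`), `W = wAt D hM` (`w_{q²}`, `D.Q = q * q`, `D.R = M₀`).
`Soo` a Gauss setup of `F` (`IsGaussSetup`), `S0 = valSetupZeroAt D hM Soo`, `Sm` the constant
reduction of a middle expansion `ε` (`IsMidExp M₀ q z ε`, `IsMidSetup M₀ q A ε Sm`).

* `nrMidJm k M₀`          : `jm`, the inclusion `F_k(M₀) → igField k M₀` as a ring homomorphism;
* `nrMid_scaleL_res`      : `q ↦ z q` (`z ^ q = 1`) is the identity on the residues of the Gauss
                            ring of `ℚ̄((q))`;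
* `nrMid_eps_wAt_alpha`   : `ε (W (α x)) = x (z q)` for all `x ∈ F₁`;
* `nrMid_red_alpha`       : `Sm.red (α x) = jm (Soo.red (α x))` for ALL `x ∈ F₁`;
* `nrMid_red_wAt_alpha`   : `Sm.red (W (α x)) = jm (S0.red (W (α x)))` for ALL `x ∈ F₁`;
* `nrMid_red_mid1`        : `Sm.red (nm1 g) = jm (Soo.red (nm1 g))`  (`NormLayer1.red_mid`);
* `nrMid_red_mid2`        : `Sm.red (nm2 g) = jm (S0.red (nm2 g))`   (`NormLayer2.red_mid`).

No hypothesis on `g` is needed (both sides vanish outside the valuation rings).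
-/

noncomputable section

namespace Fermat.Agent.S36G

open ModularCurve AlgebraicCurve Fermat.Agent.F3 Fermat.Agent.F3G Fermat.Agent.GaussInt
  Fermat.Agent.AtkinLehner Fermat.Agent.Kronecker Fermat.Agent.BadRed Fermat.Agent.Deuring
  Fermat.Agent.S36N

local notation "Qb" => AlgebraicClosure ℚ

attribute [local instance 10000] SubalgebraClass.toAlgebra HahnSeries.powerSeriesAlgebra

set_option synthInstance.maxHeartbeats 400000

/-- shortcut (the instance found by unification is the same term, after a slow search). -/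
local instance (priority := 10000) nrMidAlgFullC (A : ValuationSubring Qb) (N : ℕ) :
    Algebra (IsLocalRing.ResidueField A)
      (modularFunctionFieldFullC (IsLocalRing.ResidueField A) N) :=
  SubalgebraClass.toAlgebra (modularFunctionFieldFullC (IsLocalRing.ResidueField A) N)

/-- shortcut. -/
local instance (priority := 10000) nrMidAlgIg (A : ValuationSubring Qb) (N : ℕ) :
    Algebra (IsLocalRing.ResidueField A) (igField (IsLocalRing.ResidueField A) N) :=
  SubalgebraClass.toAlgebra (igField (IsLocalRing.ResidueField A) N)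

/-! ### the inclusion `jm` -/

/-- **`jm`**: the inclusion of the residue field `F_k(M₀)` of `v_∞` (and of `v_0`) in the
residue field `igField k M₀` of a middle valuation. -/
def nrMidJm (k : Type*) [Field k] (M₀ : ℕ) :
    ↥(modularFunctionFieldFullC k M₀) →+* ↥(igField k M₀) :=
  (IntermediateField.inclusion (fullC_le_igField k M₀)).toRingHom

theorem coe_nrMidJm (k : Type*) [Field k] (M₀ : ℕ) (y : ↥(modularFunctionFieldFullC k M₀)) :
    ((nrMidJm k M₀ y : ↥(igField k M₀)) : LaurentSeries k) = (y : LaurentSeries k) :=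
  IntermediateField.coe_inclusion _ y

theorem nrMidJm_eq_inclusion (k : Type*) [Field k] (M₀ : ℕ)
    (y : ↥(modularFunctionFieldFullC k M₀)) :
    nrMidJm k M₀ y = IntermediateField.inclusion (fullC_le_igField k M₀) y := rfl

/-! ### `q ↦ z q` on the Gauss ring of `ℚ̄((q))` -/

section Scale

variable {K : Type*} [Field K] (A : ValuationSubring K)

/-- `q ↦ u q`, `u ∈ Aˣ`, preserves the presentations. -/
theorem nrMid_isPres_scaleL (u : (↥A)ˣ) {f : LaurentSeries K} {Y₁ Y₂ : LaurentSeries ↥A}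
    (h : IsPres A (⊤ : IntermediateField K (LaurentSeries K)) f Y₁ Y₂) :
    IsPres A (⊤ : IntermediateField K (LaurentSeries K))
      (scaleL (Units.map (A.subtype : ↥A →* K) u) f) (scaleL u Y₁) (scaleL u Y₂) where
  mem₁ := IntermediateField.mem_top
  mem₂ := IntermediateField.mem_top
  prim := by
    have e : red A (scaleL u Y₂) =
        scaleL (Units.map ((IsLocalRing.residue ↥A : ↥A →+* IsLocalRing.ResidueField ↥A) :
          ↥A →* IsLocalRing.ResidueField ↥A) u) (red A Y₂) :=
      coeffMap_scaleL (IsLocalRing.residue ↥A) u Y₂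
    rw [e]
    exact (map_ne_zero _).mpr h.prim
  eq := by
    have e₁ : emb A (scaleL u Y₁) = scaleL (Units.map (A.subtype : ↥A →* K) u) (emb A Y₁) :=
      coeffMap_scaleL A.subtype u Y₁
    have e₂ : emb A (scaleL u Y₂) = scaleL (Units.map (A.subtype : ↥A →* K) u) (emb A Y₂) :=
      coeffMap_scaleL A.subtype u Y₂
    rw [e₁, e₂, ← map_mul, h.eq]

/-- the residue of `f (u q)` is `f̄ (ū q)`. -/
theorem nrMid_gaussResFun_scaleL (u : (↥A)ˣ) {f : LaurentSeries K}
    (hf : f ∈ gaussSub A (⊤ : IntermediateField K (LaurentSeries K))) :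
    gaussResFun A (⊤ : IntermediateField K (LaurentSeries K))
        (scaleL (Units.map (A.subtype : ↥A →* K) u) f) =
      scaleL (Units.map ((IsLocalRing.residue ↥A : ↥A →+* IsLocalRing.ResidueField ↥A) :
          ↥A →* IsLocalRing.ResidueField ↥A) u)
        (gaussResFun A (⊤ : IntermediateField K (LaurentSeries K)) f) := by
  obtain ⟨Y₁, Y₂, h⟩ := hf
  rw [gaussResFun_eq (nrMid_isPres_scaleL A u h), gaussResFun_eq h, map_div₀]
  congr 1
  · exact coeffMap_scaleL (IsLocalRing.residue ↥A) u Y₁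
  · exact coeffMap_scaleL (IsLocalRing.residue ↥A) u Y₂

/-- the residue function vanishes outside the Gauss ring. -/
theorem nrMid_gaussResFun_of_not_mem (F : IntermediateField K (LaurentSeries K))
    {f : LaurentSeries K} (hf : f ∉ gaussSub A F) : gaussResFun A F f = 0 := by
  unfold gaussResFun
  rw [dif_neg]
  exact hf

/-- `f (u q)` is in the Gauss ring iff `f` is. -/
theorem nrMid_scaleL_mem_iff (u : (↥A)ˣ) (f : LaurentSeries K) :
    scaleL (Units.map (A.subtype : ↥A →* K) u) f ∈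
        gaussSub A (⊤ : IntermediateField K (LaurentSeries K)) ↔
      f ∈ gaussSub A (⊤ : IntermediateField K (LaurentSeries K)) := by
  constructor
  · rintro ⟨Y₁, Y₂, h⟩
    have h' := nrMid_isPres_scaleL A u⁻¹ h
    have e : scaleL (Units.map (A.subtype : ↥A →* K) u⁻¹)
        (scaleL (Units.map (A.subtype : ↥A →* K) u) f) = f := by
      rw [← scaleL_mul, ← map_mul, inv_mul_cancel, map_one, scaleL_one]
    rw [e] at h'
    exact ⟨_, _, h'⟩
  · rintro ⟨Y₁, Y₂, h⟩
    exact ⟨_, _, nrMid_isPres_scaleL A u h⟩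

end Scale

section ScaleQ

variable {q : ℕ} (hq : q.Prime) (A : ValuationSubring Qb) (hA : A.LiesOverPrime q)

include hq hA in
/-- **`q ↦ z q`, `z ^ q = 1`, is the identity on the residues.** -/
theorem nrMid_scaleL_res (z : Qbˣ) (hz : z ^ q = 1) (f : LaurentSeries Qb) :
    gaussResFun A (⊤ : IntermediateField Qb (LaurentSeries Qb)) (scaleL z f) =
      gaussResFun A (⊤ : IntermediateField Qb (LaurentSeries Qb)) f := by
  have hzu : Units.map (A.subtype : ↥A →* Qb) (igRootUnit A hq.pos z hz) = z :=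
    igRootUnit_map A hq.pos z hz
  by_cases hf : f ∈ gaussSub A (⊤ : IntermediateField Qb (LaurentSeries Qb))
  · have h := nrMid_gaussResFun_scaleL A (igRootUnit A hq.pos z hz) hf
    rw [hzu, igRootUnit_res A hq hA z hz, scaleL_one] at h
    exact h
  · have hf' : scaleL z f ∉ gaussSub A (⊤ : IntermediateField Qb (LaurentSeries Qb)) := by
      intro h
      apply hf
      rw [← hzu] at h
      exact (nrMid_scaleL_mem_iff A (igRootUnit A hq.pos z hz) f).mp h
    rw [nrMid_gaussResFun_of_not_mem A _ hf, nrMid_gaussResFun_of_not_mem A _ hf']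

end ScaleQ

/-! ### the residues of the constant reductions, for ALL functions -/

section Coe

variable {q : ℕ} (hq : q.Prime) (A : ValuationSubring Qb) (hA : A.LiesOverPrime q)

include hq hA in
/-- the residue of a Gauss setup is the residue in the Gauss ring of `ℚ̄((q))`, for ALL `f`. -/
theorem nrMid_coe_red_gauss {M N₀ : ℕ} [NeZero M] [NeZero N₀]
    (S : ValSetup Qb (FBar M) (IsLocalRing.ResidueField A)
      (modularFunctionFieldFullC (IsLocalRing.ResidueField A) N₀))
    (hS : IsGaussSetup M N₀ A S) (f : FBar M) :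
    ((S.red f : modularFunctionFieldFullC (IsLocalRing.ResidueField A) N₀) :
        LaurentSeries (IsLocalRing.ResidueField A)) =
      gaussResFun A (⊤ : IntermediateField Qb (LaurentSeries Qb)) (f : LaurentSeries Qb) := by
  by_cases hf : f ∈ S.Ov
  · have h1 : (f : LaurentSeries Qb) ∈ gaussSub A (modularFunctionFieldBar M) :=
      (hS.mem_iff f).mp hf
    rw [hS.coe_red f hf, gaussResFun_mono le_top h1]
  · have h1 : (f : LaurentSeries Qb) ∉
        gaussSub A (⊤ : IntermediateField Qb (LaurentSeries Qb)) := by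
      intro h
      apply hf
      have h2 : f ∈ gaussOv M hq A hA := (ig_mem_gaussSub_top_iff M hq A hA f).mp h
      have h3 : (f : LaurentSeries Qb) ∈ gaussSub A (modularFunctionFieldBar M) :=
        (mem_gaussValSub_iff _ f).mp h2
      exact (hS.mem_iff f).mpr h3
    rw [S.red_of_not_mem hf, nrMid_gaussResFun_of_not_mem A _ h1]
    rfl

/-- the residue of a middle setup is the residue of the expansion, for ALL `f`. -/
theorem nrMid_coe_red_mid {M₀ : ℕ} [NeZero M₀] [NeZero q]
    {ε : ↥(modularFunctionFieldBar (M₀ * q * q)) →ₐ[Qb] LaurentSeries Qb}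
    (Sm : ValSetup Qb ↥(modularFunctionFieldBar (M₀ * q * q)) (IsLocalRing.ResidueField A)
      ↥(igField (IsLocalRing.ResidueField A) M₀))
    (hSm : IsMidSetup M₀ q A ε Sm) (f : ↥(modularFunctionFieldBar (M₀ * q * q))) :
    ((Sm.red f : ↥(igField (IsLocalRing.ResidueField A) M₀)) :
        LaurentSeries (IsLocalRing.ResidueField A)) =
      gaussResFun A (⊤ : IntermediateField Qb (LaurentSeries Qb)) (ε f) := by
  by_cases hf : f ∈ Sm.Ov
  · rw [hSm.coe_red f hf]
    rfl
  · have h1 : ε f ∉ gaussSub A (⊤ : IntermediateField Qb (LaurentSeries Qb)) := by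
      intro h
      exact hf ((hSm.mem_iff f).mpr ((mem_expOv_iff ε A f).mpr h))
    rw [Sm.red_of_not_mem hf, nrMid_gaussResFun_of_not_mem A _ h1]
    rfl

end Coe

/-! ### the middle expansion of `W (α x)` -/

section Exp

variable {M₀ q : ℕ} [NeZero M₀] [NeZero q]

/-- `q ∤ M₀` from the Atkin–Lehner data. -/
theorem nrMid_not_dvd (hq : q.Prime) (D : ALData) (hDQ : D.Q = q * q) (hDR : D.R = M₀) :
    ¬ q ∣ M₀ := by
  intro h
  have h1 : (q : ℤ) ∣ (D.Q : ℤ) * D.a - (D.R : ℤ) * D.b := by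
    apply dvd_sub
    · apply Dvd.dvd.mul_right
      rw [hDQ]
      push_cast
      exact Dvd.intro _ rfl
    · apply Dvd.dvd.mul_right
      rw [hDR]
      exact_mod_cast h
  rw [D.hdet] at h1
  have h2 : q ∣ 1 := by exact_mod_cast h1
  exact hq.one_lt.ne' (Nat.dvd_one.mp h2)

/-- **the middle expansion of `W (α x)` is `x (z q)`.** -/
theorem nrMid_eps_wAt_alpha (hq : q.Prime) {z : Qbˣ} (hz : z ^ q = 1)
    {ε : ↥(modularFunctionFieldBar (M₀ * q * q)) →ₐ[Qb] LaurentSeries Qb}
    (hε : IsMidExp M₀ q z ε) (D : ALData) (hDQ : D.Q = q * q) (hDR : D.R = M₀)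
    (hM : M₀ * q * q = D.Q * D.R) (x : FBar (M₀ * q)) :
    ε (wAt D hM (heckeAlphaBar Qb (M₀ * q) q x)) = scaleL z (x : LaurentSeries Qb) := by
  have hqM : ¬ q ∣ M₀ := nrMid_not_dvd hq D hDQ hDR
  let Φ₁ : FBar (M₀ * q) →+* LaurentSeries Qb :=
    (ε : FBar (M₀ * q * q) →+* LaurentSeries Qb).comp
      (((wAt D hM : FBar (M₀ * q * q) ≃ₐ[Qb] FBar (M₀ * q * q)) :
          FBar (M₀ * q * q) →+* FBar (M₀ * q * q)).comp
        (heckeAlphaBar Qb (M₀ * q) q).toRingHom)
  let Φ₂ : FBar (M₀ * q) →+* LaurentSeries Qb :=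
    (scaleL z).comp (algebraMap (FBar (M₀ * q)) (LaurentSeries Qb))
  have key : Φ₁ = Φ₂ := by
    apply ringHom_ext_FBar
    · intro c
      show ε (wAt D hM (heckeAlphaBar Qb (M₀ * q) q (algebraMap Qb _ c))) =
        scaleL z ((algebraMap Qb (FBar (M₀ * q)) c : FBar (M₀ * q)) : LaurentSeries Qb)
      rw [AlgHom.commutes, AlgEquiv.commutes, AlgHom.commutes]
      exact (scaleL_algebraMap z c).symm
    · intro d hdne hd
      show ε (wAt D hM (heckeAlphaBar Qb (M₀ * q) q (jdBar (M₀ * q) d hd))) =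
        scaleL z ((jdBar (M₀ * q) d hd : FBar (M₀ * q)) : LaurentSeries Qb)
      have hd' : d ∣ D.Q * D.R := by
        rw [← hM]
        exact Dvd.dvd.mul_right hd q
      obtain ⟨d₁, e₁, d₂, f₂, h1, h2, hdd⟩ := exists_factor D hd'
      obtain ⟨p1, p2, p3, p4⟩ := factor_pos D h1 h2
      haveI : NeZero d₂ := ⟨p3.ne'⟩
      haveI : NeZero (d₁ * d₂) := ⟨(Nat.mul_pos p1 p3).ne'⟩
      haveI : NeZero (e₁ * d₂) := ⟨(Nat.mul_pos p2 p3).ne'⟩
      have hd₂ : d₂ ∣ M₀ := by
        rw [← hDR, ← h2]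
        exact Dvd.intro _ rfl
      have hL := coe_wAt_of_coe_gen D hM d₁ e₁ d₂ f₂ h1 h2
        (heckeAlphaBar Qb (M₀ * q) q (jdBar (M₀ * q) d hd))
        (by rw [coe_heckeAlphaBar, coe_jdBar]; exact qExpand_congr hdd _)
      rw [coe_jdBar]
      -- `d₁ ∈ {1, q}`
      have hd₁ : d₁ ∣ q ^ 2 := by
        rw [pow_two, ← hDQ, ← h1]
        exact Dvd.intro _ rfl
      obtain ⟨i, hi, hd₁i⟩ := (Nat.dvd_prime_pow hq).mp hd₁
      have hi1 : i ≤ 1 := by
        by_contra hcon
        have hi2 : i = 2 := by omega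
        subst hi2
        -- `q² ∣ d ∣ M₀ q`
        have h3 : q ^ 2 ∣ M₀ * q := by
          refine Dvd.dvd.trans ?_ hd
          rw [hdd, hd₁i]
          exact Dvd.intro _ rfl
        have h4 : q * q ∣ M₀ * q := by rwa [pow_two] at h3
        exact hqM ((Nat.mul_dvd_mul_iff_right hq.pos).mp h4)
      rcases Nat.le_one_iff_eq_zero_or_eq_one.mp hi1 with hi0 | hi1'
      · -- `d₁ = 1`, `e₁ = q²`: `W (α j_d) = β (β j_{d₂})`
        subst hi0
        rw [pow_zero] at hd₁i
        subst hd₁i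
        rw [one_mul] at h1 hdd
        have hW : wAt D hM (heckeAlphaBar Qb (M₀ * q) q (jdBar (M₀ * q) d hd)) =
            heckeBetaBar Qb (M₀ * q) q (heckeBetaBar Qb M₀ q (jdBar M₀ d₂ hd₂)) := by
          apply Subtype.ext
          rw [hL, coe_heckeBetaBar, coe_heckeBetaBar, coe_jdBar, qExpand_qExpand,
            qExpand_qExpand]
          exact qExpand_congr (by rw [h1, hDQ]) _
        rw [hW, hε.beta2, coe_jdBar]
        congr 1
        exact qExpand_congr hdd.symm _
      · -- `d₁ = q`, `e₁ = q`: `W (α j_d) = α j_{q d₂}`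
        subst hi1'
        rw [pow_one] at hd₁i
        subst hd₁i
        have he₁ : e₁ = d₁ := by
          have h5 : d₁ * e₁ = d₁ * d₁ := by rw [h1, hDQ]
          exact Nat.eq_of_mul_eq_mul_left hq.pos h5
        subst he₁
        have hW : wAt D hM (heckeAlphaBar Qb (M₀ * e₁) e₁ (jdBar (M₀ * e₁) d hd)) =
            heckeAlphaBar Qb (M₀ * e₁) e₁ (jdBar (M₀ * e₁) d hd) := by
          apply Subtype.ext
          rw [hL, coe_heckeAlphaBar, coe_jdBar]
          exact qExpand_congr hdd.symm _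
        rw [hW, hε.alpha, coe_jdBar, scaleL_qExpand]
        congr 1
        have hzd : z ^ d = 1 := by
          rw [hdd, pow_mul, hz, one_pow]
        rw [hzd, scaleL_one]
  exact congrArg (fun Φ : FBar (M₀ * q) →+* LaurentSeries Qb => Φ x) key

end Exp

/-! ### the fields `red_mid` -/

section Main

variable {M₀ q : ℕ} [NeZero M₀] [NeZero q] (hq : q.Prime) (A : ValuationSubring Qb)
  (hA : A.LiesOverPrime q)
  (Soo : ValSetup Qb (FBar (M₀ * q * q)) (IsLocalRing.ResidueField A)
    (modularFunctionFieldFullC (IsLocalRing.ResidueField A) M₀))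
  (hSoo : IsGaussSetup (M₀ * q * q) M₀ A Soo)
  {z : Qbˣ} {ε : ↥(modularFunctionFieldBar (M₀ * q * q)) →ₐ[Qb] LaurentSeries Qb}
  (hε : IsMidExp M₀ q z ε)
  (Sm : ValSetup Qb (FBar (M₀ * q * q)) (IsLocalRing.ResidueField A)
    (igField (IsLocalRing.ResidueField A) M₀))
  (hSm : IsMidSetup M₀ q A ε Sm)

include hq hA hSoo hε hSm in
/-- **(NR-MID, `π₁`)** the residues of `α x` at `v_m` and at `v_∞` agree, for ALL `x ∈ F₁`. -/
theorem nrMid_red_alpha (x : FBar (M₀ * q)) :
    Sm.red (heckeAlphaBar Qb (M₀ * q) q x) =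
      nrMidJm (IsLocalRing.ResidueField A) M₀ (Soo.red (heckeAlphaBar Qb (M₀ * q) q x)) := by
  apply Subtype.ext
  rw [coe_nrMidJm, nrMid_coe_red_mid A Sm hSm, nrMid_coe_red_gauss hq A hA Soo hSoo,
    hε.alpha, coe_heckeAlphaBar]

include hq hA hSoo hε hSm in
/-- **(NR-MID, `π₂`)** the residues of `W (α x)` at `v_m` and at `v_0` agree, for ALL
`x ∈ F₁`. -/
theorem nrMid_red_wAt_alpha (hz : z ^ q = 1) (D : ALData) (hDQ : D.Q = q * q) (hDR : D.R = M₀)
    (hM : M₀ * q * q = D.Q * D.R) (x : FBar (M₀ * q)) :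
    Sm.red (wAt D hM (heckeAlphaBar Qb (M₀ * q) q x)) =
      nrMidJm (IsLocalRing.ResidueField A) M₀
        ((valSetupZeroAt D hM Soo).red (wAt D hM (heckeAlphaBar Qb (M₀ * q) q x))) := by
  apply Subtype.ext
  rw [coe_nrMidJm, nrMid_coe_red_mid A Sm hSm, valSetupZeroAt_red_wAt,
    nrMid_coe_red_gauss hq A hA Soo hSoo, nrMid_eps_wAt_alpha hq hz hε D hDQ hDR hM,
    nrMid_scaleL_res hq A hA z hz, coe_heckeAlphaBar]

include hq hA hSoo hε hSm in
/-- **the field `red_mid` of `NormLayer1`** (for the middle vertex of `ε`). -/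
theorem nrMid_red_mid1 (g : FBar (M₀ * q * q)) :
    Sm.red (nm1 (M₀ * q) q g) =
      nrMidJm (IsLocalRing.ResidueField A) M₀ (Soo.red (nm1 (M₀ * q) q g)) :=
  nrMid_red_alpha hq A hA Soo hSoo hε Sm hSm _

include hq hA hSoo hε hSm in
/-- **the field `red_mid` of `NormLayer2`** (for the middle vertex of `ε`). -/
theorem nrMid_red_mid2 (hz : z ^ q = 1) (D : ALData) (hDQ : D.Q = q * q) (hDR : D.R = M₀)
    (hM : M₀ * q * q = D.Q * D.R) (g : FBar (M₀ * q * q)) :
    Sm.red (nm2 (M₀ * q) q D hM g) =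
      nrMidJm (IsLocalRing.ResidueField A) M₀
        ((valSetupZeroAt D hM Soo).red (nm2 (M₀ * q) q D hM g)) :=
  nrMid_red_wAt_alpha hq A hA Soo hSoo hε Sm hSm hz D hDQ hDR hM _

end Main

end Fermat.Agent.S36G
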