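/-
Cluster G (S36), block COC, leaf COC-PLUG-1, FULL plug (helper75; sub-architect helper36).

**The norm layer for `π₁` of the modular seed** = the field `layer1` of the junction output
`CboNorm` (`S36/G/CoreBundleOf.lean`), with NO residue statement left:

* `cocPlug_layer1`     : `Nonempty (NormLayer1 N n q (midDeg q) (nm1 (M₀ q) q))`,
                         `N = (E.ymodSeed ..).graphSetup`, from
                         `hES : E.S = vtxFamily Soo (valSetupZeroAt D₀ hM₀ Soo) I.S (fun P => (O P).S)`,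
                         `hSoo : IsGaussSetup ..`, `I : IgPack M₀ q A`, the W-P outputs `O P`, the
                         SEED-UP shapes `hxA`, `hx2`, and the dictionary of the vertical branches
                         (`hoo`, `hmid`, `hSS`, `hno`);
* `cocPlug_layer1_sev` : the same with the branches in the seed shape `E.pv P v = sevPv ι P v`.

PLUGGED on top of `cocPlug_layer1_of_res` (`CocPlug1.lean`): `red_oo` = `nla_red_norm_oo` +
`nlr_pack_norm_oo` (helper36, helper94), `red_mid` = `nla_red_mid_oo` + `nrMid_red_mid1` (helper83),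
`red_zero` = `nlpi_red_zero1` (helper24).
-/
import Mathlib
import Fermat.Agent.S36.G.CocPlug1
import Fermat.Agent.S36.G.NormLayerRes
import Fermat.Agent.S36.G.NormLayerPI
import Fermat.Agent.S36.G.NrMid
import Fermat.Agent.S36.G.CocPv

set_option autoImplicit false
set_option linter.unusedSectionVars false
set_option linter.unusedVariables false
set_option linter.style.haveILetI false
set_option synthInstance.maxHeartbeats 400000
set_option maxHeartbeats 1000000

noncomputable section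

open IntermediateField AlgebraicCurve

namespace Fermat.Agent.S36G

open ModularCurve Fermat.Agent.F3 Fermat.Agent.F3G Fermat.Agent.GaussInt
  Fermat.Agent.AtkinLehner Fermat.Agent.Kronecker Fermat.Agent.BadRed Fermat.Agent.BadRedG
  Fermat.Agent.BadRed.Gluing Fermat.Agent.RR Fermat.Agent.S36 Fermat.Agent.HP
  Fermat.Agent.Deuring

local notation "Qb" => AlgebraicClosure ℚ

/-- shortcut (the instance found by unification is the same term, after a slow search). -/
local instance (priority := 10000) cocPlug1FAlgFullC (A : ValuationSubring Qb) (N : ℕ) :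
    Algebra (IsLocalRing.ResidueField A)
      (modularFunctionFieldFullC (IsLocalRing.ResidueField A) N) :=
  SubalgebraClass.toAlgebra (modularFunctionFieldFullC (IsLocalRing.ResidueField A) N)

/-- shortcut. -/
local instance (priority := 10000) cocPlug1FAlgIg (A : ValuationSubring Qb) (N : ℕ) :
    Algebra (IsLocalRing.ResidueField A) (igField (IsLocalRing.ResidueField A) N) :=
  SubalgebraClass.toAlgebra (igField (IsLocalRing.ResidueField A) N)

attribute [local instance] Fermat.Agent.GaussInt.isAlgClosed_residue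

section Plug

variable {M₀ q : ℕ} [NeZero M₀] [NeZero q] {A : ValuationSubring Qb}
  {SS : Type} [Fintype SS] [Nonempty SS]
  {FkP : SS → Type} [∀ P, Field (FkP P)] [∀ P, Algebra (IsLocalRing.ResidueField A) (FkP P)]
  (E : ModEndsInput Qb (FBar (M₀ * q * q)) (IsLocalRing.ResidueField A) (Fin (midCard q)) SS
    ↥(modularFunctionFieldFullC (IsLocalRing.ResidueField A) M₀)
    (fun _ : Fin (midCard q) => ↥(igField (IsLocalRing.ResidueField A) M₀)) FkP)
  {b : Qb} {nn : ℕ}
  (hn : 2 ≤ nn) (hb : E.ϖ1 ^ nn = b) (h12 : E.ϖ1 * E.ϖ2 = b)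
  (hu2 : E.u2 = E.u1 / algebraMap Qb (FBar (M₀ * q * q)) E.ϖ1)
  (hD₀ : E.D₀ = poleDiv (E.S (Vtx.vert Vrt.oo)).hF (E.ymodX b nn))
  (hdeg : Divisor.degree (poleDiv (E.S (Vtx.vert Vrt.oo)).hF (E.ymodX b nn)) ≤
    ∑ c, Divisor.degree (poleDiv (E.S c).hFk ((E.S c).red (E.ymodX b nn))))
  (hgenus : genusFF Qb (FBar (M₀ * q * q)) + Fintype.card (Vtx (Fin (midCard q)) SS) ≤
    (∑ c, genusFF (IsLocalRing.ResidueField A)
      (FkOf ↥(modularFunctionFieldFullC (IsLocalRing.ResidueField A) M₀)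
        (fun _ : Fin (midCard q) => ↥(igField (IsLocalRing.ResidueField A) M₀)) FkP c)) +
      Fintype.card (Nod (Fin (midCard q)) SS) + 1)

/-- **the norm layer for `π₁` of the modular seed**, ALL the residue statements plugged:
`red_oo` (`nlr_pack_norm_oo`, helper94), `red_mid` (`nrMid_red_mid1`, helper83), `red_zero`
(`nlpi_red_zero1`, helper24). -/
theorem cocPlug_layer1 [CharP (IsLocalRing.ResidueField A) q]
    (hqp : q.Prime) (hqM : ¬ q ∣ M₀) (hA : A.LiesOverPrime q)
    (hν2 : nuTwo M₀ = 0) (hν3 : nuThree M₀ = 0)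
    (D₀ : ALData) (hM₀ : M₀ * q * q = D₀.Q * D₀.R) (hDQ : D₀.Q = q ^ 2)
    {R0 : Fermat.Agent.S18Key.RedSetup Qb (FBar M₀) (IsLocalRing.ResidueField A)
      ↥(modularFunctionFieldFullC (IsLocalRing.ResidueField A) M₀)}
    {pt : SS → Place (IsLocalRing.ResidueField A)
      ↥(modularFunctionFieldFullC (IsLocalRing.ResidueField A) M₀)}
    (O : ∀ P : SS, WPOut M₀ q A R0 (pt P) (FkP P))
    (I : IgPack M₀ q A)
    {Soo : ValSetup Qb (FBar (M₀ * q * q)) (IsLocalRing.ResidueField A)
      ↥(modularFunctionFieldFullC (IsLocalRing.ResidueField A) M₀)}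
    (hSoo : IsGaussSetup (M₀ * q * q) M₀ A Soo)
    (hES : E.S = vtxFamily Soo (valSetupZeroAt D₀ hM₀ Soo) I.S fun P => (O P).S)
    (hxA : EndsRedA E.S (nlhHP O) (algebraMap Qb (FBar (M₀ * q * q)) E.ϖA / E.uA))
    (hx2 : EndsRed2 E.S (nlhHP O) E.u2)
    (hRR : IsRRField (IsLocalRing.ResidueField A) ↥(igField (IsLocalRing.ResidueField A) M₀))
    (pl : SS → Place (IsLocalRing.ResidueField A)
      ↥(modularFunctionFieldFullC (IsLocalRing.ResidueField A) M₀))
    (hoo : ∀ P, E.pv P Vrt.oo = pl P)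
    (hmid : ∀ P m, E.pv P (Vrt.mid m) =
      igPv M₀ q hqp hqM (IsLocalRing.ResidueField A) hRR (pl P))
    (hSS : ∀ P, IsSSPlace (IsLocalRing.ResidueField A) M₀ q (pl P))
    (hno : ∀ P, ∀ u : ↥(modularFunctionFieldFullC (IsLocalRing.ResidueField A) M₀),
      (u : LaurentSeries (IsLocalRing.ResidueField A)) = ssFun (IsLocalRing.ResidueField A) q →
        (pl P).ord u = 12)
    (n : ℕ) :
    Nonempty (NormLayer1 (E.ymodSeed hn hb h12 hu2 hD₀ hdeg hgenus).graphSetup n q (midDeg q)
      (nm1 (M₀ * q) q)) :=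
  cocPlug_layer1_of_res E hn hb h12 hu2 hD₀ hdeg hgenus hqp hqM hA O hES hxA hx2 hRR pl hoo hmid
    hSS hno n
    (nla_red_norm_oo (E.ymodSeed hn hb h12 hu2 hD₀ hdeg hgenus).graphSetup hES
      (fun _ => nrooAlg (IsLocalRing.ResidueField A) M₀) (nm1 (M₀ * q) q)
      (nlr_pack_norm_oo I hqp hqM hA hν2 hν3 Soo hSoo))
    (nla_red_mid_oo (E.ymodSeed hn hb h12 hu2 hD₀ hdeg hgenus).graphSetup hES
      (fun _ => nrooAlg (IsLocalRing.ResidueField A) M₀) (nm1 (M₀ * q) q)
      (fun g _ _ m => nrMid_red_mid1 hqp A hA Soo hSoo (I.isMidExp m) (I.S m) (I.isMidSetup m) g))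
    (nlpi_red_zero1 (E.ymodSeed hn hb h12 hu2 hD₀ hdeg hgenus).graphSetup hSoo D₀ hM₀ hDQ hES
      hqp hqM hA)

/-- **the norm layer for `π₁` of the modular seed**, with the vertical branches in the shape of
the seed leaves: `E.pv P v = sevPv ι P v` (`S36/Seed/EndsVert.lean`), bridge = helper36's
`cocPv_sevMidPt_eq_igPv`. -/
theorem cocPlug_layer1_sev [CharP (IsLocalRing.ResidueField A) q]
    (hqp : q.Prime) (hqM : ¬ q ∣ M₀) (hA : A.LiesOverPrime q)
    (hν2 : nuTwo M₀ = 0) (hν3 : nuThree M₀ = 0)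
    (D₀ : ALData) (hM₀ : M₀ * q * q = D₀.Q * D₀.R) (hDQ : D₀.Q = q ^ 2)
    {R0 : Fermat.Agent.S18Key.RedSetup Qb (FBar M₀) (IsLocalRing.ResidueField A)
      ↥(modularFunctionFieldFullC (IsLocalRing.ResidueField A) M₀)}
    {pt : SS → Place (IsLocalRing.ResidueField A)
      ↥(modularFunctionFieldFullC (IsLocalRing.ResidueField A) M₀)}
    (O : ∀ P : SS, WPOut M₀ q A R0 (pt P) (FkP P))
    (I : IgPack M₀ q A)
    {Soo : ValSetup Qb (FBar (M₀ * q * q)) (IsLocalRing.ResidueField A)
      ↥(modularFunctionFieldFullC (IsLocalRing.ResidueField A) M₀)}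
    (hSoo : IsGaussSetup (M₀ * q * q) M₀ A Soo)
    (hES : E.S = vtxFamily Soo (valSetupZeroAt D₀ hM₀ Soo) I.S fun P => (O P).S)
    (hxA : EndsRedA E.S (nlhHP O) (algebraMap Qb (FBar (M₀ * q * q)) E.ϖA / E.uA))
    (hx2 : EndsRed2 E.S (nlhHP O) E.u2)
    (hRR : IsRRField (IsLocalRing.ResidueField A) ↥(igField (IsLocalRing.ResidueField A) M₀))
    (ι : SS → Place (IsLocalRing.ResidueField A)
      ↥(modularFunctionFieldFullC (IsLocalRing.ResidueField A) M₀))
    (hpv : ∀ P v, E.pv P v = sevPv M₀ q hqp hqM (IsLocalRing.ResidueField A) FkP ι P v)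
    (hSS : ∀ P, IsSSPlace (IsLocalRing.ResidueField A) M₀ q (ι P))
    (hno : ∀ P, ∀ u : ↥(modularFunctionFieldFullC (IsLocalRing.ResidueField A) M₀),
      (u : LaurentSeries (IsLocalRing.ResidueField A)) = ssFun (IsLocalRing.ResidueField A) q →
        (ι P).ord u = 12)
    (n : ℕ) :
    Nonempty (NormLayer1 (E.ymodSeed hn hb h12 hu2 hD₀ hdeg hgenus).graphSetup n q (midDeg q)
      (nm1 (M₀ * q) q)) :=
  cocPlug_layer1 E hn hb h12 hu2 hD₀ hdeg hgenus hqp hqM hA hν2 hν3 D₀ hM₀ hDQ O I hSoo hES hxA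
    hx2 hRR ι (fun P => hpv P Vrt.oo)
    (fun P m => (hpv P (Vrt.mid m)).trans
      (cocPv_sevMidPt_eq_igPv M₀ q hqp hqM (IsLocalRing.ResidueField A) hRR (ι P) (hSS P)
        (hno P)))
    hSS hno n

end Plug

end Fermat.Agent.S36G
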