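/-
Cluster G (S36), block COC, seat COC-ASM, F2 side (helper4; sub-architect helper36).

**(F2) = `hF2` of `coreFunAt_of_graph` / `CoreBundle`, for ALL Atkin–Lehner data `D` with
`D.Q = q ^ 2`**, from the arguments of `normLayer2_of` (`S36/G/NormLayerOf.lean`, helper31)
VERBATIM:

* (VERT) `hres`, `he`, `hdeg` (base vertex `0`; `IsRRField` is taken from `N.S`),
* (DIV)  `hI`, `hZ`, `hm1`, `hm2`, `hcover` (ENDS-DICT),
* (RES)  `red_zero`, `red_mid`, `red_oo`, `red_hor` for `Nm = nm2 N₁ q D₀ hM₀` (`π₂^* π₂_*`),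

and the saturation `NormSat N n R (nm2 N₁ q D₀ hM₀)`, all for the ONE datum `D₀` of the graph.

* `cocAsm2_layer`   : the norm layer `NormLayer2 N n q e (nm2 N₁ q D₀ hM₀)`;
* `cocAsm2_one`     : `CocycleF2` for `D₀`  (`cocycleF2_modular`, helper36);
* `cocAsm2_all`     : `CocycleF2` for all `D`  (`cocycleF2_all_of_one`, helper60);
* `cocAsm2_modular` : the same at the level `M₀ q q`, residue field of `A ∣ q`, with
                      `e = midDeg q`, `H_P = (O P).H` for a family of outputs `O P : WPOut`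
                      of block W-P; `hfin`, `hq1`, `he0`, `IsAlgClosed` are discharged.

The instances `Algebra (Fk (vert 0)) (Fk (vert (mid m)))`, `IsScalarTower`, `FiniteDimensional`
are instance arguments (for the modular graph: `nrooAlg k M₀`, `S36/G/NrOO.lean`).
-/
import Mathlib
import Fermat.Agent.S36.G.NormLayerOf
import Fermat.Agent.S36.G.CocycleF12Mod
import Fermat.Agent.S36.G.Step12D0
import Fermat.Agent.S36.HPVal.Defs
import Fermat.Agent.S36.Norm.HorSqueeze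

set_option autoImplicit false
set_option linter.unusedSectionVars false
set_option linter.unusedVariables false
set_option linter.style.haveILetI false
set_option synthInstance.maxHeartbeats 400000
set_option maxHeartbeats 1000000

noncomputable section

open IntermediateField AlgebraicCurve

namespace Fermat.Agent.S36G

open ModularCurve Fermat.Agent.F3 Fermat.Agent.F3G Fermat.Agent.GaussInt
  Fermat.Agent.AtkinLehner Fermat.Agent.Kronecker Fermat.Agent.BadRed Fermat.Agent.BadRedG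
  Fermat.Agent.BadRed.Gluing Fermat.Agent.RR Fermat.Agent.S36 Fermat.Agent.HP
  Fermat.Agent.Deuring

local notation "Qb" => AlgebraicClosure ℚ

/-! ### the glue, for any graph over `F_{N₁ q}` -/

section Glue

variable {k : Type*} [Field k] [IsAlgClosed k] {Mid SS : Type} [Fintype Mid] [Fintype SS]
  {Fk : Vtx Mid SS → Type*} [∀ c, Field (Fk c)] [∀ c, Algebra k (Fk c)]
  [∀ m, Algebra (Fk (Vtx.vert Vrt.zero)) (Fk (Vtx.vert (Vrt.mid m)))]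
  [∀ m, IsScalarTower k (Fk (Vtx.vert Vrt.zero)) (Fk (Vtx.vert (Vrt.mid m)))]
  [∀ m, FiniteDimensional (Fk (Vtx.vert Vrt.zero)) (Fk (Vtx.vert (Vrt.mid m)))]
  (N₁ q : ℕ) [NeZero N₁] [NeZero q]
  (N : GraphSetup Qb (FBar (N₁ * q)) k (Vtx Mid SS) Fk (Nod Mid SS))
  (hsrc : ∀ i, N.src i = nodSrc i) (htgt : ∀ i, N.tgt i = nodTgt i)
  (hq1 : ((q + 1 : ℕ) : k) ≠ 0) (HP : ∀ P : SS, HPCurve k (Fk (Vtx.hor P)) q)
  (n e : ℕ) (D₀ : ALData) (hM₀ : N₁ * q = D₀.Q * D₀.R)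

/-- **the norm layer for `π₂`** of the graph `N`, from (VERT) + (DIV) + (RES). -/
def cocAsm2_layer
    (hres : ∀ P m, (nlSrc N hsrc P (Vrt.mid m)).restrict (Fk (Vtx.vert Vrt.zero)) =
      nlSrc N hsrc P Vrt.zero)
    (he : ∀ P m, (nlSrc N hsrc P (Vrt.mid m)).ramificationIndex (Fk (Vtx.vert Vrt.zero)) = e)
    (hdeg : ∀ m, Module.finrank (Fk (Vtx.vert Vrt.zero)) (Fk (Vtx.vert (Vrt.mid m))) = e)
    (hI : ∀ P, 0 < (nlTgt N htgt P Vrt.oo).ord (HP P).X2)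
    (hZ : ∀ P, 0 < (nlTgt N htgt P Vrt.zero).ord (HP P).X1)
    (hm1 : ∀ P m, (nlTgt N htgt P (Vrt.mid m)).ord (HP P).X1 = -(e : ℤ)) (he0 : 0 < e)
    (hm2 : ∀ P m, ¬ 0 < (nlTgt N htgt P (Vrt.mid m)).ord (HP P).X2)
    (hcover : ∀ P (v : Place k (Fk (Vtx.hor P))), v.ord (HP P).X1 < 0 →
      ∃ w, v = nlTgt N htgt P w)
    (red_zero : ∀ g : FBar (N₁ * q), (∀ c, g ∈ (N.S c).Ov) → (∀ c, (N.S c).red g ≠ 0) →
      (N.S (Vtx.vert Vrt.zero)).red (nm2 N₁ q D₀ hM₀ g) =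
        (N.S (Vtx.vert Vrt.zero)).red g *
          ∏ m, Algebra.norm (Fk (Vtx.vert Vrt.zero)) ((N.S (Vtx.vert (Vrt.mid m))).red g))
    (red_mid : ∀ g : FBar (N₁ * q), (∀ c, g ∈ (N.S c).Ov) → (∀ c, (N.S c).red g ≠ 0) → ∀ m,
      (N.S (Vtx.vert (Vrt.mid m))).red (nm2 N₁ q D₀ hM₀ g) =
        algebraMap (Fk (Vtx.vert Vrt.zero)) (Fk (Vtx.vert (Vrt.mid m)))
          ((N.S (Vtx.vert Vrt.zero)).red (nm2 N₁ q D₀ hM₀ g)))
    (red_oo : ∀ g : FBar (N₁ * q), (∀ c, g ∈ (N.S c).Ov) → (∀ c, (N.S c).red g ≠ 0) →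
      (N.S (Vtx.vert Vrt.oo)).red (nm2 N₁ q D₀ hM₀ g) = (N.S (Vtx.vert Vrt.oo)).red g ^ q)
    (red_hor : ∀ g : FBar (N₁ * q), (∀ c, g ∈ (N.S c).Ov) → (∀ c, (N.S c).red g ≠ 0) → ∀ P,
      (N.S (Vtx.hor P)).red (nm2 N₁ q D₀ hM₀ g) =
        algebraMap k⟮(HP P).X2⟯ (Fk (Vtx.hor P))
          (Algebra.norm k⟮(HP P).X2⟯ ((N.S (Vtx.hor P)).red g))) :
    NormLayer2 N n q e (nm2 N₁ q D₀ hM₀) :=
  normLayer2_of N hsrc htgt hq1 HP n e (nm2 N₁ q D₀ hM₀)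
    (N.S (Vtx.vert Vrt.zero)).hFk (fun m => (N.S (Vtx.vert (Vrt.mid m))).hFk)
    hres he hdeg hI hZ hm1 he0 hm2 hcover red_zero red_mid red_oo red_hor

include hq1 in
/-- **(F2) for the datum `D₀` of the graph**, from (VERT) + (DIV) + (RES) + saturation. -/
theorem cocAsm2_one (hfin : FiniteAlong Qb (heckeAlphaBar Qb N₁ q))
    (hWD : GraphWDStatement N) (hn : n ≠ 0)
    (hres : ∀ P m, (nlSrc N hsrc P (Vrt.mid m)).restrict (Fk (Vtx.vert Vrt.zero)) =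
      nlSrc N hsrc P Vrt.zero)
    (he : ∀ P m, (nlSrc N hsrc P (Vrt.mid m)).ramificationIndex (Fk (Vtx.vert Vrt.zero)) = e)
    (hdeg : ∀ m, Module.finrank (Fk (Vtx.vert Vrt.zero)) (Fk (Vtx.vert (Vrt.mid m))) = e)
    (hI : ∀ P, 0 < (nlTgt N htgt P Vrt.oo).ord (HP P).X2)
    (hZ : ∀ P, 0 < (nlTgt N htgt P Vrt.zero).ord (HP P).X1)
    (hm1 : ∀ P m, (nlTgt N htgt P (Vrt.mid m)).ord (HP P).X1 = -(e : ℤ)) (he0 : 0 < e)
    (hm2 : ∀ P m, ¬ 0 < (nlTgt N htgt P (Vrt.mid m)).ord (HP P).X2)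
    (hcover : ∀ P (v : Place k (Fk (Vtx.hor P))), v.ord (HP P).X1 < 0 →
      ∃ w, v = nlTgt N htgt P w)
    (red_zero : ∀ g : FBar (N₁ * q), (∀ c, g ∈ (N.S c).Ov) → (∀ c, (N.S c).red g ≠ 0) →
      (N.S (Vtx.vert Vrt.zero)).red (nm2 N₁ q D₀ hM₀ g) =
        (N.S (Vtx.vert Vrt.zero)).red g *
          ∏ m, Algebra.norm (Fk (Vtx.vert Vrt.zero)) ((N.S (Vtx.vert (Vrt.mid m))).red g))
    (red_mid : ∀ g : FBar (N₁ * q), (∀ c, g ∈ (N.S c).Ov) → (∀ c, (N.S c).red g ≠ 0) → ∀ m,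
      (N.S (Vtx.vert (Vrt.mid m))).red (nm2 N₁ q D₀ hM₀ g) =
        algebraMap (Fk (Vtx.vert Vrt.zero)) (Fk (Vtx.vert (Vrt.mid m)))
          ((N.S (Vtx.vert Vrt.zero)).red (nm2 N₁ q D₀ hM₀ g)))
    (red_oo : ∀ g : FBar (N₁ * q), (∀ c, g ∈ (N.S c).Ov) → (∀ c, (N.S c).red g ≠ 0) →
      (N.S (Vtx.vert Vrt.oo)).red (nm2 N₁ q D₀ hM₀ g) = (N.S (Vtx.vert Vrt.oo)).red g ^ q)
    (red_hor : ∀ g : FBar (N₁ * q), (∀ c, g ∈ (N.S c).Ov) → (∀ c, (N.S c).red g ≠ 0) → ∀ P,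
      (N.S (Vtx.hor P)).red (nm2 N₁ q D₀ hM₀ g) =
        algebraMap k⟮(HP P).X2⟯ (Fk (Vtx.hor P))
          (Algebra.norm k⟮(HP P).X2⟯ ((N.S (Vtx.hor P)).red g)))
    {R : Divisor Qb (FBar (N₁ * q))} (hsat : NormSat N n R (nm2 N₁ q D₀ hM₀)) :
    CocycleF2 N n q e R
      (fun g => IsCPow n (normAlong (heckeAlphaBar Qb N₁ q) (wAt D₀ hM₀ g))) :=
  cocycleF2_modular N₁ q hfin N hsrc htgt hWD hn e D₀ hM₀
    (cocAsm2_layer N₁ q N hsrc htgt hq1 HP n e D₀ hM₀ hres he hdeg hI hZ hm1 he0 hm2 hcover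
      red_zero red_mid red_oo red_hor) hsat

include hq1 in
/-- **(F2) for ALL `D` with `D.Q = q ^ 2`** (= `hF2` of `coreFunAt_of_graph`), from
(VERT) + (DIV) + (RES) + saturation for the one datum `D₀` of the graph. -/
theorem cocAsm2_all (hfin : FiniteAlong Qb (heckeAlphaBar Qb N₁ q))
    (hWD : GraphWDStatement N) (hn : n ≠ 0) (hD₀ : D₀.Q = q ^ 2)
    (hres : ∀ P m, (nlSrc N hsrc P (Vrt.mid m)).restrict (Fk (Vtx.vert Vrt.zero)) =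
      nlSrc N hsrc P Vrt.zero)
    (he : ∀ P m, (nlSrc N hsrc P (Vrt.mid m)).ramificationIndex (Fk (Vtx.vert Vrt.zero)) = e)
    (hdeg : ∀ m, Module.finrank (Fk (Vtx.vert Vrt.zero)) (Fk (Vtx.vert (Vrt.mid m))) = e)
    (hI : ∀ P, 0 < (nlTgt N htgt P Vrt.oo).ord (HP P).X2)
    (hZ : ∀ P, 0 < (nlTgt N htgt P Vrt.zero).ord (HP P).X1)
    (hm1 : ∀ P m, (nlTgt N htgt P (Vrt.mid m)).ord (HP P).X1 = -(e : ℤ)) (he0 : 0 < e)
    (hm2 : ∀ P m, ¬ 0 < (nlTgt N htgt P (Vrt.mid m)).ord (HP P).X2)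
    (hcover : ∀ P (v : Place k (Fk (Vtx.hor P))), v.ord (HP P).X1 < 0 →
      ∃ w, v = nlTgt N htgt P w)
    (red_zero : ∀ g : FBar (N₁ * q), (∀ c, g ∈ (N.S c).Ov) → (∀ c, (N.S c).red g ≠ 0) →
      (N.S (Vtx.vert Vrt.zero)).red (nm2 N₁ q D₀ hM₀ g) =
        (N.S (Vtx.vert Vrt.zero)).red g *
          ∏ m, Algebra.norm (Fk (Vtx.vert Vrt.zero)) ((N.S (Vtx.vert (Vrt.mid m))).red g))
    (red_mid : ∀ g : FBar (N₁ * q), (∀ c, g ∈ (N.S c).Ov) → (∀ c, (N.S c).red g ≠ 0) → ∀ m,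
      (N.S (Vtx.vert (Vrt.mid m))).red (nm2 N₁ q D₀ hM₀ g) =
        algebraMap (Fk (Vtx.vert Vrt.zero)) (Fk (Vtx.vert (Vrt.mid m)))
          ((N.S (Vtx.vert Vrt.zero)).red (nm2 N₁ q D₀ hM₀ g)))
    (red_oo : ∀ g : FBar (N₁ * q), (∀ c, g ∈ (N.S c).Ov) → (∀ c, (N.S c).red g ≠ 0) →
      (N.S (Vtx.vert Vrt.oo)).red (nm2 N₁ q D₀ hM₀ g) = (N.S (Vtx.vert Vrt.oo)).red g ^ q)
    (red_hor : ∀ g : FBar (N₁ * q), (∀ c, g ∈ (N.S c).Ov) → (∀ c, (N.S c).red g ≠ 0) → ∀ P,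
      (N.S (Vtx.hor P)).red (nm2 N₁ q D₀ hM₀ g) =
        algebraMap k⟮(HP P).X2⟯ (Fk (Vtx.hor P))
          (Algebra.norm k⟮(HP P).X2⟯ ((N.S (Vtx.hor P)).red g)))
    {R : Divisor Qb (FBar (N₁ * q))} (hsat : NormSat N n R (nm2 N₁ q D₀ hM₀)) :
    ∀ (D : ALData) (hM : N₁ * q = D.Q * D.R), D.Q = q ^ 2 →
      CocycleF2 N n q e R
        (fun g => IsCPow n (normAlong (heckeAlphaBar Qb N₁ q) (wAt D hM g))) :=
  cocycleF2_all_of_one N₁ q n e N R D₀ hM₀ hD₀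
    (cocAsm2_one N₁ q N hsrc htgt hq1 HP n e D₀ hM₀ hfin hWD hn hres he hdeg hI hZ hm1 he0
      hm2 hcover red_zero red_mid red_oo red_hor hsat)

end Glue

/-! ### the modular graph: level `M₀ q q`, residue field of `A ∣ q`, `e = midDeg q` -/

/-- `midDeg q` is positive for a prime `q`. -/
theorem cocAsm2_midDeg_pos {q : ℕ} (hq : q.Prime) : 0 < midDeg q := by
  unfold midDeg midCard
  split_ifs with h
  · subst h
    norm_num
  · have h2 := hq.two_le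
    have h3 : 3 ≤ q := by omega
    exact Nat.div_pos (by omega) (by norm_num)

section Modular

variable {M₀ q : ℕ} [NeZero M₀] [NeZero q] {Mid SS : Type} [Fintype Mid] [Fintype SS]

/-- **(F2) for the modular graph, all `D` with `D.Q = q ^ 2`**: `hF2` of `coreFunAt_of_graph` /
`CoreBundle` at the level `M₀ q q`, with `e = midDeg q`, from (VERT) + (DIV) + (RES) +
saturation for the datum `D₀` of the graph.  `FiniteAlong α`, `q + 1 ≠ 0` in `k`,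
`0 < midDeg q` and `IsAlgClosed k` are discharged. -/
theorem cocAsm2_modular (hq : q.Prime) (A : ValuationSubring Qb) (hA : A.LiesOverPrime q)
    {Fk : Vtx Mid SS → Type*} [∀ c, Field (Fk c)]
    [∀ c, Algebra (IsLocalRing.ResidueField A) (Fk c)]
    [∀ m, Algebra (Fk (Vtx.vert Vrt.zero)) (Fk (Vtx.vert (Vrt.mid m)))]
    [∀ m, IsScalarTower (IsLocalRing.ResidueField A) (Fk (Vtx.vert Vrt.zero))
      (Fk (Vtx.vert (Vrt.mid m)))]
    [∀ m, FiniteDimensional (Fk (Vtx.vert Vrt.zero)) (Fk (Vtx.vert (Vrt.mid m)))]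
    (N : GraphSetup Qb (FBar (M₀ * q * q)) (IsLocalRing.ResidueField A) (Vtx Mid SS) Fk
      (Nod Mid SS))
    (hsrc : ∀ i, N.src i = nodSrc i) (htgt : ∀ i, N.tgt i = nodTgt i)
    (hWD : GraphWDStatement N) (n : ℕ) (hn : n ≠ 0)
    (HP : ∀ P : SS, HPCurve (IsLocalRing.ResidueField A) (Fk (Vtx.hor P)) q)
    (D₀ : ALData) (hM₀ : M₀ * q * q = D₀.Q * D₀.R) (hD₀ : D₀.Q = q ^ 2)
    (hres : ∀ P m, (nlSrc N hsrc P (Vrt.mid m)).restrict (Fk (Vtx.vert Vrt.zero)) =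
      nlSrc N hsrc P Vrt.zero)
    (he : ∀ P m, (nlSrc N hsrc P (Vrt.mid m)).ramificationIndex (Fk (Vtx.vert Vrt.zero)) =
      midDeg q)
    (hdeg : ∀ m, Module.finrank (Fk (Vtx.vert Vrt.zero)) (Fk (Vtx.vert (Vrt.mid m))) =
      midDeg q)
    (hI : ∀ P, 0 < (nlTgt N htgt P Vrt.oo).ord (HP P).X2)
    (hZ : ∀ P, 0 < (nlTgt N htgt P Vrt.zero).ord (HP P).X1)
    (hm1 : ∀ P m, (nlTgt N htgt P (Vrt.mid m)).ord (HP P).X1 = -(midDeg q : ℤ))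
    (hm2 : ∀ P m, ¬ 0 < (nlTgt N htgt P (Vrt.mid m)).ord (HP P).X2)
    (hcover : ∀ P (v : Place (IsLocalRing.ResidueField A) (Fk (Vtx.hor P))),
      v.ord (HP P).X1 < 0 → ∃ w, v = nlTgt N htgt P w)
    (red_zero : ∀ g : FBar (M₀ * q * q), (∀ c, g ∈ (N.S c).Ov) → (∀ c, (N.S c).red g ≠ 0) →
      (N.S (Vtx.vert Vrt.zero)).red (nm2 (M₀ * q) q D₀ hM₀ g) =
        (N.S (Vtx.vert Vrt.zero)).red g *
          ∏ m, Algebra.norm (Fk (Vtx.vert Vrt.zero)) ((N.S (Vtx.vert (Vrt.mid m))).red g))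
    (red_mid : ∀ g : FBar (M₀ * q * q), (∀ c, g ∈ (N.S c).Ov) → (∀ c, (N.S c).red g ≠ 0) →
      ∀ m, (N.S (Vtx.vert (Vrt.mid m))).red (nm2 (M₀ * q) q D₀ hM₀ g) =
        algebraMap (Fk (Vtx.vert Vrt.zero)) (Fk (Vtx.vert (Vrt.mid m)))
          ((N.S (Vtx.vert Vrt.zero)).red (nm2 (M₀ * q) q D₀ hM₀ g)))
    (red_oo : ∀ g : FBar (M₀ * q * q), (∀ c, g ∈ (N.S c).Ov) → (∀ c, (N.S c).red g ≠ 0) →
      (N.S (Vtx.vert Vrt.oo)).red (nm2 (M₀ * q) q D₀ hM₀ g) =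
        (N.S (Vtx.vert Vrt.oo)).red g ^ q)
    (red_hor : ∀ g : FBar (M₀ * q * q), (∀ c, g ∈ (N.S c).Ov) → (∀ c, (N.S c).red g ≠ 0) →
      ∀ P, (N.S (Vtx.hor P)).red (nm2 (M₀ * q) q D₀ hM₀ g) =
        algebraMap (IsLocalRing.ResidueField A)⟮(HP P).X2⟯ (Fk (Vtx.hor P))
          (Algebra.norm (IsLocalRing.ResidueField A)⟮(HP P).X2⟯ ((N.S (Vtx.hor P)).red g)))
    {R : Divisor Qb (FBar (M₀ * q * q))} (hsat : NormSat N n R (nm2 (M₀ * q) q D₀ hM₀)) :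
    ∀ (D : ALData) (hM : M₀ * q * q = D.Q * D.R), D.Q = q ^ 2 →
      CocycleF2 N n q (midDeg q) R
        (fun g => IsCPow n (normAlong (heckeAlphaBar Qb (M₀ * q) q) (wAt D hM g))) := by
  haveI := Fermat.Agent.FrobTrace.isAlgClosed_residueField A
  exact cocAsm2_all (M₀ * q) q N hsrc htgt (wpsq_succ_ne_zero (A := A) hq hA) HP n (midDeg q)
    D₀ hM₀ (finiteAlong_alpha_dvd (M₀ * q) q hq (dvd_mul_left q M₀)) hWD hn hD₀ hres he hdeg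
    hI hZ hm1 (cocAsm2_midDeg_pos hq) hm2 hcover red_zero red_mid red_oo red_hor hsat

end Modular

end Fermat.Agent.S36G
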