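import Mathlib
import Fermat.Agent.S36.G.CocFinal
import Fermat.Agent.S36.G.CocPlug1Full
import Fermat.Agent.S36.G.CocPlug2
import Fermat.Agent.S36.Igusa.Pack

set_option autoImplicit false
set_option linter.unusedSectionVars false
set_option linter.unusedVariables false
set_option linter.style.haveILetI false
set_option synthInstance.maxHeartbeats 400000
set_option maxHeartbeats 1000000

/-!
# Cluster G (S36), block COC: THE JUNCTION OUTPUT `CboNorm` FOR THE MODULAR SEED  (helper36)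

`E : ModEndsInput ℚ̄ (FBar (M₀ q q)) k (Fin (midCard q)) SS F_k(M₀) (igField k M₀) FkP`,
`k` the residue field of `A ∣ q`, `G := E.ymodSeed ..`, `N := G.graphSetup`.

* `cboNorm_of_ends` : **`CboNorm M₀ q A N D₀ hM₀ (midDeg q) n (m • G.D₀)`** — the hypothesis
  `hnorm` of `coreBundleOfEnds` (`S36/G/CoreBundleOf.lean`, take `m := G.bigBound`) — with NO
  residue, valuation or saturation hypothesis left.  Inputs (all from MG-INST / SEED-UP):
  `hES : E.S = vtxFamily Soo (valSetupZeroAt D₀ hM₀ Soo) I.S (fun P => (O P).S)` (`I : IgPack`,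
  `Soo` Gauss, `O P : WPOut`), `hxA`, `hx2` (the reductions of `ϖA / uA`, `u2` on the `H_P`),
  `hpv : E.pv = sevPv ι`, `hSS`, `hno` (the `ι P` are supersingular, `ord ssFun = 12`),
  `hu1 : E.u1 = uF`, `huA : E.uA = uF2`.
* `cboNorm_of_ends_aux` : the same with `hno` discharged at the auxiliary levels
  (`igHnoAll`).

Plugged: helper75 `cocPlug_layer1_sev`, helper4 `cocPlug_layer2`, helper21 `satY_normSat_nm1/2`
(through `cboNorm_of_layers`), helper36 `cocPv_sevMidPt_eq_igPv`.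
-/

noncomputable section

open AlgebraicCurve Fermat.Agent.RR Fermat.Agent.Deuring IntermediateField

namespace Fermat.Agent.S36G

open ModularCurve Fermat.Agent.F3 Fermat.Agent.F3G Fermat.Agent.GaussInt
  Fermat.Agent.AtkinLehner Fermat.Agent.Kronecker Fermat.Agent.BadRed Fermat.Agent.BadRedG
  Fermat.Agent.BadRed.Gluing Fermat.Agent.S24Res Fermat.Agent.HP Fermat.Agent.S36

local notation "Qb" => AlgebraicClosure ℚ

attribute [local instance] Fermat.Agent.GaussInt.isAlgClosed_residue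
  Fermat.Agent.GaussInt.infinite_residue

section Ends

variable {M₀ q : ℕ} [NeZero M₀] [NeZero q] [hN₁ : NeZero (M₀ * q)]
  {A : ValuationSubring Qb}
  {SS : Type} [Fintype SS] [Nonempty SS]
  {FkP : SS → Type} [∀ P, Field (FkP P)] [∀ P, Algebra (IsLocalRing.ResidueField A) (FkP P)]
  (E : ModEndsInput Qb (FBar (M₀ * q * q)) (IsLocalRing.ResidueField A) (Fin (midCard q)) SS
    ↥(modularFunctionFieldFullC (IsLocalRing.ResidueField A) M₀)
    (fun _ : Fin (midCard q) => ↥(igField (IsLocalRing.ResidueField A) M₀)) FkP)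
  {b : Qb} {nn : ℕ}
  (hn : 2 ≤ nn) (hb : E.ϖ1 ^ nn = b) (h12 : E.ϖ1 * E.ϖ2 = b)
  (hu2 : E.u2 = E.u1 / algebraMap Qb (FBar (M₀ * q * q)) E.ϖ1)
  (hD₀ : E.D₀ = poleDiv (E.S (Vtx.vert Vrt.oo)).hF (E.ymodX b nn))
  (hdeg : Divisor.degree (poleDiv (E.S (Vtx.vert Vrt.oo)).hF (E.ymodX b nn)) ≤
    ∑ c, Divisor.degree (poleDiv (E.S c).hFk ((E.S c).red (E.ymodX b nn))))
  (hgenus : genusFF Qb (FBar (M₀ * q * q)) + Fintype.card (Vtx (Fin (midCard q)) SS) ≤
    (∑ c, genusFF (IsLocalRing.ResidueField A)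
      (FkOf ↥(modularFunctionFieldFullC (IsLocalRing.ResidueField A) M₀)
        (fun _ : Fin (midCard q) => ↥(igField (IsLocalRing.ResidueField A) M₀)) FkP c)) +
      Fintype.card (Nod (Fin (midCard q)) SS) + 1)

/-- **THE JUNCTION OUTPUT `CboNorm` FOR THE MODULAR SEED.** -/
theorem cboNorm_of_ends
    (hqp : q.Prime) (hqM : ¬ q ∣ M₀) (hA : A.LiesOverPrime q)
    (hν2 : nuTwo M₀ = 0) (hν3 : nuThree M₀ = 0)
    (D₀ : ALData) (hM₀ : M₀ * q * q = D₀.Q * D₀.R) (hDQ : D₀.Q = q ^ 2)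
    {R0 : Fermat.Agent.S18Key.RedSetup Qb (FBar M₀) (IsLocalRing.ResidueField A)
      ↥(modularFunctionFieldFullC (IsLocalRing.ResidueField A) M₀)}
    {pt : SS → Place (IsLocalRing.ResidueField A)
      ↥(modularFunctionFieldFullC (IsLocalRing.ResidueField A) M₀)}
    (O : ∀ P : SS, WPOut M₀ q A R0 (pt P) (FkP P))
    (I : IgPack M₀ q A)
    {Soo : ValSetup Qb (FBar (M₀ * q * q)) (IsLocalRing.ResidueField A)
      ↥(modularFunctionFieldFullC (IsLocalRing.ResidueField A) M₀)}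
    (hSoo : IsGaussSetup (M₀ * q * q) M₀ A Soo)
    (hES : E.S = vtxFamily Soo (valSetupZeroAt D₀ hM₀ Soo) I.S fun P => (O P).S)
    (hxA : EndsRedA E.S (nlhHP O) (algebraMap Qb (FBar (M₀ * q * q)) E.ϖA / E.uA))
    (hx2 : EndsRed2 E.S (nlhHP O) E.u2)
    (ι : SS → Place (IsLocalRing.ResidueField A)
      ↥(modularFunctionFieldFullC (IsLocalRing.ResidueField A) M₀))
    (hpv : haveI : Fact q.Prime := ⟨hqp⟩
      haveI : CharP (IsLocalRing.ResidueField A) q :=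
        Fermat.Agent.FrobTrace.charP_residueField A hA
      ∀ P v, E.pv P v = sevPv M₀ q hqp hqM (IsLocalRing.ResidueField A) FkP ι P v)
    (hSS : ∀ P, IsSSPlace (IsLocalRing.ResidueField A) M₀ q (ι P))
    (hno : ∀ P, ∀ u : ↥(modularFunctionFieldFullC (IsLocalRing.ResidueField A) M₀),
      (u : LaurentSeries (IsLocalRing.ResidueField A)) = ssFun (IsLocalRing.ResidueField A) q →
        (ι P).ord u = 12)
    (hu1 : E.u1 = uF (M₀ * q * q) q (nsm_dvd (M₀ * q) q))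
    (huA : E.uA = uF2 (M₀ * q * q) q (satc_sq_dvd (M₀ * q) q (Dvd.intro_left M₀ rfl)))
    (n m : ℕ) :
    CboNorm M₀ q A (E.ymodSeed hn hb h12 hu2 hD₀ hdeg hgenus).graphSetup D₀ hM₀ (midDeg q) n
      (m • (E.ymodSeed hn hb h12 hu2 hD₀ hdeg hgenus).D₀) := by
  haveI : Fact q.Prime := ⟨hqp⟩
  haveI : CharP (IsLocalRing.ResidueField A) q := Fermat.Agent.FrobTrace.charP_residueField A hA
  have hRR : IsRRField (IsLocalRing.ResidueField A)
      ↥(igField (IsLocalRing.ResidueField A) M₀) :=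
    igRR M₀ q hqp hqM (IsLocalRing.ResidueField A)
  obtain ⟨L1⟩ := cocPlug_layer1_sev E hn hb h12 hu2 hD₀ hdeg hgenus hqp hqM hA hν2 hν3 D₀ hM₀
    hDQ O I hSoo hES hxA hx2 hRR ι hpv hSS hno n
  obtain ⟨L2⟩ := cocPlug_layer2 E hn hb h12 hu2 hD₀ hdeg hgenus hqp hqM hA hν2 hν3 D₀ hM₀ hDQ I
    O hSoo hES hxA hx2 hRR ι (fun P => hpv P Vrt.zero)
    (fun P m => (hpv P (Vrt.mid m)).trans
      (cocPv_sevMidPt_eq_igPv M₀ q hqp hqM (IsLocalRing.ResidueField A) hRR (ι P) (hSS P)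
        (hno P)))
    hSS hno n
  exact cboNorm_of_layers E hn hb h12 hu2 hD₀ hdeg hgenus hqp hA D₀ hM₀ hDQ hu1 huA (nlhHP O)
    hxA hx2 (midDeg q) n m L1 L2

/-- **the junction output `CboNorm` at the auxiliary levels** (`hno` from `igHnoAll`). -/
theorem cboNorm_of_ends_aux
    (hqp : q.Prime) (hqM : ¬ q ∣ M₀) (hA : A.LiesOverPrime q)
    (hν2 : nuTwo M₀ = 0) (hν3 : nuThree M₀ = 0)
    (h2 : q = 2 → 3 ∣ M₀) (h3 : q = 3 → 2 ∣ M₀)
    (D₀ : ALData) (hM₀ : M₀ * q * q = D₀.Q * D₀.R) (hDQ : D₀.Q = q ^ 2)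
    {R0 : Fermat.Agent.S18Key.RedSetup Qb (FBar M₀) (IsLocalRing.ResidueField A)
      ↥(modularFunctionFieldFullC (IsLocalRing.ResidueField A) M₀)}
    {pt : SS → Place (IsLocalRing.ResidueField A)
      ↥(modularFunctionFieldFullC (IsLocalRing.ResidueField A) M₀)}
    (O : ∀ P : SS, WPOut M₀ q A R0 (pt P) (FkP P))
    (I : IgPack M₀ q A)
    {Soo : ValSetup Qb (FBar (M₀ * q * q)) (IsLocalRing.ResidueField A)
      ↥(modularFunctionFieldFullC (IsLocalRing.ResidueField A) M₀)}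
    (hSoo : IsGaussSetup (M₀ * q * q) M₀ A Soo)
    (hES : E.S = vtxFamily Soo (valSetupZeroAt D₀ hM₀ Soo) I.S fun P => (O P).S)
    (hxA : EndsRedA E.S (nlhHP O) (algebraMap Qb (FBar (M₀ * q * q)) E.ϖA / E.uA))
    (hx2 : EndsRed2 E.S (nlhHP O) E.u2)
    (ι : SS → Place (IsLocalRing.ResidueField A)
      ↥(modularFunctionFieldFullC (IsLocalRing.ResidueField A) M₀))
    (hpv : haveI : Fact q.Prime := ⟨hqp⟩
      haveI : CharP (IsLocalRing.ResidueField A) q :=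
        Fermat.Agent.FrobTrace.charP_residueField A hA
      ∀ P v, E.pv P v = sevPv M₀ q hqp hqM (IsLocalRing.ResidueField A) FkP ι P v)
    (hSS : ∀ P, IsSSPlace (IsLocalRing.ResidueField A) M₀ q (ι P))
    (hu1 : E.u1 = uF (M₀ * q * q) q (nsm_dvd (M₀ * q) q))
    (huA : E.uA = uF2 (M₀ * q * q) q (satc_sq_dvd (M₀ * q) q (Dvd.intro_left M₀ rfl)))
    (n m : ℕ) :
    CboNorm M₀ q A (E.ymodSeed hn hb h12 hu2 hD₀ hdeg hgenus).graphSetup D₀ hM₀ (midDeg q) n
      (m • (E.ymodSeed hn hb h12 hu2 hD₀ hdeg hgenus).D₀) :=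
  cboNorm_of_ends E hn hb h12 hu2 hD₀ hdeg hgenus hqp hqM hA hν2 hν3 D₀ hM₀ hDQ O I hSoo hES
    hxA hx2 ι hpv hSS
    (fun P => igHnoAll M₀ hqp hqM hν2 hν3 h2 h3 hA (ι P) (hSS P)) hu1 huA n m

end Ends

end Fermat.Agent.S36G
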