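import Fermat.Agent.S36.G.InertMid
import Fermat.Agent.S36.Igusa.Theta
import Fermat.Agent.S24.EmbF

set_option autoImplicit false
set_option linter.style.haveILetI false
set_option linter.unusedSectionVars false
set_option synthInstance.maxHeartbeats 400000

/-!
# S36 (cluster G), seat INERT, part 3: the automorphisms `φ_c` of `Fk_m`  (helper55)

Level `N = M₀ * q * q`, `A ∣ q`, `k` the residue field, `z` a primitive `q`-th root of unity,
`S_z` the constant reduction attached to the middle expansion `ε_z` (`IsMidSetup`).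

* `inert_mid_Ov_eq`     : for `c` a square modulo `q`: `O_z = O_{z^c}`;
* `inert_mid_resEquiv`  : for `c` a square modulo `q` there is `φ : Fk_m ≃ₐ[k] Fk_m` with
                          `red_{z^c} f = φ (red_z f)`, `φ` is the identity on `k(Z)` and
                          `φ (θ j̄) = c · θ j̄`;
* `inert_mid_action`    : for `σ` in the inertia group with `σ z = z' ^ c`, `c` a square:
                          `σ O_z = O_{z'}` and `φ (red_{z'} (σ f)) = red_z f`, `φ` as above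
                          (for `z' = z`: the stabiliser of the vertex; otherwise: the swap).
-/

noncomputable section

namespace Fermat.Agent.S36G

open ModularCurve AlgebraicCurve Fermat.Agent.GaussInt Fermat.Agent.Deuring
  Fermat.Agent.Kronecker Fermat.Agent.BadRed

local notation "Qb" => AlgebraicClosure ℚ

attribute [local instance 10000] SubalgebraClass.toAlgebra HahnSeries.powerSeriesAlgebra

section Abs

variable {K F k Fk Fk' : Type*} [Field K] [Field F] [Algebra K F] [Field k]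
  [Field Fk] [Algebra k Fk] [Field Fk'] [Algebra k Fk']

/-- the isomorphism of residue fields on a product with a constant. -/
theorem inertResEquiv_mul_const (S : ValSetup K F k Fk) (S' : ValSetup K F k Fk')
    (hOv : S.Ov = S'.Ov) (hA : S.A = S'.A)
    (hres : ∀ (c : K) (h : c ∈ S.A) (h' : c ∈ S'.A), S.res ⟨c, h⟩ = S'.res ⟨c, h'⟩)
    {Θ Θ' : F} {u : K} (hu : u ∈ S'.A) (hΘ : Θ ∈ S.Ov) (hΘ' : Θ' ∈ S'.Ov)
    (h : Θ = Θ' * algebraMap K F u) :
    inertResEquiv S S' hOv hA hres (S.red Θ) = S'.res ⟨u, hu⟩ • S'.red Θ' := by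
  rw [inertResEquiv_red S S' hOv hA hres hΘ, h, S'.red_mul hΘ' (S'.algebraMap_mem hu),
    S'.red_algebraMap hu, Algebra.smul_def, mul_comm]

end Abs

variable {M₀ q : ℕ} [NeZero M₀] [NeZero q]

/-- **(INERT-M2)** `O_z = O_{z^c}` for `c` a square modulo `q`. -/
theorem inert_mid_Ov_eq (hq : q.Prime) (hqM : ¬ q ∣ M₀) (hD : IgMidDistinct M₀ q)
    (A : ValuationSubring Qb) (hA : A.LiesOverPrime q) {z : Qbˣ} (hz : IsPrimitiveRoot z q)
    {c : ℕ} (hc : ¬ q ∣ c) (hsq : IsSquare (c : ZMod q))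
    {ε ε' : ↥(modularFunctionFieldBar (M₀ * q * q)) →ₐ[Qb] LaurentSeries Qb}
    (hε : IsMidExp M₀ q z ε) (hε' : IsMidExp M₀ q (z ^ c) ε')
    {S S' : ValSetup Qb ↥(modularFunctionFieldBar (M₀ * q * q)) (IsLocalRing.ResidueField A)
      ↥(igField (IsLocalRing.ResidueField A) M₀)}
    (hS : IsMidSetup M₀ q A ε S) (hS' : IsMidSetup M₀ q A ε' S') : S.Ov = S'.Ov := by
  have h := (hD hq hqM A hA z c ε ε' hz hc hε hε').mpr hsq
  ext f
  rw [hS.mem_iff, hS'.mem_iff, h]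

/-- the function `(j(q² τ) - j(τ)) / (z - 1)` at level `M₀ q²`. -/
def inertThetaFun (M₀ q : ℕ) [NeZero M₀] [NeZero q] (z : Qbˣ) :
    ↥(modularFunctionFieldBar (M₀ * q * q)) :=
  (heckeBetaBar Qb (M₀ * q) q (heckeBetaBar Qb M₀ q (Fermat.Agent.S24.jBar M₀)) -
    heckeAlphaBar Qb (M₀ * q) q (heckeAlphaBar Qb M₀ q (Fermat.Agent.S24.jBar M₀))) *
    algebraMap Qb _ (((z : Qb) - 1)⁻¹)

theorem inertThetaFun_exp {z : Qbˣ}
    {ε : ↥(modularFunctionFieldBar (M₀ * q * q)) →ₐ[Qb] LaurentSeries Qb}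
    (hε : IsMidExp M₀ q z ε) :
    ε (inertThetaFun M₀ q z) =
      (scaleL z (jqModC Qb) - jqModC Qb) * HahnSeries.C (((z : Qb) - 1)⁻¹) := by
  unfold inertThetaFun
  rw [map_mul, map_sub, hε.beta2, hε.alpha, coe_heckeAlphaBar,
    Fermat.Agent.S24.coe_jBar_eq_jqModC, AlgHom.commutes, algebraMap_laurentSeries_eq_single,
    HahnSeries.C_apply]

/-- `θ j̄` as an element of `Fk_m`. -/
def inertTheta (k : Type*) [Field k] (M₀ : ℕ) : ↥(igField k M₀) :=
  ⟨Fermat.Agent.IgusaDeg.theta k (jqModC k), theta_mem_igField k M₀⟩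

/-- `red_z ((j(q²τ) - j(τ)) / (z - 1)) = θ j̄`. -/
theorem inertThetaFun_red (hq : q.Prime) (A : ValuationSubring Qb) (hA : A.LiesOverPrime q)
    {z : Qbˣ} (hz : IsPrimitiveRoot z q)
    {ε : ↥(modularFunctionFieldBar (M₀ * q * q)) →ₐ[Qb] LaurentSeries Qb}
    (hε : IsMidExp M₀ q z ε)
    {S : ValSetup Qb ↥(modularFunctionFieldBar (M₀ * q * q)) (IsLocalRing.ResidueField A)
      ↥(igField (IsLocalRing.ResidueField A) M₀)}
    (hS : IsMidSetup M₀ q A ε S) :
    inertThetaFun M₀ q z ∈ S.Ov ∧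
      S.red (inertThetaFun M₀ q z) = inertTheta (IsLocalRing.ResidueField A) M₀ := by
  obtain ⟨h1, h2⟩ := igThetaRes M₀ q hq A hA z ε hz hε _ (inertThetaFun_exp hε)
  have hmem : inertThetaFun M₀ q z ∈ S.Ov := (hS.mem_iff _).mpr h1
  refine ⟨hmem, Subtype.ext ?_⟩
  rw [hS.coe_red _ hmem, h2]
  rfl

/-- the residue of a `q`-th root of unity is `1`. -/
theorem inert_residue_root (hq : q.Prime) (A : ValuationSubring Qb) (hA : A.LiesOverPrime q)
    (z : Qbˣ) (hz : z ^ q = 1) (h : (z : Qb) ∈ A) :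
    IsLocalRing.residue A ⟨(z : Qb), h⟩ = 1 := by
  have h1 := igRootUnit_res A hq hA z hz
  have h2 := congrArg Units.val h1
  rw [Units.coe_map, Units.val_one] at h2
  exact h2

/-- `(j(q²τ) - j(τ)) / (z - 1) = (j(q²τ) - j(τ)) / (z^c - 1) * (1 + z + ⋯ + z^(c-1))`. -/
theorem inertThetaFun_pow {z : Qbˣ} {c : ℕ} (hzc : (z : Qb) ^ c ≠ 1) :
    inertThetaFun M₀ q z = inertThetaFun M₀ q (z ^ c) *
      algebraMap Qb _ (∑ i ∈ Finset.range c, (z : Qb) ^ i) := by
  have hu : (∑ i ∈ Finset.range c, (z : Qb) ^ i) * ((z : Qb) - 1) = (z : Qb) ^ c - 1 :=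
    geom_sum_mul _ _
  have h1 : (z : Qb) ^ c - 1 ≠ 0 := sub_ne_zero.mpr hzc
  have h2 : (z : Qb) - 1 ≠ 0 := by
    intro h
    rw [h, mul_zero] at hu
    exact h1 hu.symm
  have hu0 : (∑ i ∈ Finset.range c, (z : Qb) ^ i) ≠ 0 := by
    intro h
    rw [h, zero_mul] at hu
    exact h1 hu.symm
  have h3 : ((z : Qb) - 1)⁻¹ =
      ((z : Qb) ^ c - 1)⁻¹ * ∑ i ∈ Finset.range c, (z : Qb) ^ i := by
    rw [← hu, mul_inv, mul_comm (∑ i ∈ Finset.range c, (z : Qb) ^ i)⁻¹, mul_assoc,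
      inv_mul_cancel₀ hu0, mul_one]
  unfold inertThetaFun
  rw [Units.val_pow_eq_pow_val, h3, map_mul]
  exact (mul_assoc _ _ _).symm

set_option maxHeartbeats 4000000 in
/-- **(INERT-M2)** for `c` a square modulo `q` the residue maps `red_z`, `red_{z^c}` differ by the
automorphism `φ` of `Fk_m = k(Z)(θ j̄)` over `k(Z)` with `φ (θ j̄) = c · θ j̄`. -/
theorem inert_mid_resEquiv (hq : q.Prime) (hqM : ¬ q ∣ M₀) (hD : IgMidDistinct M₀ q)
    (hO : IgMidOverInf M₀ q)
    (A : ValuationSubring Qb) (hA : A.LiesOverPrime q) {z : Qbˣ} (hz : IsPrimitiveRoot z q)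
    {c : ℕ} (hc : ¬ q ∣ c) (hsq : IsSquare (c : ZMod q))
    {ε ε' : ↥(modularFunctionFieldBar (M₀ * q * q)) →ₐ[Qb] LaurentSeries Qb}
    (hε : IsMidExp M₀ q z ε) (hε' : IsMidExp M₀ q (z ^ c) ε')
    {S S' : ValSetup Qb ↥(modularFunctionFieldBar (M₀ * q * q)) (IsLocalRing.ResidueField A)
      ↥(igField (IsLocalRing.ResidueField A) M₀)}
    (hS : IsMidSetup M₀ q A ε S) (hS' : IsMidSetup M₀ q A ε' S') :
    ∃ φ : ↥(igField (IsLocalRing.ResidueField A) M₀) ≃ₐ[IsLocalRing.ResidueField A]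
        ↥(igField (IsLocalRing.ResidueField A) M₀),
      (∀ f ∈ S.Ov, S'.red f = φ (S.red f)) ∧
      (∀ y : ↥(igField (IsLocalRing.ResidueField A) M₀),
        (y : LaurentSeries (IsLocalRing.ResidueField A)) ∈
          modularFunctionFieldFullC (IsLocalRing.ResidueField A) M₀ → φ y = y) ∧
      φ (inertTheta (IsLocalRing.ResidueField A) M₀) =
        (c : IsLocalRing.ResidueField A) • inertTheta (IsLocalRing.ResidueField A) M₀ := by
  have hOv : S.Ov = S'.Ov := inert_mid_Ov_eq hq hqM hD A hA hz hc hsq hε hε' hS hS'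
  have hAeq : S.A = S'.A := hS.A_eq.trans hS'.A_eq.symm
  have hres : ∀ (a : Qb) (h : a ∈ S.A) (h' : a ∈ S'.A), S.res ⟨a, h⟩ = S'.res ⟨a, h'⟩ := by
    intro a h h'
    have ha : a ∈ A := by rw [← hS.A_eq]; exact h
    rw [hS.res_eq a h ha, hS'.res_eq a h' ha]
  have hφ : ∀ f ∈ S.Ov, inertResEquiv S S' hOv hAeq hres (S.red f) = S'.red f :=
    fun f hf => inertResEquiv_red S S' hOv hAeq hres hf
  have hcop : Nat.Coprime c q :=
    (Nat.Coprime.symm ((Nat.Prime.coprime_iff_not_dvd hq).mpr hc))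
  have hz' : IsPrimitiveRoot (z ^ c) q := hz.pow_of_coprime c hcop
  refine ⟨inertResEquiv S S' hOv hAeq hres, fun f hf => (hφ f hf).symm, ?_, ?_⟩
  · intro y hy
    obtain ⟨f, hf, hfy⟩ := exists_gaussResFun_eq_mul (N := M₀) (ℓ := q) A (y : LaurentSeries _) hy
    let y₁ : ↥(modularFunctionFieldBar (M₀ * q)) := ⟨f, mem_of_mem_gaussSub hf⟩
    obtain ⟨h1, h2⟩ := hO A z ε hε y₁ hf
    obtain ⟨h1', h2'⟩ := hO A (z ^ c) ε' hε' y₁ hf
    have hm : heckeAlphaBar Qb (M₀ * q) q y₁ ∈ S.Ov := (hS.mem_iff _).mpr h1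
    have hm' : heckeAlphaBar Qb (M₀ * q) q y₁ ∈ S'.Ov := (hS'.mem_iff _).mpr h1'
    have e1 : S.red (heckeAlphaBar Qb (M₀ * q) q y₁) = y :=
      Subtype.ext (by rw [hS.coe_red _ hm, h2, hfy])
    have e1' : S'.red (heckeAlphaBar Qb (M₀ * q) q y₁) = y :=
      Subtype.ext (by rw [hS'.coe_red _ hm', h2', hfy])
    rw [← e1, hφ _ hm, e1', e1]
  · obtain ⟨hm, hr⟩ := inertThetaFun_red hq A hA hz hε hS
    obtain ⟨hm', hr'⟩ := inertThetaFun_red hq A hA hz' hε' hS'
    have hzc : (z : Qb) ^ c ≠ 1 := by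
      intro h
      have h1 : z ^ c = 1 := Units.ext (by rw [Units.val_pow_eq_pow_val, h, Units.val_one])
      exact hz'.ne_one hq.one_lt h1
    have hzA : (z : Qb) ∈ A := mem_valuationSubring_of_pow_eq_one A hq.pos
      (by rw [← Units.val_pow_eq_pow_val, hz.pow_eq_one, Units.val_one])
    have huA : (∑ i ∈ Finset.range c, (z : Qb) ^ i) ∈ A :=
      sum_mem fun i _ => pow_mem hzA i
    have huS' : (∑ i ∈ Finset.range c, (z : Qb) ^ i) ∈ S'.A := by rw [hS'.A_eq]; exact huA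
    have hresu : S'.res ⟨_, huS'⟩ = (c : IsLocalRing.ResidueField A) := by
      rw [hS'.res_eq _ huS' huA]
      have h1 : (⟨∑ i ∈ Finset.range c, (z : Qb) ^ i, huA⟩ : A) =
          ∑ i ∈ Finset.range c, (⟨(z : Qb), hzA⟩ : A) ^ i := by
        apply Subtype.ext
        simp
      rw [h1, map_sum]
      simp only [map_pow, inert_residue_root hq A hA z hz.pow_eq_one hzA, one_pow,
        Finset.sum_const, Finset.card_range, nsmul_eq_mul, mul_one]
    have e2 := inertResEquiv_mul_const S S' hOv hAeq hres huS' hm hm' (inertThetaFun_pow hzc)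
    rw [hr, hr', hresu] at e2
    exact e2

set_option maxHeartbeats 4000000 in
/-- **(INERT-M3)** the action of the inertia group on the middle vertices: for `σ ∈ I_A` with
`σ z = z' ^ c`, `c` a square modulo `q`: `σ O_z ⊆ O_{z'}` and
`red_{z'} (σ f) = e (red_z f)`, where `e` is the automorphism of `Fk_m` over `k(Z)` with
`c · e (θ j̄) = θ j̄`.  (`z' = z`: the stabiliser of the vertex; `z'` in the other class: the
swap of the two middle vertices.) -/
theorem inert_mid_action (hq : q.Prime) (hqM : ¬ q ∣ M₀) (hD : IgMidDistinct M₀ q)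
    (hO : IgMidOverInf M₀ q)
    (A : ValuationSubring Qb) (hA : A.LiesOverPrime q) (σ : Qb ≃ₐ[ℚ] Qb)
    (hσ : σ ∈ A.inertiaSubgroupIn ℚ) {z z' : Qbˣ} (hz' : IsPrimitiveRoot z' q)
    {c : ℕ} (hc : ¬ q ∣ c) (hsq : IsSquare (c : ZMod q)) (hσz : σ (z : Qb) = (z' : Qb) ^ c)
    {ε ε' ε'' : ↥(modularFunctionFieldBar (M₀ * q * q)) →ₐ[Qb] LaurentSeries Qb}
    (hε : IsMidExp M₀ q z ε) (hε' : IsMidExp M₀ q z' ε') (hε'' : IsMidExp M₀ q (z' ^ c) ε'')
    {S S' S'' : ValSetup Qb ↥(modularFunctionFieldBar (M₀ * q * q))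
      (IsLocalRing.ResidueField A) ↥(igField (IsLocalRing.ResidueField A) M₀)}
    (hS : IsMidSetup M₀ q A ε S) (hS' : IsMidSetup M₀ q A ε' S')
    (hS'' : IsMidSetup M₀ q A ε'' S'') :
    ∃ e : ↥(igField (IsLocalRing.ResidueField A) M₀) ≃ₐ[IsLocalRing.ResidueField A]
        ↥(igField (IsLocalRing.ResidueField A) M₀),
      (∀ f ∈ S.Ov, arithmeticGalois (modularFunctionFieldFull (M₀ * q * q)) σ • f ∈ S'.Ov ∧
        S'.red (arithmeticGalois (modularFunctionFieldFull (M₀ * q * q)) σ • f) =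
          e (S.red f)) ∧
      (∀ y : ↥(igField (IsLocalRing.ResidueField A) M₀),
        (y : LaurentSeries (IsLocalRing.ResidueField A)) ∈
          modularFunctionFieldFullC (IsLocalRing.ResidueField A) M₀ → e y = y) ∧
      (c : IsLocalRing.ResidueField A) • e (inertTheta (IsLocalRing.ResidueField A) M₀) =
        inertTheta (IsLocalRing.ResidueField A) M₀ := by
  obtain ⟨φ, h1, h2, h3⟩ := inert_mid_resEquiv hq hqM hD hO A hA hz' hc hsq hε' hε'' hS' hS''
  have hOv : S'.Ov = S''.Ov := inert_mid_Ov_eq hq hqM hD A hA hz' hc hsq hε' hε'' hS' hS''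
  have hzz : (((z' ^ c : Qbˣ)) : Qb) = σ (z : Qb) := by
    rw [Units.val_pow_eq_pow_val, hσz]
  refine ⟨φ.symm, ?_, ?_, ?_⟩
  · intro f hf
    obtain ⟨k1, k2⟩ := inert_mid_res_prime hq A σ hσ hε hε'' hzz ((hS.mem_iff f).mp hf)
    have m'' : arithmeticGalois (modularFunctionFieldFull (M₀ * q * q)) σ • f ∈ S''.Ov :=
      (hS''.mem_iff _).mpr k1
    have m' : arithmeticGalois (modularFunctionFieldFull (M₀ * q * q)) σ • f ∈ S'.Ov := by
      rw [hOv]; exact m''
    refine ⟨m', ?_⟩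
    have e1 : S''.red (arithmeticGalois (modularFunctionFieldFull (M₀ * q * q)) σ • f) =
        S.red f := Subtype.ext (by rw [hS''.coe_red _ m'', hS.coe_red _ hf, k2])
    rw [AlgEquiv.eq_symm_apply, ← h1 _ m', e1]
  · intro y hy
    rw [AlgEquiv.symm_apply_eq, h2 y hy]
  · rw [← map_smul, AlgEquiv.symm_apply_eq, h3]

/-- **(INERT-M4)** every exponent is realised by the inertia group: for `q ∤ c` there is
`σ ∈ I_A` with `σ μ = μ ^ c` for all `q`-th roots of unity `μ`. -/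
theorem inert_mid_exists (hq : q.Prime) (A : ValuationSubring Qb) (hA : A.LiesOverPrime q)
    (c : ℕ) (hc : ¬ q ∣ c) :
    ∃ σ ∈ A.inertiaSubgroupIn ℚ, ∀ z : Qbˣ, z ^ q = 1 → σ (z : Qb) = (z : Qb) ^ c := by
  haveI : Fact q.Prime := ⟨hq⟩
  obtain ⟨σ, hσ, h⟩ := inert_exists_pow_on_roots q A hA c hc
  exact ⟨σ, hσ, fun z hz => h _ (by rw [← Units.val_pow_eq_pow_val, hz, Units.val_one])⟩

end Fermat.Agent.S36G
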