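import Mathlib
import Fermat.Agent.S36.G.InertMidEquiv
import Fermat.Agent.S36.Igusa.ExpExists

set_option autoImplicit false
set_option linter.style.haveILetI false
set_option linter.unusedSectionVars false
set_option synthInstance.maxHeartbeats 400000

/-!
# S36 (cluster G), seat INERT-MOD: the SWAP of the middle vertices  (helper55)

`Mid` any index type, `z m` primitive `q`-th roots of unity, `ε m` the middle expansions,
`S m` the constant reductions (`IsMidSetup`), pairwise distinct valuation rings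
(`S36/Igusa/Pack.lean`: `IgPack`).

* `inert_isSquare_mul_of_not` : the product of two non-squares modulo `q` is a square;
* `inert_exists_exp`          : `z = z' ^ b`, `q ∤ b`, for primitive `q`-th roots of unity;
* `inert_mid_not_isSquare`    : `z m = (z m') ^ b`, `m ≠ m'` ⟹ `b` is not a square modulo `q`;
* `inert_mid_swap`            : for `m ≠ m'` there is `τ` in the inertia group of `A` which
  maps `O_{m₁}` to `O_{swap m m' m₁}` for EVERY `m₁`, compatibly with isomorphisms of the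
  residue fields (the field `mid` of `InertVertexData`, `S36/G/CocycleF3Ends.lean`), and with
  `τ ζ = ζ ^ b` on the `q`-th roots of unity.
-/

noncomputable section

namespace Fermat.Agent.S36G

open ModularCurve AlgebraicCurve Fermat.Agent.GaussInt Fermat.Agent.Deuring
  Fermat.Agent.Kronecker Fermat.Agent.BadRed

local notation "Qb" => AlgebraicClosure ℚ

attribute [local instance 10000] SubalgebraClass.toAlgebra HahnSeries.powerSeriesAlgebra

/-- the product of two non-squares modulo a prime is a square. -/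
theorem inert_isSquare_mul_of_not {q : ℕ} (hq : q.Prime) {a b : ZMod q} (ha0 : a ≠ 0)
    (hb0 : b ≠ 0) (ha : ¬ IsSquare a) (hb : ¬ IsSquare b) : IsSquare (a * b) := by
  haveI : Fact q.Prime := ⟨hq⟩
  rw [ZMod.euler_criterion q ha0] at ha
  rw [ZMod.euler_criterion q hb0] at hb
  rw [ZMod.euler_criterion q (mul_ne_zero ha0 hb0), mul_pow]
  rcases ZMod.pow_div_two_eq_neg_one_or_one q ha0 with h | h
  · exact absurd h ha
  · rcases ZMod.pow_div_two_eq_neg_one_or_one q hb0 with h' | h'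
    · exact absurd h' hb
    · rw [h, h']
      ring

/-- `(b : ZMod q) ≠ 0` for `q ∤ b`. -/
theorem inert_natCast_ne_zero {q b : ℕ} (hb : ¬ q ∣ b) : ((b : ℕ) : ZMod q) ≠ 0 := fun h =>
  hb ((ZMod.natCast_eq_zero_iff b q).mp h)

/-- two primitive `q`-th roots of unity are powers of each other. -/
theorem inert_exists_exp {q : ℕ} (hq : q.Prime) {z z' : Qbˣ} (hz : IsPrimitiveRoot z q)
    (hz' : IsPrimitiveRoot z' q) : ∃ b : ℕ, ¬ q ∣ b ∧ z = z' ^ b := by
  haveI : NeZero q := ⟨hq.ne_zero⟩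
  have hz'c : IsPrimitiveRoot ((z' : Qbˣ) : Qb) q := IsPrimitiveRoot.coe_units_iff.mpr hz'
  have hzq : ((z : Qbˣ) : Qb) ^ q = 1 := by
    rw [← Units.val_pow_eq_pow_val, hz.pow_eq_one, Units.val_one]
  obtain ⟨b, -, hb⟩ := hz'c.eq_pow_of_pow_eq_one hzq
  have hb' : z' ^ b = z := Units.ext (by rw [Units.val_pow_eq_pow_val, hb])
  refine ⟨b, fun hdvd => ?_, hb'.symm⟩
  obtain ⟨c, rfl⟩ := hdvd
  rw [pow_mul, hz'.pow_eq_one, one_pow] at hb'
  exact hz.ne_one hq.one_lt hb'.symm

variable {M₀ q : ℕ} [NeZero M₀] [NeZero q]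

section Swap

variable {A : ValuationSubring Qb} {Mid : Type}
  {z : Mid → Qbˣ}
  {ε : Mid → (↥(modularFunctionFieldBar (M₀ * q * q)) →ₐ[Qb] LaurentSeries Qb)}
  {S : Mid → ValSetup Qb ↥(modularFunctionFieldBar (M₀ * q * q)) (IsLocalRing.ResidueField A)
    ↥(igField (IsLocalRing.ResidueField A) M₀)}

/-- equal Gauss rings give equal valuation rings. -/
theorem inert_mid_Ov_eq_of_expOv {m m' : Mid}
    (hS : ∀ m, IsMidSetup M₀ q A (ε m) (S m)) (h : expOv (ε m) A = expOv (ε m') A) :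
    (S m).Ov = (S m').Ov := by
  ext f
  rw [(hS m).mem_iff f, (hS m').mem_iff f, h]

/-- the exponent between two different middle vertices is not a square. -/
theorem inert_mid_not_isSquare (hq : q.Prime) (hqM : ¬ q ∣ M₀) (hD : IgMidDistinct M₀ q)
    (hA : A.LiesOverPrime q) (prim : ∀ m, IsPrimitiveRoot (z m) q)
    (hε : ∀ m, IsMidExp M₀ q (z m) (ε m)) (hS : ∀ m, IsMidSetup M₀ q A (ε m) (S m))
    (hne : ∀ m m', m ≠ m' → (S m).Ov ≠ (S m').Ov) {m m' : Mid} (hmm : m ≠ m') {b : ℕ}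
    (hb : ¬ q ∣ b) (hzb : z m = z m' ^ b) : ¬ IsSquare ((b : ℕ) : ZMod q) := by
  intro hsq
  have hε' : IsMidExp M₀ q (z m' ^ b) (ε m) := by
    rw [← hzb]
    exact hε m
  have h := (hD hq hqM A hA (z m') b (ε m') (ε m) (prim m') hb (hε m') hε').mpr hsq
  exact hne m m' hmm (inert_mid_Ov_eq_of_expOv hS h).symm

set_option maxHeartbeats 4000000 in
/-- **(INERT-MOD, middle vertices)** for `m ≠ m'` there is an inertia element which swaps the
middle vertices `m`, `m'` (and these are ALL the middle vertices). -/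
theorem inert_mid_swap [DecidableEq Mid] (hq : q.Prime) (hqM : ¬ q ∣ M₀)
    (hD : IgMidDistinct M₀ q) (hSet : IgMidSetupExists M₀ q)
    (hA : A.LiesOverPrime q) (prim : ∀ m, IsPrimitiveRoot (z m) q)
    (hε : ∀ m, IsMidExp M₀ q (z m) (ε m)) (hS : ∀ m, IsMidSetup M₀ q A (ε m) (S m))
    (hne : ∀ m m', m ≠ m' → (S m).Ov ≠ (S m').Ov) {m m' : Mid} (hmm : m ≠ m') :
    ∃ τ ∈ A.inertiaSubgroupIn ℚ, ∀ m₁ : Mid,
      ∃ eM : ↥(igField (IsLocalRing.ResidueField A) M₀) ≃ₐ[IsLocalRing.ResidueField A]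
          ↥(igField (IsLocalRing.ResidueField A) M₀),
        ∀ f, f ∈ (S m₁).Ov →
          arithmeticGalois (modularFunctionFieldFull (M₀ * q * q)) τ • f ∈
              (S (Equiv.swap m m' m₁)).Ov ∧
            (S (Equiv.swap m m' m₁)).red
                (arithmeticGalois (modularFunctionFieldFull (M₀ * q * q)) τ • f) =
              eM ((S m₁).red f) := by
  -- the exponent between `m` and `m'`
  obtain ⟨b, hqb, hzb⟩ := inert_exists_exp hq (prim m) (prim m')
  have hbns : ¬ IsSquare ((b : ℕ) : ZMod q) :=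
    inert_mid_not_isSquare hq hqM hD hA prim hε hS hne hmm hqb hzb
  obtain ⟨τ, hτ, hτz⟩ := inert_mid_exists hq A hA b hqb
  refine ⟨τ, hτ, fun m₁ => ?_⟩
  -- the exponent between `m₁` and its image
  obtain ⟨b₁, hqb₁, hzb₁⟩ := inert_exists_exp hq (prim m₁) (prim (Equiv.swap m m' m₁))
  have hqbb : ¬ q ∣ b₁ * b := fun h => (hq.dvd_mul.mp h).elim hqb₁ hqb
  have hsq : IsSquare (((b₁ * b : ℕ)) : ZMod q) := by
    rw [Nat.cast_mul]
    by_cases h1 : Equiv.swap m m' m₁ = m₁
    · -- `m₁ ∉ {m, m'}`: impossible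
      exfalso
      have hm₁m : m₁ ≠ m := by
        rintro rfl
        rw [Equiv.swap_apply_left] at h1
        exact hmm h1.symm
      have hm₁m' : m₁ ≠ m' := by
        rintro rfl
        rw [Equiv.swap_apply_right] at h1
        exact hmm h1
      obtain ⟨b₂, hqb₂, hzb₂⟩ := inert_exists_exp hq (prim m₁) (prim m)
      have hb₂ns : ¬ IsSquare ((b₂ : ℕ) : ZMod q) :=
        inert_mid_not_isSquare hq hqM hD hA prim hε hS hne hm₁m hqb₂ hzb₂
      have hz' : z m₁ = z m' ^ (b * b₂) := by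
        rw [hzb₂, hzb, pow_mul]
      have hqbb₂ : ¬ q ∣ b * b₂ := fun h => (hq.dvd_mul.mp h).elim hqb hqb₂
      refine inert_mid_not_isSquare hq hqM hD hA prim hε hS hne hm₁m' hqbb₂ hz' ?_
      rw [Nat.cast_mul]
      exact inert_isSquare_mul_of_not hq (inert_natCast_ne_zero hqb)
        (inert_natCast_ne_zero hqb₂) hbns hb₂ns
    · have hb₁ns : ¬ IsSquare ((b₁ : ℕ) : ZMod q) :=
        inert_mid_not_isSquare hq hqM hD hA prim hε hS hne (Ne.symm h1) hqb₁ hzb₁
      exact inert_isSquare_mul_of_not hq (inert_natCast_ne_zero hqb₁)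
        (inert_natCast_ne_zero hqb) hb₁ns hbns
  have hτz₁ : τ ((z m₁ : Qbˣ) : Qb) = ((z (Equiv.swap m m' m₁) : Qbˣ) : Qb) ^ (b₁ * b) := by
    rw [hτz (z m₁) (prim m₁).pow_eq_one, hzb₁, Units.val_pow_eq_pow_val, ← pow_mul]
  -- the expansion and the reduction at `z' ^ (b₁ b)`
  have hprim'' : IsPrimitiveRoot (z (Equiv.swap m m' m₁) ^ (b₁ * b)) q :=
    (prim _).pow_of_coprime _ ((Nat.Prime.coprime_iff_not_dvd hq).mpr hqbb).symm
  obtain ⟨ε'', hε''⟩ := igMidExpExists M₀ q hq hqM _ hprim''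
  obtain ⟨S'', hS'', -⟩ := hSet hq hqM A hA _ ε'' hprim'' hε''
  obtain ⟨e, he, -, -⟩ := inert_mid_action hq hqM hD (igMidOverInf M₀ q) A hA τ hτ
    (prim (Equiv.swap m m' m₁)) hqbb hsq hτz₁ (hε m₁) (hε _) hε'' (hS m₁) (hS _) hS''
  exact ⟨e, he⟩

end Swap

end Fermat.Agent.S36G
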