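import Mathlib
import Fermat.Agent.S36.G.InertEnds
import Fermat.Agent.S36.HPVal.InertOnto
import Fermat.Agent.Lib.KFin.Inertia
import Fermat.Prelude.Def_ModularCurve_ArithmeticGalois

set_option autoImplicit false
set_option linter.style.haveILetI false
set_option linter.unusedSectionVars false

/-!
# S36 (cluster G), seat INERT-MOD: the scaling toolkit  (helper55)

`InertScaled S t f` (`S36/G/InertEnds.lean`): `t • f = a f`, `a` a unit of all the `(S c).A`.

* `InertScaled.mul`, `.inv`, `.div`, `.pow` : closure properties;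
* `inertScaled_algebraMap`, `inertScaled_algebraMap_root` : constants `b` with
  `t b = ζ b`, `ζ` a root of unity;
* `inert_gal_root` : for `τ ∈ Gal (ℚ̄ / ℚ)` and `b ^ n ∈ ℚ`: `τ b = ζ b`, `ζ ^ n = 1`;
* `inertScaled_const_of_pow_rat` : the constant `b`, `b ^ n ∈ ℚ`, is scaled by
  `arithmeticGalois F₀ τ`;
* `inert_wpiInertial` : `arithmeticGalois F₀ τ`, `τ` in the inertia group of `A`, is inertial
  (`WpiInertial`) for every constant reduction over `A` with the residue map of `A`.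
-/

noncomputable section

open AlgebraicCurve Fermat.Agent.RR Fermat.Agent.Deuring

namespace Fermat.Agent.S36G

open Fermat.Agent.BadRed Fermat.Agent.BadRedG

section Abs

variable {K F k : Type*} [Field K] [Field F] [Algebra K F] [Field k]
  {κ : Type*} {Fk : κ → Type*} [∀ c, Field (Fk c)] [∀ c, Algebra k (Fk c)]
  {S : ∀ c : κ, ValSetup K F k (Fk c)} {t : SemilinearAut K F}

theorem InertScaled.mul {f g : F} (h₁ : InertScaled S t f) (h₂ : InertScaled S t g) :
    InertScaled S t (f * g) := by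
  obtain ⟨a, ha0, ha, ha', hf⟩ := h₁
  obtain ⟨b, hb0, hb, hb', hg⟩ := h₂
  refine ⟨a * b, mul_ne_zero ha0 hb0, fun c => (S c).A.mul_mem _ _ (ha c) (hb c), fun c => ?_, ?_⟩
  · rw [mul_inv]
    exact (S c).A.mul_mem _ _ (ha' c) (hb' c)
  · rw [smul_mul', hf, hg, map_mul]
    ring

theorem InertScaled.inv {f : F} (h : InertScaled S t f) : InertScaled S t f⁻¹ := by
  obtain ⟨a, ha0, ha, ha', hf⟩ := h
  refine ⟨a⁻¹, inv_ne_zero ha0, ha', fun c => by rw [inv_inv]; exact ha c, ?_⟩
  rw [smul_inv'', hf, mul_inv, map_inv₀]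

theorem InertScaled.div {f g : F} (h₁ : InertScaled S t f) (h₂ : InertScaled S t g) :
    InertScaled S t (f / g) := by
  rw [div_eq_mul_inv]
  exact h₁.mul h₂.inv

theorem InertScaled.pow {f : F} (h : InertScaled S t f) (n : ℕ) : InertScaled S t (f ^ n) := by
  induction n with
  | zero =>
    rw [pow_zero]
    exact inertScaled_of_smul_eq S (smul_one t)
  | succ n ih =>
    rw [pow_succ]
    exact ih.mul h

/-- a constant which is multiplied by a unit. -/
theorem inertScaled_algebraMap {b a : K} (ha0 : a ≠ 0) (ha : ∀ c, a ∈ (S c).A)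
    (ha' : ∀ c, a⁻¹ ∈ (S c).A) (hb : SemilinearAut.baseAut t b = a * b) :
    InertScaled S t (algebraMap K F b) :=
  ⟨a, ha0, ha, ha', by rw [SemilinearAut.smul_algebraMap, hb, map_mul]⟩

/-- a constant which is multiplied by a root of unity. -/
theorem inertScaled_algebraMap_root {b ζ : K} {n : ℕ} (hn : 0 < n) (hζ : ζ ^ n = 1)
    (hb : SemilinearAut.baseAut t b = ζ * b) : InertScaled S t (algebraMap K F b) := by
  have hζ0 : ζ ≠ 0 := by
    rintro rfl
    rw [zero_pow hn.ne'] at hζ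
    exact zero_ne_one hζ
  refine inertScaled_algebraMap hζ0 (fun c => wpi_root_mem _ hn hζ)
    (fun c => wpi_root_mem _ hn (by rw [inv_pow, hζ, inv_one])) hb

end Abs

section Gal

local notation "Qb" => AlgebraicClosure ℚ

/-- `τ b = ζ b` with `ζ ^ n = 1` if `b ^ n` is rational. -/
theorem inert_gal_root (τ : Qb ≃ₐ[ℚ] Qb) {b : Qb} {n : ℕ} {r : ℚ}
    (hb : b ^ n = algebraMap ℚ Qb r) : ∃ ζ : Qb, ζ ^ n = 1 ∧ τ b = ζ * b := by
  rcases eq_or_ne b 0 with rfl | hb0
  · exact ⟨1, one_pow n, by rw [map_zero, mul_zero]⟩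
  · refine ⟨τ b / b, ?_, by rw [div_mul_cancel₀ _ hb0]⟩
    rw [div_pow, ← map_pow, hb, τ.commutes, ← hb]
    exact div_self (pow_ne_zero n hb0)

variable {F₀ : IntermediateField ℚ (LaurentSeries ℚ)} {k : Type*} [Field k]
  {κ : Type*} {Fk : κ → Type*} [∀ c, Field (Fk c)] [∀ c, Algebra k (Fk c)]

/-- a constant `b` with `b ^ n ∈ ℚ`, `n > 0`, is scaled by the Galois action. -/
theorem inertScaled_const_of_pow_rat
    (S : ∀ c : κ, ValSetup Qb (ModularCurve.laurentBaseChange Qb F₀) k (Fk c))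
    (τ : Qb ≃ₐ[ℚ] Qb) {b : Qb} {n : ℕ} (hn : 0 < n) {r : ℚ} (hb : b ^ n = algebraMap ℚ Qb r) :
    InertScaled S (ModularCurve.arithmeticGalois F₀ τ)
      (algebraMap Qb (ModularCurve.laurentBaseChange Qb F₀) b) := by
  obtain ⟨ζ, hζ, hτ⟩ := inert_gal_root τ hb
  exact inertScaled_algebraMap_root hn hζ hτ

end Gal

end Fermat.Agent.S36G
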