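import Mathlib
import Fermat.Agent.S36.Val.Restr
import Fermat.Agent.Lib.BadRed.Mod.GaloisSemi

set_option autoImplicit false
set_option linter.style.haveILetI false
set_option linter.unusedSectionVars false
set_option synthInstance.maxHeartbeats 400000

/-!
# S36 (cluster G), seat INERT, the VERTICAL vertices `v_∞`, `v_0`  (helper55)

At a level `M` (`= q² M₀` in the application), `A ∣ q`, `S` a Gauss setup (`IsGaussSetup M N₀ A S`,
e.g. `gaussSetupSq`, `S36/Val/Inf2.lean`), `v_0 = valSetupZeroAt D hM S` (`S36/Val/Restr.lean`):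
the inertia group of `A` preserves both valuation rings and acts trivially on both residue
fields (`π = id`, `e = id` in `GraphSeed.IsPermAutW`).

* `inert_inf_mem`, `inert_inf_red`   : `v_∞` (restatement of `IsGaussSetup.mem_of_inertia`,
                                       `red_inertia`);
* `inert_zeroAt_mem_galois`, `inert_zeroAt_red_galois` : transport of any Galois statement from
                                       `v_∞` to `v_0 = v_∞ ∘ w_Q` at a level `M = Q R`;
* `inert_zero_mem`, `inert_zero_red` : `v_0`.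
-/

noncomputable section

namespace Fermat.Agent.S36G

open ModularCurve AlgebraicCurve Fermat.Agent.F3 Fermat.Agent.F3G Fermat.Agent.GaussInt
  Fermat.Agent.AtkinLehner Fermat.Agent.BadRed Fermat.Agent.Deuring Fermat.Agent.Kronecker
  Fermat.Agent.S36N

local notation "Qb" => AlgebraicClosure ℚ

attribute [local instance 10000] SubalgebraClass.toAlgebra HahnSeries.powerSeriesAlgebra

section ZeroAt

variable {k Fk : Type*} [Field k] [Field Fk] [Algebra k Fk]
  (D : ALData) {M : ℕ} [NeZero M] (hM : M = D.Q * D.R) (S : ValSetup Qb (FBar M) k Fk)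

/-- if the Galois element `σ` preserves `O_∞`, it preserves `O_0` (level `M = Q R`). -/
theorem inert_zeroAt_mem_galois (σ : Qb ≃ₐ[ℚ] Qb)
    (hm : ∀ f, f ∈ S.Ov → arithmeticGalois (modularFunctionFieldFull M) σ • f ∈ S.Ov)
    (f : FBar M) (hf : f ∈ (valSetupZeroAt D hM S).Ov) :
    arithmeticGalois (modularFunctionFieldFull M) σ • f ∈ (valSetupZeroAt D hM S).Ov := by
  subst hM
  rw [valSetupZeroAt_rfl] at hf ⊢
  exact valSetupZero_mem_galois D S σ hm f hf

/-- if the Galois element `σ` acts on the residues of `v_∞` through `τ`, the same holds for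
`v_0` (level `M = Q R`). -/
theorem inert_zeroAt_red_galois (σ : Qb ≃ₐ[ℚ] Qb) (τ : Fk → Fk)
    (hr : ∀ f, f ∈ S.Ov →
      S.red (arithmeticGalois (modularFunctionFieldFull M) σ • f) = τ (S.red f))
    (f : FBar M) (hf : f ∈ (valSetupZeroAt D hM S).Ov) :
    (valSetupZeroAt D hM S).red (arithmeticGalois (modularFunctionFieldFull M) σ • f) =
      τ ((valSetupZeroAt D hM S).red f) := by
  subst hM
  rw [valSetupZeroAt_rfl] at hf ⊢
  exact valSetupZero_red_galois D S σ τ hr f hf

end ZeroAt

section Vert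

variable {M N₀ : ℕ} [NeZero M] [NeZero N₀] {A : ValuationSubring Qb}
  {S : ValSetup Qb (FBar M) (IsLocalRing.ResidueField A)
    (modularFunctionFieldFullC (IsLocalRing.ResidueField A) N₀)}

/-- **(INERT-V1)** the inertia group preserves `O_∞`. -/
theorem inert_inf_mem (hS : IsGaussSetup M N₀ A S) (σ : Qb ≃ₐ[ℚ] Qb)
    (hσ : σ ∈ A.inertiaSubgroupIn ℚ) (f : FBar M) (hf : f ∈ S.Ov) :
    arithmeticGalois (modularFunctionFieldFull M) σ • f ∈ S.Ov :=
  hS.mem_of_inertia σ hσ f hf

/-- **(INERT-V1)** the inertia group acts trivially on the residue field of `v_∞`. -/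
theorem inert_inf_red (hS : IsGaussSetup M N₀ A S) (σ : Qb ≃ₐ[ℚ] Qb)
    (hσ : σ ∈ A.inertiaSubgroupIn ℚ) (f : FBar M) (hf : f ∈ S.Ov) :
    S.red (arithmeticGalois (modularFunctionFieldFull M) σ • f) = S.red f :=
  hS.red_inertia σ hσ f hf

/-- **(INERT-V2)** the inertia group preserves `O_0`. -/
theorem inert_zero_mem (D : ALData) (hM : M = D.Q * D.R) (hS : IsGaussSetup M N₀ A S)
    (σ : Qb ≃ₐ[ℚ] Qb) (hσ : σ ∈ A.inertiaSubgroupIn ℚ) (f : FBar M)
    (hf : f ∈ (valSetupZeroAt D hM S).Ov) :
    arithmeticGalois (modularFunctionFieldFull M) σ • f ∈ (valSetupZeroAt D hM S).Ov :=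
  inert_zeroAt_mem_galois D hM S σ (fun f hf => hS.mem_of_inertia σ hσ f hf) f hf

/-- **(INERT-V2)** the inertia group acts trivially on the residue field of `v_0`. -/
theorem inert_zero_red (D : ALData) (hM : M = D.Q * D.R) (hS : IsGaussSetup M N₀ A S)
    (σ : Qb ≃ₐ[ℚ] Qb) (hσ : σ ∈ A.inertiaSubgroupIn ℚ) (f : FBar M)
    (hf : f ∈ (valSetupZeroAt D hM S).Ov) :
    (valSetupZeroAt D hM S).red (arithmeticGalois (modularFunctionFieldFull M) σ • f) =
      (valSetupZeroAt D hM S).red f :=
  inert_zeroAt_red_galois D hM S σ id (fun f hf => hS.red_inertia σ hσ f hf) f hf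

end Vert

end Fermat.Agent.S36G
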