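import Mathlib
import Fermat.Agent.S36.G.CocycleF3Ends
import Fermat.Agent.S36.G.InertModMid
import Fermat.Agent.S36.G.InertModScaled
import Fermat.Agent.S36.G.InertVert
import Fermat.Agent.S36.G.VtxFamily
import Fermat.Agent.S36.G.Defs
import Fermat.Agent.S36.HPVal.InertFinal

set_option autoImplicit false
set_option linter.style.haveILetI false
set_option linter.unusedSectionVars false
set_option synthInstance.maxHeartbeats 400000

/-!
# Cluster G (S36), Step 3: the relation (F3) for the MODULAR graph  (helper55, INERT-MOD)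

Level `M₀ q²`, `A ∣ q`, `k` the residue field, `F = FBar (M₀ * q * q)`.
`E : ModEndsInput` over the family `E.S = vtxFamily Soo S0 Sm SP`:

* `Soo`  a Gauss setup (`IsGaussSetup`), `S0 = valSetupZeroAt D hM Soo`;
* `Sm m` the middle constant reductions (`IsMidSetup`, pairwise incomparable: `IgPack`);
* `SP P` stable under the inertia group (`WpiStable`: `wpm_stable_at`, `S36/HPVal/InertFinal`).

* `inertVertexData_modular` : the `InertVertexData` of an inertia element which swaps two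
  middle vertices;
* `inertAct_modular`        : the hypothesis `hact` of `ModEndsInput.cocycleF3_of_ends`
  (= `CboInert E x n` of `S36/G/CoreBundleOf.lean`) for `P₃ = InertiaFixedFun (M₀ * q * q) A n`.
-/

noncomputable section

open AlgebraicCurve Fermat.Agent.RR Fermat.Agent.Deuring

namespace Fermat.Agent.S36G

open ModularCurve Fermat.Agent.GaussInt Fermat.Agent.Kronecker Fermat.Agent.AtkinLehner
  Fermat.Agent.BadRed Fermat.Agent.BadRedG Fermat.Agent.BadRed.Gluing Fermat.Agent.F3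
  Fermat.Agent.F3G

local notation "Qb" => AlgebraicClosure ℚ

attribute [local instance 10000] SubalgebraClass.toAlgebra HahnSeries.powerSeriesAlgebra

variable {M₀ q : ℕ} [NeZero M₀] [NeZero q] {A : ValuationSubring Qb}
  {Mid SS : Type} [Fintype Mid] [Fintype SS]
  {FkP : SS → Type} [∀ P, Field (FkP P)] [∀ P, Algebra (IsLocalRing.ResidueField A) (FkP P)]

section Data

variable
  (E : ModEndsInput Qb (FBar (M₀ * q * q)) (IsLocalRing.ResidueField A) Mid SS
    ↥(modularFunctionFieldFullC (IsLocalRing.ResidueField A) M₀)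
    (fun _ => ↥(igField (IsLocalRing.ResidueField A) M₀)) FkP)
  {Soo S0 : ValSetup Qb (FBar (M₀ * q * q)) (IsLocalRing.ResidueField A)
    ↥(modularFunctionFieldFullC (IsLocalRing.ResidueField A) M₀)}
  {Sm : Mid → ValSetup Qb (FBar (M₀ * q * q)) (IsLocalRing.ResidueField A)
    ↥(igField (IsLocalRing.ResidueField A) M₀)}
  {SP : ∀ P, ValSetup Qb (FBar (M₀ * q * q)) (IsLocalRing.ResidueField A) (FkP P)}

set_option maxHeartbeats 4000000 in
/-- **the vertex-wise data of the inertia elements which swap two middle vertices.** -/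
theorem inertVertexData_modular [DecidableEq Mid] (hq : q.Prime) (hqM : ¬ q ∣ M₀)
    (hD : IgMidDistinct M₀ q) (hSet : IgMidSetupExists M₀ q) (hA : A.LiesOverPrime q)
    (hES : E.S = vtxFamily Soo S0 Sm SP)
    (hoo : IsGaussSetup (M₀ * q * q) M₀ A Soo)
    (D : ALData) (hM : M₀ * q * q = D.Q * D.R) (h0 : S0 = valSetupZeroAt D hM Soo)
    {z : Mid → Qbˣ}
    {ε : Mid → (↥(modularFunctionFieldBar (M₀ * q * q)) →ₐ[Qb] LaurentSeries Qb)}
    (prim : ∀ m, IsPrimitiveRoot (z m) q) (hε : ∀ m, IsMidExp M₀ q (z m) (ε m))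
    (hS : ∀ m, IsMidSetup M₀ q A (ε m) (Sm m))
    (hne : ∀ m m', m ≠ m' → ¬ (Sm m).Ov ≤ (Sm m').Ov)
    (hPA : ∀ P, (SP P).A = A)
    (hP : ∀ P, ∀ τ ∈ A.inertiaSubgroupIn ℚ,
      WpiStable (SP P) (arithmeticGalois (modularFunctionFieldFull (M₀ * q * q)) τ))
    (hs1 : ∀ τ ∈ A.inertiaSubgroupIn ℚ,
      InertScaled E.S (arithmeticGalois (modularFunctionFieldFull (M₀ * q * q)) τ) E.u1)
    (hs2' : ∀ τ ∈ A.inertiaSubgroupIn ℚ,
      InertScaled E.S (arithmeticGalois (modularFunctionFieldFull (M₀ * q * q)) τ)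
        (algebraMap Qb (FBar (M₀ * q * q)) E.ϖ2 / E.u2))
    (hs1' : ∀ τ ∈ A.inertiaSubgroupIn ℚ,
      InertScaled E.S (arithmeticGalois (modularFunctionFieldFull (M₀ * q * q)) τ)
        (algebraMap Qb (FBar (M₀ * q * q)) E.ϖ1 / E.u1))
    (hs2 : ∀ τ ∈ A.inertiaSubgroupIn ℚ,
      InertScaled E.S (arithmeticGalois (modularFunctionFieldFull (M₀ * q * q)) τ) E.u2)
    {m m' : Mid} (hmm : m ≠ m') :
    ∃ τ ∈ A.inertiaSubgroupIn ℚ,
      InertVertexData E (arithmeticGalois (modularFunctionFieldFull (M₀ * q * q)) τ)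
        (Equiv.swap m m') := by
  have hne' : ∀ m m', m ≠ m' → (Sm m).Ov ≠ (Sm m').Ov := fun m m' h he =>
    hne m m' h (le_of_eq he)
  obtain ⟨τ, hτ, hmid⟩ := inert_mid_swap hq hqM hD hSet hA prim hε hS hne' hmm
  refine ⟨τ, hτ, ?_⟩
  refine
    { oo_mem := ?_
      oo_red := ?_
      zero_mem := ?_
      zero_red := ?_
      mid := ?_
      hor := ?_
      sc_u1 := hs1 τ hτ
      sc_u2' := hs2' τ hτ
      sc_u1' := hs1' τ hτ
      sc_u2 := hs2 τ hτ }
  · intro f hf
    rw [hES] at hf ⊢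
    exact inert_inf_mem hoo τ hτ f hf
  · intro f hf
    rw [hES] at hf ⊢
    exact inert_inf_red hoo τ hτ f hf
  · intro f hf
    rw [hES] at hf ⊢
    rw [vtxFamily_zero, h0] at hf ⊢
    exact inert_zero_mem D hM hoo τ hτ f hf
  · intro f hf
    rw [hES] at hf ⊢
    rw [vtxFamily_zero, h0] at hf ⊢
    exact inert_zero_red D hM hoo τ hτ f hf
  · intro m₁
    obtain ⟨eM, heM⟩ := hmid m₁
    refine ⟨eM, fun f hf => ?_⟩
    rw [hES] at hf ⊢
    exact heM f hf
  · intro P
    have hτ' : τ ∈ (SP P).A.inertiaSubgroupIn ℚ := by rw [hPA P]; exact hτ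
    obtain ⟨eP, heP⟩ := wpi_exists_resEquiv (hP P τ hτ) (wpm_inertial (SP P) hτ')
    refine ⟨eP, fun f hf => ?_⟩
    rw [hES] at hf ⊢
    exact heP f hf

section Act

set_option maxHeartbeats 4000000 in
/-- **the inertia action on the modular graph** (= `CboInert E x n` of `S36/G/CoreBundleOf.lean`,
the hypothesis `hact` of `ModEndsInput.cocycleF3_of_ends`). -/
theorem inertAct_modular [DecidableEq Mid] (hq : q.Prime) (hqM : ¬ q ∣ M₀)
    (hD : IgMidDistinct M₀ q) (hSet : IgMidSetupExists M₀ q) (hA : A.LiesOverPrime q)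
    (hES : E.S = vtxFamily Soo S0 Sm SP)
    (hoo : IsGaussSetup (M₀ * q * q) M₀ A Soo)
    (D : ALData) (hM : M₀ * q * q = D.Q * D.R) (h0 : S0 = valSetupZeroAt D hM Soo)
    {z : Mid → Qbˣ}
    {ε : Mid → (↥(modularFunctionFieldBar (M₀ * q * q)) →ₐ[Qb] LaurentSeries Qb)}
    (prim : ∀ m, IsPrimitiveRoot (z m) q) (hε : ∀ m, IsMidExp M₀ q (z m) (ε m))
    (hS : ∀ m, IsMidSetup M₀ q A (ε m) (Sm m))
    (hne : ∀ m m', m ≠ m' → ¬ (Sm m).Ov ≤ (Sm m').Ov)
    (hPA : ∀ P, (SP P).A = A)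
    (hP : ∀ P, ∀ τ ∈ A.inertiaSubgroupIn ℚ,
      WpiStable (SP P) (arithmeticGalois (modularFunctionFieldFull (M₀ * q * q)) τ))
    (hs1 : ∀ τ ∈ A.inertiaSubgroupIn ℚ,
      InertScaled E.S (arithmeticGalois (modularFunctionFieldFull (M₀ * q * q)) τ) E.u1)
    (hs2' : ∀ τ ∈ A.inertiaSubgroupIn ℚ,
      InertScaled E.S (arithmeticGalois (modularFunctionFieldFull (M₀ * q * q)) τ)
        (algebraMap Qb (FBar (M₀ * q * q)) E.ϖ2 / E.u2))
    (hs1' : ∀ τ ∈ A.inertiaSubgroupIn ℚ,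
      InertScaled E.S (arithmeticGalois (modularFunctionFieldFull (M₀ * q * q)) τ)
        (algebraMap Qb (FBar (M₀ * q * q)) E.ϖ1 / E.u1))
    (hs2 : ∀ τ ∈ A.inertiaSubgroupIn ℚ,
      InertScaled E.S (arithmeticGalois (modularFunctionFieldFull (M₀ * q * q)) τ) E.u2)
    {x : FBar (M₀ * q * q)}
    (htx : ∀ τ ∈ A.inertiaSubgroupIn ℚ,
      arithmeticGalois (modularFunctionFieldFull (M₀ * q * q)) τ • x = x)
    (n : ℕ) :
    ∀ g : FBar (M₀ * q * q), InertiaFixedFun (M₀ * q * q) A n g → ∀ m m' : Mid, m ≠ m' →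
      ∃ (t : SemilinearAut Qb (FBar (M₀ * q * q))) (σ : Equiv.Perm Mid),
        InertVertexData E t σ ∧ t • x = x ∧ σ m = m' ∧
          ∃ (u : FBar (M₀ * q * q)) (a : Qb), a ≠ 0 ∧
            t • g = algebraMap Qb (FBar (M₀ * q * q)) a * u ^ n * g := by
  intro g hg m m' hmm
  obtain ⟨τ, hτ, hdata⟩ := inertVertexData_modular E hq hqM hD hSet hA hES hoo D hM h0 prim hε
    hS hne hPA hP hs1 hs2' hs1' hs2 hmm
  obtain ⟨u, a, ha, hu⟩ := hg τ hτ
  exact ⟨_, Equiv.swap m m', hdata, htx τ hτ, Equiv.swap_apply_left m m', u, a, ha, hu⟩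

end Act

end Data

end Fermat.Agent.S36G
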