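import Mathlib
import Fermat.Agent.S36.G.CocycleF3Ends
import Fermat.Agent.S36.G.CocycleF3Mod
import Fermat.Agent.S36.HPVal.InertSc
import Fermat.Agent.S36.Seed.Inv
import Fermat.Agent.S36.Seed.Main
import Fermat.Agent.S36.G.Defs

set_option autoImplicit false
set_option linter.unusedSectionVars false
set_option linter.unusedVariables false
set_option linter.style.haveILetI false
set_option synthInstance.maxHeartbeats 400000

/-!
# Cluster G (S36), Step 3, junction F3: the plug `CboInert`  (helper47)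

`E : ModEndsInput ℚ̄ (FBar (M₀ q q)) k ..` with `E.u1 = uF` (`u₁ = Δ(z) / Δ(qz)`),
`E.u2 = E.u1 / ϖ1`, `ϖ1 = ϖ ^ j1`, `ϖ2 = ϖ ^ j2`, `ϖ ^ r` a natural number, `b = q ^ e`;
`x = E.ymodX b nn` the seed function of SEED v3.

* `f3a_x_fixed`       : `x` is fixed by `G_ℚ` (`seedInv_ymod_fixed`, `S36/Seed/Inv.lean`);
* `f3a_scaled`        : the four scaling statements `sc_u1`, `sc_u2'`, `sc_u1'`, `sc_u2` of
                        `InertVertexData`, for every `τ ∈ G_ℚ` (`wpmsc_fields_of_pow`,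
                        `S36/HPVal/InertSc.lean`);
* `f3a_fixed`         : `InertiaFixedFun (M₀ q q) A n g` in the shape `t • g = a uⁿ g`;
* `f3a_hact_of_data`  : the hypothesis `hact` of `ModEndsInput.cocycleF3_of_ends`
                        (`= CboInert E x n`, `S36/G/CoreBundleOf.lean`), from: for every pair
                        `m ≠ m'` of middle vertices an inertia element `τ` with
                        `InertVertexData E t_τ (swap m m')`;
* `f3a_hact_gen`      : **the junction output (F3)** `CboInert E (E.ymodX b nn) n` (unfolded)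
                        from the hypotheses of `inertVertexData_modular` (helper55,
                        `S36/G/CocycleF3Mod.lean`) on a family `E.S = vtxFamily Soo S0 Sm SP`,
                        with the scalings and `t • x = x` discharged.

The instance for `Sm = I.S` (`I : IgPack M₀ q A`) and `SP P = (O P).S` (`O P : WPOut ..`) is
`f3a_hact` in `S36/G/CocycleF3ActPack.lean`.
-/

noncomputable section

open AlgebraicCurve Fermat.Agent.RR Fermat.Agent.Deuring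

namespace Fermat.Agent.S36G

open ModularCurve Fermat.Agent.F3 Fermat.Agent.F3G Fermat.Agent.GaussInt
  Fermat.Agent.Kronecker Fermat.Agent.AtkinLehner Fermat.Agent.BadRed Fermat.Agent.BadRedG
  Fermat.Agent.BadRed.Gluing Fermat.Agent.HPVal Fermat.Agent.HP

local notation "Qb" => AlgebraicClosure ℚ

attribute [local instance 10000] SubalgebraClass.toAlgebra HahnSeries.powerSeriesAlgebra

section Plug

variable {M₀ q : ℕ} [NeZero M₀] [NeZero q]
  {A : ValuationSubring Qb}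
  {Mid SS : Type} [Fintype Mid] [Fintype SS]
  {Fk0 : Type} [Field Fk0] [Algebra (IsLocalRing.ResidueField A) Fk0]
  {FkM : Mid → Type} [∀ m, Field (FkM m)] [∀ m, Algebra (IsLocalRing.ResidueField A) (FkM m)]
  {FkP : SS → Type} [∀ P, Field (FkP P)] [∀ P, Algebra (IsLocalRing.ResidueField A) (FkP P)]
  (E : ModEndsInput Qb (FBar (M₀ * q * q)) (IsLocalRing.ResidueField A) Mid SS Fk0 FkM FkP)

/-- **the seed function of SEED v3 is fixed by `G_ℚ`.** -/
theorem f3a_x_fixed (hdvd : q ∣ M₀ * q * q) (hu1 : E.u1 = uF (M₀ * q * q) q hdvd)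
    {b : Qb} {e : ℕ} (hbq : b = (q : Qb) ^ e) (nn : ℕ) (τ : Qb ≃ₐ[ℚ] Qb) :
    arithmeticGalois (modularFunctionFieldFull (M₀ * q * q)) τ • E.ymodX b nn =
      E.ymodX b nn := by
  unfold ModEndsInput.ymodX
  rw [hu1, hbq]
  exact seedInv_ymod_fixed q hdvd e nn Unit τ

/-- `u₁` is fixed by `G_ℚ`. -/
theorem f3a_u1_fixed (hdvd : q ∣ M₀ * q * q) (hu1 : E.u1 = uF (M₀ * q * q) q hdvd)
    (τ : Qb ≃ₐ[ℚ] Qb) : galFun (M₀ * q * q) τ E.u1 = E.u1 := by
  rw [hu1]
  exact arithmeticGalois_smul_uF (M₀ * q * q) q hdvd τ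

/-- **the four scaling statements of `InertVertexData`**, for every `τ ∈ G_ℚ`. -/
theorem f3a_scaled (hdvd : q ∣ M₀ * q * q) (hu1 : E.u1 = uF (M₀ * q * q) q hdvd)
    (hu2 : E.u2 = E.u1 / algebraMap Qb (FBar (M₀ * q * q)) E.ϖ1)
    {ϖ : Qb} (hϖ : ϖ ≠ 0) {r m : ℕ} (hr : 0 < r) (hϖr : ϖ ^ r = (m : Qb)) {j1 j2 : ℕ}
    (h1 : E.ϖ1 = ϖ ^ j1) (h2 : E.ϖ2 = ϖ ^ j2) (τ : Qb ≃ₐ[ℚ] Qb) :
    InertScaled E.S (arithmeticGalois (modularFunctionFieldFull (M₀ * q * q)) τ) E.u1 ∧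
    InertScaled E.S (arithmeticGalois (modularFunctionFieldFull (M₀ * q * q)) τ)
      (algebraMap Qb (FBar (M₀ * q * q)) E.ϖ2 / E.u2) ∧
    InertScaled E.S (arithmeticGalois (modularFunctionFieldFull (M₀ * q * q)) τ)
      (algebraMap Qb (FBar (M₀ * q * q)) E.ϖ1 / E.u1) ∧
    InertScaled E.S (arithmeticGalois (modularFunctionFieldFull (M₀ * q * q)) τ) E.u2 :=
  wpmsc_fields_of_pow E (f3a_u1_fixed E hdvd hu1 τ) hu2 hϖ hr hϖr h1 h2

omit [Fintype Mid] [Fintype SS] in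
/-- the class of `g` is fixed by inertia, in the shape of `hact`. -/
theorem f3a_fixed {n : ℕ} {g : FBar (M₀ * q * q)} (hg : InertiaFixedFun (M₀ * q * q) A n g)
    {τ : Qb ≃ₐ[ℚ] Qb} (hτ : τ ∈ A.inertiaSubgroupIn ℚ) :
    ∃ (u : FBar (M₀ * q * q)) (a : Qb), a ≠ 0 ∧
      arithmeticGalois (modularFunctionFieldFull (M₀ * q * q)) τ • g =
        algebraMap Qb (FBar (M₀ * q * q)) a * u ^ n * g :=
  hg τ hτ

/-- **the junction output (F3)**: the hypothesis `hact` of `cocycleF3_of_ends`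
(`= CboInert E x n`), from the vertex data of a swapping inertia element for every pair of
middle vertices. -/
theorem f3a_hact_of_data [DecidableEq Mid] (x : FBar (M₀ * q * q)) (n : ℕ)
    (hx : ∀ τ ∈ A.inertiaSubgroupIn ℚ,
      arithmeticGalois (modularFunctionFieldFull (M₀ * q * q)) τ • x = x)
    (hvd : ∀ m m' : Mid, m ≠ m' → ∃ τ ∈ A.inertiaSubgroupIn ℚ,
      InertVertexData E (arithmeticGalois (modularFunctionFieldFull (M₀ * q * q)) τ)
        (Equiv.swap m m')) :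
    ∀ g : FBar (M₀ * q * q), InertiaFixedFun (M₀ * q * q) A n g → ∀ m m' : Mid, m ≠ m' →
      ∃ (t : SemilinearAut Qb (FBar (M₀ * q * q))) (σ : Equiv.Perm Mid),
        InertVertexData E t σ ∧ t • x = x ∧ σ m = m' ∧
          ∃ (u : FBar (M₀ * q * q)) (a : Qb), a ≠ 0 ∧
            t • g = algebraMap Qb (FBar (M₀ * q * q)) a * u ^ n * g := by
  intro g hg m m' hmm
  obtain ⟨τ, hτ, hD⟩ := hvd m m' hmm
  exact ⟨_, _, hD, hx τ hτ, Equiv.swap_apply_left _ _, f3a_fixed hg hτ⟩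

end Plug

section Modular

variable {M₀ q : ℕ} [NeZero M₀] [NeZero q] {A : ValuationSubring Qb}
  {Mid SS : Type} [Fintype Mid] [Fintype SS]
  {FkP : SS → Type} [∀ P, Field (FkP P)] [∀ P, Algebra (IsLocalRing.ResidueField A) (FkP P)]

set_option maxHeartbeats 4000000 in
/-- **(F3), junction output, on a family** `E.S = vtxFamily Soo S0 Sm SP`: the hypotheses of
`inertVertexData_modular`, the scalings and `t • x = x` being discharged for
`E.u1 = uF`, `E.u2 = E.u1 / ϖ1`, `ϖ1 = ϖ ^ j1`, `ϖ2 = ϖ ^ j2`, `ϖ ^ r ∈ ℕ`, `b = q ^ e`. -/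
theorem f3a_hact_gen [DecidableEq Mid]
    (E : ModEndsInput Qb (FBar (M₀ * q * q)) (IsLocalRing.ResidueField A) Mid SS
      ↥(modularFunctionFieldFullC (IsLocalRing.ResidueField A) M₀)
      (fun _ => ↥(igField (IsLocalRing.ResidueField A) M₀)) FkP)
    {Soo S0 : ValSetup Qb (FBar (M₀ * q * q)) (IsLocalRing.ResidueField A)
      ↥(modularFunctionFieldFullC (IsLocalRing.ResidueField A) M₀)}
    {Sm : Mid → ValSetup Qb (FBar (M₀ * q * q)) (IsLocalRing.ResidueField A)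
      ↥(igField (IsLocalRing.ResidueField A) M₀)}
    {SP : ∀ P, ValSetup Qb (FBar (M₀ * q * q)) (IsLocalRing.ResidueField A) (FkP P)}
    (hq : q.Prime) (hqM : ¬ q ∣ M₀)
    (hD : IgMidDistinct M₀ q) (hSet : IgMidSetupExists M₀ q) (hA : A.LiesOverPrime q)
    (hES : E.S = vtxFamily Soo S0 Sm SP)
    (hoo : IsGaussSetup (M₀ * q * q) M₀ A Soo)
    (D : ALData) (hM : M₀ * q * q = D.Q * D.R) (h0 : S0 = valSetupZeroAt D hM Soo)
    {z : Mid → Qbˣ}
    {ε : Mid → (↥(modularFunctionFieldBar (M₀ * q * q)) →ₐ[Qb] LaurentSeries Qb)}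
    (prim : ∀ m, IsPrimitiveRoot (z m) q) (hε : ∀ m, IsMidExp M₀ q (z m) (ε m))
    (hS : ∀ m, IsMidSetup M₀ q A (ε m) (Sm m))
    (hne : ∀ m m', m ≠ m' → ¬ (Sm m).Ov ≤ (Sm m').Ov)
    (hPA : ∀ P, (SP P).A = A)
    (hP : ∀ P, ∀ τ ∈ A.inertiaSubgroupIn ℚ,
      WpiStable (SP P) (arithmeticGalois (modularFunctionFieldFull (M₀ * q * q)) τ))
    (hdvd : q ∣ M₀ * q * q) (hu1 : E.u1 = uF (M₀ * q * q) q hdvd)
    (hu2 : E.u2 = E.u1 / algebraMap Qb (FBar (M₀ * q * q)) E.ϖ1)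
    {ϖ : Qb} (hϖ : ϖ ≠ 0) {r m : ℕ} (hr : 0 < r) (hϖr : ϖ ^ r = (m : Qb)) {j1 j2 : ℕ}
    (h1 : E.ϖ1 = ϖ ^ j1) (h2 : E.ϖ2 = ϖ ^ j2)
    {b : Qb} {e : ℕ} (hbq : b = (q : Qb) ^ e) (nn n : ℕ) :
    ∀ g : FBar (M₀ * q * q), InertiaFixedFun (M₀ * q * q) A n g → ∀ m m' : Mid, m ≠ m' →
      ∃ (t : SemilinearAut Qb (FBar (M₀ * q * q))) (σ : Equiv.Perm Mid),
        InertVertexData E t σ ∧ t • E.ymodX b nn = E.ymodX b nn ∧ σ m = m' ∧
          ∃ (u : FBar (M₀ * q * q)) (a : Qb), a ≠ 0 ∧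
            t • g = algebraMap Qb (FBar (M₀ * q * q)) a * u ^ n * g :=
  inertAct_modular E hq hqM hD hSet hA hES hoo D hM h0 prim hε hS hne hPA hP
    (fun τ _ => (f3a_scaled E hdvd hu1 hu2 hϖ hr hϖr h1 h2 τ).1)
    (fun τ _ => (f3a_scaled E hdvd hu1 hu2 hϖ hr hϖr h1 h2 τ).2.1)
    (fun τ _ => (f3a_scaled E hdvd hu1 hu2 hϖ hr hϖr h1 h2 τ).2.2.1)
    (fun τ _ => (f3a_scaled E hdvd hu1 hu2 hϖ hr hϖr h1 h2 τ).2.2.2)
    (fun τ _ => f3a_x_fixed E hdvd hu1 hbq nn τ) n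

end Modular

end Fermat.Agent.S36G
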