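import Mathlib
import Fermat.Agent.S36.G.CocycleF3Act
import Fermat.Agent.S36.Igusa.Pack

set_option autoImplicit false
set_option linter.unusedSectionVars false
set_option linter.unusedVariables false
set_option linter.style.haveILetI false
set_option synthInstance.maxHeartbeats 400000

/-!
# Cluster G (S36), Step 3, junction F3: `hact` for the modular family  (helper47)

`E : ModEndsInput ℚ̄ (FBar (M₀ q q)) k (Fin (midCard q)) SS k(Z) (fun _ => k(Z)(θ j̄)) FkP` with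

  `E.S = vtxFamily Soo (valSetupZeroAt D₀ hM₀ Soo) I.S (fun P => (O P).S)`,

`Soo` a Gauss setup, `I : IgPack M₀ q A` the Igusa pack, `O P : WPOut ..` the outputs of block
W-P, `E.u1 = uF`, `E.u2 = E.u1 / ϖ1`, `ϖ1 = ϖ ^ j1`, `ϖ2 = ϖ ^ j2`, `ϖ ^ r ∈ ℕ`, `b = q ^ e`.

* `f3a_hact` : **the junction output (F3)** = the hypothesis `hact` of
               `ModEndsInput.cocycleF3_of_ends` = `CboInert E (E.ymodX b nn) n`
               (`S36/G/CoreBundleOf.lean`) unfolded, for every `n`.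
-/

noncomputable section

open AlgebraicCurve Fermat.Agent.RR Fermat.Agent.Deuring

namespace Fermat.Agent.S36G

open ModularCurve Fermat.Agent.F3 Fermat.Agent.F3G Fermat.Agent.GaussInt
  Fermat.Agent.Kronecker Fermat.Agent.AtkinLehner Fermat.Agent.BadRed Fermat.Agent.BadRedG
  Fermat.Agent.BadRed.Gluing Fermat.Agent.HPVal Fermat.Agent.HP

local notation "Qb" => AlgebraicClosure ℚ

attribute [local instance 10000] SubalgebraClass.toAlgebra HahnSeries.powerSeriesAlgebra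

variable {M₀ q : ℕ} [NeZero M₀] [NeZero q] {A : ValuationSubring Qb}
  {SS : Type} [Fintype SS]
  {FkP : SS → Type} [∀ P, Field (FkP P)] [∀ P, Algebra (IsLocalRing.ResidueField A) (FkP P)]

set_option maxHeartbeats 4000000 in
/-- **(F3)**: the hypothesis `hact` of `cocycleF3_of_ends` for the modular family. -/
theorem f3a_hact
    (E : ModEndsInput Qb (FBar (M₀ * q * q)) (IsLocalRing.ResidueField A) (Fin (midCard q)) SS
      ↥(modularFunctionFieldFullC (IsLocalRing.ResidueField A) M₀)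
      (fun _ => ↥(igField (IsLocalRing.ResidueField A) M₀)) FkP)
    (hq : q.Prime) (hqM : ¬ q ∣ M₀) (hA : A.LiesOverPrime q)
    (hD : IgMidDistinct M₀ q) (hSet : IgMidSetupExists M₀ q)
    (I : IgPack M₀ q A)
    {Soo : ValSetup Qb (FBar (M₀ * q * q)) (IsLocalRing.ResidueField A)
      ↥(modularFunctionFieldFullC (IsLocalRing.ResidueField A) M₀)}
    (hoo : IsGaussSetup (M₀ * q * q) M₀ A Soo)
    (D₀ : ALData) (hM₀ : M₀ * q * q = D₀.Q * D₀.R)
    {S0 : Fermat.Agent.S18Key.RedSetup Qb (FBar M₀) (IsLocalRing.ResidueField A)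
      ↥(modularFunctionFieldFullC (IsLocalRing.ResidueField A) M₀)}
    (hS0 : IsGaussRed M₀ A S0)
    {pl : SS → Place (IsLocalRing.ResidueField A)
      ↥(modularFunctionFieldFullC (IsLocalRing.ResidueField A) M₀)}
    (O : ∀ P : SS, WPOut M₀ q A S0 (pl P) (FkP P))
    (hES : E.S = vtxFamily Soo (valSetupZeroAt D₀ hM₀ Soo) I.S (fun P => (O P).S))
    (hdvd : q ∣ M₀ * q * q) (hu1 : E.u1 = uF (M₀ * q * q) q hdvd)
    (hu2 : E.u2 = E.u1 / algebraMap Qb (FBar (M₀ * q * q)) E.ϖ1)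
    {ϖ : Qb} (hϖ : ϖ ≠ 0) {r m : ℕ} (hr : 0 < r) (hϖr : ϖ ^ r = (m : Qb)) {j1 j2 : ℕ}
    (h1 : E.ϖ1 = ϖ ^ j1) (h2 : E.ϖ2 = ϖ ^ j2)
    {b : Qb} {e : ℕ} (hbq : b = (q : Qb) ^ e) (nn n : ℕ) :
    ∀ g : FBar (M₀ * q * q), InertiaFixedFun (M₀ * q * q) A n g →
      ∀ m m' : Fin (midCard q), m ≠ m' →
      ∃ (t : SemilinearAut Qb (FBar (M₀ * q * q))) (σ : Equiv.Perm (Fin (midCard q))),
        InertVertexData E t σ ∧ t • E.ymodX b nn = E.ymodX b nn ∧ σ m = m' ∧
          ∃ (u : FBar (M₀ * q * q)) (a : Qb), a ≠ 0 ∧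
            t • g = algebraMap Qb (FBar (M₀ * q * q)) a * u ^ n * g :=
  f3a_hact_gen E hq hqM hD hSet hA hES hoo D₀ hM₀ rfl I.prim I.isMidExp I.isMidSetup I.indep
    (fun P => (O P).A_eq) (fun P τ hτ => wpm_stable_at (O P) hq hA hqM hS0 hτ)
    hdvd hu1 hu2 hϖ hr hϖr h1 h2 hbq nn n

end Fermat.Agent.S36G
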