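import Mathlib
import Fermat.Agent.S36.G.CoreBundleOf
import Fermat.Agent.S36.G.VtxFamily
import Fermat.Agent.S36.Genus.Small

set_option autoImplicit false
set_option linter.unusedSectionVars false
set_option linter.style.haveILetI false
set_option linter.unusedVariables false
set_option synthInstance.maxHeartbeats 400000
set_option maxHeartbeats 1000000

/-!
# Cluster G (S36): the small fields of the bundle  (helper27, CB-OF)

* `cbo_he`         : `midDeg q * |Fin (midCard q)| + 1 = q`          (field `hq` of `CoreBundle`);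
* `cbo_exists_D0`  : the ONE Atkin–Lehner datum `D₀`, `M₀ q q = D₀.Q D₀.R`, `D₀.Q = q ^ 2`;
* `cbo_hEA`        : `(E.S (vert ∞)).A = A` for `E.S = vtxFamily S_∞ ..`, `S_∞` a Gauss reduction
                     (field `hA` of `CoreBundle`);
* `nonempty_coreBundleOfEnds` : `coreBundleOfEnds` with `e := midDeg q`, `Mid := Fin (midCard q)`,
                     `E.S = vtxFamily ..`, as a `Nonempty`.
-/

noncomputable section

open AlgebraicCurve Fermat.Agent.RR Fermat.Agent.Deuring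

namespace Fermat.Agent.S36G

open ModularCurve Fermat.Agent.F3 Fermat.Agent.F3G Fermat.Agent.GaussInt
  Fermat.Agent.AtkinLehner Fermat.Agent.Kronecker Fermat.Agent.F3I2 Fermat.Agent.F3Deg
  Fermat.Agent.F3DegW Fermat.Agent.BadRed Fermat.Agent.BadRedG Fermat.Agent.BadRed.Gluing
  Fermat.Agent.S36B

local notation "Qb" => AlgebraicClosure ℚ

attribute [local instance] Fermat.Agent.GaussInt.isAlgClosed_residue
  Fermat.Agent.GaussInt.infinite_residue

/-- the field `hq` of `CoreBundle` for `Mid = Fin (midCard q)`, `e = midDeg q`. -/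
theorem cbo_he {q : ℕ} (hq : q.Prime) :
    midDeg q * Fintype.card (Fin (midCard q)) + 1 = q := by
  rw [Fintype.card_fin, mul_comm, gen_midCard_mul_midDeg hq]
  have := hq.one_lt
  omega

/-- the ONE Atkin–Lehner datum of the level `M₀ q q`. -/
theorem cbo_exists_D0 (M₀ : ℕ) [NeZero M₀] {q : ℕ} (hq : q.Prime) (hqM : ¬ q ∣ M₀) :
    ∃ (D₀ : ALData) (_ : M₀ * q * q = D₀.Q * D₀.R), D₀.Q = q ^ 2 := by
  have hcop : Nat.Coprime (q ^ 2) M₀ :=
    Nat.Coprime.pow_left 2 ((Nat.Prime.coprime_iff_not_dvd hq).mpr hqM)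
  obtain ⟨D, hQ, hR⟩ := ALData.exists_of_coprime (pow_pos hq.pos 2)
    (Nat.pos_of_ne_zero (NeZero.ne M₀)) hcop
  refine ⟨D, ?_, hQ⟩
  rw [hQ, hR]
  ring

section EA

variable {M₀ q : ℕ} [NeZero M₀] [NeZero q] {A : ValuationSubring Qb}
  {Mid SS : Type} [Fintype Mid] [Fintype SS]
  {Fk0 : Type} [Field Fk0] [Algebra (IsLocalRing.ResidueField A) Fk0]
  {FkM : Mid → Type} [∀ m, Field (FkM m)] [∀ m, Algebra (IsLocalRing.ResidueField A) (FkM m)]
  {FkP : SS → Type} [∀ P, Field (FkP P)] [∀ P, Algebra (IsLocalRing.ResidueField A) (FkP P)]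

/-- the field `hA` of `CoreBundle` for a family `vtxFamily S_∞ ..`. -/
theorem cbo_hEA_of_family
    (E : ModEndsInput Qb (FBar (M₀ * q * q)) (IsLocalRing.ResidueField A) Mid SS Fk0 FkM FkP)
    (Soo S0 : ValSetup Qb (FBar (M₀ * q * q)) (IsLocalRing.ResidueField A) Fk0)
    (Sm : ∀ m, ValSetup Qb (FBar (M₀ * q * q)) (IsLocalRing.ResidueField A) (FkM m))
    (SP : ∀ P, ValSetup Qb (FBar (M₀ * q * q)) (IsLocalRing.ResidueField A) (FkP P))
    (hES : E.S = vtxFamily Soo S0 Sm SP) (hSoo : Soo.A = A) :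
    (E.S (Vtx.vert Vrt.oo)).A = A := by
  rw [hES]
  exact hSoo

end EA

section Gauss

variable {M₀ q : ℕ} [NeZero M₀] [NeZero q] {A : ValuationSubring Qb}
  {Mid SS : Type} [Fintype Mid] [Fintype SS]
  {FkM : Mid → Type} [∀ m, Field (FkM m)] [∀ m, Algebra (IsLocalRing.ResidueField A) (FkM m)]
  {FkP : SS → Type} [∀ P, Field (FkP P)] [∀ P, Algebra (IsLocalRing.ResidueField A) (FkP P)]

/-- the field `hA` of `CoreBundle` for a family `vtxFamily S_∞ ..`, `S_∞` a Gauss reduction. -/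
theorem cbo_hEA
    (E : ModEndsInput Qb (FBar (M₀ * q * q)) (IsLocalRing.ResidueField A) Mid SS
      (modularFunctionFieldFullC (IsLocalRing.ResidueField A) M₀) FkM FkP)
    (Soo S0 : ValSetup Qb (FBar (M₀ * q * q)) (IsLocalRing.ResidueField A)
      (modularFunctionFieldFullC (IsLocalRing.ResidueField A) M₀))
    (Sm : ∀ m, ValSetup Qb (FBar (M₀ * q * q)) (IsLocalRing.ResidueField A) (FkM m))
    (SP : ∀ P, ValSetup Qb (FBar (M₀ * q * q)) (IsLocalRing.ResidueField A) (FkP P))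
    (hES : E.S = vtxFamily Soo S0 Sm SP) (hSoo : IsGaussSetup (M₀ * q * q) M₀ A Soo) :
    (E.S (Vtx.vert Vrt.oo)).A = A :=
  cbo_hEA_of_family E Soo S0 Sm SP hES hSoo.A_eq

end Gauss

/-! ### the bundle of the modular seed, `Mid = Fin (midCard q)`, as a `Nonempty` -/

section Final

variable {M₀ q : ℕ} [NeZero M₀] [NeZero q] [hN₁ : NeZero (M₀ * q)]
  {A : ValuationSubring Qb}
  {SS : Type} [Fintype SS] [Nonempty SS]
  {Fk0 : Type} [Field Fk0] [Algebra (IsLocalRing.ResidueField A) Fk0]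
  {FkM : Fin (midCard q) → Type} [∀ m, Field (FkM m)]
  [∀ m, Algebra (IsLocalRing.ResidueField A) (FkM m)]
  {FkP : SS → Type} [∀ P, Field (FkP P)] [∀ P, Algebra (IsLocalRing.ResidueField A) (FkP P)]
  (E : ModEndsInput Qb (FBar (M₀ * q * q)) (IsLocalRing.ResidueField A) (Fin (midCard q)) SS
    Fk0 FkM FkP)
  {b : Qb} {nn : ℕ}

/-- **the bundle of the modular seed** with `Mid = Fin (midCard q)`, `e = midDeg q` and ANY
Atkin–Lehner datum `D₀` of the level (the junction outputs are given for all of them). -/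
theorem nonempty_coreBundleOfEnds (hq : q.Prime) (hqM : ¬ q ∣ M₀) (hA : A.LiesOverPrime q)
    (hn : 2 ≤ nn) (hb : E.ϖ1 ^ nn = b) (h12 : E.ϖ1 * E.ϖ2 = b)
    (hu2 : E.u2 = E.u1 / algebraMap Qb (FBar (M₀ * q * q)) E.ϖ1)
    (hD₀ : E.D₀ = poleDiv (E.S (Vtx.vert Vrt.oo)).hF (E.ymodX b nn))
    (hdeg : Divisor.degree (poleDiv (E.S (Vtx.vert Vrt.oo)).hF (E.ymodX b nn)) ≤
      ∑ c, Divisor.degree (poleDiv (E.S c).hFk ((E.S c).red (E.ymodX b nn))))
    (hgenus : genusFF Qb (FBar (M₀ * q * q)) + Fintype.card (Vtx (Fin (midCard q)) SS) ≤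
      (∑ c, genusFF (IsLocalRing.ResidueField A) (FkOf Fk0 FkM FkP c)) +
        Fintype.card (Nod (Fin (midCard q)) SS) + 1)
    (hEA : (E.S (Vtx.vert Vrt.oo)).A = A)
    (D₀ : ALData) (hM₀ : M₀ * q * q = D₀.Q * D₀.R) (hDQ : D₀.Q = q ^ 2)
    (hStep12 : ∀ n : ℕ, n ≠ 0 → Nat.Coprime n q →
      CboStep12 M₀ q A (E.ymodSeed hn hb h12 hu2 hD₀ hdeg hgenus).graphSetup n)
    (hnorm : ∀ n : ℕ, n ≠ 0 → Nat.Coprime n q →
      CboNorm M₀ q A (E.ymodSeed hn hb h12 hu2 hD₀ hdeg hgenus).graphSetup D₀ hM₀ (midDeg q) n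
        ((E.ymodSeed hn hb h12 hu2 hD₀ hdeg hgenus).bigBound •
          (E.ymodSeed hn hb h12 hu2 hD₀ hdeg hgenus).D₀))
    (hact : ∀ n : ℕ, n ≠ 0 → Nat.Coprime n q → CboInert E (E.ymodX b nn) n) :
    Nonempty (CoreBundle (M₀ * q) q A) :=
  ⟨coreBundleOfEnds E hq hqM hA hn hb h12 hu2 hD₀ hdeg hgenus hEA (midDeg q) (cbo_he hq)
    D₀ hM₀ hDQ hStep12 hnorm hact⟩

end Final

end Fermat.Agent.S36G
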