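/-
Cluster G (S36, bad reduction at `q² ∥ M`), junction CB-INST, part 1 (helper3):
**the bundle from the junction outputs, for a generic `ModEndsInput` of the modular shape.**

`E : ModEndsInput ..` with `E.S = vtxFamily S_∞ (valSetupZeroAt D₀ hM₀ S_∞) I.S (fun P => (O P).S)`,
`E.u1 = uF`, `E.uA = uF2`, `E.u2 = E.u1 / ϖ1`, `ϖ1 = ϖ ^ 12`, `ϖ2 = q ^ 12 / ϖ ^ 12`,
`ϖ ^ (q + 1) = q`, `E.pv = sevPv ι`:

* STEP12 : `cbi_hStep12` (helper62, `S36/G/CbiStep12.lean`);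
* COC    : `cboNorm_of_ends` (helper36, `S36/G/CocEnds.lean`);
* F3     : `f3a_hact` (helper47, `S36/G/CocycleF3ActPack.lean`);
* END    : `nonempty_coreBundleOfEnds` (helper27, `S36/G/CoreBundleAux.lean`).
-/
import Mathlib
import Fermat.Agent.S36.G.CoreBundleAux
import Fermat.Agent.S36.G.CbiStep12
import Fermat.Agent.S36.G.CocEnds
import Fermat.Agent.S36.G.CocycleF3ActPack
import Fermat.Agent.S36.Seed.YModDeg
import Fermat.Agent.S36.Igusa.Final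

set_option autoImplicit false
set_option linter.style.haveILetI false
set_option linter.unusedSectionVars false
set_option linter.unusedVariables false
set_option synthInstance.maxHeartbeats 400000
set_option maxHeartbeats 1600000

noncomputable section

open AlgebraicCurve Fermat.Agent.RR Fermat.Agent.Deuring

namespace Fermat.Agent.S36G

open ModularCurve Fermat.Agent.F3 Fermat.Agent.F3G Fermat.Agent.GaussInt
  Fermat.Agent.AtkinLehner Fermat.Agent.Kronecker Fermat.Agent.BadRed Fermat.Agent.BadRedG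
  Fermat.Agent.HP Fermat.Agent.HPVal

local notation "Qb" => AlgebraicClosure ℚ

attribute [local instance] Fermat.Agent.GaussInt.isAlgClosed_residue
  Fermat.Agent.GaussInt.infinite_residue

attribute [local instance 10000] SubalgebraClass.toAlgebra HahnSeries.powerSeriesAlgebra

/-- `ϖ1 * ϖ2 = b` for `ϖ1 = ϖ ^ 12`, `ϖ2 = q ^ 12 / ϖ ^ 12`, `b = (ϖ ^ 12) ^ (q + 1)`. -/
theorem cbi_h12 {q : ℕ} {ϖ : Qb} (h0 : ϖ ≠ 0) (hϖ : ϖ ^ (q + 1) = (q : Qb)) :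
    ϖ ^ 12 * ((q : Qb) ^ 12 / ϖ ^ 12) = (ϖ ^ 12) ^ (q + 1) := by
  have h1 : ϖ ^ 12 ≠ 0 := pow_ne_zero 12 h0
  rw [mul_div_cancel₀ _ h1, ← pow_mul, mul_comm 12 (q + 1), pow_mul, hϖ]

/-- `b = q ^ 12`. -/
theorem cbi_hbq {q : ℕ} {ϖ : Qb} (hϖ : ϖ ^ (q + 1) = (q : Qb)) :
    (ϖ ^ 12) ^ (q + 1) = (q : Qb) ^ 12 := by
  rw [← pow_mul, mul_comm 12 (q + 1), pow_mul, hϖ]

/-- `ϖ2 = ϖ ^ (12 q)`. -/
theorem cbi_hϖ2 {q : ℕ} {ϖ : Qb} (h0 : ϖ ≠ 0) (hϖ : ϖ ^ (q + 1) = (q : Qb)) :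
    (q : Qb) ^ 12 / ϖ ^ 12 = ϖ ^ (12 * q) := by
  have h1 : ϖ ^ 12 ≠ 0 := pow_ne_zero 12 h0
  rw [div_eq_iff h1, ← hϖ, ← pow_mul, ← pow_add]
  congr 1
  ring

/-- `ϖ ≠ 0`. -/
theorem cbi_ϖ_ne {q : ℕ} (hq : q.Prime) {ϖ : Qb} (hϖ : ϖ ^ (q + 1) = (q : Qb)) : ϖ ≠ 0 := by
  intro h
  rw [h, zero_pow (Nat.succ_ne_zero q)] at hϖ
  exact (Nat.cast_ne_zero.mpr hq.ne_zero) hϖ.symm

section Ends

variable {M₀ q : ℕ} [NeZero M₀] [NeZero q] [hN₁ : NeZero (M₀ * q)] {A : ValuationSubring Qb}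
  {SS : Type} [Fintype SS] [Nonempty SS]
  {FkP : SS → Type} [∀ P, Field (FkP P)] [∀ P, Algebra (IsLocalRing.ResidueField A) (FkP P)]
  (E : ModEndsInput Qb (FBar (M₀ * q * q)) (IsLocalRing.ResidueField A) (Fin (midCard q)) SS
    ↥(modularFunctionFieldFullC (IsLocalRing.ResidueField A) M₀)
    (fun _ : Fin (midCard q) => ↥(igField (IsLocalRing.ResidueField A) M₀)) FkP)
  {S0 : Fermat.Agent.S18Key.RedSetup Qb (FBar M₀) (IsLocalRing.ResidueField A)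
    ↥(modularFunctionFieldFullC (IsLocalRing.ResidueField A) M₀)}
  {Pl : SS → Place (IsLocalRing.ResidueField A)
    ↥(modularFunctionFieldFullC (IsLocalRing.ResidueField A) M₀)}
  (O : ∀ P : SS, WPOut M₀ q A S0 (Pl P) (FkP P))

/-- **the bundle from the junction outputs** for a `ModEndsInput` of the modular shape. -/
theorem cbi_of_ends (hq : q.Prime) (hqM : ¬ q ∣ M₀) (hA : A.LiesOverPrime q)
    (hν2 : nuTwo M₀ = 0) (hν3 : nuThree M₀ = 0) (hS0 : IsGaussRed M₀ A S0)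
    (Soo : ValSetup Qb (FBar (M₀ * q * q)) (IsLocalRing.ResidueField A)
      (modularFunctionFieldFullC (IsLocalRing.ResidueField A) M₀))
    (hSoo : IsGaussSetup (M₀ * q * q) M₀ A Soo)
    (D₀ : ALData) (hM₀ : M₀ * q * q = D₀.Q * D₀.R) (hDQ : D₀.Q = q ^ 2)
    (I : IgPack M₀ q A)
    (hES : E.S = vtxFamily Soo (valSetupZeroAt D₀ hM₀ Soo) I.S (fun P => (O P).S))
    (hu1 : E.u1 = uF (M₀ * q * q) q (nsm_dvd (M₀ * q) q))
    (huA : E.uA = uF2 (M₀ * q * q) q (satc_sq_dvd (M₀ * q) q (Dvd.intro_left M₀ rfl)))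
    (hu2 : E.u2 = E.u1 / algebraMap Qb (FBar (M₀ * q * q)) E.ϖ1)
    {ϖ : Qb} (hϖ : ϖ ^ (q + 1) = (q : Qb))
    (h1 : E.ϖ1 = ϖ ^ 12) (h2 : E.ϖ2 = (q : Qb) ^ 12 / ϖ ^ 12)
    (hD₀ : E.D₀ = poleDiv (E.S (Vtx.vert Vrt.oo)).hF (E.ymodX ((ϖ ^ 12) ^ (q + 1)) (q + 1)))
    (hgenus : genusFF Qb (FBar (M₀ * q * q)) + Fintype.card (Vtx (Fin (midCard q)) SS) ≤
      (∑ c, genusFF (IsLocalRing.ResidueField A)
        (FkOf ↥(modularFunctionFieldFullC (IsLocalRing.ResidueField A) M₀)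
          (fun _ : Fin (midCard q) => ↥(igField (IsLocalRing.ResidueField A) M₀)) FkP c)) +
        Fintype.card (Nod (Fin (midCard q)) SS) + 1)
    (hxA : EndsRedA E.S (fun P => (O P).H)
      (algebraMap Qb (FBar (M₀ * q * q)) E.ϖA / E.uA))
    (hx2 : EndsRed2 E.S (fun P => (O P).H) E.u2)
    (ι : SS → Place (IsLocalRing.ResidueField A)
      ↥(modularFunctionFieldFullC (IsLocalRing.ResidueField A) M₀))
    (hpv : haveI : Fact q.Prime := ⟨hq⟩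
      haveI : CharP (IsLocalRing.ResidueField A) q :=
        Fermat.Agent.FrobTrace.charP_residueField A hA
      ∀ P v, E.pv P v = sevPv M₀ q hq hqM (IsLocalRing.ResidueField A) FkP ι P v)
    (hSS : ∀ P, IsSSPlace (IsLocalRing.ResidueField A) M₀ q (ι P))
    (hno : ∀ P, ∀ u : ↥(modularFunctionFieldFullC (IsLocalRing.ResidueField A) M₀),
      (u : LaurentSeries (IsLocalRing.ResidueField A)) = ssFun (IsLocalRing.ResidueField A) q →
        (ι P).ord u = 12) :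
    Nonempty (CoreBundle (M₀ * q) q A) := by
  haveI : Fact q.Prime := ⟨hq⟩
  haveI : CharP (IsLocalRing.ResidueField A) q := Fermat.Agent.FrobTrace.charP_residueField A hA
  have hϖ0 : ϖ ≠ 0 := cbi_ϖ_ne hq hϖ
  have hn : 2 ≤ q + 1 := by have := hq.one_lt; omega
  have hb : E.ϖ1 ^ (q + 1) = (ϖ ^ 12) ^ (q + 1) := by rw [h1]
  have h12 : E.ϖ1 * E.ϖ2 = (ϖ ^ 12) ^ (q + 1) := by rw [h1, h2]; exact cbi_h12 hϖ0 hϖ
  have hdeg := E.ymodX_hdeg hn hb h12 hu2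
  have hEA : (E.S (Vtx.vert Vrt.oo)).A = A :=
    cbo_hEA E Soo (valSetupZeroAt D₀ hM₀ Soo) I.S (fun P => (O P).S) hES hSoo
  refine nonempty_coreBundleOfEnds E hq hqM hA hn hb h12 hu2 hD₀ hdeg hgenus hEA D₀ hM₀ hDQ
    ?_ ?_ ?_
  · -- STEP12
    intro n hn0 _
    exact cbi_hStep12 E O hq hqM hν2 hν3 hA hS0 Soo hSoo D₀ hM₀ hDQ I hES hn hb h12 hu2 hD₀
      hdeg hgenus hx2 n hn0
  · -- COC
    intro n hn0 _
    exact cboNorm_of_ends E hn hb h12 hu2 hD₀ hdeg hgenus hq hqM hA hν2 hν3 D₀ hM₀ hDQ O I hSoo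
      hES hxA hx2 ι hpv hSS hno hu1 huA n _
  · -- F3
    intro n _ _
    exact f3a_hact E hq hqM hA (igMidDistinct_aux M₀ q hν2 hν3) (igMidSetupExists_aux M₀ q hν2 hν3)
      I hSoo D₀ hM₀ hS0 O hES (nsm_dvd (M₀ * q) q) hu1 hu2 hϖ0 (Nat.succ_pos q) hϖ h1
      ((h2.trans (cbi_hϖ2 hϖ0 hϖ))) (cbi_hbq hϖ) (q + 1) n

end Ends

end Fermat.Agent.S36G
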