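import Mathlib
import Fermat.Agent.S36.G.SeedInput
import Fermat.Agent.S36.Seed.Ends
import Fermat.Agent.S36.Seed.ClearU

set_option autoImplicit false
set_option linter.unusedSectionVars false

/-!
# Cluster G (S36), MG-INST: `ModEndsInput` from the landed SEED leaves  (helper40)

ONE constructor `modEndsOfLeaves` collecting

* the three `MNData` (`S36/Seed/MNA.lean`, `MN1.lean`, `MN2.lean`), with `u2 = u1 / ϖ1`;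
* the zeros of the parameters on the vertical components (`S36/Seed/EndsVert.lean`,
  `S36/Igusa/RamIndex.lean`), weights `12 q`, `12`, `12 midDeg q`, `12 q`;
* the reductions on the `H_P` (`EndsRedA`, `EndsRed2` of `S36/Seed/Ends.lean` = the outputs of
  SEED-UP) `⟹` the five `H_P`-fields (`ends_fields`);
* the separating old functions (`S36/Seed/Sep.lean`, `Sep2.lean`);
* the clearing functions `ymodG1`, `ymodG2` (`clu_fields` of `S36/Seed/ClearU.lean`), with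
  `D₀ = (x)_∞`, `x = u1 + b / u1 + y`, `y = ymodY u1 b n`, `b = ϖ1 ^ n`.
-/

noncomputable section

open AlgebraicCurve Fermat.Agent.RR Fermat.Agent.Deuring

namespace Fermat.Agent.S36G

open Fermat.Agent.BadRed Fermat.Agent.BadRedG Fermat.Agent.HP

variable {K F k : Type} [Field K] [Field F] [Algebra K F] [Field k] [IsAlgClosed k]
  {Mid SS : Type} [Fintype Mid] [Fintype SS]
  {Fk0 : Type} [Field Fk0] [Algebra k Fk0]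
  {FkM : Mid → Type} [∀ m, Field (FkM m)] [∀ m, Algebra k (FkM m)]
  {FkP : SS → Type} [∀ P, Field (FkP P)] [∀ P, Algebra k (FkP P)]

/-- **`ModEndsInput` from the leaves.** -/
def modEndsOfLeaves {q : ℕ} (hq : q.Prime) [CharP k q]
    (S : ∀ c : Vtx Mid SS, ValSetup K F k (FkOf Fk0 FkM FkP c))
    (lat : ∀ c : Vtx Mid SS, HasLattice (S c))
    (arch : ∀ (c₀ : Vtx Mid SS) (x : K), x ∈ (S c₀).A → x⁻¹ ∉ (S c₀).A →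
      ∀ d : K, ∃ j : ℕ, x ^ j * d ∈ (S c₀).A)
    (pv : ∀ (_ : SS) (v : Vrt Mid), Place k (FkOf Fk0 FkM FkP (Vtx.vert v)))
    (pv_inj : ∀ (v : Vrt Mid) (P P' : SS), pv P v = pv P' v → P = P')
    (VA₁ VA₂ V1₁ V1₂ V2₁ V2₂ : Finset (Vtx Mid SS))
    (mem_VA₁ : ∀ c, c ∈ VA₁ ↔ c = Vtx.vert Vrt.oo)
    (mem_VA₂ : ∀ c, c ∈ VA₂ ↔ ∃ P, c = Vtx.hor P)
    (mem_V1₁ : ∀ c, c ∈ V1₁ ↔ c = Vtx.vert Vrt.oo ∨ ∃ m, c = Vtx.vert (Vrt.mid m))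
    (mem_V1₂ : ∀ c, c ∈ V1₂ ↔ ∃ P, c = Vtx.hor P)
    (mem_V2₁ : ∀ c, c ∈ V2₁ ↔ ∃ P, c = Vtx.hor P)
    (mem_V2₂ : ∀ c, c ∈ V2₂ ↔ c = Vtx.vert Vrt.zero)
    (uA u1 : F) (ϖA ϖ1 ϖ2 : K) (hϖ1 : ϖ1 ≠ 0)
    (DA : MNData S VA₁ VA₂ uA ϖA) (D1 : MNData S V1₁ V1₂ u1 ϖ1)
    (D2 : MNData S V2₁ V2₂ (u1 / algebraMap K F ϖ1) ϖ2)
    (H : ∀ P : SS, HPCurve k (FkOf Fk0 FkM FkP (Vtx.hor P)) q)
    (hxA : EndsRedA S H (algebraMap K F ϖA / uA))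
    (hx2 : EndsRed2 S H (u1 / algebraMap K F ϖ1))
    (zA : ∀ Q : Place k (FkOf Fk0 FkM FkP (Vtx.vert Vrt.oo)),
      0 < Q.ord ((S (Vtx.vert Vrt.oo)).red uA) → ∃ P, pv P Vrt.oo = Q)
    (oA : ∀ P, (pv P Vrt.oo).ord ((S (Vtx.vert Vrt.oo)).red uA) = 12 * (q : ℤ))
    (z1oo : ∀ Q : Place k (FkOf Fk0 FkM FkP (Vtx.vert Vrt.oo)),
      0 < Q.ord ((S (Vtx.vert Vrt.oo)).red u1) → ∃ P, pv P Vrt.oo = Q)
    (o1oo : ∀ P, (pv P Vrt.oo).ord ((S (Vtx.vert Vrt.oo)).red u1) = 12)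
    (z1m : ∀ (m : Mid) (Q : Place k (FkOf Fk0 FkM FkP (Vtx.vert (Vrt.mid m)))),
      0 < Q.ord ((S (Vtx.vert (Vrt.mid m))).red u1) → ∃ P, pv P (Vrt.mid m) = Q)
    (o1m : ∀ P m, (pv P (Vrt.mid m)).ord ((S (Vtx.vert (Vrt.mid m))).red u1) =
      12 * (midDeg q : ℤ))
    (z2 : ∀ Q : Place k (FkOf Fk0 FkM FkP (Vtx.vert Vrt.zero)),
      0 < Q.ord ((S (Vtx.vert Vrt.zero)).red
        (algebraMap K F ϖ2 / (u1 / algebraMap K F ϖ1))) → ∃ P, pv P Vrt.zero = Q)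
    (o2 : ∀ P, (pv P Vrt.zero).ord ((S (Vtx.vert Vrt.zero)).red
      (algebraMap K F ϖ2 / (u1 / algebraMap K F ϖ1))) = 12 * (q : ℤ))
    (sepA : ∀ P : SS, ∃ g ∈ ncAdm S VA₁ VA₂ uA,
      ValAt (pv P Vrt.oo) ((S (Vtx.vert Vrt.oo)).red g) 1 ∧
        ∀ P' : SS, P' ≠ P → (S (Vtx.hor P')).red g = 0)
    (sep1 : ∀ (P : SS) (m : Mid), ∃ g ∈ ncAdm S V1₁ V1₂ u1 ∩ ncAdm S VA₁ VA₂ uA,
      ValAt (pv P (Vrt.mid m)) ((S (Vtx.vert (Vrt.mid m))).red g) 1 ∧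
        ∀ P' : SS, P' ≠ P → (S (Vtx.hor P')).red g = 0)
    (sep2 : ∀ P : SS, ∃ g ∈ ncAdm S V2₁ V2₂ (u1 / algebraMap K F ϖ1),
      ValAt (pv P Vrt.zero) ((S (Vtx.vert Vrt.zero)).red g) 1 ∧
        ∀ P' : SS, P' ≠ P → (S (Vtx.hor P')).red g = 0)
    (hcusp : ∀ P : Place K F, P.ord u1 ≠ 0 → P.ord uA ≠ 0)
    (n : ℕ) (hn : n ≠ 0) :
    ModEndsInput K F k Mid SS Fk0 FkM FkP :=
  have hE := ends_fields (S := S) (H := H) hq hxA hx2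
  have hC := clu_fields S pv VA₁ VA₂ V1₁ V1₂ V2₁ V2₂ mem_VA₁ mem_VA₂ mem_V1₁ mem_V1₂ mem_V2₁
    mem_V2₂ uA u1 ϖ1 ϖ2 (ϖ1 ^ n) n hn rfl hϖ1 D1 D2 hcusp (S (Vtx.vert Vrt.oo)).hF
    (poleDiv (S (Vtx.vert Vrt.oo)).hF
      (u1 + algebraMap K F (ϖ1 ^ n) / u1 + ∑ _cl : Unit, ymodY u1 (ϖ1 ^ n) n)) rfl
  { S := S
    lat := lat
    arch := arch
    pv := pv
    pv_inj := pv_inj
    VA₁ := VA₁
    VA₂ := VA₂
    V1₁ := V1₁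
    V1₂ := V1₂
    V2₁ := V2₁
    V2₂ := V2₂
    mem_VA₁ := mem_VA₁
    mem_VA₂ := mem_VA₂
    mem_V1₁ := mem_V1₁
    mem_V1₂ := mem_V1₂
    mem_V2₁ := mem_V2₁
    mem_V2₂ := mem_V2₂
    uA := uA
    u1 := u1
    u2 := u1 / algebraMap K F ϖ1
    ϖA := ϖA
    ϖ1 := ϖ1
    ϖ2 := ϖ2
    DA := DA
    D1 := D1
    D2 := D2
    wA := 12 * (q : ℤ)
    w1 := 12
    wM := 12 * (midDeg q : ℤ)
    w2 := 12 * (q : ℤ)
    wA_pos := ends_wA_pos hq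
    w1_pos := ends_w1_pos
    wM_pos := ends_wM_pos hq
    w2_pos := ends_wA_pos hq
    zA := zA
    oA := oA
    z1oo := z1oo
    o1oo := o1oo
    z1m := z1m
    o1m := o1m
    z2 := z2
    o2 := o2
    hA := hE.1
    h1A := hE.2.1
    h1M := hE.2.2.1
    h2 := hE.2.2.2.1
    h2dis := hE.2.2.2.2
    sepA := sepA
    sep1 := sep1
    sep2 := sep2
    D₀ := poleDiv (S (Vtx.vert Vrt.oo)).hF
      (u1 + algebraMap K F (ϖ1 ^ n) / u1 + ∑ _cl : Unit, ymodY u1 (ϖ1 ^ n) n)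
    G1 := ymodG1 u1 (ϖ1 ^ n) n
    G2 := ymodG2 u1 (ϖ1 ^ n) n
    G1_mem := hC.1
    G2_mem := hC.2.1
    G1_unit_oo := hC.2.2.1
    G1_unit_mid := hC.2.2.2.1
    G1_unit_hor := hC.2.2.2.2.1
    G2_unit_zero := hC.2.2.2.2.2.1
    G2_unit_hor := hC.2.2.2.2.2.2.1
    clear1 := hC.2.2.2.2.2.2.2.1
    clear2 := hC.2.2.2.2.2.2.2.2 }

end Fermat.Agent.S36G
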