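import Mathlib
import Fermat.Agent.S36.G.Types
import Fermat.Agent.S36.Seed.OldSep
import Fermat.Agent.S36.Genus.SSPos

set_option autoImplicit false
set_option linter.unusedSectionVars false
set_option linter.style.haveILetI false
set_option synthInstance.maxHeartbeats 400000

/-!
# Cluster G (S36), MG-INST, seat MG-SS (helper61): the type `SS` of the supersingular points
and the branch points `P_∞`, `P_0` of the vertical components `∞`, `0`

`q` prime, `A` a place of `ℚ̄` over `q`, `k = A / 𝔪`, `Fk0 = modularFunctionFieldFullC k M₀`.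

* `ModSS A M₀ q` : the type of the supersingular places of `Fk0` (`IsSSPlace k M₀ q`);
* `ModSS.place`, `ModSS.place_injective`, `ModSS.isSS`, `ModSS.exists_place_eq` : the inclusion
  into the places of `Fk0` is injective, with image the supersingular places;
* `modSSFintype` : `Fintype (ModSS A M₀ q)` (from `seedOld_finite_ss`);
* `modSS_nonempty` : `Nonempty (ModSS A M₀ q)` (no elliptic points; from
  `gen_nonempty_isSSPlace`);
* `modSS_card_ge` : `(q - 1) ψ(M₀) ≤ 12 |SS|` for the `Fintype` structure above;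
* `modPv pm` : the field `pv` of `ModEndsInput` (`P_∞ = P`, `P_0 = P`, `P_m = pm P m`),
  `modPv_inj` : the field `pv_inj`, `modPv_oo`, `modPv_zero`, `modPv_mid` (by `rfl`),
  `exists_modPv_oo_eq`, `exists_modPv_zero_eq` : every supersingular place is a `P_∞` / `P_0`.
-/

noncomputable section

open ModularCurve AlgebraicCurve

namespace Fermat.Agent.S36G

local notation "Qb" => AlgebraicClosure ℚ

attribute [local instance 10000] SubalgebraClass.toAlgebra HahnSeries.powerSeriesAlgebra

/-- **the supersingular points**: the supersingular places of `X₀(M₀)` mod `A`. -/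
def ModSS (A : ValuationSubring Qb) (M₀ q : ℕ) : Type :=
  {P : Place (IsLocalRing.ResidueField A)
      ↥(modularFunctionFieldFullC (IsLocalRing.ResidueField A) M₀) //
    IsSSPlace (IsLocalRing.ResidueField A) M₀ q P}

variable {A : ValuationSubring Qb} {M₀ q : ℕ}

/-- the place of `k(Z)` of a supersingular point. -/
def ModSS.place (P : ModSS A M₀ q) :
    Place (IsLocalRing.ResidueField A)
      ↥(modularFunctionFieldFullC (IsLocalRing.ResidueField A) M₀) :=
  P.1

theorem ModSS.isSS (P : ModSS A M₀ q) :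
    IsSSPlace (IsLocalRing.ResidueField A) M₀ q P.place :=
  P.2

theorem ModSS.place_injective :
    Function.Injective (ModSS.place : ModSS A M₀ q → _) :=
  Subtype.val_injective

theorem ModSS.ext {P P' : ModSS A M₀ q} (h : P.place = P'.place) : P = P' :=
  ModSS.place_injective h

/-- the supersingular point of a supersingular place. -/
def ModSS.mk' (P : Place (IsLocalRing.ResidueField A)
      ↥(modularFunctionFieldFullC (IsLocalRing.ResidueField A) M₀))
    (hP : IsSSPlace (IsLocalRing.ResidueField A) M₀ q P) : ModSS A M₀ q :=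
  ⟨P, hP⟩

@[simp] theorem ModSS.place_mk' (P : Place (IsLocalRing.ResidueField A)
      ↥(modularFunctionFieldFullC (IsLocalRing.ResidueField A) M₀))
    (hP : IsSSPlace (IsLocalRing.ResidueField A) M₀ q P) : (ModSS.mk' P hP).place = P :=
  rfl

/-- every supersingular place is the place of a supersingular point. -/
theorem ModSS.exists_place_eq (P : Place (IsLocalRing.ResidueField A)
      ↥(modularFunctionFieldFullC (IsLocalRing.ResidueField A) M₀))
    (hP : IsSSPlace (IsLocalRing.ResidueField A) M₀ q P) :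
    ∃ x : ModSS A M₀ q, x.place = P :=
  ⟨ModSS.mk' P hP, rfl⟩

/-- a place is supersingular iff it is the place of a supersingular point. -/
theorem ModSS.isSSPlace_iff (P : Place (IsLocalRing.ResidueField A)
      ↥(modularFunctionFieldFullC (IsLocalRing.ResidueField A) M₀)) :
    IsSSPlace (IsLocalRing.ResidueField A) M₀ q P ↔ ∃ x : ModSS A M₀ q, x.place = P :=
  ⟨ModSS.exists_place_eq P, fun ⟨x, hx⟩ => hx ▸ x.isSS⟩

/-- the zeros of `ssFun` are the places of the supersingular points. -/
theorem ModSS.exists_place_eq_of_pos (P : Place (IsLocalRing.ResidueField A)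
      ↥(modularFunctionFieldFullC (IsLocalRing.ResidueField A) M₀))
    (u : ↥(modularFunctionFieldFullC (IsLocalRing.ResidueField A) M₀))
    (hu : (u : LaurentSeries (IsLocalRing.ResidueField A)) =
      Fermat.Agent.BadRed.ssFun (IsLocalRing.ResidueField A) q)
    (hpos : 0 < P.ord u) : ∃ x : ModSS A M₀ q, x.place = P :=
  ModSS.exists_place_eq P ⟨u, hu, hpos⟩

/-- `ssFun` vanishes at the supersingular points. -/
theorem ModSS.ord_pos (P : ModSS A M₀ q)
    (u : ↥(modularFunctionFieldFullC (IsLocalRing.ResidueField A) M₀))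
    (hu : (u : LaurentSeries (IsLocalRing.ResidueField A)) =
      Fermat.Agent.BadRed.ssFun (IsLocalRing.ResidueField A) q) : 0 < P.place.ord u := by
  obtain ⟨u', hu', hpos⟩ := P.isSS
  have : u = u' := Subtype.ext (hu.trans hu'.symm)
  rw [this]
  exact hpos

/-! ### finiteness, non-emptiness, the count -/

/-- there are finitely many supersingular points. -/
theorem modSS_finite [NeZero M₀] (hq : q.Prime) (hA : A.LiesOverPrime q) :
    Finite (ModSS A M₀ q) :=
  (seedOld_finite_ss M₀ hq hA).to_subtype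

/-- **the `Fintype` structure of `SS`.** -/
@[reducible] def modSSFintype [NeZero M₀] (hq : q.Prime) (hA : A.LiesOverPrime q) :
    Fintype (ModSS A M₀ q) :=
  haveI := modSS_finite (M₀ := M₀) hq hA
  Fintype.ofFinite _

/-- **there is a supersingular point** (`M₀` without elliptic points). -/
theorem modSS_nonempty [NeZero M₀] (hq : q.Prime) (hqM : ¬ q ∣ M₀) (hν2 : nuTwo M₀ = 0)
    (hν3 : nuThree M₀ = 0) (h2 : q = 2 → 3 ∣ M₀) (h3 : q = 3 → 2 ∣ M₀)
    (hA : A.LiesOverPrime q) : Nonempty (ModSS A M₀ q) :=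
  gen_nonempty_isSSPlace M₀ hq hqM hν2 hν3 h2 h3 hA

/-- `(q - 1) ψ(M₀) ≤ 12 |SS|`, for any `Fintype` structure on `SS`. -/
theorem modSS_card_ge [NeZero M₀] (hq : q.Prime) (hqM : ¬ q ∣ M₀) (hν2 : nuTwo M₀ = 0)
    (hν3 : nuThree M₀ = 0) (h2 : q = 2 → 3 ∣ M₀) (h3 : q = 3 → 2 ∣ M₀)
    (hA : A.LiesOverPrime q) [Fintype (ModSS A M₀ q)] :
    (q - 1) * dedekindPsi M₀ ≤ 12 * Fintype.card (ModSS A M₀ q) := by
  have h := gen_twelve_ss_card_ge M₀ hq hqM hν2 hν3 h2 h3 hA
  rw [← Nat.card_eq_fintype_card]
  exact h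

/-- `|SS| ≥ 1`. -/
theorem modSS_card_pos [NeZero M₀] (hq : q.Prime) (hqM : ¬ q ∣ M₀) (hν2 : nuTwo M₀ = 0)
    (hν3 : nuThree M₀ = 0) (h2 : q = 2 → 3 ∣ M₀) (h3 : q = 3 → 2 ∣ M₀)
    (hA : A.LiesOverPrime q) [Fintype (ModSS A M₀ q)] :
    0 < Fintype.card (ModSS A M₀ q) :=
  haveI := modSS_nonempty hq hqM hν2 hν3 h2 h3 hA
  Fintype.card_pos

/-! ### the branch points on the vertical components -/

section Pv

variable {Mid : Type} {FkM : Mid → Type} [∀ m, Field (FkM m)]
  [∀ m, Algebra (IsLocalRing.ResidueField A) (FkM m)]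
  {FkP : ModSS A M₀ q → Type} [∀ P, Field (FkP P)]
  [∀ P, Algebra (IsLocalRing.ResidueField A) (FkP P)]

/-- **the branch points `P_v` on the vertical components** (the field `pv` of `ModEndsInput`):
`P_∞ = P_0 = P` on the two copies of `k(Z)`, `P_m = pm P m` on the middle components. -/
def modPv (pm : ∀ (_ : ModSS A M₀ q) (m : Mid), Place (IsLocalRing.ResidueField A) (FkM m)) :
    ∀ (_ : ModSS A M₀ q) (v : Vrt Mid),
      Place (IsLocalRing.ResidueField A)
        (FkOf ↥(modularFunctionFieldFullC (IsLocalRing.ResidueField A) M₀) FkM FkP (Vtx.vert v))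
  | P, Vrt.oo => P.place
  | P, Vrt.zero => P.place
  | P, Vrt.mid m => pm P m

variable (pm : ∀ (_ : ModSS A M₀ q) (m : Mid), Place (IsLocalRing.ResidueField A) (FkM m))

theorem modPv_oo (P : ModSS A M₀ q) :
    modPv (FkP := FkP) pm P Vrt.oo = P.place := rfl

theorem modPv_zero (P : ModSS A M₀ q) :
    modPv (FkP := FkP) pm P Vrt.zero = P.place := rfl

theorem modPv_mid (P : ModSS A M₀ q) (m : Mid) :
    modPv (FkP := FkP) pm P (Vrt.mid m) = pm P m := rfl

/-- **the field `pv_inj` of `ModEndsInput`.** -/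
theorem modPv_inj (hpm : ∀ (m : Mid) (P P' : ModSS A M₀ q), pm P m = pm P' m → P = P')
    (v : Vrt Mid) (P P' : ModSS A M₀ q)
    (h : modPv (FkP := FkP) pm P v = modPv (FkP := FkP) pm P' v) : P = P' := by
  cases v with
  | oo => exact ModSS.ext h
  | zero => exact ModSS.ext h
  | mid m => exact hpm m P P' h

/-- every supersingular place of the component `∞` is a `P_∞`. -/
theorem exists_modPv_oo_eq
    (Q : Place (IsLocalRing.ResidueField A)
      (FkOf ↥(modularFunctionFieldFullC (IsLocalRing.ResidueField A) M₀) FkM FkP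
        (Vtx.vert Vrt.oo)))
    (hQ : IsSSPlace (IsLocalRing.ResidueField A) M₀ q Q) :
    ∃ P : ModSS A M₀ q, modPv (FkP := FkP) pm P Vrt.oo = Q :=
  ModSS.exists_place_eq Q hQ

/-- every supersingular place of the component `0` is a `P_0`. -/
theorem exists_modPv_zero_eq
    (Q : Place (IsLocalRing.ResidueField A)
      (FkOf ↥(modularFunctionFieldFullC (IsLocalRing.ResidueField A) M₀) FkM FkP
        (Vtx.vert Vrt.zero)))
    (hQ : IsSSPlace (IsLocalRing.ResidueField A) M₀ q Q) :
    ∃ P : ModSS A M₀ q, modPv (FkP := FkP) pm P Vrt.zero = Q :=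
  ModSS.exists_place_eq Q hQ

end Pv

end Fermat.Agent.S36G
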