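import Mathlib
import Fermat.Agent.S36.Seed.MN1
import Fermat.Agent.S36.Seed.UMid
import Fermat.Agent.S36.Seed.Cusp

set_option autoImplicit false
set_option linter.style.haveILetI false
set_option linter.unusedSectionVars false
set_option synthInstance.maxHeartbeats 400000

/-!
# Cluster G (S36), MG-INST, slice MOD-V (helper74): the concrete vertex sets of the three node
theorems and the cusp hypothesis

The arguments `VA₁ VA₂ V1₁ V1₂ V2₁ V2₂`, `mem_V*` and `hcusp` of helper40's `modEndsOfLeaves`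
(`S36/G/EndsOfLeaves.lean`) / `ModEndsInput` (`S36/G/SeedInput.lean`), in the shapes of the landed
`MNData` (`S36/Seed/MNA.lean`, `MN1.lean`, `MN2.lean`):

| node theorem | `V₁` | `V₂` |
|---|---|---|
| (A) `u_A = u₂` | `{vert ∞}` | `mn1V₂ Mid SS` |
| (1) `u₁` | `mn1V₁ Mid SS` | `mn1V₂ Mid SS` |
| (2) `u₁ / ϖ₁` | `mn1V₂ Mid SS` | `{vert 0}` |

* `modV_mem_oo`, `modV_mem_zero`, `modV_mem_hor`, `modV_mem_vert` : the four membership lemmas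
  (`∀ c, c ∈ V ↔ ..`, verbatim the fields `mem_VA₁`, `mem_V2₂`, `mem_VA₂ = mem_V1₂ = mem_V2₁`,
  `mem_V1₁`);
* `modV_hcusp`, `modV_hcusp_level` : **`hcusp`**: `ord_P u₁ ≠ 0 → ord_P u₂ ≠ 0` on `X₀(N)`,
  `q² ∣ N`, resp. on `X₀(M₀ q²)` with `u₁ = uF (M₀ q q) q (umid_dvd1 M₀ q)`,
  `u_A = uF2 (M₀ q q) q (umid_dvd2 M₀ q)`.
-/

noncomputable section

namespace Fermat.Agent.S36G

open ModularCurve AlgebraicCurve Fermat.Agent.BadRed

local notation "Qb" => AlgebraicClosure ℚ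

section Sets

variable {Mid SS : Type}

/-- `mem_VA₁`: `VA₁ = {vert ∞}`. -/
theorem modV_mem_oo (c : Vtx Mid SS) :
    c ∈ ({Vtx.vert Vrt.oo} : Finset (Vtx Mid SS)) ↔ c = Vtx.vert Vrt.oo :=
  Finset.mem_singleton

/-- `mem_V2₂`: `V2₂ = {vert 0}`. -/
theorem modV_mem_zero (c : Vtx Mid SS) :
    c ∈ ({Vtx.vert Vrt.zero} : Finset (Vtx Mid SS)) ↔ c = Vtx.vert Vrt.zero :=
  Finset.mem_singleton

/-- `mem_VA₂`, `mem_V1₂`, `mem_V2₁`: `VA₂ = V1₂ = V2₁ = mn1V₂ Mid SS`. -/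
theorem modV_mem_hor [Fintype SS] (c : Vtx Mid SS) :
    c ∈ mn1V₂ Mid SS ↔ ∃ P, c = Vtx.hor P :=
  mem_mn1V₂

/-- `mem_V1₁`: `V1₁ = mn1V₁ Mid SS`. -/
theorem modV_mem_vert [Fintype Mid] (c : Vtx Mid SS) :
    c ∈ mn1V₁ Mid SS ↔ c = Vtx.vert Vrt.oo ∨ ∃ m, c = Vtx.vert (Vrt.mid m) :=
  mem_mn1V₁

end Sets

section Cusp

/-- **`hcusp`** on `X₀(N)`, `q² ∣ N`: every zero or pole of `u₁` is a zero or pole of `u₂`. -/
theorem modV_hcusp (N q : ℕ) [NeZero N] [NeZero q] (h : q * q ∣ N) (hq : q.Prime)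
    (h1 : q ∣ N) :
    ∀ P : Place Qb ↥(modularFunctionFieldBar N),
      P.ord (uF N q h1) ≠ 0 → P.ord (uF2 N q h) ≠ 0 :=
  fun P hP => (ord_uF_ne_zero_iff_uF2 N q h hq P).mp hP

/-- **`hcusp`** at the level `M₀ q²` of the modular graph. -/
theorem modV_hcusp_level (M₀ q : ℕ) [NeZero M₀] [NeZero q] (hq : q.Prime) :
    ∀ P : Place Qb ↥(modularFunctionFieldBar (M₀ * q * q)),
      P.ord (uF (M₀ * q * q) q (umid_dvd1 M₀ q)) ≠ 0 →
        P.ord (uF2 (M₀ * q * q) q (umid_dvd2 M₀ q)) ≠ 0 :=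
  modV_hcusp (M₀ * q * q) q (umid_dvd2 M₀ q) hq (umid_dvd1 M₀ q)

/-- the converse: every zero or pole of `u₂` is a zero or pole of `u₁`. -/
theorem modV_hcusp_level' (M₀ q : ℕ) [NeZero M₀] [NeZero q] (hq : q.Prime) :
    ∀ P : Place Qb ↥(modularFunctionFieldBar (M₀ * q * q)),
      P.ord (uF2 (M₀ * q * q) q (umid_dvd2 M₀ q)) ≠ 0 →
        P.ord (uF (M₀ * q * q) q (umid_dvd1 M₀ q)) ≠ 0 :=
  fun P hP => (ord_uF_ne_zero_iff_uF2 (M₀ * q * q) q (umid_dvd2 M₀ q) hq P).mpr hP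

end Cusp

end Fermat.Agent.S36G
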