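import Mathlib
import Fermat.Agent.S36.G.EndsOfLeaves
import Fermat.Agent.S36.G.VtxFamily
import Fermat.Agent.S36.G.ModSS
import Fermat.Agent.S36.G.ModV
import Fermat.Agent.S36.Igusa.Pack
import Fermat.Agent.S36.HPVal.ValFamily
import Fermat.Agent.S36.Seed.YModDeg
import Fermat.Agent.S36.Val.Restr
import Fermat.Agent.Lib.BadRed.Mod.Arch
import Fermat.Agent.Lib.GaussInt.ModularInst

set_option autoImplicit false
set_option linter.style.haveILetI false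
set_option linter.unusedSectionVars false
set_option linter.unusedVariables false
set_option synthInstance.maxHeartbeats 400000
set_option maxHeartbeats 1600000

/-!
# Cluster G (S36), MG-INST: the modular world and its `ModEndsInput`  (helper40)

* `ModWorld M₀ q A` : the constant reductions of `F = F_{M₀ q²}` at `A ∣ q`:
  `Soo` (Gauss), `D₀` (the Atkin–Lehner datum, `v_0 = valSetupZeroAt D₀ hM₀ Soo`), the Igusa pair
  `I : IgPack M₀ q A`, the family `W : WPFamily M₀ q A S0 ϖ` of the `w_P` (ONE uniformiser `ϖ`,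
  `ϖ ^ (q + 1) = q`);
* `ModWorld.S`      : `vtxFamily Soo (valSetupZeroAt D₀ hM₀ Soo) I.S (fun P => (W.O P).S)`
  (`Mid = Fin (midCard q)`, `SS = ModSS A M₀ q`), with `S_A`, `S_res`, `lat`, `arch`;
* `ModWorld.ends`   : **`E : ModEndsInput`** (`modEndsOfLeaves`) with
  `uA = uF2`, `u1 = uF`, `u2 = u1 / ϖ ^ 12`, `ϖA = ϖ ^ (12 q)`, `ϖ1 = ϖ ^ 12`,
  `ϖ2 = q ^ 12 / ϖ ^ 12`,
  `VA₁ = {∞}`, `VA₂ = V1₂ = V2₁ = mn1V₂`, `V1₁ = mn1V₁`, `V2₂ = {0}`, `n = q + 1`,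
  `b = (ϖ ^ 12) ^ (q + 1)`; the leaves (`pv`, `MNData`, `EndsRed`, zeros, `sep`) are its arguments;
* `ModWorld.seed`   : **`G = E.ymodSeedFull ..`** (`hgenus` an argument), with the `rfl` lemmas.
-/

noncomputable section

namespace Fermat.Agent.S36G

open ModularCurve AlgebraicCurve Fermat.Agent.F3 Fermat.Agent.F3G Fermat.Agent.GaussInt
  Fermat.Agent.AtkinLehner Fermat.Agent.Kronecker Fermat.Agent.BadRed Fermat.Agent.BadRedG
  Fermat.Agent.Deuring Fermat.Agent.RR Fermat.Agent.HP Fermat.Agent.HPVal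

local notation "Qb" => AlgebraicClosure ℚ

attribute [local instance 10000] SubalgebraClass.toAlgebra HahnSeries.powerSeriesAlgebra

/-- **the modular world**: the constant reductions of `F_{M₀ q²}` at `A ∣ q`. -/
structure ModWorld (M₀ q : ℕ) [NeZero M₀] [NeZero q] (A : ValuationSubring Qb)
    [Fact q.Prime] [CharP (IsLocalRing.ResidueField A) q]
    [PerfectRing (IsLocalRing.ResidueField A) q] where
  /-- the Gauss reduction `v_∞` -/
  Soo : ValSetup Qb (FBar (M₀ * q * q)) (IsLocalRing.ResidueField A)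
    ↥(modularFunctionFieldFullC (IsLocalRing.ResidueField A) M₀)
  hSoo : IsGaussSetup (M₀ * q * q) M₀ A Soo
  latoo : HasLattice Soo
  /-- the Atkin–Lehner datum of `q²` -/
  D₀ : ALData
  hM₀ : M₀ * q * q = D₀.Q * D₀.R
  hD₀ : D₀.Q = q ^ 2
  /-- the Igusa pair -/
  I : IgPack M₀ q A
  /-- the Gauss reduction of `F_{M₀}` -/
  S0 : Fermat.Agent.S18Key.RedSetup Qb (FBar M₀) (IsLocalRing.ResidueField A)
    ↥(modularFunctionFieldFullC (IsLocalRing.ResidueField A) M₀)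
  hS0 : IsGaussRed M₀ A S0
  /-- the uniformiser of the stable field -/
  ϖ : Qb
  hϖ : ϖ ^ (q + 1) = (q : Qb)
  /-- the horizontal reductions `w_P` -/
  W : WPFamily M₀ q A S0 ϖ

namespace ModWorld

variable {M₀ q : ℕ} [NeZero M₀] [NeZero q] {A : ValuationSubring Qb}
  [Fact q.Prime] [CharP (IsLocalRing.ResidueField A) q]
  [PerfectRing (IsLocalRing.ResidueField A) q] (X : ModWorld M₀ q A)

/-- **the constant reductions of the modular graph.** -/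
def S : ∀ c : Vtx (Fin (midCard q)) (ModSS A M₀ q),
    ValSetup Qb (FBar (M₀ * q * q)) (IsLocalRing.ResidueField A)
      (FkOf ↥(modularFunctionFieldFullC (IsLocalRing.ResidueField A) M₀)
        (fun _ : Fin (midCard q) => ↥(igField (IsLocalRing.ResidueField A) M₀)) X.W.FkP c) :=
  vtxFamily X.Soo (valSetupZeroAt X.D₀ X.hM₀ X.Soo) X.I.S (fun P => (X.W.O P).S)

theorem S_eq : X.S = vtxFamily X.Soo (valSetupZeroAt X.D₀ X.hM₀ X.Soo) X.I.S
    (fun P => (X.W.O P).S) := rfl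

theorem S_oo : X.S (Vtx.vert Vrt.oo) = X.Soo := rfl

theorem S_zero : X.S (Vtx.vert Vrt.zero) = valSetupZeroAt X.D₀ X.hM₀ X.Soo := rfl

theorem S_mid (m : Fin (midCard q)) : X.S (Vtx.vert (Vrt.mid m)) = X.I.S m := rfl

theorem S_hor (P : ModSS A M₀ q) : X.S (Vtx.hor P) = (X.W.O P).S := rfl

theorem zero_A : (valSetupZeroAt X.D₀ X.hM₀ X.Soo).A = A :=
  (valSetupZeroAt_A X.D₀ X.hM₀ X.Soo).trans X.hSoo.A_eq

/-- the valuation ring of the constants is `A` on every component. -/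
theorem S_A (c : Vtx (Fin (midCard q)) (ModSS A M₀ q)) : (X.S c).A = A :=
  vtxFamily_A X.Soo (valSetupZeroAt X.D₀ X.hM₀ X.Soo) X.I.S (fun P => (X.W.O P).S) A
    X.hSoo.A_eq X.zero_A (fun m => (X.I.isMidSetup m).A_eq) (fun P => (X.W.O P).A_eq) c

/-- the lattice property on every component. -/
theorem lat (c : Vtx (Fin (midCard q)) (ModSS A M₀ q)) : HasLattice (X.S c) :=
  vtxFamily_lat X.Soo (valSetupZeroAt X.D₀ X.hM₀ X.Soo) X.I.S (fun P => (X.W.O P).S)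
    X.latoo (hasLattice_valSetupZeroAt X.D₀ X.hM₀ X.Soo X.latoo) X.I.lat
    (fun P => (X.W.O P).lat) c

/-- rank one. -/
theorem arch (hq : q.Prime) (hA : A.LiesOverPrime q)
    (c₀ : Vtx (Fin (midCard q)) (ModSS A M₀ q)) (x : Qb) (hx : x ∈ (X.S c₀).A)
    (hx' : x⁻¹ ∉ (X.S c₀).A) (d : Qb) : ∃ j : ℕ, x ^ j * d ∈ (X.S c₀).A :=
  vtxFamily_arch X.Soo (valSetupZeroAt X.D₀ X.hM₀ X.Soo) X.I.S (fun P => (X.W.O P).S) A
    X.hSoo.A_eq X.zero_A (fun m => (X.I.isMidSetup m).A_eq) (fun P => (X.W.O P).A_eq)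
    (arch_algebraicClosure A hq hA) c₀ x hx hx' d

/-- `ϖ ≠ 0`. -/
theorem ϖ_ne (hq : q.Prime) : X.ϖ ≠ 0 := by
  intro h
  have h1 := X.hϖ
  rw [h, zero_pow (Nat.succ_ne_zero q)] at h1
  exact (Nat.cast_ne_zero.mpr hq.ne_zero) h1.symm

/-- the parameter `u_A = u₂ = Δ(qz) / Δ(q² z)`. -/
def uA (M₀ q : ℕ) [NeZero M₀] [NeZero q] : FBar (M₀ * q * q) :=
  uF2 (M₀ * q * q) q (umid_dvd2 M₀ q)

/-- the parameter `u₁ = Δ(z) / Δ(qz)`. -/
def u1 (M₀ q : ℕ) [NeZero M₀] [NeZero q] : FBar (M₀ * q * q) :=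
  uF (M₀ * q * q) q (umid_dvd1 M₀ q)

section Ends

variable [Fintype (ModSS A M₀ q)]

/-- **the `ModEndsInput` of the modular graph**, from the leaves. -/
def ends (hq : q.Prime) (hA : A.LiesOverPrime q)
    (pv : ∀ (_ : ModSS A M₀ q) (v : Vrt (Fin (midCard q))),
      Place (IsLocalRing.ResidueField A)
        (FkOf ↥(modularFunctionFieldFullC (IsLocalRing.ResidueField A) M₀)
          (fun _ : Fin (midCard q) => ↥(igField (IsLocalRing.ResidueField A) M₀)) X.W.FkP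
          (Vtx.vert v)))
    (pv_inj : ∀ (v : Vrt (Fin (midCard q))) (P P' : ModSS A M₀ q), pv P v = pv P' v → P = P')
    (DA : MNData X.S {Vtx.vert Vrt.oo} (mn1V₂ (Fin (midCard q)) (ModSS A M₀ q))
      (uA M₀ q) (X.ϖ ^ (12 * q)))
    (D1 : MNData X.S (mn1V₁ (Fin (midCard q)) (ModSS A M₀ q))
      (mn1V₂ (Fin (midCard q)) (ModSS A M₀ q)) (u1 M₀ q) (X.ϖ ^ 12))
    (D2 : MNData X.S (mn1V₂ (Fin (midCard q)) (ModSS A M₀ q)) {Vtx.vert Vrt.zero}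
      (u1 M₀ q / algebraMap Qb (FBar (M₀ * q * q)) (X.ϖ ^ 12)) ((q : Qb) ^ 12 / X.ϖ ^ 12))
    (hxA : EndsRedA X.S (fun P => (X.W.O P).H)
      (algebraMap Qb (FBar (M₀ * q * q)) (X.ϖ ^ (12 * q)) / uA M₀ q))
    (hx2 : EndsRed2 X.S (fun P => (X.W.O P).H)
      (u1 M₀ q / algebraMap Qb (FBar (M₀ * q * q)) (X.ϖ ^ 12)))
    (zA : ∀ Q : Place (IsLocalRing.ResidueField A)
        (FkOf ↥(modularFunctionFieldFullC (IsLocalRing.ResidueField A) M₀)
          (fun _ : Fin (midCard q) => ↥(igField (IsLocalRing.ResidueField A) M₀)) X.W.FkP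
          (Vtx.vert Vrt.oo)),
      0 < Q.ord ((X.S (Vtx.vert Vrt.oo)).red (uA M₀ q)) → ∃ P, pv P Vrt.oo = Q)
    (oA : ∀ P, (pv P Vrt.oo).ord ((X.S (Vtx.vert Vrt.oo)).red (uA M₀ q)) = 12 * (q : ℤ))
    (z1oo : ∀ Q : Place (IsLocalRing.ResidueField A)
        (FkOf ↥(modularFunctionFieldFullC (IsLocalRing.ResidueField A) M₀)
          (fun _ : Fin (midCard q) => ↥(igField (IsLocalRing.ResidueField A) M₀)) X.W.FkP
          (Vtx.vert Vrt.oo)),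
      0 < Q.ord ((X.S (Vtx.vert Vrt.oo)).red (u1 M₀ q)) → ∃ P, pv P Vrt.oo = Q)
    (o1oo : ∀ P, (pv P Vrt.oo).ord ((X.S (Vtx.vert Vrt.oo)).red (u1 M₀ q)) = 12)
    (z1m : ∀ (m : Fin (midCard q)) (Q : Place (IsLocalRing.ResidueField A)
        (FkOf ↥(modularFunctionFieldFullC (IsLocalRing.ResidueField A) M₀)
          (fun _ : Fin (midCard q) => ↥(igField (IsLocalRing.ResidueField A) M₀)) X.W.FkP
          (Vtx.vert (Vrt.mid m)))),
      0 < Q.ord ((X.S (Vtx.vert (Vrt.mid m))).red (u1 M₀ q)) → ∃ P, pv P (Vrt.mid m) = Q)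
    (o1m : ∀ P m, (pv P (Vrt.mid m)).ord ((X.S (Vtx.vert (Vrt.mid m))).red (u1 M₀ q)) =
      12 * (midDeg q : ℤ))
    (z2 : ∀ Q : Place (IsLocalRing.ResidueField A)
        (FkOf ↥(modularFunctionFieldFullC (IsLocalRing.ResidueField A) M₀)
          (fun _ : Fin (midCard q) => ↥(igField (IsLocalRing.ResidueField A) M₀)) X.W.FkP
          (Vtx.vert Vrt.zero)),
      0 < Q.ord ((X.S (Vtx.vert Vrt.zero)).red
        (algebraMap Qb (FBar (M₀ * q * q)) ((q : Qb) ^ 12 / X.ϖ ^ 12) /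
          (u1 M₀ q / algebraMap Qb (FBar (M₀ * q * q)) (X.ϖ ^ 12)))) →
        ∃ P, pv P Vrt.zero = Q)
    (o2 : ∀ P, (pv P Vrt.zero).ord ((X.S (Vtx.vert Vrt.zero)).red
      (algebraMap Qb (FBar (M₀ * q * q)) ((q : Qb) ^ 12 / X.ϖ ^ 12) /
        (u1 M₀ q / algebraMap Qb (FBar (M₀ * q * q)) (X.ϖ ^ 12)))) = 12 * (q : ℤ))
    (sepA : ∀ P : ModSS A M₀ q, ∃ g ∈ ncAdm X.S {Vtx.vert Vrt.oo}
        (mn1V₂ (Fin (midCard q)) (ModSS A M₀ q)) (uA M₀ q),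
      ValAt (pv P Vrt.oo) ((X.S (Vtx.vert Vrt.oo)).red g) 1 ∧
        ∀ P' : ModSS A M₀ q, P' ≠ P → (X.S (Vtx.hor P')).red g = 0)
    (sep1 : ∀ (P : ModSS A M₀ q) (m : Fin (midCard q)),
      ∃ g ∈ ncAdm X.S (mn1V₁ (Fin (midCard q)) (ModSS A M₀ q))
          (mn1V₂ (Fin (midCard q)) (ModSS A M₀ q)) (u1 M₀ q) ∩
        ncAdm X.S {Vtx.vert Vrt.oo} (mn1V₂ (Fin (midCard q)) (ModSS A M₀ q)) (uA M₀ q),
      ValAt (pv P (Vrt.mid m)) ((X.S (Vtx.vert (Vrt.mid m))).red g) 1 ∧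
        ∀ P' : ModSS A M₀ q, P' ≠ P → (X.S (Vtx.hor P')).red g = 0)
    (sep2 : ∀ P : ModSS A M₀ q, ∃ g ∈ ncAdm X.S (mn1V₂ (Fin (midCard q)) (ModSS A M₀ q))
        {Vtx.vert Vrt.zero} (u1 M₀ q / algebraMap Qb (FBar (M₀ * q * q)) (X.ϖ ^ 12)),
      ValAt (pv P Vrt.zero) ((X.S (Vtx.vert Vrt.zero)).red g) 1 ∧
        ∀ P' : ModSS A M₀ q, P' ≠ P → (X.S (Vtx.hor P')).red g = 0) :
    ModEndsInput Qb (FBar (M₀ * q * q)) (IsLocalRing.ResidueField A) (Fin (midCard q))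
      (ModSS A M₀ q) ↥(modularFunctionFieldFullC (IsLocalRing.ResidueField A) M₀)
      (fun _ : Fin (midCard q) => ↥(igField (IsLocalRing.ResidueField A) M₀)) X.W.FkP :=
  haveI : IsAlgClosed (IsLocalRing.ResidueField A) := isAlgClosed_residue A
  modEndsOfLeaves hq X.S X.lat (X.arch hq hA) pv pv_inj
    {Vtx.vert Vrt.oo} (mn1V₂ (Fin (midCard q)) (ModSS A M₀ q))
    (mn1V₁ (Fin (midCard q)) (ModSS A M₀ q)) (mn1V₂ (Fin (midCard q)) (ModSS A M₀ q))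
    (mn1V₂ (Fin (midCard q)) (ModSS A M₀ q)) {Vtx.vert Vrt.zero}
    modV_mem_oo modV_mem_hor modV_mem_vert modV_mem_hor modV_mem_hor modV_mem_zero
    (uA M₀ q) (u1 M₀ q) (X.ϖ ^ (12 * q)) (X.ϖ ^ 12) ((q : Qb) ^ 12 / X.ϖ ^ 12)
    (pow_ne_zero 12 (X.ϖ_ne hq)) DA D1 D2 (fun P => (X.W.O P).H) hxA hx2
    zA oA z1oo o1oo z1m o1m z2 o2 sepA sep1 sep2 (modV_hcusp_level M₀ q hq) (q + 1)
    (Nat.succ_ne_zero q)

end Ends

end ModWorld

end Fermat.Agent.S36G
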