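import Mathlib
import Fermat.Agent.S36.G.ModularGraphInst
import Fermat.Agent.S36.G.ModCore
import Fermat.Agent.S36.Genus.Family
import Fermat.Agent.S36.HPVal.DistFinalWire

set_option autoImplicit false
set_option linter.style.haveILetI false
set_option linter.unusedSectionVars false
set_option linter.unusedVariables false
set_option synthInstance.maxHeartbeats 400000
set_option maxHeartbeats 1600000

/-!
# Cluster G (S36), MG-INST: the core fields and the numerical side of the modular world (helper40)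

For `X : ModWorld M₀ q A` (`S36/G/ModularGraphInst.lean`):

* `ModWorld.S_Aeq`, `S_res`, `S_res_eq` : the fields `A_eq`, `res_eq` of the core (`hAeq`, `hres`
  of the `MNData` producers), through helper25's `modCore_*` (NO definitional unfolding of
  `valSetupZeroAt`);
* `ModWorld.S_indep` : **`indep`** (`hindep`), helper19's `modIndep_wp`;
* `ModWorld.hgenus`  : **the genus inequality `hgenus`** of the seed
  (`E.ymodSeed`, `E.ymodSeedFull`, `modSeedOfLeaves`), from helper91's `gen_genus_le_family`;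
* `ModWorld.he`      : `midDeg q * card (Fin (midCard q)) + 1 = q` (the field `hq` of
  `CoreBundle`, `e = midDeg q`);
* `ModWorld.hEA`     : `(X.S (vert ∞)).A = A` (the field `hA` of `CoreBundle`);
* `ModWorld.ϖ2_eq`   : `q ^ 12 / ϖ ^ 12 = ϖ ^ (12 q)`.
-/

noncomputable section

namespace Fermat.Agent.S36G

open ModularCurve AlgebraicCurve Fermat.Agent.F3 Fermat.Agent.F3G Fermat.Agent.GaussInt
  Fermat.Agent.AtkinLehner Fermat.Agent.Kronecker Fermat.Agent.BadRed Fermat.Agent.BadRedG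
  Fermat.Agent.Deuring Fermat.Agent.RR Fermat.Agent.HP Fermat.Agent.HPVal

local notation "Qb" => AlgebraicClosure ℚ

namespace ModWorld

variable {M₀ q : ℕ} [NeZero M₀] [NeZero q] {A : ValuationSubring Qb}
  [Fact q.Prime] [CharP (IsLocalRing.ResidueField A) q]
  [PerfectRing (IsLocalRing.ResidueField A) q] (X : ModWorld M₀ q A)

/-- `A_eq` of the core. -/
theorem S_Aeq (c c' : Vtx (Fin (midCard q)) (ModSS A M₀ q)) : (X.S c).A = (X.S c').A := by
  rw [X.S_A c, X.S_A c']

/-- the residue map of the constants is the one of `A` on every component. -/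
theorem S_res (c : Vtx (Fin (midCard q)) (ModSS A M₀ q)) (x : Qb) (h : x ∈ (X.S c).A)
    (h' : x ∈ A) : (X.S c).res ⟨x, h⟩ = IsLocalRing.residue A ⟨x, h'⟩ :=
  modCore_res X.Soo X.D₀ X.hM₀ X.I.S X.W.O X.I.ε X.hSoo X.I.isMidSetup c x h h'

/-- `res_eq` of the core. -/
theorem S_res_eq (c c' : Vtx (Fin (midCard q)) (ModSS A M₀ q)) (x : Qb) (h : x ∈ (X.S c).A)
    (h' : x ∈ (X.S c').A) : (X.S c).res ⟨x, h⟩ = (X.S c').res ⟨x, h'⟩ :=
  modCore_res_eq X.Soo X.D₀ X.hM₀ X.I.S X.W.O X.I.ε X.hSoo X.I.isMidSetup c c' x h h'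

/-- **`indep`**: the constant reductions of the modular world are pairwise incomparable. -/
theorem S_indep (hq : q.Prime) (hqM : ¬ q ∣ M₀) (hA : A.LiesOverPrime q)
    (haux : AuxLevelOK q M₀) (c c' : Vtx (Fin (midCard q)) (ModSS A M₀ q)) (hne : c ≠ c') :
    ¬ (X.S c).Ov ≤ (X.S c').Ov :=
  modIndep_wp hq hqM A hA X.hS0 X.Soo X.hSoo X.D₀ X.hD₀ X.hM₀ X.I.S X.I.z X.I.ε X.I.prim
    X.I.isMidExp (fun m => (X.I.isMidSetup m).mem_iff) (fun m => (X.I.isMidSetup m).A_eq)
    ModSS.place X.W.O haux ModSS.place_injective (fun P => P.isSS) X.I.indep c c' hne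

/-- **`hgenus`** for the modular world (any `Fintype` structures). -/
theorem hgenus (hq : q.Prime) (hqM : ¬ q ∣ M₀) (hν2 : nuTwo M₀ = 0) (hν3 : nuThree M₀ = 0)
    (h2 : q = 2 → 3 ∣ M₀) (h3 : q = 3 → 2 ∣ M₀) (hA : A.LiesOverPrime q)
    [Fintype (ModSS A M₀ q)] [Fintype (Vtx (Fin (midCard q)) (ModSS A M₀ q))]
    [Fintype (Nod (Fin (midCard q)) (ModSS A M₀ q))] :
    genusFF Qb (FBar (M₀ * q * q)) + Fintype.card (Vtx (Fin (midCard q)) (ModSS A M₀ q)) ≤
      (∑ c : Vtx (Fin (midCard q)) (ModSS A M₀ q), genusFF (IsLocalRing.ResidueField A)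
        (FkOf ↥(modularFunctionFieldFullC (IsLocalRing.ResidueField A) M₀)
          (fun _ : Fin (midCard q) => ↥(igField (IsLocalRing.ResidueField A) M₀)) X.W.FkP c)) +
        Fintype.card (Nod (Fin (midCard q)) (ModSS A M₀ q)) + 1 :=
  gen_genus_le_family M₀ (M₀ * q * q) hq hqM rfl hν2 hν3 h2 h3 hA (Fintype.card_fin _)
    (fun P : ModSS A M₀ q => (P : SSPl M₀ q A)) Function.bijective_id X.W.FkP
    (fun P => (X.W.O P).H)

/-- the field `hq` of `CoreBundle` with `e = midDeg q`. -/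
theorem he (hq : q.Prime) : midDeg q * Fintype.card (Fin (midCard q)) + 1 = q := by
  rw [Fintype.card_fin, mul_comm, gen_midCard_mul_midDeg hq]
  have := hq.one_lt
  omega

/-- `ϖ₂ = q ^ 12 / ϖ ^ 12 = ϖ ^ (12 q)`. -/
theorem ϖ2_eq (hq : q.Prime) : (q : Qb) ^ 12 / X.ϖ ^ 12 = X.ϖ ^ (12 * q) := by
  have h0 := X.ϖ_ne hq
  rw [div_eq_iff (pow_ne_zero 12 h0), ← X.hϖ, ← pow_mul, ← pow_add]
  congr 1
  ring

/-- the field `hA` of `CoreBundle`. -/
theorem hEA : (X.S (Vtx.vert Vrt.oo)).A = A := X.hSoo.A_eq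

end ModWorld

end Fermat.Agent.S36G
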