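import Mathlib
import Fermat.Agent.S36.G.ModularGraphInst
import Fermat.Agent.S36.G.ModWorldEx
import Fermat.Agent.S36.G.AuxNu
import Fermat.Agent.S36.HPVal.WPFinal
import Fermat.Agent.S36.HPVal.ValAtT
import Fermat.Agent.S36.Seed.UHorDatum

set_option autoImplicit false
set_option linter.style.haveILetI false
set_option linter.unusedSectionVars false
set_option linter.unusedVariables false
set_option synthInstance.maxHeartbeats 400000
set_option maxHeartbeats 1000000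

/-!
# Cluster G (S36), MG-INST, slice (b): the modular world EXISTS  (helper38)

`ModWorld M₀ q A` (helper40, `S36/G/ModularGraphInst.lean`) is inhabited for every prime
`q ∤ M₀`, every place `A ∣ q` of `ℚ̄`, at the rigid auxiliary level (`AuxLevelOK q M₀`,
`nuTwo M₀ = 0`, `nuThree M₀ = 0`), from the output `WPExistsAt M₀ q` of block W-P.

* `modWorld_exists_of_family` : the world of a GIVEN family `W : WPFamily M₀ q A S0 ϖ`, with
  `X.ϖ = ϖ`, `X.S0 = S0` and any property `C` of the family transported to `X.W`;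
* `modWorld_exists_at` : for EVERY root `ϖ` of `X ^ (q + 1) = q` a world `X` with `X.ϖ = ϖ`,
  `X.S0 = wpdSetup A q M₀ hq hA hqM hg`, `X.D₀.R = M₀`, and the lattice property / the
  incomparability of `v_0 = valSetupZeroAt X.D₀ X.hM₀ X.Soo`;
* `nonempty_modWorld`  : `Nonempty (ModWorld M₀ q A)`;
* `modWorld_exists_at_aux23`, `nonempty_modWorld_aux23` : the same from `AuxGood23 q M₀` ALONE
  (`wpExistsAt_aux`, helper59; `auxGood23_nuTwo/_nuThree`, `AuxNu.lean`);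
* `modWorld_exists_atT_aux23`, `modWorld_existsT_aux23` : **the final export**: the world with
  the `t`-datum `∀ P, WPTDat M₀ A (X.W.O P).t` (helper92, `S36/HPVal/ValAtT.lean`)
  `= ∀ P, UHorDatum A (X.W.t P)` (helper90, `S36/Seed/UHorDatum.lean`).
-/

noncomputable section

namespace Fermat.Agent.S36G

open ModularCurve AlgebraicCurve IntermediateField Fermat.Agent.F3 Fermat.Agent.F3G
  Fermat.Agent.GaussInt Fermat.Agent.AtkinLehner Fermat.Agent.Kronecker Fermat.Agent.BadRed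
  Fermat.Agent.BadRedG Fermat.Agent.Deuring Fermat.Agent.RR Fermat.Agent.HP Fermat.Agent.HPVal
  Fermat.Agent.F3Genus

local notation "Qb" => AlgebraicClosure ℚ

variable {M₀ q : ℕ} [NeZero M₀] [NeZero q]

/-- **the modular world of a given family `W` of the `w_P`**; any property `C` of the family is
transported to the world (`C S0 ϖ W → C X.S0 X.ϖ X.W`). -/
theorem modWorld_exists_of_family (hq : q.Prime) (hqM : ¬ q ∣ M₀)
    (hν2 : nuTwo M₀ = 0) (hν3 : nuThree M₀ = 0)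
    (A : ValuationSubring Qb) (hA : A.LiesOverPrime q)
    [Fact q.Prime] [CharP (IsLocalRing.ResidueField A) q]
    [PerfectRing (IsLocalRing.ResidueField A) q]
    {S0 : Fermat.Agent.S18Key.RedSetup Qb (FBar M₀) (IsLocalRing.ResidueField A)
      ↥(modularFunctionFieldFullC (IsLocalRing.ResidueField A) M₀)}
    (hS0 : IsGaussRed M₀ A S0) {ϖ : Qb} (hϖ : ϖ ^ (q + 1) = (q : Qb))
    (W : WPFamily M₀ q A S0 ϖ)
    (C : ∀ (S0' : Fermat.Agent.S18Key.RedSetup Qb (FBar M₀) (IsLocalRing.ResidueField A)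
        ↥(modularFunctionFieldFullC (IsLocalRing.ResidueField A) M₀)) (ϖ' : Qb),
      WPFamily M₀ q A S0' ϖ' → Prop)
    (hC : C S0 ϖ W) :
    ∃ X : ModWorld M₀ q A,
      X.ϖ = ϖ ∧ X.S0 = S0 ∧ C X.S0 X.ϖ X.W ∧
        X.D₀.R = M₀ ∧ HasLattice (valSetupZeroAt X.D₀ X.hM₀ X.Soo) ∧
        ¬ X.Soo.Ov ≤ (valSetupZeroAt X.D₀ X.hM₀ X.Soo).Ov ∧
        ¬ (valSetupZeroAt X.D₀ X.hM₀ X.Soo).Ov ≤ X.Soo.Ov := by
  obtain ⟨D₀, hM₀, Soo, hQ, hR, hS, hL, hL0, h1, h2⟩ := modWorldEx_vert hq hqM A hA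
  obtain ⟨I⟩ := modWorldEx_ig hq hqM hν2 hν3 A hA
  exact ⟨{ Soo := Soo, hSoo := hS, latoo := hL, D₀ := D₀, hM₀ := hM₀, hD₀ := hQ, I := I,
           S0 := S0, hS0 := hS0, ϖ := ϖ, hϖ := hϖ, W := W },
    rfl, rfl, hC, hR, hL0, h1, h2⟩

/-- **the modular world with a prescribed uniformiser.** -/
theorem modWorld_exists_at (hWP : WPExistsAt M₀ q) (hq : q.Prime) (hqM : ¬ q ∣ M₀)
    (haux : AuxLevelOK q M₀) (hν2 : nuTwo M₀ = 0) (hν3 : nuThree M₀ = 0)
    (A : ValuationSubring Qb) (hA : A.LiesOverPrime q)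
    [Fact q.Prime] [CharP (IsLocalRing.ResidueField A) q]
    [PerfectRing (IsLocalRing.ResidueField A) q] (ϖ : Qb) (hϖ : ϖ ^ (q + 1) = (q : Qb)) :
    ∃ X : ModWorld M₀ q A,
      X.ϖ = ϖ ∧ X.S0 = wpdSetup A q M₀ hq hA hqM (modWorldEx_hg hq hqM haux hA) ∧
        X.D₀.R = M₀ ∧ HasLattice (valSetupZeroAt X.D₀ X.hM₀ X.Soo) ∧
        ¬ X.Soo.Ov ≤ (valSetupZeroAt X.D₀ X.hM₀ X.Soo).Ov ∧
        ¬ (valSetupZeroAt X.D₀ X.hM₀ X.Soo).Ov ≤ X.Soo.Ov := by
  obtain ⟨W⟩ := modWorldEx_family hWP hq hqM A hA (modWorldEx_hg hq hqM haux hA) ϖ hϖ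
  obtain ⟨X, h1, h2, -, h3⟩ := modWorld_exists_of_family hq hqM hν2 hν3 A hA
    (isGaussRed_wpdSetup A q M₀ hq hA hqM _) hϖ W (fun _ _ _ => True) trivial
  exact ⟨X, h1, h2, h3⟩

/-- **the modular world exists** (rigid auxiliary level). -/
theorem nonempty_modWorld (hWP : WPExistsAt M₀ q) (hq : q.Prime) (hqM : ¬ q ∣ M₀)
    (haux : AuxLevelOK q M₀) (hν2 : nuTwo M₀ = 0) (hν3 : nuThree M₀ = 0)
    (A : ValuationSubring Qb) (hA : A.LiesOverPrime q)
    [Fact q.Prime] [CharP (IsLocalRing.ResidueField A) q]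
    [PerfectRing (IsLocalRing.ResidueField A) q] : Nonempty (ModWorld M₀ q A) := by
  obtain ⟨ϖ, hϖ, -, -, -⟩ := modWorldEx_pi hq hA
  obtain ⟨X, -⟩ := modWorld_exists_at hWP hq hqM haux hν2 hν3 A hA ϖ hϖ
  exact ⟨X⟩

/-- `AuxLevelOK` from `AuxGood23`. -/
theorem modWorld_levelOK {q M : ℕ} (h : AuxGood23 q M) : AuxLevelOK q M := ⟨h.2.1, h.2.2⟩

/-- **the modular world with a prescribed uniformiser**, from `AuxGood23 q M₀` alone. -/
theorem modWorld_exists_at_aux23 (hq : q.Prime) (hqM : ¬ q ∣ M₀) (hgood : AuxGood23 q M₀)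
    (A : ValuationSubring Qb) (hA : A.LiesOverPrime q)
    [Fact q.Prime] [CharP (IsLocalRing.ResidueField A) q]
    [PerfectRing (IsLocalRing.ResidueField A) q] (ϖ : Qb) (hϖ : ϖ ^ (q + 1) = (q : Qb)) :
    ∃ X : ModWorld M₀ q A,
      X.ϖ = ϖ ∧
        X.S0 = wpdSetup A q M₀ hq hA hqM
          (modWorldEx_hg hq hqM (modWorld_levelOK hgood) hA) ∧
        X.D₀.R = M₀ ∧ HasLattice (valSetupZeroAt X.D₀ X.hM₀ X.Soo) ∧
        ¬ X.Soo.Ov ≤ (valSetupZeroAt X.D₀ X.hM₀ X.Soo).Ov ∧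
        ¬ (valSetupZeroAt X.D₀ X.hM₀ X.Soo).Ov ≤ X.Soo.Ov :=
  modWorld_exists_at
    (wpExistsAt_aux M₀ q (modWorld_levelOK hgood) (auxGood23_nuTwo hgood)
      (auxGood23_nuThree hgood))
    hq hqM (modWorld_levelOK hgood) (auxGood23_nuTwo hgood) (auxGood23_nuThree hgood) A hA ϖ hϖ

/-- **the modular world exists**, from `AuxGood23 q M₀` alone. -/
theorem nonempty_modWorld_aux23 (hq : q.Prime) (hqM : ¬ q ∣ M₀) (hgood : AuxGood23 q M₀)
    (A : ValuationSubring Qb) (hA : A.LiesOverPrime q)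
    [Fact q.Prime] [CharP (IsLocalRing.ResidueField A) q]
    [PerfectRing (IsLocalRing.ResidueField A) q] : Nonempty (ModWorld M₀ q A) :=
  nonempty_modWorld
    (wpExistsAt_aux M₀ q (modWorld_levelOK hgood) (auxGood23_nuTwo hgood)
      (auxGood23_nuThree hgood))
    hq hqM (modWorld_levelOK hgood) (auxGood23_nuTwo hgood) (auxGood23_nuThree hgood) A hA

/-- the `t`-datum of W-P (`WPTDat`, `S36/HPVal/ValAtT.lean`) is the one of SEED-UP
(`UHorDatum`, `S36/Seed/UHorDatum.lean`). -/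
theorem modWorld_uhorDatum_iff {A : ValuationSubring Qb} (t : FBar M₀) :
    WPTDat M₀ A t ↔ UHorDatum A t := Iff.rfl

/-- **the modular world with a prescribed uniformiser and the `t`-datum**, from
`AuxGood23 q M₀` alone: the final export of MG-INST (b). -/
theorem modWorld_exists_atT_aux23 (hq : q.Prime) (hqM : ¬ q ∣ M₀) (hgood : AuxGood23 q M₀)
    (A : ValuationSubring Qb) (hA : A.LiesOverPrime q)
    [Fact q.Prime] [CharP (IsLocalRing.ResidueField A) q]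
    [PerfectRing (IsLocalRing.ResidueField A) q] (ϖ : Qb) (hϖ : ϖ ^ (q + 1) = (q : Qb)) :
    ∃ X : ModWorld M₀ q A,
      X.ϖ = ϖ ∧
        X.S0 = wpdSetup A q M₀ hq hA hqM
          (modWorldEx_hg hq hqM (modWorld_levelOK hgood) hA) ∧
        (∀ P : ModSS A M₀ q, WPTDat M₀ A (X.W.O P).t) ∧
        (∀ P : ModSS A M₀ q, UHorDatum A (X.W.t P)) ∧
        X.D₀.R = M₀ ∧ HasLattice (valSetupZeroAt X.D₀ X.hM₀ X.Soo) ∧
        ¬ X.Soo.Ov ≤ (valSetupZeroAt X.D₀ X.hM₀ X.Soo).Ov ∧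
        ¬ (valSetupZeroAt X.D₀ X.hM₀ X.Soo).Ov ≤ X.Soo.Ov := by
  obtain ⟨W, hW⟩ := wpFamilyT_aux M₀ q (modWorld_levelOK hgood) (auxGood23_nuTwo hgood)
    (auxGood23_nuThree hgood) hq hqM A hA
    (modWorldEx_hg hq hqM (modWorld_levelOK hgood) hA) ϖ hϖ
  obtain ⟨X, h1, h2, h3, h4⟩ := modWorld_exists_of_family hq hqM (auxGood23_nuTwo hgood)
    (auxGood23_nuThree hgood) A hA (isGaussRed_wpdSetup A q M₀ hq hA hqM _) hϖ W
    (fun _ _ W' => ∀ P : ModSS A M₀ q, WPTDat M₀ A (W'.O P).t) hW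
  exact ⟨X, h1, h2, h3, fun P => (modWorld_uhorDatum_iff _).mp (h3 P), h4⟩

/-- **the modular world with the `t`-datum exists**, from `AuxGood23 q M₀` alone. -/
theorem modWorld_existsT_aux23 (hq : q.Prime) (hqM : ¬ q ∣ M₀) (hgood : AuxGood23 q M₀)
    (A : ValuationSubring Qb) (hA : A.LiesOverPrime q)
    [Fact q.Prime] [CharP (IsLocalRing.ResidueField A) q]
    [PerfectRing (IsLocalRing.ResidueField A) q] :
    ∃ X : ModWorld M₀ q A, ∀ P : ModSS A M₀ q, WPTDat M₀ A (X.W.O P).t := by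
  obtain ⟨ϖ, hϖ, -, -, -⟩ := modWorldEx_pi hq hA
  obtain ⟨X, -, -, h, -⟩ := modWorld_exists_atT_aux23 hq hqM hgood A hA ϖ hϖ
  exact ⟨X, h⟩

end Fermat.Agent.S36G
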