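/-
Cluster G (S36, Carayol at `q² ∥ M`), seat MG-INDEP, final form (helper68): the field `indep` of
`BadRedG.GraphCore` / `ModMatchInput` / `ModEndsInput` for the MODULAR family

  `vtxFamily Soo (valSetupZeroAt D hM Soo) Sm (fun P => (O P).S)`      of `F = F_{M₀ q q}`

with NO hypothesis on the pairs left:

* the vertical pairs `(∞, 0)`, `(∞, m)`, `(0, m)` from `S36/G/ModIndep.lean` (VERT-INDEP);
* the pair `(m, m')` is the field `indep` of `IgPack` (hypothesis `h_m_m`);
* the four pairs with a horizontal vertex from helper19's `S36/HPVal/DistFinal.lean`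
  (`O P : WPOut M₀ q A S0r (pt P) (FkP P)`, `pt` injective with supersingular values).

`modIndep_final` is the term for `indep` in MG-INST.  Sorry-free.
-/
import Mathlib
import Fermat.Agent.S36.G.ModIndep
import Fermat.Agent.S36.HPVal.DistFinal

set_option autoImplicit false
set_option linter.style.haveILetI false
set_option linter.unusedSectionVars false
set_option synthInstance.maxHeartbeats 400000

noncomputable section

namespace Fermat.Agent.S36G

open ModularCurve AlgebraicCurve Fermat.Agent.F3 Fermat.Agent.F3G Fermat.Agent.GaussInt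
  Fermat.Agent.AtkinLehner Fermat.Agent.BadRed Fermat.Agent.Deuring Fermat.Agent.Kronecker
  Fermat.Agent.S36N

local notation "Qb" => AlgebraicClosure ℚ

attribute [local instance 10000] SubalgebraClass.toAlgebra HahnSeries.powerSeriesAlgebra

/-- shortcut (the instance found by unification is the same term, after a slow search). -/
local instance (priority := 10000) modIndepFinalAlgFullC (A : ValuationSubring Qb) (N : ℕ) :
    Algebra (IsLocalRing.ResidueField A)
      (modularFunctionFieldFullC (IsLocalRing.ResidueField A) N) :=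
  SubalgebraClass.toAlgebra (modularFunctionFieldFullC (IsLocalRing.ResidueField A) N)

section Final

variable {M₀ q : ℕ} [NeZero M₀] [NeZero q] (hq : q.Prime) (hqM : ¬ q ∣ M₀)
  (haux : AuxLevelOK q M₀)
  (A : ValuationSubring Qb) (hA : A.LiesOverPrime q)
  {N₂ : ℕ} [NeZero N₂]
  (Soo : ValSetup Qb (FBar (M₀ * q * q)) (IsLocalRing.ResidueField A)
    (modularFunctionFieldFullC (IsLocalRing.ResidueField A) N₂))
  (hoo : IsGaussSetup (M₀ * q * q) N₂ A Soo)
  (D : ALData) (hDQ : D.Q = q ^ 2) (hM : M₀ * q * q = D.Q * D.R)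
  {Mid SS : Type}
  {FkM : Mid → Type} [∀ m, Field (FkM m)] [∀ m, Algebra (IsLocalRing.ResidueField A) (FkM m)]
  {FkP : SS → Type} [∀ P, Field (FkP P)] [∀ P, Algebra (IsLocalRing.ResidueField A) (FkP P)]
  (Sm : ∀ m, ValSetup Qb (FBar (M₀ * q * q)) (IsLocalRing.ResidueField A) (FkM m))
  (z : Mid → Qbˣ)
  (ε : Mid → (↥(modularFunctionFieldBar (M₀ * q * q)) →ₐ[Qb] LaurentSeries Qb))
  (hz : ∀ m, IsPrimitiveRoot (z m) q) (hε : ∀ m, IsMidExp M₀ q (z m) (ε m))
  (hSm : ∀ (m : Mid) (f : FBar (M₀ * q * q)), f ∈ (Sm m).Ov ↔ f ∈ expOv (ε m) A)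
  (hAm : ∀ m, (Sm m).A = A)
  (h_m_m : ∀ m m', m ≠ m' → ¬ (Sm m).Ov ≤ (Sm m').Ov)
  {S0r : Fermat.Agent.S18Key.RedSetup Qb (FBar M₀) (IsLocalRing.ResidueField A)
    ↥(modularFunctionFieldFullC (IsLocalRing.ResidueField A) M₀)}
  (hS0 : IsGaussRed M₀ A S0r)
  (pt : SS → Place (IsLocalRing.ResidueField A)
    ↥(modularFunctionFieldFullC (IsLocalRing.ResidueField A) M₀))
  (hpt : Function.Injective pt)
  (hss : ∀ P, IsSSPlace (IsLocalRing.ResidueField A) M₀ q (pt P))
  (O : ∀ P, WPOut M₀ q A S0r (pt P) (FkP P))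

include hA hoo hS0 in
/-- **the pair `(∞, P)`**. -/
theorem modIndep_oo_hor (P : SS) : ¬ Soo.Ov ≤ (O P).S.Ov :=
  (distFinal_inf_hor (O P) hS0 hA hoo).1

include hq hA hoo hDQ hS0 in
/-- **the pair `(0, P)`**. -/
theorem modIndep_zero_hor (P : SS) : ¬ (valSetupZeroAt D hM Soo).Ov ≤ (O P).S.Ov := by
  haveI : NeZero D.Q := ⟨D.hQ.ne'⟩
  haveI : NeZero D.R := ⟨D.hR.ne'⟩
  haveI : NeZero (D.Q * D.R) := ⟨(Nat.mul_pos D.hQ D.hR).ne'⟩
  exact (distFinal_zero_hor (O P) hS0 hA hoo D hM (modIndep_R_eq hq D hDQ hM).symm).1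

include hA hε hSm hAm hS0 in
/-- **the pair `(m, P)`**. -/
theorem modIndep_mid_hor (m : Mid) (P : SS) : ¬ (Sm m).Ov ≤ (O P).S.Ov :=
  (distFinal_mid_hor (O P) hS0 hA (Sm m) (hAm m) (hε m) (hSm m)).1

include hq hqM haux hA hS0 hpt hss in
/-- **the pair `(P, P')`**. -/
theorem modIndep_hor_hor (P P' : SS) (hne : P ≠ P') : ¬ (O P).S.Ov ≤ (O P').S.Ov :=
  (distFinal_hor_hor hS0 hq hqM haux hA (hss P) (hss P') (fun h => hne (hpt h)) (O P) (O P')).1

include hq hqM haux hA hoo hDQ hz hε hSm hAm h_m_m hS0 hpt hss in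
/-- **`indep` of the modular family**, all pairs. -/
theorem modIndep_final (c c' : Vtx Mid SS) (hne : c ≠ c') :
    ¬ (vtxFamily Soo (valSetupZeroAt D hM Soo) Sm (fun P => (O P).S) c).Ov ≤
      (vtxFamily Soo (valSetupZeroAt D hM Soo) Sm (fun P => (O P).S) c').Ov :=
  modIndep hq hqM A hA Soo hoo D hDQ hM Sm z ε hz hε hSm hAm (fun P => (O P).S)
    (fun P => (O P).A_eq) h_m_m
    (fun P => modIndep_oo_hor A hA Soo hoo hS0 pt O P)
    (fun P => modIndep_zero_hor hq A hA Soo hoo D hDQ hM hS0 pt O P)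
    (fun m P => modIndep_mid_hor A hA Sm z ε hε hSm hAm hS0 pt O m P)
    (fun P P' h => modIndep_hor_hor hq hqM haux A hA hS0 pt hpt hss O P P' h)
    c c' hne

end Final

end Fermat.Agent.S36G
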