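/-
Cluster G (S36, bad reduction at `q² ∥ M`), MG-INST, the **MNData block** (helper82;
integrator helper40): the three multi-node data `DA`, `D1`, `D2` of `ModEndsInput`
(`S36/G/SeedInput.lean`, `modEndsOfLeaves` of `S36/G/EndsOfLeaves.lean`) at the level
`M₀ * q * q`, for ONE uniformiser `ϖ` of the stable field (`ϖ ^ (q + 1) = q`):

* `ϖ_A = ϖ ^ (12 q)`, `ϖ₁ = ϖ ^ 12`, `ϖ₂ = q ^ 12 / ϖ₁ (= ϖ ^ (12 q))`;
* `u_A = u₂ = uF2 (M₀ q²) q`, `u₁ = uF (M₀ q²) q`, `u₂' = u₁ / ϖ₁`.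

Inputs: the family `S` (Gauss setup at `∞`, `S 0 = valSetupZeroAt`, middle setups), the curves
`H P`, the two SEED-UP reductions `EndsRedA` (`red_P (ϖ_A / u_A) = c X₂ ^ 12`) and `EndsRed2`
(`red_P (u₁ / ϖ₁) = c X₁ ^ 12`), and the mass inequality.

* `modMN_pi_ne`, `modMN_pi_mem`, `modMN_pow_mem`, `modMN_pow_res`, `modMN_q12_div` : the
  arithmetic of `ϖ`;
* `modMN_DA`, `modMN_D1`, `modMN_D2` (`modMN_D2'` with `ϖ₂ = ϖ ^ (12 q)`) : the three `MNData`.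
-/
import Mathlib
import Fermat.Agent.S36.Seed.MNAtRed
import Fermat.Agent.S36.Seed.MN1Mod

set_option autoImplicit false
set_option linter.style.haveILetI false
set_option linter.unusedSectionVars false
set_option linter.unusedVariables false
set_option synthInstance.maxHeartbeats 400000

noncomputable section

namespace Fermat.Agent.S36G

open IntermediateField ModularCurve AlgebraicCurve Fermat.Agent.GaussInt Fermat.Agent.AtkinLehner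
  Fermat.Agent.Deuring Fermat.Agent.S28 Fermat.Agent.F3 Fermat.Agent.F3G Fermat.Agent.BadRed
  Fermat.Agent.RR Fermat.Agent.BadRedG Fermat.Agent.HP

local notation "Qb" => AlgebraicClosure ℚ

attribute [local instance 10000] SubalgebraClass.toAlgebra HahnSeries.powerSeriesAlgebra

/-! ### the arithmetic of `ϖ`, `ϖ ^ (q + 1) = q` -/

section Pi

variable {A : ValuationSubring Qb} {q : ℕ}

theorem modMN_pi_ne (hq : q.Prime) {ϖ : Qb} (hϖ : ϖ ^ (q + 1) = (q : Qb)) : ϖ ≠ 0 := by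
  rintro rfl
  rw [zero_pow (Nat.succ_ne_zero q)] at hϖ
  exact (Nat.cast_ne_zero.mpr hq.ne_zero : (q : Qb) ≠ 0) hϖ.symm

theorem modMN_natCast_mem (A : ValuationSubring Qb) (n : ℕ) : (n : Qb) ∈ A := by
  have h : ((n : A) : Qb) = (n : Qb) := by push_cast; rfl
  rw [← h]
  exact (n : A).2

theorem modMN_pi_inv_notMem (hq : q.Prime) (hA : A.LiesOverPrime q) {ϖ : Qb}
    (hϖ : ϖ ^ (q + 1) = (q : Qb)) : ϖ⁻¹ ∉ A := by
  have hq0 : (q : Qb) ≠ 0 := Nat.cast_ne_zero.mpr hq.ne_zero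
  have hqinv : (q : Qb)⁻¹ ∉ A := by
    have h2 : (q : Qb) ∈ A.nonunits := hA
    rw [ValuationSubring.mem_nonunits_iff_or] at h2
    exact h2.resolve_left hq0
  intro hinv
  apply hqinv
  rw [← hϖ, ← inv_pow]
  exact pow_mem hinv _

theorem modMN_pi_mem (hq : q.Prime) (hA : A.LiesOverPrime q) {ϖ : Qb}
    (hϖ : ϖ ^ (q + 1) = (q : Qb)) : ϖ ∈ A :=
  (A.mem_or_inv_mem ϖ).resolve_right (modMN_pi_inv_notMem hq hA hϖ)

theorem modMN_pow_ne (hq : q.Prime) {ϖ : Qb} (hϖ : ϖ ^ (q + 1) = (q : Qb)) (n : ℕ) :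
    ϖ ^ n ≠ 0 :=
  pow_ne_zero n (modMN_pi_ne hq hϖ)

theorem modMN_pow_mem (hq : q.Prime) (hA : A.LiesOverPrime q) {ϖ : Qb}
    (hϖ : ϖ ^ (q + 1) = (q : Qb)) (n : ℕ) : ϖ ^ n ∈ A :=
  pow_mem (modMN_pi_mem hq hA hϖ) n

theorem modMN_res_eq_zero {x : Qb} (h : x ∈ A) (hinv : x⁻¹ ∉ A) :
    IsLocalRing.residue A ⟨x, h⟩ = 0 := by
  rw [IsLocalRing.residue_eq_zero_iff, ← ValuationSubring.coe_mem_nonunits_iff,
    ValuationSubring.mem_nonunits_iff_or]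
  exact Or.inr hinv

theorem modMN_pow_inv_notMem (hq : q.Prime) (hA : A.LiesOverPrime q) {ϖ : Qb}
    (hϖ : ϖ ^ (q + 1) = (q : Qb)) {n : ℕ} (hn : n ≠ 0) : (ϖ ^ n)⁻¹ ∉ A := by
  intro hinv
  apply modMN_pi_inv_notMem hq hA hϖ
  obtain ⟨m, rfl⟩ := Nat.exists_eq_succ_of_ne_zero hn
  have h1 : ϖ⁻¹ = (ϖ ^ (m + 1))⁻¹ * ϖ ^ m := by
    have h0 : ϖ ≠ 0 := modMN_pi_ne hq hϖ
    have hm0 : ϖ ^ m ≠ 0 := modMN_pow_ne hq hϖ m
    field_simp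
    rw [pow_succ, mul_comm]
  rw [h1]
  exact A.mul_mem _ _ hinv (modMN_pow_mem hq hA hϖ m)

theorem modMN_pow_res (hq : q.Prime) (hA : A.LiesOverPrime q) {ϖ : Qb}
    (hϖ : ϖ ^ (q + 1) = (q : Qb)) {n : ℕ} (hn : n ≠ 0) (h : ϖ ^ n ∈ A) :
    IsLocalRing.residue A ⟨ϖ ^ n, h⟩ = 0 :=
  modMN_res_eq_zero h (modMN_pow_inv_notMem hq hA hϖ hn)

/-- `q ^ 12 / ϖ ^ 12 = ϖ ^ (12 q)`. -/
theorem modMN_q12_div (hq : q.Prime) {ϖ : Qb} (hϖ : ϖ ^ (q + 1) = (q : Qb)) :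
    (q : Qb) ^ 12 / ϖ ^ 12 = ϖ ^ (12 * q) := by
  rw [div_eq_iff (modMN_pow_ne hq hϖ 12), ← hϖ, ← pow_mul, ← pow_add]
  congr 1
  ring

end Pi

/-! ### the three multi-node data -/

section MN

variable (D : ALData) (M₀ q : ℕ) [NeZero M₀] [NeZero q] {A : ValuationSubring Qb}
  {Mid SS : Type} [Fintype Mid] [Fintype SS]
  {FkP : SS → Type} [∀ P, Field (FkP P)] [∀ P, Algebra (IsLocalRing.ResidueField A) (FkP P)]
  (S : ∀ c : Vtx Mid SS, ValSetup Qb (FBar (M₀ * q * q)) (IsLocalRing.ResidueField A)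
    (FkOf (modularFunctionFieldFullC (IsLocalRing.ResidueField A) M₀)
      (fun _ : Mid => ↥(igField (IsLocalRing.ResidueField A) M₀)) FkP c))

/-- **`DA`**: `MNData S {∞} {hor P} u₂ (ϖ ^ (12 q))`. -/
theorem modMN_DA [Nonempty SS] (hM : M₀ * q * q = D.Q * D.R) (hR : M₀ = D.R)
    (hQ : q * q = D.Q) (hq : q.Prime) (hqM : ¬ q ∣ M₀) (hA : A.LiesOverPrime q)
    (hAeq : ∀ c c' : Vtx Mid SS, (S c).A = (S c').A)
    (hres : ∀ (c c' : Vtx Mid SS) (x : Qb) (h : x ∈ (S c).A) (h' : x ∈ (S c').A),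
      (S c).res ⟨x, h⟩ = (S c').res ⟨x, h'⟩)
    (hindep : ∀ c c' : Vtx Mid SS, c ≠ c' → ¬ (S c).Ov ≤ (S c').Ov)
    (hoo : IsGaussSetup (M₀ * q * q) M₀ A (S (Vtx.vert Vrt.oo)))
    {ϖ : Qb} (hϖ : ϖ ^ (q + 1) = (q : Qb))
    (H : ∀ P : SS, HPCurve (IsLocalRing.ResidueField A)
      (FkOf (modularFunctionFieldFullC (IsLocalRing.ResidueField A) M₀)
        (fun _ : Mid => ↥(igField (IsLocalRing.ResidueField A) M₀)) FkP (Vtx.hor P)) q)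
    (hxA : EndsRedA S H (algebraMap Qb (FBar (M₀ * q * q)) (ϖ ^ (12 * q)) /
      uF2 (M₀ * q * q) q (umid_dvd2 M₀ q)))
    (hmass : (q - 1) * dedekindPsi M₀ ≤ 12 * Fintype.card SS) :
    MNData S {Vtx.vert Vrt.oo} (mn1V₂ Mid SS) (uF2 (M₀ * q * q) q (umid_dvd2 M₀ q))
      (ϖ ^ (12 * q)) :=
  mnA_data_at_of_red D q S hM hR hQ hq hqM hA hAeq hres hindep hoo (umid_dvd2 M₀ q)
    (modMN_pow_ne hq hϖ _) (modMN_pow_mem hq hA hϖ _)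
    (modMN_pow_res hq hA hϖ (Nat.mul_ne_zero (by norm_num) hq.ne_zero) _) H hxA hmass

/-- **`D1`**: `MNData S ({∞} ∪ Mid) {hor P} u₁ (ϖ ^ 12)`. -/
theorem modMN_D1 [Nonempty SS] (hq : q.Prime) (hqM : ¬ q ∣ M₀) (hA : A.LiesOverPrime q)
    (hAeq : ∀ c c' : Vtx Mid SS, (S c).A = (S c').A)
    (hres : ∀ (c c' : Vtx Mid SS) (x : Qb) (h : x ∈ (S c).A) (h' : x ∈ (S c').A),
      (S c).res ⟨x, h⟩ = (S c').res ⟨x, h'⟩)
    (hindep : ∀ c c' : Vtx Mid SS, c ≠ c' → ¬ (S c).Ov ≤ (S c').Ov)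
    (hoo : IsGaussSetup (M₀ * q * q) M₀ A (S (Vtx.vert Vrt.oo)))
    {z : Mid → Qbˣ} {ε : Mid → (↥(modularFunctionFieldBar (M₀ * q * q)) →ₐ[Qb] LaurentSeries Qb)}
    (hε : ∀ m, IsMidExp M₀ q (z m) (ε m))
    (hmid : ∀ m, IsMidSetup M₀ q A (ε m) (S (Vtx.vert (Vrt.mid m))))
    (hcard : Fintype.card Mid = midCard q)
    (hIg : IntermediateField.relfinrank
      (modularFunctionFieldFullC (IsLocalRing.ResidueField A) M₀)
      (igField (IsLocalRing.ResidueField A) M₀) = midDeg q)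
    {ϖ : Qb} (hϖ : ϖ ^ (q + 1) = (q : Qb))
    (H : ∀ P : SS, HPCurve (IsLocalRing.ResidueField A)
      (FkOf (modularFunctionFieldFullC (IsLocalRing.ResidueField A) M₀)
        (fun _ : Mid => ↥(igField (IsLocalRing.ResidueField A) M₀)) FkP (Vtx.hor P)) q)
    (hx2 : EndsRed2 S H (uF (M₀ * q * q) q (umid_dvd1 M₀ q) /
      algebraMap Qb (FBar (M₀ * q * q)) (ϖ ^ 12)))
    (hmass : (q - 1) * dedekindPsi M₀ ≤ 12 * Fintype.card SS) :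
    MNData S (mn1V₁ Mid SS) (mn1V₂ Mid SS) (uF (M₀ * q * q) q (umid_dvd1 M₀ q)) (ϖ ^ 12) := by
  have hx1 : EndsRed1 S H (algebraMap Qb (FBar (M₀ * q * q)) (ϖ ^ 12) /
      uF (M₀ * q * q) q (umid_dvd1 M₀ q)) := by
    have h := hx2.inv
    rwa [inv_div] at h
  exact mn1_data_mod_of_red M₀ q S hq hqM hA hAeq hres hindep hoo hε hmid hcard hIg
    (modMN_pow_ne hq hϖ _) (modMN_pow_mem hq hA hϖ _)
    (modMN_pow_res hq hA hϖ (by norm_num) _) H hx1 hmass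

/-- **`D2`**: `MNData S {hor P} {0} (u₁ / ϖ ^ 12) (q ^ 12 / ϖ ^ 12)`. -/
theorem modMN_D2 [Nonempty SS] (hM : M₀ * q * q = D.Q * D.R) (hR : M₀ = D.R)
    (hQ : q * q = D.Q) (hq : q.Prime) (hqM : ¬ q ∣ M₀) (hA : A.LiesOverPrime q)
    (hAeq : ∀ c c' : Vtx Mid SS, (S c).A = (S c').A)
    (hres : ∀ (c c' : Vtx Mid SS) (x : Qb) (h : x ∈ (S c).A) (h' : x ∈ (S c').A),
      (S c).res ⟨x, h⟩ = (S c').res ⟨x, h'⟩)
    (hindep : ∀ c c' : Vtx Mid SS, c ≠ c' → ¬ (S c).Ov ≤ (S c').Ov)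
    (hoo : IsGaussSetup (M₀ * q * q) M₀ A (S (Vtx.vert Vrt.oo)))
    (hzero : S (Vtx.vert Vrt.zero) = valSetupZeroAt D hM (S (Vtx.vert Vrt.oo)))
    {ϖ : Qb} (hϖ : ϖ ^ (q + 1) = (q : Qb))
    (H : ∀ P : SS, HPCurve (IsLocalRing.ResidueField A)
      (FkOf (modularFunctionFieldFullC (IsLocalRing.ResidueField A) M₀)
        (fun _ : Mid => ↥(igField (IsLocalRing.ResidueField A) M₀)) FkP (Vtx.hor P)) q)
    (hx2 : EndsRed2 S H (uF (M₀ * q * q) q (umid_dvd1 M₀ q) /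
      algebraMap Qb (FBar (M₀ * q * q)) (ϖ ^ 12)))
    (hmass : (q - 1) * dedekindPsi M₀ ≤ 12 * Fintype.card SS) :
    MNData S (mn1V₂ Mid SS) {Vtx.vert Vrt.zero}
      (uF (M₀ * q * q) q (umid_dvd1 M₀ q) / algebraMap Qb (FBar (M₀ * q * q)) (ϖ ^ 12))
      ((q : Qb) ^ 12 / ϖ ^ 12) := by
  have hm : (q : Qb) ^ 12 / ϖ ^ 12 ∈ A := by
    rw [modMN_q12_div hq hϖ]
    exact modMN_pow_mem hq hA hϖ _
  have hr : IsLocalRing.residue A ⟨(q : Qb) ^ 12 / ϖ ^ 12, hm⟩ = 0 := by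
    refine modMN_res_eq_zero hm ?_
    rw [modMN_q12_div hq hϖ]
    exact modMN_pow_inv_notMem hq hA hϖ (Nat.mul_ne_zero (by norm_num) hq.ne_zero)
  exact mn2_data_at_of_red D q S hM hR hQ hq hqM hA hAeq hres hindep hoo hzero (umid_dvd1 M₀ q)
    (modMN_pow_ne hq hϖ _) hm hr H hx2 hmass

/-- **`D2`, with `ϖ₂ = ϖ ^ (12 q)`**. -/
theorem modMN_D2' [Nonempty SS] (hM : M₀ * q * q = D.Q * D.R) (hR : M₀ = D.R)
    (hQ : q * q = D.Q) (hq : q.Prime) (hqM : ¬ q ∣ M₀) (hA : A.LiesOverPrime q)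
    (hAeq : ∀ c c' : Vtx Mid SS, (S c).A = (S c').A)
    (hres : ∀ (c c' : Vtx Mid SS) (x : Qb) (h : x ∈ (S c).A) (h' : x ∈ (S c').A),
      (S c).res ⟨x, h⟩ = (S c').res ⟨x, h'⟩)
    (hindep : ∀ c c' : Vtx Mid SS, c ≠ c' → ¬ (S c).Ov ≤ (S c').Ov)
    (hoo : IsGaussSetup (M₀ * q * q) M₀ A (S (Vtx.vert Vrt.oo)))
    (hzero : S (Vtx.vert Vrt.zero) = valSetupZeroAt D hM (S (Vtx.vert Vrt.oo)))
    {ϖ : Qb} (hϖ : ϖ ^ (q + 1) = (q : Qb))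
    (H : ∀ P : SS, HPCurve (IsLocalRing.ResidueField A)
      (FkOf (modularFunctionFieldFullC (IsLocalRing.ResidueField A) M₀)
        (fun _ : Mid => ↥(igField (IsLocalRing.ResidueField A) M₀)) FkP (Vtx.hor P)) q)
    (hx2 : EndsRed2 S H (uF (M₀ * q * q) q (umid_dvd1 M₀ q) /
      algebraMap Qb (FBar (M₀ * q * q)) (ϖ ^ 12)))
    (hmass : (q - 1) * dedekindPsi M₀ ≤ 12 * Fintype.card SS) :
    MNData S (mn1V₂ Mid SS) {Vtx.vert Vrt.zero}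
      (uF (M₀ * q * q) q (umid_dvd1 M₀ q) / algebraMap Qb (FBar (M₀ * q * q)) (ϖ ^ 12))
      (ϖ ^ (12 * q)) := by
  have h := modMN_D2 D M₀ q S hM hR hQ hq hqM hA hAeq hres hindep hoo hzero hϖ H hx2 hmass
  rwa [modMN_q12_div hq hϖ] at h

end MN

end Fermat.Agent.S36G
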