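/-
Cluster G (S36, bad reduction at `q² ∥ M`), junction MG-INST, part (c): **the leaves of
`ModWorld.ends` discharged** (helper92; integrator helper40, architect helper80).

`X : ModWorld M₀ q A` (`S36/G/ModularGraphInst.lean`), `pv := sevModPv` (`S36/Seed/EndsVertMod.lean`).

* `mge_hQ`, `mge_hR`           : `q * q = D₀.Q`, `M₀ = D₀.R`;
* `mge_Aeq`, `mge_res_eq`      : the constants of the components (`S36/G/ModCore.lean`);
* `mge_indep`                  : the constant reductions of the modular graph are pairwise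
                                 incomparable (`modIndep_final`);
* `mge_hmass`, `mge_hIg`       : the mass inequality, the degree of the Igusa cover;
* `mge_DA`, `mge_D1`, `mge_D2` : the three `MNData` (`S36/G/ModMN.lean`) from `EndsRedA`, `EndsRed2`;
* `mge_sepA`, `mge_sep1`, `mge_sep2` : the separating functions (`S36/Seed/Sep.lean`,
                                 `S36/Seed/Sep2Mod.lean`, `S36/Seed/MidPtBridge.lean`);
* `ModWorld.endsOfUp`          : `X.ends` with `pv`, `pv_inj`, `DA`, `D1`, `D2`, `sepA`, `sep1`,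
                                 `sep2` discharged (inputs: `EndsRedA`, `EndsRed2` and the eight
                                 vertical fields).
-/
import Mathlib
import Fermat.Agent.S36.G.ModularGraphInst
import Fermat.Agent.S36.G.ModMN
import Fermat.Agent.S36.G.ModIndepFinal
import Fermat.Agent.S36.G.ModCore
import Fermat.Agent.S36.Seed.Sep
import Fermat.Agent.S36.Seed.Sep2Mod
import Fermat.Agent.S36.Seed.MidPtBridge
import Fermat.Agent.S36.Seed.EndsVertMod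
import Fermat.Agent.S36.Igusa.Final

set_option autoImplicit false
set_option linter.style.haveILetI false
set_option linter.unusedSectionVars false
set_option linter.unusedVariables false
set_option synthInstance.maxHeartbeats 400000
set_option maxHeartbeats 1600000

noncomputable section

namespace Fermat.Agent.S36G

open IntermediateField ModularCurve AlgebraicCurve Fermat.Agent.F3 Fermat.Agent.F3G
  Fermat.Agent.GaussInt Fermat.Agent.AtkinLehner Fermat.Agent.Kronecker Fermat.Agent.BadRed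
  Fermat.Agent.BadRedG Fermat.Agent.Deuring Fermat.Agent.RR Fermat.Agent.HP Fermat.Agent.HPVal

local notation "Qb" => AlgebraicClosure ℚ

attribute [local instance 10000] SubalgebraClass.toAlgebra HahnSeries.powerSeriesAlgebra

section Leaves

variable {M₀ q : ℕ} [NeZero M₀] [NeZero q] {A : ValuationSubring Qb}
  [Fact q.Prime] [CharP (IsLocalRing.ResidueField A) q]
  [PerfectRing (IsLocalRing.ResidueField A) q] (X : ModWorld M₀ q A)

/-- `q * q = D₀.Q`. -/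
theorem mge_hQ : q * q = X.D₀.Q := by
  rw [X.hD₀, pow_two]

/-- `M₀ = D₀.R`. -/
theorem mge_hR (hq : q.Prime) : M₀ = X.D₀.R :=
  (modIndep_R_eq hq X.D₀ X.hD₀ X.hM₀).symm

/-- `D₀.Q ≠ 0`. -/
theorem mge_neZero_Q (hq : q.Prime) : NeZero X.D₀.Q :=
  ⟨by rw [X.hD₀]; exact pow_ne_zero 2 hq.ne_zero⟩

/-- **`A_eq`**: the valuation ring of the constants is the same on every component. -/
theorem mge_Aeq (c c' : Vtx (Fin (midCard q)) (ModSS A M₀ q)) : (X.S c).A = (X.S c').A :=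
  modCore_A_eq X.Soo X.D₀ X.hM₀ X.I.S X.W.O X.I.ε X.hSoo X.I.isMidSetup c c'

/-- **`res_eq`**: the residue map of the constants is the same on every component. -/
theorem mge_res_eq (c c' : Vtx (Fin (midCard q)) (ModSS A M₀ q)) (x : Qb)
    (h : x ∈ (X.S c).A) (h' : x ∈ (X.S c').A) : (X.S c).res ⟨x, h⟩ = (X.S c').res ⟨x, h'⟩ :=
  modCore_res_eq X.Soo X.D₀ X.hM₀ X.I.S X.W.O X.I.ε X.hSoo X.I.isMidSetup c c' x h h'

/-- **the constant reductions of the modular graph are pairwise incomparable.** -/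
theorem mge_indep (hq : q.Prime) (hqM : ¬ q ∣ M₀) (hA : A.LiesOverPrime q)
    (haux : AuxLevelOK q M₀) (c c' : Vtx (Fin (midCard q)) (ModSS A M₀ q)) (hne : c ≠ c') :
    ¬ (X.S c).Ov ≤ (X.S c').Ov :=
  modIndep_final hq hqM haux A hA X.Soo X.hSoo X.D₀ X.hD₀ X.hM₀ X.I.S X.I.z X.I.ε X.I.prim
    X.I.isMidExp (fun m f => (X.I.isMidSetup m).mem_iff f) (fun m => (X.I.isMidSetup m).A_eq)
    X.I.indep X.hS0 ModSS.place ModSS.place_injective ModSS.isSS X.W.O c c' hne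

/-- **the mass inequality** `(q - 1) ψ(M₀) ≤ 12 |SS|`. -/
theorem mge_hmass [Fintype (ModSS A M₀ q)] (hq : q.Prime) (hqM : ¬ q ∣ M₀)
    (hA : A.LiesOverPrime q) (haux : AuxLevelOK q M₀) (hν2 : nuTwo M₀ = 0)
    (hν3 : nuThree M₀ = 0) :
    (q - 1) * dedekindPsi M₀ ≤ 12 * Fintype.card (ModSS A M₀ q) :=
  modSS_card_ge hq hqM hν2 hν3 haux.1 haux.2 hA

/-- **the degree of the Igusa cover.** -/
theorem mge_hIg (hq : q.Prime) (hqM : ¬ q ∣ M₀) (hA : A.LiesOverPrime q)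
    (hν2 : nuTwo M₀ = 0) (hν3 : nuThree M₀ = 0) :
    IntermediateField.relfinrank
      (modularFunctionFieldFullC (IsLocalRing.ResidueField A) M₀)
      (igField (IsLocalRing.ResidueField A) M₀) = midDeg q :=
  igDegreeRes_aux M₀ q hν2 hν3 hq hqM A hA

variable [Fintype (ModSS A M₀ q)]

/-- **`DA`**. -/
theorem mge_DA (hq : q.Prime) (hqM : ¬ q ∣ M₀) (hA : A.LiesOverPrime q)
    (haux : AuxLevelOK q M₀) (hν2 : nuTwo M₀ = 0) (hν3 : nuThree M₀ = 0)
    (hxA : EndsRedA X.S (fun P => (X.W.O P).H)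
      (algebraMap Qb (FBar (M₀ * q * q)) (X.ϖ ^ (12 * q)) / ModWorld.uA M₀ q)) :
    MNData X.S {Vtx.vert Vrt.oo} (mn1V₂ (Fin (midCard q)) (ModSS A M₀ q))
      (ModWorld.uA M₀ q) (X.ϖ ^ (12 * q)) :=
  haveI : Nonempty (ModSS A M₀ q) := modSS_nonempty hq hqM hν2 hν3 haux.1 haux.2 hA
  modMN_DA X.D₀ M₀ q X.S X.hM₀ (mge_hR X hq) (mge_hQ X) hq hqM hA (mge_Aeq X) (mge_res_eq X)
    (mge_indep X hq hqM hA haux) X.hSoo X.hϖ (fun P => (X.W.O P).H) hxA
    (mge_hmass hq hqM hA haux hν2 hν3)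

/-- **`D1`**. -/
theorem mge_D1 (hq : q.Prime) (hqM : ¬ q ∣ M₀) (hA : A.LiesOverPrime q)
    (haux : AuxLevelOK q M₀) (hν2 : nuTwo M₀ = 0) (hν3 : nuThree M₀ = 0)
    (hx2 : EndsRed2 X.S (fun P => (X.W.O P).H)
      (ModWorld.u1 M₀ q / algebraMap Qb (FBar (M₀ * q * q)) (X.ϖ ^ 12))) :
    MNData X.S (mn1V₁ (Fin (midCard q)) (ModSS A M₀ q))
      (mn1V₂ (Fin (midCard q)) (ModSS A M₀ q)) (ModWorld.u1 M₀ q) (X.ϖ ^ 12) :=
  haveI : Nonempty (ModSS A M₀ q) := modSS_nonempty hq hqM hν2 hν3 haux.1 haux.2 hA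
  modMN_D1 M₀ q X.S hq hqM hA (mge_Aeq X) (mge_res_eq X) (mge_indep X hq hqM hA haux) X.hSoo
    X.I.isMidExp X.I.isMidSetup (Fintype.card_fin _) (mge_hIg hq hqM hA hν2 hν3) X.hϖ
    (fun P => (X.W.O P).H) hx2 (mge_hmass hq hqM hA haux hν2 hν3)

/-- **`D2`**. -/
theorem mge_D2 (hq : q.Prime) (hqM : ¬ q ∣ M₀) (hA : A.LiesOverPrime q)
    (haux : AuxLevelOK q M₀) (hν2 : nuTwo M₀ = 0) (hν3 : nuThree M₀ = 0)
    (hx2 : EndsRed2 X.S (fun P => (X.W.O P).H)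
      (ModWorld.u1 M₀ q / algebraMap Qb (FBar (M₀ * q * q)) (X.ϖ ^ 12))) :
    MNData X.S (mn1V₂ (Fin (midCard q)) (ModSS A M₀ q)) {Vtx.vert Vrt.zero}
      (ModWorld.u1 M₀ q / algebraMap Qb (FBar (M₀ * q * q)) (X.ϖ ^ 12))
      ((q : Qb) ^ 12 / X.ϖ ^ 12) :=
  haveI : Nonempty (ModSS A M₀ q) := modSS_nonempty hq hqM hν2 hν3 haux.1 haux.2 hA
  modMN_D2 X.D₀ M₀ q X.S X.hM₀ (mge_hR X hq) (mge_hQ X) hq hqM hA (mge_Aeq X) (mge_res_eq X)
    (mge_indep X hq hqM hA haux) X.hSoo rfl X.hϖ (fun P => (X.W.O P).H) hx2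
    (mge_hmass hq hqM hA haux hν2 hν3)

variable [IsAlgClosed (IsLocalRing.ResidueField A)]

/-- **`sepA`**, `pv := sevModPv`. -/
theorem mge_sepA (hq : q.Prime) (hqM : ¬ q ∣ M₀) (hA : A.LiesOverPrime q)
    (haux : AuxLevelOK q M₀) :
    ∀ P : ModSS A M₀ q, ∃ g ∈ ncAdm X.S {Vtx.vert Vrt.oo}
        (mn1V₂ (Fin (midCard q)) (ModSS A M₀ q)) (ModWorld.uA M₀ q),
      ValAt (sevModPv M₀ q hq hqM (Fin (midCard q)) X.W.FkP P Vrt.oo)
          ((X.S (Vtx.vert Vrt.oo)).red g) 1 ∧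
        ∀ P' : ModSS A M₀ q, P' ≠ P → (X.S (Vtx.hor P')).red g = 0 :=
  sep_sepA_mod (S := X.S) (pv := sevModPv M₀ q hq hqM (Fin (midCard q)) X.W.FkP)
    (ssPlace := ModSS.place) hq hA hqM haux X.hSoo ModSS.isSS ModSS.place_injective
    (fun _ => rfl) X.hS0 X.W.O (fun _ => rfl) (umid_dvd2 M₀ q)

/-- **`sep1`**, `pv := sevModPv`. -/
theorem mge_sep1 (hq : q.Prime) (hqM : ¬ q ∣ M₀) (hA : A.LiesOverPrime q)
    (haux : AuxLevelOK q M₀) :
    ∀ (P : ModSS A M₀ q) (m : Fin (midCard q)),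
      ∃ g ∈ ncAdm X.S (mn1V₁ (Fin (midCard q)) (ModSS A M₀ q))
          (mn1V₂ (Fin (midCard q)) (ModSS A M₀ q)) (ModWorld.u1 M₀ q) ∩
        ncAdm X.S {Vtx.vert Vrt.oo} (mn1V₂ (Fin (midCard q)) (ModSS A M₀ q))
          (ModWorld.uA M₀ q),
      ValAt (sevModPv M₀ q hq hqM (Fin (midCard q)) X.W.FkP P (Vrt.mid m))
          ((X.S (Vtx.vert (Vrt.mid m))).red g) 1 ∧
        ∀ P' : ModSS A M₀ q, P' ≠ P → (X.S (Vtx.hor P')).red g = 0 :=
  sep_sep1_mod (S := X.S) (pv := sevModPv M₀ q hq hqM (Fin (midCard q)) X.W.FkP)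
    (ssPlace := ModSS.place) hq hA hqM haux X.hSoo ModSS.isSS ModSS.place_injective
    X.hS0 X.W.O (fun _ => rfl) X.I.isMidExp X.I.isMidSetup
    (fun P _ => seedBr_sevMidPt_placeOver M₀ q hq hqM (IsLocalRing.ResidueField A) P.place)
    (umid_dvd1 M₀ q) (umid_dvd2 M₀ q)

/-- **`sep2`**, `pv := sevModPv`. -/
theorem mge_sep2 (hq : q.Prime) (hqM : ¬ q ∣ M₀) (hA : A.LiesOverPrime q)
    (haux : AuxLevelOK q M₀) :
    ∀ P : ModSS A M₀ q, ∃ g ∈ ncAdm X.S (mn1V₂ (Fin (midCard q)) (ModSS A M₀ q))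
        {Vtx.vert Vrt.zero}
        (ModWorld.u1 M₀ q / algebraMap Qb (FBar (M₀ * q * q)) (X.ϖ ^ 12)),
      ValAt (sevModPv M₀ q hq hqM (Fin (midCard q)) X.W.FkP P Vrt.zero)
          ((X.S (Vtx.vert Vrt.zero)).red g) 1 ∧
        ∀ P' : ModSS A M₀ q, P' ≠ P → (X.S (Vtx.hor P')).red g = 0 :=
  haveI : NeZero X.D₀.Q := mge_neZero_Q X hq
  sep2_mod_wp (S := X.S) (ssPlace := ModSS.place) hq hA hqM haux X.D₀ X.hM₀ (mge_hR X hq)
    X.hD₀ X.hSoo rfl ModSS.isSS ModSS.place_injective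
    (sevModPv M₀ q hq hqM (Fin (midCard q)) X.W.FkP) (fun _ => rfl) X.hS0 X.W.O
    (fun _ => rfl) (umid_dvd1 M₀ q) (pow_ne_zero 12 (X.ϖ_ne hq))

end Leaves

namespace ModWorld

variable {M₀ q : ℕ} [NeZero M₀] [NeZero q] {A : ValuationSubring Qb}
  [Fact q.Prime] [CharP (IsLocalRing.ResidueField A) q]
  [PerfectRing (IsLocalRing.ResidueField A) q] (X : ModWorld M₀ q A)
  [Fintype (ModSS A M₀ q)] [IsAlgClosed (IsLocalRing.ResidueField A)]

/-- **the `ModEndsInput` of the modular graph from SEED-UP and the vertical fields**: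
`pv := sevModPv`; `pv_inj`, `DA`, `D1`, `D2`, `sepA`, `sep1`, `sep2` discharged. -/
def endsOfUp (hq : q.Prime) (hqM : ¬ q ∣ M₀) (hA : A.LiesOverPrime q)
    (haux : AuxLevelOK q M₀) (hν2 : nuTwo M₀ = 0) (hν3 : nuThree M₀ = 0)
    (hxA : EndsRedA X.S (fun P => (X.W.O P).H)
      (algebraMap Qb (FBar (M₀ * q * q)) (X.ϖ ^ (12 * q)) / uA M₀ q))
    (hx2 : EndsRed2 X.S (fun P => (X.W.O P).H)
      (u1 M₀ q / algebraMap Qb (FBar (M₀ * q * q)) (X.ϖ ^ 12)))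
    (zA : ∀ Q : Place (IsLocalRing.ResidueField A)
        (FkOf ↥(modularFunctionFieldFullC (IsLocalRing.ResidueField A) M₀)
          (fun _ : Fin (midCard q) => ↥(igField (IsLocalRing.ResidueField A) M₀)) X.W.FkP
          (Vtx.vert Vrt.oo)),
      0 < Q.ord ((X.S (Vtx.vert Vrt.oo)).red (uA M₀ q)) →
        ∃ P, sevModPv M₀ q hq hqM (Fin (midCard q)) X.W.FkP P Vrt.oo = Q)
    (oA : ∀ P, (sevModPv M₀ q hq hqM (Fin (midCard q)) X.W.FkP P Vrt.oo).ord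
      ((X.S (Vtx.vert Vrt.oo)).red (uA M₀ q)) = 12 * (q : ℤ))
    (z1oo : ∀ Q : Place (IsLocalRing.ResidueField A)
        (FkOf ↥(modularFunctionFieldFullC (IsLocalRing.ResidueField A) M₀)
          (fun _ : Fin (midCard q) => ↥(igField (IsLocalRing.ResidueField A) M₀)) X.W.FkP
          (Vtx.vert Vrt.oo)),
      0 < Q.ord ((X.S (Vtx.vert Vrt.oo)).red (u1 M₀ q)) →
        ∃ P, sevModPv M₀ q hq hqM (Fin (midCard q)) X.W.FkP P Vrt.oo = Q)
    (o1oo : ∀ P, (sevModPv M₀ q hq hqM (Fin (midCard q)) X.W.FkP P Vrt.oo).ord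
      ((X.S (Vtx.vert Vrt.oo)).red (u1 M₀ q)) = 12)
    (z1m : ∀ (m : Fin (midCard q)) (Q : Place (IsLocalRing.ResidueField A)
        (FkOf ↥(modularFunctionFieldFullC (IsLocalRing.ResidueField A) M₀)
          (fun _ : Fin (midCard q) => ↥(igField (IsLocalRing.ResidueField A) M₀)) X.W.FkP
          (Vtx.vert (Vrt.mid m)))),
      0 < Q.ord ((X.S (Vtx.vert (Vrt.mid m))).red (u1 M₀ q)) →
        ∃ P, sevModPv M₀ q hq hqM (Fin (midCard q)) X.W.FkP P (Vrt.mid m) = Q)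
    (o1m : ∀ P m, (sevModPv M₀ q hq hqM (Fin (midCard q)) X.W.FkP P (Vrt.mid m)).ord
      ((X.S (Vtx.vert (Vrt.mid m))).red (u1 M₀ q)) = 12 * (midDeg q : ℤ))
    (z2 : ∀ Q : Place (IsLocalRing.ResidueField A)
        (FkOf ↥(modularFunctionFieldFullC (IsLocalRing.ResidueField A) M₀)
          (fun _ : Fin (midCard q) => ↥(igField (IsLocalRing.ResidueField A) M₀)) X.W.FkP
          (Vtx.vert Vrt.zero)),
      0 < Q.ord ((X.S (Vtx.vert Vrt.zero)).red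
        (algebraMap Qb (FBar (M₀ * q * q)) ((q : Qb) ^ 12 / X.ϖ ^ 12) /
          (u1 M₀ q / algebraMap Qb (FBar (M₀ * q * q)) (X.ϖ ^ 12)))) →
        ∃ P, sevModPv M₀ q hq hqM (Fin (midCard q)) X.W.FkP P Vrt.zero = Q)
    (o2 : ∀ P, (sevModPv M₀ q hq hqM (Fin (midCard q)) X.W.FkP P Vrt.zero).ord
      ((X.S (Vtx.vert Vrt.zero)).red
        (algebraMap Qb (FBar (M₀ * q * q)) ((q : Qb) ^ 12 / X.ϖ ^ 12) /
          (u1 M₀ q / algebraMap Qb (FBar (M₀ * q * q)) (X.ϖ ^ 12)))) = 12 * (q : ℤ)) :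
    ModEndsInput Qb (FBar (M₀ * q * q)) (IsLocalRing.ResidueField A) (Fin (midCard q))
      (ModSS A M₀ q) ↥(modularFunctionFieldFullC (IsLocalRing.ResidueField A) M₀)
      (fun _ : Fin (midCard q) => ↥(igField (IsLocalRing.ResidueField A) M₀)) X.W.FkP :=
  X.ends hq hA (sevModPv M₀ q hq hqM (Fin (midCard q)) X.W.FkP)
    (sevModPv_inj M₀ q hq hqM (Fin (midCard q)) X.W.FkP)
    (mge_DA X hq hqM hA haux hν2 hν3 hxA) (mge_D1 X hq hqM hA haux hν2 hν3 hx2)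
    (mge_D2 X hq hqM hA haux hν2 hν3 hx2) hxA hx2 zA oA z1oo o1oo z1m o1m z2 o2
    (mge_sepA X hq hqM hA haux) (mge_sep1 X hq hqM hA haux) (mge_sep2 X hq hqM hA haux)

end ModWorld

end Fermat.Agent.S36G
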