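/-
Cluster G (S36, bad reduction at `q² ∥ M`), junction MG-INST, part (c), FINAL: **the
`ModEndsInput` of the modular graph with ALL leaves discharged** (helper92; integrator helper40,
architect helper80).

`X : ModWorld M₀ q A` (`S36/G/ModularGraphInst.lean`); hypotheses: `q` prime, `q ∤ M₀`, `A ∣ q`,
`M₀` a rigid auxiliary level (`AuxLevelOK q M₀`, `ν₂ (M₀) = ν₃ (M₀) = 0`), and the `t`-datum of
the family of the `w_P` (`htd : ∀ P, WPTDat M₀ A (X.W.O P).t`, `S36/HPVal/ValAtT.lean`; delivered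
together with `X` by `nonempty_modWorld`, helper38).

* `mge_hno`            : `ord_Q ssFun = 12` at the supersingular places;
* `mge_hxA`, `mge_hx2` : **SEED-UP** `EndsRedA`, `EndsRed2` (`uhorFinal_endsRedA`,
                         `uhorFinal_endsRed2`, helper90);
* `mge_zA`, `mge_oA`, `mge_z1oo`, `mge_o1oo`, `mge_z1m`, `mge_o1m`, `mge_z2`, `mge_o2` : the
                         vertical fields (`sevAt_*`, helper9);
* `ModWorld.endsFinal` : **`E : ModEndsInput`**, `pv := sevModPv`.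
-/
import Mathlib
import Fermat.Agent.S36.G.ModularGraphEnds
import Fermat.Agent.S36.Seed.UHorFinal
import Fermat.Agent.S36.Seed.EndsVertHno
import Fermat.Agent.S36.Seed.EndsVertMod
import Fermat.Agent.S36.HPVal.ValAtT

set_option autoImplicit false
set_option linter.style.haveILetI false
set_option linter.unusedSectionVars false
set_option linter.unusedVariables false
set_option synthInstance.maxHeartbeats 400000
set_option maxHeartbeats 1600000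

noncomputable section

namespace Fermat.Agent.S36G

open IntermediateField ModularCurve AlgebraicCurve Fermat.Agent.F3 Fermat.Agent.F3G
  Fermat.Agent.GaussInt Fermat.Agent.AtkinLehner Fermat.Agent.Kronecker Fermat.Agent.BadRed
  Fermat.Agent.BadRedG Fermat.Agent.Deuring Fermat.Agent.RR Fermat.Agent.HP Fermat.Agent.HPVal

local notation "Qb" => AlgebraicClosure ℚ

attribute [local instance 10000] SubalgebraClass.toAlgebra HahnSeries.powerSeriesAlgebra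

section Leaves

variable {M₀ q : ℕ} [NeZero M₀] [NeZero q] {A : ValuationSubring Qb}
  [Fact q.Prime] [CharP (IsLocalRing.ResidueField A) q]
  [PerfectRing (IsLocalRing.ResidueField A) q] (X : ModWorld M₀ q A)

/-- `ord_Q ssFun = 12` at the supersingular places (no elliptic points). -/
theorem mge_hno (hq : q.Prime) (hqM : ¬ q ∣ M₀) (hA : A.LiesOverPrime q)
    (haux : AuxLevelOK q M₀) (hν2 : nuTwo M₀ = 0) (hν3 : nuThree M₀ = 0)
    (Q : Place (IsLocalRing.ResidueField A)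
      ↥(modularFunctionFieldFullC (IsLocalRing.ResidueField A) M₀))
    (hQ : IsSSPlace (IsLocalRing.ResidueField A) M₀ q Q)
    (u : ↥(modularFunctionFieldFullC (IsLocalRing.ResidueField A) M₀))
    (hu : (u : LaurentSeries (IsLocalRing.ResidueField A)) =
      ssFun (IsLocalRing.ResidueField A) q) : Q.ord u = 12 :=
  sev_hno_aux M₀ hq hqM hν2 hν3 haux hA Q hQ u hu

/-- **SEED-UP (A)**: `EndsRedA` for `xA = ϖ ^ (12 q) / u₂`. -/
theorem mge_hxA (hq : q.Prime) (hqM : ¬ q ∣ M₀) (hA : A.LiesOverPrime q)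
    (haux : AuxLevelOK q M₀) (hν2 : nuTwo M₀ = 0) (hν3 : nuThree M₀ = 0)
    (htd : ∀ P, WPTDat M₀ A (X.W.O P).t) :
    EndsRedA X.S (fun P => (X.W.O P).H)
      (algebraMap Qb (FBar (M₀ * q * q)) (X.ϖ ^ (12 * q)) / ModWorld.uA M₀ q) :=
  uhorFinal_endsRedA X.W X.Soo (valSetupZeroAt X.D₀ X.hM₀ X.Soo) X.I.S (wpd_hFk A M₀) X.hS0
    hq hqM hA haux htd (mge_hno hq hqM hA haux hν2 hν3)

/-- **SEED-UP (2)**: `EndsRed2` for `x2 = u₁ / ϖ ^ 12`. -/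
theorem mge_hx2 (hq : q.Prime) (hqM : ¬ q ∣ M₀) (hA : A.LiesOverPrime q)
    (haux : AuxLevelOK q M₀) (hν2 : nuTwo M₀ = 0) (hν3 : nuThree M₀ = 0)
    (htd : ∀ P, WPTDat M₀ A (X.W.O P).t) :
    EndsRed2 X.S (fun P => (X.W.O P).H)
      (ModWorld.u1 M₀ q / algebraMap Qb (FBar (M₀ * q * q)) (X.ϖ ^ 12)) :=
  uhorFinal_endsRed2 X.W X.Soo (valSetupZeroAt X.D₀ X.hM₀ X.Soo) X.I.S (wpd_hFk A M₀) X.hS0
    hq hqM hA haux htd (mge_hno hq hqM hA haux hν2 hν3)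

variable [IsAlgClosed (IsLocalRing.ResidueField A)]

/-- **field `zA`.** -/
theorem mge_zA (hq : q.Prime) (hqM : ¬ q ∣ M₀) (hA : A.LiesOverPrime q)
    (Q : Place (IsLocalRing.ResidueField A)
      (FkOf ↥(modularFunctionFieldFullC (IsLocalRing.ResidueField A) M₀)
        (fun _ : Fin (midCard q) => ↥(igField (IsLocalRing.ResidueField A) M₀)) X.W.FkP
        (Vtx.vert Vrt.oo)))
    (hQ : 0 < Q.ord ((X.S (Vtx.vert Vrt.oo)).red (ModWorld.uA M₀ q))) :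
    ∃ P, sevModPv M₀ q hq hqM (Fin (midCard q)) X.W.FkP P Vrt.oo = Q :=
  sevAt_zA q X.W.FkP X.S (sevModPv M₀ q hq hqM (Fin (midCard q)) X.W.FkP) hq hA X.hSoo
    (umid_dvd2 M₀ q) (sevModPv_surj_oo M₀ q hq hqM (Fin (midCard q)) X.W.FkP) Q hQ

/-- **field `oA`.** -/
theorem mge_oA (hq : q.Prime) (hqM : ¬ q ∣ M₀) (hA : A.LiesOverPrime q)
    (haux : AuxLevelOK q M₀) (hν2 : nuTwo M₀ = 0) (hν3 : nuThree M₀ = 0)
    (P : ModSS A M₀ q) :
    (sevModPv M₀ q hq hqM (Fin (midCard q)) X.W.FkP P Vrt.oo).ord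
      ((X.S (Vtx.vert Vrt.oo)).red (ModWorld.uA M₀ q)) = 12 * (q : ℤ) :=
  sevAt_oA q X.W.FkP X.S (sevModPv M₀ q hq hqM (Fin (midCard q)) X.W.FkP) hq hA X.hSoo
    (mge_hno hq hqM hA haux hν2 hν3) (umid_dvd2 M₀ q)
    (sevModPv_ss_oo M₀ q hq hqM (Fin (midCard q)) X.W.FkP) P

/-- **field `z1oo`.** -/
theorem mge_z1oo (hq : q.Prime) (hqM : ¬ q ∣ M₀) (hA : A.LiesOverPrime q)
    (Q : Place (IsLocalRing.ResidueField A)
      (FkOf ↥(modularFunctionFieldFullC (IsLocalRing.ResidueField A) M₀)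
        (fun _ : Fin (midCard q) => ↥(igField (IsLocalRing.ResidueField A) M₀)) X.W.FkP
        (Vtx.vert Vrt.oo)))
    (hQ : 0 < Q.ord ((X.S (Vtx.vert Vrt.oo)).red (ModWorld.u1 M₀ q))) :
    ∃ P, sevModPv M₀ q hq hqM (Fin (midCard q)) X.W.FkP P Vrt.oo = Q :=
  sevAt_z1oo q X.W.FkP X.S (sevModPv M₀ q hq hqM (Fin (midCard q)) X.W.FkP) hq hA X.hSoo
    (umid_dvd1 M₀ q) (sevModPv_surj_oo M₀ q hq hqM (Fin (midCard q)) X.W.FkP) Q hQ

/-- **field `o1oo`.** -/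
theorem mge_o1oo (hq : q.Prime) (hqM : ¬ q ∣ M₀) (hA : A.LiesOverPrime q)
    (haux : AuxLevelOK q M₀) (hν2 : nuTwo M₀ = 0) (hν3 : nuThree M₀ = 0)
    (P : ModSS A M₀ q) :
    (sevModPv M₀ q hq hqM (Fin (midCard q)) X.W.FkP P Vrt.oo).ord
      ((X.S (Vtx.vert Vrt.oo)).red (ModWorld.u1 M₀ q)) = 12 :=
  sevAt_o1oo q X.W.FkP X.S (sevModPv M₀ q hq hqM (Fin (midCard q)) X.W.FkP) hq hA X.hSoo
    (mge_hno hq hqM hA haux hν2 hν3) (umid_dvd1 M₀ q)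
    (sevModPv_ss_oo M₀ q hq hqM (Fin (midCard q)) X.W.FkP) P

/-- **field `z1m`.** -/
theorem mge_z1m (hq : q.Prime) (hqM : ¬ q ∣ M₀) (hA : A.LiesOverPrime q)
    (haux : AuxLevelOK q M₀) (hν2 : nuTwo M₀ = 0) (hν3 : nuThree M₀ = 0)
    (m : Fin (midCard q))
    (Q : Place (IsLocalRing.ResidueField A)
      (FkOf ↥(modularFunctionFieldFullC (IsLocalRing.ResidueField A) M₀)
        (fun _ : Fin (midCard q) => ↥(igField (IsLocalRing.ResidueField A) M₀)) X.W.FkP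
        (Vtx.vert (Vrt.mid m))))
    (hQ : 0 < Q.ord ((X.S (Vtx.vert (Vrt.mid m))).red (ModWorld.u1 M₀ q))) :
    ∃ P, sevModPv M₀ q hq hqM (Fin (midCard q)) X.W.FkP P (Vrt.mid m) = Q :=
  sevAt_z1m M₀ q X.W.FkP X.S (sevModPv M₀ q hq hqM (Fin (midCard q)) X.W.FkP) hq hqM hA
    X.hSoo X.I.isMidExp X.I.isMidSetup (mge_hno hq hqM hA haux hν2 hν3)
    (sevModPv_surj_mid M₀ q hq hqM (Fin (midCard q)) X.W.FkP) m Q hQ

/-- **field `o1m`.** -/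
theorem mge_o1m (hq : q.Prime) (hqM : ¬ q ∣ M₀) (hA : A.LiesOverPrime q)
    (haux : AuxLevelOK q M₀) (hν2 : nuTwo M₀ = 0) (hν3 : nuThree M₀ = 0)
    (P : ModSS A M₀ q) (m : Fin (midCard q)) :
    (sevModPv M₀ q hq hqM (Fin (midCard q)) X.W.FkP P (Vrt.mid m)).ord
      ((X.S (Vtx.vert (Vrt.mid m))).red (ModWorld.u1 M₀ q)) = 12 * (midDeg q : ℤ) :=
  sevAt_o1m M₀ q X.W.FkP X.S (sevModPv M₀ q hq hqM (Fin (midCard q)) X.W.FkP) hq hqM hA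
    X.hSoo X.I.isMidExp X.I.isMidSetup (mge_hno hq hqM hA haux hν2 hν3)
    (sevModPv_ss_mid M₀ q hq hqM (Fin (midCard q)) X.W.FkP) P m

/-- **field `z2`.** -/
theorem mge_z2 (hq : q.Prime) (hqM : ¬ q ∣ M₀) (hA : A.LiesOverPrime q)
    (Q : Place (IsLocalRing.ResidueField A)
      (FkOf ↥(modularFunctionFieldFullC (IsLocalRing.ResidueField A) M₀)
        (fun _ : Fin (midCard q) => ↥(igField (IsLocalRing.ResidueField A) M₀)) X.W.FkP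
        (Vtx.vert Vrt.zero)))
    (hQ : 0 < Q.ord ((X.S (Vtx.vert Vrt.zero)).red
      (algebraMap Qb (FBar (M₀ * q * q)) ((q : Qb) ^ 12 / X.ϖ ^ 12) /
        (ModWorld.u1 M₀ q / algebraMap Qb (FBar (M₀ * q * q)) (X.ϖ ^ 12))))) :
    ∃ P, sevModPv M₀ q hq hqM (Fin (midCard q)) X.W.FkP P Vrt.zero = Q :=
  sevAt_z2 X.D₀ q X.W.FkP X.S (sevModPv M₀ q hq hqM (Fin (midCard q)) X.W.FkP) hq hA X.hSoo
    X.hM₀ (mge_hR X hq) (mge_hQ X) rfl (umid_dvd1 M₀ q) (pow_ne_zero 12 (X.ϖ_ne hq))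
    (sevModPv_surj_zero M₀ q hq hqM (Fin (midCard q)) X.W.FkP) Q hQ

/-- **field `o2`.** -/
theorem mge_o2 (hq : q.Prime) (hqM : ¬ q ∣ M₀) (hA : A.LiesOverPrime q)
    (haux : AuxLevelOK q M₀) (hν2 : nuTwo M₀ = 0) (hν3 : nuThree M₀ = 0)
    (P : ModSS A M₀ q) :
    (sevModPv M₀ q hq hqM (Fin (midCard q)) X.W.FkP P Vrt.zero).ord
      ((X.S (Vtx.vert Vrt.zero)).red
        (algebraMap Qb (FBar (M₀ * q * q)) ((q : Qb) ^ 12 / X.ϖ ^ 12) /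
          (ModWorld.u1 M₀ q / algebraMap Qb (FBar (M₀ * q * q)) (X.ϖ ^ 12)))) =
      12 * (q : ℤ) :=
  sevAt_o2 X.D₀ q X.W.FkP X.S (sevModPv M₀ q hq hqM (Fin (midCard q)) X.W.FkP) hq hA X.hSoo
    (mge_hno hq hqM hA haux hν2 hν3) X.hM₀ (mge_hR X hq) (mge_hQ X) rfl (umid_dvd1 M₀ q)
    (pow_ne_zero 12 (X.ϖ_ne hq)) (sevModPv_ss_zero M₀ q hq hqM (Fin (midCard q)) X.W.FkP) P

end Leaves

namespace ModWorld

variable {M₀ q : ℕ} [NeZero M₀] [NeZero q] {A : ValuationSubring Qb}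
  [Fact q.Prime] [CharP (IsLocalRing.ResidueField A) q]
  [PerfectRing (IsLocalRing.ResidueField A) q] (X : ModWorld M₀ q A)
  [Fintype (ModSS A M₀ q)] [IsAlgClosed (IsLocalRing.ResidueField A)]

/-- **THE `ModEndsInput` OF THE MODULAR GRAPH**, all leaves discharged: `pv := sevModPv`,
`S := X.S`, `uA = uF2`, `u1 = uF`, `u2 = u1 / ϖ ^ 12`, `ϖA = ϖ ^ (12 q)`, `ϖ1 = ϖ ^ 12`,
`ϖ2 = q ^ 12 / ϖ ^ 12`. -/
def endsFinal (hq : q.Prime) (hqM : ¬ q ∣ M₀) (hA : A.LiesOverPrime q)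
    (haux : AuxLevelOK q M₀) (hν2 : nuTwo M₀ = 0) (hν3 : nuThree M₀ = 0)
    (htd : ∀ P, WPTDat M₀ A (X.W.O P).t) :
    ModEndsInput Qb (FBar (M₀ * q * q)) (IsLocalRing.ResidueField A) (Fin (midCard q))
      (ModSS A M₀ q) ↥(modularFunctionFieldFullC (IsLocalRing.ResidueField A) M₀)
      (fun _ : Fin (midCard q) => ↥(igField (IsLocalRing.ResidueField A) M₀)) X.W.FkP :=
  X.endsOfUp hq hqM hA haux hν2 hν3 (mge_hxA X hq hqM hA haux hν2 hν3 htd)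
    (mge_hx2 X hq hqM hA haux hν2 hν3 htd) (mge_zA X hq hqM hA)
    (mge_oA X hq hqM hA haux hν2 hν3) (mge_z1oo X hq hqM hA)
    (mge_o1oo X hq hqM hA haux hν2 hν3) (mge_z1m X hq hqM hA haux hν2 hν3)
    (mge_o1m X hq hqM hA haux hν2 hν3) (mge_z2 X hq hqM hA)
    (mge_o2 X hq hqM hA haux hν2 hν3)

theorem endsFinal_eq_endsOfUp (hq : q.Prime) (hqM : ¬ q ∣ M₀) (hA : A.LiesOverPrime q)
    (haux : AuxLevelOK q M₀) (hν2 : nuTwo M₀ = 0) (hν3 : nuThree M₀ = 0)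
    (htd : ∀ P, WPTDat M₀ A (X.W.O P).t) :
    X.endsFinal hq hqM hA haux hν2 hν3 htd =
      X.endsOfUp hq hqM hA haux hν2 hν3 (mge_hxA X hq hqM hA haux hν2 hν3 htd)
        (mge_hx2 X hq hqM hA haux hν2 hν3 htd) (mge_zA X hq hqM hA)
        (mge_oA X hq hqM hA haux hν2 hν3) (mge_z1oo X hq hqM hA)
        (mge_o1oo X hq hqM hA haux hν2 hν3) (mge_z1m X hq hqM hA haux hν2 hν3)
        (mge_o1m X hq hqM hA haux hν2 hν3) (mge_z2 X hq hqM hA)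
        (mge_o2 X hq hqM hA haux hν2 hν3) := rfl

theorem endsFinal_S (hq : q.Prime) (hqM : ¬ q ∣ M₀) (hA : A.LiesOverPrime q)
    (haux : AuxLevelOK q M₀) (hν2 : nuTwo M₀ = 0) (hν3 : nuThree M₀ = 0)
    (htd : ∀ P, WPTDat M₀ A (X.W.O P).t) :
    (X.endsFinal hq hqM hA haux hν2 hν3 htd).S = X.S := rfl

theorem endsFinal_pv (hq : q.Prime) (hqM : ¬ q ∣ M₀) (hA : A.LiesOverPrime q)
    (haux : AuxLevelOK q M₀) (hν2 : nuTwo M₀ = 0) (hν3 : nuThree M₀ = 0)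
    (htd : ∀ P, WPTDat M₀ A (X.W.O P).t) :
    (X.endsFinal hq hqM hA haux hν2 hν3 htd).pv =
      sevModPv M₀ q hq hqM (Fin (midCard q)) X.W.FkP := rfl

theorem endsFinal_uA (hq : q.Prime) (hqM : ¬ q ∣ M₀) (hA : A.LiesOverPrime q)
    (haux : AuxLevelOK q M₀) (hν2 : nuTwo M₀ = 0) (hν3 : nuThree M₀ = 0)
    (htd : ∀ P, WPTDat M₀ A (X.W.O P).t) :
    (X.endsFinal hq hqM hA haux hν2 hν3 htd).uA = uA M₀ q := rfl

theorem endsFinal_u1 (hq : q.Prime) (hqM : ¬ q ∣ M₀) (hA : A.LiesOverPrime q)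
    (haux : AuxLevelOK q M₀) (hν2 : nuTwo M₀ = 0) (hν3 : nuThree M₀ = 0)
    (htd : ∀ P, WPTDat M₀ A (X.W.O P).t) :
    (X.endsFinal hq hqM hA haux hν2 hν3 htd).u1 = u1 M₀ q := rfl

theorem endsFinal_u2 (hq : q.Prime) (hqM : ¬ q ∣ M₀) (hA : A.LiesOverPrime q)
    (haux : AuxLevelOK q M₀) (hν2 : nuTwo M₀ = 0) (hν3 : nuThree M₀ = 0)
    (htd : ∀ P, WPTDat M₀ A (X.W.O P).t) :
    (X.endsFinal hq hqM hA haux hν2 hν3 htd).u2 =
      u1 M₀ q / algebraMap Qb (FBar (M₀ * q * q)) (X.ϖ ^ 12) := rfl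

theorem endsFinal_ϖA (hq : q.Prime) (hqM : ¬ q ∣ M₀) (hA : A.LiesOverPrime q)
    (haux : AuxLevelOK q M₀) (hν2 : nuTwo M₀ = 0) (hν3 : nuThree M₀ = 0)
    (htd : ∀ P, WPTDat M₀ A (X.W.O P).t) :
    (X.endsFinal hq hqM hA haux hν2 hν3 htd).ϖA = X.ϖ ^ (12 * q) := rfl

theorem endsFinal_ϖ1 (hq : q.Prime) (hqM : ¬ q ∣ M₀) (hA : A.LiesOverPrime q)
    (haux : AuxLevelOK q M₀) (hν2 : nuTwo M₀ = 0) (hν3 : nuThree M₀ = 0)
    (htd : ∀ P, WPTDat M₀ A (X.W.O P).t) :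
    (X.endsFinal hq hqM hA haux hν2 hν3 htd).ϖ1 = X.ϖ ^ 12 := rfl

theorem endsFinal_ϖ2 (hq : q.Prime) (hqM : ¬ q ∣ M₀) (hA : A.LiesOverPrime q)
    (haux : AuxLevelOK q M₀) (hν2 : nuTwo M₀ = 0) (hν3 : nuThree M₀ = 0)
    (htd : ∀ P, WPTDat M₀ A (X.W.O P).t) :
    (X.endsFinal hq hqM hA haux hν2 hν3 htd).ϖ2 = (q : Qb) ^ 12 / X.ϖ ^ 12 := rfl

end ModWorld

end Fermat.Agent.S36G
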