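/-
Cluster G (S36, bad reduction at `q² ∥ M`), junction CB-INST, part 2 (helper3):
**the bundle of the modular world**, and the hypothesis `hB` of
`s36Statement_of_coreBundleLevel` (`S36/G/CoreBundleLevel.lean`).

* `cbi_of_world`       : `Nonempty (CoreBundle (M₀ * q) q A)` from `X : ModWorld M₀ q A` with the
                         `t`-datum (`E := X.endsFinal ..`, helper92; `cbi_of_ends`);
* `nonempty_coreBundle`: for every prime `q ∤ M₀` with `AuxGood23 q M₀` there are a valuation ring
                         `P | q` of `ℚ̄` and a `CoreBundle (M₀ * q) q P`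
                         (`modWorld_exists_atT_aux23`, helper38).
-/
import Mathlib
import Fermat.Agent.S36.G.CoreBundleEnds
import Fermat.Agent.S36.G.ModularGraphEndsFinal
import Fermat.Agent.S36.G.ModWorldNonempty
import Fermat.Agent.S36.G.ModWorldGenus

set_option autoImplicit false
set_option linter.style.haveILetI false
set_option linter.unusedSectionVars false
set_option linter.unusedVariables false
set_option synthInstance.maxHeartbeats 400000
set_option maxHeartbeats 1600000

noncomputable section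

open AlgebraicCurve Fermat.Agent.RR Fermat.Agent.Deuring

namespace Fermat.Agent.S36G

open ModularCurve Fermat.Agent.F3 Fermat.Agent.F3G Fermat.Agent.GaussInt
  Fermat.Agent.AtkinLehner Fermat.Agent.Kronecker Fermat.Agent.BadRed Fermat.Agent.BadRedG
  Fermat.Agent.HP Fermat.Agent.HPVal

local notation "Qb" => AlgebraicClosure ℚ

attribute [local instance] Fermat.Agent.GaussInt.isAlgClosed_residue
  Fermat.Agent.GaussInt.infinite_residue

attribute [local instance 10000] SubalgebraClass.toAlgebra HahnSeries.powerSeriesAlgebra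

section World

variable {M₀ q : ℕ} [NeZero M₀] [NeZero q] [hN₁ : NeZero (M₀ * q)] {A : ValuationSubring Qb}
  [Fact q.Prime] [CharP (IsLocalRing.ResidueField A) q]
  [PerfectRing (IsLocalRing.ResidueField A) q]

/-- **the bundle of the modular world.** -/
theorem cbi_of_world (X : ModWorld M₀ q A) (hq : q.Prime) (hqM : ¬ q ∣ M₀)
    (hA : A.LiesOverPrime q) (haux : AuxLevelOK q M₀) (hν2 : nuTwo M₀ = 0)
    (hν3 : nuThree M₀ = 0) (htd : ∀ P, WPTDat M₀ A (X.W.O P).t) :
    Nonempty (CoreBundle (M₀ * q) q A) := by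
  haveI : Fintype (ModSS A M₀ q) := modSSFintype hq hA
  haveI : Nonempty (ModSS A M₀ q) := modSS_nonempty hq hqM hν2 hν3 haux.1 haux.2 hA
  exact cbi_of_ends (X.endsFinal hq hqM hA haux hν2 hν3 htd) X.W.O hq hqM hA hν2 hν3 X.hS0
    X.Soo X.hSoo X.D₀ X.hM₀ X.hD₀ X.I rfl rfl rfl rfl X.hϖ rfl rfl rfl
    (X.hgenus hq hqM hν2 hν3 haux.1 haux.2 hA)
    (mge_hxA X hq hqM hA haux hν2 hν3 htd) (mge_hx2 X hq hqM hA haux hν2 hν3 htd)
    ModSS.place (fun P v => by cases v <;> rfl) ModSS.isSS
    (fun P u hu => mge_hno hq hqM hA haux hν2 hν3 P.place P.isSS u hu)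

end World

/-- **the hypothesis `hB` of `s36Statement_of_coreBundleLevel`**: a valuation ring over `q` and
a bundle at the level `M₀ * q * q`, for every prime `q ∤ M₀` with `AuxGood23 q M₀`. -/
theorem nonempty_coreBundle (q M₀ : ℕ) [NeZero M₀] [NeZero q] [NeZero (M₀ * q)]
    (hq : q.Prime) (hqM : ¬ q ∣ M₀) (hgood : AuxGood23 q M₀) :
    ∃ P : ValuationSubring Qb, P.LiesOverPrime q ∧ Nonempty (CoreBundle (M₀ * q) q P) := by
  obtain ⟨A, hA⟩ := Fermat.Agent.FrobExists.exists_valuationSubring_liesOver q hq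
  haveI : Fact q.Prime := ⟨hq⟩
  haveI : CharP (IsLocalRing.ResidueField A) q :=
    Fermat.Agent.FrobTrace.charP_residueField A hA
  haveI : PerfectRing (IsLocalRing.ResidueField A) q := inferInstance
  obtain ⟨ϖ, hϖ, -⟩ := modWorldEx_pi hq hA
  obtain ⟨X, -, -, htd, -⟩ := modWorld_exists_atT_aux23 hq hqM hgood A hA ϖ hϖ
  exact ⟨A, hA, cbi_of_world X hq hqM hA (modWorld_levelOK hgood) (auxGood23_nuTwo hgood)
    (auxGood23_nuThree hgood) htd⟩

end Fermat.Agent.S36G
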