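/-
Cluster G (S36), seat G-AUX (helper60): abstract base change of norms in a Galois datum.

Square of fields inside `L` (all maps are explicit homomorphisms):

    F  --α-->  F'
    ^          ^
    π          π'
    F1 --α1--> F1'

with pointwise stabilisers `H1 ⊇ H`, `H1 ⊇ H1'`, `H' = H ⊓ H1'` in `Γ` and equal degrees
`[F : F1] = [F' : F1']`.  Then `Norm_{π'} (α x) = α1 (Norm_π x)`.
-/
import Mathlib
import Fermat.Agent.Lib.Kronecker.NormEmb

set_option autoImplicit false
set_option linter.style.haveILetI false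

noncomputable section

namespace Fermat.Agent.S36G

open Fermat.Agent.Kronecker

section AuxNorm

variable {Γ L K F1 F F1' F' : Type*} [Group Γ] [Field L] [MulSemiringAction Γ L]
  [Field K] [CharZero K] [Field F1] [Field F] [Field F1'] [Field F']
  [Algebra K F1] [Algebra K F] [Algebra K F1'] [Algebra K F'] [Algebra K L]

/-- **Base change of the norm** in a Galois datum. -/
theorem aux_norm_baseChange
    (φ1 : F1 →ₐ[K] L) (φ : F →ₐ[K] L) (φ1' : F1' →ₐ[K] L) (φ' : F' →ₐ[K] L)
    (π : F1 →ₐ[K] F) (π' : F1' →ₐ[K] F') (α1 : F1 →ₐ[K] F1') (α : F →ₐ[K] F')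
    (hπ : ∀ x, φ (π x) = φ1 x) (hπ' : ∀ x, φ' (π' x) = φ1' x)
    (hα1 : ∀ x, φ1' (α1 x) = φ1 x) (hα : ∀ x, φ' (α x) = φ x)
    (H H1' H' : Subgroup Γ) [H1'.FiniteIndex] [H'.FiniteIndex]
    (hH : ∀ g : Γ, g ∈ H ↔ ∀ x : F, g • φ x = φ x)
    (hH1' : ∀ g : Γ, g ∈ H1' ↔ ∀ x : F1', g • φ1' x = φ1' x)
    (hH' : ∀ g : Γ, g ∈ H' ↔ ∀ x : F', g • φ' x = φ' x)
    (hle : ∀ g : Γ, g ∈ H → g ∈ H1' → g ∈ H')
    (hfd : letI := π.toRingHom.toAlgebra; FiniteDimensional F1 F)
    (hfd' : letI := π'.toRingHom.toAlgebra; FiniteDimensional F1' F')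
    (hdeg : (letI := π.toRingHom.toAlgebra; Module.finrank F1 F) * H1'.index ≤ H'.index)
    (hdeg' : (letI := π'.toRingHom.toAlgebra; Module.finrank F1' F') * H1'.index ≤ H'.index)
    (x : F) :
    (letI := π'.toRingHom.toAlgebra; Algebra.norm F1') (α x)
      = α1 ((letI := π.toRingHom.toAlgebra; Algebra.norm F1) x) := by
  classical
  -- `H' ≤ H1'`
  have hH'le : H' ≤ H1' := by
    intro g hg
    rw [hH1']
    intro y
    have := (hH' g).mp hg (π' y)
    rwa [hπ'] at this
  -- coset representatives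
  let Q := H1' ⧸ (H'.subgroupOf H1')
  have hne : (H'.subgroupOf H1').index ≠ 0 := by
    intro h0
    have h1 : H'.relIndex H1' = 0 := h0
    have h2 := Subgroup.relIndex_mul_index hH'le
    rw [h1, zero_mul] at h2
    exact Subgroup.FiniteIndex.index_ne_zero h2.symm
  haveI : (H'.subgroupOf H1').FiniteIndex := ⟨hne⟩
  haveI : Finite Q := Subgroup.finite_quotient_of_finiteIndex
  letI : Fintype Q := Fintype.ofFinite Q
  let g : Q → Γ := fun i => ((Quotient.out i : H1') : Γ)
  have hgmem : ∀ i, g i ∈ H1' := fun i => (Quotient.out i : H1').2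
  have hcardQ : Fintype.card Q * H1'.index = H'.index := by
    have h2 := Subgroup.relIndex_mul_index hH'le
    rw [← h2]
    congr 1
    rw [← Nat.card_eq_fintype_card]
    rfl
  have hpos : 0 < H1'.index := Nat.pos_of_ne_zero Subgroup.FiniteIndex.index_ne_zero
  -- separation of the cosets
  have hsep : ∀ i j : Q, (g j)⁻¹ * g i ∈ H' → i = j := by
    intro i j hij
    have h1 : (Quotient.out j : H1')⁻¹ * (Quotient.out i : H1') ∈ H'.subgroupOf H1' := by
      rw [Subgroup.mem_subgroupOf]
      exact hij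
    have h2 : (QuotientGroup.mk (Quotient.out j : H1') : Q) = QuotientGroup.mk (Quotient.out i : H1') :=
      QuotientGroup.eq.mpr h1
    have e1 : (QuotientGroup.mk (Quotient.out j : H1') : Q) = j := Quotient.out_eq j
    have e2 : (QuotientGroup.mk (Quotient.out i : H1') : Q) = i := Quotient.out_eq i
    rw [e1, e2] at h2
    exact h2.symm
  have hsmul_inv : ∀ (a b : Γ) (y z : L), a • y = b • z → y = (a⁻¹ * b) • z := by
    intro a b y z h
    rw [mul_smul, ← h, inv_smul_smul]
  -- the two norm formulas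
  have hN' := norm_hom_eq_prod_smul (Γ := Γ) φ1' φ' π' hπ' hfd' g
    (fun i y => (hH1' (g i)).mp (hgmem i) y)
    (fun i j hij => hsep i j ((hH' _).mpr fun y => by
      have := hsmul_inv (g j) (g i) (φ' y) (φ' y) (hij y).symm
      exact this.symm))
    (by
      have := hdeg'
      rw [← hcardQ] at this
      exact Nat.le_of_mul_le_mul_right this hpos)
    (α x)
  have hH1'le : ∀ i, ∀ y : F1, g i • φ1 y = φ1 y := by
    intro i y
    rw [← hα1]
    exact (hH1' (g i)).mp (hgmem i) (α1 y)
  have hN := norm_hom_eq_prod_smul (Γ := Γ) φ1 φ π hπ hfd g hH1'le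
    (fun i j hij => hsep i j (hle _ ((hH _).mpr fun y => by
      have := hsmul_inv (g j) (g i) (φ y) (φ y) (hij y).symm
      exact this.symm) (H1'.mul_mem (H1'.inv_mem (hgmem j)) (hgmem i))))
    (by
      have := hdeg
      rw [← hcardQ] at this
      exact Nat.le_of_mul_le_mul_right this hpos)
    x
  apply φ1'.toRingHom.injective
  show φ1' _ = φ1' _
  rw [hN', hα1, hN]
  exact Finset.prod_congr rfl fun i _ => by rw [hα]

end AuxNorm

end Fermat.Agent.S36G
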