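/-
Cluster G (S36), seat G-AUX (helper60): base change of norms for the modular function fields.

Levels `N1 ∣ N ∣ N'`, `N1 ∣ N1' ∣ N'` with `Γ₀(N) ∩ Γ₀(N1') ⊆ Γ₀(N')` and
`ψ(N) ψ(N1') = ψ(N1) ψ(N')`; `π, π', α1, α` any homomorphisms which are the identity on
`q`-expansions (e.g. `heckeAlphaBar`).  Then `Norm_{π'} (α x) = α1 (Norm_π x)`.
-/
import Mathlib
import Fermat.Agent.Lib.Kronecker.NormProd
import Fermat.Agent.S36.G.AuxNorm

set_option autoImplicit false
set_option linter.style.haveILetI false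
set_option linter.unusedSectionVars false

noncomputable section

namespace Fermat.Agent.S36G

open ModularCurve AlgebraicCurve Fermat.Agent.S24 Fermat.Agent.S24.EmbFHom
  Fermat.Agent.Kronecker
open scoped MatrixGroups

local notation "Qb" => AlgebraicClosure ℚ

section

set_option synthInstance.maxHeartbeats 400000
set_option maxHeartbeats 1000000

/-- a homomorphism between modular function fields which is the identity on `q`-expansions
is compatible with the embeddings in `LL M`. -/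
theorem aux_embHom_of_coe (N N' M : ℕ) [NeZero N] [NeZero N'] [NeZero M] (hNM : N ∣ M)
    (hN'M : N' ∣ M) (π : ↥(modularFunctionFieldBar N) →ₐ[Qb] ↥(modularFunctionFieldBar N'))
    (hπ : ∀ x, ((π x : ↥(modularFunctionFieldBar N')) : LaurentSeries Qb)
      = (x : LaurentSeries Qb))
    (x : ↥(modularFunctionFieldBar N)) :
    embHom N' M hN'M (π x) = embHom N M hNM x := by
  apply expLL_injective M
  rw [expLL_embHom, expLL_embHom, hπ]

/-- the degree of an inclusion of modular function fields. -/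
theorem aux_finrank_of_coe (N N' M : ℕ) [NeZero N] [NeZero N'] [NeZero M] (hNM : N ∣ M)
    (hN'M : N' ∣ M) (π : ↥(modularFunctionFieldBar N) →ₐ[Qb] ↥(modularFunctionFieldBar N'))
    (hπ : ∀ x, ((π x : ↥(modularFunctionFieldBar N')) : LaurentSeries Qb)
      = (x : LaurentSeries Qb)) :
    letI := π.toRingHom.toAlgebra
    FiniteDimensional ↥(modularFunctionFieldBar N) ↥(modularFunctionFieldBar N') ∧
      Module.finrank ↥(modularFunctionFieldBar N) ↥(modularFunctionFieldBar N')
        * dedekindPsi N = dedekindPsi N' := by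
  have hj : embHom N M hNM (jBar N) = jLL M := embHom_jq N M hNM (jBar N) rfl
  obtain ⟨hfd, hrank⟩ := finrank_hom_mul_index_eq_index (Γ := SL(2, ℤ))
    (embHom N M hNM) (embHom N' M hN'M) π (aux_embHom_of_coe N N' M hNM hN'M π hπ)
    (jBar N) (exists_finiteIndex_fixing M)
    (fun g => by rw [hj]; exact smul_jLL M g)
    (fun x hx => by
      rw [hj]; exact Fermat.Agent.S24Inv.mem_adjoin_jLL_of_invariant' M x hx)
    (CongruenceSubgroup.Gamma0 N) (CongruenceSubgroup.Gamma0 N')
    (mem_Gamma0_iff_smul_embHom N M hNM)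
    (mem_Gamma0_iff_smul_embHom N' M hN'M)
  refine ⟨hfd, ?_⟩
  rw [index_Gamma0 N, index_Gamma0 N'] at hrank
  exact hrank

/-- **Base change of the norm** for modular function fields. -/
theorem aux_norm_modular (N1 N N1' N' : ℕ) [NeZero N1] [NeZero N] [NeZero N1'] [NeZero N']
    (h1 : N1 ∣ N') (h2 : N ∣ N') (h3 : N1' ∣ N')
    (hle : ∀ γ : SL(2, ℤ), γ ∈ CongruenceSubgroup.Gamma0 N → γ ∈ CongruenceSubgroup.Gamma0 N1' →
      γ ∈ CongruenceSubgroup.Gamma0 N')
    (hψ : dedekindPsi N * dedekindPsi N1' = dedekindPsi N1 * dedekindPsi N')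
    (π : ↥(modularFunctionFieldBar N1) →ₐ[Qb] ↥(modularFunctionFieldBar N))
    (π' : ↥(modularFunctionFieldBar N1') →ₐ[Qb] ↥(modularFunctionFieldBar N'))
    (α1 : ↥(modularFunctionFieldBar N1) →ₐ[Qb] ↥(modularFunctionFieldBar N1'))
    (α : ↥(modularFunctionFieldBar N) →ₐ[Qb] ↥(modularFunctionFieldBar N'))
    (hπ : ∀ x, ((π x : ↥(modularFunctionFieldBar N)) : LaurentSeries Qb) = (x : LaurentSeries Qb))
    (hπ' : ∀ x, ((π' x : ↥(modularFunctionFieldBar N')) : LaurentSeries Qb)
      = (x : LaurentSeries Qb))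
    (hα1 : ∀ x, ((α1 x : ↥(modularFunctionFieldBar N1')) : LaurentSeries Qb)
      = (x : LaurentSeries Qb))
    (hα : ∀ x, ((α x : ↥(modularFunctionFieldBar N')) : LaurentSeries Qb)
      = (x : LaurentSeries Qb))
    (x : ↥(modularFunctionFieldBar N)) :
    (letI := π'.toRingHom.toAlgebra; Algebra.norm ↥(modularFunctionFieldBar N1')) (α x)
      = α1 ((letI := π.toRingHom.toAlgebra; Algebra.norm ↥(modularFunctionFieldBar N1)) x) := by
  obtain ⟨hfd, hrank⟩ := aux_finrank_of_coe N1 N N' h1 h2 π hπ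
  obtain ⟨hfd', hrank'⟩ := aux_finrank_of_coe N1' N' N' h3 dvd_rfl π' hπ'
  have hpos1 : 0 < dedekindPsi N1 := by
    rw [← index_Gamma0 N1]
    exact Nat.pos_of_ne_zero Subgroup.FiniteIndex.index_ne_zero
  have key : ∀ d : ℕ, d * dedekindPsi N1 = dedekindPsi N → d * dedekindPsi N1' ≤ dedekindPsi N' := by
    intro d hd
    apply le_of_eq
    apply Nat.eq_of_mul_eq_mul_right hpos1
    calc d * dedekindPsi N1' * dedekindPsi N1 = (d * dedekindPsi N1) * dedekindPsi N1' := by ring
      _ = dedekindPsi N * dedekindPsi N1' := by rw [hd]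
      _ = dedekindPsi N' * dedekindPsi N1 := by rw [hψ]; ring
  refine aux_norm_baseChange (Γ := SL(2, ℤ)) (embHom N1 N' h1) (embHom N N' h2)
    (embHom N1' N' h3) (embHom N' N' dvd_rfl) π π' α1 α
    (aux_embHom_of_coe N1 N N' h1 h2 π hπ)
    (aux_embHom_of_coe N1' N' N' h3 dvd_rfl π' hπ')
    (aux_embHom_of_coe N1 N1' N' h1 h3 α1 hα1)
    (aux_embHom_of_coe N N' N' h2 dvd_rfl α hα)
    (CongruenceSubgroup.Gamma0 N) (CongruenceSubgroup.Gamma0 N1') (CongruenceSubgroup.Gamma0 N')
    (mem_Gamma0_iff_smul_embHom N N' h2)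
    (mem_Gamma0_iff_smul_embHom N1' N' h3)
    (mem_Gamma0_iff_smul_embHom N' N' dvd_rfl)
    hle hfd hfd' ?_ ?_ x
  · rw [index_Gamma0 N1', index_Gamma0 N']
    exact key _ hrank
  · rw [index_Gamma0 N1', index_Gamma0 N']
    exact le_of_eq hrank'

end

end Fermat.Agent.S36G
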