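/-
Cluster G (S36), seat G-AUX (helper60): Step 0 of the blueprint (auxiliary level).

`coreProp_of_aux`: the (CORE) property for the torsion classes of level `N₀ r q`
(`r` an auxiliary prime, `r ≠ q`; `r ∣ N₀` allowed) implies the (CORE) property at level `N₀ q`, with the SAME
constant `c` and the same place `P`.  Here `q ∣ N₀` is allowed (S36: `N₀ = q M₀`), which is the
case not covered by `Lib/BadRed/Bridge/PullAux.lean` (helper94, `q ∤ N₀`).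

Ingredients: the pull-back `α^* = pullJZero` (Galois equivariant, injective on torsion by the
transfer core), `pushWAt_pullJZero` (helper94), and the base change of norms
`aux_norm_modular` (`S36/G/AuxNormMod.lean`).
-/
import Mathlib
import Fermat.Agent.S36.G.AuxNormMod
import Fermat.Agent.Lib.BadRed.Bridge.PullAux
import Fermat.Agent.F3.Transfer.Core
import Fermat.Agent.F3.Transfer.PsiBound
import Fermat.Agent.Lib.HeckeComm.Psi

set_option autoImplicit false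
set_option linter.unusedSectionVars false
set_option linter.style.haveILetI false

noncomputable section

namespace Fermat.Agent.S36G

open ModularCurve AlgebraicCurve Fermat.Agent.F3 Fermat.Agent.F3G
  Fermat.Agent.AtkinLehner Fermat.Agent.Kronecker Fermat.Agent.F3I2 Fermat.Agent.F3Deg
  Fermat.Agent.F3DegW Fermat.Agent.F3T Fermat.Agent.FF Fermat.Agent.BadRed
  Fermat.Agent.BadRed.PullAux

local notation "Qb" => AlgebraicClosure ℚ

section Norm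

set_option synthInstance.maxHeartbeats 400000
set_option maxHeartbeats 1000000

variable {N₀ q ℓ : ℕ} [NeZero N₀] [NeZero q] [NeZero ℓ]

/-- `Γ₀(N₀ q) ∩ Γ₀(N₀ ℓ) ⊆ Γ₀(N₀ ℓ q)` for coprime `q`, `ℓ`. -/
theorem aux_gamma0_inter (hcop : Nat.Coprime q ℓ) (γ : Matrix.SpecialLinearGroup (Fin 2) ℤ)
    (h1 : γ ∈ CongruenceSubgroup.Gamma0 (N₀ * q)) (h2 : γ ∈ CongruenceSubgroup.Gamma0 (N₀ * ℓ)) :
    γ ∈ CongruenceSubgroup.Gamma0 (N₀ * ℓ * q) := by
  rw [CongruenceSubgroup.Gamma0_mem] at h1 h2 ⊢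
  rw [ZMod.intCast_zmod_eq_zero_iff_dvd] at h1 h2 ⊢
  have e : ((N₀ * ℓ * q : ℕ) : ℤ) = (N₀ : ℤ) * ((q : ℤ) * (ℓ : ℤ)) := by push_cast; ring
  rw [e]
  have hN0 : (N₀ : ℤ) ≠ 0 := by exact_mod_cast NeZero.ne N₀
  obtain ⟨a, ha⟩ := h1
  obtain ⟨b, hb⟩ := h2
  have hqa : (q : ℤ) ∣ (γ 1 0) / (N₀ : ℤ) := by
    refine ⟨a, ?_⟩
    rw [ha]
    push_cast
    rw [mul_assoc, Int.mul_ediv_cancel_left _ hN0]
  have hℓb : (ℓ : ℤ) ∣ (γ 1 0) / (N₀ : ℤ) := by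
    refine ⟨b, ?_⟩
    rw [hb]
    push_cast
    rw [mul_assoc, Int.mul_ediv_cancel_left _ hN0]
  have hcop' : IsCoprime (q : ℤ) (ℓ : ℤ) := Nat.isCoprime_iff_coprime.mpr hcop
  have hql := hcop'.mul_dvd hqa hℓb
  have hdiv : (N₀ : ℤ) ∣ γ 1 0 := ⟨(q : ℤ) * a, by rw [ha]; push_cast; ring⟩
  obtain ⟨t, ht⟩ := hql
  refine ⟨t, ?_⟩
  have := Int.ediv_mul_cancel hdiv
  rw [← this, ht]
  ring

/-- `ψ(N₀ q) ψ(N₀ ℓ) = ψ(N₀) ψ(N₀ ℓ q)` for primes `q ≠ ℓ`. -/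
theorem aux_psi (hq : q.Prime) (hℓ : ℓ.Prime) (hqℓ : q ≠ ℓ) :
    dedekindPsi (N₀ * q) * dedekindPsi (N₀ * ℓ)
      = dedekindPsi N₀ * dedekindPsi (N₀ * ℓ * q) := by
  have h := Fermat.Agent.HeckeComm.dedekindPsi_square hq hℓ hqℓ (N := N₀) (NeZero.ne N₀)
  rw [mul_comm (dedekindPsi N₀), h]

/-- **the norm along `α_q` commutes with the inclusion of the levels `N₀ q ⊂ N₀ ℓ q`**
(`q ∣ N₀` allowed). -/
theorem aux_normAlong_inclBar (hq : q.Prime) (hℓ : ℓ.Prime) (hqℓ : q ≠ ℓ)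
    (h : N₀ * q ∣ N₀ * ℓ * q) (h₀ : N₀ ∣ N₀ * ℓ) (x : FBar (N₀ * q)) :
    normAlong (heckeAlphaBar Qb (N₀ * ℓ) q) (inclBar h x) =
      inclBar h₀ (normAlong (heckeAlphaBar Qb N₀ q) x) := by
  have hcop : Nat.Coprime q ℓ := (Nat.coprime_primes hq hℓ).mpr hqℓ
  exact aux_norm_modular N₀ (N₀ * q) (N₀ * ℓ) (N₀ * ℓ * q)
    (Dvd.intro _ (mul_assoc N₀ ℓ q).symm) h (Dvd.intro _ rfl)
    (aux_gamma0_inter hcop) (aux_psi hq hℓ hqℓ)
    (heckeAlphaBar Qb N₀ q) (heckeAlphaBar Qb (N₀ * ℓ) q) (inclBar h₀) (inclBar h)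
    (fun y => by rw [coe_heckeAlphaBar]) (fun y => by rw [coe_heckeAlphaBar])
    (fun y => coe_inclBar h₀ y) (fun y => coe_inclBar h y) x

end Norm

section Classes

set_option synthInstance.maxHeartbeats 400000
set_option maxHeartbeats 1000000

variable {N₀ q ℓ : ℕ} [NeZero N₀] [NeZero q] [NeZero ℓ]

/-- **`α^*` commutes with the degeneracy push-forward `α_{q,*}`** on torsion classes
(`q ∣ N₀` allowed). -/
theorem aux_pushAlpha_pullJZero (hq : q.Prime) (hℓ : ℓ.Prime) (hqℓ : q ≠ ℓ)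
    (h : N₀ * q ∣ N₀ * ℓ * q) (h₀ : N₀ ∣ N₀ * ℓ) {n : ℕ} (hn : n ≠ 0)
    (x : JZero (N₀ * q)) (hx : n • x = 0) :
    pushAlpha (N₀ * ℓ) q (pullJZero h x) = pullJZero h₀ (pushAlpha N₀ q x) := by
  haveI := hasPrincipalDivisors_bar (N₀ * ℓ * q)
  haveI := hasPrincipalDivisors_bar (N₀ * ℓ)
  have hx' : (n : ℤ) • x = 0 := by rwa [natCast_zsmul]
  obtain ⟨E, f, hf, rfl, hE⟩ := exists_div_of_zsmul_eq_zero (n : ℤ) x hx'
  have hE' : IsRootDiv n f E := ⟨hf, hE⟩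
  set hH := Fermat.Agent.HeckeInputs.hi_heckeInputsAlong_Qbar N₀ q with hHdef
  set hH' := Fermat.Agent.HeckeInputs.hi_heckeInputsAlong_Qbar (N₀ * ℓ) q with hHdef'
  rw [pullJZero_mk, pushAlpha_mk, pushAlpha_mk, pullJZero_mk]
  refine congrArg Pic0.mk
    (eq_of_isRootDiv hn (x := normAlong (heckeAlphaBar Qb (N₀ * ℓ) q) (inclBar h f)) ?_ ?_)
  · exact IsRootDiv.push (heckeAlphaBar Qb (N₀ * ℓ) q) hH'.fst hH'.snd.snd.snd.fst
      hH'.snd.snd.snd.snd.2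
      (isRootDiv_pull (inclBar h) (inclBar_isIntegral h) (inclBar_fundId h) hE')
  · rw [aux_normAlong_inclBar hq hℓ hqℓ h h₀ f]
    exact isRootDiv_pull (inclBar h₀) (inclBar_isIntegral h₀) (inclBar_fundId h₀)
      (IsRootDiv.push (heckeAlphaBar Qb N₀ q) hH.fst hH.snd.snd.snd.fst
        hH.snd.snd.snd.snd.2 hE')

/-- the transfer core for a prime `ℓ` (dividing `N` or not). -/
theorem aux_transferCore (N : ℕ) [NeZero N] (hℓ : ℓ.Prime) : TransferCore N ℓ := by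
  apply transferCore
  have h := dedekindPsi_prime_pow_mul_lt hℓ (a := 1) one_pos
    (Nat.pos_of_ne_zero (NeZero.ne N))
  simpa using h

/-- **(CORE) property** at level `N₁ q` for the Atkin–Lehner datum `D`, the constant `c` and the
place `P` (the body of `CoreAt`, without level casts). -/
def CoreProp (lam N₁ q : ℕ) [NeZero N₁] [NeZero q] (D : ALData) (hM : N₁ * q = D.Q * D.R)
    (c : ℕ) (H : Subgroup (Qb ≃ₐ[ℚ] Qb)) : Prop :=
  ∀ (n : ℕ) (y : JZero (N₁ * q)), lam ^ n • y = 0 →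
    pushAlpha N₁ q y = 0 → pushAlpha N₁ q (pushWAt D hM y) = 0 →
    (∀ σ ∈ H, σ • y = y) → c • y = 0

/-- **Step 0 (AUX)**: (CORE) at the level `N₀ ℓ q` implies (CORE) at the level `N₀ q`, with the
same constant and the same group (`ℓ ≠ q` primes; `q ∣ N₀` and `ℓ ∣ N₀` allowed). -/
theorem coreProp_of_aux {lam : ℕ} (hlam : lam ≠ 0) (hq : q.Prime) (hℓ : ℓ.Prime)
    (hqℓ : q ≠ ℓ) (D D' : ALData) (hM : N₀ * q = D.Q * D.R)
    (hM' : N₀ * ℓ * q = D'.Q * D'.R) (hQ : D'.Q = D.Q) (hR : D'.R = D.R * ℓ)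
    (c : ℕ) (H : Subgroup (Qb ≃ₐ[ℚ] Qb))
    (hcore : CoreProp lam (N₀ * ℓ) q D' hM' c H) : CoreProp lam N₀ q D hM c H := by
  intro n y hy h1 h2 hI
  have h : N₀ * q ∣ N₀ * ℓ * q := ⟨ℓ, by ring⟩
  have h₀ : N₀ ∣ N₀ * ℓ := Dvd.intro _ rfl
  have hn : lam ^ n ≠ 0 := pow_ne_zero n hlam
  have hyw : lam ^ n • pushWAt D hM y = 0 := by
    rw [← map_nsmul, hy, map_zero]
  have key := hcore n (pullJZero h y) (by rw [← map_nsmul, hy, map_zero])
    (by rw [aux_pushAlpha_pullJZero hq hℓ hqℓ h h₀ hn y hy, h1, map_zero])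
    (by rw [pushWAt_pullJZero D D' hM hM' h hQ hR hn y hy,
          aux_pushAlpha_pullJZero hq hℓ hqℓ h h₀ hn _ hyw, h2, map_zero])
    (fun σ hσ => by rw [← pullJZero_smul, hI σ hσ])
  rw [← map_nsmul] at key
  have hcy : lam ^ n • (c • y) = 0 := by
    rw [smul_comm, hy, smul_zero]
  exact pullJZero_injective_of_torsion (N₀ * q) ℓ (aux_transferCore (N₀ * q) hℓ)
    (by ring) h (Nat.pos_of_ne_zero hn) (c • y) hcy key

end Classes

end Fermat.Agent.S36G
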