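import Mathlib
import Fermat.Agent.S36.G.AuxNu
import Fermat.Agent.S36.G.ModSS
import Fermat.Agent.S36.Igusa.Pack
import Fermat.Agent.S36.Reg.CoordLocMod23
import Fermat.Agent.S36.HPVal.ExT
import Fermat.Agent.Lib.BadRed.Mod.AuxUnified

set_option autoImplicit false
set_option linter.style.haveILetI false
set_option linter.unusedSectionVars false
set_option linter.unusedVariables false
set_option synthInstance.maxHeartbeats 400000
set_option maxHeartbeats 1000000

/-!
# Cluster G (S36): the SUPPLY of the auxiliary level  (helper12, AUDIT-AUX)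

The top wiring (`S36/G/CoreBundleLevel.lean`) hands to the geometry, at every level `M₀ q q`:
`q` prime, `q ∤ M₀`, `AuxGood23 q M₀` (a prime `r ≡ 11 mod 12`, `r ≠ q`, `r ∣ M₀`; `3 ∣ M₀` if
`q = 2`, `2 ∣ M₀` if `q = 3`) and a free choice of the valuation ring `A ∣ q` of `ℚ̄`.

This file derives from exactly that, in the shapes of the landed leaves, every hypothesis on the
level that the blocks W-P, REG, IG, GENUS, SEED, DIST ask for (a machine-checked audit):

* `auxSup_levelOK`   : `AuxLevelOK q M₀`                         (REG, DIST, OLD-SEP, SS-FROB);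
* `auxSup_two`, `auxSup_three`, `auxGood23_nuTwo`, `auxGood23_nuThree` (`AuxNu.lean`):
                       `q = 2 → 3 ∣ M₀`, `q = 3 → 2 ∣ M₀`, `ν₂ = ν₃ = 0`  (IG, GENUS, MN, ModSS);
* `auxSup_genus`     : the good reduction `hg : g(F_{M₀}) = g(F_{M₀,k})`  (W-P, EX_t, DISC-MOD);
* `auxSup_hno`       : `ord_P ssFun = 12` at every supersingular place, ALL `q`  (IG, REG);
* `auxSup_eps`       : `ε = 12` at every node of the level `q M₀`, ALL `q`  (REG `heps`);
* `auxSup_ss`        : there is a supersingular place;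
* `auxSup_igPack`    : the Igusa pair exists;
* `auxSup_exT`       : the datum `t` of W-P exists at every supersingular place.
-/

noncomputable section

namespace Fermat.Agent.S36G

open ModularCurve AlgebraicCurve Fermat.Agent.F3 Fermat.Agent.F3G Fermat.Agent.GaussInt
  Fermat.Agent.AtkinLehner Fermat.Agent.Deuring Fermat.Agent.RR Fermat.Agent.BadRed
  Fermat.Agent.EKp

local notation "Qb" => AlgebraicClosure ℚ

/-! ### arithmetic -/

theorem auxSup_two {q M₀ : ℕ} (h : AuxGood23 q M₀) : q = 2 → 3 ∣ M₀ := h.2.1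

theorem auxSup_three {q M₀ : ℕ} (h : AuxGood23 q M₀) : q = 3 → 2 ∣ M₀ := h.2.2

/-- the auxiliary level condition of cluster T. -/
theorem auxSup_levelOK {q M₀ : ℕ} (h : AuxGood23 q M₀) : AuxLevelOK q M₀ := ⟨h.2.1, h.2.2⟩

/-! ### geometry of `X₀(M₀)` mod `q` -/

/-- **good reduction** at the auxiliary level. -/
theorem auxSup_genus (M₀ : ℕ) [NeZero M₀] {q : ℕ} (hq : q.Prime) (hqM : ¬ q ∣ M₀)
    (h : AuxGood23 q M₀) {A : ValuationSubring Qb} (hA : A.LiesOverPrime q) :
    genusFF Qb ↥(modularFunctionFieldBar M₀) =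
      genusFF (IsLocalRing.ResidueField A)
        ↥(modularFunctionFieldFullC (IsLocalRing.ResidueField A) M₀) :=
  genusFF_eq_of_aux M₀ hq hqM (auxSup_levelOK h) hA

/-- **(HNO)**, all `q`: `ord_P ssFun = 12` at every supersingular place. -/
theorem auxSup_hno (M₀ : ℕ) [NeZero M₀] {q : ℕ} (hq : q.Prime) (hqM : ¬ q ∣ M₀)
    (h : AuxGood23 q M₀) {A : ValuationSubring Qb} (hA : A.LiesOverPrime q)
    (P : Place (IsLocalRing.ResidueField A)
      ↥(modularFunctionFieldFullC (IsLocalRing.ResidueField A) M₀))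
    (hP : IsSSPlace (IsLocalRing.ResidueField A) M₀ q P)
    (u : ↥(modularFunctionFieldFullC (IsLocalRing.ResidueField A) M₀))
    (hu : (u : LaurentSeries (IsLocalRing.ResidueField A)) =
      ssFun (IsLocalRing.ResidueField A) q) : P.ord u = 12 :=
  igHnoAll M₀ hq hqM (auxGood23_nuTwo h) (auxGood23_nuThree h) (auxSup_two h) (auxSup_three h)
    hA P hP u hu

/-- there is a supersingular place. -/
theorem auxSup_ss (M₀ : ℕ) [NeZero M₀] {q : ℕ} (hq : q.Prime) (hqM : ¬ q ∣ M₀)
    (h : AuxGood23 q M₀) {A : ValuationSubring Qb} (hA : A.LiesOverPrime q) :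
    Nonempty (ModSS A M₀ q) :=
  modSS_nonempty hq hqM (auxGood23_nuTwo h) (auxGood23_nuThree h) (auxSup_two h)
    (auxSup_three h) hA

/-- the Igusa pair exists. -/
theorem auxSup_igPack (M₀ q : ℕ) [NeZero M₀] [NeZero q] (hq : q.Prime) (hqM : ¬ q ∣ M₀)
    (h : AuxGood23 q M₀) (A : ValuationSubring Qb) (hA : A.LiesOverPrime q) :
    Nonempty (IgPack M₀ q A) :=
  nonempty_igPack M₀ q hq hqM (auxGood23_nuTwo h) (auxGood23_nuThree h) A hA

/-- **EX_t** at every supersingular place. -/
theorem auxSup_exT (M₀ : ℕ) [NeZero M₀] {q : ℕ} (hq : q.Prime) (hqM : ¬ q ∣ M₀)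
    (h : AuxGood23 q M₀) {A : ValuationSubring Qb} (hA : A.LiesOverPrime q)
    (P : Place (IsLocalRing.ResidueField A)
      ↥(modularFunctionFieldFullC (IsLocalRing.ResidueField A) M₀))
    (hP : IsSSPlace (IsLocalRing.ResidueField A) M₀ q P) :
    ∃ t0 : LaurentSeries ℚ, ExTDatum A q M₀ hq hA hqM P t0 :=
  exT q M₀ A hq hA hqM (auxSup_genus M₀ hq hqM h hA) P (seedOld_ord_jC_nonneg M₀ hq hA hP)

/-! ### the thickness at the level `q M₀` (REG) -/

/-- **`ε = 12` at every node**, all `q` (the hypothesis `heps` of `regw_final`, in the form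
`kpEps`). -/
theorem auxSup_eps (D : ALData) [NeZero D.Q] [NeZero D.R] [NeZero (D.Q * D.R)]
    (A : ValuationSubring Qb) (hq : D.Q.Prime) (hA : A.LiesOverPrime D.Q) (hqR : ¬ D.Q ∣ D.R)
    [Fact D.Q.Prime] [CharP (IsLocalRing.ResidueField A) D.Q]
    [PerfectRing (IsLocalRing.ResidueField A) D.Q]
    (h : AuxGood23 D.Q D.R) (i : kpIota D A hq hA hqR) :
    kpEps D A hq hA hqR i = 12 :=
  Fermat.Agent.S36Reg.kpEps_eq_twelve_all D A hq hA hqR (auxSup_levelOK h) (auxGood23_nuTwo h)
    (auxGood23_nuThree h) i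

end Fermat.Agent.S36G
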