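import Mathlib
import Fermat.Agent.S36.G.CocycleF3ActPack
import Fermat.Agent.S36.G.CoreBundleOf

set_option autoImplicit false
set_option linter.unusedSectionVars false
set_option linter.unusedVariables false
set_option linter.style.haveILetI false
set_option synthInstance.maxHeartbeats 400000

/-!
# Cluster G (S36), junction F3: `CboInert` for the modular family  (helper47)

* `f3a_cboInert` : **the junction output (F3)** `CboInert E (E.ymodX b nn) n`
                   (`S36/G/CoreBundleOf.lean`) for the modular family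
                   `E.S = vtxFamily Soo (valSetupZeroAt D₀ hM₀ Soo) I.S (fun P => (O P).S)`
                   (`= f3a_hact`, `S36/G/CocycleF3ActPack.lean`);
* `f3a_cboInert_gen` : the same on any family `E.S = vtxFamily Soo S0 Sm SP`
                   (`= f3a_hact_gen`, `S36/G/CocycleF3Act.lean`).

The plug for `X : ModWorld M₀ q A` is `f3a_cboInert_world` (`S36/G/CboInertWorld.lean`).
-/

noncomputable section

open AlgebraicCurve Fermat.Agent.RR Fermat.Agent.Deuring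

namespace Fermat.Agent.S36G

open ModularCurve Fermat.Agent.F3 Fermat.Agent.F3G Fermat.Agent.GaussInt
  Fermat.Agent.Kronecker Fermat.Agent.AtkinLehner Fermat.Agent.BadRed Fermat.Agent.BadRedG
  Fermat.Agent.BadRed.Gluing Fermat.Agent.HPVal Fermat.Agent.HP

local notation "Qb" => AlgebraicClosure ℚ

attribute [local instance 10000] SubalgebraClass.toAlgebra HahnSeries.powerSeriesAlgebra

variable {M₀ q : ℕ} [NeZero M₀] [NeZero q] [NeZero (M₀ * q)] {A : ValuationSubring Qb}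
  {Mid SS : Type} [Fintype Mid] [Fintype SS] [Nonempty SS]
  {FkP : SS → Type} [∀ P, Field (FkP P)] [∀ P, Algebra (IsLocalRing.ResidueField A) (FkP P)]

set_option maxHeartbeats 4000000 in
/-- **(F3), junction output** `CboInert E (E.ymodX b nn) n` on a family
`E.S = vtxFamily Soo S0 Sm SP`. -/
theorem f3a_cboInert_gen [DecidableEq Mid]
    (E : ModEndsInput Qb (FBar (M₀ * q * q)) (IsLocalRing.ResidueField A) Mid SS
      ↥(modularFunctionFieldFullC (IsLocalRing.ResidueField A) M₀)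
      (fun _ => ↥(igField (IsLocalRing.ResidueField A) M₀)) FkP)
    {Soo S0 : ValSetup Qb (FBar (M₀ * q * q)) (IsLocalRing.ResidueField A)
      ↥(modularFunctionFieldFullC (IsLocalRing.ResidueField A) M₀)}
    {Sm : Mid → ValSetup Qb (FBar (M₀ * q * q)) (IsLocalRing.ResidueField A)
      ↥(igField (IsLocalRing.ResidueField A) M₀)}
    {SP : ∀ P, ValSetup Qb (FBar (M₀ * q * q)) (IsLocalRing.ResidueField A) (FkP P)}
    (hq : q.Prime) (hqM : ¬ q ∣ M₀)
    (hD : IgMidDistinct M₀ q) (hSet : IgMidSetupExists M₀ q) (hA : A.LiesOverPrime q)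
    (hES : E.S = vtxFamily Soo S0 Sm SP)
    (hoo : IsGaussSetup (M₀ * q * q) M₀ A Soo)
    (D : ALData) (hM : M₀ * q * q = D.Q * D.R) (h0 : S0 = valSetupZeroAt D hM Soo)
    {z : Mid → Qbˣ}
    {ε : Mid → (↥(modularFunctionFieldBar (M₀ * q * q)) →ₐ[Qb] LaurentSeries Qb)}
    (prim : ∀ m, IsPrimitiveRoot (z m) q) (hε : ∀ m, IsMidExp M₀ q (z m) (ε m))
    (hS : ∀ m, IsMidSetup M₀ q A (ε m) (Sm m))
    (hne : ∀ m m', m ≠ m' → ¬ (Sm m).Ov ≤ (Sm m').Ov)
    (hPA : ∀ P, (SP P).A = A)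
    (hP : ∀ P, ∀ τ ∈ A.inertiaSubgroupIn ℚ,
      WpiStable (SP P) (arithmeticGalois (modularFunctionFieldFull (M₀ * q * q)) τ))
    (hdvd : q ∣ M₀ * q * q) (hu1 : E.u1 = uF (M₀ * q * q) q hdvd)
    (hu2 : E.u2 = E.u1 / algebraMap Qb (FBar (M₀ * q * q)) E.ϖ1)
    {ϖ : Qb} (hϖ : ϖ ≠ 0) {r m : ℕ} (hr : 0 < r) (hϖr : ϖ ^ r = (m : Qb)) {j1 j2 : ℕ}
    (h1 : E.ϖ1 = ϖ ^ j1) (h2 : E.ϖ2 = ϖ ^ j2)
    {b : Qb} {e : ℕ} (hbq : b = (q : Qb) ^ e) (nn n : ℕ) :
    CboInert E (E.ymodX b nn) n :=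
  f3a_hact_gen E hq hqM hD hSet hA hES hoo D hM h0 prim hε hS hne hPA hP hdvd hu1 hu2 hϖ hr hϖr
    h1 h2 hbq nn n

set_option maxHeartbeats 4000000 in
/-- **(F3), THE JUNCTION OUTPUT** `CboInert E (E.ymodX b nn) n` for the modular family. -/
theorem f3a_cboInert
    (E : ModEndsInput Qb (FBar (M₀ * q * q)) (IsLocalRing.ResidueField A) (Fin (midCard q)) SS
      ↥(modularFunctionFieldFullC (IsLocalRing.ResidueField A) M₀)
      (fun _ => ↥(igField (IsLocalRing.ResidueField A) M₀)) FkP)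
    (hq : q.Prime) (hqM : ¬ q ∣ M₀) (hA : A.LiesOverPrime q)
    (hD : IgMidDistinct M₀ q) (hSet : IgMidSetupExists M₀ q)
    (I : IgPack M₀ q A)
    {Soo : ValSetup Qb (FBar (M₀ * q * q)) (IsLocalRing.ResidueField A)
      ↥(modularFunctionFieldFullC (IsLocalRing.ResidueField A) M₀)}
    (hoo : IsGaussSetup (M₀ * q * q) M₀ A Soo)
    (D₀ : ALData) (hM₀ : M₀ * q * q = D₀.Q * D₀.R)
    {S0 : Fermat.Agent.S18Key.RedSetup Qb (FBar M₀) (IsLocalRing.ResidueField A)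
      ↥(modularFunctionFieldFullC (IsLocalRing.ResidueField A) M₀)}
    (hS0 : IsGaussRed M₀ A S0)
    {pl : SS → Place (IsLocalRing.ResidueField A)
      ↥(modularFunctionFieldFullC (IsLocalRing.ResidueField A) M₀)}
    (O : ∀ P : SS, WPOut M₀ q A S0 (pl P) (FkP P))
    (hES : E.S = vtxFamily Soo (valSetupZeroAt D₀ hM₀ Soo) I.S (fun P => (O P).S))
    (hdvd : q ∣ M₀ * q * q) (hu1 : E.u1 = uF (M₀ * q * q) q hdvd)
    (hu2 : E.u2 = E.u1 / algebraMap Qb (FBar (M₀ * q * q)) E.ϖ1)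
    {ϖ : Qb} (hϖ : ϖ ≠ 0) {r m : ℕ} (hr : 0 < r) (hϖr : ϖ ^ r = (m : Qb)) {j1 j2 : ℕ}
    (h1 : E.ϖ1 = ϖ ^ j1) (h2 : E.ϖ2 = ϖ ^ j2)
    {b : Qb} {e : ℕ} (hbq : b = (q : Qb) ^ e) (nn n : ℕ) :
    CboInert E (E.ymodX b nn) n :=
  f3a_hact E hq hqM hA hD hSet I hoo D₀ hM₀ hS0 O hES hdvd hu1 hu2 hϖ hr hϖr h1 h2 hbq nn n

end Fermat.Agent.S36G
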