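import Mathlib
import Fermat.Agent.S36.G.CboInertMod
import Fermat.Agent.S36.G.ModularGraphInst

set_option autoImplicit false
set_option linter.unusedSectionVars false
set_option linter.unusedVariables false
set_option linter.style.haveILetI false
set_option synthInstance.maxHeartbeats 400000

/-!
# Cluster G (S36), junction F3: `CboInert` for the modular world  (helper47)

`X : ModWorld M₀ q A` (`S36/G/ModularGraphInst.lean`, helper40).

* `f3a_div_pow`, `f3a_pow_pow` : `q ^ e / ϖ ^ e = ϖ ^ (e q)`, `(ϖ ^ e) ^ (q + 1) = q ^ e` for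
                   `ϖ ^ (q + 1) = q`;
* `f3a_cboInert_world` : **the plug for the modular world**: for `E` with `E.S = X.S`,
                   `E.u1 = u1 M₀ q`, `E.u2 = E.u1 / ϖ1`, `E.ϖ1 = ϖ ^ 12`,
                   `E.ϖ2 = q ^ 12 / ϖ ^ 12` (all `rfl` for `E = X.ends ..`) and
                   `b = E.ϖ1 ^ (q + 1)`:  `CboInert E (E.ymodX b (q + 1)) n`;
* `f3a_cboInert_world_aux` : the same with `IgMidDistinct`, `IgMidSetupExists` discharged
                   from `nuTwo M₀ = 0`, `nuThree M₀ = 0`.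
-/

noncomputable section

open AlgebraicCurve Fermat.Agent.RR Fermat.Agent.Deuring

namespace Fermat.Agent.S36G

open ModularCurve Fermat.Agent.F3 Fermat.Agent.F3G Fermat.Agent.GaussInt
  Fermat.Agent.Kronecker Fermat.Agent.AtkinLehner Fermat.Agent.BadRed Fermat.Agent.BadRedG
  Fermat.Agent.BadRed.Gluing Fermat.Agent.HPVal Fermat.Agent.HP

local notation "Qb" => AlgebraicClosure ℚ

attribute [local instance 10000] SubalgebraClass.toAlgebra HahnSeries.powerSeriesAlgebra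

/-- `q ^ e / ϖ ^ e = ϖ ^ (e q)` if `ϖ ^ (q + 1) = q`. -/
theorem f3a_div_pow {ϖ : Qb} {p : ℕ} (hϖ : ϖ ≠ 0) (h : ϖ ^ (p + 1) = (p : Qb)) (e : ℕ) :
    (p : Qb) ^ e / ϖ ^ e = ϖ ^ (e * p) := by
  rw [div_eq_iff (pow_ne_zero e hϖ), ← h, ← pow_mul, ← pow_add]
  congr 1
  ring

/-- `(ϖ ^ e) ^ (q + 1) = q ^ e` if `ϖ ^ (q + 1) = q`. -/
theorem f3a_pow_pow {ϖ : Qb} {p : ℕ} (h : ϖ ^ (p + 1) = (p : Qb)) (e : ℕ) :
    (ϖ ^ e) ^ (p + 1) = (p : Qb) ^ e := by
  rw [← h, ← pow_mul, ← pow_mul, mul_comm]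

section World

variable {M₀ q : ℕ} [NeZero M₀] [NeZero q] [NeZero (M₀ * q)] {A : ValuationSubring Qb}
  [Fact q.Prime] [CharP (IsLocalRing.ResidueField A) q]
  [PerfectRing (IsLocalRing.ResidueField A) q] (X : ModWorld M₀ q A)
  [Fintype (ModSS A M₀ q)] [Nonempty (ModSS A M₀ q)]

set_option maxHeartbeats 4000000 in
/-- **(F3), THE PLUG FOR THE MODULAR WORLD**: `CboInert E (E.ymodX b (q + 1)) n` for every
`E : ModEndsInput` over the family `X.S` with the parameters of `X.ends`. -/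
theorem f3a_cboInert_world
    (E : ModEndsInput Qb (FBar (M₀ * q * q)) (IsLocalRing.ResidueField A) (Fin (midCard q))
      (ModSS A M₀ q) ↥(modularFunctionFieldFullC (IsLocalRing.ResidueField A) M₀)
      (fun _ : Fin (midCard q) => ↥(igField (IsLocalRing.ResidueField A) M₀)) X.W.FkP)
    (hq : q.Prime) (hqM : ¬ q ∣ M₀) (hA : A.LiesOverPrime q)
    (hD : IgMidDistinct M₀ q) (hSet : IgMidSetupExists M₀ q)
    (hES : E.S = X.S) (hu1 : E.u1 = ModWorld.u1 M₀ q)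
    (hu2 : E.u2 = E.u1 / algebraMap Qb (FBar (M₀ * q * q)) E.ϖ1)
    (h1 : E.ϖ1 = X.ϖ ^ 12) (h2 : E.ϖ2 = (q : Qb) ^ 12 / X.ϖ ^ 12)
    {b : Qb} (hb : E.ϖ1 ^ (q + 1) = b) (n : ℕ) :
    CboInert E (E.ymodX b (q + 1)) n := by
  have hϖ0 : X.ϖ ≠ 0 := X.ϖ_ne hq
  have h2' : E.ϖ2 = X.ϖ ^ (12 * q) := by rw [h2, f3a_div_pow hϖ0 X.hϖ 12]
  have hbq : b = (q : Qb) ^ 12 := by rw [← hb, h1, f3a_pow_pow X.hϖ 12]
  exact f3a_cboInert E hq hqM hA hD hSet X.I X.hSoo X.D₀ X.hM₀ X.hS0 X.W.O (hES.trans X.S_eq)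
    (umid_dvd1 M₀ q) hu1 hu2 hϖ0 (Nat.succ_pos q) X.hϖ h1 h2' hbq (q + 1) n

set_option maxHeartbeats 4000000 in
/-- the same at an auxiliary level (`M₀` without elliptic points): `IgMidDistinct`,
`IgMidSetupExists` discharged. -/
theorem f3a_cboInert_world_aux
    (E : ModEndsInput Qb (FBar (M₀ * q * q)) (IsLocalRing.ResidueField A) (Fin (midCard q))
      (ModSS A M₀ q) ↥(modularFunctionFieldFullC (IsLocalRing.ResidueField A) M₀)
      (fun _ : Fin (midCard q) => ↥(igField (IsLocalRing.ResidueField A) M₀)) X.W.FkP)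
    (hq : q.Prime) (hqM : ¬ q ∣ M₀) (hA : A.LiesOverPrime q)
    (hν2 : nuTwo M₀ = 0) (hν3 : nuThree M₀ = 0)
    (hES : E.S = X.S) (hu1 : E.u1 = ModWorld.u1 M₀ q)
    (hu2 : E.u2 = E.u1 / algebraMap Qb (FBar (M₀ * q * q)) E.ϖ1)
    (h1 : E.ϖ1 = X.ϖ ^ 12) (h2 : E.ϖ2 = (q : Qb) ^ 12 / X.ϖ ^ 12)
    {b : Qb} (hb : E.ϖ1 ^ (q + 1) = b) (n : ℕ) :
    CboInert E (E.ymodX b (q + 1)) n :=
  f3a_cboInert_world X E hq hqM hA (igMidDistinct_aux M₀ q hν2 hν3)
    (igMidSetupExists_aux M₀ q hν2 hν3) hES hu1 hu2 h1 h2 hb n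

end World

end Fermat.Agent.S36G
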