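import Mathlib
import Fermat.Agent.S36.G.CocPlug1
import Fermat.Agent.S36.G.CocPv
import Fermat.Agent.S36.G.NormLayerInst
import Fermat.Agent.S36.G.NormLayerVert
import Fermat.Agent.S36.G.NormLayerHor
import Fermat.Agent.S36.G.NormLayerPI
import Fermat.Agent.S36.G.NrOOPack
import Fermat.Agent.S36.G.NrMid
import Fermat.Agent.Lib.FrobTrace.Residue

set_option autoImplicit false
set_option linter.unusedSectionVars false
set_option linter.unusedVariables false
set_option linter.style.haveILetI false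
set_option synthInstance.maxHeartbeats 400000
set_option maxHeartbeats 1000000

/-!
# Cluster G (S36), block COC, leaf COC-PLUG-1, the (RES) arguments  (helper60; sub-architect
helper36; plugs into helper75's `CocPlug1.lean`)

`F = FBar (M₀ q q)`, `A ∣ q`, `k` the residue field of `A`, `Mid = Fin (midCard q)`,
`Fk = FkOf F_k(M₀) (fun _ => igField k M₀) FkP`, `e = midDeg q`, `Nm = nm1 (M₀ q) q = π₁^* π₁_*`.
The constant reductions are the modular family

    `vtxFamily S_∞ (valSetupZeroAt D₀ hM₀ S_∞) I.S SP`,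

`S_∞` a Gauss reduction, `I : IgPack M₀ q A`.

* `cpr1_red_oo`, `cpr1_red_mid` : the (RES) arguments `red_oo`, `red_mid` of `normLayer1_of`
  (`S36/G/NormLayerOf.lean`) and of `cocPlug_layer1_of_res` VERBATIM, for ANY graph `N` with
  `N.S =` the modular family, from `igPack_red_oo` (helper94), `nrMid_red_mid1` (helper83);
  the third is `nlpi_red_zero1` (helper24);
* `cpr1_layer`     : **the norm layer for `π₁` of the modular seed** `G = E.ymodSeed ..`
  (`S36/Seed/Main.lean`), `N = G.graphSetup`, the field `layer1` of `CboNorm`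
  (`S36/G/CoreBundleOf.lean`): `cocPlug_layer1_of_res` (helper75) with (RES) plugged; inputs =
  `hES` (the family), `EndsRedA`, `EndsRed2` (SEED-UP) and the dictionary of `E.pv`
  (`E.pv P ∞ = pl P`, `E.pv P (mid m) = igPv (pl P)`);
* `cpr1_layer_sev` : the same with the dictionary in the shape of the seed,
  `E.pv P v = sevPv ι P v` (`S36/Seed/EndsVert.lean`; bridge `cocPv_sevMidPt_eq_igPv`, helper36).
-/

noncomputable section

open IntermediateField AlgebraicCurve

namespace Fermat.Agent.S36G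

open ModularCurve Fermat.Agent.F3 Fermat.Agent.F3G Fermat.Agent.GaussInt
  Fermat.Agent.AtkinLehner Fermat.Agent.Kronecker Fermat.Agent.BadRed Fermat.Agent.BadRedG
  Fermat.Agent.RR Fermat.Agent.S36 Fermat.Agent.HP Fermat.Agent.Deuring Fermat.Agent.S36N

local notation "Qb" => AlgebraicClosure ℚ

/-- shortcut (the instance found by unification is the same term, after a slow search). -/
local instance (priority := 10000) cpr1AlgFullC (A : ValuationSubring Qb) (N : ℕ) :
    Algebra (IsLocalRing.ResidueField A)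
      (modularFunctionFieldFullC (IsLocalRing.ResidueField A) N) :=
  SubalgebraClass.toAlgebra (modularFunctionFieldFullC (IsLocalRing.ResidueField A) N)

/-- shortcut. -/
local instance (priority := 10000) cpr1AlgIg (A : ValuationSubring Qb) (N : ℕ) :
    Algebra (IsLocalRing.ResidueField A) (igField (IsLocalRing.ResidueField A) N) :=
  SubalgebraClass.toAlgebra (igField (IsLocalRing.ResidueField A) N)

section Res

variable {M₀ q : ℕ} [NeZero M₀] [NeZero q] {A : ValuationSubring Qb} {SS : Type}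
  {FkP : SS → Type} [∀ P, Field (FkP P)] [∀ P, Algebra (IsLocalRing.ResidueField A) (FkP P)]
  (N : GraphSetup Qb (FBar (M₀ * q * q)) (IsLocalRing.ResidueField A)
    (Vtx (Fin (midCard q)) SS)
    (FkOf ↥(modularFunctionFieldFullC (IsLocalRing.ResidueField A) M₀)
      (fun _ : Fin (midCard q) => ↥(igField (IsLocalRing.ResidueField A) M₀)) FkP)
    (Nod (Fin (midCard q)) SS))
  (hq : q.Prime) (hqM : ¬ q ∣ M₀) (hA : A.LiesOverPrime q)
  (hν2 : nuTwo M₀ = 0) (hν3 : nuThree M₀ = 0)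
  (Soo : ValSetup Qb (FBar (M₀ * q * q)) (IsLocalRing.ResidueField A)
    (modularFunctionFieldFullC (IsLocalRing.ResidueField A) M₀))
  (hSoo : IsGaussSetup (M₀ * q * q) M₀ A Soo)
  (D₀ : ALData) (hM₀ : M₀ * q * q = D₀.Q * D₀.R) (hDQ : D₀.Q = q ^ 2)
  (I : IgPack M₀ q A)
  (SP : ∀ P, ValSetup Qb (FBar (M₀ * q * q)) (IsLocalRing.ResidueField A) (FkP P))
  (hN : N.S = vtxFamily Soo (valSetupZeroAt D₀ hM₀ Soo) I.S SP)

include hN in
theorem cpr1_S_oo : N.S (Vtx.vert Vrt.oo) = Soo := by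
  rw [hN]
  rfl

include hN in
theorem cpr1_S_mid (m : Fin (midCard q)) : N.S (Vtx.vert (Vrt.mid m)) = I.S m := by
  rw [hN]
  rfl

include hq hqM hA hν2 hν3 hSoo hN in
/-- **the argument `red_oo` of `normLayer1_of`** (`Nm = nm1 (M₀ q) q`), verbatim. -/
theorem cpr1_red_oo :
    letI := nliAlgOo (IsLocalRing.ResidueField A) M₀ FkP (Mid := Fin (midCard q))
    ∀ g : FBar (M₀ * q * q), (∀ c, g ∈ (N.S c).Ov) → (∀ c, (N.S c).red g ≠ 0) →
      (N.S (Vtx.vert Vrt.oo)).red (nm1 (M₀ * q) q g) =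
        (N.S (Vtx.vert Vrt.oo)).red g *
          ∏ m, Algebra.norm
            ((FkOf ↥(modularFunctionFieldFullC (IsLocalRing.ResidueField A) M₀)
              (fun _ : Fin (midCard q) => ↥(igField (IsLocalRing.ResidueField A) M₀)) FkP)
              (Vtx.vert Vrt.oo))
            ((N.S (Vtx.vert (Vrt.mid m))).red g) := by
  intro g hg _
  have hgoo : g ∈ Soo.Ov := by
    have h := hg (Vtx.vert Vrt.oo)
    rw [cpr1_S_oo N Soo D₀ hM₀ I SP hN] at h
    exact h
  have hgm : ∀ m, g ∈ (I.S m).Ov := by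
    intro m
    have h := hg (Vtx.vert (Vrt.mid m))
    rw [cpr1_S_mid N Soo D₀ hM₀ I SP hN m] at h
    exact h
  have key := (igPack_red_oo I hq hqM hA hν2 hν3 Soo hSoo hgoo hgm).2
  rw [cpr1_S_oo N Soo D₀ hM₀ I SP hN]
  refine key.trans ?_
  congr 1
  refine Finset.prod_congr rfl fun m _ => ?_
  rw [cpr1_S_mid N Soo D₀ hM₀ I SP hN m]
  rfl

include hq hA hSoo hN in
/-- **the argument `red_mid` of `normLayer1_of`** (`Nm = nm1 (M₀ q) q`), verbatim. -/
theorem cpr1_red_mid :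
    letI := nliAlgOo (IsLocalRing.ResidueField A) M₀ FkP (Mid := Fin (midCard q))
    ∀ g : FBar (M₀ * q * q), (∀ c, g ∈ (N.S c).Ov) → (∀ c, (N.S c).red g ≠ 0) → ∀ m,
      (N.S (Vtx.vert (Vrt.mid m))).red (nm1 (M₀ * q) q g) =
        algebraMap
          ((FkOf ↥(modularFunctionFieldFullC (IsLocalRing.ResidueField A) M₀)
            (fun _ : Fin (midCard q) => ↥(igField (IsLocalRing.ResidueField A) M₀)) FkP)
            (Vtx.vert Vrt.oo))
          ((FkOf ↥(modularFunctionFieldFullC (IsLocalRing.ResidueField A) M₀)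
            (fun _ : Fin (midCard q) => ↥(igField (IsLocalRing.ResidueField A) M₀)) FkP)
            (Vtx.vert (Vrt.mid m)))
          ((N.S (Vtx.vert Vrt.oo)).red (nm1 (M₀ * q) q g)) := by
  intro g _ _ m
  have key := nrMid_red_mid1 hq A hA Soo hSoo (I.isMidExp m) (I.S m) (I.isMidSetup m) g
  rw [cpr1_S_oo N Soo D₀ hM₀ I SP hN, cpr1_S_mid N Soo D₀ hM₀ I SP hN m]
  exact key

end Res

/-! ### the layer for the modular seed -/

attribute [local instance] Fermat.Agent.GaussInt.isAlgClosed_residue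

section Plug

variable {M₀ q : ℕ} [NeZero M₀] [NeZero q] {A : ValuationSubring Qb}
  {SS : Type} [Fintype SS] [Nonempty SS]
  {FkP : SS → Type} [∀ P, Field (FkP P)] [∀ P, Algebra (IsLocalRing.ResidueField A) (FkP P)]
  (E : ModEndsInput Qb (FBar (M₀ * q * q)) (IsLocalRing.ResidueField A) (Fin (midCard q)) SS
    ↥(modularFunctionFieldFullC (IsLocalRing.ResidueField A) M₀)
    (fun _ : Fin (midCard q) => ↥(igField (IsLocalRing.ResidueField A) M₀)) FkP)
  {b : Qb} {nn : ℕ}
  (hn : 2 ≤ nn) (hb : E.ϖ1 ^ nn = b) (h12 : E.ϖ1 * E.ϖ2 = b)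
  (hu2 : E.u2 = E.u1 / algebraMap Qb (FBar (M₀ * q * q)) E.ϖ1)
  (hD₀ : E.D₀ = poleDiv (E.S (Vtx.vert Vrt.oo)).hF (E.ymodX b nn))
  (hdeg : Divisor.degree (poleDiv (E.S (Vtx.vert Vrt.oo)).hF (E.ymodX b nn)) ≤
    ∑ c, Divisor.degree (poleDiv (E.S c).hFk ((E.S c).red (E.ymodX b nn))))
  (hgenus : genusFF Qb (FBar (M₀ * q * q)) + Fintype.card (Vtx (Fin (midCard q)) SS) ≤
    (∑ c, genusFF (IsLocalRing.ResidueField A)
      (FkOf ↥(modularFunctionFieldFullC (IsLocalRing.ResidueField A) M₀)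
        (fun _ : Fin (midCard q) => ↥(igField (IsLocalRing.ResidueField A) M₀)) FkP c)) +
      Fintype.card (Nod (Fin (midCard q)) SS) + 1)

/-- **the norm layer for `π₁` of the modular seed** (the field `layer1` of `CboNorm`):
instances, (VERT), (DIV), (HOR) and (RES) are ALL plugged.  Inputs: the family `hES`, the
SEED-UP shapes `hxA`, `hx2` and the dictionary of the vertical branches
(`E.pv P ∞ = pl P`, `E.pv P (mid m) = igPv (pl P)`, `pl P` supersingular, `ord ssFun = 12`). -/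
theorem cpr1_layer [CharP (IsLocalRing.ResidueField A) q]
    (hqp : q.Prime) (hqM : ¬ q ∣ M₀) (hA : A.LiesOverPrime q)
    (hν2 : nuTwo M₀ = 0) (hν3 : nuThree M₀ = 0)
    (D₀ : ALData) (hM₀ : M₀ * q * q = D₀.Q * D₀.R) (hDQ : D₀.Q = q ^ 2)
    {R0 : Fermat.Agent.S18Key.RedSetup Qb (FBar M₀) (IsLocalRing.ResidueField A)
      ↥(modularFunctionFieldFullC (IsLocalRing.ResidueField A) M₀)}
    {pt : SS → Place (IsLocalRing.ResidueField A)
      ↥(modularFunctionFieldFullC (IsLocalRing.ResidueField A) M₀)}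
    (O : ∀ P : SS, WPOut M₀ q A R0 (pt P) (FkP P))
    {Soo : ValSetup Qb (FBar (M₀ * q * q)) (IsLocalRing.ResidueField A)
      ↥(modularFunctionFieldFullC (IsLocalRing.ResidueField A) M₀)}
    (hSoo : IsGaussSetup (M₀ * q * q) M₀ A Soo)
    (I : IgPack M₀ q A)
    (hES : E.S = vtxFamily Soo (valSetupZeroAt D₀ hM₀ Soo) I.S fun P => (O P).S)
    (hxA : EndsRedA E.S (nlhHP O) (algebraMap Qb (FBar (M₀ * q * q)) E.ϖA / E.uA))
    (hx2 : EndsRed2 E.S (nlhHP O) E.u2)
    (hRR : IsRRField (IsLocalRing.ResidueField A) ↥(igField (IsLocalRing.ResidueField A) M₀))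
    (pl : SS → Place (IsLocalRing.ResidueField A)
      ↥(modularFunctionFieldFullC (IsLocalRing.ResidueField A) M₀))
    (hoo : ∀ P, E.pv P Vrt.oo = pl P)
    (hmid : ∀ P m, E.pv P (Vrt.mid m) =
      igPv M₀ q hqp hqM (IsLocalRing.ResidueField A) hRR (pl P))
    (hSS : ∀ P, IsSSPlace (IsLocalRing.ResidueField A) M₀ q (pl P))
    (hno : ∀ P, ∀ u : ↥(modularFunctionFieldFullC (IsLocalRing.ResidueField A) M₀),
      (u : LaurentSeries (IsLocalRing.ResidueField A)) = ssFun (IsLocalRing.ResidueField A) q →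
        (pl P).ord u = 12)
    (n : ℕ) :
    Nonempty (NormLayer1 (E.ymodSeed hn hb h12 hu2 hD₀ hdeg hgenus).graphSetup n q (midDeg q)
      (nm1 (M₀ * q) q)) := by
  exact cocPlug_layer1_of_res E hn hb h12 hu2 hD₀ hdeg hgenus hqp hqM hA O hES hxA hx2 hRR pl
    hoo hmid hSS hno n
    (cpr1_red_oo (E.ymodSeed hn hb h12 hu2 hD₀ hdeg hgenus).graphSetup hqp hqM hA
      hν2 hν3 Soo hSoo D₀ hM₀ I (fun P => (O P).S) hES)
    (cpr1_red_mid (E.ymodSeed hn hb h12 hu2 hD₀ hdeg hgenus).graphSetup hqp hA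
      Soo hSoo D₀ hM₀ I (fun P => (O P).S) hES)
    (nlpi_red_zero1 (E.ymodSeed hn hb h12 hu2 hD₀ hdeg hgenus).graphSetup hSoo D₀ hM₀
      hDQ hES hqp hqM hA)

/-- **the norm layer for `π₁` of the modular seed**, the vertical branches in the shape of the
seed (`S36/Seed/EndsVert.lean`): `E.pv P v = sevPv ι P v`, `ι P` supersingular with
`ord ssFun = 12`. -/
theorem cpr1_layer_sev [CharP (IsLocalRing.ResidueField A) q]
    (hqp : q.Prime) (hqM : ¬ q ∣ M₀) (hA : A.LiesOverPrime q)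
    (hν2 : nuTwo M₀ = 0) (hν3 : nuThree M₀ = 0)
    (D₀ : ALData) (hM₀ : M₀ * q * q = D₀.Q * D₀.R) (hDQ : D₀.Q = q ^ 2)
    {R0 : Fermat.Agent.S18Key.RedSetup Qb (FBar M₀) (IsLocalRing.ResidueField A)
      ↥(modularFunctionFieldFullC (IsLocalRing.ResidueField A) M₀)}
    {pt : SS → Place (IsLocalRing.ResidueField A)
      ↥(modularFunctionFieldFullC (IsLocalRing.ResidueField A) M₀)}
    (O : ∀ P : SS, WPOut M₀ q A R0 (pt P) (FkP P))
    {Soo : ValSetup Qb (FBar (M₀ * q * q)) (IsLocalRing.ResidueField A)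
      ↥(modularFunctionFieldFullC (IsLocalRing.ResidueField A) M₀)}
    (hSoo : IsGaussSetup (M₀ * q * q) M₀ A Soo)
    (I : IgPack M₀ q A)
    (hES : E.S = vtxFamily Soo (valSetupZeroAt D₀ hM₀ Soo) I.S fun P => (O P).S)
    (hxA : EndsRedA E.S (nlhHP O) (algebraMap Qb (FBar (M₀ * q * q)) E.ϖA / E.uA))
    (hx2 : EndsRed2 E.S (nlhHP O) E.u2)
    (hRR : IsRRField (IsLocalRing.ResidueField A) ↥(igField (IsLocalRing.ResidueField A) M₀))
    (ι : SS → Place (IsLocalRing.ResidueField A)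
      ↥(modularFunctionFieldFullC (IsLocalRing.ResidueField A) M₀))
    (hpv : ∀ P v, E.pv P v = sevPv M₀ q hqp hqM (IsLocalRing.ResidueField A) FkP ι P v)
    (hSS : ∀ P, IsSSPlace (IsLocalRing.ResidueField A) M₀ q (ι P))
    (hno : ∀ P, ∀ u : ↥(modularFunctionFieldFullC (IsLocalRing.ResidueField A) M₀),
      (u : LaurentSeries (IsLocalRing.ResidueField A)) = ssFun (IsLocalRing.ResidueField A) q →
        (ι P).ord u = 12)
    (n : ℕ) :
    Nonempty (NormLayer1 (E.ymodSeed hn hb h12 hu2 hD₀ hdeg hgenus).graphSetup n q (midDeg q)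
      (nm1 (M₀ * q) q)) :=
  cpr1_layer E hn hb h12 hu2 hD₀ hdeg hgenus hqp hqM hA hν2 hν3 D₀ hM₀ hDQ O hSoo I hES
    hxA hx2 hRR ι (fun P => hpv P Vrt.oo)
    (fun P m => (hpv P (Vrt.mid m)).trans
      (cocPv_sevMidPt_eq_igPv M₀ q hqp hqM (IsLocalRing.ResidueField A) hRR (ι P) (hSS P)
        (hno P)))
    hSS hno n

end Plug

end Fermat.Agent.S36G
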