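import Mathlib
import Fermat.Agent.S36.G.CoreBundleLevel

set_option autoImplicit false
set_option linter.unusedSectionVars false
set_option linter.style.haveILetI false

/-!
# Cluster G (S36): the END junction with a GENERIC auxiliary condition  (helper3)

The geometric seats ask for conditions on the prime-to-`q` part `M₀` of the level
(`AuxGood23 q M₀`; possibly `4 ∣ M₀ ∨ 9 ∣ M₀` for (REG), ..).  Every condition `Good q M₀` which can
be reached by multiplying `M₀` by a factor prime to `q` is allowed: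

* `s36Statement_of_coreBundleGood` : **frozen S36 (as `S36B.S36Statement`)** from

    `hex : ∀ q M₀, q prime, M₀ ≠ 0, q ∤ M₀ → ∃ R ≠ 0, R prime to q, Good q (M₀ * R)`,
    `hB  : ∀ q M₀, q prime, q ∤ M₀, Good q M₀ → ∃ P ∣ q, Nonempty (CoreBundle (M₀ * q) q P)`;

* `AuxGood49 q M₀ := AuxGood23 q M₀ ∧ (4 ∣ M₀ ∨ 9 ∣ M₀)`, `exists_auxGood49`,
  `s36Statement_of_coreBundle49` : the instance with the condition of (REG).
-/

noncomputable section

namespace Fermat.Agent.S36G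

open Fermat.Agent.S36B

local notation "Qb" => AlgebraicClosure ℚ

/-- the level predicate of the generic top wiring: `M = M₀ q²` with `q ∤ M₀` and `Good q M₀`. -/
def LevelGood (Good : ℕ → ℕ → Prop) (q M : ℕ) : Prop :=
  ∃ M₀ : ℕ, M₀ ≠ 0 ∧ ¬ q ∣ M₀ ∧ M = M₀ * q * q ∧ M / q = M₀ * q ∧ Good q M₀

theorem exists_levelGood (Good : ℕ → ℕ → Prop)
    (hex : ∀ q M₀ : ℕ, q.Prime → M₀ ≠ 0 → ¬ q ∣ M₀ →
      ∃ R : ℕ, R ≠ 0 ∧ Nat.Coprime R q ∧ Good q (M₀ * R))
    {q M : ℕ} (hM : M ≠ 0) (hq : q.Prime) (h2 : M.factorization q = 2) :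
    ∃ R : ℕ, R ≠ 0 ∧ Nat.Coprime R q ∧ LevelGood Good q (M * R) := by
  obtain ⟨M₀, hM₀, hndvd, hMeq, _⟩ := exists_level_of_factorization_two hM hq h2
  obtain ⟨R, hR, hcop, hgood⟩ := hex q M₀ hq hM₀ hndvd
  refine ⟨R, hR, hcop, M₀ * R, Nat.mul_ne_zero hM₀ hR, ?_, ?_, ?_, hgood⟩
  · intro hdvd
    rcases (Nat.Prime.dvd_mul hq).mp hdvd with h | h
    · exact hndvd h
    · have h1 : q ∣ Nat.gcd R q := Nat.dvd_gcd h dvd_rfl
      rw [Nat.Coprime] at hcop
      rw [hcop] at h1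
      exact hq.one_lt.ne' (Nat.dvd_one.mp h1)
  · rw [hMeq]
    ring
  · have h3 : M * R = M₀ * R * q * q := by
      rw [hMeq]
      ring
    rw [h3]
    exact Nat.mul_div_cancel _ hq.pos

/-- the hypothesis of `coreOdd_of_good` from a bundle at every good level. -/
theorem coreAt_of_coreBundleGood (Good : ℕ → ℕ → Prop)
    (hB : ∀ (q M₀ : ℕ) [NeZero M₀] [NeZero q] [NeZero (M₀ * q)], q.Prime → ¬ q ∣ M₀ →
      Good q M₀ →
      ∃ P : ValuationSubring Qb, P.LiesOverPrime q ∧ Nonempty (CoreBundle (M₀ * q) q P))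
    (lam q M : ℕ) [NeZero M] [NeZero q] [hMq : NeZero (M / q)] (hlam : lam.Prime)
    (hq : q.Prime) (hql : q ≠ lam) (hgood : LevelGood Good q M) : CoreAt lam M q := by
  refine coreAt_of_coreFunAt lam M q hlam.ne_zero ?_
  obtain ⟨M₀, hM₀, hndvd, _, hdiv, hg⟩ := hgood
  haveI : NeZero M₀ := ⟨hM₀⟩
  revert hMq
  rw [hdiv]
  intro hMq
  obtain ⟨P, hP, ⟨B⟩⟩ := hB q M₀ hq hndvd hg
  have hq1 : q ^ 2 - 1 ≠ 0 := by
    have h2 : 2 ≤ q := hq.two_le
    have h4 : 4 ≤ q ^ 2 := by nlinarith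
    omega
  refine ⟨B.c₁ * (q ^ 2 - 1), Nat.mul_ne_zero B.hc₁ hq1, P, hP, fun n => ?_⟩
  refine B.coreFunAt hP (pow_ne_zero n hlam.ne_zero) ?_
  exact Nat.Coprime.pow_left n ((Nat.coprime_primes hlam hq).mpr (fun h => hql h.symm))

/-- **frozen S36 (as `S36Statement`) from a bundle at every good level, generic form.** -/
theorem s36Statement_of_coreBundleGood (Good : ℕ → ℕ → Prop)
    (hex : ∀ q M₀ : ℕ, q.Prime → M₀ ≠ 0 → ¬ q ∣ M₀ →
      ∃ R : ℕ, R ≠ 0 ∧ Nat.Coprime R q ∧ Good q (M₀ * R))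
    (hB : ∀ (q M₀ : ℕ) [NeZero M₀] [NeZero q] [NeZero (M₀ * q)], q.Prime → ¬ q ∣ M₀ →
      Good q M₀ →
      ∃ P : ValuationSubring Qb, P.LiesOverPrime q ∧ Nonempty (CoreBundle (M₀ * q) q P)) :
    S36Statement :=
  s36Statement_of_coreOdd
    (coreOdd_of_good (fun _ q M => LevelGood Good q M)
      (fun _ q M _ _ hq _ hq2 =>
        exists_levelGood Good hex (q := q) (M := M)
          (fun h0 => by rw [h0] at hq2; simp at hq2) hq hq2)
      (fun lam q M _ _ _ hlam _ hq hql _ hgood =>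
        coreAt_of_coreBundleGood Good hB lam q M hlam hq hql hgood))

/-! ### the instance with the condition of (REG) -/

/-- `AuxGood23` and `4 ∣ M₀` or `9 ∣ M₀`. -/
def AuxGood49 (q M : ℕ) : Prop := AuxGood23 q M ∧ (4 ∣ M ∨ 9 ∣ M)

theorem auxGood23_mul_right {q M : ℕ} (h : AuxGood23 q M) (R : ℕ) : AuxGood23 q (M * R) :=
  ⟨auxGood_mul_right h.1 R, fun hq => Dvd.dvd.mul_right (h.2.1 hq) R,
    fun hq => Dvd.dvd.mul_right (h.2.2 hq) R⟩

theorem exists_auxGood49 (q M : ℕ) (hq : q.Prime) :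
    ∃ R : ℕ, R ≠ 0 ∧ Nat.Coprime R q ∧ AuxGood49 q (M * R) := by
  obtain ⟨R, hR, hcop, hgood⟩ := exists_auxGood23 q M hq
  by_cases h2 : q = 2
  · refine ⟨R * 9, Nat.mul_ne_zero hR (by norm_num), ?_, ?_, Or.inr ?_⟩
    · exact Nat.Coprime.mul_left hcop (by rw [h2]; norm_num)
    · rw [← mul_assoc]
      exact auxGood23_mul_right hgood 9
    · exact Dvd.dvd.mul_left (Dvd.intro_left R rfl) M
  · refine ⟨R * 4, Nat.mul_ne_zero hR (by norm_num), ?_, ?_, Or.inl ?_⟩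
    · refine Nat.Coprime.mul_left hcop ?_
      have h4 : (4 : ℕ) = 2 ^ 2 := by norm_num
      rw [h4]
      exact Nat.Coprime.pow_left 2 ((Nat.coprime_primes Nat.prime_two hq).mpr (fun h => h2 h.symm))
    · rw [← mul_assoc]
      exact auxGood23_mul_right hgood 4
    · exact Dvd.dvd.mul_left (Dvd.intro_left R rfl) M

/-- **frozen S36 (as `S36Statement`) from a bundle at every level `M₀ * q * q` with
`AuxGood23 q M₀` and `4 ∣ M₀ ∨ 9 ∣ M₀`.** -/
theorem s36Statement_of_coreBundle49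
    (hB : ∀ (q M₀ : ℕ) [NeZero M₀] [NeZero q] [NeZero (M₀ * q)], q.Prime → ¬ q ∣ M₀ →
      AuxGood23 q M₀ → (4 ∣ M₀ ∨ 9 ∣ M₀) →
      ∃ P : ValuationSubring Qb, P.LiesOverPrime q ∧ Nonempty (CoreBundle (M₀ * q) q P)) :
    S36Statement :=
  s36Statement_of_coreBundleGood AuxGood49
    (fun q M₀ hq _ _ => exists_auxGood49 q M₀ hq)
    (fun q M₀ _ _ _ hq hqM hgood => hB q M₀ hq hqM hgood.1 hgood.2)

end Fermat.Agent.S36G
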