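/-
G sprint (S36), bridge seat BR-NEWVEC / port P-b.  Owner: helper23.

The two corestrictions `coresPar N q`, `coresParD N q : HomPar (N q) → HomPar N` commute with the
Hecke operators `T_ℓ`, `ℓ ∤ N q`, also when `q ∣ N` (the case `q² ∣ N q` of S36).

For `q ∣ N` the index of `Γ₀(N q)` in `Γ₀(N)` is `q`: right coset representatives are
`[1, 0; N k, 1]`, `k ∈ ℤ / q`; the index of `δ Γ₀(N q) δ⁻¹` in `Γ₀(N)` is `q` too, with
representatives `[1, t; 0, 1]`, `t ∈ ℤ / q`.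
-/
import Fermat.Agent.L.Degen.HeckeComm
import Fermat.Agent.L.Degen.CoresIndex
import Fermat.Agent.F3.EigenChar.Deg

set_option autoImplicit false

noncomputable section

namespace Fermat.Agent.S36G

open CongruenceSubgroup Matrix.SpecialLinearGroup ModularCurve.Period
open Fermat.Agent.F3EC Fermat.Agent.L Fermat.Agent.LDeg
open scoped MatrixGroups
open P2MW.S_ModularForm_heckeT_slash_eq_self_of_mem_Gamma0.ModularForm.HeckeSlashInvariance

variable {N q : ℕ}

/-! ### the diagonal of an element of `Γ₀(N)` modulo a divisor `q` of `N` -/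

theorem cd_q_dvd_lower (hqN : q ∣ N) (g : Gamma0 N) : (q : ℤ) ∣ (g : SL(2, ℤ)) 1 0 :=
  Dvd.dvd.trans (by exact_mod_cast hqN) (Gamma0_dvd g)

/-- The diagonal entries of an element of `Γ₀(N)` are inverse to each other mod `q`, `q ∣ N`. -/
theorem cd_diag_mul_mod (hqN : q ∣ N) (g : Gamma0 N) :
    (((g : SL(2, ℤ)) 0 0 : ℤ) : ZMod q) * (((g : SL(2, ℤ)) 1 1 : ℤ) : ZMod q) = 1 := by
  have h := det_Gamma0 g
  have h2 : (((g : SL(2, ℤ)) 1 0 : ℤ) : ZMod q) = 0 :=
    (ZMod.intCast_zmod_eq_zero_iff_dvd _ _).mpr (cd_q_dvd_lower hqN g)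
  have := congrArg (Int.cast : ℤ → ZMod q) h
  push_cast at this
  rw [h2, mul_zero, sub_zero] at this
  exact this

/-! ### the inclusion `Γ₀(N q) ⊂ Γ₀(N)` -/

section Incl

variable (N q)

/-- Right coset representatives of `Γ₀(N q)` in `Γ₀(N)` for `q ∣ N`: `r_k = [1, 0; N k, 1]`. -/
def lowRep (k : ZMod q) : Gamma0 N := mkGamma0 N !![1, 0; (N : ℤ) * (k.val : ℤ), 1]

theorem coe_lowRep (k : ZMod q) :
    (((lowRep N q k : Gamma0 N) : SL(2, ℤ)) : Matrix (Fin 2) (Fin 2) ℤ) =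
      !![1, 0; (N : ℤ) * (k.val : ℤ), 1] :=
  coe_mkGamma0 (by simp [Matrix.det_fin_two_of]) (by simp)

variable {N q}

theorem mem_Gamma0_mul_of_dvd {g : SL(2, ℤ)} {c : ℤ} (h1 : g 1 0 = (N : ℤ) * c)
    (h2 : (q : ℤ) ∣ c) : g ∈ Gamma0 (N * q) := by
  rw [mem_Gamma0_iff_dvd, h1]
  push_cast
  exact mul_dvd_mul_left _ h2

variable [NeZero q]

/-- Every element of `Γ₀(N)` lies in some coset `Γ₀(N q) r_k`. -/
theorem cover_incl_dvd (hqN : q ∣ N) (g : Gamma0 N) :
    ∃ (k : ZMod q) (e : Gamma0 (N * q)), g = incl N q e * lowRep N q k := by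
  obtain ⟨c, hc⟩ := Gamma0_dvd g
  have hdiag := cd_diag_mul_mod hqN g
  set k : ZMod q := (c : ZMod q) * (((g : SL(2, ℤ)) 0 0 : ℤ) : ZMod q) with hk
  set R : Gamma0 N := lowRep N q k with hR
  have hRm := coe_lowRep N q k
  have he0 : (g : SL(2, ℤ)) * ((R : Gamma0 N) : SL(2, ℤ))⁻¹ ∈ Gamma0 (N * q) := by
    have hentry : ((g : SL(2, ℤ)) * ((R : Gamma0 N) : SL(2, ℤ))⁻¹) 1 0 =
        (N : ℤ) * (c - (g : SL(2, ℤ)) 1 1 * (k.val : ℤ)) := by
      rw [Matrix.SpecialLinearGroup.coe_mul, Matrix.SpecialLinearGroup.coe_inv,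
        Matrix.adjugate_fin_two, hRm]
      simp [Matrix.mul_apply, Fin.sum_univ_two]
      rw [hc]
      ring
    refine mem_Gamma0_mul_of_dvd hentry ?_
    rw [← ZMod.intCast_zmod_eq_zero_iff_dvd]
    push_cast
    rw [ZMod.natCast_zmod_val, hk]
    linear_combination (-(c : ZMod q)) * hdiag
  refine ⟨k, ⟨_, he0⟩, ?_⟩
  apply Subtype.ext
  rw [Subgroup.coe_mul, incl_coe]
  show (g : SL(2, ℤ)) = (g : SL(2, ℤ)) * ((R : Gamma0 N) : SL(2, ℤ))⁻¹ * (R : SL(2, ℤ))
  rw [inv_mul_cancel_right]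

/-- The cosets `Γ₀(N q) r_k` are pairwise distinct. -/
theorem distinct_incl_dvd [NeZero N] : CosetsDistinct (incl N q) (lowRep N q) := by
  intro k k' e h
  have hN0 : (N : ℤ) ≠ 0 := by exact_mod_cast NeZero.ne N
  have hm : (((lowRep N q k : Gamma0 N) : SL(2, ℤ)) : Matrix (Fin 2) (Fin 2) ℤ) =
      ((e : SL(2, ℤ)) : Matrix (Fin 2) (Fin 2) ℤ) *
        (((lowRep N q k' : Gamma0 N) : SL(2, ℤ)) : Matrix (Fin 2) (Fin 2) ℤ) := by
    rw [h, coe_Gamma0_mul, incl_coe]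
  have e10 := congrFun (congrFun hm 1) 0
  have e11 := congrFun (congrFun hm 1) 1
  rw [coe_lowRep, coe_lowRep] at e10 e11
  simp [Matrix.mul_apply, Fin.sum_univ_two, -ZMod.natCast_val] at e10 e11
  obtain ⟨c, hc⟩ := Gamma0_dvd e
  have hc' : (e : SL(2, ℤ)) 1 0 = (N : ℤ) * ((q : ℤ) * c) := by
    rw [hc]; push_cast; ring
  rw [← e11, one_mul, hc'] at e10
  have h3 : ((k.val : ℤ) : ℤ) = (q : ℤ) * c + (k'.val : ℤ) := by
    apply mul_left_cancel₀ hN0
    linear_combination e10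
  have h4 := congrArg (Int.cast : ℤ → ZMod q) h3
  push_cast at h4
  rw [ZMod.natCast_zmod_val, ZMod.natCast_zmod_val, ZMod.natCast_self, zero_mul, zero_add] at h4
  exact h4

/-- The wreath hom of the corestriction along `incl`, `q ∣ N`. -/
def coresW2 [NeZero N] (hqN : q ∣ N) :
    WreathHom (Gamma0 N) (Gamma0 (N * q)) (ZMod q) :=
  WreathHom.ofUnique (ι := MonoidHom.id (Gamma0 N)) (ι' := incl N q) (rep := lowRep N q)
    (fun γ i => by
      obtain ⟨y, e, h⟩ := cover_incl_dvd hqN (lowRep N q i * γ)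
      exact ⟨y, e, h⟩)
    (Subgroup.inclusion_injective _) distinct_incl_dvd

theorem coresW2_realizes [NeZero N] (hqN : q ∣ N) :
    (coresW2 hqN).Realizes (MonoidHom.id (Gamma0 N)) (incl N q) (lowRep N q) :=
  WreathHom.ofUnique_realizes _ _ _

/-- The corestriction along `incl` is the operator of `coresW2`. -/
theorem coresAll_eq_op2 [NeZero N] (hqN : q ∣ N) (A : Type*) [AddCommGroup A]
    (c : Additive (Gamma0 (N * q)) →+ A) :
    L.coresAll N q A c = (coresW2 hqN).op A c :=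
  coresFun_eq_op (L.incl N q) (incl_injective N q) (coresW2 hqN) (lowRep N q)
    (coresW2_realizes hqN) distinct_incl_dvd A c

theorem index_incl_dvd [NeZero N] (hqN : q ∣ N) : (L.incl N q).range.index = q := by
  rw [index_range_of_realizes (coresW2_realizes hqN) distinct_incl_dvd, ZMod.card]

end Incl

/-! ### the twisted inclusion `γ ↦ δ γ δ⁻¹` -/

section InclD

variable (N q)

/-- Right coset representatives of `δ Γ₀(N q) δ⁻¹` in `Γ₀(N)` for `q ∣ N`: `[1, t; 0, 1]`. -/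
def upRep (t : ZMod q) : Gamma0 N := translG N (t.val : ℤ)

theorem coe_upRep (t : ZMod q) :
    (((upRep N q t : Gamma0 N) : SL(2, ℤ)) : Matrix (Fin 2) (Fin 2) ℤ) =
      !![1, (t.val : ℤ); 0, 1] :=
  coe_translG N _

variable {N q} [NeZero q]

/-- Every element of `Γ₀(N)` lies in some coset `δ Γ₀(N q) δ⁻¹ r_t`. -/
theorem cover_inclD_dvd (hqN : q ∣ N) (g : Gamma0 N) :
    ∃ (t : ZMod q) (e : Gamma0 (N * q)), g = inclD N q e * upRep N q t := by
  have hdiag := cd_diag_mul_mod hqN g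
  set t : ZMod q := (((g : SL(2, ℤ)) 0 1 : ℤ) : ZMod q) * (((g : SL(2, ℤ)) 1 1 : ℤ) : ZMod q)
    with ht
  have hmem : (q : ℤ) ∣ ((g * (upRep N q t)⁻¹ : Gamma0 N) : SL(2, ℤ)) 0 1 := by
    have hentry : ((g * (upRep N q t)⁻¹ : Gamma0 N) : SL(2, ℤ)) 0 1 =
        - (g : SL(2, ℤ)) 0 0 * (t.val : ℤ) + (g : SL(2, ℤ)) 0 1 := by
      rw [Subgroup.coe_mul, Subgroup.coe_inv, Matrix.SpecialLinearGroup.coe_mul,
        Matrix.SpecialLinearGroup.coe_inv, Matrix.adjugate_fin_two, coe_upRep]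
      simp [Matrix.mul_apply, Fin.sum_univ_two, -ZMod.natCast_val]
    rw [hentry, ← ZMod.intCast_zmod_eq_zero_iff_dvd]
    push_cast
    rw [ZMod.natCast_zmod_val, ht]
    linear_combination (-(((g : SL(2, ℤ)) 0 1 : ℤ) : ZMod q)) * hdiag
  obtain ⟨e, he⟩ := exists_inclD_eq _ hmem
  exact ⟨t, e, by rw [he, inv_mul_cancel_right]⟩

/-- The cosets `δ Γ₀(N q) δ⁻¹ r_t` are pairwise distinct. -/
theorem distinct_inclD_dvd : CosetsDistinct (inclD N q) (upRep N q) := by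
  intro t t' e h
  have hm : (((upRep N q t : Gamma0 N) : SL(2, ℤ)) : Matrix (Fin 2) (Fin 2) ℤ) =
      (((inclD N q e : Gamma0 N) : SL(2, ℤ)) : Matrix (Fin 2) (Fin 2) ℤ) *
        (((upRep N q t' : Gamma0 N) : SL(2, ℤ)) : Matrix (Fin 2) (Fin 2) ℤ) := by
    rw [h, coe_Gamma0_mul]
  have e00 := congrFun (congrFun hm 0) 0
  have e01 := congrFun (congrFun hm 0) 1
  rw [Matrix.mul_apply, Fin.sum_univ_two] at e00 e01
  have h00 := inclD_apply_zero_zero e
  have h01 := inclD_apply_zero_one e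
  change (((inclD N q e : Gamma0 N) : SL(2, ℤ)) : Matrix (Fin 2) (Fin 2) ℤ) 0 0 = _ at h00
  change (((inclD N q e : Gamma0 N) : SL(2, ℤ)) : Matrix (Fin 2) (Fin 2) ℤ) 0 1 = _ at h01
  rw [h00, h01] at e00 e01
  rw [coe_upRep, coe_upRep] at e00 e01
  simp [-ZMod.natCast_val] at e00 e01
  have h1 := congrArg (Int.cast : ℤ → ZMod q) e01
  push_cast at h1
  rw [← e00, ZMod.natCast_zmod_val, ZMod.natCast_zmod_val, ZMod.natCast_self, zero_mul,
    add_zero] at h1
  simpa using h1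

/-- The wreath hom of the corestriction along `inclD`, `q ∣ N`. -/
def coresDW2 (hqN : q ∣ N) :
    WreathHom (Gamma0 N) (Gamma0 (N * q)) (ZMod q) :=
  WreathHom.ofUnique (ι := MonoidHom.id (Gamma0 N)) (ι' := inclD N q) (rep := upRep N q)
    (fun γ i => by
      obtain ⟨y, e, h⟩ := cover_inclD_dvd hqN (upRep N q i * γ)
      exact ⟨y, e, h⟩)
    (inclD_injective N q) distinct_inclD_dvd

theorem coresDW2_realizes (hqN : q ∣ N) :
    (coresDW2 hqN).Realizes (MonoidHom.id (Gamma0 N)) (inclD N q) (upRep N q) :=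
  WreathHom.ofUnique_realizes _ _ _

/-- The corestriction along `inclD` is the operator of `coresDW2`. -/
theorem coresAllD_eq_op2 (hqN : q ∣ N) (A : Type*) [AddCommGroup A]
    (c : Additive (Gamma0 (N * q)) →+ A) :
    L.coresAllD N q A c = (coresDW2 hqN).op A c :=
  coresFun_eq_op (L.inclD N q) (L.inclD_injective N q) (coresDW2 hqN) (upRep N q)
    (coresDW2_realizes hqN) distinct_inclD_dvd A c

theorem index_inclD_dvd (hqN : q ∣ N) : (L.inclD N q).range.index = q := by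
  rw [index_range_of_realizes (coresDW2_realizes hqN) distinct_inclD_dvd, ZMod.card]

end InclD

/-! ### commutation with the Hecke operators -/

section HeckeComm

variable {ℓ : ℕ} [Fact ℓ.Prime]

/-- The lower left entries in a Hecke relation, for a modulus prime to `ℓ`. -/
theorem heckeInt_lowerLeft_coprime (g g' : Matrix (Fin 2) (Fin 2) ℤ) (x x' : OnePoint (ZMod ℓ))
    (h : heckeInt ℓ x * g = g' * heckeInt ℓ x') {K : ℕ} (hK : ¬ ℓ ∣ K)
    (hg' : (K : ℤ) ∣ g' 1 0) : (K : ℤ) ∣ g 1 0 := by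
  have e10 := congrFun (congrFun h 1) 0
  have hℓ : ℓ.Prime := Fact.out
  have hcop : IsCoprime (K : ℤ) (ℓ : ℤ) := by
    rw [Int.isCoprime_iff_gcd_eq_one, Int.gcd_natCast_natCast]
    exact (Nat.Coprime.symm ((Nat.Prime.coprime_iff_not_dvd hℓ).mpr hK))
  have key : (K : ℤ) ∣ (ℓ : ℤ) * g 1 0 ∨ (K : ℤ) ∣ g 1 0 := by
    induction x using OnePoint.rec with
    | infty =>
      right
      induction x' using OnePoint.rec with
      | infty =>
        have e : g 1 0 = g' 1 0 * (ℓ : ℤ) := by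
          simpa [Matrix.mul_apply, Fin.sum_univ_two] using e10
        rw [e]
        exact Dvd.dvd.mul_right hg' _
      | coe k' =>
        have e : g 1 0 = g' 1 0 := by
          simpa [Matrix.mul_apply, Fin.sum_univ_two] using e10
        rw [e]
        exact hg'
    | coe k =>
      left
      induction x' using OnePoint.rec with
      | infty =>
        have e : (ℓ : ℤ) * g 1 0 = g' 1 0 * (ℓ : ℤ) := by
          simpa [Matrix.mul_apply, Fin.sum_univ_two] using e10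
        rw [e]
        exact Dvd.dvd.mul_right hg' _
      | coe k' =>
        have e : (ℓ : ℤ) * g 1 0 = g' 1 0 := by
          simpa [Matrix.mul_apply, Fin.sum_univ_two] using e10
        rw [e]
        exact hg'
  rcases key with h1 | h1
  · exact hcop.dvd_of_dvd_mul_left h1
  · exact h1

variable [NeZero q]

/-- `cores` commutes with `T_ℓ`, at the level of wreath homs (`q ∣ N`). -/
theorem coresW2_op_comm [NeZero N] (hqN : q ∣ N) (hℓN : ¬ ℓ ∣ N) (hℓNq : ¬ ℓ ∣ N * q)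
    (A : Type*) [AddCommGroup A] :
    ((coresW2 hqN).op A).comp (heckeHomAll hℓNq A) =
      (heckeHomAll hℓN A).comp ((coresW2 hqN).op A) := by
  have hℓ0 : ℓ ≠ 0 := (Fact.out : ℓ.Prime).ne_zero
  rw [← heckeW_op, ← heckeW_op]
  refine WreathHom.op_comm_of_transfer (iotaG_injective N) (Subgroup.inclusion_injective _)
    (coresW2_realizes hqN) distinct_incl_dvd (cover_incl_dvd hqN)
    (heckeW_realizes hℓN) (heckeRep_cosetsDistinct N)
    (H' := heckeW hℓNq) (α' := heckeRep ℓ) (heckeW_realizes hℓNq)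
    (heckeRep_cosetsDistinct (N * q)) (fun x => ⟨x, 1, by simp⟩) ?_ rfl A
  intro x x'' g n h
  have h' : heckeRep ℓ x * iotaG N g = iotaG (N * q) n * heckeRep ℓ x'' := h
  rw [heckeRep_eq_intGL hℓ0, heckeRep_eq_intGL hℓ0, iotaG_eq_intGL, iotaG_eq_intGL,
    intGL_mul_eq_mul_iff] at h'
  have hdvd := heckeInt_lowerLeft_coprime _ _ x x'' h' hℓNq (Gamma0_dvd n)
  exact ⟨⟨(g : SL(2, ℤ)), mem_Gamma0_iff_dvd.mpr hdvd⟩, Subtype.ext rfl⟩

/-- `cores` commutes with `T_ℓ` (`q ∣ N`). -/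
theorem coresAll_heckeHomAll_dvd [NeZero N] (hqN : q ∣ N) (hℓN : ¬ ℓ ∣ N)
    (hℓNq : ¬ ℓ ∣ N * q) (A : Type*) [AddCommGroup A] (c : Additive (Gamma0 (N * q)) →+ A) :
    coresAll N q A (heckeHomAll hℓNq A c) = heckeHomAll hℓN A (coresAll N q A c) := by
  rw [coresAll_eq_op2 hqN, coresAll_eq_op2 hqN]
  exact congrFun (congrArg DFunLike.coe (coresW2_op_comm hqN hℓN hℓNq A)) c

variable [Fact q.Prime]

/-- `cores_δ` commutes with `T_ℓ`, at the level of wreath homs (`q ∣ N`). -/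
theorem coresDW2_op_comm (hqN : q ∣ N) (hℓN : ¬ ℓ ∣ N) (hℓNq : ¬ ℓ ∣ N * q) (A : Type*)
    [AddCommGroup A] :
    ((coresDW2 hqN).op A).comp (heckeHomAll hℓNq A) =
      (heckeHomAll hℓN A).comp ((coresDW2 hqN).op A) := by
  have hq : q.Prime := Fact.out
  have hqℓ : q ≠ ℓ := by
    rintro rfl
    exact hℓNq (Dvd.intro_left _ rfl)
  rw [← heckeW_op, ← heckeW_op]
  have hH' : (heckeW hℓNq).Realizes ((iotaG N).comp (inclD N q)) ((iotaG N).comp (inclD N q))
      (fun x => conjDelta q (heckeRep ℓ x)) := by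
    have := (heckeW_realizes hℓNq).map (conjDelta q)
    rwa [conjDelta_comp_iotaG] at this
  have hα' : CosetsDistinct ((iotaG N).comp (inclD N q))
      (fun x : OnePoint (ZMod ℓ) => conjDelta q (heckeRep ℓ x)) := by
    intro x x' n h
    have h1 : conjDelta q (heckeRep ℓ x) =
        ((iotaG N).comp (inclD N q)) n * conjDelta q (heckeRep ℓ x') := h
    rw [← conjDelta_comp_iotaG, MonoidHom.comp_apply, ← map_mul] at h1
    have h2 := (MulAut.conj (heckeRep q OnePoint.infty)).injective h1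
    exact heckeRep_cosetsDistinct (N * q) x x' n h2
  refine WreathHom.op_comm_of_transfer (iotaG_injective N) (inclD_injective N q)
    (coresDW2_realizes hqN) distinct_inclD_dvd (cover_inclD_dvd hqN)
    (heckeW_realizes hℓN) (heckeRep_cosetsDistinct N)
    (H' := heckeW hℓNq) hH' hα' ?_ ?_ rfl A
  · intro x
    obtain ⟨τ, hτ⟩ := exists_delta_heckeRep (q := q) N x
    refine ⟨mulQ q ℓ x, τ, ?_⟩
    show heckeRep q OnePoint.infty * heckeRep ℓ x * (heckeRep q OnePoint.infty)⁻¹ = _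
    rw [hτ, ← mul_assoc, mul_inv_cancel_right]
  · intro x x'' g n h
    exact exists_inclD_eq g (q_dvd_of_conjDelta hqℓ x x'' g n h) |>.imp fun m hm => hm.symm

/-- `cores_δ` commutes with `T_ℓ` (`q ∣ N`). -/
theorem coresAllD_heckeHomAll_dvd (hqN : q ∣ N) (hℓN : ¬ ℓ ∣ N) (hℓNq : ¬ ℓ ∣ N * q)
    (A : Type*) [AddCommGroup A] (c : Additive (Gamma0 (N * q)) →+ A) :
    coresAllD N q A (heckeHomAll hℓNq A c) = heckeHomAll hℓN A (coresAllD N q A c) := by
  rw [coresAllD_eq_op2 hqN, coresAllD_eq_op2 hqN]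
  exact congrFun (congrArg DFunLike.coe (coresDW2_op_comm hqN hℓN hℓNq A)) c

end HeckeComm

/-! ### on `HomPar` -/

section Par

variable [NeZero q]

/-- The transfer `HomPar (N q) → HomPar N` commutes with `T_ℓ`, `ℓ ∤ N q` (`q ∣ N`). -/
theorem coresPar_heckeHom_dvd [NeZero N] (hqN : q ∣ N) (ℓ : Nat.Primes)
    (hℓ : ¬ (ℓ : ℕ) ∣ N * q) (c : HomPar (N * q)) :
    coresPar N q (heckeHom (N * q) ℓ c) = heckeHom N ℓ (coresPar N q c) := by
  have : Fact (ℓ : ℕ).Prime := ⟨ℓ.2⟩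
  have hℓN : ¬ (ℓ : ℕ) ∣ N := fun h' => hℓ (Dvd.dvd.mul_right h' q)
  apply Subtype.ext
  rw [coresPar_coe, heckeHom_coe ℓ hℓ, heckeHom_coe ℓ hℓN, coresPar_coe]
  exact coresAll_heckeHomAll_dvd hqN hℓN hℓ ℤ c.1

/-- The twisted transfer `HomPar (N q) → HomPar N` commutes with `T_ℓ`, `ℓ ∤ N q` (`q ∣ N`). -/
theorem coresParD_heckeHom_dvd (hq : q.Prime) (hqN : q ∣ N) (ℓ : Nat.Primes)
    (hℓ : ¬ (ℓ : ℕ) ∣ N * q) (c : HomPar (N * q)) :
    coresParD N q (heckeHom (N * q) ℓ c) = heckeHom N ℓ (coresParD N q c) := by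
  have : Fact q.Prime := ⟨hq⟩
  have : Fact (ℓ : ℕ).Prime := ⟨ℓ.2⟩
  have hℓN : ¬ (ℓ : ℕ) ∣ N := fun h' => hℓ (Dvd.dvd.mul_right h' q)
  apply Subtype.ext
  rw [coresParD_coe, heckeHom_coe ℓ hℓ, heckeHom_coe ℓ hℓN, coresParD_coe]
  exact coresAllD_heckeHomAll_dvd hqN hℓN hℓ ℤ c.1

/-- The transfer commutes with `T_ℓ`, `ℓ ∤ N q`, for every prime `q`. -/
theorem coresPar_heckeHom_all [NeZero N] (hq : q.Prime) (ℓ : Nat.Primes)
    (hℓ : ¬ (ℓ : ℕ) ∣ N * q) (c : HomPar (N * q)) :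
    coresPar N q (heckeHom (N * q) ℓ c) = heckeHom N ℓ (coresPar N q c) := by
  by_cases hqN : q ∣ N
  · exact coresPar_heckeHom_dvd hqN ℓ hℓ c
  · exact coresPar_heckeHom hq hqN ℓ hℓ c

/-- The twisted transfer commutes with `T_ℓ`, `ℓ ∤ N q`, for every prime `q`. -/
theorem coresParD_heckeHom_all (hq : q.Prime) (ℓ : Nat.Primes)
    (hℓ : ¬ (ℓ : ℕ) ∣ N * q) (c : HomPar (N * q)) :
    coresParD N q (heckeHom (N * q) ℓ c) = heckeHom N ℓ (coresParD N q c) := by
  by_cases hqN : q ∣ N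
  · exact coresParD_heckeHom_dvd hq hqN ℓ hℓ c
  · exact coresParD_heckeHom hq hqN ℓ hℓ c

/-- `β₁ ∘ res = q` for `q ∣ N`. -/
theorem coresPar_resPar_dvd [NeZero N] (hqN : q ∣ N) (c : HomPar N) :
    coresPar N q (L.resPar N q c) = (q : ℤ) • c := by
  apply Subtype.ext
  have : (L.incl N q).range.FiniteIndex :=
    finiteIndex_range_of_realizes (coresW2_realizes hqN)
  have h := coresFun_comp (incl_injective N q) c.1 (A := ℤ)
  rw [index_incl_dvd hqN] at h
  have h2 : (((q : ℤ) • c : HomPar N) : Additive (Gamma0 N) →+ ℤ) = q • c.1 := by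
    rw [← natCast_zsmul]
    rfl
  rw [h2, ← h]
  rfl

/-- `β₂ ∘ res_δ = q` for `q ∣ N`. -/
theorem coresParD_resParD_dvd (hqN : q ∣ N) (c : HomPar N) :
    coresParD N q (L.resParD N q c) = (q : ℤ) • c := by
  apply Subtype.ext
  have : (L.inclD N q).range.FiniteIndex :=
    finiteIndex_range_of_realizes (coresDW2_realizes hqN)
  have h := coresFun_comp (L.inclD_injective N q) c.1 (A := ℤ)
  rw [index_inclD_dvd hqN] at h
  have h2 : (((q : ℤ) • c : HomPar N) : Additive (Gamma0 N) →+ ℤ) = q • c.1 := by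
    rw [← natCast_zsmul]
    rfl
  rw [h2, ← h]
  rfl

end Par

end Fermat.Agent.S36G
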