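/-
Cluster G (S36), block COC, seat NL-VAL / ENDS-DICT (helper31): the horizontal value fields of
`NormLayer1`, `NormLayer2` for the CONCRETE base fields `E_P = k(X₁)`, `k(X₂)` (intermediate fields
`k⟮X₁⟯`, `k⟮X₂⟯` of `k(H_P)`, the shape of (N3), (N3') in `S36/Norm/HorSqueeze.lean`):

* `nl_val_NP_X1_adjoin`, `nl_val_NP_X2_adjoin` : from the identification of the branches with
  the ends (`hInf`, `hZero`, `hmid`);
* `nl_val_NP_X1_adjoin_div`, `nl_val_NP_X2_adjoin_div` : from (DIV1), (DIV2) in sign form.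
-/
import Mathlib
import Fermat.Agent.S36.G.EndsDict

set_option autoImplicit false
set_option linter.unusedSectionVars false
set_option linter.unusedVariables false
set_option linter.style.haveILetI false

noncomputable section

open IntermediateField AlgebraicCurve

namespace Fermat.Agent.S36G

open Fermat.Agent.RR Fermat.Agent.S36 Fermat.Agent.HP Fermat.Agent.Deuring
open Fermat.Agent.BadRed Fermat.Agent.BadRedG

variable {K F k : Type*} [Field K] [Field F] [Algebra K F] [Field k]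

variable {Mid SS : Type} [Fintype Mid] {Fk : Vtx Mid SS → Type*} [∀ c, Field (Fk c)]
  [∀ c, Algebra k (Fk c)]

variable (N : GraphSetup K F k (Vtx Mid SS) Fk (Nod Mid SS))
  (hsrc : ∀ i, N.src i = nodSrc i) (htgt : ∀ i, N.tgt i = nodTgt i)

variable {q : ℕ} [IsAlgClosed k] (hq1 : ((q + 1 : ℕ) : k) ≠ 0)
  (HP : ∀ P : SS, HPCurve k (Fk (Vtx.hor P)) q)

include hq1 in
/-- **fields `val_NP_oo`, `val_NP_zero` of `NormLayer1`**, `NP = N_{k(H_P)/k⟮X₁⟯}`. -/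
theorem nl_val_NP_X1_adjoin
    (hInf : ∀ P, nlTgt N htgt P Vrt.oo = (HP P).pInf hq1)
    (hZero : ∀ P, nlTgt N htgt P Vrt.zero = (HP P).pZero hq1)
    (hmid : ∀ P (v : Place k (Fk (Vtx.hor P))),
      0 < v.ord ((HP P).s - algebraMap k (Fk (Vtx.hor P)) 1) ↔
        ∃ m, v = nlTgt N htgt P (Vrt.mid m))
    (e : ℕ) (he : ∀ P m, (-((nlTgt N htgt P (Vrt.mid m)).ord (HP P).X1)).toNat = e)
    (NP : ∀ P : SS, Fk (Vtx.hor P) →* Fk (Vtx.hor P))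
    (hNP : ∀ P y, NP P y =
      algebraMap k⟮(HP P).X1⟯ (Fk (Vtx.hor P)) (Algebra.norm k⟮(HP P).X1⟯ y)) :
    (∀ (P : SS) (h H : ∀ c, Fk c) (ca : k) (cm : Mid → k),
      H (Vtx.hor P) = NP P (h (Vtx.hor P)) →
      ValAt (N.s₂ (P, Vrt.oo)) (h (N.tgt (P, Vrt.oo))) ca →
      (∀ m, ValAt (N.s₂ (P, Vrt.mid m)) (h (N.tgt (P, Vrt.mid m))) (cm m)) →
      ValAt (N.s₂ (P, Vrt.oo)) (H (N.tgt (P, Vrt.oo))) (ca * ∏ m, cm m ^ e) ∧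
        ∀ m, ValAt (N.s₂ (P, Vrt.mid m)) (H (N.tgt (P, Vrt.mid m))) (ca * ∏ m, cm m ^ e)) ∧
    (∀ (P : SS) (h H : ∀ c, Fk c) (c : k),
      H (Vtx.hor P) = NP P (h (Vtx.hor P)) →
      ValAt (N.s₂ (P, Vrt.zero)) (h (N.tgt (P, Vrt.zero))) c →
      ValAt (N.s₂ (P, Vrt.zero)) (H (N.tgt (P, Vrt.zero))) (c ^ q)) := by
  haveI : ∀ P, FiniteDimensional k⟮(HP P).X1⟯ (Fk (Vtx.hor P)) := fun P =>
    (HP P).finiteDimensional_X1
  exact nl_val_NP_X1 N htgt hq1 HP (E := fun P => k⟮(HP P).X1⟯)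
    (x := fun P => AdjoinSimple.gen k (HP P).X1)
    (fun P => vnx_adjoin_gen_eq_top (HP P).X1)
    (fun P => AdjoinSimple.algebraMap_gen k (HP P).X1) hInf hZero hmid e he NP hNP

include hq1 in
/-- **fields `val_NP_zero`, `val_NP_oo` of `NormLayer2`**, `NP = N_{k(H_P)/k⟮X₂⟯}`. -/
theorem nl_val_NP_X2_adjoin
    (hInf : ∀ P, nlTgt N htgt P Vrt.oo = (HP P).pInf hq1)
    (hZero : ∀ P, nlTgt N htgt P Vrt.zero = (HP P).pZero hq1)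
    (hmid : ∀ P (v : Place k (Fk (Vtx.hor P))),
      0 < v.ord ((HP P).s - algebraMap k (Fk (Vtx.hor P)) 1) ↔
        ∃ m, v = nlTgt N htgt P (Vrt.mid m))
    (e : ℕ) (he : ∀ P m, (-((nlTgt N htgt P (Vrt.mid m)).ord (HP P).X1)).toNat = e)
    (NP : ∀ P : SS, Fk (Vtx.hor P) →* Fk (Vtx.hor P))
    (hNP : ∀ P y, NP P y =
      algebraMap k⟮(HP P).X2⟯ (Fk (Vtx.hor P)) (Algebra.norm k⟮(HP P).X2⟯ y)) :
    (∀ (P : SS) (h H : ∀ c, Fk c) (ca : k) (cm : Mid → k),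
      H (Vtx.hor P) = NP P (h (Vtx.hor P)) →
      ValAt (N.s₂ (P, Vrt.zero)) (h (N.tgt (P, Vrt.zero))) ca →
      (∀ m, ValAt (N.s₂ (P, Vrt.mid m)) (h (N.tgt (P, Vrt.mid m))) (cm m)) →
      ValAt (N.s₂ (P, Vrt.zero)) (H (N.tgt (P, Vrt.zero))) (ca * ∏ m, cm m ^ e) ∧
        ∀ m, ValAt (N.s₂ (P, Vrt.mid m)) (H (N.tgt (P, Vrt.mid m))) (ca * ∏ m, cm m ^ e)) ∧
    (∀ (P : SS) (h H : ∀ c, Fk c) (c : k),
      H (Vtx.hor P) = NP P (h (Vtx.hor P)) →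
      ValAt (N.s₂ (P, Vrt.oo)) (h (N.tgt (P, Vrt.oo))) c →
      ValAt (N.s₂ (P, Vrt.oo)) (H (N.tgt (P, Vrt.oo))) (c ^ q)) := by
  haveI : ∀ P, FiniteDimensional k⟮(HP P).X2⟯ (Fk (Vtx.hor P)) := fun P =>
    (HP P).finiteDimensional_X2 hq1
  exact nl_val_NP_X2 N htgt hq1 HP (E := fun P => k⟮(HP P).X2⟯)
    (x := fun P => AdjoinSimple.gen k (HP P).X2)
    (fun P => vnx_adjoin_gen_eq_top (HP P).X2)
    (fun P => AdjoinSimple.algebraMap_gen k (HP P).X2) hInf hZero hmid e he NP hNP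

include hq1 in
/-- **fields `val_NP_oo`, `val_NP_zero` of `NormLayer1`** from (DIV1), (DIV2),
`NP = N_{k(H_P)/k⟮X₁⟯}`. -/
theorem nl_val_NP_X1_adjoin_div
    (hI : ∀ P, 0 < (nlTgt N htgt P Vrt.oo).ord (HP P).X2)
    (hZ : ∀ P, 0 < (nlTgt N htgt P Vrt.zero).ord (HP P).X1)
    (e : ℕ) (hm1 : ∀ P m, (nlTgt N htgt P (Vrt.mid m)).ord (HP P).X1 = -(e : ℤ)) (he : 0 < e)
    (hm2 : ∀ P m, ¬ 0 < (nlTgt N htgt P (Vrt.mid m)).ord (HP P).X2)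
    (hcover : ∀ P (v : Place k (Fk (Vtx.hor P))), v.ord (HP P).X1 < 0 →
      ∃ w, v = nlTgt N htgt P w)
    (NP : ∀ P : SS, Fk (Vtx.hor P) →* Fk (Vtx.hor P))
    (hNP : ∀ P y, NP P y =
      algebraMap k⟮(HP P).X1⟯ (Fk (Vtx.hor P)) (Algebra.norm k⟮(HP P).X1⟯ y)) :
    (∀ (P : SS) (h H : ∀ c, Fk c) (ca : k) (cm : Mid → k),
      H (Vtx.hor P) = NP P (h (Vtx.hor P)) →
      ValAt (N.s₂ (P, Vrt.oo)) (h (N.tgt (P, Vrt.oo))) ca →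
      (∀ m, ValAt (N.s₂ (P, Vrt.mid m)) (h (N.tgt (P, Vrt.mid m))) (cm m)) →
      ValAt (N.s₂ (P, Vrt.oo)) (H (N.tgt (P, Vrt.oo))) (ca * ∏ m, cm m ^ e) ∧
        ∀ m, ValAt (N.s₂ (P, Vrt.mid m)) (H (N.tgt (P, Vrt.mid m))) (ca * ∏ m, cm m ^ e)) ∧
    (∀ (P : SS) (h H : ∀ c, Fk c) (c : k),
      H (Vtx.hor P) = NP P (h (Vtx.hor P)) →
      ValAt (N.s₂ (P, Vrt.zero)) (h (N.tgt (P, Vrt.zero))) c →
      ValAt (N.s₂ (P, Vrt.zero)) (H (N.tgt (P, Vrt.zero))) (c ^ q)) := by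
  have hd := nl_dict N htgt hq1 HP hI hZ (fun P m => by rw [hm1]; omega) hm2 hcover
  exact nl_val_NP_X1_adjoin N htgt hq1 HP (fun P => (hd P).1) (fun P => (hd P).2.1)
    (fun P => (hd P).2.2) e (fun P m => by rw [hm1, neg_neg, Int.toNat_natCast]) NP hNP

include hq1 in
/-- **fields `val_NP_zero`, `val_NP_oo` of `NormLayer2`** from (DIV1), (DIV2),
`NP = N_{k(H_P)/k⟮X₂⟯}`. -/
theorem nl_val_NP_X2_adjoin_div
    (hI : ∀ P, 0 < (nlTgt N htgt P Vrt.oo).ord (HP P).X2)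
    (hZ : ∀ P, 0 < (nlTgt N htgt P Vrt.zero).ord (HP P).X1)
    (e : ℕ) (hm1 : ∀ P m, (nlTgt N htgt P (Vrt.mid m)).ord (HP P).X1 = -(e : ℤ)) (he : 0 < e)
    (hm2 : ∀ P m, ¬ 0 < (nlTgt N htgt P (Vrt.mid m)).ord (HP P).X2)
    (hcover : ∀ P (v : Place k (Fk (Vtx.hor P))), v.ord (HP P).X1 < 0 →
      ∃ w, v = nlTgt N htgt P w)
    (NP : ∀ P : SS, Fk (Vtx.hor P) →* Fk (Vtx.hor P))
    (hNP : ∀ P y, NP P y =
      algebraMap k⟮(HP P).X2⟯ (Fk (Vtx.hor P)) (Algebra.norm k⟮(HP P).X2⟯ y)) :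
    (∀ (P : SS) (h H : ∀ c, Fk c) (ca : k) (cm : Mid → k),
      H (Vtx.hor P) = NP P (h (Vtx.hor P)) →
      ValAt (N.s₂ (P, Vrt.zero)) (h (N.tgt (P, Vrt.zero))) ca →
      (∀ m, ValAt (N.s₂ (P, Vrt.mid m)) (h (N.tgt (P, Vrt.mid m))) (cm m)) →
      ValAt (N.s₂ (P, Vrt.zero)) (H (N.tgt (P, Vrt.zero))) (ca * ∏ m, cm m ^ e) ∧
        ∀ m, ValAt (N.s₂ (P, Vrt.mid m)) (H (N.tgt (P, Vrt.mid m))) (ca * ∏ m, cm m ^ e)) ∧
    (∀ (P : SS) (h H : ∀ c, Fk c) (c : k),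
      H (Vtx.hor P) = NP P (h (Vtx.hor P)) →
      ValAt (N.s₂ (P, Vrt.oo)) (h (N.tgt (P, Vrt.oo))) c →
      ValAt (N.s₂ (P, Vrt.oo)) (H (N.tgt (P, Vrt.oo))) (c ^ q)) := by
  have hd := nl_dict N htgt hq1 HP hI hZ (fun P m => by rw [hm1]; omega) hm2 hcover
  exact nl_val_NP_X2_adjoin N htgt hq1 HP (fun P => (hd P).1) (fun P => (hd P).2.1)
    (fun P => (hd P).2.2) e (fun P m => by rw [hm1, neg_neg, Int.toNat_natCast]) NP hNP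

end Fermat.Agent.S36G
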