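/-
Cluster G (S36), block COC, seat ENDS-DICT, modular part, the seed graph (helper15).

For the graph `N = (E.toMatchInput.seed x ..).graphSetup` of the modular seed the hypotheses
`hsrc`, `htgt`, `hN` of `S36/G/EndsDictMod.lean` (and of `S36/G/NormLayerVal.lean`,
`S36/G/EndsDict.lean`) hold by `rfl`:

* `edm_seed_hsrc`, `edm_seed_htgt` : `N.src i = nodSrc i`, `N.tgt i = nodTgt i`;
* `edm_seed_hN`    : `⟨N.tgt i, N.s₂ i⟩ = E.toMatchInput.ptH i`;
* `edm_seed_s₁`    : `⟨N.src i, N.s₁ i⟩ = E.toMatchInput.ptV i.1 i.2`;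
* `edm_seed_nlSrc` : `nlSrc N hsrc P v = E.pv P v`;
* `edm_seed_nlTgt` : `nlTgt N htgt P v = E.toMatchInput.s₂ (P, v)`.
-/
import Mathlib
import Fermat.Agent.S36.G.EndsDictMod
import Fermat.Agent.Lib.BadRed.Graph.Deuring.Main

set_option autoImplicit false
set_option linter.unusedSectionVars false
set_option linter.unusedVariables false
set_option linter.style.haveILetI false

noncomputable section

open IntermediateField AlgebraicCurve

namespace Fermat.Agent.S36G

open Fermat.Agent.RR Fermat.Agent.S36 Fermat.Agent.HP Fermat.Agent.Deuring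
open Fermat.Agent.BadRed Fermat.Agent.BadRedG

/-! ### the seed graph -/

section SeedGraph

variable {K F k : Type} [Field K] [Field F] [Algebra K F] [Field k] [Infinite k]
  {Mid SS : Type} [Fintype Mid] [Fintype SS] [Nonempty SS]
  {Fk0 : Type} [Field Fk0] [Algebra k Fk0]
  {FkM : Mid → Type} [∀ m, Field (FkM m)] [∀ m, Algebra k (FkM m)]
  {FkP : SS → Type} [∀ P, Field (FkP P)] [∀ P, Algebra k (FkP P)]
  (E : ModEndsInput K F k Mid SS Fk0 FkM FkP)
  (x : F) (hx : ∀ c, x ∈ (E.toMatchInput.S c).Ov)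
  (hD₀ : E.toMatchInput.D₀ = poleDiv (E.toMatchInput.S (Vtx.vert Vrt.oo)).hF x)
  (hpos : ∀ c, 0 < Divisor.degree
    (poleDiv (E.toMatchInput.S c).hFk ((E.toMatchInput.S c).red x)))
  (hn₁ : ∀ (P : SS) (v : Vrt Mid),
    0 ≤ (E.toMatchInput.pv P v).ord ((E.toMatchInput.S (Vtx.vert v)).red x))
  (hn₂ : ∀ p : Σ c, Place k (FkOf Fk0 FkM FkP c),
    p ∈ E.toMatchInput.PJA ∨ p ∈ E.toMatchInput.PJM ∨ p ∈ E.toMatchInput.PJ2 →
      0 ≤ p.2.ord ((E.toMatchInput.S p.1).red x))
  (hdeg : Divisor.degree (poleDiv (E.toMatchInput.S (Vtx.vert Vrt.oo)).hF x) ≤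
    ∑ c, Divisor.degree (poleDiv (E.toMatchInput.S c).hFk ((E.toMatchInput.S c).red x)))
  (hgenus : genusFF K F + Fintype.card (Vtx Mid SS) ≤
    (∑ c, genusFF k (FkOf Fk0 FkM FkP c)) + Fintype.card (Nod Mid SS) + 1)

/-- `htgt` for the graph of the modular seed. -/
theorem edm_seed_htgt (i : Nod Mid SS) :
    (E.toMatchInput.seed x hx hD₀ hpos hn₁ hn₂ hdeg hgenus).graphSetup.tgt i = nodTgt i := rfl

/-- `hsrc` for the graph of the modular seed. -/
theorem edm_seed_hsrc (i : Nod Mid SS) :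
    (E.toMatchInput.seed x hx hD₀ hpos hn₁ hn₂ hdeg hgenus).graphSetup.src i = nodSrc i := rfl

/-- **`hN` for the graph of the modular seed**: its second branches are the labelled ends. -/
theorem edm_seed_hN (i : Nod Mid SS) :
    (⟨(E.toMatchInput.seed x hx hD₀ hpos hn₁ hn₂ hdeg hgenus).graphSetup.tgt i,
      (E.toMatchInput.seed x hx hD₀ hpos hn₁ hn₂ hdeg hgenus).graphSetup.s₂ i⟩ :
        Σ c, Place k (FkOf Fk0 FkM FkP c)) = E.toMatchInput.ptH i := rfl

/-- the first branches of the graph of the modular seed are the points `P_v`. -/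
theorem edm_seed_s₁ (i : Nod Mid SS) :
    (⟨(E.toMatchInput.seed x hx hD₀ hpos hn₁ hn₂ hdeg hgenus).graphSetup.src i,
      (E.toMatchInput.seed x hx hD₀ hpos hn₁ hn₂ hdeg hgenus).graphSetup.s₁ i⟩ :
        Σ c, Place k (FkOf Fk0 FkM FkP c)) = E.toMatchInput.ptV i.1 i.2 := rfl

/-- the plain first branch of the graph of the modular seed is `E.pv P v`. -/
theorem edm_seed_nlSrc (P : SS) (v : Vrt Mid) :
    nlSrc (E.toMatchInput.seed x hx hD₀ hpos hn₁ hn₂ hdeg hgenus).graphSetup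
      (edm_seed_hsrc E x hx hD₀ hpos hn₁ hn₂ hdeg hgenus) P v = E.pv P v := rfl

/-- the plain second branch of the graph of the modular seed is the labelled end
`s₂ (P, v)`. -/
theorem edm_seed_nlTgt (P : SS) (v : Vrt Mid) :
    nlTgt (E.toMatchInput.seed x hx hD₀ hpos hn₁ hn₂ hdeg hgenus).graphSetup
      (edm_seed_htgt E x hx hD₀ hpos hn₁ hn₂ hdeg hgenus) P v = E.toMatchInput.s₂ (P, v) := rfl

end SeedGraph

end Fermat.Agent.S36G
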