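import Mathlib
import Fermat.Agent.S36.G.Types
import Fermat.Agent.S36.Igusa.Defs

set_option autoImplicit false
set_option synthInstance.maxHeartbeats 400000

/-!
# Cluster G (S36): FAST instances for the CONCRETE residue fields of the modular graph
(helper87; a build-speed tool, no mathematical content)

For `Fk = FkOf F_k(M₀) (fun _ => igField k M₀) FkP` (the residue fields of the modular graph) the
instance problems `∀ c, Field (Fk c)` and `∀ c, Algebra k (Fk c)` (the instance arguments of
`GraphSetup`, `normLayer1_of`, ...) are solved by `instFieldFkOf` / `instAlgebraFkOf`, whose own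
instance arguments are then searched UNDER the binder `c` (several seconds for every mention of
`N.S c`, for `k = IsLocalRing.ResidueField A`).  The two definitions below are the same terms with
the instance arguments already solved.

USE (in a file that mentions the concrete family): after the `open`s put

    attribute [local instance 100000] Fermat.Agent.S36G.fkofFieldFast
      Fermat.Agent.S36G.fkofAlgebraFast

Both are reducible and unfold to `instFieldFkOf ..` / `instAlgebraFkOf ..` (`fkofFieldFast_eq`,
`fkofAlgebraFast_eq`: `rfl`).
-/

noncomputable section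

namespace Fermat.Agent.S36G

open ModularCurve

attribute [local instance 10000] SubalgebraClass.toAlgebra HahnSeries.powerSeriesAlgebra

/-- `instFieldFkOf` for the residue fields of the modular graph, instance arguments solved. -/
@[reducible] def fkofFieldFast (k : Type) [Field k] (M₀ : ℕ) (Mid : Type) {SS : Type}
    (FkP : SS → Type) [∀ P, Field (FkP P)] :
    ∀ c : Vtx Mid SS, Field (FkOf ↥(modularFunctionFieldFullC k M₀)
      (fun _ : Mid => ↥(igField k M₀)) FkP c) :=
  instFieldFkOf _ _ FkP

/-- `instAlgebraFkOf` for the residue fields of the modular graph, instance arguments solved. -/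
@[reducible] def fkofAlgebraFast (k : Type) [Field k] (M₀ : ℕ) (Mid : Type) {SS : Type}
    (FkP : SS → Type) [∀ P, Field (FkP P)] [∀ P, Algebra k (FkP P)] :
    ∀ c : Vtx Mid SS, Algebra k (FkOf ↥(modularFunctionFieldFullC k M₀)
      (fun _ : Mid => ↥(igField k M₀)) FkP c) :=
  instAlgebraFkOf k _ _ FkP

theorem fkofFieldFast_eq (k : Type) [Field k] (M₀ : ℕ) (Mid : Type) {SS : Type}
    (FkP : SS → Type) [∀ P, Field (FkP P)] :
    fkofFieldFast k M₀ Mid FkP =
      instFieldFkOf ↥(modularFunctionFieldFullC k M₀) (fun _ : Mid => ↥(igField k M₀)) FkP :=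
  rfl

theorem fkofAlgebraFast_eq (k : Type) [Field k] (M₀ : ℕ) (Mid : Type) {SS : Type}
    (FkP : SS → Type) [∀ P, Field (FkP P)] [∀ P, Algebra k (FkP P)] :
    fkofAlgebraFast k M₀ Mid FkP =
      instAlgebraFkOf k ↥(modularFunctionFieldFullC k M₀) (fun _ : Mid => ↥(igField k M₀)) FkP :=
  rfl

end Fermat.Agent.S36G
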