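import Fermat.Agent.S36.Igusa.Defs
import Fermat.Agent.S36.Igusa.Exp
import Fermat.Agent.S36.Igusa.Gal
import Fermat.Agent.S36.G.InertAbs
import Fermat.Agent.S36.G.InertArith
import Fermat.Agent.Lib.GaussInt.Galois
import Fermat.Agent.Lib.BadRed.Mod.ValInf

set_option autoImplicit false
set_option linter.style.haveILetI false
set_option linter.unusedSectionVars false
set_option synthInstance.maxHeartbeats 400000

/-!
# S36 (cluster G), seat INERT, part 2: inertia on the MIDDLE vertices  (helper55)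

Level `N = M₀ * q * q`, `F = FBar N`, `A ∣ q`, `k` the residue field of `A`, `z` a primitive `q`-th
root of unity, `ε_z` the middle expansion (`S36/Igusa/Defs.lean`, helper52), `O_z = expOv ε_z A`,
`red_z = expRes ε_z A`.  The Galois group acts on `F` by `arithmeticGalois` (coefficientwise).

* `inert_mid_exp`       : (from `IgMidGalois`) for `σ` in the decomposition group,
                          `ε_{σ z} (σ f) = coeffMap σ (ε_z f)` and `f ∈ O_z ↔ σ f ∈ O_{σ z}`;
* `inert_mid_res`       : for `σ` in the INERTIA group, `red_{σ z} (σ f) = red_z f`  (`f ∈ O_z`);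
* `inert_mid_resEquiv`  : for `c` a square modulo `q`: `O_z = O_{z^c}` and the two residue maps
                          differ by the automorphism `φ_c` of `Fk_m = k(Z)(θ j̄)` over `k(Z)` with
                          `φ_c (θ j̄) = c · θ j̄`;
* `inert_mid_action`    : for `σ` in the inertia group with `σ z = z ^ c`, `c` a square:
                          `σ O_z = O_z` and `φ_c (red_z (σ f)) = red_z f`.
-/

noncomputable section

namespace Fermat.Agent.S36G

open ModularCurve AlgebraicCurve Fermat.Agent.GaussInt Fermat.Agent.Deuring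
  Fermat.Agent.Kronecker Fermat.Agent.BadRed

local notation "Qb" => AlgebraicClosure ℚ

attribute [local instance 10000] SubalgebraClass.toAlgebra HahnSeries.powerSeriesAlgebra

variable {M₀ q : ℕ} [NeZero M₀] [NeZero q]

/-- the top field is stable under everything. -/
theorem inert_top_stable (σ : Qb →+* Qb) :
    ∀ y ∈ (⊤ : IntermediateField Qb (LaurentSeries Qb)), coeffMap σ y ∈
      (⊤ : IntermediateField Qb (LaurentSeries Qb)) :=
  fun _ _ => IntermediateField.mem_top

/-- **(INERT-M1)** the decomposition group permutes the middle expansions. -/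
theorem inert_mid_exp (hG : IgMidGalois M₀ q) (A : ValuationSubring Qb) (σ : Qb ≃ₐ[ℚ] Qb)
    (hσ : σ ∈ A.decompositionSubgroup ℚ) {z z' : Qbˣ}
    {ε ε' : ↥(modularFunctionFieldBar (M₀ * q * q)) →ₐ[Qb] LaurentSeries Qb}
    (hε : IsMidExp M₀ q z ε) (hε' : IsMidExp M₀ q z' ε') (hz : (z' : Qb) = σ (z : Qb))
    (f : ↥(modularFunctionFieldBar (M₀ * q * q))) :
    ε' (arithmeticGalois (modularFunctionFieldFull (M₀ * q * q)) σ • f) =
        coeffMap (σ : Qb →+* Qb) (ε f) ∧
      (f ∈ expOv ε A ↔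
        arithmeticGalois (modularFunctionFieldFull (M₀ * q * q)) σ • f ∈ expOv ε' A) :=
  hG A σ (fun _ => (S05H5.decomp_apply_mem_iff A σ hσ).symm) z z' ε ε' hε hε' hz f _
    (coe_arithmeticGalois_smul _ σ f)

/-- **(INERT-M1), residues**: the inertia group acts trivially on the residues of the middle
expansions: `red_{σ z} (σ f) = red_z f`. -/
theorem inert_mid_res (hG : IgMidGalois M₀ q) (A : ValuationSubring Qb) (σ : Qb ≃ₐ[ℚ] Qb)
    (hσ : σ ∈ A.inertiaSubgroupIn ℚ) {z z' : Qbˣ}
    {ε ε' : ↥(modularFunctionFieldBar (M₀ * q * q)) →ₐ[Qb] LaurentSeries Qb}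
    (hε : IsMidExp M₀ q z ε) (hε' : IsMidExp M₀ q z' ε') (hz : (z' : Qb) = σ (z : Qb))
    {f : ↥(modularFunctionFieldBar (M₀ * q * q))} (hf : f ∈ expOv ε A) :
    arithmeticGalois (modularFunctionFieldFull (M₀ * q * q)) σ • f ∈ expOv ε' A ∧
      expRes ε' A (arithmeticGalois (modularFunctionFieldFull (M₀ * q * q)) σ • f) =
        expRes ε A f := by
  have hσD : σ ∈ A.decompositionSubgroup ℚ := S05H5.inertiaIn_mem_decomp A σ hσ
  obtain ⟨h1, h2⟩ := inert_mid_exp hG A σ hσD hε hε' hz f
  refine ⟨h2.mp hf, ?_⟩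
  unfold expRes
  rw [h1]
  exact gaussResFun_inertia σ hσ (inert_top_stable _) ((mem_expOv_iff ε A f).mp hf)

/-- `inert_mid_exp`, unconditional (`q` prime). -/
theorem inert_mid_exp_prime (hq : q.Prime) (A : ValuationSubring Qb) (σ : Qb ≃ₐ[ℚ] Qb)
    (hσ : σ ∈ A.decompositionSubgroup ℚ) {z z' : Qbˣ}
    {ε ε' : ↥(modularFunctionFieldBar (M₀ * q * q)) →ₐ[Qb] LaurentSeries Qb}
    (hε : IsMidExp M₀ q z ε) (hε' : IsMidExp M₀ q z' ε') (hz : (z' : Qb) = σ (z : Qb))
    (f : ↥(modularFunctionFieldBar (M₀ * q * q))) :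
    ε' (arithmeticGalois (modularFunctionFieldFull (M₀ * q * q)) σ • f) =
        coeffMap (σ : Qb →+* Qb) (ε f) ∧
      (f ∈ expOv ε A ↔
        arithmeticGalois (modularFunctionFieldFull (M₀ * q * q)) σ • f ∈ expOv ε' A) :=
  inert_mid_exp (igMidGalois_of_unique (igMidExpUnique M₀ q hq)) A σ hσ hε hε' hz f

/-- `inert_mid_res`, unconditional (`q` prime): the inertia group acts trivially on the residues
of the middle expansions. -/
theorem inert_mid_res_prime (hq : q.Prime) (A : ValuationSubring Qb) (σ : Qb ≃ₐ[ℚ] Qb)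
    (hσ : σ ∈ A.inertiaSubgroupIn ℚ) {z z' : Qbˣ}
    {ε ε' : ↥(modularFunctionFieldBar (M₀ * q * q)) →ₐ[Qb] LaurentSeries Qb}
    (hε : IsMidExp M₀ q z ε) (hε' : IsMidExp M₀ q z' ε') (hz : (z' : Qb) = σ (z : Qb))
    {f : ↥(modularFunctionFieldBar (M₀ * q * q))} (hf : f ∈ expOv ε A) :
    arithmeticGalois (modularFunctionFieldFull (M₀ * q * q)) σ • f ∈ expOv ε' A ∧
      expRes ε' A (arithmeticGalois (modularFunctionFieldFull (M₀ * q * q)) σ • f) =
        expRes ε A f :=
  inert_mid_res (igMidGalois_of_unique (igMidExpUnique M₀ q hq)) A σ hσ hε hε' hz hf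

end Fermat.Agent.S36G
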