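/-
Cluster G (S36), bridge, seat BR-KOLCHIN (helper86): KOLCHIN'S THEOREM IN RANK 2.

`R` a domain, `V` free of rank `2`, `H` a subgroup of a group `G` acting on `V` through
`ρ : G →* Module.End R V`, every `ρ σ` (`σ ∈ H`) with characteristic polynomial `(X - 1)^2`.
Then `H` fixes a non-zero vector (`kolchin_two`).  Corollary for a `GaloisRepAdic` which is
unipotent on inertia (`GaloisRepAdic.exists_fixed_of_isUnipotentOnInertiaAt`).

Proof (no fraction field, no change of basis): write `ρ σ = 1 + N_σ` in a basis; `tr N = 0`,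
`det (1 + N) = 1`.  If some `N₀ = N_σ₀ ≠ 0`, then `tr (N₀ N_τ) = 0` (because `σ₀ τ ∈ H`), and the
three relations force `N_τ N₀ = 0` in a reduced ring: every entry of `N_τ N₀` has square `0`.
So every non-zero column of `N₀` is fixed by `H`.
-/
import Mathlib
import Fermat.Prelude.Def_GaloisRep_LocalConditions

set_option autoImplicit false

noncomputable section

namespace Fermat.Agent.S36G

open Polynomial Matrix

/-- the ring-theoretic core: three quadratic relations force the four products to vanish. -/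
theorem kolchin_core {R : Type*} [CommRing R] [IsReduced R] {a₀ b₀ c₀ a b c : R}
    (E1 : a₀ ^ 2 + b₀ * c₀ = 0) (E2 : a ^ 2 + b * c = 0)
    (E3 : 2 * a₀ * a + b₀ * c + c₀ * b = 0) :
    a * a₀ + b * c₀ = 0 ∧ a * b₀ - b * a₀ = 0 ∧ c * a₀ - a * c₀ = 0 ∧ c * b₀ + a * a₀ = 0 := by
  have h1 : (a * b₀ - b * a₀) ^ 2 = 0 := by
    linear_combination (-b * b₀) * E3 + b₀ ^ 2 * E2 + b ^ 2 * E1
  have h2 : (c * a₀ - a * c₀) ^ 2 = 0 := by
    linear_combination (-c * c₀) * E3 + c₀ ^ 2 * E2 + c ^ 2 * E1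
  have h3 : (a * a₀ + b * c₀) ^ 2 = 0 := by
    linear_combination (b * c₀) * E3 + a₀ ^ 2 * E2 - b * c * E1
  have h4 : (c * b₀ + a * a₀) ^ 2 = 0 := by
    linear_combination (c * b₀) * E3 + a₀ ^ 2 * E2 - b * c * E1
  have k1 := pow_eq_zero_iff (two_ne_zero) |>.mp h1
  have k2 := pow_eq_zero_iff (two_ne_zero) |>.mp h2
  have k3 := pow_eq_zero_iff (two_ne_zero) |>.mp h3
  have k4 := pow_eq_zero_iff (two_ne_zero) |>.mp h4
  exact ⟨k3, k1, k2, k4⟩

/-- the matrix form: two unipotent `2 × 2` matrices whose product has trace `2`. -/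
theorem kolchin_matrix {R : Type*} [CommRing R] [IsReduced R] (M₀ M : Matrix (Fin 2) (Fin 2) R)
    (h0t : M₀.trace = 2) (h0d : M₀.det = 1) (ht : M.trace = 2) (hd : M.det = 1)
    (hp : (M₀ * M).trace = 2) : (M - 1) * (M₀ - 1) = 0 := by
  have t0 : M₀ 0 0 + M₀ 1 1 = 2 := by rw [← h0t, Matrix.trace_fin_two]
  have d0 : M₀ 0 0 * M₀ 1 1 - M₀ 0 1 * M₀ 1 0 = 1 := by rw [← h0d, Matrix.det_fin_two]
  have t : M 0 0 + M 1 1 = 2 := by rw [← ht, Matrix.trace_fin_two]
  have d : M 0 0 * M 1 1 - M 0 1 * M 1 0 = 1 := by rw [← hd, Matrix.det_fin_two]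
  have p0 : M₀ 0 0 * M 0 0 + M₀ 0 1 * M 1 0 + (M₀ 1 0 * M 0 1 + M₀ 1 1 * M 1 1) = 2 := by
    rw [← hp, Matrix.trace_fin_two, Matrix.mul_apply, Matrix.mul_apply, Fin.sum_univ_two,
      Fin.sum_univ_two]
  obtain ⟨k3, k1, k2, k4⟩ := kolchin_core (a₀ := M₀ 0 0 - 1) (b₀ := M₀ 0 1) (c₀ := M₀ 1 0)
    (a := M 0 0 - 1) (b := M 0 1) (c := M 1 0)
    (by linear_combination (M₀ 0 0) * t0 - d0)
    (by linear_combination (M 0 0) * t - d)
    (by linear_combination p0 - (M₀ 1 1) * t - (2 - M 0 0) * t0)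
  have e0 : M₀ 1 1 - 1 = -(M₀ 0 0 - 1) := by linear_combination t0
  have e : M 1 1 - 1 = -(M 0 0 - 1) := by linear_combination t
  ext i j
  fin_cases i <;> fin_cases j
  · show ((M - 1) * (M₀ - 1)) 0 0 = 0
    rw [Matrix.mul_apply, Fin.sum_univ_two]
    simp only [Matrix.sub_apply, Matrix.one_apply_eq, ne_eq, one_ne_zero, not_false_eq_true,
      Matrix.one_apply_ne, zero_ne_one, sub_zero]
    linear_combination k3
  · show ((M - 1) * (M₀ - 1)) 0 1 = 0
    rw [Matrix.mul_apply, Fin.sum_univ_two]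
    simp only [Matrix.sub_apply, Matrix.one_apply_eq, ne_eq, one_ne_zero, not_false_eq_true,
      Matrix.one_apply_ne, zero_ne_one, sub_zero]
    rw [e0]
    linear_combination k1
  · show ((M - 1) * (M₀ - 1)) 1 0 = 0
    rw [Matrix.mul_apply, Fin.sum_univ_two]
    simp only [Matrix.sub_apply, Matrix.one_apply_eq, ne_eq, one_ne_zero, not_false_eq_true,
      Matrix.one_apply_ne, zero_ne_one, sub_zero]
    rw [e]
    linear_combination k2
  · show ((M - 1) * (M₀ - 1)) 1 1 = 0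
    rw [Matrix.mul_apply, Fin.sum_univ_two]
    simp only [Matrix.sub_apply, Matrix.one_apply_eq, ne_eq, one_ne_zero, not_false_eq_true,
      Matrix.one_apply_ne, zero_ne_one, sub_zero]
    rw [e0, e]
    linear_combination k4

/-- trace and determinant of a `2 × 2` matrix with characteristic polynomial `(X - 1)^2`. -/
theorem kolchin_trace_det_of_charpoly {R : Type*} [CommRing R] [Nontrivial R]
    (M : Matrix (Fin 2) (Fin 2) R) (h : M.charpoly = (X - 1) ^ 2) : M.trace = 2 ∧ M.det = 1 := by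
  have h2 : M.charpoly = X ^ 2 - C M.trace * X + C M.det := Matrix.charpoly_fin_two M
  rw [h] at h2
  have c1 := congrArg (fun P : R[X] => P.coeff 1) h2
  have c0 := congrArg (fun P : R[X] => P.coeff 0) h2
  have e : ((X : R[X]) - 1) ^ 2 = X ^ 2 - C (2 : R) * X + C (1 : R) := by
    simp only [map_ofNat, map_one]
    ring
  simp only [e, coeff_add, coeff_sub, coeff_X_pow, coeff_C_mul, coeff_X_one, coeff_C_zero,
    coeff_X_zero, coeff_C] at c1 c0
  norm_num at c1 c0
  exact ⟨c1.symm, c0.symm⟩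

/-- **Kolchin's theorem in rank 2**: a group of unipotent automorphisms of a free module of
rank `2` over a domain fixes a non-zero vector. -/
theorem kolchin_two {R : Type*} [CommRing R] [IsDomain R] {V : Type*} [AddCommGroup V]
    [Module R V] [Module.Free R V] [Module.Finite R V] (hV : Module.finrank R V = 2)
    {G : Type*} [Group G] (ρ : G →* Module.End R V) (H : Subgroup G)
    (hU : ∀ σ ∈ H, LinearMap.charpoly (ρ σ) = (X - 1) ^ 2) :
    ∃ v : V, v ≠ 0 ∧ ∀ σ ∈ H, ρ σ v = v := by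
  classical
  let b : Module.Basis (Fin 2) R V := Module.finBasisOfFinrankEq R V hV
  let Φ : Module.End R V ≃ₐ[R] Matrix (Fin 2) (Fin 2) R := LinearMap.toMatrixAlgEquiv b
  have hΦ : ∀ f : Module.End R V, Φ f = LinearMap.toMatrix b b f := fun f => rfl
  have htd : ∀ σ ∈ H, (Φ (ρ σ)).trace = 2 ∧ (Φ (ρ σ)).det = 1 := by
    intro σ hσ
    apply kolchin_trace_det_of_charpoly
    rw [hΦ, LinearMap.charpoly_toMatrix, hU σ hσ]
  by_cases hall : ∀ σ ∈ H, ρ σ = 1
  · refine ⟨b 0, b.ne_zero 0, fun σ hσ => ?_⟩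
    rw [hall σ hσ]
    rfl
  · push Not at hall
    obtain ⟨σ₀, hσ₀, hne⟩ := hall
    have hN : ρ σ₀ - 1 ≠ 0 := sub_ne_zero.mpr hne
    obtain ⟨w, hw⟩ : ∃ w : V, (ρ σ₀ - 1) w ≠ 0 := by
      by_contra hcon
      push Not at hcon
      exact hN (LinearMap.ext fun w => by simpa using hcon w)
    refine ⟨(ρ σ₀ - 1) w, hw, fun τ hτ => ?_⟩
    have hprod : (ρ τ - 1) * (ρ σ₀ - 1) = 0 := by
      apply Φ.injective
      rw [map_mul, map_sub, map_sub, map_one, map_zero]
      apply kolchin_matrix _ _ (htd σ₀ hσ₀).1 (htd σ₀ hσ₀).2 (htd τ hτ).1 (htd τ hτ).2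
      rw [← map_mul, ← map_mul]
      exact (htd (σ₀ * τ) (H.mul_mem hσ₀ hτ)).1
    have h1 := LinearMap.congr_fun hprod w
    rw [Module.End.mul_apply, LinearMap.sub_apply, Module.End.one_apply, LinearMap.zero_apply,
      sub_eq_zero] at h1
    exact h1

/-- a Galois representation which is unipotent on inertia at `q` has, for every place `P`
over `q`, a non-zero vector fixed by the inertia group of `P`. -/
theorem exists_fixed_of_isUnipotentOnInertiaAt {A : Type} [CommRing A] [IsLocalRing A]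
    [IsDomain A] (ρ : GaloisRepAdic A) (q : ℕ) (h : ρ.IsUnipotentOnInertiaAt q)
    (P : ValuationSubring (AlgebraicClosure ℚ)) (hP : P.LiesOverPrime q) :
    ∃ v : ρ.V, v ≠ 0 ∧ ∀ σ ∈ P.inertiaSubgroupIn ℚ, ρ.ρ σ v = v :=
  kolchin_two ρ.finrank_eq ρ.ρ (P.inertiaSubgroupIn ℚ) (h P hP)

/-- contrapositive form used by the bridge: if for some place `P` over `q` no non-zero vector is
fixed by the inertia group of `P`, the representation is not unipotent on inertia at `q`. -/
theorem not_isUnipotentOnInertiaAt_of_no_fixed {A : Type} [CommRing A] [IsLocalRing A]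
    [IsDomain A] (ρ : GaloisRepAdic A) (q : ℕ)
    (P : ValuationSubring (AlgebraicClosure ℚ)) (hP : P.LiesOverPrime q)
    (hfix : ∀ v : ρ.V, (∀ σ ∈ P.inertiaSubgroupIn ℚ, ρ.ρ σ v = v) → v = 0) :
    ¬ ρ.IsUnipotentOnInertiaAt q := by
  intro h
  obtain ⟨v, hv, hσ⟩ := exists_fixed_of_isUnipotentOnInertiaAt ρ q h P hP
  exact hv (hfix v hσ)

end Fermat.Agent.S36G
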