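import Mathlib
import Fermat.Agent.S36.G.EndsOfLeaves
import Fermat.Agent.S36.Seed.YModDeg

set_option autoImplicit false
set_option linter.unusedSectionVars false

/-!
# Cluster G (S36), MG-INST, slice MOD-GLUE (helper74): the `GraphSeed` of the leaves

Glue between helper40's `modEndsOfLeaves` (`S36/G/EndsOfLeaves.lean`), helper92's `E.ymodSeed`
(`S36/Seed/Main.lean`) and `E.ymodX_hdeg` (`S36/Seed/YModDeg.lean`).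

## constants (`ϖ ^ (q + 1) = c`; modular: `c = q`, `ϖ₁ = ϖ ^ 12`, `ϖ₂ = q ^ 12 / ϖ₁`, `n = q + 1`)
* `modGlue_pow`  : `(ϖ ^ 12) ^ (q + 1) = c ^ 12`                       (`hb`);
* `modGlue_h12`  : `ϖ ^ 12 * (c ^ 12 / ϖ ^ 12) = (ϖ ^ 12) ^ (q + 1)`    (`h12`);
* `modGlue_h12'` : `ϖ ^ 12 * (c ^ 12 / ϖ ^ 12) = c ^ 12`;
* `modGlue_two_le` : `2 ≤ q + 1` for `q` prime                          (`hn`).

## the fields of `modEndsOfLeaves` (all `rfl`)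
`modEndsOfLeaves_S`, `_pv`, `_u1`, `_u2`, `_uA`, `_ϖ1`, `_ϖ2`, `_ϖA`, `_D₀`, `_G1`, `_G2`,
`_V*`, `_w*`.

## the seed
* `modEndsOfLeaves_hD₀` : `E.D₀ = (E.ymodX b n)_∞` for `b = ϖ₁ ^ n`;
* `modSeedOfLeaves` : **the `GraphSeed`** of the leaves `= E.ymodSeedFull ..`
  (`E = modEndsOfLeaves ..`); the only inputs beyond those of `modEndsOfLeaves` are
  `2 ≤ n`, `ϖ₁ ϖ₂ = ϖ₁ ^ n` and the genus inequality;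
* `modSeedOfLeaves_eq`, `modSeedOfLeaves_S`, `_D₀` : its shape.
-/

noncomputable section

open AlgebraicCurve Fermat.Agent.RR Fermat.Agent.Deuring

namespace Fermat.Agent.S36G

open Fermat.Agent.BadRed Fermat.Agent.BadRedG Fermat.Agent.HP

/-! ### constants -/

section Const

variable {K : Type*} [Field K]

/-- `hb`: `(ϖ ^ 12) ^ (q + 1) = c ^ 12` if `ϖ ^ (q + 1) = c`. -/
theorem modGlue_pow {ϖ c : K} {q : ℕ} (h : ϖ ^ (q + 1) = c) : (ϖ ^ 12) ^ (q + 1) = c ^ 12 := by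
  rw [← pow_mul, mul_comm, pow_mul, h]

/-- `ϖ ^ 12 * (c ^ 12 / ϖ ^ 12) = c ^ 12`. -/
theorem modGlue_h12' {ϖ : K} (c : K) (hϖ : ϖ ≠ 0) : ϖ ^ 12 * (c ^ 12 / ϖ ^ 12) = c ^ 12 := by
  field_simp

/-- `h12`: `ϖ₁ ϖ₂ = ϖ₁ ^ (q + 1)` for `ϖ₁ = ϖ ^ 12`, `ϖ₂ = c ^ 12 / ϖ₁`. -/
theorem modGlue_h12 {ϖ c : K} {q : ℕ} (hϖ : ϖ ≠ 0) (h : ϖ ^ (q + 1) = c) :
    ϖ ^ 12 * (c ^ 12 / ϖ ^ 12) = (ϖ ^ 12) ^ (q + 1) := by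
  rw [modGlue_pow h, modGlue_h12' c hϖ]

/-- `hn`: `2 ≤ q + 1`. -/
theorem modGlue_two_le {q : ℕ} (hq : q.Prime) : 2 ≤ q + 1 := by
  have := hq.one_lt
  omega

theorem modGlue_ne_zero {ϖ c : K} {q : ℕ} (hc : c ≠ 0) (h : ϖ ^ (q + 1) = c) : ϖ ≠ 0 := by
  rintro rfl
  rw [zero_pow (Nat.succ_ne_zero q)] at h
  exact hc h.symm

end Const

/-! ### the fields of `modEndsOfLeaves` -/

section Leaves

variable {K F k : Type} [Field K] [Field F] [Algebra K F] [Field k] [IsAlgClosed k]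
  {Mid SS : Type} [Fintype Mid] [Fintype SS]
  {Fk0 : Type} [Field Fk0] [Algebra k Fk0]
  {FkM : Mid → Type} [∀ m, Field (FkM m)] [∀ m, Algebra k (FkM m)]
  {FkP : SS → Type} [∀ P, Field (FkP P)] [∀ P, Algebra k (FkP P)]

variable {q : ℕ} (hq : q.Prime) [CharP k q]
    (S : ∀ c : Vtx Mid SS, ValSetup K F k (FkOf Fk0 FkM FkP c))
    (lat : ∀ c : Vtx Mid SS, HasLattice (S c))
    (arch : ∀ (c₀ : Vtx Mid SS) (x : K), x ∈ (S c₀).A → x⁻¹ ∉ (S c₀).A →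
      ∀ d : K, ∃ j : ℕ, x ^ j * d ∈ (S c₀).A)
    (pv : ∀ (_ : SS) (v : Vrt Mid), Place k (FkOf Fk0 FkM FkP (Vtx.vert v)))
    (pv_inj : ∀ (v : Vrt Mid) (P P' : SS), pv P v = pv P' v → P = P')
    (VA₁ VA₂ V1₁ V1₂ V2₁ V2₂ : Finset (Vtx Mid SS))
    (mem_VA₁ : ∀ c, c ∈ VA₁ ↔ c = Vtx.vert Vrt.oo)
    (mem_VA₂ : ∀ c, c ∈ VA₂ ↔ ∃ P, c = Vtx.hor P)
    (mem_V1₁ : ∀ c, c ∈ V1₁ ↔ c = Vtx.vert Vrt.oo ∨ ∃ m, c = Vtx.vert (Vrt.mid m))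
    (mem_V1₂ : ∀ c, c ∈ V1₂ ↔ ∃ P, c = Vtx.hor P)
    (mem_V2₁ : ∀ c, c ∈ V2₁ ↔ ∃ P, c = Vtx.hor P)
    (mem_V2₂ : ∀ c, c ∈ V2₂ ↔ c = Vtx.vert Vrt.zero)
    (uA u1 : F) (ϖA ϖ1 ϖ2 : K) (hϖ1 : ϖ1 ≠ 0)
    (DA : MNData S VA₁ VA₂ uA ϖA) (D1 : MNData S V1₁ V1₂ u1 ϖ1)
    (D2 : MNData S V2₁ V2₂ (u1 / algebraMap K F ϖ1) ϖ2)
    (H : ∀ P : SS, HPCurve k (FkOf Fk0 FkM FkP (Vtx.hor P)) q)
    (hxA : EndsRedA S H (algebraMap K F ϖA / uA))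
    (hx2 : EndsRed2 S H (u1 / algebraMap K F ϖ1))
    (zA : ∀ Q : Place k (FkOf Fk0 FkM FkP (Vtx.vert Vrt.oo)),
      0 < Q.ord ((S (Vtx.vert Vrt.oo)).red uA) → ∃ P, pv P Vrt.oo = Q)
    (oA : ∀ P, (pv P Vrt.oo).ord ((S (Vtx.vert Vrt.oo)).red uA) = 12 * (q : ℤ))
    (z1oo : ∀ Q : Place k (FkOf Fk0 FkM FkP (Vtx.vert Vrt.oo)),
      0 < Q.ord ((S (Vtx.vert Vrt.oo)).red u1) → ∃ P, pv P Vrt.oo = Q)
    (o1oo : ∀ P, (pv P Vrt.oo).ord ((S (Vtx.vert Vrt.oo)).red u1) = 12)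
    (z1m : ∀ (m : Mid) (Q : Place k (FkOf Fk0 FkM FkP (Vtx.vert (Vrt.mid m)))),
      0 < Q.ord ((S (Vtx.vert (Vrt.mid m))).red u1) → ∃ P, pv P (Vrt.mid m) = Q)
    (o1m : ∀ P m, (pv P (Vrt.mid m)).ord ((S (Vtx.vert (Vrt.mid m))).red u1) =
      12 * (midDeg q : ℤ))
    (z2 : ∀ Q : Place k (FkOf Fk0 FkM FkP (Vtx.vert Vrt.zero)),
      0 < Q.ord ((S (Vtx.vert Vrt.zero)).red
        (algebraMap K F ϖ2 / (u1 / algebraMap K F ϖ1))) → ∃ P, pv P Vrt.zero = Q)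
    (o2 : ∀ P, (pv P Vrt.zero).ord ((S (Vtx.vert Vrt.zero)).red
      (algebraMap K F ϖ2 / (u1 / algebraMap K F ϖ1))) = 12 * (q : ℤ))
    (sepA : ∀ P : SS, ∃ g ∈ ncAdm S VA₁ VA₂ uA,
      ValAt (pv P Vrt.oo) ((S (Vtx.vert Vrt.oo)).red g) 1 ∧
        ∀ P' : SS, P' ≠ P → (S (Vtx.hor P')).red g = 0)
    (sep1 : ∀ (P : SS) (m : Mid), ∃ g ∈ ncAdm S V1₁ V1₂ u1 ∩ ncAdm S VA₁ VA₂ uA,
      ValAt (pv P (Vrt.mid m)) ((S (Vtx.vert (Vrt.mid m))).red g) 1 ∧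
        ∀ P' : SS, P' ≠ P → (S (Vtx.hor P')).red g = 0)
    (sep2 : ∀ P : SS, ∃ g ∈ ncAdm S V2₁ V2₂ (u1 / algebraMap K F ϖ1),
      ValAt (pv P Vrt.zero) ((S (Vtx.vert Vrt.zero)).red g) 1 ∧
        ∀ P' : SS, P' ≠ P → (S (Vtx.hor P')).red g = 0)
    (hcusp : ∀ P : Place K F, P.ord u1 ≠ 0 → P.ord uA ≠ 0)
    (n : ℕ) (hn : n ≠ 0)

local notation "EL" => modEndsOfLeaves hq S lat arch pv pv_inj VA₁ VA₂ V1₁ V1₂ V2₁ V2₂ mem_VA₁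
  mem_VA₂ mem_V1₁ mem_V1₂ mem_V2₁ mem_V2₂ uA u1 ϖA ϖ1 ϖ2 hϖ1 DA D1 D2 H hxA hx2 zA oA z1oo o1oo
  z1m o1m z2 o2 sepA sep1 sep2 hcusp n hn

theorem modEndsOfLeaves_S : (EL).S = S := rfl

theorem modEndsOfLeaves_pv : (EL).pv = pv := rfl

theorem modEndsOfLeaves_u1 : (EL).u1 = u1 := rfl

theorem modEndsOfLeaves_u2 : (EL).u2 = u1 / algebraMap K F ϖ1 := rfl

theorem modEndsOfLeaves_uA : (EL).uA = uA := rfl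

theorem modEndsOfLeaves_ϖ1 : (EL).ϖ1 = ϖ1 := rfl

theorem modEndsOfLeaves_ϖ2 : (EL).ϖ2 = ϖ2 := rfl

theorem modEndsOfLeaves_ϖA : (EL).ϖA = ϖA := rfl

theorem modEndsOfLeaves_VA₁ : (EL).VA₁ = VA₁ := rfl

theorem modEndsOfLeaves_VA₂ : (EL).VA₂ = VA₂ := rfl

theorem modEndsOfLeaves_V1₁ : (EL).V1₁ = V1₁ := rfl

theorem modEndsOfLeaves_V1₂ : (EL).V1₂ = V1₂ := rfl

theorem modEndsOfLeaves_V2₁ : (EL).V2₁ = V2₁ := rfl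

theorem modEndsOfLeaves_V2₂ : (EL).V2₂ = V2₂ := rfl

theorem modEndsOfLeaves_wA : (EL).wA = 12 * (q : ℤ) := rfl

theorem modEndsOfLeaves_w1 : (EL).w1 = 12 := rfl

theorem modEndsOfLeaves_wM : (EL).wM = 12 * (midDeg q : ℤ) := rfl

theorem modEndsOfLeaves_w2 : (EL).w2 = 12 * (q : ℤ) := rfl

theorem modEndsOfLeaves_G1 : (EL).G1 = ymodG1 u1 (ϖ1 ^ n) n := rfl

theorem modEndsOfLeaves_G2 : (EL).G2 = ymodG2 u1 (ϖ1 ^ n) n := rfl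

theorem modEndsOfLeaves_D₀ :
    (EL).D₀ = poleDiv (S (Vtx.vert Vrt.oo)).hF
      (u1 + algebraMap K F (ϖ1 ^ n) / u1 + ∑ _cl : Unit, ymodY u1 (ϖ1 ^ n) n) := rfl

theorem modEndsOfLeaves_ymodX (b : K) (m : ℕ) :
    (EL).ymodX b m = u1 + algebraMap K F b / u1 + ∑ _cl : Unit, ymodY u1 b m := rfl

/-- `hD₀` of `E.ymodSeed`: `E.D₀ = (E.ymodX (ϖ₁ ^ n) n)_∞`. -/
theorem modEndsOfLeaves_hD₀ :
    (EL).D₀ = poleDiv ((EL).S (Vtx.vert Vrt.oo)).hF ((EL).ymodX (ϖ1 ^ n) n) := rfl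

/-- the same with `b = ϖ₁ ^ n` (modular: `b = q ^ 12`). -/
theorem modEndsOfLeaves_hD₀' {b : K} (hb : ϖ1 ^ n = b) :
    (EL).D₀ = poleDiv ((EL).S (Vtx.vert Vrt.oo)).hF ((EL).ymodX b n) := by
  subst hb
  rfl

variable [Infinite k] [Nonempty SS]

/-- **the `GraphSeed` of the leaves**: `E.ymodSeedFull ..` for `E = modEndsOfLeaves ..`,
`b = ϖ₁ ^ n`. -/
def modSeedOfLeaves (hn2 : 2 ≤ n) (h12 : ϖ1 * ϖ2 = ϖ1 ^ n)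
    (hgenus : genusFF K F + Fintype.card (Vtx Mid SS) ≤
      (∑ c, genusFF k (FkOf Fk0 FkM FkP c)) + Fintype.card (Nod Mid SS) + 1) :
    GraphSeed K F k (Vtx Mid SS) (FkOf Fk0 FkM FkP) (Nod Mid SS) :=
  (EL).ymodSeedFull (b := ϖ1 ^ n) hn2 rfl h12 rfl
    (modEndsOfLeaves_hD₀ hq S lat arch pv pv_inj VA₁ VA₂ V1₁ V1₂ V2₁ V2₂ mem_VA₁
      mem_VA₂ mem_V1₁ mem_V1₂ mem_V2₁ mem_V2₂ uA u1 ϖA ϖ1 ϖ2 hϖ1 DA D1 D2 H hxA hx2 zA oA z1oo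
      o1oo z1m o1m z2 o2 sepA sep1 sep2 hcusp n hn) hgenus

end Leaves

end Fermat.Agent.S36G
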