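import Mathlib
import Fermat.Agent.S36.G.ModSS
import Fermat.Agent.S36.Seed.EndsVert

set_option autoImplicit false
set_option linter.unusedSectionVars false
set_option linter.style.haveILetI false
set_option synthInstance.maxHeartbeats 400000

/-!
# Cluster G (S36), MG-INST, seat MG-SS (helper61), part 2: the STANDARD branch points

`q` prime, `q ∤ M₀`, `A` a place of `ℚ̄` over `q`, `k = A / 𝔪` (algebraically closed of
characteristic `q`), `SS = ModSS A M₀ q`, `Fk0 = k(Z) = modularFunctionFieldFullC k M₀`,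
`Fk_m = igField k M₀` for every middle component `m`.

* `modPm hq hqM P m`     : the point of the Igusa component over `P` (`sevMidPt` of helper9's
  S36/Seed/EndsVert.lean at `P.place`);
* `modPvStd M₀ q hq hqM Mid FkP` : the field `pv` of `ModEndsInput`
  (`P_∞ = P_0 = P.place`, `P_m = modPm P m`), `= modPv (modPm ..) = sevPv .. ModSS.place`;
* ALL the hypotheses on `pv` of helper9's `sev_zA … sev_o2`, `sev_pv_inj` DISCHARGED for it:
  `modPvStd_surj_oo`, `modPvStd_surj_zero`, `modPvStd_ss_oo`, `modPvStd_ss_zero`,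
  `modPvStd_surj_mid`, `modPvStd_ss_mid`, `modPvStd_mid_restrict`, `modPvStd_inj`.
-/

noncomputable section

open ModularCurve AlgebraicCurve

namespace Fermat.Agent.S36G

local notation "Qb" => AlgebraicClosure ℚ

section Std

variable {A : ValuationSubring Qb} (M₀ q : ℕ) (hq : q.Prime) (hqM : ¬ q ∣ M₀)
  [IsAlgClosed (IsLocalRing.ResidueField A)] [CharP (IsLocalRing.ResidueField A) q]
  (Mid : Type)
  (FkP : ModSS A M₀ q → Type) [∀ P, Field (FkP P)]
  [∀ P, Algebra (IsLocalRing.ResidueField A) (FkP P)]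

/-- **the point `P_m` of the Igusa component over the supersingular point `P`.** -/
def modPm (P : ModSS A M₀ q) (_ : Mid) :
    Place (IsLocalRing.ResidueField A) ↥(igField (IsLocalRing.ResidueField A) M₀) :=
  sevMidPt M₀ q hq hqM (IsLocalRing.ResidueField A) P.place

theorem modPm_restrict (P : ModSS A M₀ q) (m : Mid) :
    (modPm M₀ q hq hqM Mid P m).restrictAlong (igIncl (IsLocalRing.ResidueField A) M₀)
      (sev_isIntegral M₀ q hq (IsLocalRing.ResidueField A)) = P.place :=
  sev_restrict_midPt M₀ q hq hqM (IsLocalRing.ResidueField A) P.place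

theorem modPm_inj (m : Mid) (P P' : ModSS A M₀ q)
    (h : modPm M₀ q hq hqM Mid P m = modPm M₀ q hq hqM Mid P' m) : P = P' :=
  ModSS.ext (sevMidPt_injective M₀ q hq hqM (IsLocalRing.ResidueField A) h)

/-- **the standard branch points** (the field `pv` of `ModEndsInput` for `SS = ModSS A M₀ q`):
`P_∞ = P_0 = P.place` on the two copies of `k(Z)`, `P_m` = the place of the Igusa field over
`P`. -/
def modPvStd : ∀ (_ : ModSS A M₀ q) (v : Vrt Mid),
    Place (IsLocalRing.ResidueField A)
      (FkOf ↥(modularFunctionFieldFullC (IsLocalRing.ResidueField A) M₀)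
        (fun _ : Mid => ↥(igField (IsLocalRing.ResidueField A) M₀)) FkP (Vtx.vert v)) :=
  modPv (FkM := fun _ : Mid => ↥(igField (IsLocalRing.ResidueField A) M₀)) (FkP := FkP)
    (modPm M₀ q hq hqM Mid)

theorem modPvStd_oo (P : ModSS A M₀ q) :
    modPvStd M₀ q hq hqM Mid FkP P Vrt.oo = P.place := rfl

theorem modPvStd_zero (P : ModSS A M₀ q) :
    modPvStd M₀ q hq hqM Mid FkP P Vrt.zero = P.place := rfl

theorem modPvStd_mid (P : ModSS A M₀ q) (m : Mid) :
    modPvStd M₀ q hq hqM Mid FkP P (Vrt.mid m) =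
      sevMidPt M₀ q hq hqM (IsLocalRing.ResidueField A) P.place := rfl

/-- the standard branch points are helper9's `sevPv` for the enumeration `ModSS.place`. -/
theorem modPvStd_eq_sevPv :
    modPvStd M₀ q hq hqM Mid FkP =
      sevPv (Mid := Mid) M₀ q hq hqM (IsLocalRing.ResidueField A) FkP
        (fun P : ModSS A M₀ q => P.place) := by
  funext P v
  cases v <;> rfl

/-- `hsurj` at `∞` (hypothesis of `sev_zA`, `sev_z1oo`). -/
theorem modPvStd_surj_oo
    (Q : Place (IsLocalRing.ResidueField A)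
      ↥(modularFunctionFieldFullC (IsLocalRing.ResidueField A) M₀))
    (hQ : IsSSPlace (IsLocalRing.ResidueField A) M₀ q Q) :
    ∃ P : ModSS A M₀ q, modPvStd M₀ q hq hqM Mid FkP P Vrt.oo = Q :=
  ModSS.exists_place_eq Q hQ

/-- `hsurj` at `0` (hypothesis of `sev_z2`). -/
theorem modPvStd_surj_zero
    (Q : Place (IsLocalRing.ResidueField A)
      ↥(modularFunctionFieldFullC (IsLocalRing.ResidueField A) M₀))
    (hQ : IsSSPlace (IsLocalRing.ResidueField A) M₀ q Q) :
    ∃ P : ModSS A M₀ q, modPvStd M₀ q hq hqM Mid FkP P Vrt.zero = Q :=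
  ModSS.exists_place_eq Q hQ

/-- `hss` at `∞` (hypothesis of `sev_oA`, `sev_o1oo`). -/
theorem modPvStd_ss_oo (P : ModSS A M₀ q) :
    IsSSPlace (IsLocalRing.ResidueField A) M₀ q (modPvStd M₀ q hq hqM Mid FkP P Vrt.oo) :=
  P.isSS

/-- `hss` at `0` (hypothesis of `sev_o2`). -/
theorem modPvStd_ss_zero (P : ModSS A M₀ q) :
    IsSSPlace (IsLocalRing.ResidueField A) M₀ q (modPvStd M₀ q hq hqM Mid FkP P Vrt.zero) :=
  P.isSS

/-- the point `P_m` lies over `P` (hypothesis `hmid` of `sev_pv_inj`). -/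
theorem modPvStd_mid_restrict (P : ModSS A M₀ q) (m : Mid) :
    Place.restrictAlong (igIncl (IsLocalRing.ResidueField A) M₀)
      (sev_isIntegral M₀ q hq (IsLocalRing.ResidueField A))
      (modPvStd M₀ q hq hqM Mid FkP P (Vrt.mid m)) = P.place :=
  sev_restrict_midPt M₀ q hq hqM (IsLocalRing.ResidueField A) P.place

/-- `hsurj` on the middle components (hypothesis of `sev_z1m`). -/
theorem modPvStd_surj_mid (m : Mid)
    (Q : Place (IsLocalRing.ResidueField A)
      ↥(modularFunctionFieldFullC (IsLocalRing.ResidueField A) M₀))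
    (hQ : IsSSPlace (IsLocalRing.ResidueField A) M₀ q Q) :
    ∃ P : ModSS A M₀ q,
      Place.restrictAlong (igIncl (IsLocalRing.ResidueField A) M₀)
        (sev_isIntegral M₀ q hq (IsLocalRing.ResidueField A))
        (modPvStd M₀ q hq hqM Mid FkP P (Vrt.mid m)) = Q := by
  obtain ⟨P, hP⟩ := ModSS.exists_place_eq Q hQ
  exact ⟨P, (modPvStd_mid_restrict M₀ q hq hqM Mid FkP P m).trans hP⟩

/-- `hss` on the middle components (hypothesis of `sev_o1m`). -/
theorem modPvStd_ss_mid (P : ModSS A M₀ q) (m : Mid) :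
    IsSSPlace (IsLocalRing.ResidueField A) M₀ q
      (Place.restrictAlong (igIncl (IsLocalRing.ResidueField A) M₀)
        (sev_isIntegral M₀ q hq (IsLocalRing.ResidueField A))
        (modPvStd M₀ q hq hqM Mid FkP P (Vrt.mid m))) := by
  rw [modPvStd_mid_restrict]
  exact P.isSS

/-- **the field `pv_inj` of `ModEndsInput`** for the standard branch points. -/
theorem modPvStd_inj (v : Vrt Mid) (P P' : ModSS A M₀ q)
    (h : modPvStd M₀ q hq hqM Mid FkP P v = modPvStd M₀ q hq hqM Mid FkP P' v) : P = P' :=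
  modPv_inj (FkP := FkP) (modPm M₀ q hq hqM Mid) (modPm_inj M₀ q hq hqM Mid) v P P' h

end Std

end Fermat.Agent.S36G
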