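import Mathlib
import Fermat.Agent.S36.G.ModGlue

set_option autoImplicit false
set_option linter.style.haveILetI false
set_option linter.unusedSectionVars false
set_option linter.unusedVariables false

/-!
# Cluster G (S36), MG-INST: the modular `GraphSeed` of a `ModEndsInput` of the modular shape
(helper74)

For `E : ModEndsInput ..` of the shape of helper40's `X.ends ..` (`S36/G/ModularGraphInst.lean`):
`E.ϖ1 ϖ2 = ϖ₁ ^ (q + 1)`, `E.u2 = E.u1 / ϖ₁`, `E.D₀ = (x)_∞`,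
`x = E.ymodX (ϖ₁ ^ (q + 1)) (q + 1)`  (the last two are `rfl` for `E = X.ends ..`):

* `modSeed_h12`  : `ϖ ^ 12 * ϖ ^ (12 q) = (ϖ ^ 12) ^ (q + 1)`   (for `ϖ₂ = ϖ ^ (12 q)`);
  `modGlue_h12` (`S36/G/ModGlue.lean`) is the same for `ϖ₂ = q ^ 12 / ϖ ^ 12`, `ϖ ^ (q + 1) = q`;
* `modSeed_b`    : `(ϖ ^ 12) ^ (q + 1) = q ^ 12` if `ϖ ^ (q + 1) = q`;
* `modSeed_ϖ2`   : `ϖ ^ (12 q) = q ^ 12 / ϖ ^ 12`;
* `ModEndsInput.modSeedOf` : **the `GraphSeed`** `= E.ymodSeedFull ..` (`hdeg` discharged), from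
  the three equations and the genus inequality;
* `modSeedOf_eq` (it is helper92's `E.ymodSeed ..`), `modSeedOf_S`, `modSeedOf_toGraphCore`,
  `modSeedOf_src`, `modSeedOf_tgt`, `modSeedOf_s₁`, `modSeedOf_D₀`, `modSeedOf_D₀'`,
  `modSeedOf_R` : the fields;
* `ModEndsInput.modSeedOf_x_eq` : the seed function is
  `u₁ + q ^ 12 / u₁ + ∑ cl : Unit, ymodY u₁ (q ^ 12) (q + 1)` (the shape of SEED-INV,
  `S36/Seed/Inv.lean`).
-/

noncomputable section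

open AlgebraicCurve Fermat.Agent.RR Fermat.Agent.Deuring

namespace Fermat.Agent.S36G

open Fermat.Agent.BadRed Fermat.Agent.BadRedG Fermat.Agent.HP

/-! ### constants -/

section Const

variable {K : Type*} [Field K]

/-- `h12` for `ϖ₁ = ϖ ^ 12`, `ϖ₂ = ϖ ^ (12 q)`, `n = q + 1`. -/
theorem modSeed_h12 (ϖ : K) (q : ℕ) : ϖ ^ 12 * ϖ ^ (12 * q) = (ϖ ^ 12) ^ (q + 1) := by
  rw [← pow_add, ← pow_mul]
  congr 1
  ring

/-- `b = (ϖ ^ 12) ^ (q + 1) = q ^ 12`. -/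
theorem modSeed_b {ϖ : K} {q : ℕ} (h : ϖ ^ (q + 1) = (q : K)) :
    (ϖ ^ 12) ^ (q + 1) = (q : K) ^ 12 :=
  modGlue_pow h

/-- `ϖ₂ = ϖ ^ (12 q) = q ^ 12 / ϖ ^ 12`. -/
theorem modSeed_ϖ2 {ϖ : K} {q : ℕ} (hϖ : ϖ ≠ 0) (h : ϖ ^ (q + 1) = (q : K)) :
    ϖ ^ (12 * q) = (q : K) ^ 12 / ϖ ^ 12 := by
  rw [eq_div_iff (pow_ne_zero 12 hϖ), ← modSeed_b h, mul_comm, modSeed_h12]

/-- `ϖ ≠ 0` if `ϖ ^ (q + 1) = q ≠ 0`. -/
theorem modSeed_ϖ_ne {ϖ : K} {q : ℕ} (hq0 : (q : K) ≠ 0) (h : ϖ ^ (q + 1) = (q : K)) : ϖ ≠ 0 :=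
  modGlue_ne_zero hq0 h

end Const

/-! ### the seed -/

section Ends

variable {K F k : Type} [Field K] [Field F] [Algebra K F] [Field k]
  {Mid SS : Type} [Fintype Mid] [Fintype SS]
  {Fk0 : Type} [Field Fk0] [Algebra k Fk0]
  {FkM : Mid → Type} [∀ m, Field (FkM m)] [∀ m, Algebra k (FkM m)]
  {FkP : SS → Type} [∀ P, Field (FkP P)] [∀ P, Algebra k (FkP P)]

namespace ModEndsInput

variable (E : ModEndsInput K F k Mid SS Fk0 FkM FkP) {q : ℕ} (hq : q.Prime)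
    (h12 : E.ϖ1 * E.ϖ2 = E.ϖ1 ^ (q + 1))
    (hu2 : E.u2 = E.u1 / algebraMap K F E.ϖ1)
    (hD₀ : E.D₀ = poleDiv (E.S (Vtx.vert Vrt.oo)).hF (E.ymodX (E.ϖ1 ^ (q + 1)) (q + 1)))
    (hgenus : genusFF K F + Fintype.card (Vtx Mid SS) ≤
      (∑ c, genusFF k (FkOf Fk0 FkM FkP c)) + Fintype.card (Nod Mid SS) + 1)

/-- the seed function in the shape of SEED-INV. -/
theorem modSeedOf_x_eq {ϖ : K} (h1 : E.ϖ1 = ϖ ^ 12) (hϖ : ϖ ^ (q + 1) = (q : K)) :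
    E.ymodX (E.ϖ1 ^ (q + 1)) (q + 1) =
      E.u1 + algebraMap K F ((q : K) ^ 12) / E.u1 +
        ∑ _cl : Unit, ymodY E.u1 ((q : K) ^ 12) (q + 1) := by
  rw [h1, modSeed_b hϖ]
  rfl

variable [Infinite k] [Nonempty SS]

/-- **the `GraphSeed`** of a `ModEndsInput` of the modular shape (`ϖ₁ ϖ₂ = ϖ₁ ^ (q + 1)`,
`u₂ = u₁ / ϖ₁`, `D₀ = (x)_∞`). -/
def modSeedOf : GraphSeed K F k (Vtx Mid SS) (FkOf Fk0 FkM FkP) (Nod Mid SS) :=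
  E.ymodSeedFull (b := E.ϖ1 ^ (q + 1)) (n := q + 1) (modGlue_two_le hq) rfl h12 hu2 hD₀ hgenus

/-- it is helper92's `E.ymodSeed`. -/
theorem modSeedOf_eq :
    E.modSeedOf hq h12 hu2 hD₀ hgenus =
      E.ymodSeed (b := E.ϖ1 ^ (q + 1)) (n := q + 1) (modGlue_two_le hq) rfl h12 hu2 hD₀
        (E.ymodX_hdeg (modGlue_two_le hq) rfl h12 hu2) hgenus := rfl

theorem modSeedOf_toGraphCore :
    (E.modSeedOf hq h12 hu2 hD₀ hgenus).toGraphCore = E.toMatchInput.core := rfl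

theorem modSeedOf_S : (E.modSeedOf hq h12 hu2 hD₀ hgenus).S = E.S := rfl

theorem modSeedOf_src : (E.modSeedOf hq h12 hu2 hD₀ hgenus).src = nodSrc := rfl

theorem modSeedOf_tgt : (E.modSeedOf hq h12 hu2 hD₀ hgenus).tgt = nodTgt := rfl

theorem modSeedOf_s₁ (i : Nod Mid SS) :
    (E.modSeedOf hq h12 hu2 hD₀ hgenus).s₁ i = E.pv i.1 i.2 := rfl

theorem modSeedOf_s₂ (i : Nod Mid SS) :
    (E.modSeedOf hq h12 hu2 hD₀ hgenus).s₂ i = E.toMatchInput.s₂ i := rfl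

theorem modSeedOf_D₀ :
    (E.modSeedOf hq h12 hu2 hD₀ hgenus).D₀ =
      poleDiv (E.S (Vtx.vert Vrt.oo)).hF (E.ymodX (E.ϖ1 ^ (q + 1)) (q + 1)) := rfl

theorem modSeedOf_D₀' : (E.modSeedOf hq h12 hu2 hD₀ hgenus).D₀ = E.D₀ := hD₀.symm

theorem modSeedOf_R (c : Vtx Mid SS) :
    (E.modSeedOf hq h12 hu2 hD₀ hgenus).R c =
      poleDiv (E.S c).hFk ((E.S c).red (E.ymodX (E.ϖ1 ^ (q + 1)) (q + 1))) := rfl

theorem modSeedOf_A (c : Vtx Mid SS) :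
    ((E.modSeedOf hq h12 hu2 hD₀ hgenus).S c).A = (E.S c).A := rfl

end ModEndsInput

end Ends

end Fermat.Agent.S36G
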