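import Mathlib
import Fermat.Agent.S36.G.ModularGraphInst
import Fermat.Agent.S36.G.ModSeedOf

set_option autoImplicit false
set_option linter.style.haveILetI false
set_option linter.unusedSectionVars false
set_option linter.unusedVariables false
set_option synthInstance.maxHeartbeats 400000
set_option maxHeartbeats 1600000

/-!
# Cluster G (S36), MG-INST: the modular `GraphSeed` `X.seed`  (helper74, on top of helper40's
`ModWorld`, `S36/G/ModularGraphInst.lean`)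

* `ModWorld.seed_h12`   : `ϖ ^ 12 * (q ^ 12 / ϖ ^ 12) = (ϖ ^ 12) ^ (q + 1)`;
* `ModWorld.seed`  : **the `GraphSeed`** `(X.ends ..).modSeedOf ..` of the modular graph (the
  arguments of `X.ends` and the genus inequality);
  by definition it is `(X.ends ..).modSeedOf ..`, so the lemmas `ModEndsInput.modSeedOf_eq`
  (it is helper92's `E.ymodSeed ..` with `hdeg := E.ymodX_hdeg ..`), `modSeedOf_S`, `_src`,
  `_tgt`, `_s₁`, `_s₂`, `_D₀`, `_R`, `_A` of `S36/G/ModSeedOf.lean` apply;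
* `ModWorld.seed_x_eq` : the seed function is
  `u₁ + q ^ 12 / u₁ + ∑ cl : Unit, ymodY u₁ (q ^ 12) (q + 1)` (the shape of SEED-INV).
-/

noncomputable section

namespace Fermat.Agent.S36G

open ModularCurve AlgebraicCurve Fermat.Agent.F3 Fermat.Agent.F3G Fermat.Agent.GaussInt
  Fermat.Agent.AtkinLehner Fermat.Agent.Kronecker Fermat.Agent.BadRed Fermat.Agent.BadRedG
  Fermat.Agent.Deuring Fermat.Agent.RR Fermat.Agent.HP Fermat.Agent.HPVal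

local notation "Qb" => AlgebraicClosure ℚ

attribute [local instance 10000] SubalgebraClass.toAlgebra HahnSeries.powerSeriesAlgebra

namespace ModWorld

variable {M₀ q : ℕ} [NeZero M₀] [NeZero q] {A : ValuationSubring Qb}
  [Fact q.Prime] [CharP (IsLocalRing.ResidueField A) q]
  [PerfectRing (IsLocalRing.ResidueField A) q] (X : ModWorld M₀ q A)

/-- `h12`: `ϖ₁ ϖ₂ = ϖ₁ ^ (q + 1)` for `ϖ₁ = ϖ ^ 12`, `ϖ₂ = q ^ 12 / ϖ ^ 12`. -/
theorem seed_h12 (hq : q.Prime) :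
    X.ϖ ^ 12 * ((q : Qb) ^ 12 / X.ϖ ^ 12) = (X.ϖ ^ 12) ^ (q + 1) :=
  modGlue_h12 (X.ϖ_ne hq) X.hϖ

/-- `b = (ϖ ^ 12) ^ (q + 1) = q ^ 12`. -/
theorem seed_b_eq : (X.ϖ ^ 12) ^ (q + 1) = (q : Qb) ^ 12 := modGlue_pow X.hϖ

section Seed

variable [Fintype (ModSS A M₀ q)] [Nonempty (ModSS A M₀ q)]

/-- **the `GraphSeed` of the modular graph.** -/
def seed (hq : q.Prime) (hA : A.LiesOverPrime q)
    (pv : ∀ (_ : ModSS A M₀ q) (v : Vrt (Fin (midCard q))),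
      Place (IsLocalRing.ResidueField A)
        (FkOf ↥(modularFunctionFieldFullC (IsLocalRing.ResidueField A) M₀)
          (fun _ : Fin (midCard q) => ↥(igField (IsLocalRing.ResidueField A) M₀)) X.W.FkP
          (Vtx.vert v)))
    (pv_inj : ∀ (v : Vrt (Fin (midCard q))) (P P' : ModSS A M₀ q), pv P v = pv P' v → P = P')
    (DA : MNData X.S {Vtx.vert Vrt.oo} (mn1V₂ (Fin (midCard q)) (ModSS A M₀ q))
      (uA M₀ q) (X.ϖ ^ (12 * q)))
    (D1 : MNData X.S (mn1V₁ (Fin (midCard q)) (ModSS A M₀ q))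
      (mn1V₂ (Fin (midCard q)) (ModSS A M₀ q)) (u1 M₀ q) (X.ϖ ^ 12))
    (D2 : MNData X.S (mn1V₂ (Fin (midCard q)) (ModSS A M₀ q)) {Vtx.vert Vrt.zero}
      (u1 M₀ q / algebraMap Qb (FBar (M₀ * q * q)) (X.ϖ ^ 12)) ((q : Qb) ^ 12 / X.ϖ ^ 12))
    (hxA : EndsRedA X.S (fun P => (X.W.O P).H)
      (algebraMap Qb (FBar (M₀ * q * q)) (X.ϖ ^ (12 * q)) / uA M₀ q))
    (hx2 : EndsRed2 X.S (fun P => (X.W.O P).H)
      (u1 M₀ q / algebraMap Qb (FBar (M₀ * q * q)) (X.ϖ ^ 12)))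
    (zA : ∀ Q : Place (IsLocalRing.ResidueField A)
        (FkOf ↥(modularFunctionFieldFullC (IsLocalRing.ResidueField A) M₀)
          (fun _ : Fin (midCard q) => ↥(igField (IsLocalRing.ResidueField A) M₀)) X.W.FkP
          (Vtx.vert Vrt.oo)),
      0 < Q.ord ((X.S (Vtx.vert Vrt.oo)).red (uA M₀ q)) → ∃ P, pv P Vrt.oo = Q)
    (oA : ∀ P, (pv P Vrt.oo).ord ((X.S (Vtx.vert Vrt.oo)).red (uA M₀ q)) = 12 * (q : ℤ))
    (z1oo : ∀ Q : Place (IsLocalRing.ResidueField A)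
        (FkOf ↥(modularFunctionFieldFullC (IsLocalRing.ResidueField A) M₀)
          (fun _ : Fin (midCard q) => ↥(igField (IsLocalRing.ResidueField A) M₀)) X.W.FkP
          (Vtx.vert Vrt.oo)),
      0 < Q.ord ((X.S (Vtx.vert Vrt.oo)).red (u1 M₀ q)) → ∃ P, pv P Vrt.oo = Q)
    (o1oo : ∀ P, (pv P Vrt.oo).ord ((X.S (Vtx.vert Vrt.oo)).red (u1 M₀ q)) = 12)
    (z1m : ∀ (m : Fin (midCard q)) (Q : Place (IsLocalRing.ResidueField A)
        (FkOf ↥(modularFunctionFieldFullC (IsLocalRing.ResidueField A) M₀)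
          (fun _ : Fin (midCard q) => ↥(igField (IsLocalRing.ResidueField A) M₀)) X.W.FkP
          (Vtx.vert (Vrt.mid m)))),
      0 < Q.ord ((X.S (Vtx.vert (Vrt.mid m))).red (u1 M₀ q)) → ∃ P, pv P (Vrt.mid m) = Q)
    (o1m : ∀ P m, (pv P (Vrt.mid m)).ord ((X.S (Vtx.vert (Vrt.mid m))).red (u1 M₀ q)) =
      12 * (midDeg q : ℤ))
    (z2 : ∀ Q : Place (IsLocalRing.ResidueField A)
        (FkOf ↥(modularFunctionFieldFullC (IsLocalRing.ResidueField A) M₀)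
          (fun _ : Fin (midCard q) => ↥(igField (IsLocalRing.ResidueField A) M₀)) X.W.FkP
          (Vtx.vert Vrt.zero)),
      0 < Q.ord ((X.S (Vtx.vert Vrt.zero)).red
        (algebraMap Qb (FBar (M₀ * q * q)) ((q : Qb) ^ 12 / X.ϖ ^ 12) /
          (u1 M₀ q / algebraMap Qb (FBar (M₀ * q * q)) (X.ϖ ^ 12)))) →
        ∃ P, pv P Vrt.zero = Q)
    (o2 : ∀ P, (pv P Vrt.zero).ord ((X.S (Vtx.vert Vrt.zero)).red
      (algebraMap Qb (FBar (M₀ * q * q)) ((q : Qb) ^ 12 / X.ϖ ^ 12) /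
        (u1 M₀ q / algebraMap Qb (FBar (M₀ * q * q)) (X.ϖ ^ 12)))) = 12 * (q : ℤ))
    (sepA : ∀ P : ModSS A M₀ q, ∃ g ∈ ncAdm X.S {Vtx.vert Vrt.oo}
        (mn1V₂ (Fin (midCard q)) (ModSS A M₀ q)) (uA M₀ q),
      ValAt (pv P Vrt.oo) ((X.S (Vtx.vert Vrt.oo)).red g) 1 ∧
        ∀ P' : ModSS A M₀ q, P' ≠ P → (X.S (Vtx.hor P')).red g = 0)
    (sep1 : ∀ (P : ModSS A M₀ q) (m : Fin (midCard q)),
      ∃ g ∈ ncAdm X.S (mn1V₁ (Fin (midCard q)) (ModSS A M₀ q))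
          (mn1V₂ (Fin (midCard q)) (ModSS A M₀ q)) (u1 M₀ q) ∩
        ncAdm X.S {Vtx.vert Vrt.oo} (mn1V₂ (Fin (midCard q)) (ModSS A M₀ q)) (uA M₀ q),
      ValAt (pv P (Vrt.mid m)) ((X.S (Vtx.vert (Vrt.mid m))).red g) 1 ∧
        ∀ P' : ModSS A M₀ q, P' ≠ P → (X.S (Vtx.hor P')).red g = 0)
    (sep2 : ∀ P : ModSS A M₀ q, ∃ g ∈ ncAdm X.S (mn1V₂ (Fin (midCard q)) (ModSS A M₀ q))
        {Vtx.vert Vrt.zero} (u1 M₀ q / algebraMap Qb (FBar (M₀ * q * q)) (X.ϖ ^ 12)),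
      ValAt (pv P Vrt.zero) ((X.S (Vtx.vert Vrt.zero)).red g) 1 ∧
        ∀ P' : ModSS A M₀ q, P' ≠ P → (X.S (Vtx.hor P')).red g = 0) 
    (hgenus : genusFF Qb (FBar (M₀ * q * q)) +
        Fintype.card (Vtx (Fin (midCard q)) (ModSS A M₀ q)) ≤
      (∑ c, genusFF (IsLocalRing.ResidueField A)
        (FkOf ↥(modularFunctionFieldFullC (IsLocalRing.ResidueField A) M₀)
          (fun _ : Fin (midCard q) => ↥(igField (IsLocalRing.ResidueField A) M₀)) X.W.FkP c)) +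
        Fintype.card (Nod (Fin (midCard q)) (ModSS A M₀ q)) + 1) :
    GraphSeed Qb (FBar (M₀ * q * q)) (IsLocalRing.ResidueField A)
      (Vtx (Fin (midCard q)) (ModSS A M₀ q))
      (FkOf ↥(modularFunctionFieldFullC (IsLocalRing.ResidueField A) M₀)
        (fun _ : Fin (midCard q) => ↥(igField (IsLocalRing.ResidueField A) M₀)) X.W.FkP)
      (Nod (Fin (midCard q)) (ModSS A M₀ q)) :=
  haveI : IsAlgClosed (IsLocalRing.ResidueField A) := isAlgClosed_residue A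
  (X.ends hq hA pv pv_inj DA D1 D2 hxA hx2 zA oA z1oo o1oo z1m o1m z2 o2 sepA sep1
    sep2).modSeedOf hq (X.seed_h12 hq) rfl rfl hgenus

/-- the seed function of `X.ends ..` in the shape of SEED-INV. -/
theorem seed_x_eq (hq : q.Prime) (hA : A.LiesOverPrime q)
    (pv : ∀ (_ : ModSS A M₀ q) (v : Vrt (Fin (midCard q))),
      Place (IsLocalRing.ResidueField A)
        (FkOf ↥(modularFunctionFieldFullC (IsLocalRing.ResidueField A) M₀)
          (fun _ : Fin (midCard q) => ↥(igField (IsLocalRing.ResidueField A) M₀)) X.W.FkP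
          (Vtx.vert v)))
    (pv_inj : ∀ (v : Vrt (Fin (midCard q))) (P P' : ModSS A M₀ q), pv P v = pv P' v → P = P')
    (DA : MNData X.S {Vtx.vert Vrt.oo} (mn1V₂ (Fin (midCard q)) (ModSS A M₀ q))
      (uA M₀ q) (X.ϖ ^ (12 * q)))
    (D1 : MNData X.S (mn1V₁ (Fin (midCard q)) (ModSS A M₀ q))
      (mn1V₂ (Fin (midCard q)) (ModSS A M₀ q)) (u1 M₀ q) (X.ϖ ^ 12))
    (D2 : MNData X.S (mn1V₂ (Fin (midCard q)) (ModSS A M₀ q)) {Vtx.vert Vrt.zero}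
      (u1 M₀ q / algebraMap Qb (FBar (M₀ * q * q)) (X.ϖ ^ 12)) ((q : Qb) ^ 12 / X.ϖ ^ 12))
    (hxA : EndsRedA X.S (fun P => (X.W.O P).H)
      (algebraMap Qb (FBar (M₀ * q * q)) (X.ϖ ^ (12 * q)) / uA M₀ q))
    (hx2 : EndsRed2 X.S (fun P => (X.W.O P).H)
      (u1 M₀ q / algebraMap Qb (FBar (M₀ * q * q)) (X.ϖ ^ 12)))
    (zA : ∀ Q : Place (IsLocalRing.ResidueField A)
        (FkOf ↥(modularFunctionFieldFullC (IsLocalRing.ResidueField A) M₀)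
          (fun _ : Fin (midCard q) => ↥(igField (IsLocalRing.ResidueField A) M₀)) X.W.FkP
          (Vtx.vert Vrt.oo)),
      0 < Q.ord ((X.S (Vtx.vert Vrt.oo)).red (uA M₀ q)) → ∃ P, pv P Vrt.oo = Q)
    (oA : ∀ P, (pv P Vrt.oo).ord ((X.S (Vtx.vert Vrt.oo)).red (uA M₀ q)) = 12 * (q : ℤ))
    (z1oo : ∀ Q : Place (IsLocalRing.ResidueField A)
        (FkOf ↥(modularFunctionFieldFullC (IsLocalRing.ResidueField A) M₀)
          (fun _ : Fin (midCard q) => ↥(igField (IsLocalRing.ResidueField A) M₀)) X.W.FkP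
          (Vtx.vert Vrt.oo)),
      0 < Q.ord ((X.S (Vtx.vert Vrt.oo)).red (u1 M₀ q)) → ∃ P, pv P Vrt.oo = Q)
    (o1oo : ∀ P, (pv P Vrt.oo).ord ((X.S (Vtx.vert Vrt.oo)).red (u1 M₀ q)) = 12)
    (z1m : ∀ (m : Fin (midCard q)) (Q : Place (IsLocalRing.ResidueField A)
        (FkOf ↥(modularFunctionFieldFullC (IsLocalRing.ResidueField A) M₀)
          (fun _ : Fin (midCard q) => ↥(igField (IsLocalRing.ResidueField A) M₀)) X.W.FkP
          (Vtx.vert (Vrt.mid m)))),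
      0 < Q.ord ((X.S (Vtx.vert (Vrt.mid m))).red (u1 M₀ q)) → ∃ P, pv P (Vrt.mid m) = Q)
    (o1m : ∀ P m, (pv P (Vrt.mid m)).ord ((X.S (Vtx.vert (Vrt.mid m))).red (u1 M₀ q)) =
      12 * (midDeg q : ℤ))
    (z2 : ∀ Q : Place (IsLocalRing.ResidueField A)
        (FkOf ↥(modularFunctionFieldFullC (IsLocalRing.ResidueField A) M₀)
          (fun _ : Fin (midCard q) => ↥(igField (IsLocalRing.ResidueField A) M₀)) X.W.FkP
          (Vtx.vert Vrt.zero)),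
      0 < Q.ord ((X.S (Vtx.vert Vrt.zero)).red
        (algebraMap Qb (FBar (M₀ * q * q)) ((q : Qb) ^ 12 / X.ϖ ^ 12) /
          (u1 M₀ q / algebraMap Qb (FBar (M₀ * q * q)) (X.ϖ ^ 12)))) →
        ∃ P, pv P Vrt.zero = Q)
    (o2 : ∀ P, (pv P Vrt.zero).ord ((X.S (Vtx.vert Vrt.zero)).red
      (algebraMap Qb (FBar (M₀ * q * q)) ((q : Qb) ^ 12 / X.ϖ ^ 12) /
        (u1 M₀ q / algebraMap Qb (FBar (M₀ * q * q)) (X.ϖ ^ 12)))) = 12 * (q : ℤ))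
    (sepA : ∀ P : ModSS A M₀ q, ∃ g ∈ ncAdm X.S {Vtx.vert Vrt.oo}
        (mn1V₂ (Fin (midCard q)) (ModSS A M₀ q)) (uA M₀ q),
      ValAt (pv P Vrt.oo) ((X.S (Vtx.vert Vrt.oo)).red g) 1 ∧
        ∀ P' : ModSS A M₀ q, P' ≠ P → (X.S (Vtx.hor P')).red g = 0)
    (sep1 : ∀ (P : ModSS A M₀ q) (m : Fin (midCard q)),
      ∃ g ∈ ncAdm X.S (mn1V₁ (Fin (midCard q)) (ModSS A M₀ q))
          (mn1V₂ (Fin (midCard q)) (ModSS A M₀ q)) (u1 M₀ q) ∩
        ncAdm X.S {Vtx.vert Vrt.oo} (mn1V₂ (Fin (midCard q)) (ModSS A M₀ q)) (uA M₀ q),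
      ValAt (pv P (Vrt.mid m)) ((X.S (Vtx.vert (Vrt.mid m))).red g) 1 ∧
        ∀ P' : ModSS A M₀ q, P' ≠ P → (X.S (Vtx.hor P')).red g = 0)
    (sep2 : ∀ P : ModSS A M₀ q, ∃ g ∈ ncAdm X.S (mn1V₂ (Fin (midCard q)) (ModSS A M₀ q))
        {Vtx.vert Vrt.zero} (u1 M₀ q / algebraMap Qb (FBar (M₀ * q * q)) (X.ϖ ^ 12)),
      ValAt (pv P Vrt.zero) ((X.S (Vtx.vert Vrt.zero)).red g) 1 ∧
        ∀ P' : ModSS A M₀ q, P' ≠ P → (X.S (Vtx.hor P')).red g = 0)  :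
    (X.ends hq hA pv pv_inj DA D1 D2 hxA hx2 zA oA z1oo o1oo z1m o1m z2 o2 sepA sep1
      sep2).ymodX ((X.ϖ ^ 12) ^ (q + 1)) (q + 1) =
      u1 M₀ q + algebraMap Qb (FBar (M₀ * q * q)) ((q : Qb) ^ 12) / u1 M₀ q +
        ∑ _cl : Unit, ymodY (u1 M₀ q) ((q : Qb) ^ 12) (q + 1) := by
  rw [X.seed_b_eq]
  rfl

end Seed

end ModWorld

end Fermat.Agent.S36G
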