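/-
G sprint (S36), bridge seat BR-NEWVEC / port P-b.  Owner: helper23.

`newVectorAt_prime N q hq : S35.NewVectorAt N q` for EVERY prime `q` (in particular `q ∣ N`, the
case `q² ∣ N q` of S36): for a newform `g` of level `N q`, every eigenvector of the
eigen-character of `g` in `O ⊗ Hom_par(Γ₀(N q), ℤ)` is killed by the two corestrictions
`coresPar N q`, `coresParD N q` to level `N`.
-/
import Fermat.Agent.S36.G.CoresDvd
import Fermat.Agent.S35.NewVector
import Fermat.Agent.S35.SMO

set_option autoImplicit false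

noncomputable section

namespace Fermat.Agent.S36G

open CongruenceSubgroup ModularFormClass ModularCurve.Period Fermat.Agent.F3EC
open CuspForm Fermat.Agent.S35
open scoped TensorProduct

/-- Weak strong multiplicity one in the shape of `S35.WeakSMOAt`. -/
theorem weakSMOAt2 (N q : ℕ) [NeZero N] [NeZero q] : WeakSMOAt N q := by
  intro g g₀ S hg hg₀ h ℓ hℓ hℓN
  exact (Fermat.Agent.S35SMO.smo_weak (M := N * q) (M₀ := N) (Dvd.intro _ rfl) hg hg₀ S
    (fun ℓ hℓ hℓS => (h ℓ hℓ hℓS).symm) ℓ hℓ hℓN).symm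

/-- `NewVectorAt N q` for a prime `q` dividing `N`. -/
theorem newVectorAt_of_dvd (N q : ℕ) [NeZero N] [NeZero q] (hq : q.Prime) (hqN : q ∣ N) :
    NewVectorAt N q := by
  intro g hg S hS O _ _ _ chig hchig iota x hx
  exact ⟨nv_baseChange_eq_zero N q hq (weakSMOAt2 N q) g hg S hS O chig hchig iota x hx _
      (fun ℓ hℓ c => coresPar_heckeHom_dvd hqN ℓ hℓ c),
    nv_baseChange_eq_zero N q hq (weakSMOAt2 N q) g hg S hS O chig hchig iota x hx _
      (fun ℓ hℓ c => coresParD_heckeHom_dvd hq hqN ℓ hℓ c)⟩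

/-- `NewVectorAt N q` for every prime `q`. -/
theorem newVectorAt_prime (N q : ℕ) [NeZero N] [NeZero q] (hq : q.Prime) :
    NewVectorAt N q := by
  intro g hg S hS O _ _ _ chig hchig iota x hx
  exact ⟨nv_baseChange_eq_zero N q hq (weakSMOAt2 N q) g hg S hS O chig hchig iota x hx _
      (fun ℓ hℓ c => coresPar_heckeHom_all hq ℓ hℓ c),
    nv_baseChange_eq_zero N q hq (weakSMOAt2 N q) g hg S hS O chig hchig iota x hx _
      (fun ℓ hℓ c => coresParD_heckeHom_all hq ℓ hℓ c)⟩

end Fermat.Agent.S36G
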