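import Mathlib
import Fermat.Agent.S36.G.CocycleF12Mod
import Fermat.Agent.S36.G.NormRootsHor
import Fermat.Agent.S36.Norm.HorSqueeze

set_option autoImplicit false
set_option linter.unusedSectionVars false
set_option linter.style.haveILetI false
set_option linter.unusedVariables false

/-!
# Cluster G (S36), COC audit (helper75): the norm `nm2` is the norm along `β`

`nm2 N₁ q D hM g = w (α (N_α (w g)))` (`S36/G/CocycleF12Mod.lean`, `w = w_{q²}`) is
`β (N_β g)`, `β = heckeBetaBar Qb N₁ q`.  This is the bridge between the norm of `NormLayer2`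
and the seats stated for `β` (SQUEEZE: `wpsq_normRed_beta`).

* `nm2_eq_beta_norm`  : `nm2 N₁ q D₂ hM g = β (normAlong β g)`;
* `nm1_red_hor`       : the field `red_hor` of `NormLayer1` at `w_P` (from `wpsq_normRed_alpha`);
* `nm2_red_hor`       : the field `red_hor` of `NormLayer2` at `w_P` (from `wpsq_normRed_beta`),
  both with `NP = nrhNP k⟮X₁⟯`, `nrhNP k⟮X₂⟯` (`S36/G/NormRootsHor.lean`).
-/

noncomputable section

namespace Fermat.Agent.S36G

open ModularCurve AlgebraicCurve IntermediateField Fermat.Agent.F3 Fermat.Agent.F3G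
  Fermat.Agent.GaussInt Fermat.Agent.AtkinLehner Fermat.Agent.Kronecker Fermat.Agent.BadRed
  Fermat.Agent.Deuring Fermat.Agent.HP Fermat.Agent.S36N

local notation "Qb" => AlgebraicClosure ℚ

set_option synthInstance.maxHeartbeats 400000

/-- **`π₂^* π₂_* = β ∘ N_β`**: the norm `nm2` (defined through `w_{q²}` and `α`) is the norm
along `β`, seen in `F` through `β`. -/
theorem nm2_eq_beta_norm (N₁ q : ℕ) [NeZero N₁] [NeZero q] (D₁ D₂ : ALData)
    (hQ : D₂.Q = D₁.Q * q) (hR : D₂.R = D₁.R) (hN : N₁ = D₁.Q * D₁.R)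
    (hM : N₁ * q = D₂.Q * D₂.R) (g : FBar (N₁ * q)) :
    nm2 N₁ q D₂ hM g = heckeBetaBar Qb N₁ q (normAlong (heckeBetaBar Qb N₁ q) g) := by
  have h1 := normAlong_beta_wAt D₁ D₂ hQ hR hN hM (wAt D₂ hM g)
  rw [wAt_wAt] at h1
  rw [nm2_def, wAt_alpha D₁ D₂ hQ hR hN hM, h1]

section Hor

variable {M₀ q : ℕ} [NeZero M₀] [NeZero q] {A : ValuationSubring Qb}
  {S0 : Fermat.Agent.S18Key.RedSetup Qb (FBar M₀) (IsLocalRing.ResidueField A)
    ↥(modularFunctionFieldFullC (IsLocalRing.ResidueField A) M₀)}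
  {P : Place (IsLocalRing.ResidueField A)
    ↥(modularFunctionFieldFullC (IsLocalRing.ResidueField A) M₀)}
  {FkP : Type} [Field FkP] [Algebra (IsLocalRing.ResidueField A) FkP]
  (O : WPOut M₀ q A S0 P FkP)

/-- **the field `red_hor` of `NormLayer1`** at `w_P`:
`red_P (nm1 g) = N_{k(H_P)/k(X₁)} (red_P g)` for `g ∈ O_{w_P}`. -/
theorem nm1_red_hor (hq : q.Prime) (hqM : ¬ q ∣ M₀) (hA : A.LiesOverPrime q)
    (g : FBar (M₀ * q * q)) (hg : g ∈ O.S.Ov) :
    nm1 (M₀ * q) q g ∈ O.S.Ov ∧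
      O.S.red (nm1 (M₀ * q) q g) =
        nrhNP (IsLocalRing.ResidueField A)⟮O.H.X1⟯ (O.S.red g) :=
  wpsq_normRed_alpha O hq hqM hA g hg

/-- **the field `red_hor` of `NormLayer2`** at `w_P`:
`red_P (nm2 g) = N_{k(H_P)/k(X₂)} (red_P g)` for `g ∈ O_{w_P}`. -/
theorem nm2_red_hor (hq : q.Prime) (hqM : ¬ q ∣ M₀) (hA : A.LiesOverPrime q)
    (D₁ D₂ : ALData) (hQ : D₂.Q = D₁.Q * q) (hR : D₂.R = D₁.R)
    (hN : M₀ * q = D₁.Q * D₁.R) (hM : M₀ * q * q = D₂.Q * D₂.R)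
    (g : FBar (M₀ * q * q)) (hg : g ∈ O.S.Ov) :
    nm2 (M₀ * q) q D₂ hM g ∈ O.S.Ov ∧
      O.S.red (nm2 (M₀ * q) q D₂ hM g) =
        nrhNP (IsLocalRing.ResidueField A)⟮O.H.X2⟯ (O.S.red g) := by
  rw [nm2_eq_beta_norm (M₀ * q) q D₁ D₂ hQ hR hN hM g]
  exact wpsq_normRed_beta O hq hqM hA g hg

end Hor

end Fermat.Agent.S36G
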