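/-
Cluster G (S36), block COC (sub-architect helper36), leaf NORM-LAYER-MID (helper83):
the argument `red_mid` of `normLayer1_of` and of `normLayer2_of` (`S36/G/NormLayerOf.lean`;
instances `nliAlgOo`, `nliAlgZero` = `nrooAlg k M₀`, `S36/G/NormLayerInst.lean`) for the modular
family

    N.S = vtxFamily Soo (valSetupZeroAt D₀ hM₀ Soo) Sm SP,

`Soo` a Gauss setup, `Sm m` the constant reduction of a middle expansion `ε m`
(`IsMidExp M₀ q (z m) (ε m)`, `IsMidSetup M₀ q A (ε m) (Sm m)`; for `I : IgPack M₀ q A`: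
`z := I.z`, `ε := I.ε`, `Sm := I.S`, `hε := I.isMidExp`, `hSm := I.isMidSetup`,
`hz := fun m => (I.prim m).pow_eq_one`).

PLAIN forms (no `FkOf`, no graph: fast) = the hypothesis `h` of the abstract transfers
`nla_red_mid_oo`, `nla_red_mid_zero` (`S36/G/NormLayerAbs.lean`, helper36), with
`inst := fun _ => nrooAlg k M₀`:

* `nlm_nm2_indep`   : `nm2 N₁ q D hM = nm2 N₁ q D' hM'` if `D.Q = D'.Q`;
* `nlm_plain_mid1`  : `(Sm m).red (nm1 g) = algebraMap (Soo.red (nm1 g))`;
* `nlm_plain_mid2`  : `(Sm m).red (nm2 D g) = algebraMap ((valSetupZeroAt D₀ hM₀ Soo).red (nm2 D g))`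
                      for ANY `D : ALData` with `D.Q = q ^ 2` (the shape of `CocycleF2`).

GRAPH forms (the arguments `red_mid` VERBATIM, for `N` over ABSTRACT `FkP`): `nlm_red_mid1`,
`nlm_red_mid2` in `S36/G/NormLayerMidG.lean` (separate file: the statements over `FkOf` are slow to
elaborate; a consumer that applies `nla_red_mid_oo` / `nla_red_mid_zero` itself does not need it).

The residue statements are `nrMid_red_mid1`, `nrMid_red_mid2` (`S36/G/NrMid.lean`); they hold for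
ALL `g` (no integrality is needed).
-/
import Mathlib
import Fermat.Agent.S36.G.NrMid
import Fermat.Agent.S36.G.NrOO
import Fermat.Agent.S36.G.ALIndep

set_option autoImplicit false
set_option linter.unusedSectionVars false
set_option linter.unusedVariables false
set_option linter.style.haveILetI false
set_option synthInstance.maxHeartbeats 400000
set_option maxHeartbeats 1000000

noncomputable section

namespace Fermat.Agent.S36G

open ModularCurve AlgebraicCurve IntermediateField Fermat.Agent.F3 Fermat.Agent.F3G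
  Fermat.Agent.GaussInt Fermat.Agent.Deuring Fermat.Agent.BadRed Fermat.Agent.BadRedG
  Fermat.Agent.AtkinLehner Fermat.Agent.Kronecker

local notation "Qb" => AlgebraicClosure ℚ

attribute [local instance 10000] SubalgebraClass.toAlgebra HahnSeries.powerSeriesAlgebra

/-- the norm `π₂^* π₂_*` depends on the Atkin–Lehner datum only through `D.Q`. -/
theorem nlm_nm2_indep (N₁ q : ℕ) [NeZero N₁] [NeZero q] (D D' : ALData)
    (hM : N₁ * q = D.Q * D.R) (hM' : N₁ * q = D'.Q * D'.R) (hQ : D.Q = D'.Q)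
    (g : FBar (N₁ * q)) : nm2 N₁ q D hM g = nm2 N₁ q D' hM' g := by
  rw [nm2_def, nm2_def, wAt_indep D D' hM hM' hQ]

/-! ### the plain forms -/

section Plain

variable {M₀ q : ℕ} [NeZero M₀] [NeZero q] {A : ValuationSubring Qb} {Mid : Type}
  {Soo : ValSetup Qb (FBar (M₀ * q * q)) (IsLocalRing.ResidueField A)
    ↥(modularFunctionFieldFullC (IsLocalRing.ResidueField A) M₀)}
  {Sm : Mid → ValSetup Qb (FBar (M₀ * q * q)) (IsLocalRing.ResidueField A)
    ↥(igField (IsLocalRing.ResidueField A) M₀)}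
  (hq : q.Prime) (hA : A.LiesOverPrime q)
  (hSoo : IsGaussSetup (M₀ * q * q) M₀ A Soo)
  {z : Mid → Qbˣ}
  {ε : Mid → (↥(modularFunctionFieldBar (M₀ * q * q)) →ₐ[Qb] LaurentSeries Qb)}
  (hε : ∀ m, IsMidExp M₀ q (z m) (ε m))
  (hSm : ∀ m, IsMidSetup M₀ q A (ε m) (Sm m))

include hq hA hSoo hε hSm in
/-- **`red_mid` for `π₁`, plain form** (= the hypothesis `h` of `nla_red_mid_oo` with
`inst := fun _ => nrooAlg k M₀`, `Nm := nm1 (M₀ q) q`). -/
theorem nlm_plain_mid1 :
    ∀ g : FBar (M₀ * q * q), g ∈ Soo.Ov → (∀ m, g ∈ (Sm m).Ov) → ∀ m,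
      (Sm m).red (nm1 (M₀ * q) q g) =
        @algebraMap ↥(modularFunctionFieldFullC (IsLocalRing.ResidueField A) M₀)
          ↥(igField (IsLocalRing.ResidueField A) M₀) _ _
          (nrooAlg (IsLocalRing.ResidueField A) M₀) (Soo.red (nm1 (M₀ * q) q g)) :=
  fun g _ _ m => nrMid_red_mid1 hq A hA Soo hSoo (hε m) (Sm m) (hSm m) g

include hq hA hSoo hε hSm in
/-- **`red_mid` for `π₂`, plain form** (= the hypothesis `h` of `nla_red_mid_zero` with
`inst := fun _ => nrooAlg k M₀`, `S0 := valSetupZeroAt D₀ hM₀ Soo`, `Nm := nm2 (M₀ q) q D hM`),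
for any `D` with `D.Q = q ^ 2`. -/
theorem nlm_plain_mid2 (hz : ∀ m, z m ^ q = 1)
    (D₀ : ALData) (hM₀ : M₀ * q * q = D₀.Q * D₀.R) (hD₀ : D₀.Q = q ^ 2)
    (D : ALData) (hM : M₀ * q * q = D.Q * D.R) (hDQ : D.Q = q ^ 2) :
    ∀ g : FBar (M₀ * q * q), g ∈ (valSetupZeroAt D₀ hM₀ Soo).Ov → (∀ m, g ∈ (Sm m).Ov) → ∀ m,
      (Sm m).red (nm2 (M₀ * q) q D hM g) =
        @algebraMap ↥(modularFunctionFieldFullC (IsLocalRing.ResidueField A) M₀)
          ↥(igField (IsLocalRing.ResidueField A) M₀) _ _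
          (nrooAlg (IsLocalRing.ResidueField A) M₀)
          ((valSetupZeroAt D₀ hM₀ Soo).red (nm2 (M₀ * q) q D hM g)) := by
  intro g _ _ m
  have hDR : D₀.R = M₀ := by
    have h1 : q ^ 2 * D₀.R = q ^ 2 * M₀ := by
      rw [← hD₀, ← hM₀, hD₀]
      ring
    exact Nat.eq_of_mul_eq_mul_left (pow_pos hq.pos 2) h1
  have hDQ' : D₀.Q = q * q := by rw [hD₀, sq]
  rw [nlm_nm2_indep (M₀ * q) q D D₀ hM hM₀ (hDQ.trans hD₀.symm) g]
  exact nrMid_red_mid2 hq A hA Soo hSoo (hε m) (Sm m) (hSm m) (hz m) D₀ hDQ' hDR hM₀ g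

end Plain

end Fermat.Agent.S36G
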