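/-
Cluster G (S36), block COC (sub-architect helper36), leaf NORM-LAYER-MID (helper83), GRAPH forms:
the argument `red_mid` of `normLayer1_of` / `nliLayer1` and of `normLayer2_of` / `nliLayer2`,
VERBATIM, for a graph setup `N` over `FkOf F_k(M₀) (fun _ => igField k M₀) FkP` (ABSTRACT `FkP`) with

    N.S = vtxFamily Soo (valSetupZeroAt D₀ hM₀ Soo) Sm SP,

instance `nrooAlg k M₀` (= `nliAlgOo`, `nliAlgZero`).

* `nlm_red_mid1` : **`red_mid` of `normLayer1_of` / `nliLayer1`** for `Nm = nm1 (M₀ q) q`;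
* `nlm_red_mid2` : **`red_mid` of `normLayer2_of` / `nliLayer2`** for `Nm = nm2 (M₀ q) q D hM`,
                   ANY `D : ALData` with `D.Q = q ^ 2`.

= `nla_red_mid_oo` / `nla_red_mid_zero` (`S36/G/NormLayerAbs.lean`, helper36) applied to the plain
forms `nlm_plain_mid1` / `nlm_plain_mid2` (`S36/G/NormLayerMid.lean`).
-/
import Mathlib
import Fermat.Agent.S36.G.NormLayerMid
import Fermat.Agent.S36.G.NormLayerAbs

set_option autoImplicit false
set_option linter.unusedSectionVars false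
set_option linter.unusedVariables false
set_option linter.style.haveILetI false
set_option synthInstance.maxHeartbeats 400000
set_option maxHeartbeats 1000000

noncomputable section

namespace Fermat.Agent.S36G

open ModularCurve AlgebraicCurve IntermediateField Fermat.Agent.F3 Fermat.Agent.F3G
  Fermat.Agent.GaussInt Fermat.Agent.Deuring Fermat.Agent.BadRed Fermat.Agent.BadRedG
  Fermat.Agent.AtkinLehner Fermat.Agent.Kronecker

local notation "Qb" => AlgebraicClosure ℚ

attribute [local instance 10000] SubalgebraClass.toAlgebra HahnSeries.powerSeriesAlgebra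

/-! ### the graph forms -/

section Graph

variable {M₀ q : ℕ} [NeZero M₀] [NeZero q] {A : ValuationSubring Qb}
  {Mid SS : Type} [Fintype Mid]
  {FkP : SS → Type} [∀ P, Field (FkP P)] [∀ P, Algebra (IsLocalRing.ResidueField A) (FkP P)]

/-- **the argument `red_mid` of `normLayer1_of` / `nliLayer1`** (`Nm = nm1 (M₀ q) q`). -/
theorem nlm_red_mid1
    (N : GraphSetup Qb (FBar (M₀ * q * q)) (IsLocalRing.ResidueField A) (Vtx Mid SS)
      (FkOf ↥(modularFunctionFieldFullC (IsLocalRing.ResidueField A) M₀)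
        (fun _ : Mid => ↥(igField (IsLocalRing.ResidueField A) M₀)) FkP) (Nod Mid SS))
    {Soo S0 : ValSetup Qb (FBar (M₀ * q * q)) (IsLocalRing.ResidueField A)
      ↥(modularFunctionFieldFullC (IsLocalRing.ResidueField A) M₀)}
    {Sm : Mid → ValSetup Qb (FBar (M₀ * q * q)) (IsLocalRing.ResidueField A)
      ↥(igField (IsLocalRing.ResidueField A) M₀)}
    {SP : ∀ P, ValSetup Qb (FBar (M₀ * q * q)) (IsLocalRing.ResidueField A) (FkP P)}
    (hN : N.S = vtxFamily Soo S0 Sm SP)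
    (hq : q.Prime) (hA : A.LiesOverPrime q)
    (hSoo : IsGaussSetup (M₀ * q * q) M₀ A Soo)
    {z : Mid → Qbˣ}
    {ε : Mid → (↥(modularFunctionFieldBar (M₀ * q * q)) →ₐ[Qb] LaurentSeries Qb)}
    (hε : ∀ m, IsMidExp M₀ q (z m) (ε m))
    (hSm : ∀ m, IsMidSetup M₀ q A (ε m) (Sm m)) :
    ∀ g : FBar (M₀ * q * q), (∀ c, g ∈ (N.S c).Ov) → (∀ c, (N.S c).red g ≠ 0) → ∀ m,
      (N.S (Vtx.vert (Vrt.mid m))).red (nm1 (M₀ * q) q g) =
        @algebraMap
          (FkOf ↥(modularFunctionFieldFullC (IsLocalRing.ResidueField A) M₀)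
            (fun _ : Mid => ↥(igField (IsLocalRing.ResidueField A) M₀)) FkP (Vtx.vert Vrt.oo))
          (FkOf ↥(modularFunctionFieldFullC (IsLocalRing.ResidueField A) M₀)
            (fun _ : Mid => ↥(igField (IsLocalRing.ResidueField A) M₀)) FkP
            (Vtx.vert (Vrt.mid m))) _ _
          (nrooAlg (IsLocalRing.ResidueField A) M₀)
          ((N.S (Vtx.vert Vrt.oo)).red (nm1 (M₀ * q) q g)) :=
  nla_red_mid_oo N hN (fun _ => nrooAlg (IsLocalRing.ResidueField A) M₀) (nm1 (M₀ * q) q)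
    (nlm_plain_mid1 hq hA hSoo hε hSm)

/-- **the argument `red_mid` of `normLayer2_of` / `nliLayer2`** (`Nm = nm2 (M₀ q) q D hM`), for
any `D : ALData` with `D.Q = q ^ 2`. -/
theorem nlm_red_mid2
    (N : GraphSetup Qb (FBar (M₀ * q * q)) (IsLocalRing.ResidueField A) (Vtx Mid SS)
      (FkOf ↥(modularFunctionFieldFullC (IsLocalRing.ResidueField A) M₀)
        (fun _ : Mid => ↥(igField (IsLocalRing.ResidueField A) M₀)) FkP) (Nod Mid SS))
    {Soo : ValSetup Qb (FBar (M₀ * q * q)) (IsLocalRing.ResidueField A)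
      ↥(modularFunctionFieldFullC (IsLocalRing.ResidueField A) M₀)}
    {Sm : Mid → ValSetup Qb (FBar (M₀ * q * q)) (IsLocalRing.ResidueField A)
      ↥(igField (IsLocalRing.ResidueField A) M₀)}
    {SP : ∀ P, ValSetup Qb (FBar (M₀ * q * q)) (IsLocalRing.ResidueField A) (FkP P)}
    (D₀ : ALData) (hM₀ : M₀ * q * q = D₀.Q * D₀.R) (hD₀ : D₀.Q = q ^ 2)
    (hN : N.S = vtxFamily Soo (valSetupZeroAt D₀ hM₀ Soo) Sm SP)
    (hq : q.Prime) (hA : A.LiesOverPrime q)
    (hSoo : IsGaussSetup (M₀ * q * q) M₀ A Soo)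
    {z : Mid → Qbˣ}
    {ε : Mid → (↥(modularFunctionFieldBar (M₀ * q * q)) →ₐ[Qb] LaurentSeries Qb)}
    (hε : ∀ m, IsMidExp M₀ q (z m) (ε m))
    (hSm : ∀ m, IsMidSetup M₀ q A (ε m) (Sm m)) (hz : ∀ m, z m ^ q = 1)
    (D : ALData) (hM : M₀ * q * q = D.Q * D.R) (hDQ : D.Q = q ^ 2) :
    ∀ g : FBar (M₀ * q * q), (∀ c, g ∈ (N.S c).Ov) → (∀ c, (N.S c).red g ≠ 0) → ∀ m,
      (N.S (Vtx.vert (Vrt.mid m))).red (nm2 (M₀ * q) q D hM g) =
        @algebraMap
          (FkOf ↥(modularFunctionFieldFullC (IsLocalRing.ResidueField A) M₀)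
            (fun _ : Mid => ↥(igField (IsLocalRing.ResidueField A) M₀)) FkP
            (Vtx.vert Vrt.zero))
          (FkOf ↥(modularFunctionFieldFullC (IsLocalRing.ResidueField A) M₀)
            (fun _ : Mid => ↥(igField (IsLocalRing.ResidueField A) M₀)) FkP
            (Vtx.vert (Vrt.mid m))) _ _
          (nrooAlg (IsLocalRing.ResidueField A) M₀)
          ((N.S (Vtx.vert Vrt.zero)).red (nm2 (M₀ * q) q D hM g)) :=
  nla_red_mid_zero N hN (fun _ => nrooAlg (IsLocalRing.ResidueField A) M₀)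
    (nm2 (M₀ * q) q D hM) (nlm_plain_mid2 hq hA hSoo hε hSm hz D₀ hM₀ hD₀ D hM hDQ)

end Graph

end Fermat.Agent.S36G
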