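import Mathlib
import Fermat.Agent.S36.G.NormSatFun
import Fermat.Agent.Lib.BadRed.Graph.OrdCrit
import Fermat.Agent.Lib.RR.Kummer.Count

set_option autoImplicit false
set_option linter.unusedSectionVars false
set_option linter.unusedVariables false
set_option linter.style.haveILetI false

/-!
# Cluster G (S36), seat SAT, `(H)`: the DEGREE COUNT for the norms  (helper49)

Input of ORD-CRIT (`Lib/BadRed/Graph/OrdCrit.lean`, `isOrd_of_pole_count'`) for `f = Nm g`,
`Nm = π^* π_*`:  with `d = [F : α F₁]`,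

    `∑_{P pole of Nm g} - ord_P (Nm g)  ≤  d · ∑_{w pole of g} - ord_w g`.

* `nsd_sum_polesOf`          : `∑_{P ∈ polesOf f} - ord_P f = deg (f)_∞`;
* `nsd_poleDiv_alpha`        : `(α h)_∞ = α^* (h)_∞`;
* `nsd_degree_poleDiv_alpha` : `deg (α h)_∞ = d · deg (h)_∞`  (fundamental identity);
* `nsd_poleDiv_norm_le`      : `(N_α g)_∞ ≤ α_* (g)_∞`        (norm formula);
* `nsd_degree_poleDiv_norm_le`, `nsd_degree_poleDiv_algAut`;
* `nsd_count_alpha`  : the count for `Nm g = α (N_α g)`            (`π₁`);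
* `nsd_count_conj`   : the count for `Nm g = W (α (N_α (W g)))`    (`π₂`).
-/

noncomputable section

open AlgebraicCurve Fermat.Agent.RR Fermat.Agent.Deuring

namespace Fermat.Agent.S36G

open Fermat.Agent.BadRed Fermat.Agent.BadRedG Fermat.Agent.F3G

variable {K F₁ F : Type*} [Field K] [Field F₁] [Field F] [Algebra K F₁] [Algebra K F]

/-- `∑_{P ∈ polesOf f} - ord_P f = deg (f)_∞`. -/
theorem nsd_sum_polesOf (hF : IsRRField K F) (f : F) :
    ∑ P ∈ polesOf hF f, (- P.ord f) = Divisor.degree (poleDiv hF f) := by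
  classical
  rw [Fermat.Agent.RRKum.degree_poleDiv_eq_sum hF f, polesOf, Finset.sum_filter]
  refine Finset.sum_congr rfl fun P _ => ?_
  split_ifs with h
  · rw [max_eq_left (by omega)]
  · rw [max_eq_right (by omega)]

/-- `(α h)_∞ = α^* (h)_∞`. -/
theorem nsd_poleDiv_alpha [HasPrincipalDivisors K F] (α : F₁ →ₐ[K] F)
    (hα : α.toRingHom.IsIntegral) (hF₁ : IsRRField K F₁) (hF : IsRRField K F) (h : F₁) :
    poleDiv hF (α h) = Divisor.pullbackAlong α hα (poleDiv hF₁ h) := by
  refine Finsupp.ext fun w => ?_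
  rw [poleDiv_apply, Divisor.pullbackAlong_apply, poleDiv_apply, Place.ord_restrictAlong α hα,
    mul_max_of_nonneg _ _ (Int.natCast_nonneg _), mul_zero, mul_neg]

/-- `deg (α h)_∞ = [F : α F₁] · deg (h)_∞`. -/
theorem nsd_degree_poleDiv_alpha [HasPrincipalDivisors K F] (α : F₁ →ₐ[K] F)
    (hα : α.toRingHom.IsIntegral) (hFI : FundamentalIdentityAlong K α hα)
    (hF₁ : IsRRField K F₁) (hF : IsRRField K F) (h : F₁) :
    Divisor.degree (poleDiv hF (α h)) =
      (finrankAlong K α : ℤ) * Divisor.degree (poleDiv hF₁ h) := by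
  rw [nsd_poleDiv_alpha α hα hF₁ hF h, Divisor.degree_pullbackAlong α hα hFI]

/-- the push-forward of an effective divisor is effective. -/
theorem nsd_pushforwardAlong_nonneg (α : F₁ →ₐ[K] F) (hα : α.toRingHom.IsIntegral)
    {D : Divisor K F} (hD : 0 ≤ D) : 0 ≤ Divisor.pushforwardAlong α hα D := by
  classical
  letI := algebraAlong α
  haveI := isScalarTower_along α
  haveI := isIntegral_along α hα
  rw [Finsupp.le_def]
  intro v
  show (0 : ℤ) ≤ Divisor.pushforward F₁ D v
  rw [Divisor.pushforward_apply]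
  refine Finset.sum_nonneg fun w _ => ?_
  split_ifs
  · exact mul_nonneg (hD w) (Int.natCast_nonneg _)
  · exact le_rfl

/-- `(N_α g)_∞ ≤ α_* (g)_∞`. -/
theorem nsd_poleDiv_norm_le (α : F₁ →ₐ[K] F) (hα : α.toRingHom.IsIntegral)
    (hfin : FiniteAlong K α) (hN : NormFormulaAlong K α hfin)
    (hF₁ : IsRRField K F₁) (hF : IsRRField K F) {g : F} (hg : g ≠ 0) :
    poleDiv hF₁ (normAlong α g) ≤ Divisor.pushforwardAlong α hα (poleDiv hF g) := by
  rw [Finsupp.le_def]
  intro v
  have hnorm : Divisor.pushforwardAlong α hα (divOf hF g) v = v.ord (normAlong α g) := by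
    letI := algebraAlong α
    haveI := isScalarTower_along α
    haveI := isIntegral_along α hα
    haveI : Module.Finite F₁ F := hfin
    exact hN g hg (divOf hF g) (fun w => divOf_apply hF g w) v
  have hz : 0 ≤ divOf hF g + poleDiv hF g := by
    rw [Finsupp.le_def]
    intro w
    rw [Finsupp.add_apply, divOf_apply, poleDiv_apply, Finsupp.zero_apply]
    rcases le_total (-(w.ord g)) 0 with h | h
    · rw [max_eq_right h]
      omega
    · rw [max_eq_left h]
      omega
  have h1 := nsd_pushforwardAlong_nonneg α hα hz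
  rw [Finsupp.le_def] at h1
  have h2 := h1 v
  rw [map_add, Finsupp.add_apply, hnorm, Finsupp.zero_apply] at h2
  have h3 := nsd_pushforwardAlong_nonneg α hα (poleDiv_nonneg hF g)
  rw [Finsupp.le_def] at h3
  have h4 := h3 v
  rw [Finsupp.zero_apply] at h4
  rw [poleDiv_apply]
  exact max_le (by omega) h4

/-- `deg (N_α g)_∞ ≤ deg (g)_∞`. -/
theorem nsd_degree_poleDiv_norm_le (α : F₁ →ₐ[K] F) (hα : α.toRingHom.IsIntegral)
    (hfin : FiniteAlong K α) (hN : NormFormulaAlong K α hfin)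
    (hF₁ : IsRRField K F₁) (hF : IsRRField K F) {g : F} (hg : g ≠ 0) :
    Divisor.degree (poleDiv hF₁ (normAlong α g)) ≤ Divisor.degree (poleDiv hF g) := by
  have h := Fermat.Agent.RR.degree_mono hF₁ (nsd_poleDiv_norm_le α hα hfin hN hF₁ hF hg)
  rwa [Divisor.degree_pushforwardAlong] at h

/-- `(W f)_∞ = W • (f)_∞`. -/
theorem nsd_poleDiv_algAut (hF : IsRRField K F) (W : F ≃ₐ[K] F) (f : F) :
    poleDiv hF (W f) = (SemilinearAut.ofAlgAut W) • poleDiv hF f := by
  refine Finsupp.ext fun w => ?_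
  rw [SemilinearAut.divisor_smul_apply, poleDiv_apply, poleDiv_apply, nsa_ord_algAut]

/-- `deg (W f)_∞ = deg (f)_∞`. -/
theorem nsd_degree_poleDiv_algAut (hF : IsRRField K F) (W : F ≃ₐ[K] F) (f : F) :
    Divisor.degree (poleDiv hF (W f)) = Divisor.degree (poleDiv hF f) := by
  rw [nsd_poleDiv_algAut, SemilinearAut.degree_smul]

/-- **the degree count for `π₁`**: `deg (α (N_α g))_∞ ≤ [F : α F₁] · deg (g)_∞`. -/
theorem nsd_degree_alpha [HasPrincipalDivisors K F] (α : F₁ →ₐ[K] F)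
    (hα : α.toRingHom.IsIntegral) (hfin : FiniteAlong K α) (hN : NormFormulaAlong K α hfin)
    (hFI : FundamentalIdentityAlong K α hα)
    (hF₁ : IsRRField K F₁) (hF : IsRRField K F) {g : F} (hg : g ≠ 0) :
    Divisor.degree (poleDiv hF (α (normAlong α g))) ≤
      (finrankAlong K α : ℤ) * Divisor.degree (poleDiv hF g) := by
  rw [nsd_degree_poleDiv_alpha α hα hFI hF₁ hF]
  exact mul_le_mul_of_nonneg_left (nsd_degree_poleDiv_norm_le α hα hfin hN hF₁ hF hg)
    (Int.natCast_nonneg _)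

/-- **the degree count for `π₂`**: `deg (W (α (N_α (W g))))_∞ ≤ [F : α F₁] · deg (g)_∞`. -/
theorem nsd_degree_conj [HasPrincipalDivisors K F] (α : F₁ →ₐ[K] F)
    (hα : α.toRingHom.IsIntegral) (hfin : FiniteAlong K α) (hN : NormFormulaAlong K α hfin)
    (hFI : FundamentalIdentityAlong K α hα)
    (hF₁ : IsRRField K F₁) (hF : IsRRField K F) (W : F ≃ₐ[K] F) {g : F} (hg : g ≠ 0) :
    Divisor.degree (poleDiv hF (W (α (normAlong α (W g))))) ≤
      (finrankAlong K α : ℤ) * Divisor.degree (poleDiv hF g) := by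
  rw [nsd_degree_poleDiv_algAut hF W, ← nsd_degree_poleDiv_algAut hF W g]
  exact nsd_degree_alpha α hα hfin hN hFI hF₁ hF ((map_ne_zero W).mpr hg)

/-- **the count of ORD-CRIT for `π₁`.** -/
theorem nsd_count_alpha [HasPrincipalDivisors K F] (α : F₁ →ₐ[K] F)
    (hα : α.toRingHom.IsIntegral) (hfin : FiniteAlong K α) (hN : NormFormulaAlong K α hfin)
    (hFI : FundamentalIdentityAlong K α hα)
    (hF₁ : IsRRField K F₁) (hF : IsRRField K F) {g : F} (hg : g ≠ 0) :
    ∑ P ∈ polesOf hF (α (normAlong α g)), (- P.ord (α (normAlong α g))) ≤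
      (finrankAlong K α : ℤ) * ∑ w ∈ polesOf hF g, (- w.ord g) := by
  rw [nsd_sum_polesOf, nsd_sum_polesOf]
  exact nsd_degree_alpha α hα hfin hN hFI hF₁ hF hg

/-- **the count of ORD-CRIT for `π₂`.** -/
theorem nsd_count_conj [HasPrincipalDivisors K F] (α : F₁ →ₐ[K] F)
    (hα : α.toRingHom.IsIntegral) (hfin : FiniteAlong K α) (hN : NormFormulaAlong K α hfin)
    (hFI : FundamentalIdentityAlong K α hα)
    (hF₁ : IsRRField K F₁) (hF : IsRRField K F) (W : F ≃ₐ[K] F) {g : F} (hg : g ≠ 0) :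
    ∑ P ∈ polesOf hF (W (α (normAlong α (W g)))), (- P.ord (W (α (normAlong α (W g))))) ≤
      (finrankAlong K α : ℤ) * ∑ w ∈ polesOf hF g, (- w.ord g) := by
  rw [nsd_sum_polesOf, nsd_sum_polesOf]
  exact nsd_degree_conj α hα hfin hN hFI hF₁ hF W hg

end Fermat.Agent.S36G
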