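import Mathlib
import Fermat.Agent.Lib.Deuring.Basic

set_option autoImplicit false
set_option linter.unusedSectionVars false

/-!
# Cluster G (S36), Step 1 (vertical), ABSTRACT  (helper60)

`F / K` with constant reductions `S : ValSetup K F k Fk`.

* `IsCn n y`          : `y = c · hⁿ`, `c ∈ kˣ`, `h ≠ 0` (the trivial class of `Fkˣ / kˣ (Fkˣ)ⁿ`);
* `IsPowRes S n g`    : `red_S (g / a) = hⁿ` for some constant `a ≠ 0` and `h ≠ 0`
  (`= GraphSetup.IsPowAt`, for one valuation);
* `isPowRes_iff_isCn` : if `red_S (g / a) = y ≠ 0` then `IsPowRes S n g ↔ IsCn n y`;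
* `isPowRes_of_constPow` : `g = a uⁿ ⟹ IsPowRes S n g`;
* `IsPowRes.mul / .pow / .of_same_ring` : closure properties;
* `step1_frob`        : the `v_0` / `v_∞` part of Step 1: from a norm relation
  `red' (N y / c') = Φ (red (y / c))` with `Φ` a ring isomorphism of the residue fields which is
  onto on the constants (coefficientwise Frobenius), `N g = a uⁿ ⟹ IsPowRes S n g`;
* `step1_mid`         : the middle part: from the product formula (N2)
  `ι₁ red₁ (N y / c') = ι₀ red_∞ (y / c) · ∏_b red_b (y / c_b)`, the inertia group acting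
  transitively on the `|B|` middle residue maps, `IsPowRes S_∞ n g` and `N g = a uⁿ`:
  `IsPowRes (S_b) n (g ^ |B|)`.
-/

noncomputable section

namespace Fermat.Agent.S36G

open Fermat.Agent.Deuring

section Cn

variable {k Fk : Type*} [Field k] [Field Fk] [Algebra k Fk]

/-- `y` is a nonzero constant times an `n`-th power of a nonzero element. -/
def IsCn (k : Type*) {Fk : Type*} [Field k] [Field Fk] [Algebra k Fk] (n : ℕ) (y : Fk) : Prop :=
  ∃ c : k, c ≠ 0 ∧ ∃ h : Fk, h ≠ 0 ∧ y = algebraMap k Fk c * h ^ n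

theorem IsCn.ne_zero {n : ℕ} {y : Fk} (h : IsCn k n y) : y ≠ 0 := by
  obtain ⟨c, hc, u, hu, rfl⟩ := h
  exact mul_ne_zero ((map_ne_zero (algebraMap k Fk)).mpr hc) (pow_ne_zero n hu)

theorem isCn_one (n : ℕ) : IsCn k n (1 : Fk) :=
  ⟨1, one_ne_zero, 1, one_ne_zero, by rw [map_one, one_pow, one_mul]⟩

theorem IsCn.mul {n : ℕ} {y z : Fk} (hy : IsCn k n y) (hz : IsCn k n z) : IsCn k n (y * z) := by
  obtain ⟨c, hc, u, hu, rfl⟩ := hy
  obtain ⟨d, hd, v, hv, rfl⟩ := hz
  exact ⟨c * d, mul_ne_zero hc hd, u * v, mul_ne_zero hu hv, by rw [map_mul, mul_pow]; ring⟩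

theorem IsCn.inv {n : ℕ} {y : Fk} (hy : IsCn k n y) : IsCn k n y⁻¹ := by
  obtain ⟨c, hc, u, hu, rfl⟩ := hy
  exact ⟨c⁻¹, inv_ne_zero hc, u⁻¹, inv_ne_zero hu, by rw [map_inv₀, inv_pow, mul_inv]⟩

theorem IsCn.div {n : ℕ} {y z : Fk} (hy : IsCn k n y) (hz : IsCn k n z) : IsCn k n (y / z) := by
  rw [div_eq_mul_inv]
  exact hy.mul hz.inv

theorem IsCn.pow {n : ℕ} {y : Fk} (hy : IsCn k n y) (m : ℕ) : IsCn k n (y ^ m) := by
  obtain ⟨c, hc, u, hu, rfl⟩ := hy
  exact ⟨c ^ m, pow_ne_zero m hc, u ^ m, pow_ne_zero m hu, by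
    rw [map_pow, mul_pow, ← pow_mul, ← pow_mul, mul_comm n m]⟩

theorem IsCn.prod {n : ℕ} {ι : Type*} (s : Finset ι) (y : ι → Fk)
    (hy : ∀ i ∈ s, IsCn k n (y i)) : IsCn k n (∏ i ∈ s, y i) := by
  classical
  induction s using Finset.induction_on with
  | empty => rw [Finset.prod_empty]; exact isCn_one n
  | insert a s ha ih =>
    rw [Finset.prod_insert ha]
    exact (hy a (Finset.mem_insert_self a s)).mul
      (ih fun i hi => hy i (Finset.mem_insert_of_mem hi))

/-- `IsCn` is preserved by `k`-algebra homomorphisms. -/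
theorem IsCn.map {L : Type*} [Field L] [Algebra k L] (φ : Fk →ₐ[k] L) {n : ℕ} {y : Fk}
    (hy : IsCn k n y) : IsCn k n (φ y) := by
  obtain ⟨c, hc, u, hu, rfl⟩ := hy
  exact ⟨c, hc, φ u, (map_ne_zero φ.toRingHom).mpr hu, by
    rw [map_mul, map_pow, AlgHom.commutes]⟩

/-- `IsCn` is reflected by `k`-algebra isomorphisms. -/
theorem IsCn.of_map_equiv {L : Type*} [Field L] [Algebra k L] (φ : Fk ≃ₐ[k] L) {n : ℕ} {y : Fk}
    (hy : IsCn k n (φ y)) : IsCn k n y := by
  have h := hy.map (φ.symm : L →ₐ[k] Fk)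
  simpa using h

/-- `IsCn` is reflected by ring isomorphisms which are onto on the constants. -/
theorem IsCn.of_map_ringEquiv {L : Type*} [Field L] [Algebra k L] (Φ : Fk ≃+* L)
    (hΦ : ∀ c : k, ∃ c' : k, Φ.symm (algebraMap k L c) = algebraMap k Fk c') {n : ℕ} {y : Fk}
    (hy : IsCn k n (Φ y)) : IsCn k n y := by
  obtain ⟨c, hc, u, hu, hcu⟩ := hy
  obtain ⟨c', hc'⟩ := hΦ c
  have hy' : y = algebraMap k Fk c' * (Φ.symm u) ^ n := by
    have := congrArg Φ.symm hcu
    rw [RingEquiv.symm_apply_apply, map_mul, map_pow, hc'] at this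
    exact this
  refine ⟨c', ?_, Φ.symm u, (map_ne_zero Φ.symm.toRingHom).mpr hu, hy'⟩
  rintro rfl
  rw [map_zero] at hc'
  have : algebraMap k L c = 0 := by
    have h0 := congrArg Φ hc'
    rwa [RingEquiv.apply_symm_apply, map_zero] at h0
  exact hc ((map_eq_zero (algebraMap k L)).mp this)

end Cn

section PowRes

variable {K F k Fk : Type*} [Field K] [Field F] [Algebra K F] [Field k] [Field Fk]
  [Algebra k Fk]

/-- the Kummer generator `g` is, up to a constant, an `n`-th power in the residue field of `S`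
(`GraphSetup.IsPowAt` for one valuation). -/
def IsPowRes (S : ValSetup K F k Fk) (n : ℕ) (g : F) : Prop :=
  ∃ a : K, a ≠ 0 ∧ ∃ h : Fk, h ≠ 0 ∧ S.red (g / algebraMap K F a) = h ^ n

variable (S : ValSetup K F k Fk)

theorem sa_algebraMap_ne_zero {a : K} (ha : a ≠ 0) : algebraMap K F a ≠ 0 :=
  (map_ne_zero (algebraMap K F)).mpr ha

/-- scaling in division form. -/
theorem sa_exists_scale {g : F} (hg : g ≠ 0) :
    ∃ a : K, a ≠ 0 ∧ S.red (g / algebraMap K F a) ≠ 0 := by
  obtain ⟨c, hc, h1, h2⟩ := S.scale g hg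
  refine ⟨c, hc, ?_⟩
  rw [div_eq_mul_inv]
  exact S.red_ne_zero h1 h2 (mul_ne_zero hg (inv_ne_zero (sa_algebraMap_ne_zero hc)))

/-- a unit has a unit inverse. -/
theorem sa_red_mul {x y : F} (hx : S.red x ≠ 0) (hy : S.red y ≠ 0) :
    S.red (x * y) = S.red x * S.red y :=
  S.red_mul (S.mem_of_red_ne_zero hx) (S.mem_of_red_ne_zero hy)

theorem sa_red_inv {x : F} (hx : S.red x ≠ 0) : S.red x⁻¹ = (S.red x)⁻¹ :=
  S.red_inv (S.mem_of_red_ne_zero hx) (S.inv_mem_of_red_ne_zero hx)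
    (S.ne_zero_of_red_ne_zero hx)

theorem sa_red_inv_ne_zero {x : F} (hx : S.red x ≠ 0) : S.red x⁻¹ ≠ 0 := by
  rw [sa_red_inv S hx]
  exact inv_ne_zero hx

theorem sa_red_div {x y : F} (hx : S.red x ≠ 0) (hy : S.red y ≠ 0) :
    S.red (x / y) = S.red x / S.red y := by
  rw [div_eq_mul_inv, sa_red_mul S hx (sa_red_inv_ne_zero S hy), sa_red_inv S hy,
    div_eq_mul_inv]

theorem sa_red_pow {x : F} (hx : S.red x ≠ 0) (m : ℕ) : S.red (x ^ m) = S.red x ^ m :=
  S.red_pow (S.mem_of_red_ne_zero hx) m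

/-- the residue of a constant which is a unit of `Ov`. -/
theorem sa_red_const {a : K} (h : S.red (algebraMap K F a) ≠ 0) :
    ∃ c : k, c ≠ 0 ∧ S.red (algebraMap K F a) = algebraMap k Fk c := by
  have hmem : a ∈ S.A := (S.mem_Ov_iff a).mp (S.mem_of_red_ne_zero h)
  refine ⟨S.res ⟨a, hmem⟩, ?_, S.red_algebraMap hmem⟩
  intro h0
  rw [S.red_algebraMap hmem, h0, map_zero] at h
  exact h rfl

/-- every nonzero constant of `k` is the residue of a constant of `K`. -/
theorem sa_exists_lift {c : k} (hc : c ≠ 0) :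
    ∃ a : K, a ≠ 0 ∧ S.red (algebraMap K F a) = algebraMap k Fk c := by
  obtain ⟨a, ha⟩ := S.res_surj c
  refine ⟨a.1, ?_, ?_⟩
  · intro h0
    have h1 : a = 0 := Subtype.ext h0
    rw [h1, map_zero] at ha
    exact hc ha.symm
  · rw [S.red_algebraMap a.2]
    exact congrArg _ ha

/-- **the dictionary**: if `red (g / a) = y ≠ 0` then `IsPowRes S n g ↔ IsCn n y`. -/
theorem isPowRes_iff_isCn {n : ℕ} {g : F} {a : K} (ha : a ≠ 0)
    (hy : S.red (g / algebraMap K F a) ≠ 0) :
    IsPowRes S n g ↔ IsCn k n (S.red (g / algebraMap K F a)) := by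
  have ha' : algebraMap K F a ≠ 0 := sa_algebraMap_ne_zero ha
  have hg : g ≠ 0 := by
    rintro rfl
    rw [zero_div, S.red_zero] at hy
    exact hy rfl
  constructor
  · rintro ⟨b, hb, h, hh, hred⟩
    have hb' : algebraMap K F b ≠ 0 := sa_algebraMap_ne_zero hb
    have hyb : S.red (g / algebraMap K F b) ≠ 0 := by
      rw [hred]
      exact pow_ne_zero n hh
    -- the quotient of the two normalisations is a constant unit
    have hquot : g / algebraMap K F a / (g / algebraMap K F b) = algebraMap K F (b / a) := by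
      rw [map_div₀]
      field_simp
    have hq0 : S.red (algebraMap K F (b / a)) ≠ 0 := by
      rw [← hquot, sa_red_div S hy hyb]
      exact div_ne_zero hy hyb
    obtain ⟨c, hc, hcred⟩ := sa_red_const S hq0
    refine ⟨c, hc, h, hh, ?_⟩
    have : S.red (g / algebraMap K F a) =
        S.red (algebraMap K F (b / a)) * S.red (g / algebraMap K F b) := by
      rw [← sa_red_mul S hq0 hyb]
      congr 1
      rw [map_div₀]
      field_simp
    rw [this, hcred, hred]
  · rintro ⟨c, hc, h, hh, hred⟩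
    obtain ⟨b, hb, hbred⟩ := sa_exists_lift S hc
    have hb' : algebraMap K F b ≠ 0 := sa_algebraMap_ne_zero hb
    have hb0 : S.red (algebraMap K F b) ≠ 0 := by
      rw [hbred]
      exact (map_ne_zero (algebraMap k Fk)).mpr hc
    refine ⟨a * b, mul_ne_zero ha hb, h, hh, ?_⟩
    have : g / algebraMap K F (a * b) = g / algebraMap K F a / algebraMap K F b := by
      rw [map_mul]
      field_simp
    rw [this, sa_red_div S hy hb0, hred, hbred]
    rw [mul_comm, mul_div_assoc, div_self ((map_ne_zero (algebraMap k Fk)).mpr hc), mul_one]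

theorem IsPowRes.ne_zero {n : ℕ} {g : F} (h : IsPowRes S n g) : g ≠ 0 := by
  obtain ⟨a, -, u, hu, hred⟩ := h
  rintro rfl
  rw [zero_div, S.red_zero] at hred
  exact pow_ne_zero n hu hred.symm

/-- `a uⁿ` is `IsPowRes` (`u ≠ 0`, `a ≠ 0`). -/
theorem isPowRes_of_constPow {n : ℕ} {g u : F} {a : K} (ha : a ≠ 0) (hu : u ≠ 0)
    (hg : g = algebraMap K F a * u ^ n) : IsPowRes S n g := by
  obtain ⟨d, hd, hud⟩ := sa_exists_scale S hu
  refine ⟨a * d ^ n, mul_ne_zero ha (pow_ne_zero n hd), S.red (u / algebraMap K F d), hud, ?_⟩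
  rw [← sa_red_pow S hud, hg]
  congr 1
  have ha' : algebraMap K F a ≠ 0 := sa_algebraMap_ne_zero ha
  have hd' : algebraMap K F d ≠ 0 := sa_algebraMap_ne_zero hd
  rw [map_mul, map_pow, div_pow]
  field_simp

/-- the same, without `u ≠ 0` (`n ≠ 0`, `g ≠ 0`). -/
theorem isPowRes_of_constPow' {n : ℕ} (hn : n ≠ 0) {g u : F} {a : K} (ha : a ≠ 0)
    (hg0 : g ≠ 0) (hg : g = algebraMap K F a * u ^ n) : IsPowRes S n g := by
  refine isPowRes_of_constPow S ha ?_ hg
  rintro rfl
  rw [zero_pow hn, mul_zero] at hg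
  exact hg0 hg

theorem IsPowRes.mul {n : ℕ} {g₁ g₂ : F} (h₁ : IsPowRes S n g₁) (h₂ : IsPowRes S n g₂) :
    IsPowRes S n (g₁ * g₂) := by
  obtain ⟨a, ha, u, hu, hred₁⟩ := h₁
  obtain ⟨b, hb, v, hv, hred₂⟩ := h₂
  have h1 : S.red (g₁ / algebraMap K F a) ≠ 0 := by rw [hred₁]; exact pow_ne_zero n hu
  have h2 : S.red (g₂ / algebraMap K F b) ≠ 0 := by rw [hred₂]; exact pow_ne_zero n hv
  refine ⟨a * b, mul_ne_zero ha hb, u * v, mul_ne_zero hu hv, ?_⟩
  have : g₁ * g₂ / algebraMap K F (a * b) = g₁ / algebraMap K F a * (g₂ / algebraMap K F b) := by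
    rw [map_mul]
    have ha' : algebraMap K F a ≠ 0 := sa_algebraMap_ne_zero ha
    have hb' : algebraMap K F b ≠ 0 := sa_algebraMap_ne_zero hb
    field_simp
  rw [this, sa_red_mul S h1 h2, hred₁, hred₂, mul_pow]

theorem IsPowRes.pow {n : ℕ} {g : F} (h : IsPowRes S n g) (m : ℕ) : IsPowRes S n (g ^ m) := by
  obtain ⟨a, ha, u, hu, hred⟩ := h
  have h1 : S.red (g / algebraMap K F a) ≠ 0 := by rw [hred]; exact pow_ne_zero n hu
  refine ⟨a ^ m, pow_ne_zero m ha, u ^ m, pow_ne_zero m hu, ?_⟩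
  have : g ^ m / algebraMap K F (a ^ m) = (g / algebraMap K F a) ^ m := by
    rw [map_pow, div_pow]
  rw [this, sa_red_pow S h1, hred, ← pow_mul, ← pow_mul, mul_comm]

/-- `IsPowRes` only depends on the valuation ring (and the residue map on the constants): two
constant reductions with the same rings have the same `IsPowRes`. -/
theorem IsPowRes.of_resEquiv {Fk' : Type*} [Field Fk'] [Algebra k Fk'] (S' : ValSetup K F k Fk')
    (φ : Fk →+* Fk') (hφ : ∀ f : F, S.red f ≠ 0 → S'.red f = φ (S.red f))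
    {n : ℕ} {g : F} (h : IsPowRes S n g) : IsPowRes S' n g := by
  obtain ⟨a, ha, u, hu, hred⟩ := h
  have h1 : S.red (g / algebraMap K F a) ≠ 0 := by rw [hred]; exact pow_ne_zero n hu
  refine ⟨a, ha, φ u, (map_ne_zero φ).mpr hu, ?_⟩
  rw [hφ _ h1, hred, map_pow]

end PowRes

section Step1

variable {K F F₁ k : Type*} [Field K] [Field F] [Algebra K F] [Field F₁] [Algebra K F₁]
  [Field k]

/-- **Step 1, the `v_0` / `v_∞` part**: `S` a constant reduction of `F`, `S'` one of `F₁`,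
`N : F → F₁` (a norm) with `red' (N y / c') = Φ (red (y / c))`, `Φ` a ring isomorphism of the
residue fields which is onto on the constants.  If `N g = a uⁿ` then `g` is, up to a constant,
an `n`-th power in the residue field of `S`. -/
theorem step1_frob {Fk Fk' : Type*} [Field Fk] [Algebra k Fk] [Field Fk'] [Algebra k Fk']
    (S : ValSetup K F k Fk) (S' : ValSetup K F₁ k Fk') (N : F → F₁) (n : ℕ)
    (Φ : Fk ≃+* Fk')
    (hΦ : ∀ c : k, ∃ c' : k, Φ.symm (algebraMap k Fk' c) = algebraMap k Fk c')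
    (hN : ∀ (y : F) (c : K), c ≠ 0 → S.red (y / algebraMap K F c) ≠ 0 →
      ∃ c' : K, c' ≠ 0 ∧
        S'.red (N y / algebraMap K F₁ c') = Φ (S.red (y / algebraMap K F c)))
    {g : F} (hg : g ≠ 0) (hNg : IsPowRes S' n (N g)) : IsPowRes S n g := by
  obtain ⟨c, hc, hy⟩ := sa_exists_scale S hg
  obtain ⟨c', hc', hred⟩ := hN g c hc hy
  have hy' : S'.red (N g / algebraMap K F₁ c') ≠ 0 := by
    rw [hred]
    exact (map_ne_zero Φ.toRingHom).mpr hy
  have h1 : IsCn k n (S'.red (N g / algebraMap K F₁ c')) :=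
    (isPowRes_iff_isCn S' hc' hy').mp hNg
  rw [hred] at h1
  exact (isPowRes_iff_isCn S hc hy).mpr (h1.of_map_ringEquiv Φ hΦ)

/-- **Step 1, the middle part**.  `S∞` the reduction `v_∞` of `F`, `Sm b` (`b : B`) the middle
residue maps (all with residue field `L`), `S₁` the reduction `v_∞` of `F₁`; product formula
(N2) `hN2`; the inertia group acts transitively on the `Sm b` (`hI`) and fixes the class of `g`.
Then `g ^ |B|` is, up to a constant, an `n`-th power in the residue field of each `Sm b`. -/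
theorem step1_mid {Fk0 Fk1 L : Type*} [Field Fk0] [Algebra k Fk0] [Field Fk1] [Algebra k Fk1]
    [Field L] [Algebra k L] {B : Type*} [Fintype B]
    (Soo : ValSetup K F k Fk0) (Sm : B → ValSetup K F k L) (S₁ : ValSetup K F₁ k Fk1)
    (N : F → F₁) (n : ℕ) (hn : n ≠ 0) (ι₀ : Fk0 →ₐ[k] L) (ι₁ : Fk1 →ₐ[k] L)
    (hN2 : ∀ (y : F) (c : K) (cm : B → K), c ≠ 0 → (∀ b, cm b ≠ 0) →
      Soo.red (y / algebraMap K F c) ≠ 0 → (∀ b, (Sm b).red (y / algebraMap K F (cm b)) ≠ 0) →
      ∃ c' : K, c' ≠ 0 ∧ ι₁ (S₁.red (N y / algebraMap K F₁ c')) =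
        ι₀ (Soo.red (y / algebraMap K F c)) * ∏ b, (Sm b).red (y / algebraMap K F (cm b)))
    {g : F} (hg : g ≠ 0)
    (hI : ∀ b b' : B, ∃ t : F ≃+* F,
      (∀ c : K, ∃ c' : K, t (algebraMap K F c) = algebraMap K F c') ∧
      (∀ f : F, (Sm b).red f ≠ 0 → (Sm b').red (t f) = (Sm b).red f) ∧
      ∃ (u : F) (a : K), a ≠ 0 ∧ t g = algebraMap K F a * u ^ n * g)
    (hoo : IsPowRes Soo n g) (hNg : IsPowRes S₁ n (N g)) (b₀ : B) :
    IsPowRes (Sm b₀) n (g ^ Fintype.card B) := by
  classical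
  -- normalisations
  obtain ⟨c, hc, hy⟩ := sa_exists_scale Soo hg
  have hsc : ∀ b, ∃ a : K, a ≠ 0 ∧ (Sm b).red (g / algebraMap K F a) ≠ 0 :=
    fun b => sa_exists_scale (Sm b) hg
  choose cm hcm hym using hsc
  set y : B → L := fun b => (Sm b).red (g / algebraMap K F (cm b)) with hydef
  obtain ⟨c', hc', hred⟩ := hN2 g c cm hc hcm hy hym
  -- the class of the product of the middle residues is trivial
  have hprod0 : (∏ b, y b) ≠ 0 := Finset.prod_ne_zero_iff.mpr fun b _ => hym b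
  have hι₀ : ι₀ (Soo.red (g / algebraMap K F c)) ≠ 0 := (map_ne_zero ι₀.toRingHom).mpr hy
  have hy₁ : S₁.red (N g / algebraMap K F₁ c') ≠ 0 := by
    intro h0
    rw [h0, map_zero] at hred
    exact mul_ne_zero hι₀ hprod0 hred.symm
  have h1 : IsCn k n (ι₁ (S₁.red (N g / algebraMap K F₁ c'))) :=
    ((isPowRes_iff_isCn S₁ hc' hy₁).mp hNg).map ι₁
  have h2 : IsCn k n (ι₀ (Soo.red (g / algebraMap K F c))) :=
    ((isPowRes_iff_isCn Soo hc hy).mp hoo).map ι₀
  have h3 : IsCn k n (∏ b, y b) := by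
    have : (∏ b, y b) = ι₁ (S₁.red (N g / algebraMap K F₁ c')) /
        ι₀ (Soo.red (g / algebraMap K F c)) := by
      rw [hred, mul_div_cancel_left₀ _ hι₀]
    rw [this]
    exact h1.div h2
  -- inertia: all the classes `y b` coincide
  have h4 : ∀ b b', IsCn k n (y b / y b') := by
    intro b b'
    obtain ⟨t, htK, htred, u, a, ha, htg⟩ := hI b b'
    obtain ⟨c'', hc''⟩ := htK (cm b)
    have hcmb : algebraMap K F (cm b) ≠ 0 := sa_algebraMap_ne_zero (hcm b)
    have hcmb' : algebraMap K F (cm b') ≠ 0 := sa_algebraMap_ne_zero (hcm b')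
    have hc''0 : c'' ≠ 0 := by
      rintro rfl
      rw [map_zero] at hc''
      exact hcmb ((map_eq_zero t.toRingHom).mp hc'')
    have hc''F : algebraMap K F c'' ≠ 0 := sa_algebraMap_ne_zero hc''0
    have htg0 : t g ≠ 0 := (map_ne_zero t.toRingHom).mpr hg
    have hu : u ≠ 0 := by
      rintro rfl
      rw [zero_pow hn, mul_zero, zero_mul] at htg
      exact htg0 htg
    have e1 : (Sm b').red (t (g / algebraMap K F (cm b))) = y b := htred _ (hym b)
    have e2 : t (g / algebraMap K F (cm b)) =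
        algebraMap K F (a * cm b' / c'') * u ^ n * (g / algebraMap K F (cm b')) := by
      rw [map_div₀, hc'', htg, map_div₀, map_mul]
      field_simp
    have hw : (Sm b').red (algebraMap K F (a * cm b' / c'') * u ^ n) = y b / y b' := by
      have hx : (Sm b').red (t (g / algebraMap K F (cm b))) ≠ 0 := by rw [e1]; exact hym b
      have := sa_red_div (Sm b') hx (hym b')
      rw [e1] at this
      rw [← this]
      congr 1
      rw [e2]
      have hgne : g / algebraMap K F (cm b') ≠ 0 := div_ne_zero hg hcmb'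
      exact (mul_div_cancel_right₀ _ hgne).symm
    have hconst : a * cm b' / c'' ≠ 0 := div_ne_zero (mul_ne_zero ha (hcm b')) hc''0
    have hpr : IsPowRes (Sm b') n (algebraMap K F (a * cm b' / c'') * u ^ n) :=
      isPowRes_of_constPow (Sm b') hconst hu rfl
    have hne : (Sm b').red (algebraMap K F (a * cm b' / c'') * u ^ n /
        algebraMap K F (1 : K)) ≠ 0 := by
      rw [map_one, div_one, hw]
      exact div_ne_zero (hym b) (hym b')
    have := (isPowRes_iff_isCn (Sm b') one_ne_zero hne).mp hpr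
    rwa [map_one, div_one, hw] at this
  -- conclusion
  have h5 : IsCn k n (y b₀ ^ Fintype.card B) := by
    have e : y b₀ ^ Fintype.card B = (∏ b, y b) / ∏ b, (y b / y b₀) := by
      rw [Finset.prod_div_distrib, Finset.prod_const, Finset.card_univ]
      rw [div_div_cancel₀ hprod0]
    rw [e]
    exact h3.div (IsCn.prod _ _ fun b _ => h4 b b₀)
  have hpow : (Sm b₀).red (g ^ Fintype.card B / algebraMap K F (cm b₀ ^ Fintype.card B)) =
      y b₀ ^ Fintype.card B := by
    rw [map_pow, ← div_pow, sa_red_pow (Sm b₀) (hym b₀)]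
  have hne : (Sm b₀).red (g ^ Fintype.card B / algebraMap K F (cm b₀ ^ Fintype.card B)) ≠ 0 := by
    rw [hpow]
    exact pow_ne_zero _ (hym b₀)
  refine (isPowRes_iff_isCn (Sm b₀) (pow_ne_zero _ (hcm b₀)) hne).mpr ?_
  rw [hpow]
  exact h5

end Step1

end Fermat.Agent.S36G
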