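import Mathlib
import Fermat.Agent.S36.G.Step1Abs
import Fermat.Agent.S36.G.InertAbs
import Fermat.Agent.S36.G.Types
import Fermat.Agent.Lib.BadRed.Graph.Setup

set_option autoImplicit false
set_option linter.unusedSectionVars false

/-!
# Cluster G (S36), Steps 1 + 2: the combination  (helper60)

* `SameRing S S'` : two constant reductions of `F / K` with the same valuation ring, the same ring
  of constants and the same residue map on the constants (their residue fields are then
  canonically isomorphic, helper55's `inertResEquiv`);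
* `IsPowRes.of_sameRing` : `IsPowRes` (`= GraphSetup.IsPowAt`) only depends on the valuation ring;
* `isPowAt_iff_isPowRes` : `N.IsPowAt n c g ↔ IsPowRes (N.S c) n g` (by `Iff.rfl`);
* `step12_combine` : on a graph of shape `K_{|Vert|, s}`, if `g ^ a` is, up to constants, an `n`-th
  power on all the vertical components and `g ^ b` on all the horizontal ones, then `g ^ (a b)`
  is on ALL components: the hypothesis `hStep12` of `coreFunAt_of_graph` (`S36/G/CoreWire.lean`)
  with `c₁ = (q - 1) (q + 1)`.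
-/

noncomputable section

namespace Fermat.Agent.S36G

open Fermat.Agent.Deuring Fermat.Agent.BadRedG

variable {K F k : Type*} [Field K] [Field F] [Algebra K F] [Field k]

/-- two constant reductions with the same valuation ring, the same constants and the same residue
map on the constants. -/
def SameRing {Fk Fk' : Type*} [Field Fk] [Algebra k Fk] [Field Fk'] [Algebra k Fk']
    (S : ValSetup K F k Fk) (S' : ValSetup K F k Fk') : Prop :=
  S.Ov = S'.Ov ∧ S.A = S'.A ∧
    ∀ (c : K) (h : c ∈ S.A) (h' : c ∈ S'.A), S.res ⟨c, h⟩ = S'.res ⟨c, h'⟩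

theorem SameRing.refl {Fk : Type*} [Field Fk] [Algebra k Fk] (S : ValSetup K F k Fk) :
    SameRing S S :=
  ⟨rfl, rfl, fun _ _ _ => rfl⟩

theorem SameRing.symm {Fk Fk' : Type*} [Field Fk] [Algebra k Fk] [Field Fk'] [Algebra k Fk']
    {S : ValSetup K F k Fk} {S' : ValSetup K F k Fk'} (h : SameRing S S') : SameRing S' S :=
  ⟨h.1.symm, h.2.1.symm, fun c hc hc' => (h.2.2 c hc' hc).symm⟩

theorem SameRing.trans {Fk Fk' Fk'' : Type*} [Field Fk] [Algebra k Fk] [Field Fk']
    [Algebra k Fk'] [Field Fk''] [Algebra k Fk''] {S : ValSetup K F k Fk}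
    {S' : ValSetup K F k Fk'} {S'' : ValSetup K F k Fk''} (h : SameRing S S')
    (h' : SameRing S' S'') : SameRing S S'' :=
  ⟨h.1.trans h'.1, h.2.1.trans h'.2.1, fun c hc hc'' =>
    (h.2.2 c hc (h.2.1 ▸ hc)).trans (h'.2.2 c (h.2.1 ▸ hc) hc'')⟩

/-- `IsPowRes` only depends on the valuation ring. -/
theorem IsPowRes.of_sameRing {Fk Fk' : Type*} [Field Fk] [Algebra k Fk] [Field Fk']
    [Algebra k Fk'] {S : ValSetup K F k Fk} {S' : ValSetup K F k Fk'} (h : SameRing S S')
    {n : ℕ} {g : F} (hg : IsPowRes S n g) : IsPowRes S' n g := by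
  obtain ⟨φ, hφ⟩ := inert_exists_resEquiv S S' h.1 h.2.1 h.2.2
  exact IsPowRes.of_resEquiv S S' (φ : Fk →+* Fk')
    (fun f hf => hφ f (S.mem_of_red_ne_zero hf)) hg

theorem isPowRes_iff_of_sameRing {Fk Fk' : Type*} [Field Fk] [Algebra k Fk] [Field Fk']
    [Algebra k Fk'] {S : ValSetup K F k Fk} {S' : ValSetup K F k Fk'} (h : SameRing S S')
    {n : ℕ} {g : F} : IsPowRes S n g ↔ IsPowRes S' n g :=
  ⟨fun hg => hg.of_sameRing h, fun hg => hg.of_sameRing h.symm⟩

section Graph

variable {κ : Type*} {Fk : κ → Type*} [∀ c, Field (Fk c)] [∀ c, Algebra k (Fk c)] {ι : Type*}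

/-- `GraphSetup.IsPowAt` is `IsPowRes` of the component. -/
theorem isPowAt_iff_isPowRes (N : GraphSetup K F k κ Fk ι) (n : ℕ) (c : κ) (g : F) :
    N.IsPowAt n c g ↔ IsPowRes (N.S c) n g := Iff.rfl

theorem isPowAt_pow (N : GraphSetup K F k κ Fk ι) {n : ℕ} {c : κ} {g : F}
    (h : N.IsPowAt n c g) (m : ℕ) : N.IsPowAt n c (g ^ m) :=
  IsPowRes.pow (N.S c) h m

theorem isPowAt_mul (N : GraphSetup K F k κ Fk ι) {n : ℕ} {c : κ} {g₁ g₂ : F}
    (h₁ : N.IsPowAt n c g₁) (h₂ : N.IsPowAt n c g₂) : N.IsPowAt n c (g₁ * g₂) :=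
  IsPowRes.mul (N.S c) h₁ h₂

/-- `IsPowAt` from a reduction with the same valuation ring. -/
theorem isPowAt_of_sameRing (N : GraphSetup K F k κ Fk ι) {n : ℕ} {c : κ} {g : F}
    {Fk' : Type*} [Field Fk'] [Algebra k Fk'] {S : ValSetup K F k Fk'}
    (h : SameRing S (N.S c)) (hg : IsPowRes S n g) : N.IsPowAt n c g :=
  hg.of_sameRing h

end Graph

section Combine

variable {Mid SS : Type} {Fk : Vtx Mid SS → Type*} [∀ c, Field (Fk c)]
  [∀ c, Algebra k (Fk c)]

/-- **Steps 1 + 2 combined**: vertical exponent `a`, horizontal exponent `b`. -/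
theorem step12_combine (N : GraphSetup K F k (Vtx Mid SS) Fk (Nod Mid SS)) (n a b : ℕ)
    {g : F} (hvert : ∀ v : Vrt Mid, N.IsPowAt n (Vtx.vert v) (g ^ a))
    (hhor : ∀ P : SS, N.IsPowAt n (Vtx.hor P) (g ^ b)) :
    ∀ c, N.IsPowAt n c (g ^ (a * b)) := by
  intro c
  cases c with
  | vert v =>
    rw [pow_mul]
    exact isPowAt_pow N (hvert v) b
  | hor P =>
    rw [mul_comm, pow_mul]
    exact isPowAt_pow N (hhor P) a

end Combine

end Fermat.Agent.S36G
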