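import Fermat.Agent.S36.G.Step1Final
import Fermat.Agent.S36.G.CoreWire

set_option autoImplicit false
set_option linter.style.haveILetI false
set_option linter.unusedSectionVars false
set_option linter.unusedVariables false
set_option synthInstance.maxHeartbeats 400000
set_option maxHeartbeats 1000000

/-!
# Cluster G (S36), Steps 1 + 2: the hypothesis `hStep12` of `coreFunAt_of_graph`  (helper60)

`N` a `GraphSetup` on `F = FBar (M₀ q q)` of shape `K_{|Vert|, s}` over `A ∣ q`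
(`k = IsLocalRing.ResidueField A`).  The modular bundle has to supply, for the VERTICAL components,
only the VALUATION RINGS (`SameRing`, `S36/G/Step12.lean`):

* `hoo`  : `N.S (vert ∞)` has the ring of a Gauss reduction `S` (`IsGaussSetup`);
* `h0`   : `N.S (vert 0)` has the ring of `comapEquiv S w`, `w = wAt D hM = w_{q²}`;
* `hmid` : `N.S (vert (mid m))` has the ring of a middle reduction (`IsMidSetup`);

and for the HORIZONTAL components the conclusion of Step 2 (`hhor`, helper48's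
`S36/G/Step2Final.lean`).  Then

`step12_modular` : `hStep12` of `coreFunAt_of_graph` (`S36/G/CoreWire.lean`) with
`c₁ = (q - 1) * (q + 1)`.
-/

noncomputable section

namespace Fermat.Agent.S36G

open ModularCurve AlgebraicCurve Fermat.Agent.F3 Fermat.Agent.F3G Fermat.Agent.GaussInt
  Fermat.Agent.AtkinLehner Fermat.Agent.Kronecker Fermat.Agent.BadRed Fermat.Agent.BadRedG
  Fermat.Agent.Deuring

local notation "Qb" => AlgebraicClosure ℚ

attribute [local instance 10000] SubalgebraClass.toAlgebra HahnSeries.powerSeriesAlgebra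

variable {M₀ q : ℕ} [NeZero M₀] [NeZero q] {Mid SS : Type}

/-- **Step 1 on the modular graph**: the vertical components. -/
theorem step1_modular (hq : q.Prime) (hqM : ¬ q ∣ M₀) (A : ValuationSubring Qb)
    (hA : A.LiesOverPrime q) (hupper : IgResUpper M₀ q)
    {Fk : Vtx Mid SS → Type*} [∀ c, Field (Fk c)]
    [∀ c, Algebra (IsLocalRing.ResidueField A) (Fk c)]
    (N : GraphSetup Qb (FBar (M₀ * q * q)) (IsLocalRing.ResidueField A) (Vtx Mid SS) Fk
      (Nod Mid SS))
    (D : ALData) (hM : M₀ * q * q = D.Q * D.R) (hDQ : D.Q = q ^ 2)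
    (hoo : ∃ S : ValSetup Qb (FBar (M₀ * q * q)) (IsLocalRing.ResidueField A)
        (modularFunctionFieldFullC (IsLocalRing.ResidueField A) M₀),
      IsGaussSetup (M₀ * q * q) M₀ A S ∧ SameRing S (N.S (Vtx.vert Vrt.oo)))
    (h0 : ∃ S : ValSetup Qb (FBar (M₀ * q * q)) (IsLocalRing.ResidueField A)
        (modularFunctionFieldFullC (IsLocalRing.ResidueField A) M₀),
      IsGaussSetup (M₀ * q * q) M₀ A S ∧
        SameRing (comapEquiv S (wAt D hM)) (N.S (Vtx.vert Vrt.zero)))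
    (hmid : ∀ m : Mid, ∃ (z : Qbˣ) (ε : FBar (M₀ * q * q) →ₐ[Qb] LaurentSeries Qb)
        (S : ValSetup Qb (FBar (M₀ * q * q)) (IsLocalRing.ResidueField A)
          ↥(igField (IsLocalRing.ResidueField A) M₀)),
      IsPrimitiveRoot z q ∧ IsMidExp M₀ q z ε ∧ IsMidSetup M₀ q A ε S ∧
        SameRing S (N.S (Vtx.vert (Vrt.mid m))))
    {n : ℕ} {g : FBar (M₀ * q * q)} (hg : g ≠ 0)
    (hfix : InertiaFixedFun (M₀ * q * q) A n g)
    (h1 : IsCPow n (normAlong (heckeAlphaBar Qb (M₀ * q) q) g))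
    (h2 : IsCPow n (normAlong (heckeAlphaBar Qb (M₀ * q) q) (wAt D hM g))) :
    ∀ v : Vrt Mid, N.IsPowAt n (Vtx.vert v) (g ^ (q - 1)) := by
  obtain ⟨hG, hMid⟩ := step1_vert_all hq hqM A hA hupper D hM hDQ hg hfix h1 h2
  intro v
  cases v with
  | oo =>
    obtain ⟨S, hS, hSR⟩ := hoo
    exact isPowAt_pow N (isPowAt_of_sameRing N hSR (hG S hS).1) (q - 1)
  | zero =>
    obtain ⟨S, hS, hSR⟩ := h0
    exact isPowAt_pow N (isPowAt_of_sameRing N hSR (hG S hS).2) (q - 1)
  | mid m =>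
    obtain ⟨z, ε, S, hz, hε, hS, hSR⟩ := hmid m
    exact isPowAt_of_sameRing N hSR (hMid z ε S hz hε hS)

/-- **Steps 1 + 2 on the modular graph**: the hypothesis `hStep12` of `coreFunAt_of_graph` with
`c₁ = (q - 1) * (q + 1)`. -/
theorem step12_modular (hq : q.Prime) (hqM : ¬ q ∣ M₀) (A : ValuationSubring Qb)
    (hA : A.LiesOverPrime q) (hupper : IgResUpper M₀ q)
    {Fk : Vtx Mid SS → Type*} [∀ c, Field (Fk c)]
    [∀ c, Algebra (IsLocalRing.ResidueField A) (Fk c)]
    (N : GraphSetup Qb (FBar (M₀ * q * q)) (IsLocalRing.ResidueField A) (Vtx Mid SS) Fk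
      (Nod Mid SS)) (n : ℕ)
    (hoo : ∃ S : ValSetup Qb (FBar (M₀ * q * q)) (IsLocalRing.ResidueField A)
        (modularFunctionFieldFullC (IsLocalRing.ResidueField A) M₀),
      IsGaussSetup (M₀ * q * q) M₀ A S ∧ SameRing S (N.S (Vtx.vert Vrt.oo)))
    (h0 : ∀ (D : ALData) (hM : M₀ * q * q = D.Q * D.R), D.Q = q ^ 2 →
      ∃ S : ValSetup Qb (FBar (M₀ * q * q)) (IsLocalRing.ResidueField A)
        (modularFunctionFieldFullC (IsLocalRing.ResidueField A) M₀),
      IsGaussSetup (M₀ * q * q) M₀ A S ∧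
        SameRing (comapEquiv S (wAt D hM)) (N.S (Vtx.vert Vrt.zero)))
    (hmid : ∀ m : Mid, ∃ (z : Qbˣ) (ε : FBar (M₀ * q * q) →ₐ[Qb] LaurentSeries Qb)
        (S : ValSetup Qb (FBar (M₀ * q * q)) (IsLocalRing.ResidueField A)
          ↥(igField (IsLocalRing.ResidueField A) M₀)),
      IsPrimitiveRoot z q ∧ IsMidExp M₀ q z ε ∧ IsMidSetup M₀ q A ε S ∧
        SameRing S (N.S (Vtx.vert (Vrt.mid m))))
    (hhor : ∀ (D : ALData) (hM : M₀ * q * q = D.Q * D.R), D.Q = q ^ 2 →
      ∀ g : FBar (M₀ * q * q), g ≠ 0 →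
        (∀ v : Place Qb (FBar (M₀ * q * q)), (n : ℤ) ∣ v.ord g) →
        InertiaFixedFun (M₀ * q * q) A n g →
        IsCPow n (normAlong (heckeAlphaBar Qb (M₀ * q) q) g) →
        IsCPow n (normAlong (heckeAlphaBar Qb (M₀ * q) q) (wAt D hM g)) →
        ∀ P : SS, N.IsPowAt n (Vtx.hor P) (g ^ (q + 1))) :
    ∀ (D : ALData) (hM : M₀ * q * q = D.Q * D.R), D.Q = q ^ 2 →
      ∀ g : FBar (M₀ * q * q), g ≠ 0 →
        (∀ v : Place Qb (FBar (M₀ * q * q)), (n : ℤ) ∣ v.ord g) →
        InertiaFixedFun (M₀ * q * q) A n g →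
        IsCPow n (normAlong (heckeAlphaBar Qb (M₀ * q) q) g) →
        IsCPow n (normAlong (heckeAlphaBar Qb (M₀ * q) q) (wAt D hM g)) →
        ∀ c, N.IsPowAt n c (g ^ ((q - 1) * (q + 1))) := by
  intro D hM hDQ g hg hdvd hfix h1 h2
  exact step12_combine N n (q - 1) (q + 1)
    (step1_modular hq hqM A hA hupper N D hM hDQ hoo (h0 D hM hDQ) hmid hg hfix h1 h2)
    (hhor D hM hDQ g hg hdvd hfix h1 h2)

end Fermat.Agent.S36G
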