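import Fermat.Agent.S36.G.Step12D0
import Fermat.Agent.S36.G.VtxFamily
import Fermat.Agent.S36.Igusa.Pack
import Fermat.Agent.S36.Val.Restr

set_option autoImplicit false
set_option linter.style.haveILetI false
set_option linter.unusedSectionVars false
set_option linter.unusedVariables false
set_option synthInstance.maxHeartbeats 400000
set_option maxHeartbeats 1000000

/-!
# Cluster G (S36), Steps 1 + 2 for the family of the modular graph  (helper60)

The constant reductions of the modular graph are `vtxFamily S_∞ S_0 S_m S_P`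
(`S36/G/VtxFamily.lean`) with `S_∞` a Gauss reduction, `S_0 = valSetupZeroAt D₀ hM₀ S_∞`
(`S36/Val/Restr.lean`), `S_m` the Igusa pair (`IgPack`, `S36/Igusa/Pack.lean`) and `S_P = w_P`.

* `step12_of_family` : `hStep12` of `coreFunAt_of_graph` / `CoreBundle` for a `GraphSetup N` whose
  components have the rings of the family (`SameRing`), at the auxiliary level
  (`nuTwo M₀ = 0`, `nuThree M₀ = 0`), from the conclusion `hhor` of Step 2 (for the ONE `D₀`);
* `step12_of_pack`   : the same for `N.S = vtxFamily ..` (by `rfl` for the seed of MG-INST).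
-/

noncomputable section

namespace Fermat.Agent.S36G

open ModularCurve AlgebraicCurve Fermat.Agent.F3 Fermat.Agent.F3G Fermat.Agent.GaussInt
  Fermat.Agent.AtkinLehner Fermat.Agent.Kronecker Fermat.Agent.BadRed Fermat.Agent.BadRedG
  Fermat.Agent.Deuring

local notation "Qb" => AlgebraicClosure ℚ

attribute [local instance 10000] SubalgebraClass.toAlgebra HahnSeries.powerSeriesAlgebra

variable {M₀ q : ℕ} [NeZero M₀] [NeZero q] {SS : Type}

/-- **Steps 1 + 2 for the family of the modular graph** (rings of the components given by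
`SameRing`). -/
theorem step12_of_family (hq : q.Prime) (hqM : ¬ q ∣ M₀) (hν2 : nuTwo M₀ = 0)
    (hν3 : nuThree M₀ = 0) (A : ValuationSubring Qb) (hA : A.LiesOverPrime q)
    {Fk : Vtx (Fin (midCard q)) SS → Type*} [∀ c, Field (Fk c)]
    [∀ c, Algebra (IsLocalRing.ResidueField A) (Fk c)]
    (N : GraphSetup Qb (FBar (M₀ * q * q)) (IsLocalRing.ResidueField A)
      (Vtx (Fin (midCard q)) SS) Fk (Nod (Fin (midCard q)) SS)) (n : ℕ)
    (Soo : ValSetup Qb (FBar (M₀ * q * q)) (IsLocalRing.ResidueField A)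
      (modularFunctionFieldFullC (IsLocalRing.ResidueField A) M₀))
    (hSoo : IsGaussSetup (M₀ * q * q) M₀ A Soo)
    (D₀ : ALData) (hM₀ : M₀ * q * q = D₀.Q * D₀.R) (hD₀ : D₀.Q = q ^ 2)
    (I : IgPack M₀ q A)
    (hoo : SameRing Soo (N.S (Vtx.vert Vrt.oo)))
    (h0 : SameRing (valSetupZeroAt D₀ hM₀ Soo) (N.S (Vtx.vert Vrt.zero)))
    (hmid : ∀ m, SameRing (I.S m) (N.S (Vtx.vert (Vrt.mid m))))
    (hhor : ∀ g : FBar (M₀ * q * q), g ≠ 0 →
        (∀ v : Place Qb (FBar (M₀ * q * q)), (n : ℤ) ∣ v.ord g) →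
        InertiaFixedFun (M₀ * q * q) A n g →
        IsCPow n (normAlong (heckeAlphaBar Qb (M₀ * q) q) g) →
        IsCPow n (normAlong (heckeAlphaBar Qb (M₀ * q) q) (wAt D₀ hM₀ g)) →
        ∀ P : SS, N.IsPowAt n (Vtx.hor P) (g ^ (q + 1))) :
    ∀ (D : ALData) (hM : M₀ * q * q = D.Q * D.R), D.Q = q ^ 2 →
      ∀ g : FBar (M₀ * q * q), g ≠ 0 →
        (∀ v : Place Qb (FBar (M₀ * q * q)), (n : ℤ) ∣ v.ord g) →
        InertiaFixedFun (M₀ * q * q) A n g →
        IsCPow n (normAlong (heckeAlphaBar Qb (M₀ * q) q) g) →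
        IsCPow n (normAlong (heckeAlphaBar Qb (M₀ * q) q) (wAt D hM g)) →
        ∀ c, N.IsPowAt n c (g ^ ((q - 1) * (q + 1))) :=
  step12_modular_one hq hqM A hA (igResUpper_aux M₀ q hν2 hν3) N n D₀ hM₀ hD₀
    ⟨Soo, hSoo, hoo⟩ ⟨Soo, hSoo, h0⟩
    (fun m => ⟨I.z m, I.ε m, I.S m, I.prim m, I.isMidExp m, I.isMidSetup m, hmid m⟩) hhor

/-- **Steps 1 + 2 for the modular graph**: `N.S = vtxFamily S_∞ (valSetupZeroAt D₀ hM₀ S_∞) I.S S_P`. -/
theorem step12_of_pack (hq : q.Prime) (hqM : ¬ q ∣ M₀) (hν2 : nuTwo M₀ = 0)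
    (hν3 : nuThree M₀ = 0) (A : ValuationSubring Qb) (hA : A.LiesOverPrime q)
    {FkP : SS → Type} [∀ P, Field (FkP P)] [∀ P, Algebra (IsLocalRing.ResidueField A) (FkP P)]
    (N : GraphSetup Qb (FBar (M₀ * q * q)) (IsLocalRing.ResidueField A)
      (Vtx (Fin (midCard q)) SS)
      (FkOf (modularFunctionFieldFullC (IsLocalRing.ResidueField A) M₀)
        (fun _ : Fin (midCard q) => ↥(igField (IsLocalRing.ResidueField A) M₀)) FkP)
      (Nod (Fin (midCard q)) SS)) (n : ℕ)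
    (Soo : ValSetup Qb (FBar (M₀ * q * q)) (IsLocalRing.ResidueField A)
      (modularFunctionFieldFullC (IsLocalRing.ResidueField A) M₀))
    (hSoo : IsGaussSetup (M₀ * q * q) M₀ A Soo)
    (D₀ : ALData) (hM₀ : M₀ * q * q = D₀.Q * D₀.R) (hD₀ : D₀.Q = q ^ 2)
    (I : IgPack M₀ q A)
    (SP : ∀ P, ValSetup Qb (FBar (M₀ * q * q)) (IsLocalRing.ResidueField A) (FkP P))
    (hN : N.S = vtxFamily Soo (valSetupZeroAt D₀ hM₀ Soo) I.S SP)
    (hhor : ∀ g : FBar (M₀ * q * q), g ≠ 0 →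
        (∀ v : Place Qb (FBar (M₀ * q * q)), (n : ℤ) ∣ v.ord g) →
        InertiaFixedFun (M₀ * q * q) A n g →
        IsCPow n (normAlong (heckeAlphaBar Qb (M₀ * q) q) g) →
        IsCPow n (normAlong (heckeAlphaBar Qb (M₀ * q) q) (wAt D₀ hM₀ g)) →
        ∀ P : SS, N.IsPowAt n (Vtx.hor P) (g ^ (q + 1))) :
    ∀ (D : ALData) (hM : M₀ * q * q = D.Q * D.R), D.Q = q ^ 2 →
      ∀ g : FBar (M₀ * q * q), g ≠ 0 →
        (∀ v : Place Qb (FBar (M₀ * q * q)), (n : ℤ) ∣ v.ord g) →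
        InertiaFixedFun (M₀ * q * q) A n g →
        IsCPow n (normAlong (heckeAlphaBar Qb (M₀ * q) q) g) →
        IsCPow n (normAlong (heckeAlphaBar Qb (M₀ * q) q) (wAt D hM g)) →
        ∀ c, N.IsPowAt n c (g ^ ((q - 1) * (q + 1))) := by
  refine step12_of_family hq hqM hν2 hν3 A hA N n Soo hSoo D₀ hM₀ hD₀ I ?_ ?_ ?_ hhor
  · rw [hN]
    exact SameRing.refl _
  · rw [hN]
    exact SameRing.refl _
  · intro m
    rw [hN]
    exact SameRing.refl _

end Fermat.Agent.S36G
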