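import Fermat.Agent.S36.Step1.Vert
import Fermat.Agent.S36.Step1.MidPow
import Fermat.Agent.S36.G.Step12
import Fermat.Agent.Lib.BadRed.ValTransport
import Fermat.Agent.Lib.BadRed.ALFun

set_option autoImplicit false
set_option linter.style.haveILetI false
set_option linter.unusedSectionVars false
set_option linter.unusedVariables false
set_option synthInstance.maxHeartbeats 400000
set_option maxHeartbeats 1000000

/-!
# Cluster G (S36), Step 1 (vertical): the FINAL modular statement  (helper60)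

Level `M = M₀ q q`, `q ∤ M₀` prime, `A ∣ q`, `k` the residue field of `A`.  For a Kummer generator
`g` as in `CoreFunAt (M₀ * q) q c A n` (class fixed by inertia, `Norm_{π₁} g` and `Norm_{π₁} (w g)`
constants times `n`-th powers):

* `step1_inf_res`  : `IsPowRes S n g` for every Gauss reduction `S` (`IsGaussSetup`) : vertex `∞`;
* `step1_zero_res` : `IsPowRes (comapEquiv S w) n g` (`w = wAt D hM = w_{q²}`)       : vertex `0`;
* `step1_mid_res`  : `IsPowRes S n (g ^ (q - 1))` for every middle reduction (`IsMidSetup`);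
* `step1_vert_all` : the three together, stated with `M₀` (no Atkin-Lehner data for level `M₀ q`
  in the statement).

Inputs: helper66's `S36N.step1_inf`, `S36N.step1_zero` (`S36/Step1/Vert.lean`), helper17's
`S36N.isPowRes_mid` (`S36/Step1/MidPow.lean`); the only hypothesis which is not on main is
`IgResUpper M₀ q` (seat IG).  With `SameRing` / `isPowAt_of_sameRing` (`S36/G/Step12.lean`) these
give `N.IsPowAt n (Vtx.vert v) (g ^ (q - 1))` for the modular graph `N`.
-/

noncomputable section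

namespace Fermat.Agent.S36G

open ModularCurve AlgebraicCurve Fermat.Agent.F3 Fermat.Agent.F3G Fermat.Agent.GaussInt
  Fermat.Agent.AtkinLehner Fermat.Agent.Kronecker Fermat.Agent.BadRed Fermat.Agent.HeckeComm
  Fermat.Agent.S36N Fermat.Agent.Deuring

local notation "Qb" => AlgebraicClosure ℚ

attribute [local instance 10000] SubalgebraClass.toAlgebra HahnSeries.powerSeriesAlgebra

/-! ### constants -/

/-- `IsCPow` is stable under multiplication by nonzero constants. -/
theorem s1f_isCPow_const_mul {F : Type*} [Field F] [Algebra Qb F] {n : ℕ} {x : F} (c : Qb)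
    (hc : c ≠ 0) (h : IsCPow n x) : IsCPow n (algebraMap Qb F c * x) := by
  obtain ⟨u, a, ha, rfl⟩ := h
  exact ⟨u, c * a, mul_ne_zero hc ha, by rw [map_mul, mul_assoc]⟩

/-- the norm of a constant is a constant. -/
theorem s1f_normAlong_const {K F F₁ : Type*} [Field K] [Field F] [Field F₁] [Algebra K F]
    [Algebra K F₁] (ψ : F₁ →ₐ[K] F) (a : K) :
    ∃ m : ℕ, normAlong ψ (algebraMap K F a) = algebraMap K F₁ (a ^ m) := by
  letI := algebraAlong ψ
  haveI := isScalarTower_along ψ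
  refine ⟨Module.finrank F₁ F, ?_⟩
  show Algebra.norm F₁ (algebraMap K F a) = _
  rw [IsScalarTower.algebraMap_apply K F₁ F, Algebra.norm_algebraMap, map_pow]

/-- the norm of a constant multiple. -/
theorem s1f_isCPow_norm_const_mul {N ℓ : ℕ} [NeZero N] [NeZero ℓ] {n : ℕ} {x : FBar (N * ℓ)}
    (c : Qb) (hc : c ≠ 0) (h : IsCPow n (normAlong (heckeAlphaBar Qb N ℓ) x)) :
    IsCPow n (normAlong (heckeAlphaBar Qb N ℓ) (algebraMap Qb (FBar (N * ℓ)) c * x)) := by
  obtain ⟨m, hm⟩ := s1f_normAlong_const (heckeAlphaBar Qb N ℓ) c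
  rw [map_mul, hm]
  exact s1f_isCPow_const_mul (c ^ m) (pow_ne_zero m hc) h

/-! ### from series to `IsPowRes` (Gauss reductions) -/

/-- a Gauss reduction: `IsPowRes` from the series form. -/
theorem s1f_isPowRes_of_series {N N₀ : ℕ} [NeZero N] [NeZero N₀] {A : ValuationSubring Qb}
    (S : ValSetup Qb (FBar N) (IsLocalRing.ResidueField A)
      (modularFunctionFieldFullC (IsLocalRing.ResidueField A) N₀))
    (hS : IsGaussSetup N N₀ A S) (ψ : FBar N ≃ₐ[Qb] FBar N) {n : ℕ} {g : FBar N} (hg : g ≠ 0)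
    (h : ∀ c : Qb, c ≠ 0 → ∀ r : LaurentSeries (IsLocalRing.ResidueField A), r ≠ 0 →
      RedAt A ψ (algebraMap Qb (FBar N) c * g) r →
      IsKPow (modularFunctionFieldFullC (IsLocalRing.ResidueField A) N₀) n r) :
    IsPowRes (comapEquiv S ψ) n g := by
  obtain ⟨a, ha, hred⟩ := sa_exists_scale (comapEquiv S ψ) hg
  have e : g / algebraMap Qb (FBar N) a = algebraMap Qb (FBar N) a⁻¹ * g := by
    rw [map_inv₀, div_eq_inv_mul]
  rw [comapEquiv_red] at hred
  have hmem : ψ (g / algebraMap Qb (FBar N) a) ∈ S.Ov := S.mem_of_red_ne_zero hred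
  have hmem' := (hS.mem_iff _).mp hmem
  have hcoe := hS.coe_red _ hmem
  have hne : ((S.red (ψ (g / algebraMap Qb (FBar N) a)) :
      modularFunctionFieldFullC (IsLocalRing.ResidueField A) N₀) :
        LaurentSeries (IsLocalRing.ResidueField A)) ≠ 0 := fun h0 =>
    hred (Subtype.ext h0)
  have hR : RedAt A ψ (algebraMap Qb (FBar N) a⁻¹ * g)
      ((S.red (ψ (g / algebraMap Qb (FBar N) a)) :
        modularFunctionFieldFullC (IsLocalRing.ResidueField A) N₀) :
          LaurentSeries (IsLocalRing.ResidueField A)) := by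
    rw [← e]
    exact ⟨hmem', hcoe.symm⟩
  have hK := h a⁻¹ (inv_ne_zero ha) _ hne hR
  have hred' : (comapEquiv S ψ).red (g / algebraMap Qb (FBar N) a) ≠ 0 := by
    rw [comapEquiv_red]
    exact hred
  refine (isPowRes_iff_isCn (comapEquiv S ψ) ha hred').mpr ?_
  rw [comapEquiv_red]
  exact mid_isCn_of_isKPow hK

/-- the reduction `comapEquiv S refl` has the same rings as `S`. -/
theorem s1f_sameRing_refl {K F k Fk : Type*} [Field K] [Field F] [Algebra K F] [Field k]
    [Field Fk] [Algebra k Fk] (S : ValSetup K F k Fk) :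
    SameRing (comapEquiv S (AlgEquiv.refl : F ≃ₐ[K] F)) S := by
  refine ⟨?_, rfl, fun _ _ _ => rfl⟩
  ext f
  rw [mem_comapEquiv_Ov]
  rfl

/-! ### Step 1 with Atkin-Lehner data at both levels -/

section Data

variable {q : ℕ} [NeZero q] {A : ValuationSubring Qb}

/-- **Step 1 at `∞`.** -/
theorem step1_inf_res (hq : q.Prime) (hA : A.LiesOverPrime q) (D₁ D₂ : ALData) [NeZero D₁.R]
    (hQ₁ : D₁.Q = q) (hQR : ¬ q ∣ D₁.R) (hQ : D₂.Q = D₁.Q * q) (hR : D₂.R = D₁.R)
    (hN : D₁.R * q = D₁.Q * D₁.R) (hM : D₁.R * q * q = D₂.Q * D₂.R)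
    (S : ValSetup Qb (FBar (D₁.R * q * q)) (IsLocalRing.ResidueField A)
      (modularFunctionFieldFullC (IsLocalRing.ResidueField A) D₁.R))
    (hS : IsGaussSetup (D₁.R * q * q) D₁.R A S) {n : ℕ} {g : FBar (D₁.R * q * q)} (hg : g ≠ 0)
    (h2 : IsCPow n (normAlong (heckeAlphaBar Qb (D₁.R * q) q) (wAt D₂ hM g))) :
    IsPowRes S n g := by
  haveI : Fact q.Prime := ⟨hq⟩
  haveI : CharP (IsLocalRing.ResidueField A) q := Fermat.Agent.FrobTrace.charP_residueField A hA
  haveI : IsAlgClosed (IsLocalRing.ResidueField A) := Fermat.Agent.GaussInt.isAlgClosed_residue A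
  haveI : PerfectRing (IsLocalRing.ResidueField A) q := inferInstance
  refine (s1f_isPowRes_of_series S hS AlgEquiv.refl hg ?_).of_sameRing (s1f_sameRing_refl S)
  intro c hc r hr hred
  refine step1_inf hA D₁ D₂ hQ₁ hQR hQ hR hN hM ?_ hred hr
  rw [map_mul, AlgEquiv.commutes]
  exact s1f_isCPow_norm_const_mul c hc h2

/-- **Step 1 at `0`.** -/
theorem step1_zero_res (hq : q.Prime) (hA : A.LiesOverPrime q) (D₁ D₂ : ALData) [NeZero D₁.R]
    (hQ₁ : D₁.Q = q) (hQR : ¬ q ∣ D₁.R) (hQ : D₂.Q = D₁.Q * q) (hR : D₂.R = D₁.R)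
    (hN : D₁.R * q = D₁.Q * D₁.R) (hM : D₁.R * q * q = D₂.Q * D₂.R)
    (S : ValSetup Qb (FBar (D₁.R * q * q)) (IsLocalRing.ResidueField A)
      (modularFunctionFieldFullC (IsLocalRing.ResidueField A) D₁.R))
    (hS : IsGaussSetup (D₁.R * q * q) D₁.R A S) {n : ℕ} {g : FBar (D₁.R * q * q)} (hg : g ≠ 0)
    (h1 : IsCPow n (normAlong (heckeAlphaBar Qb (D₁.R * q) q) g)) :
    IsPowRes (comapEquiv S (wAt D₂ hM)) n g := by
  haveI : Fact q.Prime := ⟨hq⟩
  haveI : CharP (IsLocalRing.ResidueField A) q := Fermat.Agent.FrobTrace.charP_residueField A hA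
  haveI : IsAlgClosed (IsLocalRing.ResidueField A) := Fermat.Agent.GaussInt.isAlgClosed_residue A
  haveI : PerfectRing (IsLocalRing.ResidueField A) q := inferInstance
  refine s1f_isPowRes_of_series S hS (wAt D₂ hM) hg ?_
  intro c hc r hr hred
  exact step1_zero hA D₁ D₂ hQ₁ hQR hQ hR hN hM (s1f_isCPow_norm_const_mul c hc h1) hred hr

/-- **Step 1 at the middle vertices.** -/
theorem step1_mid_res (hq : q.Prime) (hA : A.LiesOverPrime q) (D₁ D₂ : ALData) [NeZero D₁.R]
    (hQ₁ : D₁.Q = q) (hQR : ¬ q ∣ D₁.R) (hQ : D₂.Q = D₁.Q * q) (hR : D₂.R = D₁.R)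
    (hN : D₁.R * q = D₁.Q * D₁.R) (hM : D₁.R * q * q = D₂.Q * D₂.R)
    (hupper : IgResUpper D₁.R q)
    {z : Qbˣ} {ε : FBar (D₁.R * q * q) →ₐ[Qb] LaurentSeries Qb}
    (hz : IsPrimitiveRoot z q) (hε : IsMidExp D₁.R q z ε)
    (S : ValSetup Qb (FBar (D₁.R * q * q)) (IsLocalRing.ResidueField A)
      ↥(igField (IsLocalRing.ResidueField A) D₁.R))
    (hS : IsMidSetup D₁.R q A ε S)
    {n : ℕ} {g : FBar (D₁.R * q * q)} (hg : g ≠ 0)
    (hfix : InertiaFixedFun (D₁.R * q * q) A n g)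
    (h1 : IsCPow n (normAlong (heckeAlphaBar Qb (D₁.R * q) q) g))
    (h2 : IsCPow n (normAlong (heckeAlphaBar Qb (D₁.R * q) q) (wAt D₂ hM g))) :
    IsPowRes S n (g ^ (q - 1)) := by
  haveI : Fact q.Prime := ⟨hq⟩
  haveI : CharP (IsLocalRing.ResidueField A) q := Fermat.Agent.FrobTrace.charP_residueField A hA
  haveI : IsAlgClosed (IsLocalRing.ResidueField A) := Fermat.Agent.GaussInt.isAlgClosed_residue A
  haveI : PerfectRing (IsLocalRing.ResidueField A) q := inferInstance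
  refine isPowRes_mid hq hQR A hA hupper hz hε S hS hg hfix h1 ?_
  intro c hc r hr hred
  refine step1_inf hA D₁ D₂ hQ₁ hQR hQ hR hN hM ?_ hred hr
  rw [map_mul, AlgEquiv.commutes]
  exact s1f_isCPow_norm_const_mul c hc h2

end Data

/-! ### Step 1, final form -/

section Final

variable {M₀ q : ℕ} [NeZero M₀] [NeZero q]

/-- **Step 1 (vertical), final form**: for a Kummer generator `g` as in
`CoreFunAt (M₀ * q) q c A n`. -/
theorem step1_vert_all (hq : q.Prime) (hqM : ¬ q ∣ M₀) (A : ValuationSubring Qb)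
    (hA : A.LiesOverPrime q) (hupper : IgResUpper M₀ q)
    (D : ALData) (hM : M₀ * q * q = D.Q * D.R) (hDQ : D.Q = q ^ 2)
    {n : ℕ} {g : FBar (M₀ * q * q)} (hg : g ≠ 0)
    (hfix : InertiaFixedFun (M₀ * q * q) A n g)
    (h1 : IsCPow n (normAlong (heckeAlphaBar Qb (M₀ * q) q) g))
    (h2 : IsCPow n (normAlong (heckeAlphaBar Qb (M₀ * q) q) (wAt D hM g))) :
    (∀ S : ValSetup Qb (FBar (M₀ * q * q)) (IsLocalRing.ResidueField A)
        (modularFunctionFieldFullC (IsLocalRing.ResidueField A) M₀),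
      IsGaussSetup (M₀ * q * q) M₀ A S →
        IsPowRes S n g ∧ IsPowRes (comapEquiv S (wAt D hM)) n g) ∧
    ∀ (z : Qbˣ) (ε : FBar (M₀ * q * q) →ₐ[Qb] LaurentSeries Qb)
      (S : ValSetup Qb (FBar (M₀ * q * q)) (IsLocalRing.ResidueField A)
        ↥(igField (IsLocalRing.ResidueField A) M₀)),
      IsPrimitiveRoot z q → IsMidExp M₀ q z ε → IsMidSetup M₀ q A ε S →
        IsPowRes S n (g ^ (q - 1)) := by
  have hM₀pos : 0 < M₀ := Nat.pos_of_ne_zero (NeZero.ne M₀)
  have hcop : Nat.Coprime q M₀ := (Nat.Prime.coprime_iff_not_dvd hq).mpr hqM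
  obtain ⟨D₁, hQ₁, hR₁⟩ := ALData.exists_of_coprime hq.pos hM₀pos hcop
  subst hR₁
  have hN : D₁.R * q = D₁.Q * D₁.R := by rw [hQ₁, mul_comm]
  have hQ : D.Q = D₁.Q * q := by rw [hDQ, hQ₁, sq]
  have hR : D.R = D₁.R := by
    have h3 : q ^ 2 * D.R = q ^ 2 * D₁.R := by
      have h4 : D.Q * D.R = D₁.R * q * q := hM.symm
      rw [hDQ] at h4
      rw [h4]
      ring
    exact Nat.eq_of_mul_eq_mul_left (pow_pos hq.pos 2) h3
  refine ⟨fun S hS => ⟨?_, ?_⟩, fun z ε S hz hε hS => ?_⟩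
  · exact step1_inf_res hq hA D₁ D hQ₁ hqM hQ hR hN hM S hS hg h2
  · exact step1_zero_res hq hA D₁ D hQ₁ hqM hQ hR hN hM S hS hg h1
  · exact step1_mid_res hq hA D₁ D hQ₁ hqM hQ hR hN hM hupper hz hε S hS hg hfix h1 h2

end Final

end Fermat.Agent.S36G
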