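import Mathlib
import Fermat.Agent.S36.G.Step1Abs
import Fermat.Agent.Lib.HP.Step2

set_option autoImplicit false
set_option linter.unusedSectionVars false
set_option linter.style.haveILetI false

/-!
# Cluster G (S36), Step 2 (horizontal), ABSTRACT  (helper60)

`F / K` with a constant reduction `SP : ValSetup K F k FkP` whose residue field is the function
field of the curve `H_P : X₁ X₂ (X₁ - X₂)^(q-1) = c` over `k` (`H : HPCurve k FkP q`, helper48's
`Lib/HP/*`).  `F₁ ⊂ F` with two constant reductions `S₁`, `S₂` (the circle valuations `c_P¹`,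
`c_P²`), residue fields `E₁ = k(x₁)`, `E₂ = k(x₂)` (`x₁ ↦ X₁ = W`, `x₂ ↦ X₂ = Z`), and two norm
maps `N₁, N₂ : F → F₁` (`Norm_{π₁}`, `Norm_{π₂}`) with

* (N3)  `red_{S₁} (N₁ y / c') = Norm_{FkP / E₁} (red_P (y / c))`,
* (N3') `red_{S₂} (N₂ y / c') = Norm_{FkP / E₂} (red_P (y / c))`;
* inertia (`hI`): every `σ ∈ Gal(FkP / k(s))` (`s = X₂ / X₁`, the group `μ_{q+1}`) is induced by
  a semilinear automorphism `t` of `F` with `t g = a uⁿ g`;
* push (`hoff`): `n ∣ ord_v (red_P (g / c))` at the places `v` of `FkP` off the ends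
  (`v(s) = 0`, `v(s - 1) = 0`).

`step2_hor`: if `N₁ g`, `N₂ g` are, up to constants, `n`-th powers in the residue fields of `S₁`,
`S₂`, then `g ^ (q + 1)` is, up to a constant, an `n`-th power in `FkP`.
-/

noncomputable section

open AlgebraicCurve IntermediateField

namespace Fermat.Agent.S36G

open Fermat.Agent.Deuring Fermat.Agent.HP Fermat.Agent.S24Diff

variable {K F F₁ k FkP : Type*} [Field K] [Field F] [Algebra K F] [Field F₁] [Algebra K F₁]
  [Field k] [Field FkP] [Algebra k FkP] {q : ℕ}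

/-- the inertia hypothesis gives the invariance of the residue class. -/
theorem step2_inv (SP : ValSetup K F k FkP) (n : ℕ) (hn : n ≠ 0) {g : F} (hg : g ≠ 0)
    {c : K} (hc : c ≠ 0) (hy : SP.red (g / algebraMap K F c) ≠ 0) (σ : FkP →+* FkP)
    (t : F ≃+* F) (htK : ∀ c : K, ∃ c' : K, t (algebraMap K F c) = algebraMap K F c')
    (htred : ∀ f : F, SP.red f ≠ 0 → SP.red (t f) = σ (SP.red f))
    (htg : ∃ (u : F) (a : K), a ≠ 0 ∧ t g = algebraMap K F a * u ^ n * g) :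
    ∃ (c₀ : k) (u₀ : FkP), σ (SP.red (g / algebraMap K F c)) =
      algebraMap k FkP c₀ * u₀ ^ n * SP.red (g / algebraMap K F c) := by
  obtain ⟨u, a, ha, htg⟩ := htg
  obtain ⟨c'', hc''⟩ := htK c
  have hcF : algebraMap K F c ≠ 0 := sa_algebraMap_ne_zero hc
  have hc''0 : c'' ≠ 0 := by
    rintro rfl
    rw [map_zero] at hc''
    exact hcF ((map_eq_zero t.toRingHom).mp hc'')
  have hc''F : algebraMap K F c'' ≠ 0 := sa_algebraMap_ne_zero hc''0
  have htg0 : t g ≠ 0 := (map_ne_zero t.toRingHom).mpr hg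
  have hu : u ≠ 0 := by
    rintro rfl
    rw [zero_pow hn, mul_zero, zero_mul] at htg
    exact htg0 htg
  set y := SP.red (g / algebraMap K F c) with hydef
  have e1 : SP.red (t (g / algebraMap K F c)) = σ y := htred _ hy
  have hσy : σ y ≠ 0 := (map_ne_zero σ).mpr hy
  have e2 : t (g / algebraMap K F c) =
      algebraMap K F (a * c / c'') * u ^ n * (g / algebraMap K F c) := by
    rw [map_div₀, hc'', htg, map_div₀, map_mul]
    field_simp
  have hw : SP.red (algebraMap K F (a * c / c'') * u ^ n) = σ y / y := by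
    have hx : SP.red (t (g / algebraMap K F c)) ≠ 0 := by rw [e1]; exact hσy
    have := sa_red_div SP hx hy
    rw [e1] at this
    rw [← this]
    congr 1
    rw [e2]
    have hgne : g / algebraMap K F c ≠ 0 := div_ne_zero hg hcF
    exact (mul_div_cancel_right₀ _ hgne).symm
  have hconst : a * c / c'' ≠ 0 := div_ne_zero (mul_ne_zero ha hc) hc''0
  have hpr : IsPowRes SP n (algebraMap K F (a * c / c'') * u ^ n) :=
    isPowRes_of_constPow SP hconst hu rfl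
  have hne : SP.red (algebraMap K F (a * c / c'') * u ^ n / algebraMap K F (1 : K)) ≠ 0 := by
    rw [map_one, div_one, hw]
    exact div_ne_zero hσy hy
  have h := (isPowRes_iff_isCn SP one_ne_zero hne).mp hpr
  rw [map_one, div_one, hw] at h
  obtain ⟨c₀, -, u₀, -, h0⟩ := h
  refine ⟨c₀, u₀, ?_⟩
  rw [← h0, div_mul_cancel₀ _ hy]

/-- **Step 2 (horizontal), abstract.** -/
theorem step2_hor [IsAlgClosed k] (H : HPCurve k FkP q) (hq1 : ((q + 1 : ℕ) : k) ≠ 0)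
    (SP : ValSetup K F k FkP)
    {E₁ E₂ : Type*} [Field E₁] [Algebra k E₁] [Algebra E₁ FkP]
    [IsScalarTower k E₁ FkP] [FiniteDimensional E₁ FkP] [Algebra.IsSeparable E₁ FkP]
    [Field E₂] [Algebra k E₂] [Algebra E₂ FkP]
    [IsScalarTower k E₂ FkP] [FiniteDimensional E₂ FkP] [Algebra.IsSeparable E₂ FkP]
    {x₁ : E₁} (hE₁ : IsFunctionFieldOver k E₁ x₁) (hgen₁ : k⟮x₁⟯ = ⊤)
    (hx₁ : algebraMap E₁ FkP x₁ = H.X1)
    {x₂ : E₂} (hE₂ : IsFunctionFieldOver k E₂ x₂) (hgen₂ : k⟮x₂⟯ = ⊤)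
    (hx₂ : algebraMap E₂ FkP x₂ = H.X2)
    (S₁ : ValSetup K F₁ k E₁) (S₂ : ValSetup K F₁ k E₂) (N₁ N₂ : F → F₁)
    (n : ℕ) (hn : n ≠ 0)
    (hN3 : ∀ (y : F) (c : K), c ≠ 0 → SP.red (y / algebraMap K F c) ≠ 0 →
      ∃ c' : K, c' ≠ 0 ∧
        S₁.red (N₁ y / algebraMap K F₁ c') = Algebra.norm E₁ (SP.red (y / algebraMap K F c)))
    (hN3' : ∀ (y : F) (c : K), c ≠ 0 → SP.red (y / algebraMap K F c) ≠ 0 →
      ∃ c' : K, c' ≠ 0 ∧
        S₂.red (N₂ y / algebraMap K F₁ c') = Algebra.norm E₂ (SP.red (y / algebraMap K F c)))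
    {g : F} (hg : g ≠ 0)
    (hI : ∀ σ ∈ H.galK, ∃ t : F ≃+* F,
      (∀ c : K, ∃ c' : K, t (algebraMap K F c) = algebraMap K F c') ∧
      (∀ f : F, SP.red f ≠ 0 → SP.red (t f) = σ (SP.red f)) ∧
      ∃ (u : F) (a : K), a ≠ 0 ∧ t g = algebraMap K F a * u ^ n * g)
    (hoff : ∀ c : K, c ≠ 0 → SP.red (g / algebraMap K F c) ≠ 0 →
      ∀ v : Place k FkP, v.ord H.s = 0 → v.ord (H.s - algebraMap k FkP 1) = 0 →
        (n : ℤ) ∣ v.ord (SP.red (g / algebraMap K F c)))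
    (hNg₁ : IsPowRes S₁ n (N₁ g)) (hNg₂ : IsPowRes S₂ n (N₂ g)) :
    IsPowRes SP n (g ^ (q + 1)) := by
  obtain ⟨c, hc, hy⟩ := sa_exists_scale SP hg
  set y := SP.red (g / algebraMap K F c) with hydef
  -- invariance
  have hinv : ∀ σ ∈ H.galK, ∃ (c₀ : k) (u₀ : FkP),
      σ y = algebraMap k FkP c₀ * u₀ ^ n * y := by
    intro σ hσ
    obtain ⟨t, htK, htred, htg⟩ := hI σ hσ
    exact step2_inv SP n hn hg hc hy (σ : FkP →+* FkP) t htK
      (fun f hf => htred f hf) htg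
  -- the two norms
  obtain ⟨c₁', hc₁', hred₁⟩ := hN3 g c hc hy
  obtain ⟨c₂', hc₂', hred₂⟩ := hN3' g c hc hy
  have hnorm₁ : Algebra.norm E₁ y ≠ 0 := Algebra.norm_ne_zero_iff.mpr hy
  have hnorm₂ : Algebra.norm E₂ y ≠ 0 := Algebra.norm_ne_zero_iff.mpr hy
  have h1 : IsCn k n (Algebra.norm E₁ y) := by
    have hne : S₁.red (N₁ g / algebraMap K F₁ c₁') ≠ 0 := by rw [hred₁]; exact hnorm₁
    have := (isPowRes_iff_isCn S₁ hc₁' hne).mp hNg₁
    rwa [hred₁] at this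
  have h2 : IsCn k n (Algebra.norm E₂ y) := by
    have hne : S₂.red (N₂ g / algebraMap K F₁ c₂') ≠ 0 := by rw [hred₂]; exact hnorm₂
    have := (isPowRes_iff_isCn S₂ hc₂' hne).mp hNg₂
    rwa [hred₂] at this
  obtain ⟨d₁, -, u₁, -, hd₁⟩ := h1
  obtain ⟨d₂, -, u₂, -, hd₂⟩ := h2
  obtain ⟨c₀, u₀, hc₀, hu₀, hpow⟩ := H.pow_eq_of_norms hq1 hE₁ hgen₁ hx₁ hE₂ hgen₂ hx₂ n hy
    hinv (hoff c hc hy) d₁ d₂ u₁ u₂ hd₁ hd₂
  have hcn : IsCn k n (y ^ (q + 1)) := ⟨c₀, hc₀, u₀, hu₀, hpow⟩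
  have hred : SP.red (g ^ (q + 1) / algebraMap K F (c ^ (q + 1))) = y ^ (q + 1) := by
    rw [map_pow, ← div_pow, sa_red_pow SP hy]
  have hne : SP.red (g ^ (q + 1) / algebraMap K F (c ^ (q + 1))) ≠ 0 := by
    rw [hred]
    exact pow_ne_zero _ hy
  refine (isPowRes_iff_isCn SP (pow_ne_zero _ hc) hne).mpr ?_
  rw [hred]
  exact hcn

end Fermat.Agent.S36G
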