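import Mathlib
import Fermat.Agent.S36.G.Step2ModH
import Fermat.Agent.S36.G.Step2ModEnds

set_option autoImplicit false
set_option linter.unusedSectionVars false
set_option linter.unusedVariables false
set_option linter.style.haveILetI false
set_option synthInstance.maxHeartbeats 400000
set_option maxHeartbeats 1000000

/-!
# Cluster G (S36), Step 2 (horizontal): (ENDS) in the Sigma form and the WIRED `hhor`  (helper48)

On top of helper38's `s2mh_hor` (`S36/G/Step2ModH.lean`) and `s2me_isEnd`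
(`S36/G/Step2ModEnds.lean`):

* `step2_hends` : **(ENDS)** in the exact shape of the hypothesis `hends` of `s2mh_hor` /
  `hsm₂` of `step2_final`: for `E : ModEndsInput` with the SEED-UP shapes
  `red_P (ϖ1 / u1) = c (X₁ ^ 12)⁻¹`, `red_P u2 = c X₁ ^ 12` and every graph `N` whose second
  branches are the labelled ends of `E.toMatchInput` (`hN`, `rfl` for the seed graph), the
  branches of `N` on `H_P` are ends of `H_P`;
* `step2_endsRed1`, `step2_hends_of_red2` : the same from `EndsRed2` alone when `u2 = u1 / ϖ1`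
  (the shape of `modEndsOfLeaves`);
* `step2_hhor_ends`, `step2_hhor_red2` : **the hypothesis `hhor` of `step12_modular_one` /
  `step12_of_pack`**, with (ENDS) discharged: the inputs left are the outputs
  `O s : WPOut M₀ q A S0 (pt s) (FkP s)` of block W-P, `hS : N.S (hor s) = (O s).S`, `hsrc`, `hN`
  and the SEED-UP shape(s).
-/

noncomputable section

open AlgebraicCurve IntermediateField Fermat.Agent.RR Fermat.Agent.Deuring

namespace Fermat.Agent.S36G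

open ModularCurve Fermat.Agent.F3 Fermat.Agent.F3G Fermat.Agent.GaussInt
  Fermat.Agent.AtkinLehner Fermat.Agent.Kronecker Fermat.Agent.BadRed Fermat.Agent.BadRedG
  Fermat.Agent.HP

local notation "Qb" => AlgebraicClosure ℚ

section Ends

variable {K F k : Type} [Field K] [Field F] [Algebra K F] [Field k] [IsAlgClosed k]
  [Infinite k]
  {Mid SS : Type} [Fintype Mid] [Fintype SS]
  {Fk0 : Type} [Field Fk0] [Algebra k Fk0]
  {FkM : Mid → Type} [∀ m, Field (FkM m)] [∀ m, Algebra k (FkM m)]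
  {FkP : SS → Type} [∀ P, Field (FkP P)] [∀ P, Algebra k (FkP P)]
  {E : ModEndsInput K F k Mid SS Fk0 FkM FkP}
  {q : ℕ} {H : ∀ P : SS, HPCurve k (FkOf Fk0 FkM FkP (Vtx.hor P)) q}

/-- **(ENDS)**: the branches of the graph on `H_P` are ends of `H_P`. -/
theorem step2_hends
    (hx1 : EndsRed1 E.S H (algebraMap K F E.ϖ1 / E.u1))
    (hx2 : EndsRed2 E.S H E.u2)
    {N : GraphSetup K F k (Vtx Mid SS) (FkOf Fk0 FkM FkP) (Nod Mid SS)}
    (hN : ∀ i, (⟨N.tgt i, N.s₂ i⟩ : Σ c, Place k (FkOf Fk0 FkM FkP c)) = E.toMatchInput.ptH i)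
    (s : SS) (Q : Place k (FkOf Fk0 FkM FkP (Vtx.hor s))) (i : Nod Mid SS)
    (h : (⟨Vtx.hor s, Q⟩ : Σ c, Place k (FkOf Fk0 FkM FkP c)) = ⟨N.tgt i, N.s₂ i⟩) :
    (H s).IsEnd Q := by
  rw [hN i] at h
  refine s2me_isEnd E hx1 hx2 s Q ?_
  rw [h]
  obtain ⟨P, v⟩ := i
  cases v with
  | oo => exact Or.inl (E.toMatchInput.ptH_memA P)
  | zero => exact Or.inr (Or.inr (E.toMatchInput.ptH_mem2 P))
  | mid m => exact Or.inr (Or.inl (E.toMatchInput.ptH_memM P m))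

/-- `red_P (ϖ1 / u1) = c (X₁ ^ 12)⁻¹` from `red_P u2 = c X₁ ^ 12`, `u2 = u1 / ϖ1`. -/
theorem step2_endsRed1 (hu2 : E.u2 = E.u1 / algebraMap K F E.ϖ1)
    (hx2 : EndsRed2 E.S H E.u2) : EndsRed1 E.S H (algebraMap K F E.ϖ1 / E.u1) := by
  have h := hx2.inv
  rwa [hu2, inv_div] at h

/-- **(ENDS)** from `EndsRed2` alone (`u2 = u1 / ϖ1`). -/
theorem step2_hends_of_red2 (hu2 : E.u2 = E.u1 / algebraMap K F E.ϖ1)
    (hx2 : EndsRed2 E.S H E.u2)
    {N : GraphSetup K F k (Vtx Mid SS) (FkOf Fk0 FkM FkP) (Nod Mid SS)}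
    (hN : ∀ i, (⟨N.tgt i, N.s₂ i⟩ : Σ c, Place k (FkOf Fk0 FkM FkP c)) = E.toMatchInput.ptH i)
    (s : SS) (Q : Place k (FkOf Fk0 FkM FkP (Vtx.hor s))) (i : Nod Mid SS)
    (h : (⟨Vtx.hor s, Q⟩ : Σ c, Place k (FkOf Fk0 FkM FkP c)) = ⟨N.tgt i, N.s₂ i⟩) :
    (H s).IsEnd Q :=
  step2_hends (step2_endsRed1 hu2 hx2) hx2 hN s Q i h

end Ends

section Final

variable {M₀ q : ℕ} [NeZero M₀] [NeZero q] {A : ValuationSubring Qb}
  {S0 : Fermat.Agent.S18Key.RedSetup Qb (FBar M₀) (IsLocalRing.ResidueField A)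
    ↥(modularFunctionFieldFullC (IsLocalRing.ResidueField A) M₀)}
  {Mid SS : Type} [Fintype Mid] [Fintype SS]
  {Fk0 : Type} [Field Fk0] [Algebra (IsLocalRing.ResidueField A) Fk0]
  {FkM : Mid → Type} [∀ m, Field (FkM m)] [∀ m, Algebra (IsLocalRing.ResidueField A) (FkM m)]
  {FkP : SS → Type} [∀ P, Field (FkP P)] [∀ P, Algebra (IsLocalRing.ResidueField A) (FkP P)]

/-- **Step 2: the hypothesis `hhor` of `step12_modular_one`**, for a graph whose second branches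
are the labelled ends of `E.toMatchInput`. -/
theorem step2_hhor_ends (hq : q.Prime) (hqM : ¬ q ∣ M₀) (hA : A.LiesOverPrime q)
    (hS0 : IsGaussRed M₀ A S0) [Infinite (IsLocalRing.ResidueField A)]
    (E : ModEndsInput Qb (FBar (M₀ * q * q)) (IsLocalRing.ResidueField A) Mid SS Fk0 FkM FkP)
    (N : GraphSetup Qb (FBar (M₀ * q * q)) (IsLocalRing.ResidueField A) (Vtx Mid SS)
      (FkOf Fk0 FkM FkP) (Nod Mid SS))
    (hsrc : ∀ i, N.src i = nodSrc i)
    (hN : ∀ i, (⟨N.tgt i, N.s₂ i⟩ :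
      Σ c, Place (IsLocalRing.ResidueField A) (FkOf Fk0 FkM FkP c)) = E.toMatchInput.ptH i)
    (pt : SS → Place (IsLocalRing.ResidueField A)
      ↥(modularFunctionFieldFullC (IsLocalRing.ResidueField A) M₀))
    (O : ∀ s : SS, WPOut M₀ q A S0 (pt s) (FkP s))
    (hS : ∀ s : SS, N.S (Vtx.hor s) = (O s).S)
    (hx1 : EndsRed1 E.S (fun s => (O s).H) (algebraMap Qb (FBar (M₀ * q * q)) E.ϖ1 / E.u1))
    (hx2 : EndsRed2 E.S (fun s => (O s).H) E.u2)
    {n : ℕ} (hn : n ≠ 0) (D₀ : ALData) (hM₀ : M₀ * q * q = D₀.Q * D₀.R) (hD₀ : D₀.Q = q ^ 2) :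
    ∀ g : FBar (M₀ * q * q), g ≠ 0 →
      (∀ v : Place Qb (FBar (M₀ * q * q)), (n : ℤ) ∣ v.ord g) →
      InertiaFixedFun (M₀ * q * q) A n g →
      IsCPow n (normAlong (heckeAlphaBar Qb (M₀ * q) q) g) →
      IsCPow n (normAlong (heckeAlphaBar Qb (M₀ * q) q) (wAt D₀ hM₀ g)) →
      ∀ P : SS, N.IsPowAt n (Vtx.hor P) (g ^ (q + 1)) := by
  haveI := Fermat.Agent.FrobTrace.isAlgClosed_residueField A
  exact s2mh_hor (Fk := FkOf Fk0 FkM FkP) hq hqM hA hS0 N hsrc pt O hS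
    (fun s Q i h => step2_hends (H := fun s => (O s).H) hx1 hx2 hN s Q i h) n hn D₀ hM₀ hD₀

/-- **Step 2: `hhor`** from `EndsRed2` alone (`u2 = u1 / ϖ1`, the shape of `modEndsOfLeaves`). -/
theorem step2_hhor_red2 (hq : q.Prime) (hqM : ¬ q ∣ M₀) (hA : A.LiesOverPrime q)
    (hS0 : IsGaussRed M₀ A S0) [Infinite (IsLocalRing.ResidueField A)]
    (E : ModEndsInput Qb (FBar (M₀ * q * q)) (IsLocalRing.ResidueField A) Mid SS Fk0 FkM FkP)
    (N : GraphSetup Qb (FBar (M₀ * q * q)) (IsLocalRing.ResidueField A) (Vtx Mid SS)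
      (FkOf Fk0 FkM FkP) (Nod Mid SS))
    (hsrc : ∀ i, N.src i = nodSrc i)
    (hN : ∀ i, (⟨N.tgt i, N.s₂ i⟩ :
      Σ c, Place (IsLocalRing.ResidueField A) (FkOf Fk0 FkM FkP c)) = E.toMatchInput.ptH i)
    (pt : SS → Place (IsLocalRing.ResidueField A)
      ↥(modularFunctionFieldFullC (IsLocalRing.ResidueField A) M₀))
    (O : ∀ s : SS, WPOut M₀ q A S0 (pt s) (FkP s))
    (hS : ∀ s : SS, N.S (Vtx.hor s) = (O s).S)
    (hu2 : E.u2 = E.u1 / algebraMap Qb (FBar (M₀ * q * q)) E.ϖ1)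
    (hx2 : EndsRed2 E.S (fun s => (O s).H) E.u2)
    {n : ℕ} (hn : n ≠ 0) (D₀ : ALData) (hM₀ : M₀ * q * q = D₀.Q * D₀.R) (hD₀ : D₀.Q = q ^ 2) :
    ∀ g : FBar (M₀ * q * q), g ≠ 0 →
      (∀ v : Place Qb (FBar (M₀ * q * q)), (n : ℤ) ∣ v.ord g) →
      InertiaFixedFun (M₀ * q * q) A n g →
      IsCPow n (normAlong (heckeAlphaBar Qb (M₀ * q) q) g) →
      IsCPow n (normAlong (heckeAlphaBar Qb (M₀ * q) q) (wAt D₀ hM₀ g)) →
      ∀ P : SS, N.IsPowAt n (Vtx.hor P) (g ^ (q + 1)) := by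
  haveI := Fermat.Agent.FrobTrace.isAlgClosed_residueField A
  exact step2_hhor_ends hq hqM hA hS0 E N hsrc hN pt O hS
    (step2_endsRed1 (H := fun s => (O s).H) hu2 hx2) hx2 hn D₀ hM₀ hD₀

end Final

end Fermat.Agent.S36G
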