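import Mathlib
import Fermat.Agent.S36.G.Step2Final
import Fermat.Agent.S36.G.Defs

set_option autoImplicit false
set_option linter.unusedSectionVars false
set_option linter.unusedVariables false
set_option linter.style.haveILetI false

/-!
# Cluster G (S36), Step 2 (horizontal): the MODULAR statement  (helper48)

`step2_modular`: for a graph package `N` on `F = FBar (N₁ * q)` with vertices `Vtx Mid SS`, a
supersingular point `s` and a function `g` as in `CoreFunAt` (`S36/G/Defs.lean`):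
`N.IsPowAt n (Vtx.hor s) (g ^ (q + 1))`.

Modular inputs (hypotheses; producers in brackets):

* (H)     `H : HPCurve k (Fk (hor s)) q`, `char k = q`                        [W-P: `WPOut.H`]
* (ENDS)  the branches of `N` on `hor s` are ends of `H`                      [MG-INST]
* (E1), (R1), (N3)  `E₁ = k(x₁)`, `x₁ ↦ X₁`; the reductions of the functions of level `N₁` lie in
  `E₁`; `red (α (N_α t)) = N_{Fk/E₁} (red t)`                                 [NORM-HOR]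
* (SWAP)  `w_{q²}` stabilises `O_s` and induces `σw`, `σw X₂ = X₁`            [W-P: Swap.lean]
* (inv)   the conclusion of `wpi_inv_galK`                                    [INERT-MOD]
-/

noncomputable section

open AlgebraicCurve IntermediateField Fermat.Agent.RR Fermat.Agent.Deuring

namespace Fermat.Agent.S36G

open ModularCurve Fermat.Agent.F3 Fermat.Agent.F3G Fermat.Agent.GaussInt
  Fermat.Agent.AtkinLehner Fermat.Agent.Kronecker Fermat.Agent.F3I2 Fermat.Agent.F3Deg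
  Fermat.Agent.F3DegW Fermat.Agent.BadRed Fermat.Agent.BadRedG Fermat.Agent.HP

local notation "Qb" => AlgebraicClosure ℚ

variable {k : Type*} [Field k] {Mid SS : Type}
  {Fk : Vtx Mid SS → Type*} [∀ c, Field (Fk c)] [∀ c, Algebra k (Fk c)]

/-- **Step 2 (horizontal), modular statement.** -/
theorem step2_modular (N₁ q : ℕ) [NeZero N₁] [NeZero q] (P : ValuationSubring Qb) (n : ℕ)
    (hn : n ≠ 0)
    (N : GraphSetup Qb (FBar (N₁ * q)) k (Vtx Mid SS) Fk (Nod Mid SS))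
    (hsrc : ∀ i, N.src i = nodSrc i) (s : SS)
    (H : HPCurve k (Fk (Vtx.hor s)) q) [IsAlgClosed k] (hq0 : ((q : ℕ) : k) = 0)
    (hends : ∀ (Q : Place k (Fk (Vtx.hor s))) (i : Nod Mid SS),
      (⟨Vtx.hor s, Q⟩ : Σ c, Place k (Fk c)) = ⟨N.tgt i, N.s₂ i⟩ → H.IsEnd Q)
    {E₁ : Type*} [Field E₁] [Algebra k E₁] [Algebra E₁ (Fk (Vtx.hor s))]
    [IsScalarTower k E₁ (Fk (Vtx.hor s))]
    {x₁ : E₁} (hgen₁ : k⟮x₁⟯ = ⊤) (hx₁ : algebraMap E₁ (Fk (Vtx.hor s)) x₁ = H.X1)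
    (hres : ∀ y : FBar N₁, heckeAlphaBar Qb N₁ q y ∈ (N.S (Vtx.hor s)).Ov →
      ∃ z : E₁, (N.S (Vtx.hor s)).red (heckeAlphaBar Qb N₁ q y) =
        algebraMap E₁ (Fk (Vtx.hor s)) z)
    (hnorm : ∀ t : FBar (N₁ * q), t ∈ (N.S (Vtx.hor s)).Ov → t⁻¹ ∈ (N.S (Vtx.hor s)).Ov →
      (N.S (Vtx.hor s)).red (heckeAlphaBar Qb N₁ q (normAlong (heckeAlphaBar Qb N₁ q) t)) =
        algebraMap E₁ (Fk (Vtx.hor s)) (Algebra.norm E₁ ((N.S (Vtx.hor s)).red t)))
    (D : ALData) (hM : N₁ * q = D.Q * D.R)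
    (σw : Fk (Vtx.hor s) ≃ₐ[k] Fk (Vtx.hor s)) (hσw : σw H.X2 = H.X1)
    (hw : ∀ f : FBar (N₁ * q), f ∈ (N.S (Vtx.hor s)).Ov →
      wAt D hM f ∈ (N.S (Vtx.hor s)).Ov ∧
        (N.S (Vtx.hor s)).red (wAt D hM f) = σw ((N.S (Vtx.hor s)).red f))
    {g : FBar (N₁ * q)} (hg : g ≠ 0)
    (hdvd : ∀ v : Place Qb (FBar (N₁ * q)), (n : ℤ) ∣ v.ord g)
    (hinv : ∀ (f : FBar (N₁ * q)) (a : Qb), f ∈ (N.S (Vtx.hor s)).Ov →
      f⁻¹ ∈ (N.S (Vtx.hor s)).Ov → g = algebraMap Qb (FBar (N₁ * q)) a * f →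
      ∀ σ ∈ H.galK, ∃ (b : k) (v : Fk (Vtx.hor s)),
        σ ((N.S (Vtx.hor s)).red f) =
          algebraMap k (Fk (Vtx.hor s)) b * v ^ n * (N.S (Vtx.hor s)).red f)
    (h1 : IsCPow n (normAlong (heckeAlphaBar Qb N₁ q) g))
    (h2 : IsCPow n (normAlong (heckeAlphaBar Qb N₁ q) (wAt D hM g))) :
    N.IsPowAt n (Vtx.hor s) (g ^ (q + 1)) := by
  refine step2_final N (Vtx.hor s) H hq0 ?_ hends (heckeAlphaBar Qb N₁ q) hgen₁ hx₁ hres hnorm
    (wAt D hM) σw hσw hw n hn hg hdvd hinv h1 h2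
  intro Q i h
  exfalso
  have h1 : (Vtx.hor s : Vtx Mid SS) = N.src i := congrArg Sigma.fst h
  rw [hsrc i] at h1
  cases h1

end Fermat.Agent.S36G
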